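import Mathlib
import Fermat.Agent.G.Red.Val
import Fermat.Agent.FF.KMField

/-!
# Program TT (S33), package G/Red₂ : (R-in) = INTO, abstract local part (prefix `ttri`)

Owner: helper23.  Namespace `Fermat.Agent.TT`.

`F / K` a function field, `O2 ⊂ F` a subring (the two-valuation Gauss ring `V₁ ⊓ V₂`),
`B ⊂ O2` a chart ring (the elements of `F` integral over `𝔸[u]`), `red : O2 →+* Fk` one of the two
reductions, `Q` a place of `Fk / k`, `cen v` the predicate "the place `v` of `F / K` is centred at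
the closed point of `B` defined by `Q`".

* `ttri_loc`    : **(LOC)** `x ∈ O2` without pole at the places centred at the closed point `𝔫`
  of `B` is a fraction `b / s`, `b ∈ B`, `s ∈ B ∖ 𝔫` (from saturation `O2 ∩ {regular where u is}
  = B` and separation of the other centres by elements of `B ∖ 𝔫`);
* `ttri_ord_ge` : **(POLE)** at a one-branch point `Q` : if `x ∈ O2` has poles bounded by `D` in
  the residue disc of `Q`, at most one forced simple zero there, then
  `- Σ_{v centred at Q} D v ≤ ord_Q (red x)`;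
* `ttri_glue`   : **(GLUE)** at a two-branch point `(Q₁, Q₂)` : `x ∈ O2` without pole centred there
  has equal values `(red₁ x)(Q₁) = (red₂ x)(Q₂)`.
-/

set_option autoImplicit false
set_option linter.unusedSectionVars false
set_option linter.unusedVariables false

noncomputable section

namespace Fermat.Agent.TT

open AlgebraicCurve IsLocalRing Fermat.Agent.G Fermat.Agent.S24 Fermat.Agent.FF

section Loc

variable {K F : Type*} [Field K] [Field F] [Algebra K F]

/-- membership in the maximal ideal of a place, for a non-zero element, is `0 < ord`. -/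
theorem ttri_mem_nonunits_iff (v : Place K F) {x : F} (hx : x ≠ 0) :
    x ∈ v.toValuationSubring.nonunits ↔ 0 < v.ord x := by
  rw [← grdg_val_zero_iff, grdg_val_zero_iff_ord v hx]

/-- the poles of a function are finite in number. -/
theorem ttri_finite_poles [HasPrincipalDivisors K F] (x : F) :
    {v : Place K F | x ∉ v.toValuationSubring}.Finite := by
  rcases eq_or_ne x 0 with rfl | hx
  · convert Set.finite_empty
    ext v
    simp [zero_mem]
  · obtain ⟨D, hD, -⟩ := HasPrincipalDivisors.exists_divisor (K := K) x hx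
    refine D.support.finite_toSet.subset fun v hv => ?_
    simp only [Set.mem_ofPred_eq] at hv
    simp only [Finset.mem_coe, Finsupp.mem_support_iff, hD v]
    intro h0
    exact hv (PlaceOrd.mem_of_ord_nonneg v (by omega))

/-- a non-zero element of the maximal ideal of a place kills every pole after a power. -/
theorem ttri_pow_mul_mem (v : Place K F) {s : F} (hs : s ∈ v.toValuationSubring.nonunits)
    (hs0 : s ≠ 0) (x : F) : ∃ n : ℕ, s ^ n * x ∈ v.toValuationSubring := by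
  rcases eq_or_ne x 0 with rfl | hx
  · exact ⟨0, by simp [zero_mem]⟩
  refine ⟨(-v.ord x).toNat, PlaceOrd.mem_of_ord_nonneg v ?_⟩
  have h1 : 0 < v.ord s := (ttri_mem_nonunits_iff v hs0).1 hs
  have h2 : v.ord (s ^ (-v.ord x).toNat) = ((-v.ord x).toNat : ℤ) * v.ord s := by
    rw [← zpow_natCast, v.ord_zpow]
  rw [v.ord_mul (pow_ne_zero _ hs0) hx, h2]
  have h3 : (0 : ℤ) ≤ ((-v.ord x).toNat : ℤ) := Int.natCast_nonneg _
  have h4 : -v.ord x ≤ ((-v.ord x).toNat : ℤ) := Int.self_le_toNat _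
  nlinarith

/-- **(LOC), inductive form.** -/
theorem ttri_loc_aux (B O2 : Subring F) (hBO : B ≤ O2) (u : F)
    (hBreg : ∀ b ∈ B, ∀ v : Place K F, u ∈ v.toValuationSubring → b ∈ v.toValuationSubring)
    (hsat : ∀ x ∈ O2, (∀ v : Place K F, u ∈ v.toValuationSubring → x ∈ v.toValuationSubring) →
      x ∈ B)
    (S : Submonoid B) (hS0 : (0 : B) ∉ S) (cen : Place K F → Prop)
    (hcu : ∀ v : Place K F, cen v → u ∈ v.toValuationSubring)
    (hsep : ∀ v : Place K F, ¬ cen v → u ∈ v.toValuationSubring →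
      ∃ s : B, s ∈ S ∧ (s : F) ∈ v.toValuationSubring.nonunits)
    (T : Finset (Place K F)) :
    ∀ x ∈ O2, (∀ v : Place K F, u ∈ v.toValuationSubring → x ∉ v.toValuationSubring → v ∈ T) →
      (∀ v, cen v → x ∈ v.toValuationSubring) → ∃ s : B, s ∈ S ∧ (s : F) * x ∈ B := by
  classical
  induction T using Finset.induction_on with
  | empty =>
    intro x hx hT _
    refine ⟨1, S.one_mem, ?_⟩
    rw [Subring.coe_one, one_mul]
    refine hsat x hx fun v hv => ?_
    by_contra hxv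
    exact absurd (hT v hv hxv) (Finset.notMem_empty v)
  | insert w T hw ih =>
    intro x hx hT hcen
    by_cases hwu : u ∈ w.toValuationSubring ∧ x ∉ w.toValuationSubring
    · have hwc : ¬ cen w := fun h => hwu.2 (hcen w h)
      obtain ⟨s, hs𝔫, hsw⟩ := hsep w hwc hwu.1
      have hs0 : (s : F) ≠ 0 := by
        intro h0
        apply hS0
        have : s = 0 := Subtype.ext (by simpa using h0)
        rw [← this]
        exact hs𝔫
      obtain ⟨n, hn⟩ := ttri_pow_mul_mem w hsw hs0 x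
      have hx1 : (s : F) ^ n * x ∈ O2 := O2.mul_mem (O2.pow_mem (hBO s.2) n) hx
      obtain ⟨s', hs'𝔫, hs'⟩ := ih ((s : F) ^ n * x) hx1 (fun v hv hxv => by
        have hv' : x ∉ v.toValuationSubring := fun h =>
          hxv (v.toValuationSubring.mul_mem _ _
            (v.toValuationSubring.pow_mem (hBreg s s.2 v hv) n) h)
        rcases Finset.mem_insert.1 (hT v hv hv') with rfl | h
        · exact absurd hn hxv
        · exact h) (fun v hv =>
          v.toValuationSubring.mul_mem _ _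
            (v.toValuationSubring.pow_mem
              (hBreg s s.2 v (hcu v hv)) n) (hcen v hv))
      exact ⟨s' * s ^ n, S.mul_mem hs'𝔫 (S.pow_mem hs𝔫 n), by
        have : ((s' * s ^ n : B) : F) * x = (s' : F) * ((s : F) ^ n * x) := by
          push_cast; ring
        rw [this]; exact hs'⟩
    · refine ih x hx (fun v hv hxv => ?_) hcen
      rcases Finset.mem_insert.1 (hT v hv hxv) with rfl | h
      · exact absurd ⟨hv, hxv⟩ hwu
      · exact h

/-- **(LOC).**  `B ⊂ O2` subrings of `F`, `u ∈ F`; elements of `B` are regular wherever `u` is;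
SATURATION : an element of `O2` regular wherever `u` is lies in `B`; `S` a multiplicative subset
of `B` not containing `0` (the complement `B ∖ 𝔫` of a prime), `cen` a set of places (those
centred at `𝔫`) at which `u` is regular; SEPARATION : every other place at which `u` is regular
is a zero of some `s ∈ S`.  Then every `x ∈ O2` without pole at the places centred at `𝔫` is a
fraction `b / s` with `b ∈ B`, `s ∈ S`. -/
theorem ttri_loc [HasPrincipalDivisors K F] (B O2 : Subring F) (hBO : B ≤ O2) (u : F)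
    (hBreg : ∀ b ∈ B, ∀ v : Place K F, u ∈ v.toValuationSubring → b ∈ v.toValuationSubring)
    (hsat : ∀ x ∈ O2, (∀ v : Place K F, u ∈ v.toValuationSubring → x ∈ v.toValuationSubring) →
      x ∈ B)
    (S : Submonoid B) (hS0 : (0 : B) ∉ S) (cen : Place K F → Prop)
    (hcu : ∀ v : Place K F, cen v → u ∈ v.toValuationSubring)
    (hsep : ∀ v : Place K F, ¬ cen v → u ∈ v.toValuationSubring →
      ∃ s : B, s ∈ S ∧ (s : F) ∈ v.toValuationSubring.nonunits)
    {x : F} (hx : x ∈ O2) (hcen : ∀ v, cen v → x ∈ v.toValuationSubring) :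
    ∃ s : B, s ∈ S ∧ (s : F) * x ∈ B :=
  ttri_loc_aux B O2 hBO u hBreg hsat S hS0 cen hcu hsep
    (ttri_finite_poles (K := K) x).toFinset x hx
    (fun v _ hxv => by simpa using hxv) hcen

/-- the order of a finite product of non-zero functions. -/
theorem ttri_ord_prod (v : Place K F) {α : Type*} (S : Finset α) (f : α → F)
    (hf : ∀ a ∈ S, f a ≠ 0) : v.ord (∏ a ∈ S, f a) = ∑ a ∈ S, v.ord (f a) := by
  classical
  induction S using Finset.induction_on with
  | empty => simp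
  | insert a S ha ih =>
    rw [Finset.prod_insert ha, Finset.sum_insert ha,
      v.ord_mul (hf a (Finset.mem_insert_self a S))
        (Finset.prod_ne_zero_iff.2 fun b hb => hf b (Finset.mem_insert_of_mem hb)),
      ih fun b hb => hf b (Finset.mem_insert_of_mem hb)]

theorem ttri_ord_pow (v : Place K F) (f : F) (n : ℕ) : v.ord (f ^ n) = (n : ℤ) * v.ord f := by
  rw [← zpow_natCast, v.ord_zpow]

/-- a regular function with a non-zero value has order zero. -/
theorem ttri_ord_eq_zero (v : Place K F) {f : F} (hf : f ∈ v.toValuationSubring)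
    (hv : ¬ GrdVal v f 0) : v.ord f = 0 := by
  have hf0 : f ≠ 0 := by
    rintro rfl
    exact hv ((grdg_val_zero_iff v 0).2 (zero_mem _))
  have h1 := PlaceOrd.ord_nonneg_of_mem v hf
  have h2 : ¬ 0 < v.ord f := fun h => hv ((grdg_val_zero_iff_ord v hf0).2 h)
  omega

theorem ttri_val_sub (P : Place K F) {x y : F} {a b : K} (hx : GrdVal P x a) (hy : GrdVal P y b) :
    GrdVal P (x - y) (a - b) := by
  rw [sub_eq_add_neg, sub_eq_add_neg]
  exact grdg_val_add P hx (grdg_val_neg P hy)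

/-- division of values : `g f = y`, `g(P) = b ≠ 0`, `y(P) = a`  ⟹  `f(P) = a / b`. -/
theorem ttri_val_div (P : Place K F) {f g y : F} {a b : K} (hg : GrdVal P g b) (hb : b ≠ 0)
    (hy : GrdVal P y a) (h : g * f = y) : GrdVal P f (a / b) := by
  have hg0 : ¬ GrdVal P g 0 := fun h0 => hb (grdg_val_unique P hg h0)
  have hgm : g ∈ P.toValuationSubring := grdg_val_mem P hg
  have hgord : P.ord g = 0 := ttri_ord_eq_zero P hgm hg0
  have hgne : g ≠ 0 := by
    rintro rfl
    exact hg0 ((grdg_val_zero_iff P 0).2 (zero_mem _))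
  have hginv : g⁻¹ ∈ P.toValuationSubring :=
    PlaceOrd.mem_of_ord_nonneg P (by rw [P.ord_inv, hgord]; simp)
  -- `y - (a/b) g` has value `0`
  have h1 : GrdVal P (y - algebraMap K F (a / b) * g) (a - a / b * b) :=
    ttri_val_sub P hy (grdg_val_mul P (grdg_val_algebraMap P (a / b)) hg)
  have h2 : a - a / b * b = 0 := by field_simp; ring
  rw [h2, grdg_val_zero_iff] at h1
  have h3 : f - algebraMap K F (a / b) = g⁻¹ * (y - algebraMap K F (a / b) * g) := by
    rw [← h]; field_simp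
  show f - algebraMap K F (a / b) ∈ _
  rw [h3, ValuationSubring.mem_nonunits_iff, map_mul]
  have h4 : P.toValuationSubring.valuation g⁻¹ ≤ 1 :=
    (P.toValuationSubring.valuation_le_one_iff _).2 hginv
  calc _ ≤ 1 * P.toValuationSubring.valuation (y - algebraMap K F (a / b) * g) := by gcongr
    _ < 1 := by rw [one_mul]; exact (ValuationSubring.mem_nonunits_iff _).1 h1

end Loc

section Pole

variable {K F : Type*} [Field K] [Field F] [Algebra K F] (A : ValuationSubring K)
  {Fk : Type*} [Field Fk] [Algebra (ResidueField A) Fk]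

/-- **the local package at a one-branch closed point `Q` of the chart `B`** (inputs of (POLE)) :
* `loc`  = (LOC) at the closed point `𝔫_Q = {b ∈ B | (red b)(Q) = 0}` (`ttri_loc`);
* `reg`  : `red B ⊂ 𝒪_Q`;
* `val`  = value compatibility on `B` at the places centred at `𝔫_Q` ((B2) of layer B);
* `const`, `red_const` : constants;
* `unif` : `red B` contains a uniformiser at `Q`. -/
structure TtriPt (O2 B : Subring F) (hBO : B ≤ O2) (red : O2 →+* Fk)
    (cen : Place K F → Prop) (Q : Place (ResidueField A) Fk) : Prop where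
  loc : ∀ x ∈ O2, (∀ v, cen v → x ∈ v.toValuationSubring) →
    ∃ s : B, ¬ GrdVal Q (red ⟨s, hBO s.2⟩) 0 ∧ (s : F) * x ∈ B
  reg : ∀ b : B, red ⟨b, hBO b.2⟩ ∈ Q.toValuationSubring
  val : ∀ v, cen v → ∀ b : B, ∃ a : A, GrdVal v (b : F) (a : K) ∧
    GrdVal Q (red ⟨b, hBO b.2⟩) (residue A a)
  const : ∀ a : A, algebraMap K F (a : K) ∈ B
  red_const : ∀ (a : A) (h : algebraMap K F (a : K) ∈ O2),
    red ⟨algebraMap K F (a : K), h⟩ = algebraMap (ResidueField A) Fk (residue A a)
  unif : ∃ t : B, Q.ord (red ⟨t, hBO t.2⟩) = 1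

variable {A} {O2 B : Subring F} {hBO : B ≤ O2} {red : O2 →+* Fk} {cen : Place K F → Prop}
  {Q : Place (ResidueField A) Fk}

/-- elements of `B` are regular at the places centred at the point. -/
theorem TtriPt.mem (h : TtriPt A O2 B hBO red cen Q) {v : Place K F} (hv : cen v) (b : B) :
    (b : F) ∈ v.toValuationSubring := by
  obtain ⟨a, ha, -⟩ := h.val v hv b
  exact grdg_val_mem v ha

/-- value compatibility, vanishing form. -/
theorem TtriPt.val_zero (h : TtriPt A O2 B hBO red cen Q) {v : Place K F} (hv : cen v) (b : B)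
    (hb : (b : F) ∈ v.toValuationSubring.nonunits) : GrdVal Q (red ⟨b, hBO b.2⟩) 0 := by
  obtain ⟨a, ha, ha'⟩ := h.val v hv b
  have h0 : (a : K) = 0 := grdg_val_unique v ha ((grdg_val_zero_iff v _).2 hb)
  have h1 : a = 0 := Subtype.ext h0
  rw [h1, map_zero] at ha'
  exact ha'

/-- a local parameter of `B` at the place `v`, reducing to a uniformiser at `Q`. -/
theorem TtriPt.exists_param (h : TtriPt A O2 B hBO red cen Q) {v : Place K F} (hv : cen v) :
    ∃ z : B, (z : F) ∈ v.toValuationSubring.nonunits ∧ Q.ord (red ⟨z, hBO z.2⟩) = 1 := by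
  obtain ⟨t, ht⟩ := h.unif
  obtain ⟨a, ha, ha'⟩ := h.val v hv t
  have ht0 : red ⟨t, hBO t.2⟩ ≠ 0 := by
    intro h0
    rw [h0, Place.ord_zero] at ht
    exact absurd ht (by norm_num)
  have h1 : GrdVal Q (red ⟨t, hBO t.2⟩) 0 := (grdg_val_zero_iff_ord Q ht0).2 (by omega)
  have h2 : residue A a = 0 := grdg_val_unique Q ha' h1
  refine ⟨⟨(t : F) - algebraMap K F (a : K), B.sub_mem t.2 (h.const a)⟩, ha, ?_⟩
  have h3 : (⟨(t : F) - algebraMap K F (a : K), hBO (B.sub_mem t.2 (h.const a))⟩ : O2) =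
      ⟨t, hBO t.2⟩ - ⟨algebraMap K F (a : K), hBO (h.const a)⟩ := rfl
  rw [h3, map_sub, h.red_const a, h2, map_zero, sub_zero]
  exact ht

theorem ttri_mul_mem_nonunits (v : Place K F) {a b : F} (ha : a ∈ v.toValuationSubring)
    (hb : b ∈ v.toValuationSubring.nonunits) : a * b ∈ v.toValuationSubring.nonunits := by
  rw [ValuationSubring.mem_nonunits_iff, map_mul]
  have h4 : v.toValuationSubring.valuation a ≤ 1 :=
    (v.toValuationSubring.valuation_le_one_iff _).2 ha
  calc _ ≤ 1 * v.toValuationSubring.valuation b := by gcongr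
    _ < 1 := by rw [one_mul]; exact (ValuationSubring.mem_nonunits_iff _).1 hb

/-- **(POLE).**  At a one-branch closed point `Q` : let `x ∈ O2`, `red x ≠ 0`, and let `D` be a
divisor of `F / K` bounding `x` from below on the residue disc of `Q` (`- D v ≤ ord_v x` for the
places `v` centred at the point), with at most ONE forced zero in the disc, a simple one.  Then
`- Σ_{v ∈ supp D centred at Q} D v ≤ ord_Q (red x)`. -/
theorem TtriPt.ord_ge (h : TtriPt A O2 B hBO red cen Q) [DecidablePred cen] {x : F}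
    (hx : x ∈ O2) (hx0 : x ≠ 0) (hred : red ⟨x, hx⟩ ≠ 0) (D : Divisor K F)
    (hD : ∀ v, cen v → -D v ≤ v.ord x) (hneg : ∀ v, cen v → -1 ≤ D v)
    (hneg1 : ∀ v w, cen v → cen w → D v < 0 → D w < 0 → v = w) :
    -(∑ v ∈ D.support.filter cen, D v) ≤ Q.ord (red ⟨x, hx⟩) := by
  classical
  set T := D.support.filter cen with hT
  set Sp := T.filter (fun v => 0 < D v) with hSp
  have hTcen : ∀ v ∈ T, cen v := fun v hv => (Finset.mem_filter.1 hv).2
  have hSpcen : ∀ v ∈ Sp, cen v := fun v hv => hTcen v (Finset.mem_filter.1 hv).1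
  have hSppos : ∀ v ∈ Sp, 0 < D v := fun v hv => (Finset.mem_filter.1 hv).2
  let ρ : B →+* Fk := red.comp (Subring.inclusion hBO)
  have hρ : ∀ b : B, ρ b = red ⟨b, hBO b.2⟩ := fun b => rfl
  -- local parameters
  have hz : ∀ v : Place K F, ∃ z : B, cen v →
      ((z : F) ∈ v.toValuationSubring.nonunits ∧ Q.ord (ρ z) = 1) := by
    intro v
    by_cases hv : cen v
    · obtain ⟨z, hz⟩ := h.exists_param hv
      exact ⟨z, fun _ => hz⟩
    · exact ⟨0, fun h => absurd h hv⟩
  choose z hz using hz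
  have hzρ0 : ∀ v, cen v → ρ (z v) ≠ 0 := by
    intro v hv h0
    have := (hz v hv).2
    rw [h0, Place.ord_zero] at this
    exact absurd this (by norm_num)
  have hz0 : ∀ v, cen v → ((z v : B) : F) ≠ 0 := by
    intro v hv h0
    apply hzρ0 v hv
    have : z v = 0 := Subtype.ext (by simpa using h0)
    rw [this, map_zero]
  -- the multiplier
  set m : B := ∏ v ∈ Sp, z v ^ (D v).toNat with hm
  have hcen' : ∀ w, cen w → (m : F) * x ∈ w.toValuationSubring := by
    intro w hw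
    by_cases hDw : 0 < D w
    · have hwS : w ∈ Sp := by
        rw [hSp, Finset.mem_filter, hT, Finset.mem_filter, Finsupp.mem_support_iff]
        exact ⟨⟨by omega, hw⟩, hDw⟩
      have hmw : m = z w ^ (D w).toNat * ∏ v ∈ Sp.erase w, z v ^ (D v).toNat :=
        (Finset.mul_prod_erase Sp _ hwS).symm
      have h1 : ((z w : F) ^ (D w).toNat * x) ∈ w.toValuationSubring := by
        apply PlaceOrd.mem_of_ord_nonneg
        rw [w.ord_mul (pow_ne_zero _ (hz0 w hw)) hx0, ttri_ord_pow]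
        have h2 := (ttri_mem_nonunits_iff w (hz0 w hw)).1 (hz w hw).1
        have h3 := hD w hw
        have h4 : ((D w).toNat : ℤ) = D w := Int.toNat_of_nonneg hDw.le
        nlinarith
      have h2 : ((∏ v ∈ Sp.erase w, z v ^ (D v).toNat : B) : F) ∈ w.toValuationSubring :=
        h.mem hw _
      have h3 : (m : F) * x = ((z w : F) ^ (D w).toNat * x) *
          ((∏ v ∈ Sp.erase w, z v ^ (D v).toNat : B) : F) := by
        rw [hmw]; push_cast; ring
      rw [h3]
      exact w.toValuationSubring.mul_mem _ _ h1 h2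
    · have h1 : x ∈ w.toValuationSubring :=
        PlaceOrd.mem_of_ord_nonneg w (by have := hD w hw; omega)
      exact w.toValuationSubring.mul_mem _ _ (h.mem hw m) h1
  obtain ⟨s, hs, hy⟩ := h.loc ((m : F) * x) (O2.mul_mem (hBO m.2) hx) hcen'
  set y : B := ⟨(s : F) * ((m : F) * x), hy⟩ with hydef
  have hyred : ρ y = ρ s * (ρ m * red ⟨x, hx⟩) := by
    rw [hρ, hρ, hρ, ← map_mul, ← map_mul]
    rfl
  have hmred : ρ m = ∏ v ∈ Sp, ρ (z v) ^ (D v).toNat := by
    rw [hm, map_prod]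
    exact Finset.prod_congr rfl fun v _ => map_pow _ _ _
  have hs0 : ρ s ≠ 0 := by
    intro h0
    apply hs
    rw [← hρ, h0]
    exact (grdg_val_zero_iff Q 0).2 (zero_mem _)
  have hm0 : ρ m ≠ 0 := by
    rw [hmred]
    exact Finset.prod_ne_zero_iff.2 fun v hv => pow_ne_zero _ (hzρ0 v (hSpcen v hv))
  have hy0 : ρ y ≠ 0 := by
    rw [hyred]
    exact mul_ne_zero hs0 (mul_ne_zero hm0 hred)
  have hords : Q.ord (ρ s) = 0 := ttri_ord_eq_zero Q (h.reg s) hs
  have hordm : Q.ord (ρ m) = ∑ v ∈ Sp, D v := by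
    rw [hmred, ttri_ord_prod Q Sp _ fun v hv => pow_ne_zero _ (hzρ0 v (hSpcen v hv))]
    refine Finset.sum_congr rfl fun v hv => ?_
    rw [ttri_ord_pow, (hz v (hSpcen v hv)).2, mul_one]
    exact Int.toNat_of_nonneg (hSppos v hv).le
  have hordy : Q.ord (ρ y) = (∑ v ∈ Sp, D v) + Q.ord (red ⟨x, hx⟩) := by
    rw [hyred, Q.ord_mul hs0 (mul_ne_zero hm0 hred), Q.ord_mul hm0 hred, hords, hordm, zero_add]
  have hyreg : 0 ≤ Q.ord (ρ y) := PlaceOrd.ord_nonneg_of_mem Q (h.reg y)
  -- the sum over `T`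
  have hsum : ∑ v ∈ T, D v = (∑ v ∈ Sp, D v) + ∑ v ∈ T.filter (fun v => ¬ 0 < D v), D v :=
    (Finset.sum_filter_add_sum_filter_not T (fun v => 0 < D v) D).symm
  by_cases hE : T.filter (fun v => ¬ 0 < D v) = ∅
  · rw [hsum, hE, Finset.sum_empty, add_zero]
    omega
  · obtain ⟨v0, hv0⟩ := Finset.nonempty_iff_ne_empty.2 hE
    have hv0T : v0 ∈ T := (Finset.mem_filter.1 hv0).1
    have hv0c : cen v0 := hTcen v0 hv0T
    have hv0D : D v0 < 0 := by
      have h1 : D v0 ≠ 0 := Finsupp.mem_support_iff.1 (Finset.mem_filter.1 hv0T).1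
      have h2 := (Finset.mem_filter.1 hv0).2
      omega
    have hsingle : T.filter (fun v => ¬ 0 < D v) = {v0} := by
      ext w
      rw [Finset.mem_singleton]
      constructor
      · intro hw
        have hwT : w ∈ T := (Finset.mem_filter.1 hw).1
        have h1 : D w ≠ 0 := Finsupp.mem_support_iff.1 (Finset.mem_filter.1 hwT).1
        have h2 := (Finset.mem_filter.1 hw).2
        exact hneg1 w v0 (hTcen w hwT) hv0c (by omega) hv0D
      · rintro rfl
        exact hv0
    have hDv0 : D v0 = -1 := by have := hneg v0 hv0c; omega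
    rw [hsum, hsingle, Finset.sum_singleton, hDv0]
    -- `y` vanishes at `v0`
    have hxv0 : x ∈ v0.toValuationSubring.nonunits :=
      (ttri_mem_nonunits_iff v0 hx0).2 (by have := hD v0 hv0c; omega)
    have hyv0 : ((y : B) : F) ∈ v0.toValuationSubring.nonunits := by
      show (s : F) * ((m : F) * x) ∈ _
      exact ttri_mul_mem_nonunits v0 (h.mem hv0c s) (ttri_mul_mem_nonunits v0 (h.mem hv0c m) hxv0)
    have hyQ : 0 < Q.ord (ρ y) := (grdg_val_zero_iff_ord Q hy0).1 (h.val_zero hv0c y hyv0)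
    omega

/-- a value in `K` which reduces, through the division by a unit of `𝔸`, to a value in `𝔸`. -/
theorem ttri_div_mem (a b : A) (hb : residue A b ≠ 0) :
    ∃ c : A, (c : K) = (a : K) / (b : K) ∧ residue A c = residue A a / residue A b := by
  have hbu : IsUnit b := by
    by_contra h
    exact hb ((residue_eq_zero_iff b).2 ((mem_maximalIdeal b).2 h))
  obtain ⟨b', hb'⟩ := hbu.exists_right_inv
  have hb0 : (b : K) ≠ 0 := by
    intro h0
    have : b = 0 := Subtype.ext h0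
    rw [this, map_zero] at hb
    exact hb rfl
  have h1 : (b : K) * (b' : K) = 1 := by
    have := congrArg (Subtype.val) hb'
    simpa using this
  refine ⟨a * b', ?_, ?_⟩
  · push_cast
    field_simp
    rw [mul_assoc, mul_comm (b' : K), h1, mul_one]
  · have h2 : residue A b * residue A b' = 1 := by rw [← map_mul, hb', map_one]
    rw [map_mul, eq_div_iff hb, mul_assoc, mul_comm (residue A b'), h2, mul_one]

/-- **VALUE COMPATIBILITY on `O2`.**  `x ∈ O2` without pole on the residue disc of `Q` has, at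
every place `v` of the disc, a value `x(v) = α ∈ 𝔸`, and `(red x)(Q) = ᾱ`. -/
theorem TtriPt.val_ext (h : TtriPt A O2 B hBO red cen Q) {x : F} (hx : x ∈ O2)
    (hcen : ∀ v, cen v → x ∈ v.toValuationSubring) {v : Place K F} (hv : cen v) :
    ∃ a : A, GrdVal v x (a : K) ∧ GrdVal Q (red ⟨x, hx⟩) (residue A a) := by
  obtain ⟨s, hs, hy⟩ := h.loc x hx hcen
  obtain ⟨σ, hσ, hσ'⟩ := h.val v hv s
  obtain ⟨η, hη, hη'⟩ := h.val v hv ⟨(s : F) * x, hy⟩
  have hσ0 : residue A σ ≠ 0 := by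
    intro h0
    rw [h0] at hσ'
    exact hs hσ'
  have hσK : (σ : K) ≠ 0 := by
    intro h0
    have : σ = 0 := Subtype.ext h0
    rw [this, map_zero] at hσ0
    exact hσ0 rfl
  obtain ⟨c, hc, hc'⟩ := ttri_div_mem η σ hσ0
  refine ⟨c, ?_, ?_⟩
  · rw [hc]
    exact ttri_val_div v hσ hσK hη rfl
  · rw [hc']
    refine ttri_val_div Q hσ' hσ0 hη' ?_
    rw [← map_mul]
    rfl

/-- **(V).**  `x ∈ O2` without pole on the residue disc of `Q` whose reduction does not vanish at
`Q` has no zero on the disc. -/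
theorem TtriPt.ord_eq_zero_of_val (h : TtriPt A O2 B hBO red cen Q) {x : F} (hx : x ∈ O2)
    (hcen : ∀ v, cen v → x ∈ v.toValuationSubring) (hval : ¬ GrdVal Q (red ⟨x, hx⟩) 0)
    {v : Place K F} (hv : cen v) : v.ord x = 0 := by
  obtain ⟨a, ha, ha'⟩ := h.val_ext hx hcen hv
  refine ttri_ord_eq_zero v (hcen v hv) fun h0 => hval ?_
  have h1 : (a : K) = 0 := grdg_val_unique v ha h0
  have h2 : a = 0 := Subtype.ext h1
  rw [h2, map_zero] at ha'
  exact ha'

/-- regularity of the reduction : `x ∈ O2` without pole on the residue disc of `Q` has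
`red x ∈ 𝒪_Q` (no place in the disc is needed). -/
theorem TtriPt.red_mem (h : TtriPt A O2 B hBO red cen Q) {x : F} (hx : x ∈ O2)
    (hcen : ∀ v, cen v → x ∈ v.toValuationSubring) : red ⟨x, hx⟩ ∈ Q.toValuationSubring := by
  obtain ⟨s, hs, hy⟩ := h.loc x hx hcen
  have hsreg := h.reg s
  have hyreg := h.reg ⟨(s : F) * x, hy⟩
  have hmul : red ⟨s, hBO s.2⟩ * red ⟨x, hx⟩ = red ⟨(s : F) * x, hBO hy⟩ := by
    rw [← map_mul]
    rfl
  by_cases hx0 : red ⟨x, hx⟩ = 0
  · rw [hx0]
    exact zero_mem _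
  have hs0 : red ⟨s, hBO s.2⟩ ≠ 0 := by
    intro h0
    apply hs
    rw [h0]
    exact (grdg_val_zero_iff Q 0).2 (zero_mem _)
  apply PlaceOrd.mem_of_ord_nonneg
  have h1 : Q.ord (red ⟨s, hBO s.2⟩) = 0 := ttri_ord_eq_zero Q hsreg hs
  have h2 := PlaceOrd.ord_nonneg_of_mem Q hyreg
  rw [← hmul, Q.ord_mul hs0 hx0, h1, zero_add] at h2
  exact h2

/-- the order at `w` of a product of powers of local parameters `z v`, each of which vanishes
(simply) at `v` only. -/
theorem ttri_ord_prod_param (w : Place K F) (T : Finset (Place K F)) (z : Place K F → F)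
    (n : Place K F → ℕ) (hz0 : ∀ v ∈ T, z v ≠ 0) (hzw : ∀ v ∈ T, v ≠ w → w.ord (z v) = 0)
    (hww : w ∈ T → w.ord (z w) = 1) :
    (w ∈ T → w.ord (∏ v ∈ T, z v ^ n v) = (n w : ℤ)) ∧
      (w ∉ T → w.ord (∏ v ∈ T, z v ^ n v) = 0) := by
  classical
  rw [ttri_ord_prod w T _ fun v hv => pow_ne_zero _ (hz0 v hv)]
  have h1 : ∀ v ∈ T, w.ord (z v ^ n v) = if v = w then (n w : ℤ) else 0 := by
    intro v hv
    rw [ttri_ord_pow]
    by_cases hvw : v = w
    · subst hvw
      rw [hww hv, mul_one, if_pos rfl]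
    · rw [hzw v hv hvw, mul_zero, if_neg hvw]
  rw [Finset.sum_congr rfl h1, Finset.sum_ite_eq' T w]
  exact ⟨fun h => if_pos h, fun h => if_neg h⟩

/-- **(DIV) for units of `O2`.**  With (B3) : every place `v` of the residue disc of `Q` is the
ONLY zero in the disc, a simple one, of some `z ∈ B` which is a unit of `O2` and reduces to a
uniformiser at `Q`.  Then for `x ∈ O2ˣ` : `Σ_{v in the disc} ord_v x = ord_Q (red x)`. -/
theorem TtriPt.ord_eq_of_unit (h : TtriPt A O2 B hBO red cen Q) [DecidablePred cen]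
    (hsimple : ∀ v, cen v → ∃ z : B, v.ord (z : F) = 1 ∧
      (∀ w, cen w → w ≠ v → (z : F) ∉ w.toValuationSubring.nonunits) ∧
      Q.ord (red ⟨z, hBO z.2⟩) = 1 ∧ (z : F)⁻¹ ∈ O2)
    {x : F} (hx : x ∈ O2) (hxi : x⁻¹ ∈ O2) (hx0 : x ≠ 0) (D : Divisor K F)
    (hD : ∀ v, cen v → D v = v.ord x) :
    ∑ v ∈ D.support.filter cen, D v = Q.ord (red ⟨x, hx⟩) := by
  classical
  set T := D.support.filter cen with hT
  set Tp := T.filter (fun v => 0 < D v) with hTp
  set Tn := T.filter (fun v => ¬ 0 < D v) with hTn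
  have hTcen : ∀ v ∈ T, cen v := fun v hv => (Finset.mem_filter.1 hv).2
  let ρ : B →+* Fk := red.comp (Subring.inclusion hBO)
  have hρ : ∀ b : B, ρ b = red ⟨b, hBO b.2⟩ := fun b => rfl
  have hz : ∀ v : Place K F, ∃ z : B, cen v → (v.ord (z : F) = 1 ∧
      (∀ w, cen w → w ≠ v → (z : F) ∉ w.toValuationSubring.nonunits) ∧
      Q.ord (ρ z) = 1 ∧ (z : F)⁻¹ ∈ O2) := by
    intro v
    by_cases hv : cen v
    · obtain ⟨z, hz⟩ := hsimple v hv
      exact ⟨z, fun _ => hz⟩
    · exact ⟨0, fun h => absurd h hv⟩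
  choose z hz using hz
  have hz0 : ∀ v, cen v → ((z v : B) : F) ≠ 0 := by
    intro v hv h0
    have := (hz v hv).1
    rw [h0, Place.ord_zero] at this
    exact absurd this (by norm_num)
  have hzρ0 : ∀ v, cen v → ρ (z v) ≠ 0 := by
    intro v hv h0
    have := (hz v hv).2.2.1
    rw [h0, Place.ord_zero] at this
    exact absurd this (by norm_num)
  have hzw : ∀ v, cen v → ∀ w, cen w → v ≠ w → w.ord ((z v : B) : F) = 0 := by
    intro v hv w hw hvw
    have h1 : ((z v : B) : F) ∈ w.toValuationSubring := h.mem hw (z v)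
    have h2 := (hz v hv).2.1 w hw (Ne.symm hvw)
    have h3 := PlaceOrd.ord_nonneg_of_mem w h1
    have h4 : ¬ 0 < w.ord ((z v : B) : F) := fun hpos =>
      h2 ((ttri_mem_nonunits_iff w (hz0 v hv)).2 hpos)
    omega
  -- the two multipliers
  set mP : B := ∏ v ∈ Tp, z v ^ (D v).toNat with hmP
  set mN : B := ∏ v ∈ Tn, z v ^ (-D v).toNat with hmN
  have hTpcen : ∀ v ∈ Tp, cen v := fun v hv => hTcen v (Finset.mem_filter.1 hv).1
  have hTncen : ∀ v ∈ Tn, cen v := fun v hv => hTcen v (Finset.mem_filter.1 hv).1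
  have hmPF : ((mP : B) : F) = ∏ v ∈ Tp, ((z v : B) : F) ^ (D v).toNat := by
    rw [hmP]; push_cast; rfl
  have hmNF : ((mN : B) : F) = ∏ v ∈ Tn, ((z v : B) : F) ^ (-D v).toNat := by
    rw [hmN]; push_cast; rfl
  have hmP0 : ((mP : B) : F) ≠ 0 := by
    rw [hmPF]
    exact Finset.prod_ne_zero_iff.2 fun v hv => pow_ne_zero _ (hz0 v (hTpcen v hv))
  have hmN0 : ((mN : B) : F) ≠ 0 := by
    rw [hmNF]
    exact Finset.prod_ne_zero_iff.2 fun v hv => pow_ne_zero _ (hz0 v (hTncen v hv))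
  have hmPi : ((mP : B) : F)⁻¹ ∈ O2 := by
    rw [hmPF, ← Finset.prod_inv_distrib]
    refine Subring.prod_mem _ fun v hv => ?_
    rw [← inv_pow]
    exact O2.pow_mem (hz v (hTpcen v hv)).2.2.2 _
  have hmNi : ((mN : B) : F)⁻¹ ∈ O2 := by
    rw [hmNF, ← Finset.prod_inv_distrib]
    refine Subring.prod_mem _ fun v hv => ?_
    rw [← inv_pow]
    exact O2.pow_mem (hz v (hTncen v hv)).2.2.2 _
  -- orders of the multipliers at the places of the disc
  have hordP : ∀ w, cen w → w.ord ((mP : B) : F) = if w ∈ Tp then D w else 0 := by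
    intro w hw
    have hpp := ttri_ord_prod_param w Tp (fun v => ((z v : B) : F)) (fun v => (D v).toNat)
      (fun v hv => hz0 v (hTpcen v hv)) (fun v hv hvw => hzw v (hTpcen v hv) w hw hvw)
      (fun _ => (hz w hw).1)
    rw [hmPF]
    by_cases hwT : w ∈ Tp
    · rw [if_pos hwT, hpp.1 hwT]
      exact Int.toNat_of_nonneg (Finset.mem_filter.1 hwT).2.le
    · rw [if_neg hwT, hpp.2 hwT]
  have hordN : ∀ w, cen w → w.ord ((mN : B) : F) = if w ∈ Tn then -D w else 0 := by
    intro w hw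
    have hpp := ttri_ord_prod_param w Tn (fun v => ((z v : B) : F)) (fun v => (-D v).toNat)
      (fun v hv => hz0 v (hTncen v hv)) (fun v hv hvw => hzw v (hTncen v hv) w hw hvw)
      (fun _ => (hz w hw).1)
    rw [hmNF]
    by_cases hwT : w ∈ Tn
    · rw [if_pos hwT, hpp.1 hwT]
      have := (Finset.mem_filter.1 hwT).2
      exact Int.toNat_of_nonneg (by omega)
    · rw [if_neg hwT, hpp.2 hwT]
  -- the quotient
  set q : F := x * (mN : F) * ((mP : B) : F)⁻¹ with hq
  have hqO : q ∈ O2 := O2.mul_mem (O2.mul_mem hx (hBO mN.2)) hmPi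
  have hqinv : q⁻¹ = (mP : F) * x⁻¹ * ((mN : B) : F)⁻¹ := by
    rw [hq]; field_simp
  have hqiO : q⁻¹ ∈ O2 := by
    rw [hqinv]
    exact O2.mul_mem (O2.mul_mem (hBO mP.2) hxi) hmNi
  have hq0 : q ≠ 0 := mul_ne_zero (mul_ne_zero hx0 hmN0) (inv_ne_zero hmP0)
  have hqord : ∀ w, cen w → w.ord q = 0 := by
    intro w hw
    rw [hq, w.ord_mul (mul_ne_zero hx0 hmN0) (inv_ne_zero hmP0), w.ord_mul hx0 hmN0, w.ord_inv,
      hordP w hw, hordN w hw, ← hD w hw]
    by_cases hwT : w ∈ T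
    · by_cases hpos : 0 < D w
      · have h1 : w ∈ Tp := Finset.mem_filter.2 ⟨hwT, hpos⟩
        have h2 : w ∉ Tn := fun h2 => (Finset.mem_filter.1 h2).2 hpos
        rw [if_pos h1, if_neg h2]; ring
      · have h1 : w ∉ Tp := fun h1 => hpos (Finset.mem_filter.1 h1).2
        have h2 : w ∈ Tn := Finset.mem_filter.2 ⟨hwT, hpos⟩
        rw [if_neg h1, if_pos h2]; ring
    · have h1 : w ∉ Tp := fun h1 => hwT (Finset.mem_filter.1 h1).1
      have h2 : w ∉ Tn := fun h2 => hwT (Finset.mem_filter.1 h2).1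
      have h3 : D w = 0 := by
        by_contra hne
        exact hwT (Finset.mem_filter.2 ⟨Finsupp.mem_support_iff.2 hne, hw⟩)
      rw [if_neg h1, if_neg h2, h3]; ring
  have hqreg : red ⟨q, hqO⟩ ∈ Q.toValuationSubring :=
    h.red_mem hqO fun w hw => PlaceOrd.mem_of_ord_nonneg w (by rw [hqord w hw])
  have hqireg : red ⟨q⁻¹, hqiO⟩ ∈ Q.toValuationSubring :=
    h.red_mem hqiO fun w hw => PlaceOrd.mem_of_ord_nonneg w (by rw [w.ord_inv, hqord w hw]; simp)
  have hqq : red ⟨q, hqO⟩ * red ⟨q⁻¹, hqiO⟩ = 1 := by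
    rw [← map_mul]
    have : (⟨q, hqO⟩ : O2) * ⟨q⁻¹, hqiO⟩ = 1 := Subtype.ext (mul_inv_cancel₀ hq0)
    rw [this, map_one]
  have hrq0 : red ⟨q, hqO⟩ ≠ 0 := left_ne_zero_of_mul_eq_one hqq
  have hrqi0 : red ⟨q⁻¹, hqiO⟩ ≠ 0 := right_ne_zero_of_mul_eq_one hqq
  have hqQ : Q.ord (red ⟨q, hqO⟩) = 0 := by
    have h1 := PlaceOrd.ord_nonneg_of_mem Q hqreg
    have h2 := PlaceOrd.ord_nonneg_of_mem Q hqireg
    have h3 : Q.ord (red ⟨q, hqO⟩) + Q.ord (red ⟨q⁻¹, hqiO⟩) = 0 := by
      rw [← Q.ord_mul hrq0 hrqi0, hqq, Place.ord_one]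
    omega
  -- the relation `q * mP = x * mN` in `O2`
  have hrel : red ⟨q, hqO⟩ * ρ mP = red ⟨x, hx⟩ * ρ mN := by
    rw [hρ, hρ, ← map_mul, ← map_mul]
    congr 1
    apply Subtype.ext
    show q * (mP : F) = x * (mN : F)
    rw [hq]; field_simp
  have hrx0 : red ⟨x, hx⟩ ≠ 0 := by
    have h1 : red ⟨x, hx⟩ * red ⟨x⁻¹, hxi⟩ = 1 := by
      rw [← map_mul]
      have : (⟨x, hx⟩ : O2) * ⟨x⁻¹, hxi⟩ = 1 := Subtype.ext (mul_inv_cancel₀ hx0)
      rw [this, map_one]
    exact left_ne_zero_of_mul_eq_one h1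
  have hρmP : ρ mP = ∏ v ∈ Tp, ρ (z v) ^ (D v).toNat := by
    rw [hmP, map_prod]
    exact Finset.prod_congr rfl fun v _ => map_pow _ _ _
  have hρmN : ρ mN = ∏ v ∈ Tn, ρ (z v) ^ (-D v).toNat := by
    rw [hmN, map_prod]
    exact Finset.prod_congr rfl fun v _ => map_pow _ _ _
  have hρmP0 : ρ mP ≠ 0 := by
    rw [hρmP]
    exact Finset.prod_ne_zero_iff.2 fun v hv => pow_ne_zero _ (hzρ0 v (hTpcen v hv))
  have hρmN0 : ρ mN ≠ 0 := by
    rw [hρmN]
    exact Finset.prod_ne_zero_iff.2 fun v hv => pow_ne_zero _ (hzρ0 v (hTncen v hv))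
  have hordmP : Q.ord (ρ mP) = ∑ v ∈ Tp, D v := by
    rw [hρmP, ttri_ord_prod Q Tp _ fun v hv => pow_ne_zero _ (hzρ0 v (hTpcen v hv))]
    refine Finset.sum_congr rfl fun v hv => ?_
    rw [ttri_ord_pow, (hz v (hTpcen v hv)).2.2.1, mul_one]
    exact Int.toNat_of_nonneg (Finset.mem_filter.1 hv).2.le
  have hordmN : Q.ord (ρ mN) = -∑ v ∈ Tn, D v := by
    rw [hρmN, ttri_ord_prod Q Tn _ fun v hv => pow_ne_zero _ (hzρ0 v (hTncen v hv)),
      ← Finset.sum_neg_distrib]
    refine Finset.sum_congr rfl fun v hv => ?_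
    rw [ttri_ord_pow, (hz v (hTncen v hv)).2.2.1, mul_one]
    have := (Finset.mem_filter.1 hv).2
    exact Int.toNat_of_nonneg (by omega)
  have hsum : ∑ v ∈ T, D v = (∑ v ∈ Tp, D v) + ∑ v ∈ Tn, D v :=
    (Finset.sum_filter_add_sum_filter_not T (fun v => 0 < D v) D).symm
  have hfin := congrArg Q.ord hrel
  rw [Q.ord_mul hrq0 hρmP0, Q.ord_mul hrx0 hρmN0, hqQ, hordmP, hordmN] at hfin
  rw [hsum]
  omega

end Pole

section PtLoc

variable {K F : Type*} [Field K] [Field F] [Algebra K F]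
  {k Fk : Type*} [Field k] [Field Fk] [Algebra k Fk]

/-- the multiplicative set `B ∖ 𝔫_Q`, `𝔫_Q = {b ∈ B | (red b)(Q) = 0}`. -/
def ttriS (O2 B : Subring F) (hBO : B ≤ O2) (red : O2 →+* Fk) (Q : Place k Fk)
    (hreg : ∀ b : B, red ⟨b, hBO b.2⟩ ∈ Q.toValuationSubring) : Submonoid B where
  carrier := {b | ¬ GrdVal Q (red ⟨b, hBO b.2⟩) 0}
  one_mem' := by
    show ¬ GrdVal Q (red ⟨((1 : B) : F), _⟩) 0
    have h1 : (⟨((1 : B) : F), hBO (1 : B).2⟩ : O2) = 1 := rfl
    rw [h1, map_one]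
    intro h
    have h2 : GrdVal Q (1 : Fk) 1 := by
      have := grdg_val_algebraMap Q (1 : k)
      rwa [map_one] at this
    exact one_ne_zero (grdg_val_unique Q h2 h)
  mul_mem' := by
    intro a b ha hb
    show ¬ GrdVal Q (red ⟨((a * b : B) : F), _⟩) 0
    have h1 : (⟨((a * b : B) : F), hBO (a * b).2⟩ : O2) = ⟨a, hBO a.2⟩ * ⟨b, hBO b.2⟩ := rfl
    rw [h1, map_mul]
    have ha0 := ttri_ord_eq_zero Q (hreg a) ha
    have hb0 := ttri_ord_eq_zero Q (hreg b) hb
    have hane : red ⟨a, hBO a.2⟩ ≠ 0 := by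
      intro h0
      apply ha
      rw [h0]
      exact (grdg_val_zero_iff Q 0).2 (zero_mem _)
    have hbne : red ⟨b, hBO b.2⟩ ≠ 0 := by
      intro h0
      apply hb
      rw [h0]
      exact (grdg_val_zero_iff Q 0).2 (zero_mem _)
    intro h
    have := (grdg_val_zero_iff_ord Q (mul_ne_zero hane hbne)).1 h
    rw [Q.ord_mul hane hbne, ha0, hb0] at this
    exact absurd this (by norm_num)

theorem ttri_zero_notMem_S (O2 B : Subring F) (hBO : B ≤ O2) (red : O2 →+* Fk) (Q : Place k Fk)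
    (hreg : ∀ b : B, red ⟨b, hBO b.2⟩ ∈ Q.toValuationSubring) :
    (0 : B) ∉ ttriS O2 B hBO red Q hreg := by
  intro h
  apply h
  have h1 : (⟨((0 : B) : F), hBO (0 : B).2⟩ : O2) = 0 := rfl
  rw [h1, map_zero]
  exact (grdg_val_zero_iff Q 0).2 (zero_mem _)

/-- **(LOC) at the closed point `𝔫_Q`**, in the shape of the field `TtriPt.loc`. -/
theorem ttri_pt_loc [HasPrincipalDivisors K F] (O2 B : Subring F) (hBO : B ≤ O2)
    (red : O2 →+* Fk) (Q : Place k Fk)
    (hreg : ∀ b : B, red ⟨b, hBO b.2⟩ ∈ Q.toValuationSubring) (u : F)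
    (hBreg : ∀ b ∈ B, ∀ v : Place K F, u ∈ v.toValuationSubring → b ∈ v.toValuationSubring)
    (hsat : ∀ x ∈ O2, (∀ v : Place K F, u ∈ v.toValuationSubring → x ∈ v.toValuationSubring) →
      x ∈ B)
    (cen : Place K F → Prop) (hcu : ∀ v : Place K F, cen v → u ∈ v.toValuationSubring)
    (hsep : ∀ v : Place K F, ¬ cen v → u ∈ v.toValuationSubring →
      ∃ s : B, ¬ GrdVal Q (red ⟨s, hBO s.2⟩) 0 ∧ (s : F) ∈ v.toValuationSubring.nonunits) :
    ∀ x ∈ O2, (∀ v, cen v → x ∈ v.toValuationSubring) →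
      ∃ s : B, ¬ GrdVal Q (red ⟨s, hBO s.2⟩) 0 ∧ (s : F) * x ∈ B := fun x hx hcen =>
  ttri_loc B O2 hBO u hBreg hsat (ttriS O2 B hBO red Q hreg)
    (ttri_zero_notMem_S O2 B hBO red Q hreg) cen hcu hsep hx hcen

end PtLoc

section Cen

variable {K F : Type*} [Field K] [Field F] [Algebra K F] (A : ValuationSubring K)
  {Fk : Type*} [Field Fk] [Algebra (ResidueField A) Fk]

/-- **the INTRINSIC centre predicate** : the place `P` of `F / K` is centred at the closed point
of the chart `B` defined by the place `Q` of `Fk` (through `red`) : every element of `B` has a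
value in `𝔸` at `P`, and `b(P) = a ⟹ (red b)(Q) = ā`. -/
def TtriCen (O2 B : Subring F) (hBO : B ≤ O2) (red : O2 →+* Fk) (Q : Place (ResidueField A) Fk)
    (P : Place K F) : Prop :=
  (∀ b : B, ∃ a : A, GrdVal P (b : F) (a : K)) ∧
    ∀ (b : B) (a : A), GrdVal P (b : F) (a : K) → GrdVal Q (red ⟨b, hBO b.2⟩) (residue A a)

variable {A}

theorem ttri_val_add_const (Q : Place (ResidueField A) Fk) {f : Fk} {c d : ResidueField A}
    (h : GrdVal Q (f - algebraMap (ResidueField A) Fk c) d) : GrdVal Q f (d + c) := by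
  have := grdg_val_add Q h (grdg_val_algebraMap Q c)
  rwa [sub_add_cancel] at this

/-- **THE LOCAL PACKAGE AT ANY CLOSED POINT, with the intrinsic centre.**  Inputs : the chart
(`u ∈ B ⊂ O2`, elements of `B` regular wherever `u` is, constants), SATURATION `(A8)`, values in
`𝔸` at the places of the chart (`u(P) ∈ 𝔸 ⟹ b(P) ∈ 𝔸`), `red B ⊂ 𝒪_Q`, a uniformiser at `Q` in
`red B`, values at `Q` and at the places of `F` (algebraically closed constant fields).  No value
compatibility `(B2)` is needed : it is the definition of the centre. -/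
theorem ttri_pt_cen [HasPrincipalDivisors K F] (O2 B : Subring F) (hBO : B ≤ O2)
    (red : O2 →+* Fk) (Q : Place (ResidueField A) Fk) (u : F) (huB : u ∈ B)
    (hBreg : ∀ b ∈ B, ∀ v : Place K F, u ∈ v.toValuationSubring → b ∈ v.toValuationSubring)
    (hsat : ∀ x ∈ O2, (∀ v : Place K F, u ∈ v.toValuationSubring → x ∈ v.toValuationSubring) →
      x ∈ B)
    (hvalK : ∀ v : Place K F, u ∈ v.toValuationSubring → ∃ c : K, GrdVal v u c)
    (hchart : ∀ v : Place K F, (∃ a : A, GrdVal v u (a : K)) →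
      ∀ b : B, ∃ a : A, GrdVal v (b : F) (a : K))
    (hconst : ∀ a : A, algebraMap K F (a : K) ∈ B)
    (hred_const : ∀ (a : A) (h : algebraMap K F (a : K) ∈ O2),
      red ⟨algebraMap K F (a : K), h⟩ = algebraMap (ResidueField A) Fk (residue A a))
    (hreg : ∀ b : B, red ⟨b, hBO b.2⟩ ∈ Q.toValuationSubring)
    (hvalQ : ∀ f : Fk, f ∈ Q.toValuationSubring → ∃ c : ResidueField A, GrdVal Q f c)
    (hunif : ∃ t : B, Q.ord (red ⟨t, hBO t.2⟩) = 1) :
    TtriPt A O2 B hBO red (TtriCen A O2 B hBO red Q) Q := by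
  have hone : ¬ GrdVal Q (1 : Fk) 0 := by
    intro h
    have h2 : GrdVal Q (1 : Fk) 1 := by
      have := grdg_val_algebraMap Q (1 : ResidueField A)
      rwa [map_one] at this
    exact one_ne_zero (grdg_val_unique Q h2 h)
  refine ⟨?_, hreg, fun v hv b => ?_, hconst, hred_const, hunif⟩
  · refine ttri_pt_loc O2 B hBO red Q hreg u hBreg hsat _ (fun v hv => ?_) ?_
    · obtain ⟨a, ha⟩ := hv.1 ⟨u, huB⟩
      exact grdg_val_mem v ha
    · intro v hv hvu
      obtain ⟨c, hc⟩ := hvalK v hvu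
      by_cases hcA : c ∈ A
      · have hall := hchart v ⟨⟨c, hcA⟩, hc⟩
        have hnot : ¬ ∀ (b : B) (a : A), GrdVal v (b : F) (a : K) →
            GrdVal Q (red ⟨b, hBO b.2⟩) (residue A a) := fun h => hv ⟨hall, h⟩
        push Not at hnot
        obtain ⟨b, a, hba, hbQ⟩ := hnot
        refine ⟨⟨(b : F) - algebraMap K F (a : K), B.sub_mem b.2 (hconst a)⟩, ?_, hba⟩
        have h3 : (⟨(b : F) - algebraMap K F (a : K), hBO (B.sub_mem b.2 (hconst a))⟩ : O2) =
            ⟨b, hBO b.2⟩ - ⟨algebraMap K F (a : K), hBO (hconst a)⟩ := rfl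
        rw [h3, map_sub, hred_const a]
        intro h0
        apply hbQ
        have := ttri_val_add_const Q h0
        rwa [zero_add] at this
      · have hc0 : c ≠ 0 := fun h => hcA (h ▸ A.zero_mem)
        have hcinv : c⁻¹ ∈ A := (A.mem_or_inv_mem c).resolve_left hcA
        have hcm : residue A (⟨c⁻¹, hcinv⟩ : A) = 0 := by
          rw [residue_eq_zero_iff, mem_maximalIdeal, mem_nonunits_iff]
          intro hunit
          obtain ⟨w, hw⟩ := hunit.exists_right_inv
          apply hcA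
          have h1 : c⁻¹ * (w : K) = 1 := by
            have := congrArg Subtype.val hw
            simpa using this
          have h2 : (w : K) = c := by
            field_simp at h1
            exact h1.symm ▸ rfl
          rw [← h2]
          exact w.2
        obtain ⟨ci, hci⟩ : ∃ ci : A, (ci : K) = c⁻¹ := ⟨⟨c⁻¹, hcinv⟩, rfl⟩
        have hcim : residue A ci = 0 := by
          have : ci = ⟨c⁻¹, hcinv⟩ := Subtype.ext hci
          rw [this]
          exact hcm
        have hmB : algebraMap K F (ci : K) * u ∈ B := B.mul_mem (hconst ci) huB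
        have hsB : 1 - algebraMap K F (ci : K) * u ∈ B := B.sub_mem B.one_mem hmB
        refine ⟨⟨_, hsB⟩, ?_, ?_⟩
        · have hm : red ⟨algebraMap K F (ci : K) * u, hBO hmB⟩ = 0 := by
            have h5 : (⟨algebraMap K F (ci : K) * u, hBO hmB⟩ : O2) =
                ⟨algebraMap K F (ci : K), hBO (hconst ci)⟩ * ⟨u, hBO huB⟩ := rfl
            rw [h5, map_mul, hred_const ci, hcim, map_zero, zero_mul]
          have h4 : (⟨1 - algebraMap K F (ci : K) * u, hBO hsB⟩ : O2) =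
              1 - ⟨algebraMap K F (ci : K) * u, hBO hmB⟩ := rfl
          rw [h4, map_sub, hm, sub_zero, map_one]
          exact hone
        · have h1 : GrdVal v (1 - algebraMap K F (ci : K) * u) (1 - (ci : K) * c) := by
            refine ttri_val_sub v ?_ (grdg_val_mul v (grdg_val_algebraMap v (ci : K)) hc)
            have := grdg_val_algebraMap v (1 : K)
            rwa [map_one] at this
          have h2 : (1 - (ci : K) * c) = 0 := by rw [hci, inv_mul_cancel₀ hc0, sub_self]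
          rw [h2] at h1
          exact (grdg_val_zero_iff v _).1 h1
  · obtain ⟨a, ha⟩ := hv.1 b
    exact ⟨a, ha, hv.2 b a ha⟩

/-- transport of the local package along an equivalence of the centre predicates. -/
theorem TtriPt.congr {O2 B : Subring F} {hBO : B ≤ O2} {red : O2 →+* Fk}
    {cen cen' : Place K F → Prop} {Q : Place (ResidueField A) Fk}
    (h : TtriPt A O2 B hBO red cen Q) (hc : ∀ v, cen' v ↔ cen v) :
    TtriPt A O2 B hBO red cen' Q :=
  ⟨fun x hx hx' => h.loc x hx fun v hv => hx' v ((hc v).2 hv), h.reg,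
    fun v hv b => h.val v ((hc v).1 hv) b, h.const, h.red_const, h.unif⟩

end Cen

section Glue

variable {K F : Type*} [Field K] [Field F] [Algebra K F]
  {k Fk₁ Fk₂ : Type*} [Field k] [Field Fk₁] [Field Fk₂] [Algebra k Fk₁] [Algebra k Fk₂]

/-- **(GLUE).**  At a two-branch closed point `(Q₁, Q₂)` of the chart `B` : if every element of `B`
has equal values at the two branches (`NODE (i)`) and (LOC) holds at the point, then every
`x ∈ O2` without pole at the places centred at the point has equal values at the two branches. -/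
theorem ttri_glue (O2 B : Subring F) (hBO : B ≤ O2) (red₁ : O2 →+* Fk₁) (red₂ : O2 →+* Fk₂)
    (cen : Place K F → Prop) (Q₁ : Place k Fk₁) (Q₂ : Place k Fk₂)
    (hloc : ∀ x ∈ O2, (∀ v, cen v → x ∈ v.toValuationSubring) →
      ∃ s : B, ¬ GrdVal Q₁ (red₁ ⟨s, hBO s.2⟩) 0 ∧ (s : F) * x ∈ B)
    (hnode : ∀ b : B, ∃ c : k, GrdVal Q₁ (red₁ ⟨b, hBO b.2⟩) c ∧ GrdVal Q₂ (red₂ ⟨b, hBO b.2⟩) c)
    {x : F} (hx : x ∈ O2) (hcen : ∀ v, cen v → x ∈ v.toValuationSubring) :
    ∃ c : k, GrdVal Q₁ (red₁ ⟨x, hx⟩) c ∧ GrdVal Q₂ (red₂ ⟨x, hx⟩) c := by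
  obtain ⟨s, hs, hy⟩ := hloc x hx hcen
  obtain ⟨σ, hσ1, hσ2⟩ := hnode s
  obtain ⟨η, hη1, hη2⟩ := hnode ⟨(s : F) * x, hy⟩
  have hσ0 : σ ≠ 0 := by
    rintro rfl
    exact hs hσ1
  refine ⟨η / σ, ttri_val_div Q₁ hσ1 hσ0 hη1 ?_, ttri_val_div Q₂ hσ2 hσ0 hη2 ?_⟩
  · rw [← map_mul]; rfl
  · rw [← map_mul]; rfl

end Glue

section Into

variable {K F : Type*} [Field K] [Field F] [Algebra K F] {A : ValuationSubring K}
  {Fk₁ Fk₂ : Type*} [Field Fk₁] [Field Fk₂] [Algebra (ResidueField A) Fk₁]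
  [Algebra (ResidueField A) Fk₂]

open Classical in
/-- the push-forward of the `T`-part of a divisor, evaluated at a point. -/
theorem ttri_mapDomain_filter_apply {α β : Type*} (r : α → β) (T : α → Prop) (D : α →₀ ℤ)
    (Q : β) :
    Finsupp.mapDomain r (D.filter T) Q = ∑ v ∈ D.support.filter (fun v => T v ∧ r v = Q), D v := by
  rw [Finsupp.mapDomain, Finsupp.sum_apply, Finsupp.sum, Finsupp.support_filter]
  have h1 : ∀ v ∈ D.support.filter T, (Finsupp.single (r v) ((D.filter T) v)) Q =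
      if r v = Q then D v else 0 := by
    intro v hv
    rw [Finsupp.single_apply, Finsupp.filter_apply_pos T D (Finset.mem_filter.1 hv).2]
  rw [Finset.sum_congr rfl h1, ← Finset.sum_filter, Finset.filter_filter]

open Classical in
/-- **(R-in) = INTO, one component.**  Every place `Q` of `Fk` is either a node `ν i` or a
one-branch closed point of some chart, with its local package for the places `v` of type `T`
reducing to `Q`.  Let `x ∈ O2`, `x ≠ 0`, `red x ≠ 0`, bounded below by the divisor `D`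
(`- D v ≤ ord_v x`), with at most one forced zero, a simple one, in each residue disc, and
`red x` regular at the nodes.  Then `red x ∈ L(r_* (D|_T))`. -/
theorem ttri_into_one {ι : Type*} (O2 : Subring F) (red : O2 →+* Fk₁)
    (T : Place K F → Prop) (r : Place K F → Place (ResidueField A) Fk₁)
    (ν : ι → Place (ResidueField A) Fk₁)
    (hpt : ∀ Q : Place (ResidueField A) Fk₁, (∃ i, ν i = Q) ∨
      ∃ (B : Subring F) (hBO : B ≤ O2), TtriPt A O2 B hBO red (fun v => T v ∧ r v = Q) Q)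
    (hrν : ∀ v i, T v → r v ≠ ν i)
    {x : F} (hx : x ∈ O2) (hx0 : x ≠ 0) (D : Divisor K F) (hD : ∀ v, -D v ≤ v.ord x)
    (hneg : ∀ v, T v → -1 ≤ D v)
    (hneg1 : ∀ v w, T v → T w → r v = r w → D v < 0 → D w < 0 → v = w)
    (hnode : ∀ i, red ⟨x, hx⟩ ∈ (ν i).toValuationSubring) :
    red ⟨x, hx⟩ ∈ riemannRochSpace (Finsupp.mapDomain r (D.filter T)) := by
  by_cases hred : red ⟨x, hx⟩ = 0
  · rw [hred]
    exact Submodule.zero_mem _
  rw [ffkm_mem_iff hred]
  intro Q
  rw [ttri_mapDomain_filter_apply]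
  rcases hpt Q with ⟨i, rfl⟩ | ⟨B, hBO, hQ⟩
  · have hempty : D.support.filter (fun v => T v ∧ r v = ν i) = ∅ := by
      rw [Finset.filter_eq_empty_iff]
      intro v _ hv
      exact hrν v i hv.1 hv.2
    rw [hempty, Finset.sum_empty, neg_zero]
    exact PlaceOrd.ord_nonneg_of_mem _ (hnode i)
  · exact hQ.ord_ge hx hx0 hred D (fun v _ => hD v) (fun v hv => hneg v hv.1)
      (fun v w hv hw h1 h2 => hneg1 v w hv.1 hw.1 (hv.2.trans hw.2.symm) h1 h2)

open Classical in
/-- **(R-in) = INTO.**  Two components `red₁ : O2 → Fk₁`, `red₂ : O2 → Fk₂`, nodes `ν₁ i ~ ν₂ i`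
with their closed points (`cenN i` = the places centred at the node `i`).  `x ∈ O2` bounded below
by `D`, with `D ≤ 0` at the places centred at the nodes : then `(red₁ x, red₂ x)` lies in
`L(r₁_* D|_{T₁}) × L(r₂_* D|_{T₂})` and has equal values at the nodes, i.e.
`(red₁ x, red₂ x) ∈ ttnkL ν₁ ν₂ (r₁_* D|_{T₁}) (r₂_* D|_{T₂})` of `TT/Nodal/Space.lean`. -/
theorem ttri_into {ι : Type*} (O2 : Subring F) (red₁ : O2 →+* Fk₁) (red₂ : O2 →+* Fk₂)
    (T₁ T₂ : Place K F → Prop) (r₁ : Place K F → Place (ResidueField A) Fk₁)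
    (r₂ : Place K F → Place (ResidueField A) Fk₂)
    (ν₁ : ι → Place (ResidueField A) Fk₁) (ν₂ : ι → Place (ResidueField A) Fk₂)
    (cenN : ι → Place K F → Prop)
    (hpt₁ : ∀ Q : Place (ResidueField A) Fk₁, (∃ i, ν₁ i = Q) ∨
      ∃ (B : Subring F) (hBO : B ≤ O2), TtriPt A O2 B hBO red₁ (fun v => T₁ v ∧ r₁ v = Q) Q)
    (hpt₂ : ∀ Q : Place (ResidueField A) Fk₂, (∃ i, ν₂ i = Q) ∨
      ∃ (B : Subring F) (hBO : B ≤ O2), TtriPt A O2 B hBO red₂ (fun v => T₂ v ∧ r₂ v = Q) Q)
    (hN : ∀ i, ∃ (B : Subring F) (hBO : B ≤ O2),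
      (∀ x ∈ O2, (∀ v, cenN i v → x ∈ v.toValuationSubring) →
        ∃ s : B, ¬ GrdVal (ν₁ i) (red₁ ⟨s, hBO s.2⟩) 0 ∧ (s : F) * x ∈ B) ∧
      ∀ b : B, ∃ c : ResidueField A,
        GrdVal (ν₁ i) (red₁ ⟨b, hBO b.2⟩) c ∧ GrdVal (ν₂ i) (red₂ ⟨b, hBO b.2⟩) c)
    (hrν₁ : ∀ v i, T₁ v → r₁ v ≠ ν₁ i) (hrν₂ : ∀ v i, T₂ v → r₂ v ≠ ν₂ i)
    {x : F} (hx : x ∈ O2) (hx0 : x ≠ 0) (D : Divisor K F) (hD : ∀ v, -D v ≤ v.ord x)
    (hDN : ∀ i v, cenN i v → D v ≤ 0)
    (hneg₁ : ∀ v, T₁ v → -1 ≤ D v) (hneg₂ : ∀ v, T₂ v → -1 ≤ D v)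
    (hneg1₁ : ∀ v w, T₁ v → T₁ w → r₁ v = r₁ w → D v < 0 → D w < 0 → v = w)
    (hneg1₂ : ∀ v w, T₂ v → T₂ w → r₂ v = r₂ w → D v < 0 → D w < 0 → v = w) :
    red₁ ⟨x, hx⟩ ∈ riemannRochSpace (Finsupp.mapDomain r₁ (D.filter T₁)) ∧
      red₂ ⟨x, hx⟩ ∈ riemannRochSpace (Finsupp.mapDomain r₂ (D.filter T₂)) ∧
      ∀ i, ∃ c : ResidueField A, GrdVal (ν₁ i) (red₁ ⟨x, hx⟩) c ∧ GrdVal (ν₂ i) (red₂ ⟨x, hx⟩) c := by
  have hglue : ∀ i, ∃ c : ResidueField A,
      GrdVal (ν₁ i) (red₁ ⟨x, hx⟩) c ∧ GrdVal (ν₂ i) (red₂ ⟨x, hx⟩) c := by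
    intro i
    obtain ⟨B, hBO, hloc, hnode⟩ := hN i
    exact ttri_glue O2 B hBO red₁ red₂ (cenN i) (ν₁ i) (ν₂ i) hloc hnode hx fun v hv =>
      PlaceOrd.mem_of_ord_nonneg v (by have := hD v; have := hDN i v hv; omega)
  refine ⟨?_, ?_, hglue⟩
  · exact ttri_into_one O2 red₁ T₁ r₁ ν₁ hpt₁ hrν₁ hx hx0 D hD hneg₁ hneg1₁ fun i => by
      obtain ⟨c, hc, -⟩ := hglue i
      exact grdg_val_mem _ hc
  · exact ttri_into_one O2 red₂ T₂ r₂ ν₂ hpt₂ hrν₂ hx hx0 D hD hneg₂ hneg1₂ fun i => by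
      obtain ⟨c, -, hc⟩ := hglue i
      exact grdg_val_mem _ hc

end Into

end Fermat.Agent.TT
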