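import Mathlib
import Fermat.Agent.G.Red.Val
import Fermat.Agent.TT.Red2.Into

/-!
# Program TT (S33), package G/Red₂ : the NODE package `hN` of `ttri_into` (prefix `ttru`)

Owner: helper3 (TT-PM R34(4)).  Namespace `Fermat.Agent.TT`.  Abstract, hypothesis-first.

`K ⊇ A` a valued field, `F / K` a function field, `B ≤ O2` the chart ring inside the two-valuation
ring, `u ∈ B` the chart coordinate, `red₁ : O2 →+* Fk₁`, `red₂ : O2 →+* Fk₂` the two reductions,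
`𝔫` an ideal of `B` (a closed point of the special fibre lying on both components), `Q₁`, `Q₂` the
two branches through it.

* `ttruCen A B u 𝔫 v` : the place `v` of `F / K` is CENTRED at `𝔫` (intrinsic form): `u(v) ∈ A`
  and `b(v) ∈ 𝔪_A` for all `b ∈ 𝔫`.
* `ttru_rat_of_place` : `B = A + 𝔫` if a `K`-place of the chart is centred at `𝔫` (NODE-PL).
* `ttru_node` : both branch values of `b ∈ B` agree (NODE (i)).
* `ttru_loc`  : (LOC) at `𝔫`.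
* `ttru_pkg`  : the body of `hN i` of `ttri_into`, verbatim, with `cenN i := ttruCen A B u 𝔫`.
* `ttru_not_cen` : a place with value compatibility towards another point is not centred at `𝔫`.
-/

set_option autoImplicit false
set_option linter.unusedSectionVars false
set_option linter.unusedVariables false

noncomputable section

namespace Fermat.Agent.TT

open AlgebraicCurve IsLocalRing Fermat.Agent.G Fermat.Agent.S24 Fermat.Agent.FF

section Node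

variable {K F : Type*} [Field K] [Field F] [Algebra K F] (A : ValuationSubring K)
  {Fk₁ Fk₂ : Type*} [Field Fk₁] [Field Fk₂] [Algebra (ResidueField A) Fk₁]
  [Algebra (ResidueField A) Fk₂]

/-- the place `v` is centred at the closed point `𝔫` of the chart `(B, u)`. -/
def ttruCen (B : Subring F) (u : F) (𝔫 : Ideal ↥B) (v : Place K F) : Prop :=
  (∃ a : A, GrdVal v u (a : K)) ∧
    ∀ b : ↥B, b ∈ 𝔫 → ∃ a : A, a ∈ maximalIdeal A ∧ GrdVal v (b : F) (a : K)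

variable {A}

/-- `1` has value `1`. -/
theorem ttru_val_one {k' F' : Type*} [Field k'] [Field F'] [Algebra k' F'] (Q : Place k' F') :
    GrdVal Q (1 : F') 1 := by
  have := grdg_val_algebraMap Q (1 : k')
  rwa [map_one] at this

/-- **rationality of the closed point** from a `K`-place of the chart centred at it. -/
theorem ttru_rat_of_place (B : Subring F) (u : F) (𝔫 : Ideal ↥B)
    (hconst : ∀ a : A, algebraMap K F (a : K) ∈ B)
    (hvalK : ∀ (v : Place K F) (x : F), x ∈ v.toValuationSubring → ∃ c : K, GrdVal v x c)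
    (hvalA : ∀ v : Place K F, (∃ a : A, GrdVal v u (a : K)) → ∀ b : ↥B, ∀ c : K,
      GrdVal v (b : F) c → c ∈ A)
    (R : Place K F) (hRu : ∃ a : A, GrdVal R u (a : K))
    (hBR : ∀ b : ↥B, (b : F) ∈ R.toValuationSubring)
    (hc : ∀ b : ↥B, (b : F) ∈ R.toValuationSubring.nonunits → b ∈ 𝔫) (b : ↥B) :
    ∃ a : A, b - ⟨algebraMap K F (a : K), hconst a⟩ ∈ 𝔫 := by
  obtain ⟨c, hc'⟩ := hvalK R b (hBR b)
  have hcA : c ∈ A := hvalA R hRu b c hc'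
  refine ⟨⟨c, hcA⟩, hc _ ?_⟩
  exact hc'

/-- **NODE (i)** : both branch values of an element of `B` agree. -/
theorem ttru_node (O2 B : Subring F) (hBO : B ≤ O2) (red₁ : O2 →+* Fk₁) (red₂ : O2 →+* Fk₂)
    (Q₁ : Place (ResidueField A) Fk₁) (Q₂ : Place (ResidueField A) Fk₂) (𝔫 : Ideal ↥B)
    (hconst : ∀ a : A, algebraMap K F (a : K) ∈ B)
    (hrc₁ : ∀ (a : A) (h : algebraMap K F (a : K) ∈ O2),
      red₁ ⟨algebraMap K F (a : K), h⟩ = algebraMap (ResidueField A) Fk₁ (residue A a))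
    (hrc₂ : ∀ (a : A) (h : algebraMap K F (a : K) ∈ O2),
      red₂ ⟨algebraMap K F (a : K), h⟩ = algebraMap (ResidueField A) Fk₂ (residue A a))
    (hrat : ∀ b : ↥B, ∃ a : A, b - ⟨algebraMap K F (a : K), hconst a⟩ ∈ 𝔫)
    (h𝔫₁ : ∀ b : ↥B, b ∈ 𝔫 → GrdVal Q₁ (red₁ ⟨b, hBO b.2⟩) 0)
    (h𝔫₂ : ∀ b : ↥B, b ∈ 𝔫 → GrdVal Q₂ (red₂ ⟨b, hBO b.2⟩) 0) (b : ↥B) :
    ∃ c : ResidueField A, GrdVal Q₁ (red₁ ⟨b, hBO b.2⟩) c ∧ GrdVal Q₂ (red₂ ⟨b, hBO b.2⟩) c := by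
  obtain ⟨a, ha⟩ := hrat b
  refine ⟨residue A a, ?_, ?_⟩
  · have h1 := h𝔫₁ _ ha
    have h2 : (⟨((b - ⟨algebraMap K F (a : K), hconst a⟩ : ↥B) : F), hBO (b - _).2⟩ : O2)
        = ⟨b, hBO b.2⟩ - ⟨algebraMap K F (a : K), hBO (hconst a)⟩ := rfl
    rw [h2, map_sub, hrc₁] at h1
    have h3 := grdg_val_add Q₁ h1 (grdg_val_algebraMap Q₁ (residue A a))
    rwa [sub_add_cancel, zero_add] at h3
  · have h1 := h𝔫₂ _ ha
    have h2 : (⟨((b - ⟨algebraMap K F (a : K), hconst a⟩ : ↥B) : F), hBO (b - _).2⟩ : O2)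
        = ⟨b, hBO b.2⟩ - ⟨algebraMap K F (a : K), hBO (hconst a)⟩ := rfl
    rw [h2, map_sub, hrc₂] at h1
    have h3 := grdg_val_add Q₂ h1 (grdg_val_algebraMap Q₂ (residue A a))
    rwa [sub_add_cancel, zero_add] at h3

/-- the value of `red b` at a branch through `𝔫`. -/
theorem ttru_val_branch {Fk : Type*} [Field Fk] [Algebra (ResidueField A) Fk]
    (O2 B : Subring F) (hBO : B ≤ O2) (red : O2 →+* Fk)
    (Q : Place (ResidueField A) Fk) (𝔫 : Ideal ↥B)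
    (hconst : ∀ a : A, algebraMap K F (a : K) ∈ B)
    (hrc : ∀ (a : A) (h : algebraMap K F (a : K) ∈ O2),
      red ⟨algebraMap K F (a : K), h⟩ = algebraMap (ResidueField A) Fk (residue A a))
    (h𝔫 : ∀ b : ↥B, b ∈ 𝔫 → GrdVal Q (red ⟨b, hBO b.2⟩) 0) (b : ↥B) (a : A)
    (ha : b - ⟨algebraMap K F (a : K), hconst a⟩ ∈ 𝔫) :
    GrdVal Q (red ⟨b, hBO b.2⟩) (residue A a) := by
  have h1 := h𝔫 _ ha
  have h2 : (⟨((b - ⟨algebraMap K F (a : K), hconst a⟩ : ↥B) : F), hBO (b - _).2⟩ : O2)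
      = ⟨b, hBO b.2⟩ - ⟨algebraMap K F (a : K), hBO (hconst a)⟩ := rfl
  rw [h2, map_sub, hrc] at h1
  have h3 := grdg_val_add Q h1 (grdg_val_algebraMap Q (residue A a))
  rwa [sub_add_cancel, zero_add] at h3

/-- **(LOC) at the closed point `𝔫`**, for the intrinsic centre `ttruCen`. -/
theorem ttru_loc [HasPrincipalDivisors K F] {Fk : Type*} [Field Fk]
    [Algebra (ResidueField A) Fk] (O2 B : Subring F) (hBO : B ≤ O2) (red : O2 →+* Fk)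
    (Q : Place (ResidueField A) Fk) (u : F) (hu : u ∈ B) (𝔫 : Ideal ↥B)
    (hBreg : ∀ b ∈ B, ∀ v : Place K F, u ∈ v.toValuationSubring → b ∈ v.toValuationSubring)
    (hsat : ∀ x ∈ O2, (∀ v : Place K F, u ∈ v.toValuationSubring → x ∈ v.toValuationSubring) →
      x ∈ B)
    (hconst : ∀ a : A, algebraMap K F (a : K) ∈ B)
    (hrc : ∀ (a : A) (h : algebraMap K F (a : K) ∈ O2),
      red ⟨algebraMap K F (a : K), h⟩ = algebraMap (ResidueField A) Fk (residue A a))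
    (hvalK : ∀ (v : Place K F) (x : F), x ∈ v.toValuationSubring → ∃ c : K, GrdVal v x c)
    (hvalA : ∀ v : Place K F, (∃ a : A, GrdVal v u (a : K)) → ∀ b : ↥B, ∀ c : K,
      GrdVal v (b : F) c → c ∈ A)
    (hrat : ∀ b : ↥B, ∃ a : A, b - ⟨algebraMap K F (a : K), hconst a⟩ ∈ 𝔫)
    (h𝔫 : ∀ b : ↥B, b ∈ 𝔫 → GrdVal Q (red ⟨b, hBO b.2⟩) 0) :
    ∀ x ∈ O2, (∀ v, ttruCen A B u 𝔫 v → x ∈ v.toValuationSubring) →
      ∃ s : B, ¬ GrdVal Q (red ⟨s, hBO s.2⟩) 0 ∧ (s : F) * x ∈ B := by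
  have hreg : ∀ b : B, red ⟨b, hBO b.2⟩ ∈ Q.toValuationSubring := by
    intro b
    obtain ⟨a, ha⟩ := hrat b
    exact grdg_val_mem Q (ttru_val_branch O2 B hBO red Q 𝔫 hconst hrc h𝔫 b a ha)
  refine ttri_pt_loc O2 B hBO red Q hreg u hBreg hsat (ttruCen A B u 𝔫)
    (fun v hv => ?_) ?_
  · obtain ⟨⟨a, ha⟩, -⟩ := hv
    exact grdg_val_mem v ha
  · intro v hncen huv
    obtain ⟨c, hc⟩ := hvalK v u huv
    by_cases hcA : c ∈ A
    · -- in the chart: a witness `b ∈ 𝔫` with `b(v)` a unit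
      have hchart : ∃ a : A, GrdVal v u (a : K) := ⟨⟨c, hcA⟩, hc⟩
      have : ∃ b : ↥B, b ∈ 𝔫 ∧ ¬ ∃ a : A, a ∈ maximalIdeal A ∧ GrdVal v (b : F) (a : K) := by
        by_contra hno
        push Not at hno
        exact hncen ⟨hchart, fun b hb => hno b hb⟩
      obtain ⟨b, hb𝔫, hbv⟩ := this
      obtain ⟨cb, hcb⟩ := hvalK v b (hBreg b b.2 v huv)
      have hcbA : cb ∈ A := hvalA v hchart b cb hcb
      have hcbm : (⟨cb, hcbA⟩ : A) ∉ maximalIdeal A := fun h => hbv ⟨⟨cb, hcbA⟩, h, hcb⟩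
      have hsB : (b : F) - algebraMap K F cb ∈ B := B.sub_mem b.2 (hconst ⟨cb, hcbA⟩)
      refine ⟨⟨(b : F) - algebraMap K F cb, hsB⟩, ?_, hcb⟩
      intro h0
      have h2 : (⟨(b : F) - algebraMap K F cb, hBO hsB⟩ : O2)
          = ⟨b, hBO b.2⟩ - ⟨algebraMap K F ((⟨cb, hcbA⟩ : A) : K), hBO (hconst ⟨cb, hcbA⟩)⟩ := rfl
      rw [h2, map_sub, hrc] at h0
      have h3 := ttri_val_sub Q (h𝔫 b hb𝔫) (grdg_val_algebraMap Q (residue A ⟨cb, hcbA⟩))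
      have h4 := grdg_val_unique Q h0 h3
      rw [zero_sub, eq_comm, neg_eq_zero] at h4
      exact hcbm ((residue_eq_zero_iff _).mp h4)
    · -- off the chart: `s = 1 - u / u(v)`
      have hc0 : c ≠ 0 := fun h => hcA (h ▸ A.zero_mem)
      have hciA : c⁻¹ ∈ A := (A.mem_or_inv_mem c).resolve_left hcA
      have hcim : (⟨c⁻¹, hciA⟩ : A) ∈ maximalIdeal A := by
        rw [mem_maximalIdeal, mem_nonunits_iff]
        intro hunit
        obtain ⟨w, hw⟩ := hunit.exists_right_inv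
        apply hcA
        have h1 : c⁻¹ * (w : K) = 1 := congrArg Subtype.val hw
        have : (w : K) = c := by
          field_simp at h1
          exact h1
        rw [← this]
        exact w.2
      set ci : ↥B := ⟨algebraMap K F c⁻¹, hconst ⟨c⁻¹, hciA⟩⟩ with hci
      set uB : ↥B := ⟨u, hu⟩ with huB
      refine ⟨1 - ci * uB, ?_, ?_⟩
      · intro h0
        have h2 : (⟨((1 - ci * uB : ↥B) : F), hBO (1 - ci * uB).2⟩ : O2)
            = 1 - ⟨algebraMap K F ((⟨c⁻¹, hciA⟩ : A) : K), hBO (hconst ⟨c⁻¹, hciA⟩)⟩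
              * ⟨u, hBO hu⟩ := rfl
        rw [h2, map_sub, map_one, map_mul, hrc, (residue_eq_zero_iff _).mpr hcim, map_zero,
          zero_mul, sub_zero] at h0
        exact one_ne_zero (grdg_val_unique Q (ttru_val_one Q) h0)
      · have e : ((1 - ci * uB : ↥B) : F) = algebraMap K F (-c⁻¹) * (u - algebraMap K F c) := by
          show (1 : F) - algebraMap K F c⁻¹ * u = _
          rw [map_neg, neg_mul, mul_sub, ← map_mul, inv_mul_cancel₀ hc0, map_one]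
          ring
        rw [e]
        exact ttri_mul_mem_nonunits v (v.algebraMap_mem' _) hc

/-- **the node package** : the body of `hN i` of `ttri_into`, with
`cenN i := ttruCen A B u 𝔫`. -/
theorem ttru_pkg [HasPrincipalDivisors K F] (O2 B : Subring F) (hBO : B ≤ O2)
    (red₁ : O2 →+* Fk₁) (red₂ : O2 →+* Fk₂)
    (Q₁ : Place (ResidueField A) Fk₁) (Q₂ : Place (ResidueField A) Fk₂)
    (u : F) (hu : u ∈ B) (𝔫 : Ideal ↥B)
    (hBreg : ∀ b ∈ B, ∀ v : Place K F, u ∈ v.toValuationSubring → b ∈ v.toValuationSubring)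
    (hsat : ∀ x ∈ O2, (∀ v : Place K F, u ∈ v.toValuationSubring → x ∈ v.toValuationSubring) →
      x ∈ B)
    (hconst : ∀ a : A, algebraMap K F (a : K) ∈ B)
    (hrc₁ : ∀ (a : A) (h : algebraMap K F (a : K) ∈ O2),
      red₁ ⟨algebraMap K F (a : K), h⟩ = algebraMap (ResidueField A) Fk₁ (residue A a))
    (hrc₂ : ∀ (a : A) (h : algebraMap K F (a : K) ∈ O2),
      red₂ ⟨algebraMap K F (a : K), h⟩ = algebraMap (ResidueField A) Fk₂ (residue A a))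
    (hvalK : ∀ (v : Place K F) (x : F), x ∈ v.toValuationSubring → ∃ c : K, GrdVal v x c)
    (hvalA : ∀ v : Place K F, (∃ a : A, GrdVal v u (a : K)) → ∀ b : ↥B, ∀ c : K,
      GrdVal v (b : F) c → c ∈ A)
    (hrat : ∀ b : ↥B, ∃ a : A, b - ⟨algebraMap K F (a : K), hconst a⟩ ∈ 𝔫)
    (h𝔫₁ : ∀ b : ↥B, b ∈ 𝔫 → GrdVal Q₁ (red₁ ⟨b, hBO b.2⟩) 0)
    (h𝔫₂ : ∀ b : ↥B, b ∈ 𝔫 → GrdVal Q₂ (red₂ ⟨b, hBO b.2⟩) 0) :
    (∀ x ∈ O2, (∀ v, ttruCen A B u 𝔫 v → x ∈ v.toValuationSubring) →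
        ∃ s : B, ¬ GrdVal Q₁ (red₁ ⟨s, hBO s.2⟩) 0 ∧ (s : F) * x ∈ B) ∧
      ∀ b : B, ∃ c : ResidueField A,
        GrdVal Q₁ (red₁ ⟨b, hBO b.2⟩) c ∧ GrdVal Q₂ (red₂ ⟨b, hBO b.2⟩) c :=
  ⟨ttru_loc O2 B hBO red₁ Q₁ u hu 𝔫 hBreg hsat hconst hrc₁ hvalK hvalA hrat h𝔫₁,
    ttru_node O2 B hBO red₁ red₂ Q₁ Q₂ 𝔫 hconst hrc₁ hrc₂ hrat h𝔫₁ h𝔫₂⟩

/-- a place with value compatibility towards a point `Q` at which some element of `𝔫` does not
vanish is NOT centred at `𝔫` (for `hDN` of `ttri_into`). -/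
theorem ttru_not_cen {Fk : Type*} [Field Fk] [Algebra (ResidueField A) Fk]
    (O2 B : Subring F) (hBO : B ≤ O2) (red : O2 →+* Fk) (Q : Place (ResidueField A) Fk)
    (u : F) (𝔫 : Ideal ↥B) (v : Place K F)
    (hrel : ∀ (b : ↥B) (a : A), GrdVal v (b : F) (a : K) →
      GrdVal Q (red ⟨b, hBO b.2⟩) (residue A a))
    (b : ↥B) (hb : b ∈ 𝔫) (hbQ : ¬ GrdVal Q (red ⟨b, hBO b.2⟩) 0) : ¬ ttruCen A B u 𝔫 v := by
  rintro ⟨-, hcen⟩
  obtain ⟨a, ham, hav⟩ := hcen b hb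
  apply hbQ
  have := hrel b a hav
  rwa [(residue_eq_zero_iff _).mpr ham] at this

/-- **the hypothesis `hN` of `ttri_into`**, verbatim, for a family of closed points `𝔫 i` of ONE
chart `(B, u)` with branches `ν₁ i`, `ν₂ i` and `cenN i := ttruCen A B u (𝔫 i)`. -/
theorem ttru_hN [HasPrincipalDivisors K F] {ι : Type*} (O2 B : Subring F) (hBO : B ≤ O2)
    (red₁ : O2 →+* Fk₁) (red₂ : O2 →+* Fk₂)
    (ν₁ : ι → Place (ResidueField A) Fk₁) (ν₂ : ι → Place (ResidueField A) Fk₂)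
    (u : F) (hu : u ∈ B) (𝔫 : ι → Ideal ↥B)
    (hBreg : ∀ b ∈ B, ∀ v : Place K F, u ∈ v.toValuationSubring → b ∈ v.toValuationSubring)
    (hsat : ∀ x ∈ O2, (∀ v : Place K F, u ∈ v.toValuationSubring → x ∈ v.toValuationSubring) →
      x ∈ B)
    (hconst : ∀ a : A, algebraMap K F (a : K) ∈ B)
    (hrc₁ : ∀ (a : A) (h : algebraMap K F (a : K) ∈ O2),
      red₁ ⟨algebraMap K F (a : K), h⟩ = algebraMap (ResidueField A) Fk₁ (residue A a))
    (hrc₂ : ∀ (a : A) (h : algebraMap K F (a : K) ∈ O2),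
      red₂ ⟨algebraMap K F (a : K), h⟩ = algebraMap (ResidueField A) Fk₂ (residue A a))
    (hvalK : ∀ (v : Place K F) (x : F), x ∈ v.toValuationSubring → ∃ c : K, GrdVal v x c)
    (hvalA : ∀ v : Place K F, (∃ a : A, GrdVal v u (a : K)) → ∀ b : ↥B, ∀ c : K,
      GrdVal v (b : F) c → c ∈ A)
    (hrat : ∀ i, ∀ b : ↥B, ∃ a : A, b - ⟨algebraMap K F (a : K), hconst a⟩ ∈ 𝔫 i)
    (h𝔫₁ : ∀ i, ∀ b : ↥B, b ∈ 𝔫 i → GrdVal (ν₁ i) (red₁ ⟨b, hBO b.2⟩) 0)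
    (h𝔫₂ : ∀ i, ∀ b : ↥B, b ∈ 𝔫 i → GrdVal (ν₂ i) (red₂ ⟨b, hBO b.2⟩) 0) :
    ∀ i, ∃ (B' : Subring F) (hBO' : B' ≤ O2),
      (∀ x ∈ O2, (∀ v, ttruCen A B u (𝔫 i) v → x ∈ v.toValuationSubring) →
        ∃ s : B', ¬ GrdVal (ν₁ i) (red₁ ⟨s, hBO' s.2⟩) 0 ∧ (s : F) * x ∈ B') ∧
      ∀ b : B', ∃ c : ResidueField A,
        GrdVal (ν₁ i) (red₁ ⟨b, hBO' b.2⟩) c ∧ GrdVal (ν₂ i) (red₂ ⟨b, hBO' b.2⟩) c :=
  fun i => ⟨B, hBO, ttru_pkg O2 B hBO red₁ red₂ (ν₁ i) (ν₂ i) u hu (𝔫 i) hBreg hsat hconst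
    hrc₁ hrc₂ hvalK hvalA (hrat i) (h𝔫₁ i) (h𝔫₂ i)⟩

/-! ### the pair form (helper19's definition of the nodes: NODE (i) holds BY DEFINITION) -/

/-- the closed point of `B` under the branch `Q₁` : `{b | (red₁ b)(Q₁) = 0}`, an ideal as soon as
`red₁ B` is regular at `Q₁`. -/
def ttruIdeal {Fk : Type*} [Field Fk] [Algebra (ResidueField A) Fk] (O2 B : Subring F)
    (hBO : B ≤ O2) (red : O2 →+* Fk) (Q : Place (ResidueField A) Fk)
    (hreg : ∀ b : ↥B, red ⟨b, hBO b.2⟩ ∈ Q.toValuationSubring) : Ideal ↥B where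
  carrier := {b | GrdVal Q (red ⟨b, hBO b.2⟩) 0}
  add_mem' := by
    intro a b ha hb
    show GrdVal Q (red ⟨((a + b : ↥B) : F), _⟩) 0
    have h1 : (⟨((a + b : ↥B) : F), hBO (a + b).2⟩ : O2) = ⟨a, hBO a.2⟩ + ⟨b, hBO b.2⟩ := rfl
    rw [h1, map_add]
    have := grdg_val_add Q ha hb
    rwa [add_zero] at this
  zero_mem' := by
    show GrdVal Q (red ⟨((0 : ↥B) : F), _⟩) 0
    have h1 : (⟨((0 : ↥B) : F), hBO (0 : ↥B).2⟩ : O2) = 0 := rfl
    rw [h1, map_zero]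
    exact (grdg_val_zero_iff Q 0).2 (zero_mem _)
  smul_mem' := by
    intro c b hb
    show GrdVal Q (red ⟨((c * b : ↥B) : F), _⟩) 0
    have h1 : (⟨((c * b : ↥B) : F), hBO (c * b).2⟩ : O2) = ⟨c, hBO c.2⟩ * ⟨b, hBO b.2⟩ := rfl
    rw [h1, map_mul, grdg_val_zero_iff]
    exact ttri_mul_mem_nonunits Q (hreg c) ((grdg_val_zero_iff Q _).1 hb)

theorem mem_ttruIdeal {Fk : Type*} [Field Fk] [Algebra (ResidueField A) Fk] (O2 B : Subring F)
    (hBO : B ≤ O2) (red : O2 →+* Fk) (Q : Place (ResidueField A) Fk)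
    (hreg : ∀ b : ↥B, red ⟨b, hBO b.2⟩ ∈ Q.toValuationSubring) (b : ↥B) :
    b ∈ ttruIdeal O2 B hBO red Q hreg ↔ GrdVal Q (red ⟨b, hBO b.2⟩) 0 := Iff.rfl

/-- regularity of `red₁ B` at `Q₁` from the pair condition. -/
theorem ttru_reg_of_pair (O2 B : Subring F) (hBO : B ≤ O2)
    (red₁ : O2 →+* Fk₁) (red₂ : O2 →+* Fk₂)
    (Q₁ : Place (ResidueField A) Fk₁) (Q₂ : Place (ResidueField A) Fk₂)
    (hpair : ∀ b : ↥B, ∃ c : ResidueField A,
      GrdVal Q₁ (red₁ ⟨b, hBO b.2⟩) c ∧ GrdVal Q₂ (red₂ ⟨b, hBO b.2⟩) c) (b : ↥B) :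
    red₁ ⟨b, hBO b.2⟩ ∈ Q₁.toValuationSubring := by
  obtain ⟨c, hc, -⟩ := hpair b
  exact grdg_val_mem Q₁ hc

/-- **the node package, pair form** : `(Q₁, Q₂)` a pair of branches with equal values of every
`b ∈ B` (a node in helper19's definition of `S`); the closed point is
`𝔫 := ttruIdeal … red₁ Q₁`.  Conclusion = the body of `hN i` with `cenN i := ttruCen A B u 𝔫`. -/
theorem ttru_pkg_pair [HasPrincipalDivisors K F] (O2 B : Subring F) (hBO : B ≤ O2)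
    (red₁ : O2 →+* Fk₁) (red₂ : O2 →+* Fk₂)
    (Q₁ : Place (ResidueField A) Fk₁) (Q₂ : Place (ResidueField A) Fk₂)
    (u : F) (hu : u ∈ B)
    (hBreg : ∀ b ∈ B, ∀ v : Place K F, u ∈ v.toValuationSubring → b ∈ v.toValuationSubring)
    (hsat : ∀ x ∈ O2, (∀ v : Place K F, u ∈ v.toValuationSubring → x ∈ v.toValuationSubring) →
      x ∈ B)
    (hconst : ∀ a : A, algebraMap K F (a : K) ∈ B)
    (hrc₁ : ∀ (a : A) (h : algebraMap K F (a : K) ∈ O2),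
      red₁ ⟨algebraMap K F (a : K), h⟩ = algebraMap (ResidueField A) Fk₁ (residue A a))
    (hvalK : ∀ (v : Place K F) (x : F), x ∈ v.toValuationSubring → ∃ c : K, GrdVal v x c)
    (hvalA : ∀ v : Place K F, (∃ a : A, GrdVal v u (a : K)) → ∀ b : ↥B, ∀ c : K,
      GrdVal v (b : F) c → c ∈ A)
    (hpair : ∀ b : ↥B, ∃ c : ResidueField A,
      GrdVal Q₁ (red₁ ⟨b, hBO b.2⟩) c ∧ GrdVal Q₂ (red₂ ⟨b, hBO b.2⟩) c) :
    (∀ x ∈ O2, (∀ v, ttruCen A B u (ttruIdeal O2 B hBO red₁ Q₁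
          (ttru_reg_of_pair O2 B hBO red₁ red₂ Q₁ Q₂ hpair)) v → x ∈ v.toValuationSubring) →
        ∃ s : B, ¬ GrdVal Q₁ (red₁ ⟨s, hBO s.2⟩) 0 ∧ (s : F) * x ∈ B) ∧
      ∀ b : B, ∃ c : ResidueField A,
        GrdVal Q₁ (red₁ ⟨b, hBO b.2⟩) c ∧ GrdVal Q₂ (red₂ ⟨b, hBO b.2⟩) c := by
  refine ⟨?_, hpair⟩
  refine ttru_loc O2 B hBO red₁ Q₁ u hu _ hBreg hsat hconst hrc₁ hvalK hvalA ?_ (fun b hb => hb)
  intro b
  obtain ⟨c, hc, -⟩ := hpair b
  obtain ⟨a, rfl⟩ := residue_surjective c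
  refine ⟨a, ?_⟩
  rw [mem_ttruIdeal]
  have h2 : (⟨((b - ⟨algebraMap K F (a : K), hconst a⟩ : ↥B) : F), hBO (b - _).2⟩ : O2)
      = ⟨b, hBO b.2⟩ - ⟨algebraMap K F (a : K), hBO (hconst a)⟩ := rfl
  rw [h2, map_sub, hrc₁]
  have h3 := ttri_val_sub Q₁ hc (grdg_val_algebraMap Q₁ (residue A a))
  rwa [sub_self] at h3

end Node

end Fermat.Agent.TT
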