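import Mathlib
import Fermat.Agent.FF.IntLift
import Fermat.Agent.G.FF.Hecke
import Fermat.Agent.G.Asm.HeckeGalois

/-!
# PROGRAM TT (S33), G/Red₂ LAYER B (owner helper6, prefix `ttrp`) : GOOD PLACES, definitions and
inertia invariance

Setting: `p ∤ M`, `𝔸 = A ⊂ ℚ̄` over `p`, `k = 𝔸/𝔪`, `F₀ = F_ℚ̄(M)`, `F = F_ℚ̄(M p)`,
`α = heckeAlphaBar`, `β = heckeBetaBar : F₀ → F`, `r` THE place reduction map of level `M`
(package `G/Red` on main, `hr : GrdIsRed M A hat.c.mem hat.c'.mem r`).

A place `P` of `F` is **good of type `φ`** (`φ = α` : it lies on the component `C₁`; `φ = β` : on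
`C₂`), relative to a function `w ∈ F` (`w = u₁/u₂` for `φ = α`, `w = u₂/u₁` for `φ = β`,
`u₁ = Y - J^p`, `u₂ = Y^p - J`) and a function `h ∈ F_k` (`h = j̄^{p²} - j̄`), if `w(P) ∈ 𝔪` and
`h` does not vanish at `r (P ∘ φ)`.

* `ttrpRes φ hφ P` : the restriction `P ∘ φ`;  `TtrpGood`, `ttrpR` : good places and their reduction;
* `ttrp_res_smul`, `ttrp_good_smul`, `ttrp_r_smul` : inertia preserves goodness and the reduction.
-/

set_option autoImplicit false
set_option linter.unusedSectionVars false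
set_option linter.unusedVariables false
set_option synthInstance.maxHeartbeats 400000

noncomputable section

namespace Fermat.Agent.TT

open ModularCurve AlgebraicCurve IsLocalRing Polynomial Fermat.Agent.S18 Fermat.Agent.S24
  Fermat.Agent.G Fermat.Agent.FF

local notation "Qb" => AlgebraicClosure ℚ

section Defs

variable (M p : ℕ) [NeZero M] [NeZero p]
variable (A : ValuationSubring Qb)

/-- the restriction `P ∘ φ` of a place of level `M p` along a degeneracy map `φ`. -/
def ttrpRes (φ : modularFunctionFieldBar M →ₐ[Qb] modularFunctionFieldBar (M * p))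
    (hφ : φ.toRingHom.IsIntegral) (P : Place Qb (modularFunctionFieldBar (M * p))) :
    Place Qb (modularFunctionFieldBar M) :=
  P.restrictAlong φ hφ

/-- the reduction of a place of level `M p` seen through `φ`. -/
def ttrpR (φ : modularFunctionFieldBar M →ₐ[Qb] modularFunctionFieldBar (M * p))
    (hφ : φ.toRingHom.IsIntegral)
    (r : Place Qb (modularFunctionFieldBar M) →
      Place (ResidueField A) (modularFunctionFieldFullC (ResidueField A) M))
    (P : Place Qb (modularFunctionFieldBar (M * p))) :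
    Place (ResidueField A) (modularFunctionFieldFullC (ResidueField A) M) :=
  r (ttrpRes M p φ hφ P)

/-- GOOD PLACES of type `φ` : `w(P) ∈ 𝔪_𝔸` and `h` does not vanish at `r (P ∘ φ)`. -/
def TtrpGood (φ : modularFunctionFieldBar M →ₐ[Qb] modularFunctionFieldBar (M * p))
    (hφ : φ.toRingHom.IsIntegral)
    (r : Place Qb (modularFunctionFieldBar M) →
      Place (ResidueField A) (modularFunctionFieldFullC (ResidueField A) M))
    (w : modularFunctionFieldBar (M * p))
    (h : modularFunctionFieldFullC (ResidueField A) M)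
    (P : Place Qb (modularFunctionFieldBar (M * p))) : Prop :=
  (∃ a : Qb, a ∈ A.nonunits ∧ GrdVal P w a) ∧
    h ∉ (ttrpR M p A φ hφ r P).toValuationSubring.nonunits

end Defs

section Inertia

variable (M p : ℕ) [NeZero M] [NeZero p] {ℓ : ℕ} [Fact ℓ.Prime]
variable (A : ValuationSubring Qb)
variable {τ τ' : LaurentSeries ℤ}
variable (σ : Qb ≃ₐ[ℚ] Qb)

/-- restriction along an intertwining degeneracy map commutes with the Galois action. -/
theorem ttrp_res_smul (φ : modularFunctionFieldBar M →ₐ[Qb] modularFunctionFieldBar (M * p))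
    (hφ : φ.toRingHom.IsIntegral)
    (hint : SemilinearAut.IntertwinesAlong φ.toRingHom (ffipG M σ) (ffipG (M * p) σ))
    (P : Place Qb (modularFunctionFieldBar (M * p))) :
    ttrpRes M p φ hφ (ffipG (M * p) σ • P) = ffipG M σ • ttrpRes M p φ hφ P :=
  gasmhg_restrictAlong_smul φ hφ hint P

theorem ttrp_res_smul_alpha (P : Place Qb (modularFunctionFieldBar (M * p))) :
    ttrpRes M p (heckeAlphaBar Qb M p) (gff_alpha_integral M p) (ffipG (M * p) σ • P) =
      ffipG M σ • ttrpRes M p (heckeAlphaBar Qb M p) (gff_alpha_integral M p) P :=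
  ttrp_res_smul M p σ _ _ (gasmhg_alpha_intertwines M p σ) P

theorem ttrp_res_smul_beta (P : Place Qb (modularFunctionFieldBar (M * p))) :
    ttrpRes M p (heckeBetaBar Qb M p) (gff_beta_integral M p) (ffipG (M * p) σ • P) =
      ffipG M σ • ttrpRes M p (heckeBetaBar Qb M p) (gff_beta_integral M p) P :=
  ttrp_res_smul M p σ _ _ (gasmhg_beta_intertwines M p σ) P

variable {A σ}

open Fermat.Agent.S05 in
/-- INERTIA PRESERVES THE REDUCTION of a place seen through `φ`. -/
theorem ttrp_r_smul (hℓM : ¬ ℓ ∣ M) (hA : A.LiesOverPrime ℓ) (hat : GrdAtlas M A τ τ')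
    (r : Place Qb (modularFunctionFieldBar M) →
      Place (ResidueField A) (modularFunctionFieldFullC (ResidueField A) M))
    (hr : GrdIsRed M A hat.c.mem hat.c'.mem r) (hσ : IsInertial A σ)
    (φ : modularFunctionFieldBar M →ₐ[Qb] modularFunctionFieldBar (M * p))
    (hφ : φ.toRingHom.IsIntegral)
    (hint : SemilinearAut.IntertwinesAlong φ.toRingHom (ffipG M σ) (ffipG (M * p) σ))
    (P : Place Qb (modularFunctionFieldBar (M * p))) :
    ttrpR M p A φ hφ r (ffipG (M * p) σ • P) = ttrpR M p A φ hφ r P := by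
  unfold ttrpR
  rw [ttrp_res_smul M p σ φ hφ hint P]
  exact ffip_inertia M hℓM hA hat r hr hσ _

open Fermat.Agent.S05 in
/-- INERTIA PRESERVES GOODNESS (one direction; apply it to `σ⁻¹` for the converse). -/
theorem ttrp_good_smul (hℓM : ¬ ℓ ∣ M) (hA : A.LiesOverPrime ℓ) (hat : GrdAtlas M A τ τ')
    (r : Place Qb (modularFunctionFieldBar M) →
      Place (ResidueField A) (modularFunctionFieldFullC (ResidueField A) M))
    (hr : GrdIsRed M A hat.c.mem hat.c'.mem r) (hσ : IsInertial A σ)
    (φ : modularFunctionFieldBar M →ₐ[Qb] modularFunctionFieldBar (M * p))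
    (hφ : φ.toRingHom.IsIntegral)
    (hint : SemilinearAut.IntertwinesAlong φ.toRingHom (ffipG M σ) (ffipG (M * p) σ))
    (w : modularFunctionFieldBar (M * p)) (hw : ffipG (M * p) σ • w = w)
    (h : modularFunctionFieldFullC (ResidueField A) M)
    (P : Place Qb (modularFunctionFieldBar (M * p)))
    (hP : TtrpGood M p A φ hφ r w h P) :
    TtrpGood M p A φ hφ r w h (ffipG (M * p) σ • P) := by
  obtain ⟨⟨a, ha, hva⟩, hh⟩ := hP
  refine ⟨⟨σ a, ?_, ?_⟩, ?_⟩
  · -- `σ a ∈ 𝔪_𝔸`
    have haA : a ∈ A := (A.mem_nonunits_iff_exists_mem_maximalIdeal.mp ha).1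
    have h1 := ffipResA_residue hσ ⟨a, haA⟩
    rw [A.mem_nonunits_iff_exists_mem_maximalIdeal] at ha ⊢
    obtain ⟨_, ham⟩ := ha
    refine ⟨(ffipResA hσ ⟨a, haA⟩).2, ?_⟩
    have h2 : (ffipResA hσ ⟨a, haA⟩ : A) ∈ maximalIdeal A := by
      rw [← residue_eq_zero_iff, h1, residue_eq_zero_iff]
      exact ham
    have h3 : (⟨σ a, (ffipResA hσ ⟨a, haA⟩).2⟩ : A) = ffipResA hσ ⟨a, haA⟩ :=
      Subtype.ext (ffipResA_coe hσ ⟨a, haA⟩).symm
    rw [h3]
    exact h2
  · have h1 := ffip_val_smul (ffipG (M * p) σ) P hva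
    rw [hw] at h1
    have h2 : SemilinearAut.baseAut (ffipG (M * p) σ) a = σ a := by
      have h3 := SemilinearAut.smul_algebraMap (ffipG (M * p) σ) a
      rw [ffipG_algebraMap] at h3
      exact (algebraMap Qb (modularFunctionFieldBar (M * p))).injective h3.symm
    rw [h2] at h1
    exact h1
  · rw [ttrp_r_smul M p hℓM hA hat r hr hσ φ hφ hint P]
    exact hh

end Inertia

end Fermat.Agent.TT
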