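import Mathlib
import Fermat.Agent.TT.Red2.Good

/-!
# PROGRAM TT (S33), G/Red₂ LAYER B (owner helper6, prefix `ttrp`) : THE INTERFACE

Everything in Layer B is written for ONE INDEX at a time :

* index 1 : `φ = α = heckeAlphaBar`, `V = V₁ = grdO (M p) 𝔸`, `red = red₁`, `v = u₂ = Y^p - J`
  (`red₁ v = h = j̄^{p²} - j̄`), `v' = u₁ = Y - J^p` (`red₁ v' = 0`);
* index 2 : `φ = β = heckeBetaBar = w ∘ α`, `V = V₂ = V₁.comap w`, `red = red₂ = red₁ ∘ w`,
  `v = u₁ = w u₂`, `v' = u₂`;

and ONE CHART `υ` of the level-`M` atlas at a time (`u = φ(υ_ℚ̄)`, chart ring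
`B = grdB (M p) 𝔸 u` = the elements of `F_ℚ̄(M p)` integral over `𝔸[u]`).

`TtrpChart` is everything Layer B asks from Layer A (helper12 `(A1)`-`(A8)`).  A place `P` in the
chart is GOOD (`TtrpGoodC`) if `v(P)` is a unit of `𝔸`; its reduction is `r (P ∘ φ)`, `r` THE place
reduction map of level `M`.
-/

set_option autoImplicit false
set_option linter.unusedSectionVars false
set_option linter.unusedVariables false
set_option synthInstance.maxHeartbeats 400000

noncomputable section

namespace Fermat.Agent.TT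

open ModularCurve AlgebraicCurve IsLocalRing Polynomial Fermat.Agent.S18 Fermat.Agent.S24
  Fermat.Agent.G Fermat.Agent.FF

local notation "Qb" => AlgebraicClosure ℚ

section Defs

variable (M p : ℕ) [NeZero M] [NeZero p]
variable (A : ValuationSubring Qb)

/-- THE PER-CHART, PER-INDEX INTERFACE of Layer B with Layer A. -/
structure TtrpChart
    (φ : modularFunctionFieldBar M →ₐ[Qb] modularFunctionFieldBar (M * p))
    {υ : LaurentSeries ℤ} (hυ : GrdSerMem M υ)
    (V : Subring (modularFunctionFieldBar (M * p)))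
    (red : ↥V →+* modularFunctionFieldFullC (ResidueField A) M)
    (v : modularFunctionFieldBar (M * p)) : Prop where
  /-- `φ` maps the Gauss ring of level `M` into `V` ... -/
  base_mem : ∀ y ∈ grdO M A, φ y ∈ V
  /-- ... compatibly with the reductions -/
  red_base : ∀ (y : modularFunctionFieldBar M) (hy : y ∈ grdO M A),
    red ⟨φ y, base_mem y hy⟩ = grdRed M A ⟨y, hy⟩
  /-- the chart ring lies in `V` -/
  int_mem : grdB (M * p) A (φ (grdQ M hυ)) ≤ V
  /-- `v` lies in the chart ring -/
  v_int : v ∈ grdB (M * p) A (φ (grdQ M hυ))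
  /-- SATURATION (one index) : `x ∈ B`, `red x = 0` ⟹ `v x ∈ 𝔪_𝔸 B`
  (from `(A8)` `ker (red₁, red₂)|_B = 𝔪_𝔸 B` and `(A6)` `red_other v = 0`). -/
  sat : ∀ (x : modularFunctionFieldBar (M * p)) (hx : x ∈ grdB (M * p) A (φ (grdQ M hυ))),
    red ⟨x, int_mem hx⟩ = 0 →
      ∃ π : Qb, π ∈ A.nonunits ∧ ∃ x' ∈ grdB (M * p) A (φ (grdQ M hυ)),
        v * x = algebraMap Qb (modularFunctionFieldBar (M * p)) π * x'

/-- GOOD PLACES IN A CHART : `u(P) ∈ 𝔸` and `v(P)` is not in `𝔪_𝔸`. -/
def TtrpGoodC (u v : modularFunctionFieldBar (M * p))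
    (P : Place Qb (modularFunctionFieldBar (M * p))) : Prop :=
  GrdInChart (M * p) A u P ∧ ¬ ∃ a : Qb, a ∈ A.nonunits ∧ GrdVal P v a

/-- the places of the good locus of the chart `u` over the place `Q` of `F_k(M)`. -/
def ttrpS (φ : modularFunctionFieldBar M →ₐ[Qb] modularFunctionFieldBar (M * p))
    (hφ : φ.toRingHom.IsIntegral)
    (r : Place Qb (modularFunctionFieldBar M) →
      Place (ResidueField A) (modularFunctionFieldFullC (ResidueField A) M))
    (u v : modularFunctionFieldBar (M * p))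
    (Q : Place (ResidueField A) (modularFunctionFieldFullC (ResidueField A) M)) :
    Set (Place Qb (modularFunctionFieldBar (M * p))) :=
  {P | TtrpGoodC M p A u v P ∧ ttrpR M p A φ hφ r P = Q}

end Defs

end Fermat.Agent.TT
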