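/-
PROGRAM TT (S33), G/Red₂, glue between LAYER A (helper12, `ttr`) and LAYER B (helper6, `ttrp`)
(prefix `ttrx`, owner helper7).

The fields `base_mem` / `red_base` of helper6's `TtrpChart` (TT/Red2/SpecB.lean) for BOTH indices

* index 1 : `φ = α`, `V = V₁ = grdO (M p) 𝔸`, `red = ttrRed1`;
* index 2 : `φ = β`, `V = V₂ = ttrV2`,        `red = ttrRed2`;

the remaining fields (`int_mem`, `v_int`, `sat` = (A8) + (B-kron)) are taken as hypotheses.
-/
import Mathlib
import Fermat.Agent.TT.Red2.Inst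
import Fermat.Agent.TT.Red2.SpecB

set_option autoImplicit false
set_option linter.unusedSectionVars false
set_option linter.unusedVariables false
set_option synthInstance.maxHeartbeats 400000

noncomputable section

namespace Fermat.Agent.TT

open ModularCurve AlgebraicCurve IsLocalRing Fermat.Agent.G Fermat.Agent.S18

local notation "Qb" => AlgebraicClosure ℚ

variable (M : ℕ) [NeZero M] {p : ℕ} [Fact p.Prime] [NeZero p]
variable (A : ValuationSubring Qb)

/-- **`TtrpChart`, index 1** (`φ = α`, `V₁`, `red₁`) from `int_mem`, `v_int`, `sat`. -/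
theorem ttrx_chart₁ (hA : A.LiesOverPrime p) {υ : LaurentSeries ℤ} (hυ : GrdSerMem M υ)
    (v : modularFunctionFieldBar (M * p))
    (hint : grdB (M * p) A (heckeAlphaBar Qb M p (grdQ M hυ)) ≤ grdO (M * p) A)
    (hv : v ∈ grdB (M * p) A (heckeAlphaBar Qb M p (grdQ M hυ)))
    (hsat : ∀ (x : modularFunctionFieldBar (M * p))
      (hx : x ∈ grdB (M * p) A (heckeAlphaBar Qb M p (grdQ M hυ))),
      ttrRed1 M A hA ⟨x, hint hx⟩ = 0 →
        ∃ π : Qb, π ∈ A.nonunits ∧ ∃ x' ∈ grdB (M * p) A (heckeAlphaBar Qb M p (grdQ M hυ)),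
          v * x = algebraMap Qb (modularFunctionFieldBar (M * p)) π * x') :
    TtrpChart M p A (heckeAlphaBar Qb M p) hυ (grdO (M * p) A) (ttrRed1 M A hA) v where
  base_mem y hy := ttr_alpha_mem M A hy
  red_base y hy := ttrRed1_alpha M A hA ⟨y, hy⟩
  int_mem := hint
  v_int := hv
  sat := hsat

/-- **`TtrpChart`, index 2** (`φ = β`, `V₂`, `red₂`) from `int_mem`, `v_int`, `sat`. -/
theorem ttrx_chart₂ (hpM : ¬ p ∣ M) (hA : A.LiesOverPrime p) {υ : LaurentSeries ℤ}
    (hυ : GrdSerMem M υ) (v : modularFunctionFieldBar (M * p))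
    (hint : grdB (M * p) A (heckeBetaBar Qb M p (grdQ M hυ)) ≤ ttrV2 M A hpM)
    (hv : v ∈ grdB (M * p) A (heckeBetaBar Qb M p (grdQ M hυ)))
    (hsat : ∀ (x : modularFunctionFieldBar (M * p))
      (hx : x ∈ grdB (M * p) A (heckeBetaBar Qb M p (grdQ M hυ))),
      ttrRed2 M A hpM hA ⟨x, hint hx⟩ = 0 →
        ∃ π : Qb, π ∈ A.nonunits ∧ ∃ x' ∈ grdB (M * p) A (heckeBetaBar Qb M p (grdQ M hυ)),
          v * x = algebraMap Qb (modularFunctionFieldBar (M * p)) π * x') :
    TtrpChart M p A (heckeBetaBar Qb M p) hυ (ttrV2 M A hpM) (ttrRed2 M A hpM hA) v where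
  base_mem y hy := ttr_beta_mem₂ M A hpM hy
  red_base y hy := ttrRed2_beta M A hpM hA ⟨y, hy⟩
  int_mem := hint
  v_int := hv
  sat := hsat

end Fermat.Agent.TT
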