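import Mathlib
import Fermat.Agent.G.Red.Sat
import Fermat.Agent.G.Red.Gauss
import Fermat.Agent.G.Red.Atlas
import Fermat.Agent.G.GN
import Fermat.Agent.SS.Val.ModMain
import Fermat.Agent.SS.Val.ModAL
import Fermat.Agent.SS.Val.TwoInv
import Fermat.Agent.SQ.Val.ModTwoAll
import Fermat.Agent.SS.Germ.TopJ

/-!
# Program TT (S33), G/Red2 leaf (A8) : THE CHART RINGS OF `X₀(p M)` AT `p`  (part 1)

Owner: helper17.  Namespace `Fermat.Agent.TT`, prefix `ttrc` / `Ttrc`.  Main untouched.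

SETTING. `p` prime, `p ∤ M`, `𝔸 ⊂ ℚ̄` a valuation subring over `p`, `k = 𝔸/𝔪`,
`F = modularFunctionFieldBar (M * p)`, `V₁ = grdO (M * p) 𝔸` (the Gauss ring of level `M p`; main's
`G/Red/Defs` is level-free), `w : F ≃+* F` ANY ring automorphism exchanging `α = heckeAlphaBar` and
`β = heckeBetaBar` (`TtrcW M p w`; helper12's `ttrW`), `V₂ = w⁻¹ V₁`, `O₂ = V₁ ∩ V₂`, i.e.
`x ∈ O₂ ↔ x ∈ grdO (M * p) 𝔸 ∧ w x ∈ grdO (M * p) 𝔸`; `red₁ x = grdRed x`, `red₂ x = grdRed (w x)`.
`τ` a level-`M` chart coordinate (`GrdChart M 𝔸 τ`, e.g. `j`, or `h_a`), `u = α τ = grdQ (M * p) _`,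
`B = grdB (M * p) 𝔸 u` the integral closure of `𝔸[u]` in `F` (THE CHART RING of level `M p`).

CONTENTS (this file):
* §0 generic lemmas (integrally closed; clearing denominators; transitivity);
* §1 number-field level : `V₁(E) ∩ V₂(E) ⊆ P_(ϖ)` (`ssvmm_two_coord` + `ssvma_mem₁_iff/mem₂_iff`);
* §2 `w` commutes with push-up `F_E(M p) → F_ℚ̄(M p)` (`ssvma_hom_ext`);
* §3 `TtrcLoc` (NF-level two-valuation property of a coordinate series), proved for a level-`M` chart
  coordinate with a pole mod `p` (`ttrc_loc_of_chart`) and for its inverse (`ttrc_loc_inv`);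
  **SATURATION** `ttrc_saturated` (`x ∈ O₂`, `π x ∈ B`, `π ≠ 0` ⟹ `x ∈ B`) and
  `ttrc_saturated_int` (`x ∈ O₂` integral over `ℚ̄[u]` ⟹ `x ∈ B`);
* §4 `B ⊆ O₂` (`ttrc_grdB_le`, `ttrc_w_grdB_le`; input (A1) = `V₁` is a valuation ring),
  `ker(red|B) = 𝔪 B` (`ttrc_ker`; input (A5)), finite pole order (`ttrc_pole`),
  fractions (`ttrc_frac`).
-/

set_option autoImplicit false
set_option linter.unusedSectionVars false
set_option linter.unusedVariables false
set_option linter.style.haveILetI false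
set_option synthInstance.maxHeartbeats 400000

noncomputable section

namespace Fermat.Agent.TT

open Polynomial ModularCurve AlgebraicCurve IsLocalRing IntermediateField Fermat.Agent.S24
  Fermat.Agent.G Fermat.Agent.S18 Fermat.Agent.SS Fermat.Agent.SQ

local notation "Qb" => AlgebraicClosure ℚ

/-- a prime is nonzero (local instance, proof-irrelevant) -/
theorem ttrc_neZero (p : ℕ) [Fact p.Prime] : NeZero p := ⟨(Fact.out : p.Prime).ne_zero⟩

attribute [local instance] ttrc_neZero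

/-! ## §0  generic lemmas -/

section Generic

/-- a subring `O` of a field with `x ∈ O ∨ x⁻¹ ∈ O` contains every element integral over a ring
mapping into `O`. -/
theorem ttrc_mem_of_isIntegralElem {R F : Type*} [CommRing R] [Field F] (O : Subring F)
    (hO : ∀ x : F, x ∈ O ∨ x⁻¹ ∈ O) (f : R →+* F) (hf : ∀ r, f r ∈ O) {x : F}
    (hx : f.IsIntegralElem x) : x ∈ O := by
  obtain ⟨p, hp, hpx⟩ := hx
  let V : ValuationSubring F := { O with mem_or_inv_mem' := hO }
  let φ' : R →+* V := f.codRestrict V.toSubring hf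
  have h1 : IsIntegral V x := by
    refine ⟨p.map φ', hp.map _, ?_⟩
    rw [Polynomial.eval₂_map]
    have : (algebraMap V F).comp φ' = f := by
      ext; rfl
    rw [this]
    exact hpx
  obtain ⟨y, hy⟩ := IsIntegrallyClosed.isIntegral_iff.mp h1
  rw [← hy]
  exact y.2

/-- CLEARING DENOMINATORS : `x` integral over `K[u]`, `K = Frac R` ⟹ `b x` integral over `R[u]` for
some `0 ≠ b ∈ R`. -/
theorem ttrc_exists_mul_isIntegralElem {R K S : Type*} [CommRing R] [IsDomain R] [Field K]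
    [Algebra R K] [IsFractionRing R K] [CommRing S] [Algebra K S] (ι : R →+* S)
    (hι : ∀ r, ι r = algebraMap K S (algebraMap R K r)) (u x : S)
    (hx : (eval₂RingHom (algebraMap K S) u).IsIntegralElem x) :
    ∃ b : R, b ≠ 0 ∧ (eval₂RingHom ι u).IsIntegralElem (ι b * x) := by
  classical
  obtain ⟨p, hp, hpx⟩ := hx
  let T : Finset K := p.support.biUnion fun i => (p.coeff i).support.image fun k => (p.coeff i).coeff k
  obtain ⟨b, hb⟩ := IsLocalization.exist_integer_multiples_of_finset (nonZeroDivisors R) T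
  have hb0 : (b : R) ≠ 0 := nonZeroDivisors.coe_ne_zero b
  have hcoeff : ∀ i, C (algebraMap R K (b : R)) * p.coeff i ∈
      Polynomial.lifts (algebraMap R K) := by
    intro i
    rw [Polynomial.lifts_iff_coeff_lifts]
    intro k
    rw [coeff_C_mul]
    by_cases hi : i ∈ p.support
    · by_cases hk : k ∈ (p.coeff i).support
      · have hmem : (p.coeff i).coeff k ∈ T :=
          Finset.mem_biUnion.mpr ⟨i, hi, Finset.mem_image.mpr ⟨k, hk, rfl⟩⟩
        obtain ⟨a, ha⟩ := hb _ hmem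
        exact ⟨a, by rw [ha, Algebra.smul_def]⟩
      · rw [Polynomial.notMem_support_iff.mp hk, mul_zero]
        exact ⟨0, map_zero _⟩
    · rw [Polynomial.notMem_support_iff.mp hi, coeff_zero, mul_zero]
      exact ⟨0, map_zero _⟩
  set s : K[X] := C (algebraMap R K (b : R)) with hs
  have hlift : scaleRoots p s ∈ Polynomial.lifts (mapRingHom (algebraMap R K)) := by
    rw [Polynomial.lifts_iff_coeff_lifts]
    intro i
    rw [coeff_scaleRoots]
    show p.coeff i * s ^ (p.natDegree - i) ∈ Set.range (mapRingHom (algebraMap R K))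
    have hrange : ∀ c : K[X], c ∈ Polynomial.lifts (algebraMap R K) →
        c ∈ Set.range (mapRingHom (algebraMap R K)) := by
      intro c hc
      obtain ⟨c', hc'⟩ := (Polynomial.mem_lifts c).mp hc
      exact ⟨c', hc'⟩
    apply hrange
    rcases lt_trichotomy i p.natDegree with hlt | heq | hgt
    · obtain ⟨m, hm⟩ : ∃ m, p.natDegree - i = m + 1 := ⟨p.natDegree - i - 1, by omega⟩
      rw [hm, pow_succ]
      have e : p.coeff i * (s ^ m * s) = s ^ m * (s * p.coeff i) := by ring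
      rw [e]
      refine Subsemiring.mul_mem _ (Subsemiring.pow_mem _ ?_ m) (hcoeff i)
      exact (Polynomial.mem_lifts _).mpr ⟨C (b : R), by rw [Polynomial.map_C]⟩
    · rw [heq, Nat.sub_self, pow_zero, mul_one, coeff_natDegree, hp.leadingCoeff]
      exact Subsemiring.one_mem _
    · rw [coeff_eq_zero_of_natDegree_lt hgt, zero_mul]
      exact Subsemiring.zero_mem _
  obtain ⟨P, hPmap, -, hPmonic⟩ :=
    lifts_and_degree_eq_and_monic hlift ((monic_scaleRoots_iff s).mpr hp)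
  have hcomp : (eval₂RingHom (algebraMap K S) u).comp (mapRingHom (algebraMap R K)) =
      eval₂RingHom ι u := by
    apply Polynomial.ringHom_ext
    · intro a
      simp only [RingHom.comp_apply, coe_mapRingHom, map_C, coe_eval₂RingHom, eval₂_C]
      exact (hι a).symm
    · simp only [RingHom.comp_apply, coe_mapRingHom, map_X, coe_eval₂RingHom, eval₂_X]
  refine ⟨b, hb0, P, hPmonic, ?_⟩
  rw [← hcomp, ← eval₂_map]
  have hP' : P.map (mapRingHom (algebraMap R K)) = scaleRoots p s := hPmap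
  rw [hP']
  have e : ι (b : R) = (eval₂RingHom (algebraMap K S) u) s := by
    rw [hs, coe_eval₂RingHom, eval₂_C, hι]
  rw [e]
  exact scaleRoots_eval₂_eq_zero _ hpx

/-- TRANSITIVITY along a ring homomorphism : if `φ u₀` is integral over `R[u]` then `φ` maps the
elements integral over `R[u₀]` to elements integral over `R[u]`. -/
theorem ttrc_isIntegralElem_map {R S₀ S : Type*} [CommRing R] [CommRing S₀] [CommRing S]
    [Nontrivial S] (ι₀ : R →+* S₀) (ι : R →+* S) (φ : S₀ →+* S) (hφ : ∀ r, φ (ι₀ r) = ι r)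
    (u₀ : S₀) (u : S) (hu : (eval₂RingHom ι u).IsIntegralElem (φ u₀)) {x : S₀}
    (hx : (eval₂RingHom ι₀ u₀).IsIntegralElem x) : (eval₂RingHom ι u).IsIntegralElem (φ x) := by
  letI : Algebra R[X] S := (eval₂RingHom ι u).toAlgebra
  have hu' : IsIntegral R[X] (φ u₀) := hu
  show IsIntegral R[X] (φ x)
  obtain ⟨p, hp, hpx⟩ := hx
  -- the coefficients of the image polynomial are integral
  have hcoeff : ∀ a : R[X], IsIntegral R[X] (φ (eval₂RingHom ι₀ u₀ a)) := by
    intro a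
    rw [coe_eval₂RingHom, eval₂_eq_sum_range, map_sum]
    refine IsIntegral.sum _ fun i _ => ?_
    rw [map_mul, map_pow, hφ]
    refine IsIntegral.mul ?_ (hu'.pow i)
    have : ι (a.coeff i) = algebraMap R[X] S (C (a.coeff i)) := by
      show _ = eval₂RingHom ι u (C (a.coeff i))
      rw [coe_eval₂RingHom, eval₂_C]
    rw [this]
    exact isIntegral_algebraMap
  have hev : eval (φ x) (p.map (φ.comp (eval₂RingHom ι₀ u₀))) = 0 := by
    rw [eval_map, ← Polynomial.hom_eval₂, hpx, map_zero]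
  have hdeg : (p.map (φ.comp (eval₂RingHom ι₀ u₀))).natDegree ≠ 0 := by
    rw [hp.natDegree_map]
    intro h0
    have h1 : p = 1 := by
      rw [Polynomial.eq_C_of_natDegree_eq_zero h0]
      have := hp.leadingCoeff
      rw [Polynomial.leadingCoeff, h0] at this
      rw [this, map_one]
    rw [h1, Polynomial.map_one, eval_one] at hev
    exact one_ne_zero hev
  refine IsIntegral.of_aeval_monic_of_isIntegral_coeff (hp.map _) hdeg ?_ ?_
  · rw [hev]
    exact isIntegral_zero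
  · intro i
    rw [coeff_map]
    exact hcoeff (p.coeff i)

end Generic

/-! ## §1–§3  number-field level, `w`, `TtrcLoc`, saturation -/

section NF

variable {q : ℕ} [Fact q.Prime] (𝔸 : ValuationSubring Qb) (E : IntermediateField ℚ Qb)
  [IsDiscreteValuationRing ↥(s18dVal 𝔸 E)] [CharZero ↥(s18dVal 𝔸 E)]
variable (M : ℕ) [NeZero M]

/-- NF LEVEL : `V₁ ∩ V₂ ⊆ P_(ϖ)` in the coordinate `α t₀` (`t₀` a good coordinate of level `M`
with a pole modulo `ϖ`). -/
theorem ttrc_nf_mem_intLoc (hA : 𝔸.LiesOverPrime q) (hqM : ¬ q ∣ M) {ϖ : ↥(s18dVal 𝔸 E)}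
    (hϖ : Irreducible ϖ) (t₀ : ↥(modularFunctionFieldFullC E M))
    (τ : LaurentSeries ↥(s18dVal 𝔸 E)) (ht : S18VPole (modularFunctionFieldFullC E M) t₀ τ)
    (hc : S18Coord hϖ (modularFunctionFieldFullC E M) t₀)
    (w : modularFunctionFieldFullC E (M * q) ≃+* modularFunctionFieldFullC E (M * q))
    (hwα : ∀ x : modularFunctionFieldFullC E M, w (ssvmdIncl E M q x) = ssvmfPhi E M q x)
    (hwβ : ∀ x : modularFunctionFieldFullC E M, w (ssvmfPhi E M q x) = ssvmdIncl E M q x)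
    (hww : ∀ x : modularFunctionFieldFullC E (M * q), w (w x) = x)
    (z : modularFunctionFieldFullC E (M * q))
    (hz₁ : z ∈ s18vO ↥(s18dVal 𝔸 E) (modularFunctionFieldFullC E (M * q)))
    (hz₂ : w z ∈ s18vO ↥(s18dVal 𝔸 E) (modularFunctionFieldFullC E (M * q))) :
    z ∈ s18tIntLoc ↥(s18dVal 𝔸 E) (IntermediateField.inclusion (ssvmm_le E M q) t₀) (C ϖ)
      (s18t_prime_C hϖ) := by
  obtain ⟨Ξ, G, h, h2⟩ := ssvmm_two_coord 𝔸 E M hA hqM hϖ t₀ τ ht hc
  rw [h2.mem_iff]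
  exact ⟨((ssvma_mem₁_iff 𝔸 E M hA hϖ Ξ G h z).1).mpr hz₁,
    ((ssvma_mem₂_iff 𝔸 E M hA hqM hϖ Ξ G h w hwα hwβ hww z).1).mpr hz₂⟩

end NF

section Up

variable (E : IntermediateField ℚ Qb) (M : ℕ) [NeZero M] (p : ℕ) [NeZero p]

theorem ttrc_up_incl (x : modularFunctionFieldFullC E M) :
    ssvmmUp E (M * p) (ssvmdIncl E M p x) = heckeAlphaBar Qb M p (ssvmmUp E M x) := by
  apply Subtype.ext
  rw [coe_heckeAlphaBar, ssvmmUp_coe, ssvmmUp_coe, ssvmdIncl_coe]

theorem ttrc_up_phi (x : modularFunctionFieldFullC E M) :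
    ssvmmUp E (M * p) (ssvmfPhi E M p x) = heckeBetaBar Qb M p (ssvmmUp E M x) := by
  apply Subtype.ext
  rw [coe_heckeBetaBar, ssvmmUp_coe, ssvmmUp_coe, ssvmfPhi_coe]
  exact coeffMap_qExpand _ _ _

end Up

section W

variable (M : ℕ) [NeZero M] (p : ℕ) [Fact p.Prime]

/-- `w` is an Atkin–Lehner involution of `F_ℚ̄(M p)` : a ring automorphism exchanging `α` and `β`
(helper12's `ttrW`). -/
def TtrcW (w : modularFunctionFieldBar (M * p) ≃+* modularFunctionFieldBar (M * p)) : Prop :=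
  (∀ x : modularFunctionFieldBar M, w (heckeAlphaBar Qb M p x) = heckeBetaBar Qb M p x) ∧
  (∀ x : modularFunctionFieldBar M, w (heckeBetaBar Qb M p x) = heckeAlphaBar Qb M p x)

variable {M p}

/-- `w` commutes with the Atkin–Lehner involution of `F_E(M p)` -/
theorem ttrc_w_up {w : modularFunctionFieldBar (M * p) ≃+* modularFunctionFieldBar (M * p)}
    (hw : TtrcW M p w) (E : IntermediateField ℚ Qb)
    (wE : modularFunctionFieldFullC E (M * p) ≃+* modularFunctionFieldFullC E (M * p))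
    (hwα : ∀ x : modularFunctionFieldFullC E M, wE (ssvmdIncl E M p x) = ssvmfPhi E M p x)
    (hwβ : ∀ x : modularFunctionFieldFullC E M, wE (ssvmfPhi E M p x) = ssvmdIncl E M p x)
    (z : modularFunctionFieldFullC E (M * p)) :
    w (ssvmmUp E (M * p) z) = ssvmmUp E (M * p) (wE z) := by
  have key : (w : modularFunctionFieldBar (M * p) →+* modularFunctionFieldBar (M * p)).comp
      (ssvmmUp E (M * p)) = (ssvmmUp E (M * p)).comp
        (wE : modularFunctionFieldFullC E (M * p) →+* modularFunctionFieldFullC E (M * p)) := by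
    apply ssvma_hom_ext (↥E) M
    · intro x
      simp only [RingHom.comp_apply, RingHom.coe_coe]
      rw [hwα, ttrc_up_incl, ttrc_up_phi, hw.1]
    · intro x
      simp only [RingHom.comp_apply, RingHom.coe_coe]
      rw [hwβ, ttrc_up_incl, ttrc_up_phi, hw.2]
  exact RingHom.congr_fun key z

/-- `w` fixes the constants -/
theorem ttrc_w_algebraMap {w : modularFunctionFieldBar (M * p) ≃+* modularFunctionFieldBar (M * p)}
    (hw : TtrcW M p w) (c : Qb) :
    w (algebraMap Qb (modularFunctionFieldBar (M * p)) c) =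
      algebraMap Qb (modularFunctionFieldBar (M * p)) c := by
  have h1 := hw.1 (algebraMap Qb (modularFunctionFieldBar M) c)
  rw [AlgHom.commutes, AlgHom.commutes] at h1
  exact h1

end W

section Sat

variable (M : ℕ) [NeZero M] (p : ℕ) [Fact p.Prime] (A : ValuationSubring Qb)
variable (w : modularFunctionFieldBar (M * p) ≃+* modularFunctionFieldBar (M * p))

/-- a level-`M` coordinate series is a level-`M p` coordinate series -/
theorem ttrc_serMem {υ : LaurentSeries ℤ} (hυ : GrdSerMem M υ) : GrdSerMem (M * p) υ :=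
  fun K _ => ssvmm_le K M p (hυ K)

/-- NF-LEVEL TWO-VALUATION PROPERTY of the coordinate series `υ` at level `M p` : for every large
number field `E`, `t = υ_E` is a chart coordinate of `F_E(M p)`, and an element `z` of the Gauss
ring of `F_E(M p)` whose `w`-image (computed over `ℚ̄`) is again the push-up of an element of the
Gauss ring lies in `P_(ϖ)`, the integral closure of `(𝔸 ∩ E)[t]_(ϖ)`. -/
def TtrcLoc (υ : LaurentSeries ℤ) (hυ : GrdSerMem (M * p) υ) : Prop :=
  ∃ E₀ : IntermediateField ℚ Qb, FiniteDimensional ℚ E₀ ∧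
    ∀ E : IntermediateField ℚ Qb, E₀ ≤ E → FiniteDimensional ℚ E →
      ∀ [IsDiscreteValuationRing (s18dVal A E)] [CharZero (s18dVal A E)]
        (ϖ : s18dVal A E) (hϖ : Irreducible ϖ),
        Transcendental E (⟨grdSer υ E, hυ E⟩ : modularFunctionFieldFullC E (M * p)) ∧
        FiniteDimensional E⟮(⟨grdSer υ E, hυ E⟩ : modularFunctionFieldFullC E (M * p))⟯
          (modularFunctionFieldFullC E (M * p)) ∧
        ∀ z z' : modularFunctionFieldFullC E (M * p),
          z ∈ s18vO (s18dVal A E) (modularFunctionFieldFullC E (M * p)) →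
          z' ∈ s18vO (s18dVal A E) (modularFunctionFieldFullC E (M * p)) →
          ssvmmUp E (M * p) z' = w (ssvmmUp E (M * p) z) →
          z ∈ s18tIntLoc (s18dVal A E)
            (⟨grdSer υ E, hυ E⟩ : modularFunctionFieldFullC E (M * p)) (C ϖ) (s18t_prime_C hϖ)

variable {M p A w}

set_option maxHeartbeats 1000000 in
/-- `TtrcLoc` for a level-`M` coordinate series `τ` with a pole modulo `p` which is a good
coordinate (`S18Coord` : the Gauss valuation of `E(τ)` has a unique, unramified extension to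
`F_E(M)`) for all large number fields `E`. -/
theorem ttrc_loc_of_coord (hA : A.LiesOverPrime p) (hpM : ¬ p ∣ M) (hw : TtrcW M p w)
    {τ : LaurentSeries ℤ} (hmem : GrdSerMem M τ)
    (hlvl : ∃ E₀ : IntermediateField ℚ Qb, FiniteDimensional ℚ E₀ ∧
      ∀ E : IntermediateField ℚ Qb, E₀ ≤ E → FiniteDimensional ℚ E →
        ∀ [IsDiscreteValuationRing (s18dVal A E)] [CharZero (s18dVal A E)]
          (ϖ : s18dVal A E) (hϖ : Irreducible ϖ),
          S18Coord hϖ (modularFunctionFieldFullC E M) ⟨grdSer τ E, hmem E⟩)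
    (hpole : ∀ (K : Type) [Field K], (grdSer τ K).order < 0) :
    TtrcLoc M p A w τ (ttrc_serMem M p hmem) := by
  obtain ⟨E₀, hfd₀, hlvl⟩ := hlvl
  refine ⟨E₀, hfd₀, fun E hE hfd _ _ ϖ hϖ => ?_⟩
  have hcoord := hlvl E hE hfd ϖ hϖ
  set t₀ : modularFunctionFieldFullC E M := ⟨grdSer τ E, hmem E⟩ with ht₀
  have hpoleE : S18VPole (modularFunctionFieldFullC E M) t₀ (grdSer τ (s18dVal A E)) := by
    refine ⟨?_, ?_⟩
    · exact (grdSer_coeffMap τ (algebraMap (s18dVal A E) E)).symm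
    · rw [grdSer_coeffMap]
      exact hpole _
  have et : (⟨grdSer τ E, ttrc_serMem M p hmem E⟩ : modularFunctionFieldFullC E (M * p)) =
      ssvmdIncl E M p t₀ := Subtype.ext (ssvmdIncl_coe E M p t₀).symm
  have et' : (⟨grdSer τ E, ttrc_serMem M p hmem E⟩ : modularFunctionFieldFullC E (M * p)) =
      IntermediateField.inclusion (ssvmm_le E M p) t₀ := Subtype.ext rfl
  haveI := hcoord.fin
  have hpos : letI := algebraAlong (ssvmdIncl E M p)
      0 < Module.finrank (modularFunctionFieldFullC E M) (modularFunctionFieldFullC E (M * p)) := by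
    rw [ssvmd_finrank E M hpM]
    omega
  obtain ⟨htr, hfin⟩ := sqvm_transc_fin (ssvmdIncl E M p) t₀ hcoord.transc hpos
  obtain ⟨wE, hwα, hwβ, hww, -⟩ := ssvma_exists_w E M hpM
  refine ⟨et ▸ htr, et ▸ hfin, fun z z' hz hz' hup => ?_⟩
  rw [et']
  refine ttrc_nf_mem_intLoc A E M hA hpM hϖ t₀ _ hpoleE hcoord wE hwα hwβ hww z hz ?_
  have h1 : ssvmmUp E (M * p) (wE z) = ssvmmUp E (M * p) z' := by
    rw [← ttrc_w_up hw E wE hwα hwβ z, hup]
  rw [(ssvmmUp E (M * p)).injective h1]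
  exact hz'

/-- `TtrcLoc` for a level-`M` chart coordinate `τ` (`GrdChart M 𝔸 τ`) with a pole modulo `p`. -/
theorem ttrc_loc_of_chart (hA : A.LiesOverPrime p) (hpM : ¬ p ∣ M) (hw : TtrcW M p w)
    {τ : LaurentSeries ℤ} (hc : GrdChart M A τ)
    (hpole : ∀ (K : Type) [Field K], (grdSer τ K).order < 0) :
    TtrcLoc M p A w τ (ttrc_serMem M p hc.mem) := by
  obtain ⟨E₀, hfd₀, hlvl⟩ := hc.lvl
  exact ttrc_loc_of_coord hA hpM hw hc.mem
    ⟨E₀, hfd₀, fun E hE hfd _ _ ϖ hϖ => (hlvl E hE hfd ϖ hϖ).1⟩ hpole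

/-- `TtrcLoc` for the inverse coordinate. -/
theorem ttrc_loc_inv {τ τ' : LaurentSeries ℤ} (hττ' : τ * τ' = 1) {hτ : GrdSerMem (M * p) τ}
    (hloc : TtrcLoc M p A w τ hτ) (hτ' : GrdSerMem (M * p) τ') : TtrcLoc M p A w τ' hτ' := by
  obtain ⟨E₀, hfd₀, hlvl⟩ := hloc
  refine ⟨E₀, hfd₀, fun E hE hfd _ _ ϖ hϖ => ?_⟩
  obtain ⟨htr, hfin, hmem⟩ := hlvl E hE hfd ϖ hϖ
  have et : (⟨grdSer τ' E, hτ' E⟩ : modularFunctionFieldFullC E (M * p)) =
      (⟨grdSer τ E, hτ E⟩ : modularFunctionFieldFullC E (M * p))⁻¹ := by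
    apply eq_inv_of_mul_eq_one_right
    apply Subtype.ext
    show grdSer τ E * grdSer τ' E = 1
    unfold grdSer
    rw [← map_mul, hττ', map_one]
  haveI := hfin
  rw [et]
  refine ⟨ssgtop_transc_inv htr, ssgtop_fin_inv _, fun z z' hz hz' hup => ?_⟩
  rw [ssvti_intLoc_inv (L := E) hϖ _ htr]
  exact hmem z z' hz hz' hup

/-- **(A8)(ii) SATURATION at level `M p`** : `x ∈ O₂ = V₁ ∩ V₂` (i.e. `x, w x ∈ grdO (M p)`),
`π x` integral over `𝔸[u]`, `π ≠ 0` ⟹ `x` integral over `𝔸[u]`. -/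
theorem ttrc_saturated (hA : A.LiesOverPrime p) {υ : LaurentSeries ℤ} {hυ : GrdSerMem (M * p) υ}
    (hloc : TtrcLoc M p A w υ hυ) (x : modularFunctionFieldBar (M * p))
    (hx₁ : x ∈ grdO (M * p) A) (hx₂ : w x ∈ grdO (M * p) A) (π : A) (hπ : π ≠ 0)
    (h : GrdIsInt (M * p) A (grdQ (M * p) hυ)
      (algebraMap Qb (modularFunctionFieldBar (M * p)) (π : Qb) * x)) :
    GrdIsInt (M * p) A (grdQ (M * p) hυ) x := by
  obtain ⟨E₀, hfd₀, hlvl⟩ := hloc
  obtain ⟨E₁, hfd₁, h₁⟩ := grdst_descend_gauss (M * p) A ⟨x, hx₁⟩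
  obtain ⟨E₁', hfd₁', h₁'⟩ := grdst_descend_gauss (M * p) A ⟨w x, hx₂⟩
  obtain ⟨E₂, hfd₂, h₂⟩ := grdst_descend_int (M * p) A hυ _ h
  obtain ⟨E₃, hfd₃, h₃⟩ := grdst_exists_field {(π : Qb)}
  have hE₀ : E₀ ≤ E₀ ⊔ E₁ ⊔ E₁' ⊔ E₂ ⊔ E₃ :=
    le_trans (le_trans (le_trans le_sup_left le_sup_left) le_sup_left) le_sup_left
  have hE₁ : E₁ ≤ E₀ ⊔ E₁ ⊔ E₁' ⊔ E₂ ⊔ E₃ :=
    le_trans (le_trans (le_trans le_sup_right le_sup_left) le_sup_left) le_sup_left
  have hE₁' : E₁' ≤ E₀ ⊔ E₁ ⊔ E₁' ⊔ E₂ ⊔ E₃ :=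
    le_trans (le_trans le_sup_right le_sup_left) le_sup_left
  have hE₂ : E₂ ≤ E₀ ⊔ E₁ ⊔ E₁' ⊔ E₂ ⊔ E₃ := le_trans le_sup_right le_sup_left
  have hE₃ : E₃ ≤ E₀ ⊔ E₁ ⊔ E₁' ⊔ E₂ ⊔ E₃ := le_sup_right
  have hfd : FiniteDimensional ℚ ↥(E₀ ⊔ E₁ ⊔ E₁' ⊔ E₂ ⊔ E₃) := inferInstance
  generalize E₀ ⊔ E₁ ⊔ E₁' ⊔ E₂ ⊔ E₃ = E at hE₀ hE₁ hE₁' hE₂ hE₃ hfd
  have : IsDiscreteValuationRing (s18dVal A E) := s18d_isDVR A E hA
  have : CharZero (s18dVal A E) := ggn_charZero A E
  obtain ⟨ϖ, hϖ⟩ := IsDiscreteValuationRing.exists_irreducible (s18dVal A E)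
  obtain ⟨htr, hfin, hmem⟩ := hlvl E hE₀ hfd ϖ hϖ
  obtain ⟨z, hz, hzO⟩ := h₁ E hE₁
  obtain ⟨z', hz', hzO'⟩ := h₁' E hE₁'
  have hx : x = grdstUp (M * p) E z := hz.symm
  rw [hx]
  apply grdst_ascend_int
  have hπE : (π : Qb) ∈ E := hE₃ (h₃ _ (Finset.mem_singleton_self _))
  refine grdst_saturated_const (L₀ := E) hϖ _ htr
    (⟨⟨(π : Qb), hπE⟩, π.2⟩ : s18dVal A E) ?_ z ?_ ?_
  · intro h0
    apply hπ
    apply Subtype.ext
    have := congrArg (fun a : s18dVal A E => algebraMap E Qb (a : E)) h0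
    simpa using this
  · refine hmem z z' hzO hzO' ?_
    show grdstUp (M * p) E z' = w (grdstUp (M * p) E z)
    rw [hz', hz]
  · apply h₂ E hE₂
    rw [map_mul, hz, grdstUp_algebraMap]
    rfl


/-- **(A8)(ii') SATURATION, generic-fibre form** : `x ∈ O₂` integral over `ℚ̄[u]` ⟹ `x` integral
over `𝔸[u]`. -/
theorem ttrc_saturated_int (hA : A.LiesOverPrime p) {υ : LaurentSeries ℤ}
    {hυ : GrdSerMem (M * p) υ} (hloc : TtrcLoc M p A w υ hυ)
    (x : modularFunctionFieldBar (M * p)) (hx₁ : x ∈ grdO (M * p) A)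
    (hx₂ : w x ∈ grdO (M * p) A)
    (h : (eval₂RingHom (algebraMap Qb (modularFunctionFieldBar (M * p)))
      (grdQ (M * p) hυ)).IsIntegralElem x) :
    GrdIsInt (M * p) A (grdQ (M * p) hυ) x := by
  obtain ⟨b, hb0, hb⟩ := ttrc_exists_mul_isIntegralElem (R := ↥A) (K := Qb)
    (grdInclA (M * p) A) (fun r => rfl) (grdQ (M * p) hυ) x h
  exact ttrc_saturated hA hloc x hx₁ hx₂ b hb0 hb

end Sat

/-! ## §4  the chart ring : `B ⊆ O₂`, the kernel of the reduction, pole orders, fractions -/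

section ChartRing

variable (N : ℕ) [NeZero N] (A : ValuationSubring Qb)

/-- (A8)(i), first half, at ANY level `N` : if the Gauss ring is a valuation ring (helper12's (A1))
then the chart ring of a coordinate `u` of the Gauss ring lies in the Gauss ring. -/
theorem ttrc_grdB_le (hV : ∀ x : modularFunctionFieldBar N, x ∈ grdO N A ∨ x⁻¹ ∈ grdO N A)
    {u : modularFunctionFieldBar N} (hu : u ∈ grdO N A) : grdB N A u ≤ grdO N A := fun x hx =>
  ttrc_mem_of_isIntegralElem (grdO N A) hV _ (grdga_eval_mem N A hu) hx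

/-- (A8)(vi) FINITE POLE ORDER : `u u' = 1`, `x` integral over `𝔸[u']` ⟹ `u^n x` integral over
`𝔸[u]` for some `n`. -/
theorem ttrc_pole {u u' : modularFunctionFieldBar N} (huu' : u * u' = 1)
    {x : modularFunctionFieldBar N} (hx : x ∈ grdB N A u') : ∃ n : ℕ, u ^ n * x ∈ grdB N A u :=
  grda_isIntegralElem_pow_mul (grdInclA N A) u u' huu' x hx

end ChartRing

section ChartRing2

variable {M : ℕ} [NeZero M] {p : ℕ} [Fact p.Prime] {A : ValuationSubring Qb}
variable {w : modularFunctionFieldBar (M * p) ≃+* modularFunctionFieldBar (M * p)}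

/-- `w` maps the chart ring of `u` onto the chart ring of `w u` -/
theorem ttrc_w_isInt (hw : TtrcW M p w) {u x : modularFunctionFieldBar (M * p)}
    (hx : x ∈ grdB (M * p) A u) : w x ∈ grdB (M * p) A (w u) := by
  refine grdst_isIntegralElem_map (eval₂RingHom (grdInclA (M * p) A) u)
    (eval₂RingHom (grdInclA (M * p) A) (w u)) (RingHom.id _)
    (w : modularFunctionFieldBar (M * p) →+* modularFunctionFieldBar (M * p)) ?_ hx
  apply Polynomial.ringHom_ext
  · intro a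
    simp only [RingHom.comp_apply, RingHom.id_apply, coe_eval₂RingHom, eval₂_C, RingHom.coe_coe]
    exact (ttrc_w_algebraMap hw _).symm
  · simp only [RingHom.comp_apply, RingHom.id_apply, coe_eval₂RingHom, eval₂_X, RingHom.coe_coe]

/-- (A8)(i), second half : `w B ⊆ V₁`, i.e. `B ⊆ V₂ = w⁻¹ V₁`, as soon as `w u ∈ V₁`. -/
theorem ttrc_w_grdB_le (hw : TtrcW M p w)
    (hV : ∀ x : modularFunctionFieldBar (M * p), x ∈ grdO (M * p) A ∨ x⁻¹ ∈ grdO (M * p) A)
    {u : modularFunctionFieldBar (M * p)} (hu : w u ∈ grdO (M * p) A)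
    {x : modularFunctionFieldBar (M * p)} (hx : x ∈ grdB (M * p) A u) : w x ∈ grdO (M * p) A :=
  ttrc_grdB_le (M * p) A hV hu (ttrc_w_isInt hw hx)

/-- **(A8)(iii) THE KERNEL OF THE REDUCTION ON THE CHART RING** : from `ker(red) = 𝔪 O₂`
(helper12's (A5), hypothesis `hker`) and saturation : an element of `B` with `red = 0` is `c y`
with `c ∈ 𝔪_𝔸`, `y ∈ B`. -/
theorem ttrc_ker (hA : A.LiesOverPrime p) {υ : LaurentSeries ℤ} {hυ : GrdSerMem (M * p) υ}
    (hloc : TtrcLoc M p A w υ hυ)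
    (hker : ∀ (x : modularFunctionFieldBar (M * p)) (h₁ : x ∈ grdO (M * p) A)
      (h₂ : w x ∈ grdO (M * p) A), grdRed (M * p) A ⟨x, h₁⟩ = 0 →
      grdRed (M * p) A ⟨w x, h₂⟩ = 0 → ∃ c : A, c ∈ maximalIdeal A ∧
        ∃ y : modularFunctionFieldBar (M * p), y ∈ grdO (M * p) A ∧ w y ∈ grdO (M * p) A ∧
          x = algebraMap Qb (modularFunctionFieldBar (M * p)) (c : Qb) * y)
    (x : modularFunctionFieldBar (M * p)) (hx : x ∈ grdB (M * p) A (grdQ (M * p) hυ))
    (h₁ : x ∈ grdO (M * p) A) (h₂ : w x ∈ grdO (M * p) A)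
    (hr₁ : grdRed (M * p) A ⟨x, h₁⟩ = 0) (hr₂ : grdRed (M * p) A ⟨w x, h₂⟩ = 0) :
    ∃ c : A, c ∈ maximalIdeal A ∧ ∃ y : modularFunctionFieldBar (M * p),
      y ∈ grdB (M * p) A (grdQ (M * p) hυ) ∧
        x = algebraMap Qb (modularFunctionFieldBar (M * p)) (c : Qb) * y := by
  obtain ⟨c, hc, y, hy₁, hy₂, hxy⟩ := hker x h₁ h₂ hr₁ hr₂
  by_cases hc0 : c = 0
  · refine ⟨c, hc, 0, Subring.zero_mem _, ?_⟩
    rw [hxy, hc0]
    simp
  · refine ⟨c, hc, y, ?_, hxy⟩
    refine ttrc_saturated hA hloc y hy₁ hy₂ c hc0 ?_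
    rw [← hxy]
    exact hx

end ChartRing2



end Fermat.Agent.TT
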