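import Mathlib
import Fermat.Agent.TT.Red2.Chart
import Fermat.Agent.G.Red.Lift
import Fermat.Agent.G.Red.Inst
import Fermat.Agent.S24.Degree

/-!
# Program TT (S33), G/Red2 leaf (A8) : THE CHART RINGS OF `X₀(p M)` AT `p`  (part 2 : reductions)

Owner: helper17.  Namespace `Fermat.Agent.TT`, prefix `ttrc`.  Notation of `TT/Red2/Chart.lean`.

* level compatibility : `α`, `β` map the Gauss ring / the chart ring of level `M` into those of
  level `M p`, with `red₁ (α x) = x̄`, `red₁ (β x) = x̄(q^p)` (`ttrc_al_mem`, `ttrc_be_mem`,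
  `ttrc_al_isInt`, `ttrc_be_isInt`);
* **(A8)(iv) ONTO** : `ttrc_lift₁` (every `c` of the normal chart ring `C_M` of `F_k(M)` is `red₁ x`,
  `x = α x₀ ∈ B`, `red₂ x = c(q^p)`), `ttrc_lift₂` (same for `red₂`, `x = β x₀`, if `β u ∈ B`);
  **INTO** : `ttrc_red₁_int`, `ttrc_red₂_int`, `ttrc_intRing_phi_le` (`red_i B` integral over `k[ū]`);
* **FRACTIONS / CONDUCTOR** : `ttrc_frac`, `ttrc_red_eval`, `ttrc_frac_red` : every `e ∈ O₂` has a
  denominator `g(u)`, `ḡ ≠ 0`, with `g(u) e ∈ B` and explicit reductions; with helper12's (A6)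
  (`e` with `red e = (1, 0)`) : `(ḡ(ū), 0) ∈ red B`, hence `red B ⊇ (ḡ(ū), 0) · red₁ B` :
  FINITE COLENGTH (`ttrc_conductor`);
* the instance `τ = j` : `ttrc_loc_j`, `ttrc_loc_jinv`, `ttrc_be_j_isInt` (`j(q^p)` is integral over
  `𝔸[j]` at level `M p`).
-/

set_option autoImplicit false
set_option linter.unusedSectionVars false
set_option linter.unusedVariables false
set_option linter.style.haveILetI false
set_option synthInstance.maxHeartbeats 400000

noncomputable section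

namespace Fermat.Agent.TT

open Polynomial ModularCurve AlgebraicCurve IsLocalRing IntermediateField Fermat.Agent.S24
  Fermat.Agent.G Fermat.Agent.S18 Fermat.Agent.SS Fermat.Agent.SQ

local notation "Qb" => AlgebraicClosure ℚ

attribute [local instance] ttrc_neZero

/-! ## level compatibility -/

section Compat

variable (M : ℕ) [NeZero M] (p : ℕ) [NeZero p] (A : ValuationSubring Qb)

/-- a good integral series of level `M` is a good integral series of level `M p` -/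
theorem ttrc_good_al {a : LaurentSeries A} (ha : S18Good M A a) : S18Good (M * p) A a :=
  ⟨(heckeAlphaBar Qb M p ⟨_, ha.1⟩).2, ssvmm_le (ResidueField A) M p ha.2⟩

/-- `a(q^p)` is a good integral series of level `M p` -/
theorem ttrc_good_be {a : LaurentSeries A} (ha : S18Good M A a) :
    S18Good (M * p) A (qExpand A p a) := by
  refine ⟨?_, ?_⟩
  · rw [coeffMap_qExpand]
    exact (heckeBetaBar Qb M p ⟨_, ha.1⟩).2
  · rw [coeffMap_qExpand]
    exact full_degeneracyC_map_le (ResidueField A) M p ⟨_, ha.2, rfl⟩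

/-- `α` maps the Gauss ring of level `M` into the Gauss ring of level `M p`, with the same
reduction (as a series). -/
theorem ttrc_al_mem {x : modularFunctionFieldBar M} (hx : x ∈ grdO M A) :
    ∃ h : heckeAlphaBar Qb M p x ∈ grdO (M * p) A,
      ((grdRed (M * p) A ⟨_, h⟩ : modularFunctionFieldFullC (ResidueField A) (M * p)) :
        LaurentSeries (ResidueField A)) =
      ((grdRed M A ⟨x, hx⟩ : modularFunctionFieldFullC (ResidueField A) M) :
        LaurentSeries (ResidueField A)) := by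
  have hx' := hx
  obtain ⟨a, b, ha, hb, hb0, hxab⟩ := hx'
  have hxab' : ((heckeAlphaBar Qb M p x : modularFunctionFieldBar (M * p)) : LaurentSeries Qb) *
      coeffMap A.subtype b = coeffMap A.subtype a := by
    rw [coe_heckeAlphaBar]
    exact hxab
  have h : heckeAlphaBar Qb M p x ∈ grdO (M * p) A :=
    ⟨a, b, ttrc_good_al M p A ha, ttrc_good_al M p A hb, hb0, hxab'⟩
  refine ⟨h, ?_⟩
  rw [grdRed_eq (M * p) A ⟨_, h⟩ a b hb0 hxab', grdRed_eq M A ⟨x, hx⟩ a b hb0 hxab]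

/-- `β` maps the Gauss ring of level `M` into the Gauss ring of level `M p`, and the reduction of
`β x` is `x̄(q^p)`. -/
theorem ttrc_be_mem {x : modularFunctionFieldBar M} (hx : x ∈ grdO M A) :
    ∃ h : heckeBetaBar Qb M p x ∈ grdO (M * p) A,
      ((grdRed (M * p) A ⟨_, h⟩ : modularFunctionFieldFullC (ResidueField A) (M * p)) :
        LaurentSeries (ResidueField A)) =
      qExpand (ResidueField A) p
        ((grdRed M A ⟨x, hx⟩ : modularFunctionFieldFullC (ResidueField A) M) :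
          LaurentSeries (ResidueField A)) := by
  have hx' := hx
  obtain ⟨a, b, ha, hb, hb0, hxab⟩ := hx'
  have hxab' : ((heckeBetaBar Qb M p x : modularFunctionFieldBar (M * p)) : LaurentSeries Qb) *
      coeffMap A.subtype (qExpand A p b) = coeffMap A.subtype (qExpand A p a) := by
    rw [coe_heckeBetaBar, coeffMap_qExpand, coeffMap_qExpand, ← map_mul, hxab]
  have hb0' : coeffMap (residue A) (qExpand A p b) ≠ 0 := by
    rw [coeffMap_qExpand]
    intro h0
    apply hb0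
    apply qExpand_injective p
    rw [h0, map_zero]
  have h : heckeBetaBar Qb M p x ∈ grdO (M * p) A :=
    ⟨qExpand A p a, qExpand A p b, ttrc_good_be M p A ha, ttrc_good_be M p A hb, hb0', hxab'⟩
  refine ⟨h, ?_⟩
  rw [grdRed_eq (M * p) A ⟨_, h⟩ _ _ hb0' hxab', grdRed_eq M A ⟨x, hx⟩ a b hb0 hxab,
    coeffMap_qExpand, coeffMap_qExpand, map_div₀]

/-- integrality over `𝔸[u]` passes along a ring homomorphism fixing the constants -/
theorem ttrc_isInt_map (N N' : ℕ) [NeZero N] [NeZero N']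
    (φ : modularFunctionFieldBar N →+* modularFunctionFieldBar N')
    (hφ : ∀ c : Qb, φ (algebraMap Qb (modularFunctionFieldBar N) c) =
      algebraMap Qb (modularFunctionFieldBar N') c)
    {u x : modularFunctionFieldBar N} (hx : x ∈ grdB N A u) : φ x ∈ grdB N' A (φ u) := by
  refine grdst_isIntegralElem_map (eval₂RingHom (grdInclA N A) u)
    (eval₂RingHom (grdInclA N' A) (φ u)) (RingHom.id _) φ ?_ hx
  apply Polynomial.ringHom_ext
  · intro a
    rw [RingHom.comp_apply, RingHom.comp_apply, RingHom.id_apply, coe_eval₂RingHom,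
      coe_eval₂RingHom, eval₂_C, eval₂_C]
    exact (hφ _).symm
  · rw [RingHom.comp_apply, RingHom.comp_apply, RingHom.id_apply, coe_eval₂RingHom,
      coe_eval₂RingHom, eval₂_X, eval₂_X]

/-- `α` maps the chart ring of `u` into the chart ring of `α u` -/
theorem ttrc_al_isInt {u x : modularFunctionFieldBar M} (hx : x ∈ grdB M A u) :
    heckeAlphaBar Qb M p x ∈ grdB (M * p) A (heckeAlphaBar Qb M p u) :=
  ttrc_isInt_map A M (M * p) (heckeAlphaBar Qb M p).toRingHom
    (fun c => (heckeAlphaBar Qb M p).commutes c) hx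

/-- `β` maps the chart ring of `u` into the chart ring of `β u` -/
theorem ttrc_be_isInt {u x : modularFunctionFieldBar M} (hx : x ∈ grdB M A u) :
    heckeBetaBar Qb M p x ∈ grdB (M * p) A (heckeBetaBar Qb M p u) :=
  ttrc_isInt_map A M (M * p) (heckeBetaBar Qb M p).toRingHom
    (fun c => (heckeBetaBar Qb M p).commutes c) hx

/-- the level-`M p` coordinate is `α` of the level-`M` coordinate -/
theorem ttrc_al_grdQ {υ : LaurentSeries ℤ} (hυ : GrdSerMem M υ) (hυ' : GrdSerMem (M * p) υ) :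
    heckeAlphaBar Qb M p (grdQ M hυ) = grdQ (M * p) hυ' := by
  apply Subtype.ext
  have h1 : ((grdQ (M * p) hυ' : modularFunctionFieldBar (M * p)) : LaurentSeries Qb) =
      grdSer υ Qb := rfl
  have h2 : ((grdQ M hυ : modularFunctionFieldBar M) : LaurentSeries Qb) = grdSer υ Qb := rfl
  rw [coe_heckeAlphaBar, h1, h2]

/-- `υ(q^p)` is a coordinate series of level `M p` -/
theorem ttrc_phiMem {υ : LaurentSeries ℤ} (hυ : GrdSerMem M υ) :
    GrdSerMem (M * p) (qExpand ℤ p υ) := by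
  intro K _
  unfold grdSer
  rw [coeffMap_qExpand]
  exact full_degeneracyC_map_le K M p ⟨_, hυ K, rfl⟩

/-- `β u = υ(q^p)` -/
theorem ttrc_be_grdQ {υ : LaurentSeries ℤ} (hυ : GrdSerMem M υ) :
    heckeBetaBar Qb M p (grdQ M hυ) = grdQ (M * p) (ttrc_phiMem M p hυ) := by
  apply Subtype.ext
  have h1 : ((grdQ (M * p) (ttrc_phiMem M p hυ) : modularFunctionFieldBar (M * p)) :
      LaurentSeries Qb) = grdSer (qExpand ℤ p υ) Qb := rfl
  have h2 : ((grdQ M hυ : modularFunctionFieldBar M) : LaurentSeries Qb) = grdSer υ Qb := rfl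
  rw [coe_heckeBetaBar, h1, h2]
  unfold grdSer
  rw [coeffMap_qExpand]

end Compat


/-! ## (A8)(iv) : ONTO and INTO -/

section Lift

variable {M : ℕ} [NeZero M] {p : ℕ} [Fact p.Prime] {A : ValuationSubring Qb}
variable {w : modularFunctionFieldBar (M * p) ≃+* modularFunctionFieldBar (M * p)}

/-- **(A8)(iv) ONTO, first branch** : every element `c` of the normal chart ring `C_M` of `F_k(M)`
is `red₁ x` for some `x ∈ B`, namely `x = α x₀`; then `red₂ x = c(q^p)`. -/
theorem ttrc_lift₁ (hpM : ¬ p ∣ M) (hA : A.LiesOverPrime p) (hw : TtrcW M p w)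
    {τ : LaurentSeries ℤ} (hc : GrdChart M A τ)
    (c : ↥(intRing (ResidueField A) (grdK M A hc.mem))) :
    ∃ x : modularFunctionFieldBar (M * p),
      x ∈ grdB (M * p) A (grdQ (M * p) (ttrc_serMem M p hc.mem)) ∧
      ∃ (h₁ : x ∈ grdO (M * p) A) (h₂ : w x ∈ grdO (M * p) A),
        ((grdRed (M * p) A ⟨x, h₁⟩ : modularFunctionFieldFullC (ResidueField A) (M * p)) :
          LaurentSeries (ResidueField A)) =
          ((c : modularFunctionFieldFullC (ResidueField A) M) : LaurentSeries (ResidueField A)) ∧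
        ((grdRed (M * p) A ⟨w x, h₂⟩ : modularFunctionFieldFullC (ResidueField A) (M * p)) :
          LaurentSeries (ResidueField A)) =
          qExpand (ResidueField A) p
            ((c : modularFunctionFieldFullC (ResidueField A) M) :
              LaurentSeries (ResidueField A)) := by
  obtain ⟨x₀, hx₀, hred⟩ := grd_lift M A hpM hA hc c
  obtain ⟨h₁, hr₁⟩ := ttrc_al_mem M p A x₀.2
  obtain ⟨h₂, hr₂⟩ := ttrc_be_mem M p A x₀.2
  have hwx : w (heckeAlphaBar Qb M p (x₀ : modularFunctionFieldBar M)) =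
      heckeBetaBar Qb M p (x₀ : modularFunctionFieldBar M) := hw.1 _
  refine ⟨heckeAlphaBar Qb M p (x₀ : modularFunctionFieldBar M), ?_, h₁, hwx ▸ h₂, ?_, ?_⟩
  · rw [← ttrc_al_grdQ M p hc.mem]
    exact ttrc_al_isInt M p A hx₀
  · rw [hr₁]
    exact congrArg Subtype.val hred
  · have e : (⟨w (heckeAlphaBar Qb M p (x₀ : modularFunctionFieldBar M)), hwx ▸ h₂⟩ :
        ↥(grdO (M * p) A)) = ⟨heckeBetaBar Qb M p (x₀ : modularFunctionFieldBar M), h₂⟩ :=
      Subtype.ext hwx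
    rw [e, hr₂]
    exact congrArg (qExpand (ResidueField A) p) (congrArg Subtype.val hred)

/-- **(A8)(iv) ONTO, second branch** : if `β u` is integral over `𝔸[α u]` (hypothesis `hbe`;
true for `τ = j`, `ttrc_be_j_isInt`), every `c ∈ C_M` is `red₂ x` for some `x ∈ B`, namely
`x = β x₀`; then `red₁ x = c(q^p)`. -/
theorem ttrc_lift₂ (hpM : ¬ p ∣ M) (hA : A.LiesOverPrime p) (hw : TtrcW M p w)
    {τ : LaurentSeries ℤ} (hc : GrdChart M A τ)
    (hbe : heckeBetaBar Qb M p (grdQ M hc.mem) ∈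
      grdB (M * p) A (grdQ (M * p) (ttrc_serMem M p hc.mem)))
    (c : ↥(intRing (ResidueField A) (grdK M A hc.mem))) :
    ∃ x : modularFunctionFieldBar (M * p),
      x ∈ grdB (M * p) A (grdQ (M * p) (ttrc_serMem M p hc.mem)) ∧
      ∃ (h₁ : x ∈ grdO (M * p) A) (h₂ : w x ∈ grdO (M * p) A),
        ((grdRed (M * p) A ⟨x, h₁⟩ : modularFunctionFieldFullC (ResidueField A) (M * p)) :
          LaurentSeries (ResidueField A)) =
          qExpand (ResidueField A) p
            ((c : modularFunctionFieldFullC (ResidueField A) M) :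
              LaurentSeries (ResidueField A)) ∧
        ((grdRed (M * p) A ⟨w x, h₂⟩ : modularFunctionFieldFullC (ResidueField A) (M * p)) :
          LaurentSeries (ResidueField A)) =
          ((c : modularFunctionFieldFullC (ResidueField A) M) :
            LaurentSeries (ResidueField A)) := by
  obtain ⟨x₀, hx₀, hred⟩ := grd_lift M A hpM hA hc c
  obtain ⟨h₁, hr₁⟩ := ttrc_al_mem M p A x₀.2
  obtain ⟨h₂, hr₂⟩ := ttrc_be_mem M p A x₀.2
  have hwx : w (heckeBetaBar Qb M p (x₀ : modularFunctionFieldBar M)) =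
      heckeAlphaBar Qb M p (x₀ : modularFunctionFieldBar M) := hw.2 _
  refine ⟨heckeBetaBar Qb M p (x₀ : modularFunctionFieldBar M), ?_, h₂, hwx ▸ h₁, ?_, ?_⟩
  · exact ttrc_isIntegralElem_map (grdInclA M A) (grdInclA (M * p) A)
      (heckeBetaBar Qb M p).toRingHom (fun r => (heckeBetaBar Qb M p).commutes _)
      (grdQ M hc.mem) _ hbe hx₀
  · rw [hr₂]
    exact congrArg (qExpand (ResidueField A) p) (congrArg Subtype.val hred)
  · have e : (⟨w (heckeBetaBar Qb M p (x₀ : modularFunctionFieldBar M)), hwx ▸ h₁⟩ :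
        ↥(grdO (M * p) A)) = ⟨heckeAlphaBar Qb M p (x₀ : modularFunctionFieldBar M), h₁⟩ :=
      Subtype.ext hwx
    rw [e, hr₁]
    exact congrArg Subtype.val hred

/-- (A8)(iv) INTO, first branch : `red₁ B` is integral over `k[ū]`. -/
theorem ttrc_red₁_int {υ : LaurentSeries ℤ} (hυ : GrdSerMem (M * p) υ)
    {x : modularFunctionFieldBar (M * p)} (hx : x ∈ grdB (M * p) A (grdQ (M * p) hυ))
    (h₁ : x ∈ grdO (M * p) A) :
    (grdRed (M * p) A ⟨x, h₁⟩ : modularFunctionFieldFullC (ResidueField A) (M * p)) ∈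
      intRing (ResidueField A) (grdK (M * p) A hυ) :=
  grdRed_isIntegral (M * p) A hυ ⟨x, h₁⟩ hx

/-- (A8)(iv) INTO, second branch : `red₂ B` is integral over `k[ū(q^p)]`. -/
theorem ttrc_red₂_int (hw : TtrcW M p w) {υ : LaurentSeries ℤ} (hυ : GrdSerMem M υ)
    {x : modularFunctionFieldBar (M * p)}
    (hx : x ∈ grdB (M * p) A (grdQ (M * p) (ttrc_serMem M p hυ)))
    (h₂ : w x ∈ grdO (M * p) A) :
    (grdRed (M * p) A ⟨w x, h₂⟩ : modularFunctionFieldFullC (ResidueField A) (M * p)) ∈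
      intRing (ResidueField A) (grdK (M * p) A (ttrc_phiMem M p hυ)) := by
  refine grdRed_isIntegral (M * p) A (ttrc_phiMem M p hυ) ⟨w x, h₂⟩ ?_
  have h := ttrc_w_isInt hw hx
  rw [← ttrc_al_grdQ M p hυ, hw.1, ttrc_be_grdQ] at h
  exact h

end Lift


section CharP

variable {M : ℕ} [NeZero M] {p : ℕ} [Fact p.Prime] {A : ValuationSubring Qb}

/-- in characteristic `p` : `ū(q^p) = ū^p` -/
theorem ttrc_grdK_phi (hA : A.LiesOverPrime p) {υ : LaurentSeries ℤ} (hυ : GrdSerMem M υ) :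
    grdK (M * p) A (ttrc_phiMem M p hυ) = grdK (M * p) A (ttrc_serMem M p hυ) ^ p := by
  haveI : CharP (ResidueField A) p := s18ac_charP A hA
  apply Subtype.ext
  have h1 : ((grdK (M * p) A (ttrc_phiMem M p hυ) :
      modularFunctionFieldFullC (ResidueField A) (M * p)) : LaurentSeries (ResidueField A)) =
      grdSer (qExpand ℤ p υ) (ResidueField A) := rfl
  have h2 : ((grdK (M * p) A (ttrc_serMem M p hυ) :
      modularFunctionFieldFullC (ResidueField A) (M * p)) : LaurentSeries (ResidueField A)) =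
      grdSer υ (ResidueField A) := rfl
  rw [h1]
  push_cast
  rw [h2, gcjf_pow_char (ResidueField A) p, grdSer_coeffMap]
  unfold grdSer
  rw [coeffMap_qExpand]

/-- integrality over a smaller subalgebra -/
theorem ttrc_isIntegral_of_le {k F : Type*} [Field k] [Field F] [Algebra k F]
    {S T : Subalgebra k F} (h : S ≤ T) {x : F} (hx : IsIntegral S x) : IsIntegral T x := by
  obtain ⟨q, hq, hqx⟩ := hx
  refine ⟨q.map (Subalgebra.inclusion h).toRingHom, hq.map _, ?_⟩
  rw [eval₂_map]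
  exact hqx

/-- integral over `k[t^n]` ⟹ integral over `k[t]` -/
theorem ttrc_intRing_pow_le {k F : Type*} [Field k] [Field F] [Algebra k F] (t : F) (n : ℕ)
    {c : F} (hc : c ∈ intRing k (t ^ n)) : c ∈ intRing k t := by
  have hc' : IsIntegral (Algebra.adjoin k {t ^ n}) c := hc
  show IsIntegral (Algebra.adjoin k {t}) c
  have hle : Algebra.adjoin k {t ^ n} ≤ Algebra.adjoin k {t} := by
    refine Algebra.adjoin_le ?_
    intro y hy
    rw [Set.mem_singleton_iff] at hy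
    rw [hy]
    have ht : t ∈ Algebra.adjoin k {t} := Algebra.self_mem_adjoin_singleton k t
    exact (Algebra.adjoin k {t}).pow_mem ht n
  exact ttrc_isIntegral_of_le hle hc'

/-- (A8)(iv) INTO, second branch, in the coordinate `ū` : `red₂ B` is integral over `k[ū]`. -/
theorem ttrc_intRing_phi_le (hA : A.LiesOverPrime p) {υ : LaurentSeries ℤ} (hυ : GrdSerMem M υ)
    {c : modularFunctionFieldFullC (ResidueField A) (M * p)}
    (hc : c ∈ intRing (ResidueField A) (grdK (M * p) A (ttrc_phiMem M p hυ))) :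
    c ∈ intRing (ResidueField A) (grdK (M * p) A (ttrc_serMem M p hυ)) := by
  rw [ttrc_grdK_phi hA hυ] at hc
  exact ttrc_intRing_pow_le _ p hc

end CharP


/-! ## fractions, conductor -/

section Frac

variable {M : ℕ} [NeZero M] {p : ℕ} [Fact p.Prime] {A : ValuationSubring Qb}
variable {w : modularFunctionFieldBar (M * p) ≃+* modularFunctionFieldBar (M * p)}

/-- **FRACTIONS** : every `x ∈ O₂` has a denominator `b(u)`, `b ∈ 𝔸[X]` with `b̄ ≠ 0`, such that
`b(u) x` is integral over `𝔸[u]`. -/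
theorem ttrc_frac (hA : A.LiesOverPrime p) {υ : LaurentSeries ℤ} {hυ : GrdSerMem (M * p) υ}
    (hloc : TtrcLoc M p A w υ hυ) (x : modularFunctionFieldBar (M * p))
    (hx₁ : x ∈ grdO (M * p) A) (hx₂ : w x ∈ grdO (M * p) A) :
    ∃ b : A[X], b.map (residue A) ≠ 0 ∧
      eval₂RingHom (grdInclA (M * p) A) (grdQ (M * p) hυ) b * x ∈
        grdB (M * p) A (grdQ (M * p) hυ) := by
  obtain ⟨E₀, hfd₀, hlvl⟩ := hloc
  obtain ⟨E₁, hfd₁, h₁⟩ := grdst_descend_gauss (M * p) A ⟨x, hx₁⟩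
  obtain ⟨E₁', hfd₁', h₁'⟩ := grdst_descend_gauss (M * p) A ⟨w x, hx₂⟩
  have hE₀ : E₀ ≤ E₀ ⊔ E₁ ⊔ E₁' := le_trans le_sup_left le_sup_left
  have hE₁ : E₁ ≤ E₀ ⊔ E₁ ⊔ E₁' := le_trans le_sup_right le_sup_left
  have hE₁' : E₁' ≤ E₀ ⊔ E₁ ⊔ E₁' := le_sup_right
  have hfd : FiniteDimensional ℚ ↥(E₀ ⊔ E₁ ⊔ E₁') := inferInstance
  generalize E₀ ⊔ E₁ ⊔ E₁' = E at hE₀ hE₁ hE₁' hfd
  have : IsDiscreteValuationRing (s18dVal A E) := s18d_isDVR A E hA
  have : CharZero (s18dVal A E) := ggn_charZero A E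
  obtain ⟨ϖ, hϖ⟩ := IsDiscreteValuationRing.exists_irreducible (s18dVal A E)
  obtain ⟨htr, hfin, hmem⟩ := hlvl E hE₀ hfd ϖ hϖ
  obtain ⟨z, hz, hzO⟩ := h₁ E hE₁
  obtain ⟨z', hz', hzO'⟩ := h₁' E hE₁'
  have hzL := hmem z z' hzO hzO' (by
    show grdstUp (M * p) E z' = w (grdstUp (M * p) E z)
    rw [hz', hz])
  obtain ⟨b, hb, hbz⟩ := (s18t_intLoc_iff hϖ _ z).mp hzL
  refine ⟨b.map (s18dIncl A E), ?_, ?_⟩
  · intro h0
    apply s18vg_map_ne_zero hϖ b hb
    ext i
    have h1 := congrArg (fun q => Polynomial.coeff q i) h0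
    simp only [coeff_map, coeff_zero] at h1 ⊢
    exact (s18db_residue_eq_zero_iff A E (b.coeff i)).mpr h1
  · have h2 := grdst_ascend_int (M * p) A hυ E _ hbz
    rw [map_mul, hz] at h2
    have h3 := congrArg (fun f => f b) (grdst_square (M * p) A E hυ)
    simp only [RingHom.comp_apply, coe_mapRingHom, AlgHom.coe_toRingHom] at h3
    rw [h3]
    exact h2

end Frac


section RedEval

variable (N : ℕ) [NeZero N] (A : ValuationSubring Qb)

/-- the reduction of `g(u)`, `g ∈ 𝔸[X]`, is `ḡ(ū)` -/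
theorem ttrc_red_eval {υ : LaurentSeries ℤ} (hυ : GrdSerMem N υ) (g : A[X]) :
    grdRed N A ⟨eval₂RingHom (grdInclA N A) (grdQ N hυ) g,
      grdga_eval_mem N A (grdQ_mem_grdO N A hυ) g⟩ =
      aeval (grdK N A hυ) (g.map (residue A)) := by
  have hu := grdQ_mem_grdO N A hυ
  let φ' : A[X] →+* ↥(grdO N A) :=
    (Polynomial.eval₂RingHom (grdInclA N A) (grdQ N hυ)).codRestrict (grdO N A)
      (grdga_eval_mem N A hu)
  let ψ : A[X] →+* modularFunctionFieldFullC (ResidueField A) N :=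
    ((aeval (grdK N A hυ) : (ResidueField A)[X] →ₐ[ResidueField A] _) :
      (ResidueField A)[X] →+* _).comp (mapRingHom (residue A))
  have hcomp : (grdRed N A).comp φ' = ψ := by
    apply Polynomial.ringHom_ext
    · intro a
      have h1 : φ' (C a) = ⟨algebraMap Qb (modularFunctionFieldBar N) (a : Qb),
          grdO_algebraMap_mem N A a⟩ := by
        apply Subtype.ext
        show Polynomial.eval₂RingHom (grdInclA N A) (grdQ N hυ) (C a) = _
        rw [Polynomial.coe_eval₂RingHom, Polynomial.eval₂_C]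
        rfl
      rw [RingHom.comp_apply, h1, grdRed_algebraMap]
      show _ = aeval (grdK N A hυ) ((C a : A[X]).map (residue A))
      rw [Polynomial.map_C, aeval_C]
    · have h1 : φ' X = ⟨grdQ N hυ, hu⟩ := by
        apply Subtype.ext
        show Polynomial.eval₂RingHom (grdInclA N A) (grdQ N hυ) X = _
        rw [Polynomial.coe_eval₂RingHom, Polynomial.eval₂_X]
      rw [RingHom.comp_apply, h1, grdRed_grdQ]
      show _ = aeval (grdK N A hυ) ((X : A[X]).map (residue A))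
      rw [Polynomial.map_X, aeval_X]
  exact RingHom.congr_fun hcomp g

end RedEval

section Conductor

variable {M : ℕ} [NeZero M] {p : ℕ} [Fact p.Prime] {A : ValuationSubring Qb}
variable {w : modularFunctionFieldBar (M * p) ≃+* modularFunctionFieldBar (M * p)}

/-- **DENOMINATORS WITH THEIR REDUCTIONS** : every `e ∈ O₂` has a denominator `g(u)`, `ḡ ≠ 0`, with
`m = g(u) e ∈ B`, `red₁ m = ḡ(ū) red₁ e`, `red₂ m = ḡ(ū_w) red₂ e` (`ū_w = red₁ (w u)`). -/
theorem ttrc_frac_red (hA : A.LiesOverPrime p) (hw : TtrcW M p w) {υ υw : LaurentSeries ℤ}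
    {hυ : GrdSerMem (M * p) υ} (hloc : TtrcLoc M p A w υ hυ) (hυw : GrdSerMem (M * p) υw)
    (hwu : w (grdQ (M * p) hυ) = grdQ (M * p) hυw)
    (e : modularFunctionFieldBar (M * p)) (he₁ : e ∈ grdO (M * p) A)
    (he₂ : w e ∈ grdO (M * p) A) :
    ∃ g : A[X], g.map (residue A) ≠ 0 ∧ ∃ m : modularFunctionFieldBar (M * p),
      m ∈ grdB (M * p) A (grdQ (M * p) hυ) ∧
      ∃ (hm₁ : m ∈ grdO (M * p) A) (hm₂ : w m ∈ grdO (M * p) A),
        grdRed (M * p) A ⟨m, hm₁⟩ =
          aeval (grdK (M * p) A hυ) (g.map (residue A)) * grdRed (M * p) A ⟨e, he₁⟩ ∧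
        grdRed (M * p) A ⟨w m, hm₂⟩ =
          aeval (grdK (M * p) A hυw) (g.map (residue A)) * grdRed (M * p) A ⟨w e, he₂⟩ := by
  obtain ⟨g, hg, hm⟩ := ttrc_frac hA hloc e he₁ he₂
  have hg₁ := grdga_eval_mem (M * p) A (grdQ_mem_grdO (M * p) A hυ) g
  have hg₂ := grdga_eval_mem (M * p) A (grdQ_mem_grdO (M * p) A hυw) g
  have hwg : w (eval₂RingHom (grdInclA (M * p) A) (grdQ (M * p) hυ) g) =
      eval₂RingHom (grdInclA (M * p) A) (grdQ (M * p) hυw) g := by
    have h1 : (w : modularFunctionFieldBar (M * p) →+* modularFunctionFieldBar (M * p)).comp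
        (eval₂RingHom (grdInclA (M * p) A) (grdQ (M * p) hυ)) =
        eval₂RingHom (grdInclA (M * p) A) (grdQ (M * p) hυw) := by
      apply Polynomial.ringHom_ext
      · intro a
        rw [RingHom.comp_apply, coe_eval₂RingHom, coe_eval₂RingHom, eval₂_C, eval₂_C]
        exact ttrc_w_algebraMap hw _
      · rw [RingHom.comp_apply, coe_eval₂RingHom, coe_eval₂RingHom, eval₂_X, eval₂_X]
        exact hwu
    exact RingHom.congr_fun h1 g
  have hwm : w (eval₂RingHom (grdInclA (M * p) A) (grdQ (M * p) hυ) g * e) =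
      eval₂RingHom (grdInclA (M * p) A) (grdQ (M * p) hυw) g * w e := by
    rw [map_mul, hwg]
  refine ⟨g, hg, _, hm, Subring.mul_mem _ hg₁ he₁, hwm ▸ Subring.mul_mem _ hg₂ he₂, ?_, ?_⟩
  · have e1 : (⟨eval₂RingHom (grdInclA (M * p) A) (grdQ (M * p) hυ) g * e,
        Subring.mul_mem _ hg₁ he₁⟩ : ↥(grdO (M * p) A)) = ⟨_, hg₁⟩ * ⟨e, he₁⟩ := rfl
    rw [e1, map_mul, ttrc_red_eval]
  · have e2 : (⟨w (eval₂RingHom (grdInclA (M * p) A) (grdQ (M * p) hυ) g * e),
        hwm ▸ Subring.mul_mem _ hg₂ he₂⟩ : ↥(grdO (M * p) A)) = ⟨_, hg₂⟩ * ⟨w e, he₂⟩ :=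
      Subtype.ext hwm
    rw [e2, map_mul, ttrc_red_eval]

end Conductor


section Cond

variable {M : ℕ} [NeZero M] {p : ℕ} [Fact p.Prime] {A : ValuationSubring Qb}
variable {w : modularFunctionFieldBar (M * p) ≃+* modularFunctionFieldBar (M * p)}

/-- **(A8)(v) THE CONDUCTOR : FINITE COLENGTH.**  Given helper12's (A6) (an element `e ∈ O₂` with
`red e = (1, 0)`), there is `g ∈ 𝔸[X]`, `ḡ ≠ 0`, such that for every `x ∈ B` there is `y ∈ B` with
`red y = (ḡ(ū) · red₁ x, 0)`.  So `red B ⊇ (ḡ(ū), 0) · red₁ B`. -/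
theorem ttrc_conductor₁ (hA : A.LiesOverPrime p) (hw : TtrcW M p w) {υ υw : LaurentSeries ℤ}
    {hυ : GrdSerMem (M * p) υ} (hloc : TtrcLoc M p A w υ hυ) (hυw : GrdSerMem (M * p) υw)
    (hwu : w (grdQ (M * p) hυ) = grdQ (M * p) hυw)
    (e : modularFunctionFieldBar (M * p)) (he₁ : e ∈ grdO (M * p) A)
    (he₂ : w e ∈ grdO (M * p) A) (hr₁ : grdRed (M * p) A ⟨e, he₁⟩ = 1)
    (hr₂ : grdRed (M * p) A ⟨w e, he₂⟩ = 0) :
    ∃ g : A[X], g.map (residue A) ≠ 0 ∧
      ∀ (x : modularFunctionFieldBar (M * p)) (hx : x ∈ grdB (M * p) A (grdQ (M * p) hυ))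
        (hx₁ : x ∈ grdO (M * p) A) (hx₂ : w x ∈ grdO (M * p) A),
        ∃ y : modularFunctionFieldBar (M * p), y ∈ grdB (M * p) A (grdQ (M * p) hυ) ∧
          ∃ (hy₁ : y ∈ grdO (M * p) A) (hy₂ : w y ∈ grdO (M * p) A),
            grdRed (M * p) A ⟨y, hy₁⟩ =
              aeval (grdK (M * p) A hυ) (g.map (residue A)) * grdRed (M * p) A ⟨x, hx₁⟩ ∧
            grdRed (M * p) A ⟨w y, hy₂⟩ = 0 := by
  obtain ⟨g, hg, m, hm, hm₁, hm₂, hmr₁, hmr₂⟩ := ttrc_frac_red hA hw hloc hυw hwu e he₁ he₂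
  refine ⟨g, hg, fun x hx hx₁ hx₂ => ?_⟩
  have hwy : w (m * x) = w m * w x := map_mul w m x
  refine ⟨m * x, Subring.mul_mem _ hm hx, Subring.mul_mem _ hm₁ hx₁,
    hwy ▸ Subring.mul_mem _ hm₂ hx₂, ?_, ?_⟩
  · have e1 : (⟨m * x, Subring.mul_mem _ hm₁ hx₁⟩ : ↥(grdO (M * p) A)) = ⟨m, hm₁⟩ * ⟨x, hx₁⟩ := rfl
    rw [e1, map_mul, hmr₁, hr₁, mul_one]
  · have e2 : (⟨w (m * x), hwy ▸ Subring.mul_mem _ hm₂ hx₂⟩ : ↥(grdO (M * p) A)) =
        ⟨w m, hm₂⟩ * ⟨w x, hx₂⟩ := Subtype.ext hwy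
    rw [e2, map_mul, hmr₂, hr₂, mul_zero, zero_mul]

/-- (A8)(v), second branch : with `e' ∈ O₂`, `red e' = (0, 1)` (e.g. `1 - e`) :
`red B ⊇ (0, ḡ(ū_w)) · red₂ B`. -/
theorem ttrc_conductor₂ (hA : A.LiesOverPrime p) (hw : TtrcW M p w) {υ υw : LaurentSeries ℤ}
    {hυ : GrdSerMem (M * p) υ} (hloc : TtrcLoc M p A w υ hυ) (hυw : GrdSerMem (M * p) υw)
    (hwu : w (grdQ (M * p) hυ) = grdQ (M * p) hυw)
    (e : modularFunctionFieldBar (M * p)) (he₁ : e ∈ grdO (M * p) A)
    (he₂ : w e ∈ grdO (M * p) A) (hr₁ : grdRed (M * p) A ⟨e, he₁⟩ = 0)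
    (hr₂ : grdRed (M * p) A ⟨w e, he₂⟩ = 1) :
    ∃ g : A[X], g.map (residue A) ≠ 0 ∧
      ∀ (x : modularFunctionFieldBar (M * p)) (hx : x ∈ grdB (M * p) A (grdQ (M * p) hυ))
        (hx₁ : x ∈ grdO (M * p) A) (hx₂ : w x ∈ grdO (M * p) A),
        ∃ y : modularFunctionFieldBar (M * p), y ∈ grdB (M * p) A (grdQ (M * p) hυ) ∧
          ∃ (hy₁ : y ∈ grdO (M * p) A) (hy₂ : w y ∈ grdO (M * p) A),
            grdRed (M * p) A ⟨y, hy₁⟩ = 0 ∧
            grdRed (M * p) A ⟨w y, hy₂⟩ =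
              aeval (grdK (M * p) A hυw) (g.map (residue A)) * grdRed (M * p) A ⟨w x, hx₂⟩ := by
  obtain ⟨g, hg, m, hm, hm₁, hm₂, hmr₁, hmr₂⟩ := ttrc_frac_red hA hw hloc hυw hwu e he₁ he₂
  refine ⟨g, hg, fun x hx hx₁ hx₂ => ?_⟩
  have hwy : w (m * x) = w m * w x := map_mul w m x
  refine ⟨m * x, Subring.mul_mem _ hm hx, Subring.mul_mem _ hm₁ hx₁,
    hwy ▸ Subring.mul_mem _ hm₂ hx₂, ?_, ?_⟩
  · have e1 : (⟨m * x, Subring.mul_mem _ hm₁ hx₁⟩ : ↥(grdO (M * p) A)) = ⟨m, hm₁⟩ * ⟨x, hx₁⟩ := rfl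
    rw [e1, map_mul, hmr₁, hr₁, mul_zero, zero_mul]
  · have e2 : (⟨w (m * x), hwy ▸ Subring.mul_mem _ hm₂ hx₂⟩ : ↥(grdO (M * p) A)) =
        ⟨w m, hm₂⟩ * ⟨w x, hx₂⟩ := Subtype.ext hwy
    rw [e2, map_mul, hmr₂, hr₂, mul_one]

end Cond

/-! ## the instance `τ = j` -/

section J

variable {M : ℕ} [NeZero M] {p : ℕ} [Fact p.Prime] {A : ValuationSubring Qb}
variable {w : modularFunctionFieldBar (M * p) ≃+* modularFunctionFieldBar (M * p)}

/-- `j` has a pole modulo every prime -/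
theorem ttrc_pole_j (K : Type) [Field K] : (grdSer (jqModC ℤ) K).order < 0 := by
  rw [grdi_grdSer_j, s18db_order_jqModC]
  norm_num

/-- `TtrcLoc` for `τ = j`, EVERY prime `p ∤ M` (only `S18Coord` is used, no tameness). -/
theorem ttrc_loc_j (hA : A.LiesOverPrime p) (hpM : ¬ p ∣ M) (hw : TtrcW M p w) :
    TtrcLoc M p A w (jqModC ℤ) (ttrc_serMem M p (grdi_mem_j M)) := by
  refine ttrc_loc_of_coord hA hpM hw (grdi_mem_j M) ⟨⊥, inferInstance, ?_⟩ ttrc_pole_j
  intro E _ hfd _ _ ϖ hϖ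
  have heq : (⟨grdSer (jqModC ℤ) E, grdi_mem_j M E⟩ : modularFunctionFieldFullC E M) =
      ⟨jqModC E, jqModC_mem_full E M⟩ := Subtype.ext (grdi_grdSer_j E)
  rw [heq]
  exact s18v_coord_j hϖ (s18d_natCast_mem (ℓ := p) A E hA) M hpM

/-- `TtrcLoc` for `τ' = j⁻¹`. -/
theorem ttrc_loc_jinv (hA : A.LiesOverPrime p) (hpM : ¬ p ∣ M) (hw : TtrcW M p w)
    {τ' : LaurentSeries ℤ} (hτ' : jqModC ℤ * τ' = 1) :
    TtrcLoc M p A w τ' (ttrc_serMem M p (grdi_mem_jinv M hτ')) :=
  ttrc_loc_inv hτ' (ttrc_loc_j hA hpM hw) _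

/-- `j` of level `N` is S24's `jBar N` -/
theorem ttrc_grdQ_j (N : ℕ) [NeZero N] (h : GrdSerMem N (jqModC ℤ)) : grdQ N h = jBar N := by
  apply Subtype.ext
  have h1 : ((grdQ N h : modularFunctionFieldBar N) : LaurentSeries Qb) =
      grdSer (jqModC ℤ) Qb := rfl
  rw [h1, grdi_grdSer_j]
  show jqModC Qb = coeffEmb Qb jq
  rw [coeffEmb, ← jqModC_rat, coeffMap_jqModC]

/-- **`j(q^p)` IS INTEGRAL OVER `𝔸[j]` AT LEVEL `M p`** (S24 : integral over `ℚ̄[j]`; then
saturation, as `j(q^p) ∈ O₂`). -/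
theorem ttrc_be_j_isInt (hA : A.LiesOverPrime p) (hpM : ¬ p ∣ M) (hw : TtrcW M p w) :
    heckeBetaBar Qb M p (grdQ M (grdi_mem_j M)) ∈
      grdB (M * p) A (grdQ (M * p) (ttrc_serMem M p (grdi_mem_j M))) := by
  obtain ⟨h₁, -⟩ := ttrc_be_mem M p A (grdQ_mem_grdO M A (grdi_mem_j M))
  obtain ⟨h₂, -⟩ := ttrc_al_mem M p A (grdQ_mem_grdO M A (grdi_mem_j M))
  refine ttrc_saturated_int hA (ttrc_loc_j hA hpM hw) _ h₁ ((hw.2 _).symm ▸ h₂) ?_
  have e2 : heckeBetaBar Qb M p (grdQ M (grdi_mem_j M)) =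
      jdBar (M * p) p (dvd_mul_left p M) := by
    apply Subtype.ext
    have h1 : ((grdQ M (grdi_mem_j M) : modularFunctionFieldBar M) : LaurentSeries Qb) =
        grdSer (jqModC ℤ) Qb := rfl
    rw [coe_heckeBetaBar, coe_jdBar, h1, grdi_grdSer_j, coeffEmb, coeffMap_qExpand,
      ← jqModC_rat, coeffMap_jqModC]
  rw [ttrc_grdQ_j, e2]
  obtain ⟨P, hP, -, h0⟩ := exists_monic_of_mem_RBar (N := M * p)
    ⟨jdBar (M * p) p (dvd_mul_left p M), jdBar_mem_RBar (M * p) p (dvd_mul_left p M)⟩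
  refine ⟨P, hP, ?_⟩
  have hcomp : eval₂RingHom (algebraMap Qb (modularFunctionFieldBar (M * p))) (jBar (M * p)) =
      (Polynomial.aeval (jBar (M * p))).toRingHom := by
    apply Polynomial.ringHom_ext
    · intro a
      simp
    · simp
  rw [hcomp]
  exact h0

end J

/-- (A8)(iv) ONTO, second branch, for `τ = j`, `p ≥ 5`. -/
theorem ttrc_lift₂_j {M : ℕ} [NeZero M] {p : ℕ} [Fact p.Prime] {A : ValuationSubring Qb}
    {w : modularFunctionFieldBar (M * p) ≃+* modularFunctionFieldBar (M * p)}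
    (hpM : ¬ p ∣ M) (hA : A.LiesOverPrime p) (hw : TtrcW M p w) (h5 : 5 ≤ p)
    (c : ↥(intRing (ResidueField A) (grdK M A (grd_chart_j M A hpM hA h5).mem))) :
    ∃ x : modularFunctionFieldBar (M * p),
      x ∈ grdB (M * p) A (grdQ (M * p) (ttrc_serMem M p (grd_chart_j M A hpM hA h5).mem)) ∧
      ∃ (h₁ : x ∈ grdO (M * p) A) (h₂ : w x ∈ grdO (M * p) A),
        ((grdRed (M * p) A ⟨x, h₁⟩ : modularFunctionFieldFullC (ResidueField A) (M * p)) :
          LaurentSeries (ResidueField A)) =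
          qExpand (ResidueField A) p
            ((c : modularFunctionFieldFullC (ResidueField A) M) :
              LaurentSeries (ResidueField A)) ∧
        ((grdRed (M * p) A ⟨w x, h₂⟩ : modularFunctionFieldFullC (ResidueField A) (M * p)) :
          LaurentSeries (ResidueField A)) =
          ((c : modularFunctionFieldFullC (ResidueField A) M) :
            LaurentSeries (ResidueField A)) :=
  ttrc_lift₂ hpM hA hw (grd_chart_j M A hpM hA h5) (ttrc_be_j_isInt hA hpM hw) c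

/-! ## `F_k(M p) = F_k(M)` -/

section FullC

/-- **IN CHARACTERISTIC `p` THE LEVEL DOES NOT SEE `p`** : `F_k(M p) = F_k(M)` inside `k((q))`
(`j(q^(p d)) = j(q^d)^p`). -/
theorem ttrc_fullC_le (k : Type*) [Field k] (M : ℕ) [NeZero M] (p : ℕ) [Fact p.Prime] [CharP k p] :
    modularFunctionFieldFullC k (M * p) ≤ modularFunctionFieldFullC k M := by
  have hp : p.Prime := Fact.out
  have h : divisorExpansionsC k (M * p) ⊆ (modularFunctionFieldFullC k M : Set (LaurentSeries k)) := by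
    rintro x ⟨d, hne, hd, rfl⟩
    haveI := hne
    by_cases hpd : p ∣ d
    · obtain ⟨d', rfl⟩ := hpd
      have hd'0 : d' ≠ 0 := fun h0 => NeZero.ne (p * d') (by rw [h0, mul_zero])
      haveI : NeZero d' := ⟨hd'0⟩
      have hd'M : d' ∣ M := by
        rw [mul_comm M p] at hd
        exact (Nat.mul_dvd_mul_iff_left hp.pos).mp hd
      have e : qExpand k (p * d') (jqModC k) = (qExpand k d' (jqModC k)) ^ p := by
        rw [gcjf_pow_char k p, coeffMap_qExpand, coeffMap_jqModC, qExpand_qExpand]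
      rw [e]
      exact pow_mem (jqModCd_mem_full k M hd'M) p
    · have hdM : d ∣ M :=
        (Nat.Coprime.dvd_of_dvd_mul_right ((Nat.Prime.coprime_iff_not_dvd hp).mpr hpd).symm hd)
      exact jqModCd_mem_full k M hdM
  unfold modularFunctionFieldFullC at *
  exact IntermediateField.adjoin_le_iff.mpr h

theorem ttrc_fullC_eq (k : Type*) [Field k] (M : ℕ) [NeZero M] (p : ℕ) [Fact p.Prime] [CharP k p] :
    modularFunctionFieldFullC k (M * p) = modularFunctionFieldFullC k M :=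
  le_antisymm (ttrc_fullC_le k M p) (ssvmm_le k M p)

end FullC


end Fermat.Agent.TT
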