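import Mathlib
import Fermat.Agent.SS.Val.ModAL

/-!
# Program TT (S33), package G/Red₂ (helper12, prefix `ttr`) : the Atkin–Lehner involution of
`F_ℚ̄(M p)`

`F = modularFunctionFieldBar (M * p)`, `α = heckeAlphaBar`, `β = heckeBetaBar`.

* `ttr_bar_eq`   : `modularFunctionFieldBar N = modularFunctionFieldFullC ℚ̄ N`;
* `ttr_exists_w` : a ring automorphism `w` of `F` over `ℚ̄` with `w ∘ α = β`, `w ∘ β = α`,
  `w ∘ w = id` (ascent of `ssvma_exists_w` with `E = ⊤`);
* `ttrW hpM`     : a choice of such a `w`.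
-/

set_option autoImplicit false
set_option linter.unusedSectionVars false
set_option linter.unusedVariables false
set_option linter.style.haveILetI false
set_option synthInstance.maxHeartbeats 400000

noncomputable section

namespace Fermat.Agent.TT

open Polynomial ModularCurve AlgebraicCurve IsLocalRing IntermediateField
  Fermat.Agent.G Fermat.Agent.S18 Fermat.Agent.SS

local notation "Qb" => AlgebraicClosure ℚ

/-- `F_ℚ̄(N)` in its two spellings -/
theorem ttr_bar_eq (N : ℕ) : modularFunctionFieldBar N = modularFunctionFieldFullC Qb N := by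
  apply le_antisymm
  · show laurentBaseChange Qb (modularFunctionFieldFull N) ≤ _
    rw [laurentBaseChange, IntermediateField.adjoin_le_iff]
    rintro _ ⟨y, hy, rfl⟩
    have hy' : y ∈ modularFunctionFieldFullC ℚ N := hy
    exact s18dd_coeffMap_mem_full (algebraMap ℚ Qb) N hy'
  · exact s18db_full_le_bar N

/-- the push-up from `E = ⊤` is onto -/
theorem ttr_up_top_surjective (N : ℕ) [NeZero N] :
    Function.Surjective (ssvmmUp (⊤ : IntermediateField ℚ Qb) N) := by
  intro x
  let ψ : Qb →+* ↥(⊤ : IntermediateField ℚ Qb) :=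
    (IntermediateField.topEquiv (F := ℚ) (E := Qb)).symm.toRingEquiv.toRingHom
  have hx : (x : LaurentSeries Qb) ∈ modularFunctionFieldFullC Qb N := by
    rw [← ttr_bar_eq]; exact x.2
  refine ⟨⟨coeffMap ψ (x : LaurentSeries Qb), s18dd_coeffMap_mem_full ψ N hx⟩, ?_⟩
  apply Subtype.ext
  rw [ssvmmUp_coe]
  show coeffMap (algebraMap (↥(⊤ : IntermediateField ℚ Qb)) Qb) (coeffMap ψ (x : LaurentSeries Qb)) = x
  rw [coeffMap_coeffMap]
  have : (algebraMap (↥(⊤ : IntermediateField ℚ Qb)) Qb).comp ψ = RingHom.id Qb := by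
    ext c
    rfl
  rw [this]
  ext n
  simp

section W

variable (M : ℕ) [NeZero M] {p : ℕ} [Fact p.Prime]

set_option maxHeartbeats 2000000 in
/-- **the Atkin–Lehner involution of `F_ℚ̄(M p)`** : a ring automorphism `w` over `ℚ̄` exchanging
`α` and `β`. -/
theorem ttr_exists_w (hpM : ¬ p ∣ M) :
    haveI : NeZero p := ⟨(Fact.out : p.Prime).ne_zero⟩
    ∃ w : modularFunctionFieldBar (M * p) ≃+* modularFunctionFieldBar (M * p),
      (∀ x : modularFunctionFieldBar M, w (heckeAlphaBar Qb M p x) = heckeBetaBar Qb M p x) ∧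
      (∀ x : modularFunctionFieldBar M, w (heckeBetaBar Qb M p x) = heckeAlphaBar Qb M p x) ∧
      (∀ x : modularFunctionFieldBar (M * p), w (w x) = x) ∧
      (∀ c : Qb, w (algebraMap Qb (modularFunctionFieldBar (M * p)) c) =
        algebraMap Qb (modularFunctionFieldBar (M * p)) c) := by
  have hp : p.Prime := Fact.out
  haveI : NeZero p := ⟨hp.ne_zero⟩
  obtain ⟨w₀, h1, h2, h3, h4⟩ := ssvma_exists_w (⊤ : IntermediateField ℚ Qb) M hpM
  have hsurj := ttr_up_top_surjective M
  have hsurj' := ttr_up_top_surjective (M * p)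
  obtain ⟨up, hup⟩ : ∃ up : modularFunctionFieldFullC (⊤ : IntermediateField ℚ Qb) (M * p) →+*
      modularFunctionFieldBar (M * p),
      ∀ z, up z = ssvmmUp (⊤ : IntermediateField ℚ Qb) (M * p) z := ⟨_, fun _ => rfl⟩
  have hinj' : Function.Injective up := fun a b hab =>
    ssvmf_up_injective (⊤ : IntermediateField ℚ Qb) (M * p) (by rw [← hup, ← hup, hab])
  have hsurj'' : Function.Surjective up := fun x => by
    obtain ⟨z, hz⟩ := hsurj' x
    exact ⟨z, by rw [hup, hz]⟩
  -- the inverse of the push-up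
  choose g hg using hsurj''
  have hg' : ∀ z, g (up z) = z := fun z => hinj' (hg _)
  have hgmul : ∀ x y, g (x * y) = g x * g y := fun x y => hinj' (by
    rw [hg, map_mul up, hg, hg])
  have hgadd : ∀ x y, g (x + y) = g x + g y := fun x y => hinj' (by
    rw [hg, map_add up, hg, hg])
  obtain ⟨f, hf⟩ : ∃ f : modularFunctionFieldBar (M * p) → modularFunctionFieldBar (M * p),
      ∀ x, f x = up (w₀ (g x)) := ⟨_, fun _ => rfl⟩
  have hff : ∀ x, f (f x) = x := fun x => by
    rw [hf, hf, hg', h3, hg]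
  have hfmul : ∀ x y, f (x * y) = f x * f y := fun x y => by
    rw [hf, hf, hf, hgmul, map_mul w₀, map_mul up]
  have hfadd : ∀ x y, f (x + y) = f x + f y := fun x y => by
    rw [hf, hf, hf, hgadd, map_add w₀, map_add up]
  obtain ⟨w, hw⟩ : ∃ w : modularFunctionFieldBar (M * p) ≃+* modularFunctionFieldBar (M * p),
      ∀ x, w x = f x :=
    ⟨{ toFun := f
       invFun := f
       left_inv := hff
       right_inv := hff
       map_mul' := hfmul
       map_add' := hfadd }, fun _ => rfl⟩
  refine ⟨w, ?_, ?_, ?_, ?_⟩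
  · intro x
    obtain ⟨x', rfl⟩ := hsurj x
    rw [hw, hf, ← ssvmf_up_incl, ← hup, hg', h1, hup, ssvmf_up_phi]
  · intro x
    obtain ⟨x', rfl⟩ := hsurj x
    rw [hw, hf, ← ssvmf_up_phi, ← hup, hg', h2, hup, ssvmf_up_incl]
  · intro x
    rw [hw, hw, hff]
  · intro c
    have hc : algebraMap Qb (modularFunctionFieldBar (M * p)) c =
        up (algebraMap (↥(⊤ : IntermediateField ℚ Qb))
          (modularFunctionFieldFullC (⊤ : IntermediateField ℚ Qb) (M * p)) ⟨c, trivial⟩) := by
      apply Subtype.ext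
      rw [hup, ssvmmUp_coe]
      show algebraMap Qb (LaurentSeries Qb) c = coeffMap (algebraMap (↥(⊤ : IntermediateField ℚ Qb)) Qb)
        (algebraMap (↥(⊤ : IntermediateField ℚ Qb)) (LaurentSeries (↥(⊤ : IntermediateField ℚ Qb))) ⟨c, trivial⟩)
      rw [s18dd_coeffMap_algebraMap]
      rfl
    rw [hw, hf, hc, hg', h4]

variable [NeZero p]

/-- a choice of the Atkin–Lehner involution `w` of `F_ℚ̄(M p)` -/
def ttrW (hpM : ¬ p ∣ M) : modularFunctionFieldBar (M * p) ≃+* modularFunctionFieldBar (M * p) :=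
  Classical.choose (ttr_exists_w M hpM)

theorem ttrW_alpha (hpM : ¬ p ∣ M) (x : modularFunctionFieldBar M) :
    ttrW M hpM (heckeAlphaBar Qb M p x) = heckeBetaBar Qb M p x :=
  (Classical.choose_spec (ttr_exists_w M hpM)).1 x

theorem ttrW_beta (hpM : ¬ p ∣ M) (x : modularFunctionFieldBar M) :
    ttrW M hpM (heckeBetaBar Qb M p x) = heckeAlphaBar Qb M p x :=
  (Classical.choose_spec (ttr_exists_w M hpM)).2.1 x

theorem ttrW_invol (hpM : ¬ p ∣ M) (x : modularFunctionFieldBar (M * p)) :
    ttrW M hpM (ttrW M hpM x) = x :=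
  (Classical.choose_spec (ttr_exists_w M hpM)).2.2.1 x

theorem ttrW_const (hpM : ¬ p ∣ M) (c : Qb) :
    ttrW M hpM (algebraMap Qb (modularFunctionFieldBar (M * p)) c) =
      algebraMap Qb (modularFunctionFieldBar (M * p)) c :=
  (Classical.choose_spec (ttr_exists_w M hpM)).2.2.2 c

theorem ttrW_symm (hpM : ¬ p ∣ M) : (ttrW M hpM).symm = ttrW M hpM := by
  apply RingEquiv.ext
  intro x
  rw [RingEquiv.symm_apply_eq, ttrW_invol]

end W

end Fermat.Agent.TT
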