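import Mathlib

/-!
# Program TT (S33), G/Red₂ leaf (A7), ABSTRACT part: Galois-equivariance of a two-valuation chart

Owner: helper27.  Namespace `Fermat.Agent.TT`, prefix `ttrh`.  Mathlib only.

`F` a field, `V₁ ≤ F` a subring with a reduction homomorphism `red₁ : V₁ →+* R₁`,
`w : F ≃+* F` (the Atkin–Lehner involution), `V₂ := V₁.comap w`, `red₂ := red₁ ∘ w`,
`O₂ := V₁ ⊓ V₂`, `red := (red₁, red₂) : O₂ →+* R₁ × R₁`.

`s : F ≃+* F` (an inertial Galois automorphism) with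
* `(comm)` `s (w x) = w (s x)`,
* `(stab)` `x ∈ V₁ → s x ∈ V₁`,
* `(triv)` `red₁ (s x) = red₁ x`.

Output: `s` stabilises `V₂`, `O₂`, acts trivially on `red₂`, `red`; and for every common unit `u`
the quotient `s u / u` is a common ONE-unit (`ttrh_hs` : the hypothesis `hs` of `ttal_alpha`).
A `ValuationSubring` version with Mathlib's `unitGroup` / `principalUnitGroup` is
`ttrh_hs_val`.
-/

set_option autoImplicit false

namespace Fermat.Agent.TT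

variable {F : Type*} [Field F]

/-! ### The second chart -/

/-- `V₂ := w⁻¹ V₁` -/
def ttrhV2 (V₁ : Subring F) (w : F ≃+* F) : Subring F := V₁.comap (w : F →+* F)

theorem ttrh_mem_V2 {V₁ : Subring F} {w : F ≃+* F} {x : F} :
    x ∈ ttrhV2 V₁ w ↔ w x ∈ V₁ := Iff.rfl

/-- `red₂ := red₁ ∘ w` -/
def ttrhRed2 {R₁ : Type*} [Semiring R₁] (V₁ : Subring F) (w : F ≃+* F) (red₁ : ↥V₁ →+* R₁) :
    ↥(ttrhV2 V₁ w) →+* R₁ :=
  red₁.comp (((w : F →+* F).comp (ttrhV2 V₁ w).subtype).codRestrict V₁ fun x => x.2)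

theorem ttrhRed2_apply {R₁ : Type*} [Semiring R₁] (V₁ : Subring F) (w : F ≃+* F)
    (red₁ : ↥V₁ →+* R₁) (x : ↥(ttrhV2 V₁ w)) :
    ttrhRed2 V₁ w red₁ x = red₁ ⟨w (x : F), x.2⟩ := rfl

/-- `O₂ := V₁ ⊓ V₂` -/
def ttrhO2 (V₁ : Subring F) (w : F ≃+* F) : Subring F := V₁ ⊓ ttrhV2 V₁ w

theorem ttrh_mem_O2 {V₁ : Subring F} {w : F ≃+* F} {x : F} :
    x ∈ ttrhO2 V₁ w ↔ x ∈ V₁ ∧ w x ∈ V₁ := Iff.rfl

/-- `red := (red₁, red₂) : O₂ →+* R₁ × R₁` -/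
def ttrhRed {R₁ : Type*} [Semiring R₁] (V₁ : Subring F) (w : F ≃+* F) (red₁ : ↥V₁ →+* R₁) :
    ↥(ttrhO2 V₁ w) →+* R₁ × R₁ :=
  (red₁.comp (Subring.inclusion (inf_le_left : ttrhO2 V₁ w ≤ V₁))).prod
    ((ttrhRed2 V₁ w red₁).comp (Subring.inclusion (inf_le_right : ttrhO2 V₁ w ≤ ttrhV2 V₁ w)))

theorem ttrhRed_apply {R₁ : Type*} [Semiring R₁] (V₁ : Subring F) (w : F ≃+* F)
    (red₁ : ↥V₁ →+* R₁) (x : ↥(ttrhO2 V₁ w)) :
    ttrhRed V₁ w red₁ x = (red₁ ⟨(x : F), x.2.1⟩, red₁ ⟨w (x : F), x.2.2⟩) := rfl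

/-! ### Equivariance -/

section Equiv

variable {R₁ : Type*} [Semiring R₁] {V₁ : Subring F} {w s : F ≃+* F} {red₁ : ↥V₁ →+* R₁}

/-- `s` stabilises `V₂`. -/
theorem ttrh_smul_mem_V2 (hcomm : ∀ x, s (w x) = w (s x)) (hstab : ∀ x ∈ V₁, s x ∈ V₁)
    {x : F} (hx : x ∈ ttrhV2 V₁ w) : s x ∈ ttrhV2 V₁ w := by
  rw [ttrh_mem_V2] at hx ⊢
  rw [← hcomm]
  exact hstab _ hx

/-- `s` acts trivially on `red₂`. -/
theorem ttrh_red2_smul (hcomm : ∀ x, s (w x) = w (s x)) (hstab : ∀ x ∈ V₁, s x ∈ V₁)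
    (htriv : ∀ x : ↥V₁, red₁ ⟨s (x : F), hstab _ x.2⟩ = red₁ x) (x : ↥(ttrhV2 V₁ w)) :
    ttrhRed2 V₁ w red₁ ⟨s (x : F), ttrh_smul_mem_V2 hcomm hstab x.2⟩ =
      ttrhRed2 V₁ w red₁ x := by
  rw [ttrhRed2_apply, ttrhRed2_apply, ← htriv ⟨w (x : F), x.2⟩]
  congr 1
  exact Subtype.ext (hcomm _).symm

/-- `s` stabilises `O₂`. -/
theorem ttrh_smul_mem_O2 (hcomm : ∀ x, s (w x) = w (s x)) (hstab : ∀ x ∈ V₁, s x ∈ V₁)
    {x : F} (hx : x ∈ ttrhO2 V₁ w) : s x ∈ ttrhO2 V₁ w :=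
  ⟨hstab _ hx.1, ttrh_smul_mem_V2 hcomm hstab hx.2⟩

/-- `s` acts trivially on `red = (red₁, red₂)`. -/
theorem ttrh_red_smul (hcomm : ∀ x, s (w x) = w (s x)) (hstab : ∀ x ∈ V₁, s x ∈ V₁)
    (htriv : ∀ x : ↥V₁, red₁ ⟨s (x : F), hstab _ x.2⟩ = red₁ x) (x : ↥(ttrhO2 V₁ w)) :
    ttrhRed V₁ w red₁ ⟨s (x : F), ttrh_smul_mem_O2 hcomm hstab x.2⟩ = ttrhRed V₁ w red₁ x := by
  rw [ttrhRed_apply, ttrhRed_apply]
  refine Prod.ext ?_ ?_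
  · exact htriv ⟨(x : F), x.2.1⟩
  · have h := ttrh_red2_smul hcomm hstab htriv ⟨(x : F), x.2.2⟩
    rw [ttrhRed2_apply, ttrhRed2_apply] at h
    exact h

end Equiv

/-! ### Units and one-units (subring form) -/

/-- the units of a subring of a field, as a subgroup of `Fˣ` -/
def ttrhUnits (V : Subring F) : Subgroup Fˣ where
  carrier := {u | (u : F) ∈ V ∧ ((u⁻¹ : Fˣ) : F) ∈ V}
  mul_mem' := by
    rintro a b ⟨ha, ha'⟩ ⟨hb, hb'⟩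
    refine ⟨by rw [Units.val_mul]; exact V.mul_mem ha hb, ?_⟩
    rw [mul_inv, Units.val_mul]
    exact V.mul_mem ha' hb'
  one_mem' := ⟨by rw [Units.val_one]; exact V.one_mem, by rw [inv_one, Units.val_one]; exact V.one_mem⟩
  inv_mem' := by
    rintro a ⟨ha, ha'⟩
    exact ⟨ha', by rw [inv_inv]; exact ha⟩

theorem ttrh_mem_units {V : Subring F} {u : Fˣ} :
    u ∈ ttrhUnits V ↔ (u : F) ∈ V ∧ ((u⁻¹ : Fˣ) : F) ∈ V := Iff.rfl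

/-- the one-units of `(V, red)` : units of `V` with `red u = 1` -/
def ttrhOneUnits {R : Type*} [Semiring R] (V : Subring F) (red : ↥V →+* R) : Subgroup Fˣ where
  carrier := {u | ∃ (h : (u : F) ∈ V), ((u⁻¹ : Fˣ) : F) ∈ V ∧ red ⟨(u : F), h⟩ = 1}
  mul_mem' := by
    rintro a b ⟨ha, ha', ha1⟩ ⟨hb, hb', hb1⟩
    refine ⟨by rw [Units.val_mul]; exact V.mul_mem ha hb, ?_, ?_⟩
    · rw [mul_inv, Units.val_mul]
      exact V.mul_mem ha' hb'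
    · have : (⟨((a * b : Fˣ) : F), by rw [Units.val_mul]; exact V.mul_mem ha hb⟩ : ↥V) =
          ⟨(a : F), ha⟩ * ⟨(b : F), hb⟩ := Subtype.ext (Units.val_mul a b)
      rw [this, map_mul, ha1, hb1, one_mul]
  one_mem' := by
    refine ⟨by rw [Units.val_one]; exact V.one_mem, by rw [inv_one, Units.val_one]; exact V.one_mem, ?_⟩
    have : (⟨((1 : Fˣ) : F), by rw [Units.val_one]; exact V.one_mem⟩ : ↥V) = 1 :=
      Subtype.ext Units.val_one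
    rw [this, map_one]
  inv_mem' := by
    rintro a ⟨ha, ha', ha1⟩
    refine ⟨ha', by rw [inv_inv]; exact ha, ?_⟩
    have h1 : (⟨((a⁻¹ : Fˣ) : F), ha'⟩ : ↥V) * ⟨(a : F), ha⟩ = 1 :=
      Subtype.ext (by show ((a⁻¹ : Fˣ) : F) * (a : F) = 1; rw [← Units.val_mul, inv_mul_cancel, Units.val_one])
    have h2 := congrArg red h1
    rw [map_mul, ha1, mul_one, map_one] at h2
    exact h2

theorem ttrh_mem_oneUnits {R : Type*} [Semiring R] {V : Subring F} {red : ↥V →+* R} {u : Fˣ} :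
    u ∈ ttrhOneUnits V red ↔
      ∃ (h : (u : F) ∈ V), ((u⁻¹ : Fˣ) : F) ∈ V ∧ red ⟨(u : F), h⟩ = 1 := Iff.rfl

theorem ttrh_oneUnits_le {R : Type*} [Semiring R] (V : Subring F) (red : ↥V →+* R) :
    ttrhOneUnits V red ≤ ttrhUnits V := fun _ hu => ⟨hu.1, hu.2.1⟩

/-- a ring automorphism acting on the units of `F` -/
def ttrhUnitMap (s : F ≃+* F) : Fˣ →* Fˣ := Units.map ((s : F ≃+* F) : F →* F)

@[simp] theorem ttrhUnitMap_coe (s : F ≃+* F) (u : Fˣ) : ((ttrhUnitMap s u : Fˣ) : F) = s u := rfl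

section Hs

variable {R₁ : Type*} [Semiring R₁] {V₁ : Subring F} {w s : F ≃+* F} {red₁ : ↥V₁ →+* R₁}

/-- one chart: `s u / u` is a one-unit for every unit `u`. -/
theorem ttrh_hs_one (hstab : ∀ x ∈ V₁, s x ∈ V₁)
    (htriv : ∀ x : ↥V₁, red₁ ⟨s (x : F), hstab _ x.2⟩ = red₁ x) {u : Fˣ}
    (hu : u ∈ ttrhUnits V₁) : ttrhUnitMap s u * u⁻¹ ∈ ttrhOneUnits V₁ red₁ := by
  obtain ⟨hu1, hu2⟩ := hu
  have hsu : s (u : F) ∈ V₁ := hstab _ hu1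
  have hsu' : s ((u⁻¹ : Fˣ) : F) ∈ V₁ := hstab _ hu2
  have hinv : (((ttrhUnitMap s u)⁻¹ : Fˣ) : F) = s ((u⁻¹ : Fˣ) : F) := by
    rw [← map_inv]; rfl
  refine ⟨?_, ?_, ?_⟩
  · rw [Units.val_mul, ttrhUnitMap_coe]
    exact V₁.mul_mem hsu hu2
  · rw [mul_inv, inv_inv, Units.val_mul, hinv]
    exact V₁.mul_mem hsu' hu1
  · have e : (⟨((ttrhUnitMap s u * u⁻¹ : Fˣ) : F), by
          rw [Units.val_mul, ttrhUnitMap_coe]; exact V₁.mul_mem hsu hu2⟩ : ↥V₁) =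
        ⟨s (u : F), hsu⟩ * ⟨((u⁻¹ : Fˣ) : F), hu2⟩ := Subtype.ext (by
          show ((ttrhUnitMap s u * u⁻¹ : Fˣ) : F) = s (u : F) * ((u⁻¹ : Fˣ) : F)
          rw [Units.val_mul, ttrhUnitMap_coe])
    rw [e, map_mul, htriv ⟨(u : F), hu1⟩, ← map_mul]
    have : (⟨(u : F), hu1⟩ : ↥V₁) * ⟨((u⁻¹ : Fˣ) : F), hu2⟩ = 1 :=
      Subtype.ext (by show (u : F) * ((u⁻¹ : Fˣ) : F) = 1; rw [← Units.val_mul, mul_inv_cancel, Units.val_one])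
    rw [this, map_one]

/-- **(A7) ⟹ `hs` of `ttal_alpha`** : for a common unit `u` of `V₁`, `V₂` the quotient `s u / u` is
a common one-unit. -/
theorem ttrh_hs (hcomm : ∀ x, s (w x) = w (s x)) (hstab : ∀ x ∈ V₁, s x ∈ V₁)
    (htriv : ∀ x : ↥V₁, red₁ ⟨s (x : F), hstab _ x.2⟩ = red₁ x) {u : Fˣ}
    (hu : u ∈ ttrhUnits V₁ ⊓ ttrhUnits (ttrhV2 V₁ w)) :
    ttrhUnitMap s u * u⁻¹ ∈
      ttrhOneUnits V₁ red₁ ⊓ ttrhOneUnits (ttrhV2 V₁ w) (ttrhRed2 V₁ w red₁) :=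
  ⟨ttrh_hs_one hstab htriv hu.1,
    ttrh_hs_one (fun _ hx => ttrh_smul_mem_V2 hcomm hstab hx)
      (fun x => ttrh_red2_smul hcomm hstab htriv x) hu.2⟩

end Hs

end Fermat.Agent.TT
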