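import Mathlib
import Fermat.Agent.SS.Val.ModAL
import Fermat.Agent.G.GN

/-!
# Program TT (S33), package G/Red₂ (helper12, prefix `ttr`) : the residue field of the Gauss
valuation of `F(M p)` is `F_k(M)`

`p ∤ M`, `𝔸` over `p`.  The reduction of an integral series of `F_E(M p)` (`E` a number field) lies in
`F_{k₀}(M)` : the Gauss ring of `F_E(M p)` is the valuation ring `V₁` of the two-factor package
(`ssvma_V₁_eq`), whose residue field is that of the Gauss ring of `F_E(M)`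
(`SsvAmb.exists_const_sub_mem₁`, the factor `Y - j^p` has degree one), and the latter is
`F_{k₀}(M)` by `ggn_res_mem_full`.  This replaces `ggn_res_mem_full` at the level `M p`.
-/

set_option autoImplicit false
set_option linter.unusedSectionVars false
set_option linter.unusedVariables false
set_option linter.style.haveILetI false
set_option synthInstance.maxHeartbeats 400000

noncomputable section

namespace Fermat.Agent.TT

open Polynomial ModularCurve AlgebraicCurve IsLocalRing IntermediateField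
  Fermat.Agent.G Fermat.Agent.S18 Fermat.Agent.SS

local notation "Qb" => AlgebraicClosure ℚ

variable (𝔸 : ValuationSubring Qb) (E : IntermediateField ℚ Qb) [FiniteDimensional ℚ E]
variable (M : ℕ) [NeZero M] {p : ℕ} [Fact p.Prime] [NeZero p]

set_option maxHeartbeats 1000000 in
/-- the reduction of an integral series of `F_E(M p)` lies in `F_{k₀}(M)` -/
theorem ttr_res_mem_full (hA : 𝔸.LiesOverPrime p) (hpM : ¬ p ∣ M)
    (a : LaurentSeries ↥(s18dVal 𝔸 E))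
    (ha : s18vIncl ↥(s18dVal 𝔸 E) E a ∈ modularFunctionFieldFullC E (M * p)) :
    s18vRes ↥(s18dVal 𝔸 E) a ∈ modularFunctionFieldFullC (ResidueField ↥(s18dVal 𝔸 E)) M := by
  haveI : IsDiscreteValuationRing ↥(s18dVal 𝔸 E) := s18d_isDVR 𝔸 E hA
  obtain ⟨ϖ, hϖ⟩ := IsDiscreteValuationRing.exists_irreducible ↥(s18dVal 𝔸 E)
  haveI : CharZero ↥(s18dVal 𝔸 E) := ggn_charZero 𝔸 E
  have hℓ := s18d_natCast_mem (ℓ := p) 𝔸 E hA
  obtain ⟨Ξ, G, h⟩ := ssvmm_amb 𝔸 E M hA hpM hϖ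
  let x : modularFunctionFieldFullC E (M * p) := ⟨s18vIncl ↥(s18dVal 𝔸 E) E a, ha⟩
  have hxO : x ∈ s18vO ↥(s18dVal 𝔸 E) (modularFunctionFieldFullC E (M * p)) :=
    ⟨a, 1, ha, by rw [map_one]; exact one_mem _, by rw [map_one]; exact one_ne_zero,
      by rw [map_one, mul_one]⟩
  have hxV : x ∈ h.V₁ := ((ssvma_mem₁_iff 𝔸 E M hA hϖ Ξ G h x).1).mpr hxO
  have hmon : (X - C (ssvmmJ 𝔸 E M p ^ p) : (↥(ssvmmR 𝔸 E M p))[X]).Monic := monic_X_sub_C _
  have hdeg : (X - C (ssvmmJ 𝔸 E M p ^ p) : (↥(ssvmmR 𝔸 E M p))[X]).natDegree = 1 := natDegree_X_sub_C _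
  obtain ⟨r, hr⟩ := h.exists_const_sub_mem₁ hmon hdeg hxV
  obtain ⟨hx', hred⟩ := ((ssvma_mem₁_iff 𝔸 E M hA hϖ Ξ G h (x - (r : _))).2).mp hr
  obtain ⟨x₀, hx₀, hr₀⟩ := (mem_ssvmgR _ (ssvmm_le E M p)).mp r.2
  obtain ⟨hrO', hrred⟩ := ssvma_red_incl 𝔸 E M p x₀ hx₀
  have hrO : (r : modularFunctionFieldFullC E (M * p)) ∈
      s18vO ↥(s18dVal 𝔸 E) (modularFunctionFieldFullC E (M * p)) := by
    rw [← hr₀]; exact hrO'
  have e1 : s18vcRed (modularFunctionFieldFullC E (M * p)) ⟨x, hxO⟩ =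
      s18vcRed (modularFunctionFieldFullC E (M * p)) ⟨r, hrO⟩ := by
    have e : (⟨x - r, hx'⟩ : ↥(s18vO ↥(s18dVal 𝔸 E) (modularFunctionFieldFullC E (M * p)))) =
        ⟨x, hxO⟩ - ⟨r, hrO⟩ := rfl
    rw [e, map_sub, sub_eq_zero] at hred
    exact hred
  have e2 : s18vcRed (modularFunctionFieldFullC E (M * p)) ⟨x, hxO⟩ =
      s18vRes ↥(s18dVal 𝔸 E) a := s18vcRed_incl _ _ a rfl
  have e3 : s18vcRed (modularFunctionFieldFullC E (M * p)) ⟨r, hrO⟩ =
      s18vcRed (modularFunctionFieldFullC E M) ⟨x₀, hx₀⟩ := by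
    rw [← hrred]
    congr 1
    exact Subtype.ext hr₀.symm
  have e4 : s18vRes ↥(s18dVal 𝔸 E) a = s18vcRed (modularFunctionFieldFullC E M) ⟨x₀, hx₀⟩ :=
    e2.symm.trans (e1.trans e3)
  rw [e4]
  have hx₀' := hx₀
  obtain ⟨c, d, hc, hd, hd0, hcd⟩ := hx₀'
  rw [s18vcRed_eq (modularFunctionFieldFullC E M) ⟨x₀, hx₀⟩ c d hd0 hcd]
  exact div_mem (ggn_res_mem_full hϖ hℓ M hpM c hc) (ggn_res_mem_full hϖ hℓ M hpM d hd)
end Fermat.Agent.TT
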