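import Mathlib
import Fermat.Agent.TT.Red2.ResField
import Fermat.Agent.G.Red.Defs
import Fermat.Agent.G.Red.Gauss
import Fermat.Agent.G.Red.GaussKer

/-!
# Program TT (S33), package G/Red₂ (helper12, prefix `ttr`) : the Gauss ring `V₁` of `F_ℚ̄(M p)`

`p ∤ M`, `𝔸` over `p`, `k = 𝔸/𝔪`, `F = modularFunctionFieldBar (M * p)`.

* `ttr_fullC_mul_eq` : `F_k(M p) = F_k(M)` in characteristic `p`;
* `ttr_good_of_gen`  : AUTOMATIC GOODNESS at the level `M p` : an integral series whose generic
  fibre lies in `F` is good (its reduction lies in `F_k(M p) = F_k(M)`);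
* `ttr_normal'`      : GAUSS NORMALISATION at the level `M p`;
* `ttr_mem_or_inv_mem`, `ttr_inv_mem` : `V₁ = grdO (M * p) 𝔸` is a valuation ring of `F`, whose
  units are the elements with nonzero reduction;
* `ttrV1`            : `V₁` as a `ValuationSubring`.
-/

set_option autoImplicit false
set_option linter.unusedSectionVars false
set_option linter.unusedVariables false
set_option linter.style.haveILetI false
set_option synthInstance.maxHeartbeats 400000

noncomputable section

namespace Fermat.Agent.TT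

open Polynomial ModularCurve AlgebraicCurve IsLocalRing IntermediateField
  Fermat.Agent.G Fermat.Agent.S18 Fermat.Agent.SS

local notation "Qb" => AlgebraicClosure ℚ

section CharP

variable (k : Type*) [Field k] (M : ℕ) [NeZero M] (p : ℕ) [Fact p.Prime] [NeZero p] [CharP k p]

/-- `j(q^(p d)) = j(q^d)^p` in characteristic `p` -/
theorem ttr_qExpand_jqModC_pow (d : ℕ) [NeZero d] :
    qExpand k (p * d) (jqModC k) = qExpand k d (jqModC k) ^ p := by
  rw [gcjf_pow_char k p, coeffMap_qExpand, coeffMap_jqModC, qExpand_qExpand]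

/-- `F_k(M p) = F_k(M)` in characteristic `p` -/
theorem ttr_fullC_mul_eq :
    modularFunctionFieldFullC k (M * p) = modularFunctionFieldFullC k M := by
  have hp : p.Prime := Fact.out
  apply le_antisymm
  · unfold modularFunctionFieldFullC
    rw [IntermediateField.adjoin_le_iff]
    rintro x ⟨d, hne, hd, rfl⟩
    haveI := hne
    by_cases hpd : p ∣ d
    · obtain ⟨d', rfl⟩ := hpd
      have hd'0 : d' ≠ 0 := fun h0 => NeZero.ne (p * d') (by rw [h0, mul_zero])
      haveI : NeZero d' := ⟨hd'0⟩
      have hd'M : d' ∣ M := by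
        rw [mul_comm M p] at hd
        exact (Nat.mul_dvd_mul_iff_left hp.pos).mp hd
      show qExpand k (p * d') (jqModC k) ∈ modularFunctionFieldFullC k M
      rw [ttr_qExpand_jqModC_pow]
      exact pow_mem (jqModCd_mem_full k M hd'M) p
    · have hdM : d ∣ M :=
        (Nat.Coprime.dvd_of_dvd_mul_right ((Nat.Prime.coprime_iff_not_dvd hp).mpr hpd).symm hd)
      exact jqModCd_mem_full k M hdM
  · exact full_degeneracyC_le k (dvd_mul_right M p)

end CharP

section Concrete

variable (M : ℕ) [NeZero M] {p : ℕ} [Fact p.Prime] [NeZero p]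
variable (A : ValuationSubring Qb)

/-- the residue field of `𝔸` has characteristic `p` -/
theorem ttr_charP (hA : A.LiesOverPrime p) : CharP (ResidueField A) p :=
  s18ac_charP A hA

/-- an integral series of `F_E(M p)` (`E` a number field) gives a good integral element, whose
reduction lies in `F_k(M)`. -/
theorem ttr_good_of_model (hpM : ¬ p ∣ M) (hA : A.LiesOverPrime p)
    (E : IntermediateField ℚ Qb) [FiniteDimensional ℚ E]
    (a : LaurentSeries (s18dVal A E))
    (ha : s18vIncl (s18dVal A E) E a ∈ modularFunctionFieldFullC E (M * p)) :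
    S18Good (M * p) A (coeffMap (s18dIncl A E) a) ∧
      coeffMap (residue A) (coeffMap (s18dIncl A E) a) ∈
        modularFunctionFieldFullC (ResidueField A) M := by
  haveI : CharP (ResidueField A) p := ttr_charP A hA
  have key : coeffMap (residue A) (coeffMap (s18dIncl A E) a) ∈
      modularFunctionFieldFullC (ResidueField A) M := by
    have h1 := ttr_res_mem_full A E M hA hpM a ha
    haveI : IsLocalHom (s18dIncl A E) := ggn_isLocalHom A E
    have h2 := s18dd_coeffMap_mem_full (ResidueField.map (s18dIncl A E)) M h1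
    have e : coeffMap (ResidueField.map (s18dIncl A E)) (s18vRes (s18dVal A E) a) =
        coeffMap (residue A) (coeffMap (s18dIncl A E) a) := by
      rw [coeffMap_coeffMap, coeffMap_coeffMap]
      rfl
    rw [← e]
    exact h2
  refine ⟨⟨?_, ?_⟩, key⟩
  · rw [← s18d_up_incl]
    exact s18d_up_mem E (M * p) _ ha
  · rw [ttr_fullC_mul_eq (ResidueField A) M p]
    exact key

/-- AUTOMATIC GOODNESS at the level `M p` : an integral series whose generic fibre lies in
`F_ℚ̄(M p)` is good, and its reduction lies in `F_k(M)`. -/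
theorem ttr_good_of_gen (hpM : ¬ p ∣ M) (hA : A.LiesOverPrime p) (U : LaurentSeries A)
    (hU : coeffMap A.subtype U ∈ modularFunctionFieldBar (M * p)) :
    S18Good (M * p) A U ∧
      coeffMap (residue A) U ∈ modularFunctionFieldFullC (ResidueField A) M := by
  obtain ⟨E, hfd, z, hz, hzU⟩ := s18dd_exists_model (M * p) _ hU
  haveI := hfd
  obtain ⟨v, hv1, hv2⟩ := s18dd_exists_coeff (A := A) U z hzU
  have h := ttr_good_of_model M A hpM hA E v (by
    show s18vIncl (s18dVal A E) E v ∈ _
    have : s18vIncl (s18dVal A E) E v = z := hv2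
    rw [this]; exact hz)
  have e : coeffMap (s18dIncl A E) v = U := hv1
  rwa [e] at h

/-- GAUSS NORMALISATION at the level `M p`: every nonzero `f ∈ F_ℚ̄(M p)` is `c · u₁/u₂` with `c ∈ ℚ̄ˣ` and `u₁, u₂`
good integral series with nonzero reductions (`p ∤ M`). -/
theorem ttr_normal' (hpM : ¬ p ∣ M) (hA : A.LiesOverPrime p)
    (f : modularFunctionFieldBar (M * p)) (hf : f ≠ 0) :
    ∃ (c : AlgebraicClosure ℚ) (u₁ u₂ : LaurentSeries A)
      (h₁ : S18Good (M * p) A u₁) (h₂ : S18Good (M * p) A u₂),
      c ≠ 0 ∧ h₁.spec ≠ 0 ∧ h₂.spec ≠ 0 ∧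
        f * h₂.gen = algebraMap (AlgebraicClosure ℚ) (modularFunctionFieldBar (M * p)) c * h₁.gen := by
  obtain ⟨E, hfd, z, hz, hzf⟩ := s18dd_exists_model (M * p) f f.2
  haveI := hfd
  haveI : IsDiscreteValuationRing (s18dVal A E) := s18d_isDVR A E hA
  obtain ⟨ϖ, hϖ⟩ := IsDiscreteValuationRing.exists_irreducible (s18dVal A E)
  haveI : CharZero (s18dVal A E) := ggn_charZero A E
  obtain ⟨a, b, ha, hb, hb0, hab⟩ :=
    s18v_gen_full (A₀ := s18dVal A E) (L₀ := E) (M * p) ⟨z, hz⟩
  have hz0 : z ≠ 0 := by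
    rintro rfl
    apply hf
    apply Subtype.ext
    rw [← hzf, map_zero]
    rfl
  have hinj : Function.Injective (s18vIncl (s18dVal A E) E) := by
    intro x y hxy
    ext k
    have := congrArg (fun s => HahnSeries.coeff s k) hxy
    simpa using this
  have ha0 : a ≠ 0 := by
    rintro rfl
    rw [map_zero] at hab
    rcases mul_eq_zero.mp hab with h | h
    · exact hz0 h
    · exact hb0 (hinj (by rw [h, map_zero]))
  obtain ⟨n, a', rfl, ha'⟩ := s18vg_exists_primitive hϖ a ha0
  obtain ⟨m, b', rfl, hb'⟩ := s18vg_exists_primitive hϖ b hb0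
  have hϖn : ∀ k : ℕ, ϖ ^ k ≠ 0 := fun k => pow_ne_zero _ hϖ.ne_zero
  have ha'm := s18vg_mem_of_C_mul (F := modularFunctionFieldFullC E (M * p)) (ϖ ^ n) (hϖn n) a' ha
  have hb'm := s18vg_mem_of_C_mul (F := modularFunctionFieldFullC E (M * p)) (ϖ ^ m) (hϖn m) b' hb
  have h₁ := (ttr_good_of_model M A hpM hA E a' ha'm).1
  have h₂ := (ttr_good_of_model M A hpM hA E b' hb'm).1
  have hc0 : algebraMap (s18dVal A E) E (ϖ ^ n) / algebraMap (s18dVal A E) E (ϖ ^ m) ≠ 0 := by
    refine div_ne_zero ?_ ?_
    · rw [Ne, map_eq_zero_iff _ (IsFractionRing.injective (s18dVal A E) E)]; exact hϖn n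
    · rw [Ne, map_eq_zero_iff _ (IsFractionRing.injective (s18dVal A E) E)]; exact hϖn m
  refine ⟨algebraMap E (AlgebraicClosure ℚ)
    (algebraMap (s18dVal A E) E (ϖ ^ n) / algebraMap (s18dVal A E) E (ϖ ^ m)), _, _, h₁, h₂,
    ?_, ?_, ?_, ?_⟩
  · rw [Ne, map_eq_zero_iff _ (algebraMap E (AlgebraicClosure ℚ)).injective]
    exact hc0
  · intro h
    exact ggn_spec_ne_zero A E a' ha' (congrArg Subtype.val h)
  · intro h
    exact ggn_spec_ne_zero A E b' hb' (congrArg Subtype.val h)
  · apply Subtype.ext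
    show (f : LaurentSeries (AlgebraicClosure ℚ)) * coeffMap A.subtype (coeffMap (s18dIncl A E) b') =
      algebraMap (AlgebraicClosure ℚ) (LaurentSeries (AlgebraicClosure ℚ)) _ *
        coeffMap A.subtype (coeffMap (s18dIncl A E) a')
    rw [← s18d_up_incl, ← s18d_up_incl, ← hzf, ← s18dd_coeffMap_algebraMap, ← map_mul, ← map_mul]
    congr 1
    rw [map_mul, map_mul, s18vg_incl_C, s18vg_incl_C] at hab
    have hm0 : algebraMap E (LaurentSeries E) (algebraMap (s18dVal A E) E (ϖ ^ m)) ≠ 0 := by
      rw [Ne, map_eq_zero_iff _ (algebraMap E (LaurentSeries E)).injective,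
        map_eq_zero_iff _ (IsFractionRing.injective (s18dVal A E) E)]
      exact hϖn m
    rw [map_div₀, div_mul_eq_mul_div, eq_div_iff hm0, ← hab]
    ring

/-- GAUSS NORMALISATION, in the shape of `G/EsTor/Spec.lean`: `c · f · u₂ = u₁`. -/
theorem ttr_normal (hpM : ¬ p ∣ M) (hA : A.LiesOverPrime p)
    (f : modularFunctionFieldBar (M * p)) (hf : f ≠ 0) :
    ∃ (c : AlgebraicClosure ℚ) (u₁ u₂ : LaurentSeries A) (h₁ : S18Good (M * p) A u₁)
      (h₂ : S18Good (M * p) A u₂), c ≠ 0 ∧ h₁.spec ≠ 0 ∧ h₂.spec ≠ 0 ∧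
        algebraMap (AlgebraicClosure ℚ) (modularFunctionFieldBar (M * p)) c * f * h₂.gen = h₁.gen := by
  obtain ⟨c, u₁, u₂, h₁, h₂, hc, hs₁, hs₂, hfu⟩ := ttr_normal' M A hpM hA f hf
  refine ⟨c⁻¹, u₁, u₂, h₁, h₂, inv_ne_zero hc, hs₁, hs₂, ?_⟩
  have hc' : algebraMap (AlgebraicClosure ℚ) (modularFunctionFieldBar (M * p)) c ≠ 0 := by
    intro h0
    exact hc ((map_eq_zero_iff _ (algebraMap (AlgebraicClosure ℚ)
      (modularFunctionFieldBar (M * p))).injective).mp h0)
  rw [mul_assoc, hfu, map_inv₀, ← mul_assoc, inv_mul_cancel₀ hc', one_mul]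

/-- (B1) the Gauss ring is a valuation ring of `F` (from `ggn_normal`). -/
theorem ttr_mem_or_inv_mem (hpM : ¬ p ∣ M) (hA : A.LiesOverPrime p)
    (x : modularFunctionFieldBar (M * p)) : x ∈ grdO (M * p) A ∨ x⁻¹ ∈ grdO (M * p) A := by
  by_cases hx : x = 0
  · left; rw [hx]; exact zero_mem _
  obtain ⟨c, u₁, u₂, h₁, h₂, hc, hs₁, hs₂, hfu⟩ := ttr_normal' M A hpM hA x hx
  have hfu' : (x : LaurentSeries (AlgebraicClosure ℚ)) * coeffMap A.subtype u₂ =
      HahnSeries.C c * coeffMap A.subtype u₁ := by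
    have := congrArg (fun z : modularFunctionFieldBar (M * p) =>
      (z : LaurentSeries (AlgebraicClosure ℚ))) hfu
    simp only [MulMemClass.coe_mul, grdga_coe_algebraMap] at this
    exact this
  rcases A.mem_or_inv_mem c with hcA | hcA
  · left
    refine ⟨HahnSeries.C ⟨c, hcA⟩ * u₁, u₂, grd_good_mul (ggn_good_C _) h₁, h₂,
      fun h => hs₂ (Subtype.ext h), ?_⟩
    rw [map_mul, grdga_coeffMap_C, hfu']
  · right
    refine ⟨HahnSeries.C ⟨c⁻¹, hcA⟩ * u₂, u₁, grd_good_mul (ggn_good_C _) h₂, h₁,
      fun h => hs₁ (Subtype.ext h), ?_⟩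
    rw [map_mul, grdga_coeffMap_C]
    have hx' : (x : LaurentSeries (AlgebraicClosure ℚ)) ≠ 0 := fun h => hx (Subtype.ext h)
    have hcc : (HahnSeries.C c : LaurentSeries (AlgebraicClosure ℚ)) ≠ 0 := by
      intro h
      apply hc
      have := congrArg (fun s => HahnSeries.coeff s 0) h
      simpa using this
    have hCinv : (HahnSeries.C c⁻¹ : LaurentSeries (AlgebraicClosure ℚ)) * HahnSeries.C c = 1 := by
      rw [← map_mul, inv_mul_cancel₀ hc, map_one]
    show ((x⁻¹ : modularFunctionFieldBar (M * p)) : LaurentSeries (AlgebraicClosure ℚ)) *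
      coeffMap A.subtype u₁ = HahnSeries.C c⁻¹ * coeffMap A.subtype u₂
    have hxinv : ((x⁻¹ : modularFunctionFieldBar (M * p)) : LaurentSeries (AlgebraicClosure ℚ)) *
        (x : LaurentSeries (AlgebraicClosure ℚ)) = 1 := by
      have := congrArg (fun z : modularFunctionFieldBar (M * p) =>
        (z : LaurentSeries (AlgebraicClosure ℚ))) (inv_mul_cancel₀ hx)
      simpa using this
    calc ((x⁻¹ : modularFunctionFieldBar (M * p)) : LaurentSeries (AlgebraicClosure ℚ)) *
          coeffMap A.subtype u₁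
        = ((x⁻¹ : modularFunctionFieldBar (M * p)) : LaurentSeries (AlgebraicClosure ℚ)) *
            ((HahnSeries.C c⁻¹ * HahnSeries.C c) * coeffMap A.subtype u₁) := by
          rw [hCinv, one_mul]
      _ = HahnSeries.C c⁻¹ * (((x⁻¹ : modularFunctionFieldBar (M * p)) :
            LaurentSeries (AlgebraicClosure ℚ)) * (HahnSeries.C c * coeffMap A.subtype u₁)) := by
          ring
      _ = HahnSeries.C c⁻¹ * (((x⁻¹ : modularFunctionFieldBar (M * p)) :
            LaurentSeries (AlgebraicClosure ℚ)) * ((x : LaurentSeries (AlgebraicClosure ℚ)) *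
              coeffMap A.subtype u₂)) := by rw [hfu']
      _ = HahnSeries.C c⁻¹ * coeffMap A.subtype u₂ := by
          rw [← mul_assoc _ (x : LaurentSeries (AlgebraicClosure ℚ)), hxinv, one_mul]

/-- (B1') elements with nonzero reduction are units of the Gauss ring. -/
theorem ttr_inv_mem (hpM : ¬ p ∣ M) (hA : A.LiesOverPrime p) (x : ↥(grdO (M * p) A))
    (hx : grdRed (M * p) A x ≠ 0) : (x : modularFunctionFieldBar (M * p))⁻¹ ∈ grdO (M * p) A := by
  obtain ⟨a, b, ha, hb, hb0, hxab⟩ := x.2
  have hred := grdRed_eq (M * p) A x a b hb0 hxab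
  have ha0 : coeffMap (residue A) a ≠ 0 := by
    intro h
    apply hx
    apply Subtype.ext
    rw [hred, h, zero_div]
    rfl
  have hx0 : (x : modularFunctionFieldBar (M * p)) ≠ 0 := by
    intro h
    apply hx
    have : x = 0 := Subtype.ext h
    rw [this, map_zero]
  refine ⟨b, a, hb, ha, ha0, ?_⟩
  have hxinv : (((x : modularFunctionFieldBar (M * p))⁻¹ : modularFunctionFieldBar (M * p)) :
      LaurentSeries (AlgebraicClosure ℚ)) *
        ((x : modularFunctionFieldBar (M * p)) : LaurentSeries (AlgebraicClosure ℚ)) = 1 := by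
    have := congrArg (fun z : modularFunctionFieldBar (M * p) =>
      (z : LaurentSeries (AlgebraicClosure ℚ))) (inv_mul_cancel₀ hx0)
    simpa using this
  rw [← hxab, ← mul_assoc, hxinv, one_mul]

/-- (B3) the kernel of the reduction is `𝔪_𝔸 · grdO`. -/
theorem ttr_red_eq_zero_iff (hpM : ¬ p ∣ M) (hA : A.LiesOverPrime p) (x : ↥(grdO (M * p) A)) :
    grdRed (M * p) A x = 0 ↔ ∃ (π : A) (x' : ↥(grdO (M * p) A)), π ∈ maximalIdeal A ∧
      (x : modularFunctionFieldBar (M * p)) =
        algebraMap (AlgebraicClosure ℚ) (modularFunctionFieldBar (M * p)) (π : AlgebraicClosure ℚ) *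
          (x' : modularFunctionFieldBar (M * p)) := by
  constructor
  · intro h0
    obtain ⟨a, b, ha, hb, hb0, hx⟩ := x.2
    have hred := grdRed_eq (M * p) A x a b hb0 hx
    rw [h0] at hred
    have ha0 : coeffMap (residue A) a = 0 := by
      have h1 : coeffMap (residue A) a / coeffMap (residue A) b = 0 := hred.symm
      rcases div_eq_zero_iff.mp h1 with h | h
      · exact h
      · exact absurd h hb0
    by_cases haz : a = 0
    · -- then `x = 0`
      have hb1 : coeffMap A.subtype b ≠ 0 := by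
        intro hb1
        apply hb0
        have : b = 0 := grd_coeffMap_subtype_injective A (by rw [hb1, map_zero])
        rw [this, map_zero]
      have hx0 : ((x : modularFunctionFieldBar (M * p)) : LaurentSeries (AlgebraicClosure ℚ)) = 0 := by
        rw [haz, map_zero] at hx
        rcases mul_eq_zero.mp hx with h | h
        · exact h
        · exact absurd h hb1
      refine ⟨0, 0, zero_mem _, ?_⟩
      apply Subtype.ext
      rw [hx0]
      simp
    · -- Gauss normalisation of `a`
      have hf : ha.gen ≠ 0 := by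
        intro hf
        apply haz
        exact grd_coeffMap_subtype_injective A (by rw [map_zero]; exact congrArg Subtype.val hf)
      obtain ⟨c, u₁, u₂, h₁, h₂, hc, hs₁, hs₂, hfu⟩ := ttr_normal M A hpM hA ha.gen hf
      -- the identity as series over `ℚ̄`
      have hser : algebraMap (AlgebraicClosure ℚ) (LaurentSeries (AlgebraicClosure ℚ)) c *
          coeffMap A.subtype a * coeffMap A.subtype u₂ = coeffMap A.subtype u₁ :=
        congrArg Subtype.val hfu
      -- `c ∉ 𝔸`
      have hcA : c ∉ A := by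
        intro hcA
        have h1 : HahnSeries.C (⟨c, hcA⟩ : A) * a * u₂ = u₁ := by
          apply grd_coeffMap_subtype_injective A
          rw [map_mul, map_mul, grdk_coeffMap_subtype_C]
          exact hser
        apply hs₁
        apply Subtype.ext
        show coeffMap (residue A) u₁ = 0
        rw [← h1, map_mul, map_mul, ha0, mul_zero, zero_mul]
      have hcinv : c⁻¹ ∈ A := (A.mem_or_inv_mem c).resolve_left hcA
      have hπ : (⟨c⁻¹, hcinv⟩ : A) ∈ maximalIdeal A := by
        rw [mem_maximalIdeal, mem_nonunits_iff]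
        rintro ⟨u, hu⟩
        apply hcA
        have h2 : ((u⁻¹ : Aˣ) : A) * (⟨c⁻¹, hcinv⟩ : A) = 1 := by
          rw [← hu]; exact u.inv_mul
        have h3 : (((u⁻¹ : Aˣ) : A) : AlgebraicClosure ℚ) * c⁻¹ = 1 := by
          have := congrArg (fun z : A => (z : AlgebraicClosure ℚ)) h2
          simpa using this
        have h4 : (((u⁻¹ : Aˣ) : A) : AlgebraicClosure ℚ) = c := by
          field_simp at h3
          exact h3
        rw [← h4]
        exact ((u⁻¹ : Aˣ) : A).2
      -- `x' = c x`
      have hx' : algebraMap (AlgebraicClosure ℚ) (modularFunctionFieldBar (M * p)) c *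
          (x : modularFunctionFieldBar (M * p)) ∈ grdO (M * p) A := by
        refine ⟨u₁, u₂ * b, h₁, grd_good_mul h₂ hb, ?_, ?_⟩
        · rw [map_mul]
          exact mul_ne_zero (fun h => hs₂ (Subtype.ext h)) hb0
        · rw [map_mul, ← hser, ← hx]
          push_cast
          ring
      refine ⟨⟨c⁻¹, hcinv⟩, ⟨_, hx'⟩, hπ, ?_⟩
      show (x : modularFunctionFieldBar (M * p)) =
        algebraMap (AlgebraicClosure ℚ) (modularFunctionFieldBar (M * p)) c⁻¹ *
          (algebraMap (AlgebraicClosure ℚ) (modularFunctionFieldBar (M * p)) c *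
            (x : modularFunctionFieldBar (M * p)))
      rw [← mul_assoc, ← map_mul, inv_mul_cancel₀ hc, map_one, one_mul]
  · rintro ⟨π, x', hπ, hxe⟩
    obtain ⟨a', b', ha', hb', hb0', hx'⟩ := x'.2
    have hx : ((x : modularFunctionFieldBar (M * p)) : LaurentSeries (AlgebraicClosure ℚ)) *
        coeffMap A.subtype b' = coeffMap A.subtype (HahnSeries.C π * a') := by
      rw [hxe, map_mul, grdk_coeffMap_subtype_C, ← hx']
      push_cast
      ring
    apply Subtype.ext
    rw [grdRed_eq (M * p) A x (HahnSeries.C π * a') b' hb0' hx, map_mul, grdk_coeffMap_residue_C]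
    have hπ0 : residue A π = 0 := (residue_eq_zero_iff π).mpr hπ
    rw [hπ0, map_zero, zero_mul, zero_div]
    rfl

end Concrete

end Fermat.Agent.TT
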