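import Mathlib
import Fermat.Agent.TT.Red2.Gauss1

/-!
# Program TT (S33), package G/Red₂ (helper12, prefix `ttr`) : `V₁`, `red₁` and the degeneracy maps

`p ∤ M`, `𝔸` over `p`, `k = 𝔸/𝔪`, `F = modularFunctionFieldBar (M * p)`, `F_k = F_k(M)`.

* `ttrV1`   : the Gauss ring `grdO (M * p) 𝔸` as a `ValuationSubring` of `F`;
* `ttrRed1` : the reduction `V₁ → F_k(M)` (`grdRed (M * p) 𝔸` followed by `F_k(M p) = F_k(M)`);
* `ttrPhi`  : `Φ : F_k(M) → F_k(M)`, `f ↦ f(q^p)`;
* `ttr_alpha_mem`, `ttrRed1_alpha` : `α f ∈ V₁`, `red₁ (α f) = f̄` for `f` in the Gauss ring of level `M`;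
* `ttr_beta_mem`, `ttrRed1_beta`   : `β f ∈ V₁`, `red₁ (β f) = Φ f̄`.
-/

set_option autoImplicit false
set_option linter.unusedSectionVars false
set_option linter.unusedVariables false
set_option linter.style.haveILetI false
set_option synthInstance.maxHeartbeats 400000

noncomputable section

namespace Fermat.Agent.TT

open Polynomial ModularCurve AlgebraicCurve IsLocalRing IntermediateField
  Fermat.Agent.G Fermat.Agent.S18 Fermat.Agent.SS

local notation "Qb" => AlgebraicClosure ℚ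

variable (M : ℕ) [NeZero M] {p : ℕ} [Fact p.Prime] [NeZero p]
variable (A : ValuationSubring Qb)

/-- `V₁` : the Gauss ring of `F_ℚ̄(M p)` as a valuation subring -/
def ttrV1 (hpM : ¬ p ∣ M) (hA : A.LiesOverPrime p) :
    ValuationSubring (modularFunctionFieldBar (M * p)) :=
  { grdO (M * p) A with mem_or_inv_mem' := ttr_mem_or_inv_mem M A hpM hA }

theorem mem_ttrV1 (hpM : ¬ p ∣ M) (hA : A.LiesOverPrime p) (x : modularFunctionFieldBar (M * p)) :
    x ∈ ttrV1 M A hpM hA ↔ x ∈ grdO (M * p) A := Iff.rfl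

/-- `F_k(M p) ≤ F_k(M)` -/
theorem ttr_fullC_le (hA : A.LiesOverPrime p) :
    modularFunctionFieldFullC (ResidueField A) (M * p) ≤
      modularFunctionFieldFullC (ResidueField A) M := by
  haveI := ttr_charP A hA
  exact le_of_eq (ttr_fullC_mul_eq (ResidueField A) M p)

/-- `F_k(M p) → F_k(M)` (the identity on series) -/
def ttrResEq (hA : A.LiesOverPrime p) :
    ↥(modularFunctionFieldFullC (ResidueField A) (M * p)) →+*
      ↥(modularFunctionFieldFullC (ResidueField A) M) where
  toFun x := ⟨(x : LaurentSeries (ResidueField A)), ttr_fullC_le M A hA x.2⟩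
  map_one' := rfl
  map_mul' _ _ := rfl
  map_zero' := rfl
  map_add' _ _ := rfl

theorem ttrResEq_mk (hA : A.LiesOverPrime p) (s : LaurentSeries (ResidueField A))
    (hs : s ∈ modularFunctionFieldFullC (ResidueField A) (M * p)) :
    ((ttrResEq M A hA ⟨s, hs⟩ : ↥(modularFunctionFieldFullC (ResidueField A) M)) :
      LaurentSeries (ResidueField A)) = s := rfl

theorem ttrResEq_coe (hA : A.LiesOverPrime p)
    (x : ↥(modularFunctionFieldFullC (ResidueField A) (M * p))) :
    ((ttrResEq M A hA x : ↥(modularFunctionFieldFullC (ResidueField A) M)) :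
      LaurentSeries (ResidueField A)) = x := by
  obtain ⟨s, hs⟩ := x
  exact ttrResEq_mk M A hA s hs

/-- `red₁ : V₁ → F_k(M)` -/
def ttrRed1 (hA : A.LiesOverPrime p) :
    ↥(grdO (M * p) A) →+* ↥(modularFunctionFieldFullC (ResidueField A) M) :=
  (ttrResEq M A hA).comp (grdRed (M * p) A)

theorem ttrRed1_coe (hA : A.LiesOverPrime p) (x : ↥(grdO (M * p) A)) :
    ((ttrRed1 M A hA x : ↥(modularFunctionFieldFullC (ResidueField A) M)) :
      LaurentSeries (ResidueField A)) =
      ((grdRed (M * p) A x : ↥(modularFunctionFieldFullC (ResidueField A) (M * p))) :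
        LaurentSeries (ResidueField A)) := by
  unfold ttrRed1
  rw [RingHom.comp_apply, ttrResEq_coe]

theorem ttrRed1_eq (hA : A.LiesOverPrime p) (x : ↥(grdO (M * p) A)) (a b : LaurentSeries A)
    (hb0 : coeffMap (residue A) b ≠ 0)
    (hx : ((x : modularFunctionFieldBar (M * p)) : LaurentSeries Qb) *
      coeffMap A.subtype b = coeffMap A.subtype a) :
    ((ttrRed1 M A hA x : ↥(modularFunctionFieldFullC (ResidueField A) M)) :
      LaurentSeries (ResidueField A)) = coeffMap (residue A) a / coeffMap (residue A) b := by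
  rw [ttrRed1_coe]
  exact grdRed_eq (M * p) A x a b hb0 hx

theorem ttrRed1_eq_zero_iff' (hA : A.LiesOverPrime p) (x : ↥(grdO (M * p) A)) :
    ttrRed1 M A hA x = 0 ↔ grdRed (M * p) A x = 0 := by
  constructor
  · intro h
    apply Subtype.ext
    have := congrArg Subtype.val h
    rw [ttrRed1_coe, ZeroMemClass.coe_zero] at this
    rw [this, ZeroMemClass.coe_zero]
  · intro h
    apply Subtype.ext
    rw [ttrRed1_coe, h, ZeroMemClass.coe_zero, ZeroMemClass.coe_zero]

/-- the kernel of `red₁` is `𝔪_𝔸 V₁` -/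
theorem ttrRed1_eq_zero_iff (hpM : ¬ p ∣ M) (hA : A.LiesOverPrime p) (x : ↥(grdO (M * p) A)) :
    ttrRed1 M A hA x = 0 ↔ ∃ (π : A) (x' : ↥(grdO (M * p) A)), π ∈ maximalIdeal A ∧
      (x : modularFunctionFieldBar (M * p)) =
        algebraMap Qb (modularFunctionFieldBar (M * p)) (π : Qb) *
          (x' : modularFunctionFieldBar (M * p)) := by
  rw [ttrRed1_eq_zero_iff']
  exact ttr_red_eq_zero_iff M A hpM hA x

/-- `Φ : F_k(M) → F_k(M)`, `f ↦ f(q^p)` -/
def ttrPhi (hA : A.LiesOverPrime p) :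
    ↥(modularFunctionFieldFullC (ResidueField A) M) →+*
      ↥(modularFunctionFieldFullC (ResidueField A) M) :=
  (ttrResEq M A hA).comp (ssvmfPhi (ResidueField A) M p)

theorem ttrPhi_coe (hA : A.LiesOverPrime p)
    (x : ↥(modularFunctionFieldFullC (ResidueField A) M)) :
    ((ttrPhi M A hA x : ↥(modularFunctionFieldFullC (ResidueField A) M)) :
      LaurentSeries (ResidueField A)) = qExpand (ResidueField A) p (x : LaurentSeries _) := by
  unfold ttrPhi
  rw [RingHom.comp_apply, ttrResEq_coe, ssvmfPhi_coe]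

/-! ### The degeneracy maps -/

/-- a good series of level `M` is good of level `M p` -/
theorem ttr_good_alpha {a : LaurentSeries A} (ha : S18Good M A a) : S18Good (M * p) A a :=
  ⟨(heckeAlphaBar Qb M p ⟨_, ha.1⟩).2, full_degeneracyC_le _ (dvd_mul_right M p) ha.2⟩

/-- `a(q^p)` is good of level `M p` for a good series `a` of level `M` -/
theorem ttr_good_beta {a : LaurentSeries A} (ha : S18Good M A a) :
    S18Good (M * p) A (qExpand A p a) := by
  refine ⟨?_, ?_⟩
  · rw [coeffMap_qExpand]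
    exact (heckeBetaBar Qb M p ⟨_, ha.1⟩).2
  · rw [coeffMap_qExpand]
    exact full_degeneracyC_map_le (ResidueField A) M p ⟨_, ha.2, rfl⟩

/-- `α f ∈ V₁` -/
theorem ttr_alpha_mem {f : modularFunctionFieldBar M} (hf : f ∈ grdO M A) :
    heckeAlphaBar Qb M p f ∈ grdO (M * p) A := by
  obtain ⟨a, b, ha, hb, hb0, hx⟩ := hf
  exact ⟨a, b, ttr_good_alpha M A ha, ttr_good_alpha M A hb, hb0, by
    rw [coe_heckeAlphaBar]; exact hx⟩

/-- `red₁ (α f) = f̄` -/
theorem ttrRed1_alpha (hA : A.LiesOverPrime p) (f : ↥(grdO M A)) :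
    ttrRed1 M A hA ⟨heckeAlphaBar Qb M p (f : modularFunctionFieldBar M),
      ttr_alpha_mem M A f.2⟩ = grdRed M A f := by
  obtain ⟨a, b, ha, hb, hb0, hx⟩ := f.2
  apply Subtype.ext
  rw [ttrRed1_eq M A hA _ a b hb0 (by rw [coe_heckeAlphaBar]; exact hx),
    grdRed_eq M A f a b hb0 hx]

/-- `β f ∈ V₁` -/
theorem ttr_beta_mem {f : modularFunctionFieldBar M} (hf : f ∈ grdO M A) :
    heckeBetaBar Qb M p f ∈ grdO (M * p) A := by
  obtain ⟨a, b, ha, hb, hb0, hx⟩ := hf
  refine ⟨qExpand A p a, qExpand A p b, ttr_good_beta M A ha, ttr_good_beta M A hb, ?_, ?_⟩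
  · rw [coeffMap_qExpand]
    intro h
    apply hb0
    apply qExpand_injective (N := p)
    rw [h, map_zero]
  · rw [coe_heckeBetaBar, coeffMap_qExpand, coeffMap_qExpand, ← map_mul, hx]

/-- `red₁ (β f) = Φ f̄` -/
theorem ttrRed1_beta (hA : A.LiesOverPrime p) (f : ↥(grdO M A)) :
    ttrRed1 M A hA ⟨heckeBetaBar Qb M p (f : modularFunctionFieldBar M),
      ttr_beta_mem M A f.2⟩ = ttrPhi M A hA (grdRed M A f) := by
  obtain ⟨a, b, ha, hb, hb0, hx⟩ := f.2
  have hb0' : coeffMap (residue A) (qExpand A p b) ≠ 0 := by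
    rw [coeffMap_qExpand]
    intro h
    apply hb0
    apply qExpand_injective (N := p)
    rw [h, map_zero]
  apply Subtype.ext
  rw [ttrRed1_eq M A hA _ (qExpand A p a) (qExpand A p b) hb0' (by
      rw [coe_heckeBetaBar, coeffMap_qExpand, coeffMap_qExpand, ← map_mul, hx]),
    ttrPhi_coe, grdRed_eq M A f a b hb0 hx, coeffMap_qExpand, coeffMap_qExpand, map_div₀]

end Fermat.Agent.TT
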