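import Mathlib
import Fermat.Agent.TT.Red2.AL
import Fermat.Agent.TT.Red2.V1
import Fermat.Agent.TT.Red2.GalAbs
import Fermat.Agent.G.Red.Inst
import Fermat.Agent.G.Red.Lift

/-!
# Program TT (S33), package G/Red₂ (helper12, prefix `ttr`) : THE CONCRETE TWO-VALUATION CHART of
`X₀(M p)` at `p`

`p ∤ M`, `𝔸` over `p`, `k = 𝔸/𝔪`, `F = modularFunctionFieldBar (M * p)`, `F_k = F_k(M)`,
`w = ttrW M hpM` the Atkin–Lehner involution, `V₁ = grdO (M * p) 𝔸`, `red₁ = ttrRed1 M 𝔸 hA`.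
On top of helper27's abstract definitions (`TT/Red2/GalAbs.lean`) :

* `ttrV2 = ttrhV2 V₁ w`, `ttrRed2 = ttrhRed2 V₁ w red₁`, `ttrO2 = ttrhO2 V₁ w`,
  `ttrRed = ttrhRed V₁ w red₁ : O₂ →+* F_k × F_k`;
* the twins `red₂ (β f) = f̄`, `red₂ (α f) = Φ f̄`; `α f, β f ∈ O₂`;
* `J = α j`, `Y = β j`, `u₁ = Y - J^p`, `u₂ = Y^p - J`, `h = j̄^(p²) - j̄` :
  `w u₁ = -u₂`, `w u₂ = -u₁`, `red₁ u₁ = 0`, `red₁ u₂ = h ≠ 0`, `red₂ u₂ = 0`, `red₂ u₁ = -h`;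
* `red₁` is onto.
-/

set_option autoImplicit false
set_option linter.unusedSectionVars false
set_option linter.unusedVariables false
set_option linter.style.haveILetI false
set_option synthInstance.maxHeartbeats 400000

noncomputable section

namespace Fermat.Agent.TT

open Polynomial ModularCurve AlgebraicCurve IsLocalRing IntermediateField
  Fermat.Agent.G Fermat.Agent.S18 Fermat.Agent.SS

local notation "Qb" => AlgebraicClosure ℚ

variable (M : ℕ) [NeZero M] {p : ℕ} [Fact p.Prime] [NeZero p]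
variable (A : ValuationSubring Qb)

/-- `V₂ = w⁻¹ V₁` -/
abbrev ttrV2 (hpM : ¬ p ∣ M) : Subring (modularFunctionFieldBar (M * p)) :=
  ttrhV2 (grdO (M * p) A) (ttrW M hpM)

/-- `red₂ = red₁ ∘ w` -/
abbrev ttrRed2 (hpM : ¬ p ∣ M) (hA : A.LiesOverPrime p) :
    ↥(ttrV2 M A hpM) →+* ↥(modularFunctionFieldFullC (ResidueField A) M) :=
  ttrhRed2 (grdO (M * p) A) (ttrW M hpM) (ttrRed1 M A hA)

/-- `O₂ = V₁ ⊓ V₂` -/
abbrev ttrO2 (hpM : ¬ p ∣ M) : Subring (modularFunctionFieldBar (M * p)) :=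
  ttrhO2 (grdO (M * p) A) (ttrW M hpM)

/-- `red = (red₁, red₂) : O₂ → F_k × F_k` -/
abbrev ttrRed (hpM : ¬ p ∣ M) (hA : A.LiesOverPrime p) :
    ↥(ttrO2 M A hpM) →+* ↥(modularFunctionFieldFullC (ResidueField A) M) ×
      ↥(modularFunctionFieldFullC (ResidueField A) M) :=
  ttrhRed (grdO (M * p) A) (ttrW M hpM) (ttrRed1 M A hA)

/-! ### The twins -/

/-- `β f ∈ V₂` -/
theorem ttr_beta_mem₂ (hpM : ¬ p ∣ M) {f : modularFunctionFieldBar M} (hf : f ∈ grdO M A) :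
    heckeBetaBar Qb M p f ∈ ttrV2 M A hpM := by
  rw [ttrh_mem_V2, ttrW_beta]
  exact ttr_alpha_mem M A hf

/-- `red₂ (β f) = f̄` -/
theorem ttrRed2_beta (hpM : ¬ p ∣ M) (hA : A.LiesOverPrime p) (f : ↥(grdO M A)) :
    ttrRed2 M A hpM hA ⟨heckeBetaBar Qb M p (f : modularFunctionFieldBar M),
      ttr_beta_mem₂ M A hpM f.2⟩ = grdRed M A f := by
  rw [ttrhRed2_apply, ← ttrRed1_alpha M A hA f]
  congr 1
  exact Subtype.ext (ttrW_beta M hpM _)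

/-- `α f ∈ V₂` -/
theorem ttr_alpha_mem₂ (hpM : ¬ p ∣ M) {f : modularFunctionFieldBar M} (hf : f ∈ grdO M A) :
    heckeAlphaBar Qb M p f ∈ ttrV2 M A hpM := by
  rw [ttrh_mem_V2, ttrW_alpha]
  exact ttr_beta_mem M A hf

/-- `red₂ (α f) = Φ f̄` -/
theorem ttrRed2_alpha (hpM : ¬ p ∣ M) (hA : A.LiesOverPrime p) (f : ↥(grdO M A)) :
    ttrRed2 M A hpM hA ⟨heckeAlphaBar Qb M p (f : modularFunctionFieldBar M),
      ttr_alpha_mem₂ M A hpM f.2⟩ = ttrPhi M A hA (grdRed M A f) := by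
  rw [ttrhRed2_apply, ← ttrRed1_beta M A hA f]
  congr 1
  exact Subtype.ext (ttrW_alpha M hpM _)

/-- `α f ∈ O₂` -/
theorem ttr_alpha_mem_O2 (hpM : ¬ p ∣ M) {f : modularFunctionFieldBar M} (hf : f ∈ grdO M A) :
    heckeAlphaBar Qb M p f ∈ ttrO2 M A hpM :=
  ⟨ttr_alpha_mem M A hf, ttr_alpha_mem₂ M A hpM hf⟩

/-- `β f ∈ O₂` -/
theorem ttr_beta_mem_O2 (hpM : ¬ p ∣ M) {f : modularFunctionFieldBar M} (hf : f ∈ grdO M A) :
    heckeBetaBar Qb M p f ∈ ttrO2 M A hpM :=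
  ⟨ttr_beta_mem M A hf, ttr_beta_mem₂ M A hpM hf⟩

/-- `red (α f) = (f̄, Φ f̄)` -/
theorem ttrRed_alpha (hpM : ¬ p ∣ M) (hA : A.LiesOverPrime p) (f : ↥(grdO M A)) :
    ttrRed M A hpM hA ⟨heckeAlphaBar Qb M p (f : modularFunctionFieldBar M),
      ttr_alpha_mem_O2 M A hpM f.2⟩ = (grdRed M A f, ttrPhi M A hA (grdRed M A f)) := by
  rw [ttrhRed_apply]
  refine Prod.ext (ttrRed1_alpha M A hA f) ?_
  have := ttrRed2_alpha M A hpM hA f
  rw [ttrhRed2_apply] at this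
  exact this

/-- `red (β f) = (Φ f̄, f̄)` -/
theorem ttrRed_beta (hpM : ¬ p ∣ M) (hA : A.LiesOverPrime p) (f : ↥(grdO M A)) :
    ttrRed M A hpM hA ⟨heckeBetaBar Qb M p (f : modularFunctionFieldBar M),
      ttr_beta_mem_O2 M A hpM f.2⟩ = (ttrPhi M A hA (grdRed M A f), grdRed M A f) := by
  rw [ttrhRed_apply]
  refine Prod.ext (ttrRed1_beta M A hA f) ?_
  have := ttrRed2_beta M A hpM hA f
  rw [ttrhRed2_apply] at this
  exact this

/-- `red₁` is onto -/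
theorem ttrRed1_surjective (hA : A.LiesOverPrime p) : Function.Surjective (ttrRed1 M A hA) := by
  intro c
  obtain ⟨f, hf⟩ := grdl_red_surjective M A c
  exact ⟨⟨heckeAlphaBar Qb M p (f : modularFunctionFieldBar M), ttr_alpha_mem M A f.2⟩, by
    rw [ttrRed1_alpha, hf]⟩

/-! ### `J`, `Y`, `u₁`, `u₂`, `h` -/

/-- `j` as an element of the Gauss ring of level `M` -/
def ttrJ0 : ↥(grdO M A) := ⟨grdQ M (grdi_mem_j M), grdQ_mem_grdO M A (grdi_mem_j M)⟩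

/-- `j̄ ∈ F_k(M)` -/
def ttrJk : ↥(modularFunctionFieldFullC (ResidueField A) M) :=
  ⟨jqModC (ResidueField A), jqModC_mem_full (ResidueField A) M⟩

theorem ttr_red_J0 : grdRed M A (ttrJ0 M A) = ttrJk M A := by
  unfold ttrJ0
  rw [grdRed_grdQ, grdi_grdK_j]
  rfl

/-- `J = α j` -/
def ttrJ : modularFunctionFieldBar (M * p) :=
  heckeAlphaBar Qb M p (ttrJ0 M A : modularFunctionFieldBar M)

/-- `Y = β j` -/
def ttrY : modularFunctionFieldBar (M * p) :=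
  heckeBetaBar Qb M p (ttrJ0 M A : modularFunctionFieldBar M)

/-- `u₁ = Y - J^p` -/
def ttrU1 : modularFunctionFieldBar (M * p) := ttrY M A (p := p) - ttrJ M A (p := p) ^ p

/-- `u₂ = Y^p - J` -/
def ttrU2 : modularFunctionFieldBar (M * p) := ttrY M A (p := p) ^ p - ttrJ M A (p := p)

/-- `h = j̄^(p²) - j̄` -/
def ttrH (p : ℕ) : ↥(modularFunctionFieldFullC (ResidueField A) M) :=
  ttrJk M A ^ (p ^ 2) - ttrJk M A

theorem ttrW_J (hpM : ¬ p ∣ M) : ttrW M hpM (ttrJ M A) = ttrY M A := ttrW_alpha M hpM _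

theorem ttrW_Y (hpM : ¬ p ∣ M) : ttrW M hpM (ttrY M A) = ttrJ M A := ttrW_beta M hpM _

theorem ttrW_U1 (hpM : ¬ p ∣ M) : ttrW M hpM (ttrU1 M A) = -ttrU2 M A := by
  unfold ttrU1 ttrU2
  rw [map_sub, map_pow, ttrW_J, ttrW_Y, neg_sub]

theorem ttrW_U2 (hpM : ¬ p ∣ M) : ttrW M hpM (ttrU2 M A) = -ttrU1 M A := by
  unfold ttrU1 ttrU2
  rw [map_sub, map_pow, ttrW_J, ttrW_Y, neg_sub]

theorem ttrJ_mem : ttrJ M A (p := p) ∈ grdO (M * p) A := ttr_alpha_mem M A (ttrJ0 M A).2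

theorem ttrY_mem : ttrY M A (p := p) ∈ grdO (M * p) A := ttr_beta_mem M A (ttrJ0 M A).2

theorem ttrU1_mem : ttrU1 M A (p := p) ∈ grdO (M * p) A :=
  Subring.sub_mem _ (ttrY_mem M A) (Subring.pow_mem _ (ttrJ_mem M A) p)

theorem ttrU2_mem : ttrU2 M A (p := p) ∈ grdO (M * p) A :=
  Subring.sub_mem _ (Subring.pow_mem _ (ttrY_mem M A) p) (ttrJ_mem M A)

theorem ttrRed1_J (hA : A.LiesOverPrime p) :
    ttrRed1 M A hA ⟨ttrJ M A, ttrJ_mem M A⟩ = ttrJk M A := by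
  unfold ttrJ
  rw [ttrRed1_alpha, ttr_red_J0]

/-- `Φ j̄ = j̄^p` -/
theorem ttrPhi_Jk (hA : A.LiesOverPrime p) : ttrPhi M A hA (ttrJk M A) = ttrJk M A ^ p := by
  haveI := ttr_charP A hA
  apply Subtype.ext
  rw [ttrPhi_coe]
  show qExpand (ResidueField A) p (jqModC (ResidueField A)) = jqModC (ResidueField A) ^ p
  rw [gcjf_pow_char (ResidueField A) p, coeffMap_jqModC]

theorem ttrRed1_Y (hA : A.LiesOverPrime p) :
    ttrRed1 M A hA ⟨ttrY M A, ttrY_mem M A⟩ = ttrJk M A ^ p := by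
  unfold ttrY
  rw [ttrRed1_beta, ttr_red_J0, ttrPhi_Jk]

/-- `red₁ u₁ = 0` -/
theorem ttrRed1_U1 (hA : A.LiesOverPrime p) :
    ttrRed1 M A hA ⟨ttrU1 M A, ttrU1_mem M A⟩ = 0 := by
  have e : (⟨ttrU1 M A, ttrU1_mem M A⟩ : ↥(grdO (M * p) A)) =
      ⟨ttrY M A, ttrY_mem M A⟩ - ⟨ttrJ M A, ttrJ_mem M A⟩ ^ p := rfl
  rw [e, map_sub, map_pow, ttrRed1_J, ttrRed1_Y, sub_self]

/-- `red₁ u₂ = h` -/
theorem ttrRed1_U2 (hA : A.LiesOverPrime p) :
    ttrRed1 M A hA ⟨ttrU2 M A, ttrU2_mem M A⟩ = ttrH M A p := by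
  have e : (⟨ttrU2 M A, ttrU2_mem M A⟩ : ↥(grdO (M * p) A)) =
      ⟨ttrY M A, ttrY_mem M A⟩ ^ p - ⟨ttrJ M A, ttrJ_mem M A⟩ := rfl
  rw [e, map_sub, map_pow, ttrRed1_J, ttrRed1_Y, ← pow_mul, ← sq]
  rfl

/-- `h ≠ 0` -/
theorem ttrH_ne_zero (hp1 : 1 < p) : ttrH M A p ≠ 0 := by
  intro h0
  have h1 : jqModC (ResidueField A) ^ (p ^ 2) = jqModC (ResidueField A) := by
    have := congrArg Subtype.val h0
    unfold ttrH ttrJk at this
    simp only [AddSubgroupClass.coe_sub, SubmonoidClass.coe_pow, ZeroMemClass.coe_zero] at this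
    exact sub_eq_zero.mp this
  have h2 := congrArg HahnSeries.order h1
  rw [HahnSeries.order_pow, s18db_order_jqModC] at h2
  have h3 : (p ^ 2 : ℤ) = 1 := by
    simp only [nsmul_eq_mul, mul_neg, mul_one, neg_inj] at h2
    exact_mod_cast h2
  have h4 : p ^ 2 = 1 := by exact_mod_cast h3
  have h5 : p = 1 := by
    rcases Nat.pow_eq_one.mp h4 with h | h
    · exact h
    · omega
  omega

end Fermat.Agent.TT
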