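import Mathlib
import Fermat.Agent.TT.Red2.Inst
import Fermat.Agent.SS.Val.ModMain
import Fermat.Agent.SS.Val.ModAL
import Fermat.Agent.G.Conj.Deg
import Fermat.Agent.G.Red.Sat

/-!
# Program TT (S33), package G/Red₂ (helper12, prefix `ttr`) : THE CHART RINGS of `X₀(M p)` at `p`,
membership `(A8a)` and SATURATION `(A8b)`

`p ∤ M`, `𝔸` over `p`, `F = modularFunctionFieldBar (M * p)`, `w = ttrW M hpM`,
`V₁ = grdO (M * p) 𝔸`, `V₂ = w⁻¹ V₁`, `O₂ = V₁ ⊓ V₂`.  For a chart coordinate `υ` of level `M`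
(`hc : GrdChart M 𝔸 υ` : `j`, `1/j`, `h_a`, `1/h_a`), `u = α υ_ℚ̄` resp. `u = β υ_ℚ̄` and
`B = grdB (M * p) 𝔸 u` (the elements of `F` integral over `𝔸[u]`) :

* `ttr_sat_le_V1`, `ttr_sat_le_V2`, `ttr_sat_le_O2` : `B ≤ V₁`, `B ≤ V₂`, `B ≤ O₂` as soon as
  `u ∈ V₁`, `w u ∈ V₁`;  `ttr_sat_alpha_le`, `ttr_sat_beta_le` : the instances `u = α f`, `u = β f`;
* `ttr_sat_alpha` : **SATURATION** : `x ∈ O₂`, `π ≠ 0` in `𝔸`, `π x ∈ B(α υ)` ⟹ `x ∈ B(α υ)`;
* `ttr_sat_beta`  : the same for `B(β υ)`  (transport by `w`);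
* `ttr_isInt_w`   : `w B(u) = B(w u)`.
-/

set_option autoImplicit false
set_option linter.unusedSectionVars false
set_option linter.unusedVariables false
set_option linter.style.haveILetI false
set_option synthInstance.maxHeartbeats 400000

noncomputable section

namespace Fermat.Agent.TT

open Polynomial ModularCurve AlgebraicCurve IsLocalRing IntermediateField
  Fermat.Agent.G Fermat.Agent.S18 Fermat.Agent.SS

local notation "Qb" => AlgebraicClosure ℚ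

/-! ### `(A8a)` : the chart ring lies in every valuation ring containing `𝔸` and `u` -/

section Le

variable (N : ℕ) [NeZero N] (A : ValuationSubring Qb)

/-- the chart ring `grdB N 𝔸 u` lies in every valuation subring of `F_ℚ̄(N)` containing the
constants of `𝔸` and `u` (a valuation ring is integrally closed) -/
theorem ttr_sat_le_of_val (V : ValuationSubring (modularFunctionFieldBar N))
    (hconst : ∀ a : A, algebraMap Qb (modularFunctionFieldBar N) (a : Qb) ∈ V)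
    {u : modularFunctionFieldBar N} (hu : u ∈ V) {x : modularFunctionFieldBar N}
    (hx : x ∈ grdB N A u) : x ∈ V := by
  obtain ⟨P, hP, hPx⟩ := hx
  have hrange : ∀ a : A[X], Polynomial.eval₂RingHom (grdInclA N A) u a ∈ V := by
    intro a
    rw [Polynomial.coe_eval₂RingHom, Polynomial.eval₂_eq_sum_range]
    refine Subring.sum_mem V.toSubring fun i _ => ?_
    exact Subring.mul_mem V.toSubring (hconst (a.coeff i)) (Subring.pow_mem V.toSubring hu i)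
  let φ' : A[X] →+* V := (Polynomial.eval₂RingHom (grdInclA N A) u).codRestrict V.toSubring hrange
  have h1 : IsIntegral V x := by
    refine ⟨P.map φ', hP.map _, ?_⟩
    rw [Polynomial.eval₂_map]
    have : (algebraMap V (modularFunctionFieldBar N)).comp φ' =
        Polynomial.eval₂RingHom (grdInclA N A) u := by
      ext <;> rfl
    rw [this]
    exact hPx
  obtain ⟨y, hy⟩ := IsIntegrallyClosed.isIntegral_iff.mp h1
  rw [← hy]
  exact y.2

end Le

variable (M : ℕ) [NeZero M] {p : ℕ} [Fact p.Prime] [NeZero p]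
variable (A : ValuationSubring Qb)

section LeInst

/-- `B(u) ≤ V₁` for `u ∈ V₁` -/
theorem ttr_sat_le_V1 (hpM : ¬ p ∣ M) (hA : A.LiesOverPrime p)
    {u : modularFunctionFieldBar (M * p)} (hu : u ∈ grdO (M * p) A) :
    grdB (M * p) A u ≤ grdO (M * p) A := fun x hx =>
  ttr_sat_le_of_val (M * p) A (ttrV1 M A hpM hA) (fun a => grdO_algebraMap_mem (M * p) A a) hu hx

/-- `B(u) ≤ V₂` for `w u ∈ V₁` -/
theorem ttr_sat_le_V2 (hpM : ¬ p ∣ M) (hA : A.LiesOverPrime p)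
    {u : modularFunctionFieldBar (M * p)} (hu : ttrW M hpM u ∈ grdO (M * p) A) :
    grdB (M * p) A u ≤ ttrV2 M A hpM := by
  intro x hx
  have hconst : ∀ a : A, algebraMap Qb (modularFunctionFieldBar (M * p)) (a : Qb) ∈
      (ttrV1 M A hpM hA).comap (ttrW M hpM : _ →+* _) := by
    intro a
    rw [ValuationSubring.mem_comap, RingHom.coe_coe, ttrW_const]
    exact grdO_algebraMap_mem (M * p) A a
  have hu' : u ∈ (ttrV1 M A hpM hA).comap (ttrW M hpM : _ →+* _) := by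
    rw [ValuationSubring.mem_comap, RingHom.coe_coe]
    exact hu
  have h1 := ttr_sat_le_of_val (M * p) A _ hconst hu' hx
  rw [ValuationSubring.mem_comap, RingHom.coe_coe] at h1
  exact h1

/-- `B(u) ≤ O₂` for `u ∈ O₂` -/
theorem ttr_sat_le_O2 (hpM : ¬ p ∣ M) (hA : A.LiesOverPrime p)
    {u : modularFunctionFieldBar (M * p)} (hu : u ∈ ttrO2 M A hpM) :
    grdB (M * p) A u ≤ ttrO2 M A hpM := fun x hx =>
  ⟨ttr_sat_le_V1 M A hpM hA hu.1 hx, ttr_sat_le_V2 M A hpM hA hu.2 hx⟩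

/-- `B(α f) ≤ O₂` for `f` in the Gauss ring of level `M` -/
theorem ttr_sat_alpha_le (hpM : ¬ p ∣ M) (hA : A.LiesOverPrime p)
    {f : modularFunctionFieldBar M} (hf : f ∈ grdO M A) :
    grdB (M * p) A (heckeAlphaBar Qb M p f) ≤ ttrO2 M A hpM :=
  ttr_sat_le_O2 M A hpM hA (ttr_alpha_mem_O2 M A hpM hf)

/-- `B(β f) ≤ O₂` for `f` in the Gauss ring of level `M` -/
theorem ttr_sat_beta_le (hpM : ¬ p ∣ M) (hA : A.LiesOverPrime p)
    {f : modularFunctionFieldBar M} (hf : f ∈ grdO M A) :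
    grdB (M * p) A (heckeBetaBar Qb M p f) ≤ ttrO2 M A hpM :=
  ttr_sat_le_O2 M A hpM hA (ttr_beta_mem_O2 M A hpM hf)

end LeInst

/-! ### the chart coordinate at the level `M p` -/

section Coord

/-- a chart coordinate of level `M` is one of level `M p` -/
theorem ttr_sat_serMem {υ : LaurentSeries ℤ} (hυ : GrdSerMem M υ) : GrdSerMem (M * p) υ :=
  fun K _ => full_degeneracyC_le K (dvd_mul_right M p) (hυ K)

/-- `α υ_ℚ̄` is `υ_ℚ̄` at the level `M p` -/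
theorem ttr_sat_alpha_grdQ {υ : LaurentSeries ℤ} (hυ : GrdSerMem M υ) :
    heckeAlphaBar Qb M p (grdQ M hυ) = grdQ (M * p) (ttr_sat_serMem M hυ) := by
  apply Subtype.ext
  rw [coe_heckeAlphaBar]
  unfold grdQ
  exact (Subtype.coe_mk _ _).trans (Subtype.coe_mk _ _).symm

/-- `w` commutes with the push-up from a number field `E` -/
theorem ttr_sat_up_w (hpM : ¬ p ∣ M) (E : IntermediateField ℚ Qb)
    (w₀ : modularFunctionFieldFullC E (M * p) ≃+* modularFunctionFieldFullC E (M * p))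
    (h1 : ∀ x : modularFunctionFieldFullC E M, w₀ (ssvmdIncl E M p x) = ssvmfPhi E M p x)
    (h2 : ∀ x : modularFunctionFieldFullC E M, w₀ (ssvmfPhi E M p x) = ssvmdIncl E M p x)
    (z : modularFunctionFieldFullC E (M * p)) :
    ttrW M hpM (ssvmmUp E (M * p) z) = ssvmmUp E (M * p) (w₀ z) := by
  have key : ((ttrW M hpM : modularFunctionFieldBar (M * p) →+* modularFunctionFieldBar (M * p)).comp
      (ssvmmUp E (M * p))) = (ssvmmUp E (M * p)).comp
        (w₀ : modularFunctionFieldFullC E (M * p) →+* modularFunctionFieldFullC E (M * p)) := by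
    apply ssvma_hom_ext (↥E) M
    · intro x
      simp only [RingHom.comp_apply, RingHom.coe_coe]
      rw [ssvmf_up_incl, ttrW_alpha, h1, ssvmf_up_phi]
    · intro x
      simp only [RingHom.comp_apply, RingHom.coe_coe]
      rw [ssvmf_up_phi, ttrW_beta, h2, ssvmf_up_incl]
  exact RingHom.congr_fun key z

end Coord

/-! ### the number-field level : `P_(ϖ) = V₁ ∩ V₂` for every good coordinate of level `M` -/

section NF

variable {A₀ : Type*} [CommRing A₀] [IsDomain A₀] [IsDiscreteValuationRing A₀] [CharZero A₀]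
variable {L₀ : Type*} [Field L₀] [Algebra A₀ L₀] [IsFractionRing A₀ L₀]
variable {ϖ : A₀}
variable {F₀ F : IntermediateField L₀ (LaurentSeries L₀)} (h : F₀ ≤ F)

/-- `A₀[t]_(ϖ) ⊆ ssvmgR` for a good coordinate `t ∈ F₀` (no pole needed) -/
theorem ttr_sat_loc_le (hϖ : Irreducible ϖ) (t₀ : ↥F₀) (hc : S18Coord hϖ F₀ t₀) :
    s18tLoc A₀ (IntermediateField.inclusion h t₀) (C ϖ) (s18t_prime_C hϖ) ≤ ssvmgR A₀ h := by
  intro x hx
  obtain ⟨a, b, hb, hxab⟩ := hx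
  have hb00 : b ≠ 0 := fun h0 => hb (h0 ▸ dvd_zero _)
  have hb0 : aeval t₀ b ≠ 0 := by
    intro h0
    have hA : Function.Injective (algebraMap A₀ L₀) := IsFractionRing.injective A₀ L₀
    apply hc.transc
    refine ⟨b.map (algebraMap A₀ L₀), (Polynomial.map_ne_zero_iff hA).mpr hb00, ?_⟩
    rw [aeval_map_algebraMap]
    exact h0
  rw [mem_ssvmgR]
  have hmem : aeval t₀ a / aeval t₀ b ∈ s18tLoc A₀ t₀ (C ϖ) (s18t_prime_C hϖ) :=
    ⟨a, b, hb, div_mul_cancel₀ _ hb0⟩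
  have hmem' : aeval t₀ a / aeval t₀ b ∈ s18tIntLoc A₀ t₀ (C ϖ) (s18t_prime_C hϖ) := by
    rw [mem_s18tIntLoc]
    exact isIntegral_algebraMap (R := ↥(s18tLoc A₀ t₀ (C ϖ) (s18t_prime_C hϖ))) (x := ⟨_, hmem⟩)
  refine ⟨aeval t₀ a / aeval t₀ b, by rw [← hc.intLoc_eq]; exact hmem', ?_⟩
  have hb0' : IntermediateField.inclusion h (aeval t₀ b) ≠ 0 := by
    rwa [Ne, map_eq_zero_iff _ (IntermediateField.inclusion_injective h)]
  rw [map_div₀, div_eq_iff hb0', ssvmg_incl_aeval, ssvmg_incl_aeval, hxab]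

end NF

section NFMod

variable (𝔸 : ValuationSubring Qb) (E : IntermediateField ℚ Qb)
  [IsDiscreteValuationRing ↥(s18dVal 𝔸 E)] [CharZero ↥(s18dVal 𝔸 E)]
variable (M : ℕ) [NeZero M] {p : ℕ} [Fact p.Prime] [NeZero p]

/-- **`P_(ϖ) = V₁ ∩ V₂`** for every good coordinate `t₀` of `F_E(M)` (`S18Coord` only : also `1/j`,
`1/h_a`) and every witness of `ssvmm_amb`. -/
theorem ttr_sat_mem_iff (hA : 𝔸.LiesOverPrime p) (hpM : ¬ p ∣ M) {ϖ : ↥(s18dVal 𝔸 E)}
    (hϖ : Irreducible ϖ) (t₀ : ↥(modularFunctionFieldFullC E M))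
    (hc : S18Coord hϖ (modularFunctionFieldFullC E M) t₀)
    (Ξ G : (↥(ssvmmR 𝔸 E M p))[X])
    (h : SsvAmb (ssvmmR 𝔸 E M p) (ssvmgRUnif (ssvmm_le E M p) ϖ) (ssvmmY E M p) Ξ
      (X - C (ssvmmJ 𝔸 E M p ^ p)) (X ^ p - C (ssvmmJ 𝔸 E M p)) G)
    (x : ↥(modularFunctionFieldFullC E (M * p))) :
    x ∈ s18tIntLoc ↥(s18dVal 𝔸 E) (IntermediateField.inclusion (ssvmm_le E M p) t₀) (C ϖ)
      (s18t_prime_C hϖ) ↔ x ∈ h.V₁ ∧ x ∈ h.V₂ :=
  (ssv_two hϖ (IntermediateField.inclusion (ssvmm_le E M p) t₀)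
    (ttr_sat_loc_le (ssvmm_le E M p) hϖ t₀ hc)
    (ssvmgR_le_intLoc (ssvmm_le E M p) hϖ t₀ hc) h (ssvmgRUnif_coe (ssvmm_le E M p) ϖ)).mem_iff x

/-- `α t₀` is transcendental over `E` -/
theorem ttr_sat_transc (t₀ : ↥(modularFunctionFieldFullC E M)) (ht₀ : Transcendental E t₀) :
    Transcendental E (IntermediateField.inclusion (ssvmm_le E M p) t₀) := by
  intro halg
  apply ht₀
  have h1 : IsAlgebraic E ((ssvmdIncl E M p) t₀) := halg
  exact (isAlgebraic_algHom_iff (ssvmdIncl E M p) (ssvmdIncl E M p).toRingHom.injective).mp h1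

/-- `F_E(M p)` is finite over `E(α t₀)` -/
theorem ttr_sat_fin (hpM : ¬ p ∣ M) (t₀ : ↥(modularFunctionFieldFullC E M))
    [FiniteDimensional E⟮t₀⟯ (modularFunctionFieldFullC E M)] :
    FiniteDimensional E⟮IntermediateField.inclusion (ssvmm_le E M p) t₀⟯
      (modularFunctionFieldFullC E (M * p)) := by
  letI algE := algebraAlong (ssvmdIncl E M p)
  letI modE : Module (modularFunctionFieldFullC E M) (modularFunctionFieldFullC E (M * p)) :=
    algE.toModule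
  have hfr : Module.finrank (modularFunctionFieldFullC E M) (modularFunctionFieldFullC E (M * p)) =
      p + 1 := ssvmd_finrank E M hpM
  have h1 : Module.finrank E⟮t₀⟯ (modularFunctionFieldFullC E M) *
      Module.finrank (modularFunctionFieldFullC E M) (modularFunctionFieldFullC E (M * p)) =
      Module.finrank E⟮IntermediateField.inclusion (ssvmm_le E M p) t₀⟯
        (modularFunctionFieldFullC E (M * p)) :=
    gcjd_finrank_tower (ssvmdIncl E M p) t₀ (IntermediateField.inclusion (ssvmm_le E M p) t₀) rfl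
  have hpos : 0 < Module.finrank E⟮t₀⟯ (modularFunctionFieldFullC E M) := Module.finrank_pos
  apply Module.finite_of_finrank_pos
  rw [← h1, hfr]
  positivity

end NFMod

/-! ### `(A8b)` : SATURATION -/

section Sat

set_option maxHeartbeats 2000000 in
/-- **SATURATION of the chart ring `B(α υ)` in `O₂ = V₁ ∩ V₂`** : `x ∈ O₂`, `π ≠ 0`, `π x` integral
over `𝔸[α υ]` ⟹ `x` integral over `𝔸[α υ]`. -/
theorem ttr_sat_alpha (hpM : ¬ p ∣ M) (hA : A.LiesOverPrime p) {υ : LaurentSeries ℤ}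
    (hc : GrdChart M A υ) (x : modularFunctionFieldBar (M * p)) (hx : x ∈ ttrO2 M A hpM)
    (π : A) (hπ : π ≠ 0)
    (h : GrdIsInt (M * p) A (heckeAlphaBar Qb M p (grdQ M hc.mem))
      (algebraMap Qb (modularFunctionFieldBar (M * p)) (π : Qb) * x)) :
    GrdIsInt (M * p) A (heckeAlphaBar Qb M p (grdQ M hc.mem)) x := by
  have hp : p.Prime := Fact.out
  rw [ttr_sat_alpha_grdQ] at h ⊢
  have hυ' : GrdSerMem (M * p) υ := ttr_sat_serMem M hc.mem
  obtain ⟨E₀, hfd₀, hlvl⟩ := hc.lvl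
  obtain ⟨E₁, hfd₁, h₁⟩ := grdst_descend_gauss (M * p) A ⟨x, hx.1⟩
  obtain ⟨E₁', hfd₁', h₁'⟩ := grdst_descend_gauss (M * p) A ⟨ttrW M hpM x, hx.2⟩
  obtain ⟨E₂, hfd₂, h₂⟩ := grdst_descend_int (M * p) A hυ' _ h
  obtain ⟨E₃, hfd₃, h₃⟩ := grdst_exists_field {(π : Qb)}
  have hE₀ : E₀ ≤ E₀ ⊔ E₁ ⊔ E₁' ⊔ E₂ ⊔ E₃ :=
    le_trans (le_trans (le_trans le_sup_left le_sup_left) le_sup_left) le_sup_left
  have hE₁ : E₁ ≤ E₀ ⊔ E₁ ⊔ E₁' ⊔ E₂ ⊔ E₃ :=
    le_trans (le_trans (le_trans le_sup_right le_sup_left) le_sup_left) le_sup_left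
  have hE₁' : E₁' ≤ E₀ ⊔ E₁ ⊔ E₁' ⊔ E₂ ⊔ E₃ :=
    le_trans (le_trans le_sup_right le_sup_left) le_sup_left
  have hE₂ : E₂ ≤ E₀ ⊔ E₁ ⊔ E₁' ⊔ E₂ ⊔ E₃ := le_trans le_sup_right le_sup_left
  have hE₃ : E₃ ≤ E₀ ⊔ E₁ ⊔ E₁' ⊔ E₂ ⊔ E₃ := le_sup_right
  have hfd : FiniteDimensional ℚ ↥(E₀ ⊔ E₁ ⊔ E₁' ⊔ E₂ ⊔ E₃) := inferInstance
  generalize E₀ ⊔ E₁ ⊔ E₁' ⊔ E₂ ⊔ E₃ = E at hE₀ hE₁ hE₁' hE₂ hE₃ hfd
  have : IsDiscreteValuationRing (s18dVal A E) := s18d_isDVR A E hA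
  have : CharZero (s18dVal A E) := ggn_charZero A E
  obtain ⟨ϖ, hϖ⟩ := IsDiscreteValuationRing.exists_irreducible (s18dVal A E)
  obtain ⟨hcoord, S, hchart⟩ := hlvl E hE₀ hfd ϖ hϖ
  obtain ⟨z, hz, hzO⟩ := h₁ E hE₁
  obtain ⟨z', hz', hzO'⟩ := h₁' E hE₁'
  have hz : grdstUp (M * p) E z = x := hz
  have hz' : grdstUp (M * p) E z' = ttrW M hpM x := hz'
  obtain ⟨w₀, hw1, hw2, hw3, hw4⟩ := ssvma_exists_w E M hpM
  obtain ⟨Ξ, G, hamb⟩ := ssvmm_amb A E M hA hpM hϖ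
  -- `w₀ z = z'`
  have hwz : w₀ z = z' := by
    apply ssvmf_up_injective E (M * p)
    rw [← ttr_sat_up_w M hpM E w₀ hw1 hw2 z]
    have e1 : ssvmmUp E (M * p) z = x := hz
    have e2 : ssvmmUp E (M * p) z' = ttrW M hpM x := hz'
    rw [e1, e2]
  have hzV₁ : z ∈ hamb.V₁ := ((ssvma_mem₁_iff A E M hA hϖ Ξ G hamb z).1).mpr hzO
  have hzV₂ : z ∈ hamb.V₂ :=
    ((ssvma_mem₂_iff A E M hA hpM hϖ Ξ G hamb w₀ hw1 hw2 hw3 z).1).mpr (by rw [hwz]; exact hzO')
  have hcoordEq : IntermediateField.inclusion (ssvmm_le E M p)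
      (⟨grdSer υ E, hc.mem E⟩ : modularFunctionFieldFullC E M) =
      (⟨grdSer υ E, hυ' E⟩ : modularFunctionFieldFullC E (M * p)) := rfl
  have hzP := (ttr_sat_mem_iff A E M hA hpM hϖ ⟨grdSer υ E, hc.mem E⟩ hcoord Ξ G hamb z).mpr
    ⟨hzV₁, hzV₂⟩
  rw [← hz]
  apply grdst_ascend_int
  haveI := hcoord.fin
  haveI := ttr_sat_fin E M hpM (⟨grdSer υ E, hc.mem E⟩ : modularFunctionFieldFullC E M)
  have hπE : (π : Qb) ∈ E := hE₃ (h₃ _ (Finset.mem_singleton_self _))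
  rw [← hcoordEq]
  refine grdst_saturated_const (L₀ := E) hϖ _ (ttr_sat_transc E M _ hcoord.transc)
    (⟨⟨(π : Qb), hπE⟩, π.2⟩ : s18dVal A E) ?_ z hzP ?_
  · intro h0
    apply hπ
    apply Subtype.ext
    have := congrArg (fun a : s18dVal A E => algebraMap E Qb (a : E)) h0
    simpa using this
  · rw [hcoordEq]
    apply h₂ E hE₂
    rw [map_mul, hz, grdstUp_algebraMap]
    rfl

/-- `w B(u) ⊆ B(w u)` -/
theorem ttr_isInt_w (hpM : ¬ p ∣ M) {u x : modularFunctionFieldBar (M * p)}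
    (hx : GrdIsInt (M * p) A u x) : GrdIsInt (M * p) A (ttrW M hpM u) (ttrW M hpM x) := by
  refine grdst_isIntegralElem_map (Polynomial.eval₂RingHom (grdInclA (M * p) A) u)
    (Polynomial.eval₂RingHom (grdInclA (M * p) A) (ttrW M hpM u)) (RingHom.id _)
    (ttrW M hpM : modularFunctionFieldBar (M * p) →+* modularFunctionFieldBar (M * p)) ?_ hx
  apply Polynomial.ringHom_ext
  · intro a
    simp only [RingHom.comp_apply, RingHom.id_apply, coe_eval₂RingHom, eval₂_C, RingHom.coe_coe]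
    show grdInclA (M * p) A a = ttrW M hpM (algebraMap Qb _ (a : Qb))
    rw [ttrW_const]
    rfl
  · simp only [RingHom.comp_apply, RingHom.id_apply, coe_eval₂RingHom, eval₂_X, RingHom.coe_coe]

/-- `w B(u) = B(w u)` -/
theorem ttr_isInt_w_iff (hpM : ¬ p ∣ M) {u x : modularFunctionFieldBar (M * p)} :
    GrdIsInt (M * p) A (ttrW M hpM u) (ttrW M hpM x) ↔ GrdIsInt (M * p) A u x := by
  refine ⟨fun h => ?_, ttr_isInt_w M A hpM⟩
  have h1 := ttr_isInt_w M A hpM h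
  rwa [ttrW_invol, ttrW_invol] at h1

/-- `w O₂ = O₂` -/
theorem ttrW_mem_O2 (hpM : ¬ p ∣ M) {x : modularFunctionFieldBar (M * p)}
    (hx : x ∈ ttrO2 M A hpM) : ttrW M hpM x ∈ ttrO2 M A hpM := by
  refine ⟨hx.2, ?_⟩
  show ttrW M hpM (ttrW M hpM x) ∈ grdO (M * p) A
  rw [ttrW_invol]
  exact hx.1

/-- **SATURATION of the chart ring `B(β υ)` in `O₂`**. -/
theorem ttr_sat_beta (hpM : ¬ p ∣ M) (hA : A.LiesOverPrime p) {υ : LaurentSeries ℤ}
    (hc : GrdChart M A υ) (x : modularFunctionFieldBar (M * p)) (hx : x ∈ ttrO2 M A hpM)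
    (π : A) (hπ : π ≠ 0)
    (h : GrdIsInt (M * p) A (heckeBetaBar Qb M p (grdQ M hc.mem))
      (algebraMap Qb (modularFunctionFieldBar (M * p)) (π : Qb) * x)) :
    GrdIsInt (M * p) A (heckeBetaBar Qb M p (grdQ M hc.mem)) x := by
  have h1 := ttr_isInt_w M A hpM h
  rw [ttrW_beta, map_mul, ttrW_const] at h1
  have h2 := ttr_sat_alpha M A hpM hA hc (ttrW M hpM x) (ttrW_mem_O2 M A hpM hx) π hπ h1
  have h3 := ttr_isInt_w M A hpM h2
  rwa [ttrW_alpha, ttrW_invol] at h3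

end Sat

end Fermat.Agent.TT
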