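import Mathlib
import Fermat.Agent.TT.Red2.Sat2
import Fermat.Agent.TT.Red2.ChartInst
import Fermat.Agent.TT.Red2.ChartRed

/-!
# Program TT (S33), package G/Red₂ (helper12, prefix `ttr`) : THE TWO `TtrpChart` INSTANCES

`p ∤ M`, `𝔸` over `p`, `F = modularFunctionFieldBar (M * p)`, `w = ttrW M hpM`.  For a chart
coordinate `υ` of level `M` (`hc : GrdChart M 𝔸 υ`) :

* `ttr_chart_sat₁` : field `sat` of helper6's `TtrpChart`, index 1 (`φ = α`, `V₁`, `red₁`), for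
  EVERY `v ∈ B(α υ)` with `red₂ v = 0` : `x ∈ B(α υ)`, `red₁ x = 0` ⟹ `v x ∈ 𝔪_𝔸 B(α υ)`
  (kernel of `red₁`, kernel of `red₂`, comparison of the two constants in the valuation ring `𝔸`,
  SATURATION `ttr_sat_alpha`);
* `ttr_chart_sat₂` : the same for index 2 (`φ = β`, `V₂`, `red₂`), by transport with `w`;
* `ttr_chart₁`, `ttr_chart₂` : the two `TtrpChart` structures with `v_int` (and `red_other v = 0`)
  as the only hypotheses;
* `ttr_chart_j₁`, `ttr_chart_j₂` : the `j`-chart (`p ≥ 5`) with `v = u₂ = Y^p - J` resp.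
  `v = u₁ = Y - J^p`, NO hypothesis (`v_int` from helper17's `ttrc_be_j_isInt`).
-/

set_option autoImplicit false
set_option linter.unusedSectionVars false
set_option linter.unusedVariables false
set_option linter.style.haveILetI false
set_option synthInstance.maxHeartbeats 400000

noncomputable section

namespace Fermat.Agent.TT

open Polynomial ModularCurve AlgebraicCurve IsLocalRing IntermediateField
  Fermat.Agent.G Fermat.Agent.S18 Fermat.Agent.SS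

local notation "Qb" => AlgebraicClosure ℚ

variable (M : ℕ) [NeZero M] {p : ℕ} [Fact p.Prime] [NeZero p]
variable (A : ValuationSubring Qb)

/-- `0 ∈ 𝔪_𝔸` -/
theorem ttr_chart_zero_mem : (0 : Qb) ∈ A.nonunits := by
  rw [ValuationSubring.mem_nonunits_iff, map_zero]
  exact zero_lt_one

set_option maxHeartbeats 1000000 in
/-- **field `sat`, index 1** : for `v ∈ B = B(α υ)` with `red₂ v = 0` and `x ∈ B` with
`red₁ x = 0` : `v x = π x'`, `π ∈ 𝔪_𝔸`, `x' ∈ B`. -/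
theorem ttr_chart_sat₁ (hpM : ¬ p ∣ M) (hA : A.LiesOverPrime p) {υ : LaurentSeries ℤ}
    (hc : GrdChart M A υ) (v : modularFunctionFieldBar (M * p))
    (hv : v ∈ grdB (M * p) A (heckeAlphaBar Qb M p (grdQ M hc.mem)))
    (hv0 : ∀ h : ttrW M hpM v ∈ grdO (M * p) A, ttrRed1 M A hA ⟨ttrW M hpM v, h⟩ = 0)
    (x : modularFunctionFieldBar (M * p))
    (hx : x ∈ grdB (M * p) A (heckeAlphaBar Qb M p (grdQ M hc.mem)))
    (hred : ∀ h : x ∈ grdO (M * p) A, ttrRed1 M A hA ⟨x, h⟩ = 0) :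
    ∃ π : Qb, π ∈ A.nonunits ∧ ∃ x' ∈ grdB (M * p) A (heckeAlphaBar Qb M p (grdQ M hc.mem)),
      v * x = algebraMap Qb (modularFunctionFieldBar (M * p)) π * x' := by
  have hle := ttr_sat_alpha_le M A hpM hA (grdQ_mem_grdO M A hc.mem) (p := p)
  have hxO : x ∈ ttrO2 M A hpM := hle hx
  have hvO : v ∈ ttrO2 M A hpM := hle hv
  obtain ⟨π₁, x₁, hπ₁, hx₁⟩ := (ttrRed1_eq_zero_iff M A hpM hA ⟨x, hxO.1⟩).mp (hred hxO.1)
  obtain ⟨π₂, y, hπ₂, hy⟩ := (ttrRed1_eq_zero_iff M A hpM hA ⟨ttrW M hpM v, hvO.2⟩).mp (hv0 hvO.2)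
  have hx₁' : x = algebraMap Qb (modularFunctionFieldBar (M * p)) (π₁ : Qb) *
      (x₁ : modularFunctionFieldBar (M * p)) := hx₁
  have hy' : ttrW M hpM v = algebraMap Qb (modularFunctionFieldBar (M * p)) (π₂ : Qb) *
      (y : modularFunctionFieldBar (M * p)) := hy
  have hv' : v = algebraMap Qb (modularFunctionFieldBar (M * p)) (π₂ : Qb) *
      ttrW M hpM (y : modularFunctionFieldBar (M * p)) := by
    rw [← ttrW_invol M hpM v, hy', map_mul, ttrW_const]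
  have hvx : v * x ∈ grdB (M * p) A (heckeAlphaBar Qb M p (grdQ M hc.mem)) :=
    Subring.mul_mem _ hv hx
  by_cases h1 : π₁ = 0
  · refine ⟨0, ttr_chart_zero_mem A, 0, Subring.zero_mem _, ?_⟩
    rw [hx₁', h1]
    simp
  by_cases h2 : π₂ = 0
  · refine ⟨0, ttr_chart_zero_mem A, 0, Subring.zero_mem _, ?_⟩
    rw [hv', h2]
    simp
  have h1' : (π₁ : Qb) ≠ 0 := fun h => h1 (Subtype.ext h)
  have h2' : (π₂ : Qb) ≠ 0 := fun h => h2 (Subtype.ext h)
  have hc1 : algebraMap Qb (modularFunctionFieldBar (M * p)) (π₁ : Qb) ≠ 0 :=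
    (map_ne_zero_iff _ (algebraMap Qb (modularFunctionFieldBar (M * p))).injective).mpr h1'
  have hc2 : algebraMap Qb (modularFunctionFieldBar (M * p)) (π₂ : Qb) ≠ 0 :=
    (map_ne_zero_iff _ (algebraMap Qb (modularFunctionFieldBar (M * p))).injective).mpr h2'
  have hwx : ttrW M hpM x = algebraMap Qb (modularFunctionFieldBar (M * p)) (π₁ : Qb) *
      ttrW M hpM (x₁ : modularFunctionFieldBar (M * p)) := by
    rw [hx₁', map_mul, ttrW_const]
  rcases A.mem_or_inv_mem ((π₂ : Qb) / (π₁ : Qb)) with hcA | hcA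
  · -- `π₁ ∣ π₂` : divide by `π₁`
    refine ⟨(π₁ : Qb), (ValuationSubring.coe_mem_nonunits_iff (A := A)).mpr hπ₁,
      v * (x₁ : modularFunctionFieldBar (M * p)), ?_, ?_⟩
    · refine ttr_sat_alpha M A hpM hA hc _ ⟨Subring.mul_mem _ hvO.1 x₁.2, ?_⟩ π₁ h1 ?_
      · show ttrW M hpM (v * (x₁ : modularFunctionFieldBar (M * p))) ∈ grdO (M * p) A
        have e : ttrW M hpM (v * (x₁ : modularFunctionFieldBar (M * p))) =
            algebraMap Qb (modularFunctionFieldBar (M * p)) ((π₂ : Qb) / (π₁ : Qb)) *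
              ((y : modularFunctionFieldBar (M * p)) * ttrW M hpM x) := by
          rw [map_mul, hy', hwx, map_div₀]
          field_simp
        rw [e]
        exact Subring.mul_mem _ (grdO_algebraMap_mem (M * p) A ⟨_, hcA⟩)
          (Subring.mul_mem _ y.2 hxO.2)
      · have e : algebraMap Qb (modularFunctionFieldBar (M * p)) (π₁ : Qb) *
            (v * (x₁ : modularFunctionFieldBar (M * p))) = v * x := by
          rw [hx₁']; ring
        rw [e]
        exact hvx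
    · rw [hx₁']; ring
  · -- `π₂ ∣ π₁` : divide by `π₂`
    rw [inv_div] at hcA
    refine ⟨(π₂ : Qb), (ValuationSubring.coe_mem_nonunits_iff (A := A)).mpr hπ₂,
      ttrW M hpM (y : modularFunctionFieldBar (M * p)) * x, ?_, ?_⟩
    · refine ttr_sat_alpha M A hpM hA hc _ ⟨?_, ?_⟩ π₂ h2 ?_
      · have e : ttrW M hpM (y : modularFunctionFieldBar (M * p)) * x =
            algebraMap Qb (modularFunctionFieldBar (M * p)) ((π₁ : Qb) / (π₂ : Qb)) *
              (v * (x₁ : modularFunctionFieldBar (M * p))) := by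
          rw [hv', hx₁', map_div₀]
          field_simp
        rw [e]
        exact Subring.mul_mem _ (grdO_algebraMap_mem (M * p) A ⟨_, hcA⟩)
          (Subring.mul_mem _ hvO.1 x₁.2)
      · show ttrW M hpM (ttrW M hpM (y : modularFunctionFieldBar (M * p)) * x) ∈ grdO (M * p) A
        rw [map_mul, ttrW_invol]
        exact Subring.mul_mem _ y.2 hxO.2
      · have e : algebraMap Qb (modularFunctionFieldBar (M * p)) (π₂ : Qb) *
            (ttrW M hpM (y : modularFunctionFieldBar (M * p)) * x) = v * x := by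
          rw [hv']; ring
        rw [e]
        exact hvx
    · rw [hv']; ring

/-- **field `sat`, index 2** : for `v ∈ B = B(β υ)` with `red₁ v = 0` and `x ∈ B` with
`red₂ x = 0` : `v x = π x'`, `π ∈ 𝔪_𝔸`, `x' ∈ B`. -/
theorem ttr_chart_sat₂ (hpM : ¬ p ∣ M) (hA : A.LiesOverPrime p) {υ : LaurentSeries ℤ}
    (hc : GrdChart M A υ) (v : modularFunctionFieldBar (M * p))
    (hv : v ∈ grdB (M * p) A (heckeBetaBar Qb M p (grdQ M hc.mem)))
    (hv0 : ∀ h : v ∈ grdO (M * p) A, ttrRed1 M A hA ⟨v, h⟩ = 0)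
    (x : modularFunctionFieldBar (M * p))
    (hx : x ∈ grdB (M * p) A (heckeBetaBar Qb M p (grdQ M hc.mem)))
    (hred : ∀ h : ttrW M hpM x ∈ grdO (M * p) A, ttrRed1 M A hA ⟨ttrW M hpM x, h⟩ = 0) :
    ∃ π : Qb, π ∈ A.nonunits ∧ ∃ x' ∈ grdB (M * p) A (heckeBetaBar Qb M p (grdQ M hc.mem)),
      v * x = algebraMap Qb (modularFunctionFieldBar (M * p)) π * x' := by
  have hv' : ttrW M hpM v ∈ grdB (M * p) A (heckeAlphaBar Qb M p (grdQ M hc.mem)) := by
    have := ttr_isInt_w M A hpM hv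
    rwa [ttrW_beta] at this
  have hx' : ttrW M hpM x ∈ grdB (M * p) A (heckeAlphaBar Qb M p (grdQ M hc.mem)) := by
    have := ttr_isInt_w M A hpM hx
    rwa [ttrW_beta] at this
  obtain ⟨π, hπ, x', hx'B, hxx'⟩ := ttr_chart_sat₁ M A hpM hA hc (ttrW M hpM v) hv'
    (fun h => by
      have e : (⟨ttrW M hpM (ttrW M hpM v), h⟩ : ↥(grdO (M * p) A)) =
          ⟨v, by rw [← ttrW_invol M hpM v]; exact h⟩ := Subtype.ext (ttrW_invol M hpM v)
      rw [e]
      exact hv0 _) (ttrW M hpM x) hx' hred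
  refine ⟨π, hπ, ttrW M hpM x', ?_, ?_⟩
  · have := ttr_isInt_w M A hpM hx'B
    rwa [ttrW_alpha] at this
  · have := congrArg (ttrW M hpM) hxx'
    rwa [map_mul, map_mul, ttrW_invol, ttrW_invol, ttrW_const] at this

/-- **`TtrpChart`, index 1**, from `v_int` and `red₂ v = 0`. -/
theorem ttr_chart₁ (hpM : ¬ p ∣ M) (hA : A.LiesOverPrime p) {υ : LaurentSeries ℤ}
    (hc : GrdChart M A υ) (v : modularFunctionFieldBar (M * p))
    (hv : v ∈ grdB (M * p) A (heckeAlphaBar Qb M p (grdQ M hc.mem)))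
    (hv0 : ∀ h : ttrW M hpM v ∈ grdO (M * p) A, ttrRed1 M A hA ⟨ttrW M hpM v, h⟩ = 0) :
    TtrpChart M p A (heckeAlphaBar Qb M p) hc.mem (grdO (M * p) A) (ttrRed1 M A hA) v :=
  ttrx_chart₁ M A hA hc.mem v
    (fun x hx => (ttr_sat_alpha_le M A hpM hA (grdQ_mem_grdO M A hc.mem) hx).1) hv
    (fun x hx hred => ttr_chart_sat₁ M A hpM hA hc v hv hv0 x hx (fun h => hred))

/-- **`TtrpChart`, index 2**, from `v_int` and `red₁ v = 0`. -/
theorem ttr_chart₂ (hpM : ¬ p ∣ M) (hA : A.LiesOverPrime p) {υ : LaurentSeries ℤ}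
    (hc : GrdChart M A υ) (v : modularFunctionFieldBar (M * p))
    (hv : v ∈ grdB (M * p) A (heckeBetaBar Qb M p (grdQ M hc.mem)))
    (hv0 : ∀ h : v ∈ grdO (M * p) A, ttrRed1 M A hA ⟨v, h⟩ = 0) :
    TtrpChart M p A (heckeBetaBar Qb M p) hc.mem (ttrV2 M A hpM) (ttrRed2 M A hpM hA) v :=
  ttrx_chart₂ M A hpM hA hc.mem v
    (fun x hx => (ttr_sat_beta_le M A hpM hA (grdQ_mem_grdO M A hc.mem) hx).2) hv
    (fun x hx hred => ttr_chart_sat₂ M A hpM hA hc v hv hv0 x hx (fun h => hred))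

/-! ### the `j`-chart -/

section JChart

/-- `Y = β j ∈ B(α j)` (helper17's `ttrc_be_j_isInt`) -/
theorem ttr_chart_Y_mem (hpM : ¬ p ∣ M) (hA : A.LiesOverPrime p) :
    ttrY M A (p := p) ∈ grdB (M * p) A (heckeAlphaBar Qb M p (grdQ M (grdi_mem_j M))) := by
  have h := ttrc_be_j_isInt (M := M) (p := p) (A := A) (w := ttrW M hpM) hA hpM
    ⟨ttrW_alpha M hpM, ttrW_beta M hpM⟩
  rw [ttr_sat_alpha_grdQ]
  exact h

/-- `J = α j ∈ B(α j)` -/
theorem ttr_chart_J_mem :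
    ttrJ M A (p := p) ∈ grdB (M * p) A (heckeAlphaBar Qb M p (grdQ M (grdi_mem_j M))) :=
  grda_isInt_self (M * p) A _

/-- `u₂ = Y^p - J ∈ B(α j)` -/
theorem ttr_chart_U2_mem (hpM : ¬ p ∣ M) (hA : A.LiesOverPrime p) :
    ttrU2 M A (p := p) ∈ grdB (M * p) A (heckeAlphaBar Qb M p (grdQ M (grdi_mem_j M))) :=
  Subring.sub_mem _ (Subring.pow_mem _ (ttr_chart_Y_mem M A hpM hA) p) (ttr_chart_J_mem M A)

/-- `u₁ = Y - J^p ∈ B(α j)` -/
theorem ttr_chart_U1_mem (hpM : ¬ p ∣ M) (hA : A.LiesOverPrime p) :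
    ttrU1 M A (p := p) ∈ grdB (M * p) A (heckeAlphaBar Qb M p (grdQ M (grdi_mem_j M))) :=
  Subring.sub_mem _ (ttr_chart_Y_mem M A hpM hA) (Subring.pow_mem _ (ttr_chart_J_mem M A) p)

/-- `u₁, u₂ ∈ B(β j)` -/
theorem ttr_chart_U1_mem' (hpM : ¬ p ∣ M) (hA : A.LiesOverPrime p) :
    ttrU1 M A (p := p) ∈ grdB (M * p) A (heckeBetaBar Qb M p (grdQ M (grdi_mem_j M))) := by
  have h := ttr_isInt_w M A hpM (ttr_chart_U2_mem M A hpM hA)
  rw [ttrW_alpha, ttrW_U2] at h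
  have h2 := Subring.neg_mem (grdB (M * p) A (heckeBetaBar Qb M p (grdQ M (grdi_mem_j M)))) h
  rwa [neg_neg] at h2

theorem ttr_chart_U2_mem' (hpM : ¬ p ∣ M) (hA : A.LiesOverPrime p) :
    ttrU2 M A (p := p) ∈ grdB (M * p) A (heckeBetaBar Qb M p (grdQ M (grdi_mem_j M))) := by
  have h := ttr_isInt_w M A hpM (ttr_chart_U1_mem M A hpM hA)
  rw [ttrW_alpha, ttrW_U1] at h
  have h2 := Subring.neg_mem (grdB (M * p) A (heckeBetaBar Qb M p (grdQ M (grdi_mem_j M)))) h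
  rwa [neg_neg] at h2

/-- `red₂ u₂ = 0` -/
theorem ttr_chart_red_wU2 (hpM : ¬ p ∣ M) (hA : A.LiesOverPrime p)
    (h : ttrW M hpM (ttrU2 M A) ∈ grdO (M * p) A) :
    ttrRed1 M A hA ⟨ttrW M hpM (ttrU2 M A), h⟩ = 0 := by
  have e : (⟨ttrW M hpM (ttrU2 M A), h⟩ : ↥(grdO (M * p) A)) =
      -⟨ttrU1 M A, ttrU1_mem M A⟩ := Subtype.ext (ttrW_U2 M A hpM)
  rw [e, map_neg, ttrRed1_U1, neg_zero]

/-- **the `j`-chart, index 1** (`p ≥ 5`) : `v = u₂ = Y^p - J` -/
theorem ttr_chart_j₁ (hpM : ¬ p ∣ M) (hA : A.LiesOverPrime p) (h5 : 5 ≤ p) :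
    TtrpChart M p A (heckeAlphaBar Qb M p) (grd_chart_j M A hpM hA h5).mem (grdO (M * p) A)
      (ttrRed1 M A hA) (ttrU2 M A) :=
  ttr_chart₁ M A hpM hA (grd_chart_j M A hpM hA h5) (ttrU2 M A) (ttr_chart_U2_mem M A hpM hA)
    (ttr_chart_red_wU2 M A hpM hA)

/-- **the `j`-chart, index 2** (`p ≥ 5`) : `v = u₁ = Y - J^p` -/
theorem ttr_chart_j₂ (hpM : ¬ p ∣ M) (hA : A.LiesOverPrime p) (h5 : 5 ≤ p) :
    TtrpChart M p A (heckeBetaBar Qb M p) (grd_chart_j M A hpM hA h5).mem (ttrV2 M A hpM)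
      (ttrRed2 M A hpM hA) (ttrU1 M A) :=
  ttr_chart₂ M A hpM hA (grd_chart_j M A hpM hA h5) (ttrU1 M A) (ttr_chart_U1_mem' M A hpM hA)
    (fun h => ttrRed1_U1 M A hA)

end JChart

end Fermat.Agent.TT
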