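import Mathlib
import Fermat.Agent.TT.Red2.SpecB
import Fermat.Agent.G.Red.Lift
import Fermat.Agent.G.Red.RelExists

/-!
# PROGRAM TT (S33), G/Red₂ LAYER B, slice (B-val) (owner helper6, prefix `ttrp`) :
VALUES AND VALUE COMPATIBILITY ON THE GOOD LOCUS

Per index `φ` and chart `υ` (see `SpecB.lean`), under the interface `H : TtrpChart …` :

* `ttrp_val_exists` : (V1) an element integral over `𝔸[u]` has a value in `𝔸` at every place of the
  chart (any level, any `u`);
* `ttrp_val_res` : `y(P ∘ φ) = (φ y)(P)`;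
* `ttrp_red_const`, `ttrp_red_u`, `ttrp_red_isIntegral` : the reduction of the chart ring;
* `ttrp_ker_val` : at a GOOD place, `red x = 0 ⟹ x(P) ∈ 𝔪_𝔸`;
* `ttrp_rel` : (Rel) VALUE COMPATIBILITY : `x ∈ B`, `x(P) = a` ⟹ `(red x)(Q) = ā` for every `Q`
  related to `P ∘ φ` at level `M`;
* `ttrp_good_red_v` : at a good place `(red v)(Q) ≠ 0`.
-/

set_option autoImplicit false
set_option linter.unusedSectionVars false
set_option linter.unusedVariables false
set_option synthInstance.maxHeartbeats 400000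

noncomputable section

namespace Fermat.Agent.TT

open ModularCurve AlgebraicCurve IsLocalRing Polynomial Fermat.Agent.S18 Fermat.Agent.S24
  Fermat.Agent.G Fermat.Agent.FF

local notation "Qb" => AlgebraicClosure ℚ

section Generic

variable (N : ℕ) [NeZero N] (A : ValuationSubring Qb)

/-- (V1) VALUES at any level : at a place with `u(P) ∈ 𝔸` every element integral over `𝔸[u]`
takes a value in `𝔸`. -/
theorem ttrp_val_exists (u : modularFunctionFieldBar N)
    (P : Place Qb (modularFunctionFieldBar N))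
    (hP : GrdInChart N A u P) {x : modularFunctionFieldBar N}
    (hx : GrdIsInt N A u x) : ∃ a : A, GrdVal P x (a : Qb) := by
  obtain ⟨a₀, ha₀⟩ := hP
  have h1 : ∀ f : A[X], GrdVal P (Polynomial.eval₂RingHom (grdInclA N A) u f)
      (Polynomial.eval₂RingHom A.subtype (a₀ : Qb) f) := fun f =>
    grdr_val_eval₂ P (grdInclA N A) A.subtype
      (fun r => grdg_val_algebraMap P (r : Qb)) ha₀ f
  have hxO : x ∈ P.toValuationSubring := by
    let _ : Algebra A[X] (modularFunctionFieldBar N) :=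
      (Polynomial.eval₂RingHom (grdInclA N A) u).toAlgebra
    exact mem_of_isIntegral_of_forall_mem P (A := A[X]) (fun f => grdg_val_mem P (h1 f)) hx
  obtain ⟨b, hb⟩ := grdg_val_exists (isSepGen_jBar (N := N)) P hxO
  obtain ⟨q, hqm, hq0⟩ := hx
  have h2 := grdr_val_eval₂ P _ _ h1 hb q
  rw [hq0] at h2
  have h3 : q.eval₂ (Polynomial.eval₂RingHom A.subtype (a₀ : Qb)) b = 0 :=
    grdg_val_unique P h2 (grdr_val_zero P)
  have hψ : (Polynomial.eval₂RingHom A.subtype (a₀ : Qb)) =
      (algebraMap A Qb).comp (Polynomial.evalRingHom a₀) := by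
    ext f
    · simp
    · simp
  have hint : IsIntegral A b := by
    refine ⟨q.map (Polynomial.evalRingHom a₀), hqm.map _, ?_⟩
    rw [Polynomial.eval₂_map, ← hψ]
    exact h3
  obtain ⟨y, hy⟩ := IsIntegrallyClosed.isIntegral_iff.mp hint
  refine ⟨y, ?_⟩
  have : ((y : A) : Qb) = b := hy
  rw [this]
  exact hb

end Generic

section Res

variable {K F F' : Type*} [Field K] [Field F] [Field F'] [Algebra K F] [Algebra K F']

/-- `y(P ∘ φ) = (φ y)(P)`. -/
theorem ttrp_val_res (φ : F →ₐ[K] F') (hφ : φ.toRingHom.IsIntegral) (P : Place K F') (y : F)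
    (b : K) : GrdVal (P.restrictAlong φ hφ) y b ↔ GrdVal P (φ y) b := by
  unfold GrdVal
  have h1 : (P.restrictAlong φ hφ).toValuationSubring =
      P.toValuationSubring.comap φ.toRingHom := rfl
  rw [h1, ValuationSubring.mem_nonunits_iff_or, ValuationSubring.mem_nonunits_iff_or,
    ValuationSubring.mem_comap]
  have h2 : φ.toRingHom (y - algebraMap K F b)⁻¹ = (φ y - algebraMap K F' b)⁻¹ := by
    rw [map_inv₀, map_sub]
    congr 2
    exact φ.commutes b
  have h3 : y - algebraMap K F b = 0 ↔ φ y - algebraMap K F' b = 0 := by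
    rw [← φ.commutes b, ← map_sub]
    exact (map_eq_zero_iff φ φ.toRingHom.injective).symm
  rw [h2, h3]

end Res

section Main

variable (M p : ℕ) [NeZero M] [NeZero p] {ℓ : ℕ} [Fact ℓ.Prime]
variable (A : ValuationSubring Qb)
variable {υ : LaurentSeries ℤ}
variable {φ : modularFunctionFieldBar M →ₐ[Qb] modularFunctionFieldBar (M * p)}
variable {V : Subring (modularFunctionFieldBar (M * p))}
variable {red : ↥V →+* modularFunctionFieldFullC (ResidueField A) M}
variable {v : modularFunctionFieldBar (M * p)}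

/-- constants of `𝔸` lie in every chart ring. -/
theorem ttrp_const_mem (u : modularFunctionFieldBar (M * p)) (a : A) :
    algebraMap Qb (modularFunctionFieldBar (M * p)) (a : Qb) ∈ grdB (M * p) A u :=
  grdr_isInt_algebraMap (M * p) A u a

/-- the chart coordinate lies in the chart ring. -/
theorem ttrp_u_mem (u : modularFunctionFieldBar (M * p)) : u ∈ grdB (M * p) A u :=
  grdr_isInt_self (M * p) A u

/-- integrality over `𝔸[u]` is transported by `φ`. -/
theorem ttrp_isInt_map (φ : modularFunctionFieldBar M →ₐ[Qb] modularFunctionFieldBar (M * p))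
    (u x : modularFunctionFieldBar M) (hx : GrdIsInt M A u x) :
    GrdIsInt (M * p) A (φ u) (φ x) := by
  obtain ⟨q, hqm, hq0⟩ := hx
  refine ⟨q, hqm, ?_⟩
  have hcomp : (φ : modularFunctionFieldBar M →+* modularFunctionFieldBar (M * p)).comp
      (Polynomial.eval₂RingHom (grdInclA M A) u) =
      Polynomial.eval₂RingHom (grdInclA (M * p) A) (φ u) := by
    apply Polynomial.ringHom_ext
    · intro a
      rw [RingHom.comp_apply, Polynomial.coe_eval₂RingHom, Polynomial.eval₂_C,
        Polynomial.coe_eval₂RingHom, Polynomial.eval₂_C]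
      exact φ.commutes _
    · rw [RingHom.comp_apply, Polynomial.coe_eval₂RingHom, Polynomial.eval₂_X,
        Polynomial.coe_eval₂RingHom, Polynomial.eval₂_X]
      rfl
  have h := Polynomial.hom_eval₂ q (Polynomial.eval₂RingHom (grdInclA M A) u)
    (φ : modularFunctionFieldBar M →+* modularFunctionFieldBar (M * p)) x
  rw [hcomp, hq0, map_zero] at h
  exact h.symm

variable {M p A}

/-- the reduction of a constant. -/
theorem ttrp_red_const {hυ : GrdSerMem M υ} (H : TtrpChart M p A φ hυ V red v) (a : A) :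
    red ⟨algebraMap Qb (modularFunctionFieldBar (M * p)) (a : Qb),
        H.int_mem (ttrp_const_mem M p A _ a)⟩ =
      algebraMap (ResidueField A) (modularFunctionFieldFullC (ResidueField A) M)
        (residue A a) := by
  have h1 : φ (algebraMap Qb (modularFunctionFieldBar M) (a : Qb)) =
      algebraMap Qb (modularFunctionFieldBar (M * p)) (a : Qb) := φ.commutes _
  have h2 := H.red_base _ (grdO_algebraMap_mem M A a)
  rw [grdRed_algebraMap] at h2
  rw [← h2]
  congr 1
  exact Subtype.ext h1.symm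

/-- the reduction of the chart coordinate. -/
theorem ttrp_red_u {hυ : GrdSerMem M υ} (H : TtrpChart M p A φ hυ V red v) :
    red ⟨φ (grdQ M hυ), H.base_mem _ (grdQ_mem_grdO M A hυ)⟩ = grdK M A hυ := by
  rw [H.red_base _ (grdQ_mem_grdO M A hυ), grdRed_grdQ]

/-- the reduction of an element of the chart ring is integral over `k[ū]`. -/
theorem ttrp_red_isIntegral {hυ : GrdSerMem M υ} (H : TtrpChart M p A φ hυ V red v)
    (x : modularFunctionFieldBar (M * p)) (hx : x ∈ grdB (M * p) A (φ (grdQ M hυ))) :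
    red ⟨x, H.int_mem hx⟩ ∈ intRing (ResidueField A) (grdK M A hυ) := by
  obtain ⟨q, hq, hqx⟩ := hx
  have hxV : x ∈ V := H.int_mem ⟨q, hq, hqx⟩
  have huV : φ (grdQ M hυ) ∈ V := H.base_mem _ (grdQ_mem_grdO M A hυ)
  have hev : ∀ a : A[X],
      Polynomial.eval₂RingHom (grdInclA (M * p) A) (φ (grdQ M hυ)) a ∈ V := by
    intro a
    rw [Polynomial.coe_eval₂RingHom, Polynomial.eval₂_eq_sum_range]
    refine Subring.sum_mem _ fun i _ => ?_
    refine Subring.mul_mem _ ?_ (Subring.pow_mem _ huV i)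
    exact H.int_mem (ttrp_const_mem M p A _ (a.coeff i))
  let φ' : A[X] →+* ↥V :=
    (Polynomial.eval₂RingHom (grdInclA (M * p) A) (φ (grdQ M hυ))).codRestrict V hev
  let ū' : ↥(Algebra.adjoin (ResidueField A) {grdK M A hυ}) :=
    ⟨grdK M A hυ, Algebra.subset_adjoin rfl⟩
  let ψ : A[X] →+* ↥(Algebra.adjoin (ResidueField A) {grdK M A hυ}) :=
    Polynomial.eval₂RingHom ((algebraMap (ResidueField A)
      ↥(Algebra.adjoin (ResidueField A) {grdK M A hυ})).comp (residue A)) ū'
  have hcomp : red.comp φ' =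
      (algebraMap ↥(Algebra.adjoin (ResidueField A) {grdK M A hυ})
        (modularFunctionFieldFullC (ResidueField A) M)).comp ψ := by
    apply Polynomial.ringHom_ext
    · intro a
      have h1 : φ' (C a) = ⟨algebraMap Qb (modularFunctionFieldBar (M * p)) (a : Qb),
          H.int_mem (ttrp_const_mem M p A _ a)⟩ := by
        apply Subtype.ext
        show Polynomial.eval₂RingHom (grdInclA (M * p) A) (φ (grdQ M hυ)) (C a) = _
        rw [Polynomial.coe_eval₂RingHom, Polynomial.eval₂_C]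
        rfl
      rw [RingHom.comp_apply, h1, ttrp_red_const H, RingHom.comp_apply]
      show _ = algebraMap _ _ (Polynomial.eval₂ _ ū' (C a))
      rw [Polynomial.eval₂_C]
      rfl
    · have h1 : φ' X = ⟨φ (grdQ M hυ), huV⟩ := by
        apply Subtype.ext
        show Polynomial.eval₂RingHom (grdInclA (M * p) A) (φ (grdQ M hυ)) X = _
        rw [Polynomial.coe_eval₂RingHom, Polynomial.eval₂_X]
      rw [RingHom.comp_apply, h1, ttrp_red_u H, RingHom.comp_apply]
      show _ = algebraMap _ _ (Polynomial.eval₂ _ ū' X)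
      rw [Polynomial.eval₂_X]
      rfl
  have hzero : Polynomial.eval₂ φ' (⟨x, hxV⟩ : ↥V) q = 0 := by
    apply Subtype.ext
    have := Polynomial.hom_eval₂ q φ' V.subtype (⟨x, hxV⟩ : ↥V)
    rw [show (V.subtype (Polynomial.eval₂ φ' (⟨x, hxV⟩ : ↥V) q) :
        modularFunctionFieldBar (M * p)) =
      ((Polynomial.eval₂ φ' (⟨x, hxV⟩ : ↥V) q : ↥V) : modularFunctionFieldBar (M * p))
      from rfl] at this
    rw [this]
    have hc : V.subtype.comp φ' =
        Polynomial.eval₂RingHom (grdInclA (M * p) A) (φ (grdQ M hυ)) := by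
      ext <;> rfl
    rw [hc]
    exact hqx
  refine ⟨q.map ψ, hq.map _, ?_⟩
  rw [Polynomial.eval₂_map, ← hcomp, ← Polynomial.hom_eval₂, hzero, map_zero]

/-- AT A GOOD PLACE the evaluation kills the kernel of the reduction :
`red x = 0`, `x(P) = a` ⟹ `a ∈ 𝔪_𝔸`. -/
theorem ttrp_ker_val {hυ : GrdSerMem M υ} (H : TtrpChart M p A φ hυ V red v)
    (P : Place Qb (modularFunctionFieldBar (M * p)))
    (hP : TtrpGoodC M p A (φ (grdQ M hυ)) v P)
    (x : modularFunctionFieldBar (M * p)) (hx : x ∈ grdB (M * p) A (φ (grdQ M hυ)))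
    (hred : red ⟨x, H.int_mem hx⟩ = 0) (a : A) (hxa : GrdVal P x (a : Qb)) :
    a ∈ maximalIdeal A := by
  obtain ⟨π, hπ, x', hx', hmul⟩ := H.sat x hx hred
  obtain ⟨hch, hv⟩ := hP
  obtain ⟨av, hav⟩ := ttrp_val_exists (M * p) A _ P hch H.v_int
  obtain ⟨a', ha'⟩ := ttrp_val_exists (M * p) A _ P hch hx'
  have h1 := grdg_val_mul P hav hxa
  have h2 := grdg_val_mul P (grdg_val_algebraMap P π) ha'
  rw [hmul] at h1
  have h3 : (av : Qb) * (a : Qb) = π * (a' : Qb) := grdg_val_unique P h1 h2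
  rw [ValuationSubring.mem_nonunits_iff_exists_mem_maximalIdeal] at hπ
  obtain ⟨hπA, hπm⟩ := hπ
  have h4 : av * a = ⟨π, hπA⟩ * a' := Subtype.ext h3
  have h5 : av * a ∈ maximalIdeal A := by
    rw [h4]
    exact Ideal.mul_mem_right _ _ hπm
  rcases (Ideal.IsPrime.mem_or_mem (maximalIdeal.isMaximal A).isPrime h5) with h6 | h6
  · exfalso
    apply hv
    refine ⟨av, ?_, hav⟩
    rw [ValuationSubring.mem_nonunits_iff_exists_mem_maximalIdeal]
    exact ⟨av.2, h6⟩
  · exact h6

/-- (Rel) VALUE COMPATIBILITY ON THE GOOD LOCUS : for `P` good in the chart and `Q` related to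
`P ∘ φ` at level `M` : `x ∈ B`, `x(P) = a` ⟹ `(red x)(Q) = ā`. -/
theorem ttrp_rel (hℓM : ¬ ℓ ∣ M) (hA : A.LiesOverPrime ℓ) (hc : GrdChart M A υ)
    (hφ : φ.toRingHom.IsIntegral) (H : TtrpChart M p A φ hc.mem V red v)
    (P : Place Qb (modularFunctionFieldBar (M * p)))
    (hP : TtrpGoodC M p A (φ (grdQ M hc.mem)) v P)
    (Q : Place (ResidueField A) (modularFunctionFieldFullC (ResidueField A) M))
    (hQ : GrdRel M A (grdQ M hc.mem) (ttrpRes M p φ hφ P) Q)
    (x : modularFunctionFieldBar (M * p)) (hx : x ∈ grdB (M * p) A (φ (grdQ M hc.mem)))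
    (a : A) (hxa : GrdVal P x (a : Qb)) :
    GrdVal Q (red ⟨x, H.int_mem hx⟩) (residue A a) := by
  obtain ⟨x0, hx0int, hx0red⟩ :=
    grd_lift M A hℓM hA hc ⟨_, ttrp_red_isIntegral H x hx⟩
  have hφx0 : φ (x0 : modularFunctionFieldBar M) ∈ grdB (M * p) A (φ (grdQ M hc.mem)) :=
    ttrp_isInt_map M p A φ _ _ hx0int
  have hd : x - φ (x0 : modularFunctionFieldBar M) ∈ grdB (M * p) A (φ (grdQ M hc.mem)) :=
    Subring.sub_mem _ hx hφx0
  have hdred : red ⟨x - φ (x0 : modularFunctionFieldBar M), H.int_mem hd⟩ = 0 := by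
    have h1 : (⟨x - φ (x0 : modularFunctionFieldBar M), H.int_mem hd⟩ : ↥V) =
        ⟨x, H.int_mem hx⟩ - ⟨φ (x0 : modularFunctionFieldBar M), H.base_mem _ x0.2⟩ := rfl
    rw [h1, map_sub, H.red_base _ x0.2]
    have h2 : (⟨(x0 : modularFunctionFieldBar M), x0.2⟩ : ↥(grdO M A)) = x0 := rfl
    rw [h2, hx0red, sub_self]
  obtain ⟨a0, ha0⟩ := ttrp_val_exists (M * p) A _ P hP.1 hφx0
  have hda : GrdVal P (x - φ (x0 : modularFunctionFieldBar M)) ((a - a0 : A) : Qb) := by
    have := grdr_val_sub P hxa ha0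
    simpa using this
  have hm := ttrp_ker_val H P hP _ hd hdred (a - a0) hda
  have hres : residue A a = residue A a0 := by
    rw [← sub_eq_zero, ← map_sub]
    exact (residue_eq_zero_iff _).mpr hm
  have h0 : GrdVal (ttrpRes M p φ hφ P) (x0 : modularFunctionFieldBar M) (a0 : Qb) :=
    (ttrp_val_res φ hφ P _ _).mpr ha0
  have h1 := hQ (x0 : modularFunctionFieldBar M) x0.2 hx0int a0 h0
  have h2 : (⟨(x0 : modularFunctionFieldBar M), x0.2⟩ : ↥(grdO M A)) = x0 := rfl
  rw [h2, hx0red] at h1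
  rw [hres]
  exact h1

/-- at a good place `(red v)(Q) ≠ 0`. -/
theorem ttrp_good_red_v (hℓM : ¬ ℓ ∣ M) (hA : A.LiesOverPrime ℓ) (hc : GrdChart M A υ)
    (hφ : φ.toRingHom.IsIntegral) (H : TtrpChart M p A φ hc.mem V red v)
    (P : Place Qb (modularFunctionFieldBar (M * p)))
    (hP : TtrpGoodC M p A (φ (grdQ M hc.mem)) v P)
    (Q : Place (ResidueField A) (modularFunctionFieldFullC (ResidueField A) M))
    (hQ : GrdRel M A (grdQ M hc.mem) (ttrpRes M p φ hφ P) Q) :
    ¬ GrdVal Q (red ⟨v, H.int_mem H.v_int⟩) 0 := by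
  intro h0
  obtain ⟨av, hav⟩ := ttrp_val_exists (M * p) A _ P hP.1 H.v_int
  have h1 := ttrp_rel hℓM hA hc hφ H P hP Q hQ v H.v_int av hav
  have h2 : residue A av = 0 := grdg_val_unique Q h1 h0
  apply hP.2
  refine ⟨av, ?_, hav⟩
  rw [ValuationSubring.mem_nonunits_iff_exists_mem_maximalIdeal]
  exact ⟨av.2, (residue_eq_zero_iff _).mp h2⟩

end Main

section Wrap

variable {M p : ℕ} [NeZero M] [NeZero p] {ℓ : ℕ} [Fact ℓ.Prime]
variable {A : ValuationSubring Qb}
variable {υ : LaurentSeries ℤ}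
variable {φ : modularFunctionFieldBar M →ₐ[Qb] modularFunctionFieldBar (M * p)}
variable {V : Subring (modularFunctionFieldBar (M * p))}
variable {red : ↥V →+* modularFunctionFieldFullC (ResidueField A) M}
variable {v : modularFunctionFieldBar (M * p)}

/-- a place of level `M p` lies in the chart `φ u` iff its restriction lies in the chart `u`. -/
theorem ttrp_inChart_res (hφ : φ.toRingHom.IsIntegral) (u : modularFunctionFieldBar M)
    (P : Place Qb (modularFunctionFieldBar (M * p))) :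
    GrdInChart M A u (ttrpRes M p φ hφ P) ↔ GrdInChart (M * p) A (φ u) P := by
  unfold GrdInChart ttrpRes
  constructor
  · rintro ⟨a, ha⟩
    exact ⟨a, (ttrp_val_res φ hφ P _ _).mp ha⟩
  · rintro ⟨a, ha⟩
    exact ⟨a, (ttrp_val_res φ hφ P _ _).mpr ha⟩

/-- the reduction of the chart ring is regular at every place of the chart of `F_k`. -/
theorem ttrp_red_mem {hυ : GrdSerMem M υ} (H : TtrpChart M p A φ hυ V red v)
    (Q : Place (ResidueField A) (modularFunctionFieldFullC (ResidueField A) M))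
    (hQ : grdK M A hυ ∈ Q.toValuationSubring)
    (x : modularFunctionFieldBar (M * p)) (hx : x ∈ grdB (M * p) A (φ (grdQ M hυ))) :
    red ⟨x, H.int_mem hx⟩ ∈ Q.toValuationSubring :=
  intRing_le_place Q hQ ⟨_, ttrp_red_isIntegral H x hx⟩

/-- a lift of a uniformiser at `Q` in the chart ring (through `φ`). -/
theorem ttrp_exists_unif (hℓM : ¬ ℓ ∣ M) (hA : A.LiesOverPrime ℓ) (hc : GrdChart M A υ)
    (H : TtrpChart M p A φ hc.mem V red v)
    (Q : Place (ResidueField A) (modularFunctionFieldFullC (ResidueField A) M))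
    (hQ : grdK M A hc.mem ∈ Q.toValuationSubring) :
    ∃ (s₀ : modularFunctionFieldBar M) (hs₀ : s₀ ∈ grdO M A),
      GrdIsInt M A (grdQ M hc.mem) s₀ ∧ Q.ord (grdRed M A ⟨s₀, hs₀⟩) = 1 ∧
      ∃ ht : φ s₀ ∈ grdB (M * p) A (φ (grdQ M hc.mem)),
        red ⟨φ s₀, H.int_mem ht⟩ = grdRed M A ⟨s₀, hs₀⟩ := by
  have : IsAlgClosed (ResidueField A) := grd_isAlgClosed_residue A
  obtain ⟨x, hx⟩ := grdg_exists_unif hc.sepK Q hQ
  obtain ⟨t₀, ht₀, ht₀x⟩ := grd_lift M A hℓM hA hc x
  refine ⟨t₀, t₀.2, ht₀, ?_, ttrp_isInt_map M p A φ _ _ ht₀, ?_⟩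
  · have h2 : (⟨(t₀ : modularFunctionFieldBar M), t₀.2⟩ : ↥(grdO M A)) = t₀ := rfl
    rw [h2, ht₀x]
    exact hx
  · exact H.red_base _ t₀.2

/-- (Rel) in terms of THE reduction map `r` of level `M` (first chart of the atlas). -/
theorem ttrp_rel_r {τ τ' : LaurentSeries ℤ} (hℓM : ¬ ℓ ∣ M) (hA : A.LiesOverPrime ℓ)
    (hat : GrdAtlas M A τ τ')
    (r : Place Qb (modularFunctionFieldBar M) →
      Place (ResidueField A) (modularFunctionFieldFullC (ResidueField A) M))
    (hr : GrdIsRed M A hat.c.mem hat.c'.mem r)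
    (hφ : φ.toRingHom.IsIntegral) (H : TtrpChart M p A φ hat.c.mem V red v)
    (P : Place Qb (modularFunctionFieldBar (M * p)))
    (hP : TtrpGoodC M p A (φ (grdQ M hat.c.mem)) v P)
    (x : modularFunctionFieldBar (M * p)) (hx : x ∈ grdB (M * p) A (φ (grdQ M hat.c.mem)))
    (a : A) (hxa : GrdVal P x (a : Qb)) :
    GrdVal (ttrpR M p A φ hφ r P) (red ⟨x, H.int_mem hx⟩) (residue A a) :=
  ttrp_rel hℓM hA hat.c hφ H P hP _
    ((grd_isRed_rel M A hℓM hA hat r hr _).1 ((ttrp_inChart_res hφ _ P).mpr hP.1)) x hx a hxa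

/-- (Rel) in terms of `r`, second chart of the atlas. -/
theorem ttrp_rel_r' {τ τ' : LaurentSeries ℤ} (hℓM : ¬ ℓ ∣ M) (hA : A.LiesOverPrime ℓ)
    (hat : GrdAtlas M A τ τ')
    (r : Place Qb (modularFunctionFieldBar M) →
      Place (ResidueField A) (modularFunctionFieldFullC (ResidueField A) M))
    (hr : GrdIsRed M A hat.c.mem hat.c'.mem r)
    (hφ : φ.toRingHom.IsIntegral) (H : TtrpChart M p A φ hat.c'.mem V red v)
    (P : Place Qb (modularFunctionFieldBar (M * p)))
    (hP : TtrpGoodC M p A (φ (grdQ M hat.c'.mem)) v P)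
    (x : modularFunctionFieldBar (M * p)) (hx : x ∈ grdB (M * p) A (φ (grdQ M hat.c'.mem)))
    (a : A) (hxa : GrdVal P x (a : Qb)) :
    GrdVal (ttrpR M p A φ hφ r P) (red ⟨x, H.int_mem hx⟩) (residue A a) :=
  ttrp_rel hℓM hA hat.c' hφ H P hP _
    ((grd_isRed_rel M A hℓM hA hat r hr _).2 ((ttrp_inChart_res hφ _ P).mpr hP.1)) x hx a hxa

end Wrap

end Fermat.Agent.TT
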