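import Mathlib
import Fermat.Agent.TT.Red2.GoodVal

/-!
# PROGRAM TT (S33), G/Red₂ LAYER B, slice (B-fix) (owner helper6, prefix `ttrp`) :
INERTIA AND THE GOOD LOCUS OF A CHART, CHART COVER AT LEVEL `M p`

* `ttrp_nonunits_smul` : inertia preserves `𝔪_𝔸`;
* `ttrp_goodC_smul` : inertia preserves `TtrpGoodC` (for Galois-fixed `u`, `v`);
* `ttrp_s_smul` : inertia preserves the fibre `ttrpS … Q` of the good locus over `Q`;
* `ttrp_fixed_of_unique` : the unique good place over an inertia-fixed place of level `M` is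
  inertia-fixed;
* `ttrp_chart_cover` : every place of level `M p` lies in the chart `φ τ` or `(φ τ')(P) ∈ 𝔪`.
-/

set_option autoImplicit false
set_option linter.unusedSectionVars false
set_option linter.unusedVariables false
set_option synthInstance.maxHeartbeats 400000

noncomputable section

namespace Fermat.Agent.TT

open ModularCurve AlgebraicCurve IsLocalRing Polynomial Fermat.Agent.S18 Fermat.Agent.S24
  Fermat.Agent.G Fermat.Agent.FF Fermat.Agent.S05

local notation "Qb" => AlgebraicClosure ℚ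

section Fix

variable (M p : ℕ) [NeZero M] [NeZero p] {ℓ : ℕ} [Fact ℓ.Prime]
variable {A : ValuationSubring Qb}
variable {τ τ' : LaurentSeries ℤ}
variable {σ : Qb ≃ₐ[ℚ] Qb}

/-- inertia preserves the maximal ideal of `𝔸`. -/
theorem ttrp_nonunits_smul (hσ : IsInertial A σ) {a : Qb} (ha : a ∈ A.nonunits) :
    σ a ∈ A.nonunits := by
  have haA : a ∈ A := (A.mem_nonunits_iff_exists_mem_maximalIdeal.mp ha).1
  have h1 := ffipResA_residue hσ ⟨a, haA⟩
  rw [A.mem_nonunits_iff_exists_mem_maximalIdeal] at ha ⊢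
  obtain ⟨_, ham⟩ := ha
  refine ⟨(ffipResA hσ ⟨a, haA⟩).2, ?_⟩
  have h2 : (ffipResA hσ ⟨a, haA⟩ : A) ∈ maximalIdeal A := by
    rw [← residue_eq_zero_iff, h1, residue_eq_zero_iff]
    exact ham
  have h3 : (⟨σ a, (ffipResA hσ ⟨a, haA⟩).2⟩ : A) = ffipResA hσ ⟨a, haA⟩ :=
    Subtype.ext (ffipResA_coe hσ ⟨a, haA⟩).symm
  rw [h3]
  exact h2

/-- the base automorphism of the coefficientwise action. -/
theorem ttrp_baseAut (N : ℕ) [NeZero N] (σ : Qb ≃ₐ[ℚ] Qb) (a : Qb) :
    SemilinearAut.baseAut (ffipG N σ) a = σ a := by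
  have h3 := SemilinearAut.smul_algebraMap (ffipG N σ) a
  rw [ffipG_algebraMap] at h3
  exact (algebraMap Qb (modularFunctionFieldBar N)).injective h3.symm

/-- INERTIA PRESERVES THE GOOD LOCUS OF A CHART (Galois-fixed `u`, `v`). -/
theorem ttrp_goodC_smul (hσ : IsInertial A σ) (u v : modularFunctionFieldBar (M * p))
    (hu : ffipG (M * p) σ • u = u) (hv : ffipG (M * p) σ • v = v)
    (P : Place Qb (modularFunctionFieldBar (M * p))) (hP : TtrpGoodC M p A u v P) :
    TtrpGoodC M p A u v (ffipG (M * p) σ • P) := by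
  obtain ⟨⟨a, ha⟩, hvP⟩ := hP
  refine ⟨⟨ffipResA hσ a, ?_⟩, ?_⟩
  · have h := ffip_val_smul (ffipG (M * p) σ) P ha
    rw [hu] at h
    exact h
  · rintro ⟨b, hb, hvb⟩
    apply hvP
    have hσ' := ffip_inertial_inv hσ
    have h1 := ffip_val_smul (ffipG (M * p) σ⁻¹) (ffipG (M * p) σ • P) hvb
    rw [ffipG_inv_smul_place, ttrp_baseAut] at h1
    have hv' : ffipG (M * p) σ⁻¹ • v = v := by
      conv_lhs => rw [← hv]
      exact ffipG_inv_smul (M * p) σ v
    rw [hv'] at h1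
    exact ⟨σ⁻¹ b, ttrp_nonunits_smul hσ' hb, h1⟩

/-- INERTIA PRESERVES THE FIBRES OF THE GOOD LOCUS. -/
theorem ttrp_s_smul (hℓM : ¬ ℓ ∣ M) (hA : A.LiesOverPrime ℓ) (hat : GrdAtlas M A τ τ')
    (r : Place Qb (modularFunctionFieldBar M) →
      Place (ResidueField A) (modularFunctionFieldFullC (ResidueField A) M))
    (hr : GrdIsRed M A hat.c.mem hat.c'.mem r) (hσ : IsInertial A σ)
    (φ : modularFunctionFieldBar M →ₐ[Qb] modularFunctionFieldBar (M * p))
    (hφ : φ.toRingHom.IsIntegral)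
    (hint : SemilinearAut.IntertwinesAlong φ.toRingHom (ffipG M σ) (ffipG (M * p) σ))
    (u v : modularFunctionFieldBar (M * p))
    (hu : ffipG (M * p) σ • u = u) (hv : ffipG (M * p) σ • v = v)
    (Q : Place (ResidueField A) (modularFunctionFieldFullC (ResidueField A) M))
    (P : Place Qb (modularFunctionFieldBar (M * p)))
    (hP : P ∈ ttrpS M p A φ hφ r u v Q) :
    ffipG (M * p) σ • P ∈ ttrpS M p A φ hφ r u v Q := by
  obtain ⟨h1, h2⟩ := hP
  refine ⟨ttrp_goodC_smul M p hσ u v hu hv P h1, ?_⟩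
  rw [ttrp_r_smul M p hℓM hA hat r hr hσ φ hφ hint P]
  exact h2

/-- THE UNIQUE GOOD PLACE OVER AN INERTIA-FIXED PLACE IS INERTIA-FIXED. -/
theorem ttrp_fixed_of_unique (hσ : IsInertial A σ)
    (φ : modularFunctionFieldBar M →ₐ[Qb] modularFunctionFieldBar (M * p))
    (hφ : φ.toRingHom.IsIntegral)
    (hint : SemilinearAut.IntertwinesAlong φ.toRingHom (ffipG M σ) (ffipG (M * p) σ))
    (u v : modularFunctionFieldBar (M * p))
    (hu : ffipG (M * p) σ • u = u) (hv : ffipG (M * p) σ • v = v)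
    (P₀ : Place Qb (modularFunctionFieldBar M)) (hP₀ : ffipG M σ • P₀ = P₀)
    (P : Place Qb (modularFunctionFieldBar (M * p)))
    (hP : TtrpGoodC M p A u v P) (hPP₀ : ttrpRes M p φ hφ P = P₀)
    (huniq : ∀ P' : Place Qb (modularFunctionFieldBar (M * p)),
      TtrpGoodC M p A u v P' → ttrpRes M p φ hφ P' = P₀ → P' = P) :
    ffipG (M * p) σ • P = P := by
  apply huniq _ (ttrp_goodC_smul M p hσ u v hu hv P hP)
  rw [ttrp_res_smul M p σ φ hφ hint P, hPP₀, hP₀]

/-- CHART COVER AT LEVEL `M p` : `(φ τ)(P) ∈ 𝔸` or `(φ τ')(P) ∈ 𝔪_𝔸`. -/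
theorem ttrp_chart_cover (hat : GrdAtlas M A τ τ')
    (φ : modularFunctionFieldBar M →ₐ[Qb] modularFunctionFieldBar (M * p))
    (hφ : φ.toRingHom.IsIntegral) (P : Place Qb (modularFunctionFieldBar (M * p))) :
    GrdInChart (M * p) A (φ (grdQ M hat.c.mem)) P ∨
      ∃ a : A, a ∈ maximalIdeal A ∧ GrdVal P (φ (grdQ M hat.c'.mem)) (a : Qb) := by
  rcases grd_chart_cover M A hat (ttrpRes M p φ hφ P) with h | ⟨a, ha, hva⟩
  · exact Or.inl ((ttrp_inChart_res hφ _ P).mp h)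
  · exact Or.inr ⟨a, ha, (ttrp_val_res φ hφ P _ _).mp hva⟩

/-- the chart coordinate `φ(υ_ℚ̄)` is Galois-fixed. -/
theorem ttrp_coord_fixed (σ : Qb ≃ₐ[ℚ] Qb)
    (φ : modularFunctionFieldBar M →ₐ[Qb] modularFunctionFieldBar (M * p))
    (hint : SemilinearAut.IntertwinesAlong φ.toRingHom (ffipG M σ) (ffipG (M * p) σ))
    {υ : LaurentSeries ℤ} (hυ : GrdSerMem M υ) :
    ffipG (M * p) σ • φ (grdQ M hυ) = φ (grdQ M hυ) := by
  have h := hint (grdQ M hυ)
  rw [ffipG_coord] at h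
  exact h

end Fix

end Fermat.Agent.TT
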