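import Mathlib
import Fermat.Agent.TT.Red2.GoodFix

/-!
# PROGRAM TT (S33), G/Red₂ LAYER B (owner helper6, prefix `ttrp`) : LOCAL VALUES AND FIXED LIFTS

* `ttrp_rel_loc` : VALUES OF LOCALLY INTEGRAL ELEMENTS : `P` good in the chart, `Q` related to
  `P ∘ φ`; `x ∈ V` with `s x ∈ B` for some `s ∈ B`, `(red s)(Q) ≠ 0` (i.e. `x ∈ B_{𝔫_Q}`) ⟹
  `x(P) ∈ 𝔸` and `(red x)(Q) = x(P) mod 𝔪`.  [= the value half of `LS(Q)`; the hypothesis is the
  output of helper23's `(LOC)`.]
* `ttrp_exists_fixed_good` : every `Q` off the bad set of level `M` with `(red v)(Q) ≠ 0` is the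
  reduction of an INERTIA-FIXED good place, given the fibre statement `(B3)` (existence and
  uniqueness of the good place over a place of level `M` with good reduction).
-/

set_option autoImplicit false
set_option linter.unusedSectionVars false
set_option linter.unusedVariables false
set_option synthInstance.maxHeartbeats 400000

noncomputable section

namespace Fermat.Agent.TT

open ModularCurve AlgebraicCurve IsLocalRing Polynomial Fermat.Agent.S18 Fermat.Agent.S24
  Fermat.Agent.G Fermat.Agent.FF Fermat.Agent.S05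

local notation "Qb" => AlgebraicClosure ℚ

section Loc

variable {M p : ℕ} [NeZero M] [NeZero p] {ℓ : ℕ} [Fact ℓ.Prime]
variable {A : ValuationSubring Qb}
variable {υ : LaurentSeries ℤ}
variable {φ : modularFunctionFieldBar M →ₐ[Qb] modularFunctionFieldBar (M * p)}
variable {V : Subring (modularFunctionFieldBar (M * p))}
variable {red : ↥V →+* modularFunctionFieldFullC (ResidueField A) M}
variable {v : modularFunctionFieldBar (M * p)}

/-- VALUES OF LOCALLY INTEGRAL ELEMENTS at a good place. -/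
theorem ttrp_rel_loc (hℓM : ¬ ℓ ∣ M) (hA : A.LiesOverPrime ℓ) (hc : GrdChart M A υ)
    (hφ : φ.toRingHom.IsIntegral) (H : TtrpChart M p A φ hc.mem V red v)
    (P : Place Qb (modularFunctionFieldBar (M * p)))
    (hP : TtrpGoodC M p A (φ (grdQ M hc.mem)) v P)
    (Q : Place (ResidueField A) (modularFunctionFieldFullC (ResidueField A) M))
    (hQ : GrdRel M A (grdQ M hc.mem) (ttrpRes M p φ hφ P) Q)
    (x : modularFunctionFieldBar (M * p)) (hxV : x ∈ V)
    (s : modularFunctionFieldBar (M * p)) (hs : s ∈ grdB (M * p) A (φ (grdQ M hc.mem)))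
    (hsx : s * x ∈ grdB (M * p) A (φ (grdQ M hc.mem)))
    (hsQ : ¬ GrdVal Q (red ⟨s, H.int_mem hs⟩) 0) :
    ∃ a : A, GrdVal P x (a : Qb) ∧ GrdVal Q (red ⟨x, hxV⟩) (residue A a) := by
  obtain ⟨a1, ha1⟩ := ttrp_val_exists (M * p) A _ P hP.1 hsx
  obtain ⟨a2, ha2⟩ := ttrp_val_exists (M * p) A _ P hP.1 hs
  have h1 := ttrp_rel hℓM hA hc hφ H P hP Q hQ (s * x) hsx a1 ha1
  have h2 := ttrp_rel hℓM hA hc hφ H P hP Q hQ s hs a2 ha2
  have hres2 : residue A a2 ≠ 0 := by
    intro h0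
    rw [h0] at h2
    exact hsQ h2
  have hu2 : IsUnit a2 := by
    by_contra hnu
    exact hres2 ((residue_eq_zero_iff _).mpr ((mem_maximalIdeal _).mpr hnu))
  obtain ⟨w2, hw2⟩ := hu2
  set c : A := ((w2⁻¹ : Aˣ) : A) * a1 with hcdef
  have hmul : a2 * c = a1 := by
    rw [hcdef, ← hw2, ← mul_assoc, Units.mul_inv, one_mul]
  have ha20 : (a2 : Qb) ≠ 0 := by
    intro h0
    apply hres2
    have : a2 = 0 := Subtype.ext h0
    rw [this, map_zero]
  have hxP : GrdVal P x (c : Qb) := by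
    apply grda_val_of_mul P ha2 ha20
    have : (a2 : Qb) * (c : Qb) = (a1 : Qb) := by
      rw [← hmul]; rfl
    rw [this]
    exact ha1
  refine ⟨c, hxP, ?_⟩
  -- `red (s x) = red s * red x`
  have hprod : red ⟨s * x, H.int_mem hsx⟩ = red ⟨s, H.int_mem hs⟩ * red ⟨x, hxV⟩ := by
    rw [← map_mul]
    rfl
  rw [hprod] at h1
  have hres : residue A a1 = residue A a2 * residue A c := by
    rw [← map_mul, hmul]
  rw [hres] at h1
  exact grda_val_of_mul Q h2 hres2 h1

end Loc

section FixedLift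

variable (M p : ℕ) [NeZero M] [NeZero p] {ℓ : ℕ} [Fact ℓ.Prime]
variable {A : ValuationSubring Qb}
variable {τ τ' : LaurentSeries ℤ}

/-- INERTIA-FIXED GOOD LIFTS : given the fibre statement `(B3)` (`hfib`), every `Q` off the bad
set of level `M` with `(red v)(Q) ≠ 0` is the reduction of an inertia-fixed good place. -/
theorem ttrp_exists_fixed_good (hℓM : ¬ ℓ ∣ M) (hA : A.LiesOverPrime ℓ)
    (hat : GrdAtlas M A τ τ')
    (r : Place Qb (modularFunctionFieldBar M) →
      Place (ResidueField A) (modularFunctionFieldFullC (ResidueField A) M))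
    (hr : GrdIsRed M A hat.c.mem hat.c'.mem r)
    (S : Set (Qb ≃ₐ[ℚ] Qb)) (hS : ∀ σ ∈ S, IsInertial A σ)
    (hW : ∀ c : ResidueField A, ∃ α : A, residue A α = c ∧ ∀ σ ∈ S, σ (α : Qb) = α)
    (φ : modularFunctionFieldBar M →ₐ[Qb] modularFunctionFieldBar (M * p))
    (hφ : φ.toRingHom.IsIntegral)
    (hint : ∀ σ ∈ S,
      SemilinearAut.IntertwinesAlong φ.toRingHom (ffipG M σ) (ffipG (M * p) σ))
    (u v : modularFunctionFieldBar (M * p))
    (hu : ∀ σ ∈ S, ffipG (M * p) σ • u = u) (hv : ∀ σ ∈ S, ffipG (M * p) σ • v = v)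
    (good : Place (ResidueField A) (modularFunctionFieldFullC (ResidueField A) M) → Prop)
    (hfib : ∀ P₀ : Place Qb (modularFunctionFieldBar M), good (r P₀) →
      ∃ P : Place Qb (modularFunctionFieldBar (M * p)),
        TtrpGoodC M p A u v P ∧ ttrpRes M p φ hφ P = P₀ ∧
        ∀ P' : Place Qb (modularFunctionFieldBar (M * p)),
          TtrpGoodC M p A u v P' → ttrpRes M p φ hφ P' = P₀ → P' = P)
    (Q : Place (ResidueField A) (modularFunctionFieldFullC (ResidueField A) M))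
    (hQ : Q ∉ ffipBad M A hat) (hgood : good Q) :
    ∃ P : Place Qb (modularFunctionFieldBar (M * p)),
      P ∈ ttrpS M p A φ hφ r u v Q ∧ ∀ σ ∈ S, ffipG (M * p) σ • P = P := by
  obtain ⟨P₀, hP₀Q, hP₀fix⟩ := ffip_exists_fixed_lift M A hℓM hA hat r hr S hS hW Q hQ
  obtain ⟨P, hPg, hPP₀, huniq⟩ := hfib P₀ (by rw [hP₀Q]; exact hgood)
  refine ⟨P, ⟨hPg, ?_⟩, fun σ hσ => ?_⟩
  · unfold ttrpR
    rw [hPP₀, hP₀Q]
  · exact ttrp_fixed_of_unique M p (hS σ hσ) φ hφ (hint σ hσ) u v (hu σ hσ) (hv σ hσ) P₀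
      (hP₀fix σ hσ) P hPg hPP₀ huniq

end FixedLift

end Fermat.Agent.TT
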