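import Mathlib
import Fermat.Agent.TT.Red2.GoodLift
import Fermat.Agent.FF.IntInst.Gal

/-!
# PROGRAM TT (S33), G/Red₂ LAYER B (owner helper6, prefix `ttrp`) : THE CLASS MAP `cls`

The fields `cls`, `cls_smul`, `lift₁`, `lift₂`, `val₁`, `val₂` of helper24's `TtgModel`
(`TT/Geom/Spec.lean`), at `F = F_ℚ̄(M p)`, `ρ = ffigRho (M p) 𝔸`.

`ttrpCls M p A r u₁ v₁ u₂ v₂ P` :
* `some (inl (r (P ∘ α)))` if `P` is a good place of the first kind (`u₁(P) ∈ 𝔸`, `v₁(P) ∉ 𝔪`);
* `some (inr (r (P ∘ β)))` if it is good of the second kind (`u₂(P) ∈ 𝔸`, `v₂(P) ∉ 𝔪`);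
* `none` otherwise (cusps, nodes, one-branch ordinary `𝔽_{p²}`-points).

At the instance `u₁ = α τ_ℚ̄`, `v₁ = Y^p - J`, `u₂ = β τ_ℚ̄`, `v₂ = J^p - Y`.
-/

set_option autoImplicit false
set_option linter.unusedSectionVars false
set_option linter.unusedVariables false
set_option synthInstance.maxHeartbeats 400000

noncomputable section

namespace Fermat.Agent.TT

open ModularCurve AlgebraicCurve IsLocalRing Polynomial Fermat.Agent.S18 Fermat.Agent.S24
  Fermat.Agent.G Fermat.Agent.FF Fermat.Agent.S05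

local notation "Qb" => AlgebraicClosure ℚ

section Def

variable (M p : ℕ) [NeZero M] [NeZero p]
variable (A : ValuationSubring Qb)

open Classical in
/-- **THE CLASS MAP.** -/
def ttrpCls
    (r : Place Qb (modularFunctionFieldBar M) →
      Place (ResidueField A) (modularFunctionFieldFullC (ResidueField A) M))
    (u₁ v₁ u₂ v₂ : modularFunctionFieldBar (M * p))
    (P : Place Qb (modularFunctionFieldBar (M * p))) :
    Option (Place (ResidueField A) (modularFunctionFieldFullC (ResidueField A) M) ⊕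
      Place (ResidueField A) (modularFunctionFieldFullC (ResidueField A) M)) :=
  if TtrpGoodC M p A u₁ v₁ P then
    some (Sum.inl (ttrpR M p A (heckeAlphaBar Qb M p) (gff_alpha_integral M p) r P))
  else if TtrpGoodC M p A u₂ v₂ P then
    some (Sum.inr (ttrpR M p A (heckeBetaBar Qb M p) (gff_beta_integral M p) r P))
  else none

variable {M p A}
variable {r : Place Qb (modularFunctionFieldBar M) →
  Place (ResidueField A) (modularFunctionFieldFullC (ResidueField A) M)}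
variable {u₁ v₁ u₂ v₂ : modularFunctionFieldBar (M * p)}
variable {P : Place Qb (modularFunctionFieldBar (M * p))}
variable {Q : Place (ResidueField A) (modularFunctionFieldFullC (ResidueField A) M)}

/-- `cls P = some (inl Q)` iff `P` lies in the good disc of the first kind over `Q`. -/
theorem ttrp_cls_inl_iff :
    ttrpCls M p A r u₁ v₁ u₂ v₂ P = some (Sum.inl Q) ↔
      P ∈ ttrpS M p A (heckeAlphaBar Qb M p) (gff_alpha_integral M p) r u₁ v₁ Q := by
  unfold ttrpCls ttrpS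
  simp only [Set.mem_ofPred_eq]
  split_ifs with h1 h2
  · simp [h1]
  · simp [h1]
  · simp [h1]

/-- `cls P = some (inr Q)` iff `P` is not good of the first kind and lies in the good disc of the
second kind over `Q`. -/
theorem ttrp_cls_inr_iff' :
    ttrpCls M p A r u₁ v₁ u₂ v₂ P = some (Sum.inr Q) ↔
      ¬ TtrpGoodC M p A u₁ v₁ P ∧
        P ∈ ttrpS M p A (heckeBetaBar Qb M p) (gff_beta_integral M p) r u₂ v₂ Q := by
  unfold ttrpCls ttrpS
  simp only [Set.mem_ofPred_eq]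
  split_ifs with h1 h2
  · simp [h1]
  · simp [h1, h2]
  · simp [h1, h2]

/-- with DISJOINTNESS of the two good loci : `cls P = some (inr Q)` iff `P` lies in the good disc
of the second kind over `Q`. -/
theorem ttrp_cls_inr_iff
    (hdisj : ∀ P : Place Qb (modularFunctionFieldBar (M * p)),
      TtrpGoodC M p A u₁ v₁ P → TtrpGoodC M p A u₂ v₂ P → False) :
    ttrpCls M p A r u₁ v₁ u₂ v₂ P = some (Sum.inr Q) ↔
      P ∈ ttrpS M p A (heckeBetaBar Qb M p) (gff_beta_integral M p) r u₂ v₂ Q := by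
  rw [ttrp_cls_inr_iff']
  constructor
  · exact fun h => h.2
  · exact fun h => ⟨fun h1 => hdisj P h1 h.1, h⟩

/-- `cls P = none` iff `P` is good of neither kind. -/
theorem ttrp_cls_none_iff :
    ttrpCls M p A r u₁ v₁ u₂ v₂ P = none ↔
      ¬ TtrpGoodC M p A u₁ v₁ P ∧ ¬ TtrpGoodC M p A u₂ v₂ P := by
  unfold ttrpCls
  split_ifs with h1 h2
  · simp [h1]
  · simp [h1, h2]
  · simp [h1, h2]

/-- `cls P ≠ none` iff `P` is good of one of the two kinds. -/
theorem ttrp_cls_ne_none_iff :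
    ttrpCls M p A r u₁ v₁ u₂ v₂ P ≠ none ↔
      TtrpGoodC M p A u₁ v₁ P ∨ TtrpGoodC M p A u₂ v₂ P := by
  rw [Ne, ttrp_cls_none_iff]
  tauto

end Def

section Smul

variable (M p : ℕ) [NeZero M] [NeZero p] {ℓ : ℕ} [Fact ℓ.Prime]
variable {A : ValuationSubring Qb}
variable {τ τ' : LaurentSeries ℤ}
variable {σ : Qb ≃ₐ[ℚ] Qb}

/-- inertia preserves the good locus of a chart, both directions. -/
theorem ttrp_goodC_smul_iff (hσ : IsInertial A σ) (u v : modularFunctionFieldBar (M * p))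
    (hu : ffipG (M * p) σ • u = u) (hv : ffipG (M * p) σ • v = v)
    (P : Place Qb (modularFunctionFieldBar (M * p))) :
    TtrpGoodC M p A u v (ffipG (M * p) σ • P) ↔ TtrpGoodC M p A u v P := by
  constructor
  · intro h
    have hu' : ffipG (M * p) σ⁻¹ • u = u := by
      conv_lhs => rw [← hu]
      exact ffipG_inv_smul (M * p) σ u
    have hv' : ffipG (M * p) σ⁻¹ • v = v := by
      conv_lhs => rw [← hv]
      exact ffipG_inv_smul (M * p) σ v
    have h1 := ttrp_goodC_smul M p (ffip_inertial_inv hσ) u v hu' hv' _ h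
    rwa [ffipG_inv_smul_place] at h1
  · exact ttrp_goodC_smul M p hσ u v hu hv P

/-- **THE CLASS MAP IS INERTIA-INVARIANT** (one inertial `σ`). -/
theorem ttrp_cls_smul_aux (hℓM : ¬ ℓ ∣ M) (hA : A.LiesOverPrime ℓ) (hat : GrdAtlas M A τ τ')
    (r : Place Qb (modularFunctionFieldBar M) →
      Place (ResidueField A) (modularFunctionFieldFullC (ResidueField A) M))
    (hr : GrdIsRed M A hat.c.mem hat.c'.mem r) (hσ : IsInertial A σ)
    (u₁ v₁ u₂ v₂ : modularFunctionFieldBar (M * p))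
    (hu₁ : ffipG (M * p) σ • u₁ = u₁) (hv₁ : ffipG (M * p) σ • v₁ = v₁)
    (hu₂ : ffipG (M * p) σ • u₂ = u₂) (hv₂ : ffipG (M * p) σ • v₂ = v₂)
    (P : Place Qb (modularFunctionFieldBar (M * p))) :
    ttrpCls M p A r u₁ v₁ u₂ v₂ (ffipG (M * p) σ • P) = ttrpCls M p A r u₁ v₁ u₂ v₂ P := by
  have e1 := ttrp_r_smul M p hℓM hA hat r hr hσ (heckeAlphaBar Qb M p) (gff_alpha_integral M p)
    (gasmhg_alpha_intertwines M p σ) P
  have e2 := ttrp_r_smul M p hℓM hA hat r hr hσ (heckeBetaBar Qb M p) (gff_beta_integral M p)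
    (gasmhg_beta_intertwines M p σ) P
  have e3 := ttrp_goodC_smul_iff M p hσ u₁ v₁ hu₁ hv₁ P
  have e4 := ttrp_goodC_smul_iff M p hσ u₂ v₂ hu₂ hv₂ P
  unfold ttrpCls
  rw [e1, e2]
  by_cases h1 : TtrpGoodC M p A u₁ v₁ P
  · rw [if_pos h1, if_pos (e3.mpr h1)]
  · rw [if_neg h1, if_neg (mt e3.mp h1)]
    by_cases h2 : TtrpGoodC M p A u₂ v₂ P
    · rw [if_pos h2, if_pos (e4.mpr h2)]
    · rw [if_neg h2, if_neg (mt e4.mp h2)]

/-- **field `cls_smul` of `TtgModel`, VERBATIM** (`ρ = ffigRho (M p) 𝔸`). -/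
theorem ttrp_cls_smul (hℓM : ¬ ℓ ∣ M) (hA : A.LiesOverPrime ℓ) (hat : GrdAtlas M A τ τ')
    (r : Place Qb (modularFunctionFieldBar M) →
      Place (ResidueField A) (modularFunctionFieldFullC (ResidueField A) M))
    (hr : GrdIsRed M A hat.c.mem hat.c'.mem r)
    (u₁ v₁ u₂ v₂ : modularFunctionFieldBar (M * p))
    (hu₁ : ∀ σ ∈ A.inertiaSubgroupIn ℚ, ffipG (M * p) σ • u₁ = u₁)
    (hv₁ : ∀ σ ∈ A.inertiaSubgroupIn ℚ, ffipG (M * p) σ • v₁ = v₁)
    (hu₂ : ∀ σ ∈ A.inertiaSubgroupIn ℚ, ffipG (M * p) σ • u₂ = u₂)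
    (hv₂ : ∀ σ ∈ A.inertiaSubgroupIn ℚ, ffipG (M * p) σ • v₂ = v₂) :
    ∀ (σ : ↥(A.inertiaSubgroupIn ℚ)) (P : Place Qb (modularFunctionFieldBar (M * p))),
      ttrpCls M p A r u₁ v₁ u₂ v₂ (ffigRho (M * p) A σ • P) =
        ttrpCls M p A r u₁ v₁ u₂ v₂ P := fun σ P =>
  ttrp_cls_smul_aux M p hℓM hA hat r hr (isInertial_of_mem_inertiaSubgroupIn A σ.1 σ.2)
    u₁ v₁ u₂ v₂ (hu₁ σ.1 σ.2) (hv₁ σ.1 σ.2) (hu₂ σ.1 σ.2) (hv₂ σ.1 σ.2) P

end Smul

section Fields

variable {M p : ℕ} [NeZero M] [NeZero p] {ℓ : ℕ} [Fact ℓ.Prime]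
variable {A : ValuationSubring Qb}
variable {τ τ' : LaurentSeries ℤ}
variable {r : Place Qb (modularFunctionFieldBar M) →
  Place (ResidueField A) (modularFunctionFieldFullC (ResidueField A) M)}
variable {u₁ v₁ u₂ v₂ : modularFunctionFieldBar (M * p)}

/-- **field `lift₁` of `TtgModel`, VERBATIM**, from inertia-fixed places in the good discs of the
first kind (`ttrp_exists_fixed_good_kron` / helper10's `ttrla_fixed`). -/
theorem ttrp_cls_lift₁
    (T₁ : Finset (Place (ResidueField A) (modularFunctionFieldFullC (ResidueField A) M)))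
    (hlift : ∀ Q : Place (ResidueField A) (modularFunctionFieldFullC (ResidueField A) M),
      Q ∉ T₁ → ∃ P : Place Qb (modularFunctionFieldBar (M * p)),
        P ∈ ttrpS M p A (heckeAlphaBar Qb M p) (gff_alpha_integral M p) r u₁ v₁ Q ∧
          ∀ σ : ↥(A.inertiaSubgroupIn ℚ), ffigRho (M * p) A σ • P = P) :
    ∀ Q : Place (ResidueField A) (modularFunctionFieldFullC (ResidueField A) M), Q ∉ T₁ →
      ∃ P : Place Qb (modularFunctionFieldBar (M * p)),
        ttrpCls M p A r u₁ v₁ u₂ v₂ P = some (Sum.inl Q) ∧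
          ∀ σ : ↥(A.inertiaSubgroupIn ℚ), ffigRho (M * p) A σ • P = P := by
  intro Q hQ
  obtain ⟨P, hP, hfix⟩ := hlift Q hQ
  exact ⟨P, ttrp_cls_inl_iff.mpr hP, hfix⟩

/-- **field `lift₂` of `TtgModel`, VERBATIM**. -/
theorem ttrp_cls_lift₂
    (hdisj : ∀ P : Place Qb (modularFunctionFieldBar (M * p)),
      TtrpGoodC M p A u₁ v₁ P → TtrpGoodC M p A u₂ v₂ P → False)
    (T₂ : Finset (Place (ResidueField A) (modularFunctionFieldFullC (ResidueField A) M)))
    (hlift : ∀ Q : Place (ResidueField A) (modularFunctionFieldFullC (ResidueField A) M),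
      Q ∉ T₂ → ∃ P : Place Qb (modularFunctionFieldBar (M * p)),
        P ∈ ttrpS M p A (heckeBetaBar Qb M p) (gff_beta_integral M p) r u₂ v₂ Q ∧
          ∀ σ : ↥(A.inertiaSubgroupIn ℚ), ffigRho (M * p) A σ • P = P) :
    ∀ Q : Place (ResidueField A) (modularFunctionFieldFullC (ResidueField A) M), Q ∉ T₂ →
      ∃ P : Place Qb (modularFunctionFieldBar (M * p)),
        ttrpCls M p A r u₁ v₁ u₂ v₂ P = some (Sum.inr Q) ∧
          ∀ σ : ↥(A.inertiaSubgroupIn ℚ), ffigRho (M * p) A σ • P = P := by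
  intro Q hQ
  obtain ⟨P, hP, hfix⟩ := hlift Q hQ
  exact ⟨P, (ttrp_cls_inr_iff hdisj).mpr hP, hfix⟩

/-- **field `val₁` of `TtgModel`, VERBATIM**, from the chart package `H₁` of the first kind and
(LOC) on the good discs of the first kind. -/
theorem ttrp_cls_val₁ (hℓM : ¬ ℓ ∣ M) (hA : A.LiesOverPrime ℓ) (hat : GrdAtlas M A τ τ')
    (hr : GrdIsRed M A hat.c.mem hat.c'.mem r)
    (V₁ V₂ : ValuationSubring (modularFunctionFieldBar (M * p)))
    (red₁ : ↥V₁ →+* modularFunctionFieldFullC (ResidueField A) M)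
    (H₁ : TtrpChart M p A (heckeAlphaBar Qb M p) hat.c.mem V₁.toSubring red₁ v₁)
    (hloc : ∀ (Q : Place (ResidueField A) (modularFunctionFieldFullC (ResidueField A) M))
      (x : modularFunctionFieldBar (M * p)), x ∈ V₁ → x ∈ V₂ →
      (ttrpS M p A (heckeAlphaBar Qb M p) (gff_alpha_integral M p) r
        (heckeAlphaBar Qb M p (grdQ M hat.c.mem)) v₁ Q).Nonempty →
      (∀ P' ∈ ttrpS M p A (heckeAlphaBar Qb M p) (gff_alpha_integral M p) r
        (heckeAlphaBar Qb M p (grdQ M hat.c.mem)) v₁ Q, 0 ≤ P'.ord x) →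
      ∃ (s : modularFunctionFieldBar (M * p))
        (hs : s ∈ grdB (M * p) A (heckeAlphaBar Qb M p (grdQ M hat.c.mem))),
        s * x ∈ grdB (M * p) A (heckeAlphaBar Qb M p (grdQ M hat.c.mem)) ∧
          ¬ GrdVal Q (red₁ ⟨s, H₁.int_mem hs⟩) 0) :
    ∀ (P : Place Qb (modularFunctionFieldBar (M * p)))
      (Q : Place (ResidueField A) (modularFunctionFieldFullC (ResidueField A) M)),
      ttrpCls M p A r (heckeAlphaBar Qb M p (grdQ M hat.c.mem)) v₁ u₂ v₂ P = some (Sum.inl Q) →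
      ∀ (x : modularFunctionFieldBar (M * p)) (h₁ : x ∈ V₁) (h₂ : x ∈ V₂),
        (∀ P' : Place Qb (modularFunctionFieldBar (M * p)),
          ttrpCls M p A r (heckeAlphaBar Qb M p (grdQ M hat.c.mem)) v₁ u₂ v₂ P' =
            some (Sum.inl Q) → 0 ≤ P'.ord x) →
        ∃ α : A, GrdVal P x (α : Qb) ∧ GrdVal Q (red₁ ⟨x, h₁⟩) (residue A α) := by
  intro P Q hP x h₁ h₂ hx
  have hP' := ttrp_cls_inl_iff.mp hP
  obtain ⟨s, hs, hsx, hsQ⟩ := hloc Q x h₁ h₂ ⟨P, hP'⟩
    (fun P' hP'' => hx P' (ttrp_cls_inl_iff.mpr hP''))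
  have hrel : GrdRel M A (grdQ M hat.c.mem)
      (ttrpRes M p (heckeAlphaBar Qb M p) (gff_alpha_integral M p) P) Q := by
    have h := (grd_isRed_rel M A hℓM hA hat r hr
      (ttrpRes M p (heckeAlphaBar Qb M p) (gff_alpha_integral M p) P)).1
      ((ttrp_inChart_res (gff_alpha_integral M p) _ P).mpr hP'.1.1)
    have hQ : r (ttrpRes M p (heckeAlphaBar Qb M p) (gff_alpha_integral M p) P) = Q := hP'.2
    rwa [hQ] at h
  exact ttrp_rel_loc hℓM hA hat.c (gff_alpha_integral M p) H₁ P hP'.1 Q hrel x h₁ s hs hsx hsQ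

/-- **field `val₂` of `TtgModel`, VERBATIM**. -/
theorem ttrp_cls_val₂ (hℓM : ¬ ℓ ∣ M) (hA : A.LiesOverPrime ℓ) (hat : GrdAtlas M A τ τ')
    (hr : GrdIsRed M A hat.c.mem hat.c'.mem r)
    (V₁ V₂ : ValuationSubring (modularFunctionFieldBar (M * p)))
    (red₂ : ↥V₂ →+* modularFunctionFieldFullC (ResidueField A) M)
    (H₂ : TtrpChart M p A (heckeBetaBar Qb M p) hat.c.mem V₂.toSubring red₂ v₂)
    (hdisj : ∀ P : Place Qb (modularFunctionFieldBar (M * p)),
      TtrpGoodC M p A u₁ v₁ P →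
        TtrpGoodC M p A (heckeBetaBar Qb M p (grdQ M hat.c.mem)) v₂ P → False)
    (hloc : ∀ (Q : Place (ResidueField A) (modularFunctionFieldFullC (ResidueField A) M))
      (x : modularFunctionFieldBar (M * p)), x ∈ V₁ → x ∈ V₂ →
      (ttrpS M p A (heckeBetaBar Qb M p) (gff_beta_integral M p) r
        (heckeBetaBar Qb M p (grdQ M hat.c.mem)) v₂ Q).Nonempty →
      (∀ P' ∈ ttrpS M p A (heckeBetaBar Qb M p) (gff_beta_integral M p) r
        (heckeBetaBar Qb M p (grdQ M hat.c.mem)) v₂ Q, 0 ≤ P'.ord x) →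
      ∃ (s : modularFunctionFieldBar (M * p))
        (hs : s ∈ grdB (M * p) A (heckeBetaBar Qb M p (grdQ M hat.c.mem))),
        s * x ∈ grdB (M * p) A (heckeBetaBar Qb M p (grdQ M hat.c.mem)) ∧
          ¬ GrdVal Q (red₂ ⟨s, H₂.int_mem hs⟩) 0) :
    ∀ (P : Place Qb (modularFunctionFieldBar (M * p)))
      (Q : Place (ResidueField A) (modularFunctionFieldFullC (ResidueField A) M)),
      ttrpCls M p A r u₁ v₁ (heckeBetaBar Qb M p (grdQ M hat.c.mem)) v₂ P = some (Sum.inr Q) →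
      ∀ (x : modularFunctionFieldBar (M * p)) (h₁ : x ∈ V₁) (h₂ : x ∈ V₂),
        (∀ P' : Place Qb (modularFunctionFieldBar (M * p)),
          ttrpCls M p A r u₁ v₁ (heckeBetaBar Qb M p (grdQ M hat.c.mem)) v₂ P' =
            some (Sum.inr Q) → 0 ≤ P'.ord x) →
        ∃ α : A, GrdVal P x (α : Qb) ∧ GrdVal Q (red₂ ⟨x, h₂⟩) (residue A α) := by
  intro P Q hP x h₁ h₂ hx
  have hP' := (ttrp_cls_inr_iff hdisj).mp hP
  obtain ⟨s, hs, hsx, hsQ⟩ := hloc Q x h₁ h₂ ⟨P, hP'⟩
    (fun P' hP'' => hx P' ((ttrp_cls_inr_iff hdisj).mpr hP''))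
  have hrel : GrdRel M A (grdQ M hat.c.mem)
      (ttrpRes M p (heckeBetaBar Qb M p) (gff_beta_integral M p) P) Q := by
    have h := (grd_isRed_rel M A hℓM hA hat r hr
      (ttrpRes M p (heckeBetaBar Qb M p) (gff_beta_integral M p) P)).1
      ((ttrp_inChart_res (gff_beta_integral M p) _ P).mpr hP'.1.1)
    have hQ : r (ttrpRes M p (heckeBetaBar Qb M p) (gff_beta_integral M p) P) = Q := hP'.2
    rwa [hQ] at h
  exact ttrp_rel_loc hℓM hA hat.c (gff_beta_integral M p) H₂ P hP'.1 Q hrel x h₂ s hs hsx hsQ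

end Fields

section Disj

variable {M p : ℕ} [NeZero M] [NeZero p]
variable {A : ValuationSubring Qb}
variable {υ : LaurentSeries ℤ}
variable {φ : modularFunctionFieldBar M →ₐ[Qb] modularFunctionFieldBar (M * p)}
variable {V : Subring (modularFunctionFieldBar (M * p))}
variable {red : ↥V →+* modularFunctionFieldFullC (ResidueField A) M}
variable {v : modularFunctionFieldBar (M * p)}

/-- **DISJOINTNESS of the two good loci** : if `v'` lies in the chart ring of the kind `φ` and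
`red v' = 0`, a good place of the kind `φ` is not good for `(u', v')`. -/
theorem ttrp_disj {hυ : GrdSerMem M υ} (H : TtrpChart M p A φ hυ V red v)
    (u' v' : modularFunctionFieldBar (M * p))
    (hv' : v' ∈ grdB (M * p) A (φ (grdQ M hυ))) (hred : red ⟨v', H.int_mem hv'⟩ = 0)
    (P : Place Qb (modularFunctionFieldBar (M * p)))
    (h1 : TtrpGoodC M p A (φ (grdQ M hυ)) v P) (h2 : TtrpGoodC M p A u' v' P) : False := by
  obtain ⟨a, ha⟩ := ttrp_val_exists (M * p) A _ P h1.1 hv'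
  have hm := ttrp_ker_val H P h1 v' hv' hred a ha
  exact h2.2 ⟨(a : Qb), A.mem_nonunits_iff_exists_mem_maximalIdeal.mpr ⟨a.2, hm⟩, ha⟩

/-- chart membership only depends on the chart ring. -/
theorem ttrp_inChart_of_int (N : ℕ) [NeZero N] (u u' : modularFunctionFieldBar N)
    (hu' : u' ∈ grdB N A u) (P : Place Qb (modularFunctionFieldBar N))
    (hP : GrdInChart N A u P) : GrdInChart N A u' P :=
  ttrp_val_exists N A u P hP hu'

/-- GOODNESS ONLY DEPENDS ON THE CENTRE : if the centre of `P` on the chart ring `B(u)` is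
contained in the centre of `P'` (both in the chart), and `P'` is good, then `P` is good. -/
theorem ttrp_goodC_of_centre (u v : modularFunctionFieldBar (M * p))
    (hv : v ∈ grdB (M * p) A u) (P P' : Place Qb (modularFunctionFieldBar (M * p)))
    (hP : GrdInChart (M * p) A u P)
    (hcen : ∀ b ∈ grdB (M * p) A u, (∃ a : Qb, a ∈ A.nonunits ∧ GrdVal P b a) →
      ∃ a : Qb, a ∈ A.nonunits ∧ GrdVal P' b a)
    (hP' : TtrpGoodC M p A u v P') : TtrpGoodC M p A u v P :=
  ⟨hP, fun h => hP'.2 (hcen v hv h)⟩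

end Disj

end Fermat.Agent.TT
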