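import Mathlib
import Fermat.Agent.TT.Red2.Inst
import Fermat.Agent.TT.B2.Prod
import Fermat.Agent.FF.IntInst.Red

/-!
# Program TT (S33), G/Red₂ Layer A : the PACKAGING (A3) + (A4) + (A5)

Owner: helper27 (PM ruling R28).  Namespace `Fermat.Agent.TT`, prefix `ttrvp`.

On top of helper12's Layer A (`TT/Red2/{AL,Gauss1,V1,Inst}.lean` : `ttrW`, `ttr_normal'`,
`ttr_red_eq_zero_iff`, `ttrRed1`, `ttrV2`, `ttrRed2`, `ttrO2`, `ttrRed`) and helper26's abstract
reduction axioms (`TT/B2/{Lattice,Prod}.lean` : `TtbRed`, `ttb_of_ffir`, `ttb_red_prod`):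

* `ttrvp_ffir0` : `FfirRed A (grdO (M p) A) (grdRed (M p) A)` (values in `F_k(M p)`);
* `ttrvp_ffir1` : `FfirRed A (grdO (M p) A) (ttrRed1 M A hA)` (values in `F_k(M)`);
* `ttrvp_tb1`   : `TtbRed A (grdO (M p) A) (ttrRed1 M A hA)`;
* `ttrvp_tb_comap` (ABSTRACT) : the reduction axioms transport along an automorphism `w` of `F`
  fixing the constants : `TtbRed A V₁ red₁ → TtbRed A (ttrhV2 V₁ w) (ttrhRed2 V₁ w red₁)`;
* `ttrvp_tb2`   : `TtbRed A (ttrV2 M A hpM) (ttrRed2 M A hpM hA)`;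
* `ttrvp_tb`    : **`TtbRed A (ttrO2 M A hpM) (ttrRed M A hpM hA)`** (= (A5): the kernel of
  `red = (red₁, red₂)` on `O₂ = V₁ ∩ V₂` is `𝔪_A O₂`, every function scales into `O₂` with nonzero
  reduction);
* (A3) `ttrvp_const_mem_V1_iff`, `ttrvp_const_mem_V2_iff`, `ttrvp_const_mem_O2_iff` :
  `V_j ∩ ℚ̄ = O₂ ∩ ℚ̄ = A`;
* `ttrvp_red_const` : `red (c) = (c̄, c̄)`.
-/

set_option autoImplicit false
set_option linter.unusedSectionVars false
set_option linter.unusedVariables false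
set_option linter.style.haveILetI false
set_option synthInstance.maxHeartbeats 400000

noncomputable section

namespace Fermat.Agent.TT

open ModularCurve AlgebraicCurve IsLocalRing Fermat.Agent.G Fermat.Agent.S18 Fermat.Agent.FF

local notation "Qb" => AlgebraicClosure ℚ

/-! ### The abstract transport along `w` -/

section Abs

variable {K : Type*} [Field K] {A : ValuationSubring K} {F : Type*} [Field F] [Algebra K F]
variable {R₁ : Type*} [CommRing R₁] [Algebra (ResidueField A) R₁]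

/-- **the reduction axioms transport along an automorphism fixing the constants** :
`(V₂, red₂) = (w⁻¹ V₁, red₁ ∘ w)`. -/
theorem ttrvp_tb_comap {V₁ : Subring F} {red₁ : ↥V₁ →+* R₁} (w : F ≃+* F)
    (hw : ∀ c : K, w (algebraMap K F c) = algebraMap K F c) (h : TtbRed A V₁ red₁) :
    TtbRed A (ttrhV2 V₁ w) (ttrhRed2 V₁ w red₁) where
  const_mem := fun a => by
    rw [ttrh_mem_V2, hw]
    exact h.const_mem a
  red_const := fun a => by
    rw [ttrhRed2_apply, ← h.red_const a]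
    congr 1
    exact Subtype.ext (hw _)
  ker := fun x hx => by
    rw [ttrhRed2_apply] at hx
    obtain ⟨π, hπ, y, hy⟩ := h.ker _ hx
    have hy' : w (x : F) = algebraMap K F (π : K) * (y : F) := hy
    have hws : ∀ c : K, w.symm (algebraMap K F c) = algebraMap K F c := fun c => by
      rw [RingEquiv.symm_apply_eq, hw]
    refine ⟨π, hπ, ⟨w.symm (y : F), ?_⟩, ?_⟩
    · rw [ttrh_mem_V2, RingEquiv.apply_symm_apply]
      exact y.2
    · show (x : F) = algebraMap K F (π : K) * w.symm (y : F)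
      rw [← hws (π : K), ← map_mul, ← hy', RingEquiv.symm_apply_apply]
  scale := fun f hf => by
    have hwf : w f ≠ 0 := fun h0 => hf ((map_eq_zero_iff w w.injective).mp h0)
    obtain ⟨c, hc, hm, hr⟩ := h.scale (w f) hwf
    have e : w (algebraMap K F c * f) = algebraMap K F c * w f := by rw [map_mul, hw]
    have hm' : algebraMap K F c * f ∈ ttrhV2 V₁ w := by
      rw [ttrh_mem_V2, e]
      exact hm
    refine ⟨c, hc, hm', ?_⟩
    rw [ttrhRed2_apply]
    intro h0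
    apply hr
    rw [← h0]
    congr 1
    exact Subtype.ext e.symm

/-- the pair `(red₁, red₁ ∘ w)` on `V₁ ∩ w⁻¹ V₁` satisfies the reduction axioms. -/
theorem ttrvp_tb_O2 {V₁ : Subring F} {red₁ : ↥V₁ →+* R₁} (w : F ≃+* F)
    (hw : ∀ c : K, w (algebraMap K F c) = algebraMap K F c) (h : TtbRed A V₁ red₁) :
    TtbRed A (ttrhO2 V₁ w) (ttrhRed V₁ w red₁) :=
  ttb_red_prod h (ttrvp_tb_comap w hw h)

end Abs

/-! ### The instance at level `M p` -/

section Inst

variable (M : ℕ) [NeZero M] {p : ℕ} [Fact p.Prime] [NeZero p]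
variable (A : ValuationSubring Qb)

/-- (A1)+(A3)+(A4) for `(V₁, grdRed)` with values in `F_k(M p)`. -/
theorem ttrvp_ffir0 (hpM : ¬ p ∣ M) (hA : A.LiesOverPrime p) :
    FfirRed A (grdO (M * p) A) (grdRed (M * p) A) where
  const_mem := ffie_const_mem (M * p) A
  red_const := ffie_red_const (M * p) A
  ker := fun x hx => by
    obtain ⟨π, x', hπ, hxx⟩ := (ttr_red_eq_zero_iff M A hpM hA x).mp hx
    exact ⟨π, hπ, x', hxx⟩
  scale := fun f hf => by
    obtain ⟨c, u₁, u₂, h₁, h₂, hc, hs₁, hs₂, hfu⟩ := ttr_normal' M A hpM hA f hf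
    have hx : (algebraMap Qb (modularFunctionFieldBar (M * p)) c⁻¹ * f) * h₂.gen = h₁.gen := by
      rw [mul_assoc, hfu, ← mul_assoc, ← map_mul, inv_mul_cancel₀ hc, map_one, one_mul]
    refine ⟨c⁻¹, inv_ne_zero hc, ffie_quot_mem (M * p) A h₁ h₂ hs₂ hx, ?_⟩
    rw [ffie_red_quot (M * p) A h₁ h₂ hs₂ hx]
    exact div_ne_zero hs₁ hs₂

/-- `F_k(M p) → F_k(M)` commutes with the constants. -/
theorem ttrvp_resEq_algebraMap (hA : A.LiesOverPrime p) (c : ResidueField A) :
    ttrResEq M A hA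
        (algebraMap (ResidueField A) ↥(modularFunctionFieldFullC (ResidueField A) (M * p)) c) =
      algebraMap (ResidueField A) ↥(modularFunctionFieldFullC (ResidueField A) M) c := by
  apply Subtype.ext
  rw [ttrResEq_coe, IntermediateField.coe_algebraMap_apply,
    IntermediateField.coe_algebraMap_apply]

/-- (A1)+(A3)+(A4) for `(V₁, red₁)`, `red₁` with values in `F_k(M)`. -/
theorem ttrvp_ffir1 (hpM : ¬ p ∣ M) (hA : A.LiesOverPrime p) :
    FfirRed A (grdO (M * p) A) (ttrRed1 M A hA) where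
  const_mem := ffie_const_mem (M * p) A
  red_const := fun a => by
    show ttrResEq M A hA (grdRed (M * p) A _) = _
    rw [ffie_red_const (M * p) A a, ttrvp_resEq_algebraMap]
  ker := fun x hx => by
    obtain ⟨π, x', hπ, hxx⟩ := (ttrRed1_eq_zero_iff M A hpM hA x).mp hx
    exact ⟨π, hπ, x', hxx⟩
  scale := fun f hf => by
    obtain ⟨c, hc, hm, hr⟩ := (ttrvp_ffir0 M A hpM hA).scale f hf
    exact ⟨c, hc, hm, fun h0 => hr ((ttrRed1_eq_zero_iff' M A hA _).mp h0)⟩

/-- **`TtbRed A V₁ red₁`**. -/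
theorem ttrvp_tb1 (hpM : ¬ p ∣ M) (hA : A.LiesOverPrime p) :
    TtbRed A (grdO (M * p) A) (ttrRed1 M A hA) :=
  ttb_of_ffir (ttrvp_ffir1 M A hpM hA)

/-- `w` fixes the constants (as a function on `F`). -/
theorem ttrvp_w_const (hpM : ¬ p ∣ M) (c : Qb) :
    ttrW M hpM (algebraMap Qb (modularFunctionFieldBar (M * p)) c) =
      algebraMap Qb (modularFunctionFieldBar (M * p)) c := ttrW_const M hpM c

/-- **`TtbRed A V₂ red₂`**. -/
theorem ttrvp_tb2 (hpM : ¬ p ∣ M) (hA : A.LiesOverPrime p) :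
    TtbRed A (ttrV2 M A hpM) (ttrRed2 M A hpM hA) :=
  ttrvp_tb_comap (ttrW M hpM) (ttrvp_w_const M hpM) (ttrvp_tb1 M A hpM hA)

/-- **(A5) `TtbRed A O₂ red`** : constants, `ker red = 𝔪_A O₂`, scaling, for
`red = (red₁, red₂) : O₂ = V₁ ∩ V₂ → F_k(M) × F_k(M)`. -/
theorem ttrvp_tb (hpM : ¬ p ∣ M) (hA : A.LiesOverPrime p) :
    TtbRed A (ttrO2 M A hpM) (ttrRed M A hpM hA) :=
  ttrvp_tb_O2 (ttrW M hpM) (ttrvp_w_const M hpM) (ttrvp_tb1 M A hpM hA)

/-! ### (A3) `V_j ∩ ℚ̄ = A` -/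

theorem ttrvp_const_mem_V1_iff (c : Qb) :
    algebraMap Qb (modularFunctionFieldBar (M * p)) c ∈ grdO (M * p) A ↔ c ∈ A :=
  grdO_algebraMap_mem_iff (M * p) A c

theorem ttrvp_const_mem_V2_iff (hpM : ¬ p ∣ M) (c : Qb) :
    algebraMap Qb (modularFunctionFieldBar (M * p)) c ∈ ttrV2 M A hpM ↔ c ∈ A := by
  rw [ttrh_mem_V2, ttrvp_w_const]
  exact grdO_algebraMap_mem_iff (M * p) A c

theorem ttrvp_const_mem_O2_iff (hpM : ¬ p ∣ M) (c : Qb) :
    algebraMap Qb (modularFunctionFieldBar (M * p)) c ∈ ttrO2 M A hpM ↔ c ∈ A := by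
  rw [ttrh_mem_O2, ttrvp_w_const]
  constructor
  · intro h
    exact (grdO_algebraMap_mem_iff (M * p) A c).mp h.1
  · intro h
    exact ⟨(grdO_algebraMap_mem_iff (M * p) A c).mpr h, (grdO_algebraMap_mem_iff (M * p) A c).mpr h⟩

/-- `red (a) = (ā, ā)`. -/
theorem ttrvp_red_const (hpM : ¬ p ∣ M) (hA : A.LiesOverPrime p) (a : A) :
    ttrRed M A hpM hA ⟨algebraMap Qb (modularFunctionFieldBar (M * p)) (a : Qb),
        (ttrvp_tb M A hpM hA).const_mem a⟩ =
      (algebraMap (ResidueField A) ↥(modularFunctionFieldFullC (ResidueField A) M) (residue A a),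
        algebraMap (ResidueField A) ↥(modularFunctionFieldFullC (ResidueField A) M)
          (residue A a)) :=
  (ttrvp_tb M A hpM hA).red_const a

/-- the kernel of `red` is `𝔪_A O₂` (iff form). -/
theorem ttrvp_red_eq_zero_iff (hpM : ¬ p ∣ M) (hA : A.LiesOverPrime p)
    (x : ↥(ttrO2 M A hpM)) :
    ttrRed M A hpM hA x = 0 ↔ ∃ (π : A) (y : ↥(ttrO2 M A hpM)), π ∈ maximalIdeal A ∧
      (x : modularFunctionFieldBar (M * p)) =
        algebraMap Qb (modularFunctionFieldBar (M * p)) (π : Qb) *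
          (y : modularFunctionFieldBar (M * p)) := by
  constructor
  · intro h0
    obtain ⟨π, hπ, y, hy⟩ := (ttrvp_tb M A hpM hA).ker x h0
    exact ⟨π, y, hπ, hy⟩
  · rintro ⟨π, y, hπ, hy⟩
    have hx : x = ⟨algebraMap Qb (modularFunctionFieldBar (M * p)) (π : Qb),
        (ttrvp_tb M A hpM hA).const_mem π⟩ * y := Subtype.ext hy
    rw [hx, map_mul, (ttrvp_tb M A hpM hA).red_const π,
      (residue_eq_zero_iff π).mpr hπ, map_zero, zero_mul]

/-! ### The shape of the field `toRed` of the abstract two-valuation model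

`V₁ := ttrV1 M A hpM hA` (helper12), `V₂ := ttrvpV2 M A hpM hA := V₁.comap w` as VALUATION SUBRINGS,
`red₁ := ttrRed1`, `red₂ := ttrRed2`; the conclusion of `ttrvp_toRed` is the field `toRed` of
helper24's `TtgModel` (`ttgRed red₁ red₂` unfolds to the `ttbProdRed` below). -/

/-- `V₂ = w⁻¹ V₁` as a valuation subring. -/
def ttrvpV2 (hpM : ¬ p ∣ M) (hA : A.LiesOverPrime p) :
    ValuationSubring (modularFunctionFieldBar (M * p)) :=
  (ttrV1 M A hpM hA).comap
    (ttrW M hpM : modularFunctionFieldBar (M * p) →+* modularFunctionFieldBar (M * p))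

theorem ttrvp_mem_V2 (hpM : ¬ p ∣ M) (hA : A.LiesOverPrime p)
    (x : modularFunctionFieldBar (M * p)) :
    x ∈ ttrvpV2 M A hpM hA ↔ ttrW M hpM x ∈ grdO (M * p) A := Iff.rfl

theorem ttrvp_V1_toSubring (hpM : ¬ p ∣ M) (hA : A.LiesOverPrime p) :
    (ttrV1 M A hpM hA).toSubring = grdO (M * p) A := rfl

theorem ttrvp_V2_toSubring (hpM : ¬ p ∣ M) (hA : A.LiesOverPrime p) :
    (ttrvpV2 M A hpM hA).toSubring = ttrV2 M A hpM := rfl

/-- `TtbRed` for `V₁` as a valuation subring. -/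
theorem ttrvp_tb1' (hpM : ¬ p ∣ M) (hA : A.LiesOverPrime p) :
    TtbRed A (ttrV1 M A hpM hA).toSubring (ttrRed1 M A hA) :=
  ttrvp_tb1 M A hpM hA

/-- `TtbRed` for `V₂` as a valuation subring. -/
theorem ttrvp_tb2' (hpM : ¬ p ∣ M) (hA : A.LiesOverPrime p) :
    TtbRed A (ttrvpV2 M A hpM hA).toSubring (ttrRed2 M A hpM hA) :=
  ttrvp_tb2 M A hpM hA

/-- **the field `toRed`** of the two-valuation model at level `M p`. -/
theorem ttrvp_toRed (hpM : ¬ p ∣ M) (hA : A.LiesOverPrime p) :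
    TtbRed A ((ttrV1 M A hpM hA).toSubring ⊓ (ttrvpV2 M A hpM hA).toSubring)
      (ttbProdRed (O₁ := (ttrV1 M A hpM hA).toSubring) (O₂ := (ttrvpV2 M A hpM hA).toSubring)
        (ttrRed1 M A hA) (ttrRed2 M A hpM hA)) :=
  ttrvp_tb M A hpM hA

end Inst

end Fermat.Agent.TT
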