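/-
Program TT (S33), package G/Red₂ : THE INPUTS OF (LOC) AT THE LEVEL `M p`, INSTANTIATED.

Owner: helper15.  Prefix `ttrli`.  Namespace `Fermat.Agent.TT`.

helper23's `ttri_loc` (and my `ttalv_bad_ord`, helper1's IntoPt, helper3's IntoNode, helper29's
one-branch bad points) all take the same chart inputs `hBO hconst hredc hker hu hBreg hsat hres
hchart`.  Here they are for the charts of the level `M p` : `υ` a chart coordinate of level `M`
(`hc : GrdChart M 𝔸 υ`), `u = α υ_ℚ̄` resp. `u = β υ_ℚ̄`, `B = grdB (M p) 𝔸 u`,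
`O2 = ttrO2 M 𝔸 hpM = V₁ ⊓ V₂`, `red = ttrRed M 𝔸 hpM h𝔸 = (red₁, red₂)`.
-/
import Mathlib
import Fermat.Agent.TT.Red2.Sat2
import Fermat.Agent.TT.Red2.RedPack
import Fermat.Agent.TT.Red2.GoodFix
import Fermat.Agent.TT.Alpha.ConstBad
import Fermat.Agent.TT.Alpha.OfW
import Fermat.Agent.FF.IntLRed

set_option autoImplicit false
set_option linter.unusedSectionVars false
set_option linter.unusedVariables false
set_option linter.style.haveILetI false
set_option synthInstance.maxHeartbeats 400000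

noncomputable section

namespace Fermat.Agent.TT

open Polynomial ModularCurve AlgebraicCurve IsLocalRing IntermediateField
  Fermat.Agent.G Fermat.Agent.S18 Fermat.Agent.S24 Fermat.Agent.FF

local notation "Qb" => AlgebraicClosure ℚ

/-! ### level-generic inputs -/

section Generic

variable (N : ℕ) [NeZero N] (A : ValuationSubring Qb)

/-- (hconst) the constants of `𝔸` lie in every chart ring. -/
theorem ttrli_const (u : modularFunctionFieldBar N) (a : A) :
    algebraMap Qb (modularFunctionFieldBar N) (a : Qb) ∈ grdB N A u :=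
  grdr_isInt_algebraMap N A u a

/-- (hu) the coordinate lies in its chart ring. -/
theorem ttrli_u_mem (u : modularFunctionFieldBar N) : u ∈ grdB N A u :=
  grdr_isInt_self N A u

/-- (hBreg) the elements of the chart ring are regular wherever `u` is. -/
theorem ttrli_breg (u : modularFunctionFieldBar N) :
    ∀ b ∈ grdB N A u, ∀ v : Place Qb (modularFunctionFieldBar N),
      u ∈ v.toValuationSubring → b ∈ v.toValuationSubring := fun b hb v hu =>
  ttr_sat_le_of_val N A v.toValuationSubring (fun a => v.algebraMap_mem' (a : Qb)) hu hb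

/-- (hres) every function regular at a place has a value there. -/
theorem ttrli_res (v : Place Qb (modularFunctionFieldBar N)) (y : modularFunctionFieldBar N)
    (hy : y ∈ v.toValuationSubring) : ∃ a : Qb, GrdVal v y a :=
  grdg_val_exists (isSepGen_jBar (N := N)) v hy

/-- (hchart) at a place of the chart, the elements of the chart ring take values in `𝔸`. -/
theorem ttrli_chart (u : modularFunctionFieldBar N) :
    ∀ v : Place Qb (modularFunctionFieldBar N), (∃ a : A, GrdVal v u (a : Qb)) →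
      ∀ b ∈ grdB N A u, ∃ a : A, GrdVal v b (a : Qb) := fun v hv b hb =>
  ttrp_val_exists N A u v hv hb

/-- a function regular wherever the separating generator `u` is regular, is integral over
`ℚ̄[u]`. -/
theorem ttrli_mem_intRing {u : modularFunctionFieldBar N} (hs : IsSepGen Qb u)
    (x : modularFunctionFieldBar N)
    (hx : ∀ v : Place Qb (modularFunctionFieldBar N),
      u ∈ v.toValuationSubring → x ∈ v.toValuationSubring) : x ∈ intRing Qb u := by
  rw [ffil_mem_intRing_iff hs]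
  intro v hv
  exact PlaceOrd.ord_nonneg_of_mem v (hx v (PlaceOrd.mem_of_ord_nonneg v hv))

end Generic

/-! ### the charts of the level `M p` -/

section Inst

variable (M : ℕ) [NeZero M] {p : ℕ} [Fact p.Prime] [NeZero p]
variable (A : ValuationSubring Qb)

/-- `α υ_ℚ̄` is a separating generator of `F_ℚ̄(M p)`. -/
theorem ttrli_sep_alpha {υ : LaurentSeries ℤ} (hc : GrdChart M A υ) :
    IsSepGen Qb (heckeAlphaBar Qb M p (grdQ M hc.mem)) := by
  refine (isSepGen_jBar (N := M * p)).of_transcendental ?_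
  intro h
  exact hc.sepQ.transcendental
    ((isAlgebraic_algHom_iff (heckeAlphaBar Qb M p) (heckeAlphaBar Qb M p).injective).mp h)

/-- `β υ_ℚ̄` is a separating generator of `F_ℚ̄(M p)`. -/
theorem ttrli_sep_beta {υ : LaurentSeries ℤ} (hc : GrdChart M A υ) :
    IsSepGen Qb (heckeBetaBar Qb M p (grdQ M hc.mem)) := by
  refine (isSepGen_jBar (N := M * p)).of_transcendental ?_
  intro h
  exact hc.sepQ.transcendental
    ((isAlgebraic_algHom_iff (heckeBetaBar Qb M p) (heckeBetaBar Qb M p).injective).mp h)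

/-- (hBO), `α`-chart. -/
theorem ttrli_le_alpha (hpM : ¬ p ∣ M) (hA : A.LiesOverPrime p) {υ : LaurentSeries ℤ}
    (hc : GrdChart M A υ) :
    grdB (M * p) A (heckeAlphaBar Qb M p (grdQ M hc.mem)) ≤ ttrO2 M A hpM :=
  ttr_sat_alpha_le M A hpM hA (grdQ_mem_grdO M A hc.mem)

/-- (hBO), `β`-chart. -/
theorem ttrli_le_beta (hpM : ¬ p ∣ M) (hA : A.LiesOverPrime p) {υ : LaurentSeries ℤ}
    (hc : GrdChart M A υ) :
    grdB (M * p) A (heckeBetaBar Qb M p (grdQ M hc.mem)) ≤ ttrO2 M A hpM :=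
  ttr_sat_beta_le M A hpM hA (grdQ_mem_grdO M A hc.mem)

/-- **(hsat), `α`-chart** : an element of `O₂ = V₁ ⊓ V₂` regular wherever `α υ` is regular lies in
the chart ring. -/
theorem ttrli_sat_alpha (hpM : ¬ p ∣ M) (hA : A.LiesOverPrime p) {υ : LaurentSeries ℤ}
    (hc : GrdChart M A υ) :
    ∀ x ∈ ttrO2 M A hpM, (∀ v : Place Qb (modularFunctionFieldBar (M * p)),
      heckeAlphaBar Qb M p (grdQ M hc.mem) ∈ v.toValuationSubring → x ∈ v.toValuationSubring) →
      x ∈ grdB (M * p) A (heckeAlphaBar Qb M p (grdQ M hc.mem)) := by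
  intro x hx hreg
  have h1 : x ∈ intRing Qb (heckeAlphaBar Qb M p (grdQ M hc.mem)) :=
    ttrli_mem_intRing (M * p) (ttrli_sep_alpha M A hc) x hreg
  obtain ⟨π, hπ, hint⟩ := fflr_exists_smul_isIntegralElem (A₀ := ↥A) (K := Qb)
    (heckeAlphaBar Qb M p (grdQ M hc.mem)) x h1
  exact ttr_sat_alpha M A hpM hA hc x hx π hπ hint

/-- **(hsat), `β`-chart**. -/
theorem ttrli_sat_beta (hpM : ¬ p ∣ M) (hA : A.LiesOverPrime p) {υ : LaurentSeries ℤ}
    (hc : GrdChart M A υ) :
    ∀ x ∈ ttrO2 M A hpM, (∀ v : Place Qb (modularFunctionFieldBar (M * p)),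
      heckeBetaBar Qb M p (grdQ M hc.mem) ∈ v.toValuationSubring → x ∈ v.toValuationSubring) →
      x ∈ grdB (M * p) A (heckeBetaBar Qb M p (grdQ M hc.mem)) := by
  intro x hx hreg
  have h1 : x ∈ intRing Qb (heckeBetaBar Qb M p (grdQ M hc.mem)) :=
    ttrli_mem_intRing (M * p) (ttrli_sep_beta M A hc) x hreg
  obtain ⟨π, hπ, hint⟩ := fflr_exists_smul_isIntegralElem (A₀ := ↥A) (K := Qb)
    (heckeBetaBar Qb M p (grdQ M hc.mem)) x h1
  exact ttr_sat_beta M A hpM hA hc x hx π hπ hint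

/-- (hredc) `red (a) = (ā, ā)`. -/
theorem ttrli_redc (hpM : ¬ p ∣ M) (hA : A.LiesOverPrime p) (a : A)
    (h : algebraMap Qb (modularFunctionFieldBar (M * p)) (a : Qb) ∈ ttrO2 M A hpM) :
    ttrRed M A hpM hA ⟨algebraMap Qb (modularFunctionFieldBar (M * p)) (a : Qb), h⟩ =
      algebraMap (ResidueField A) (↥(modularFunctionFieldFullC (ResidueField A) M) ×
        ↥(modularFunctionFieldFullC (ResidueField A) M)) (residue A a) :=
  (ttrvp_tb M A hpM hA).red_const a

/-- the kernel of `red` on a saturated subring `B ≤ O₂` is `𝔪_𝔸 B`. -/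
theorem ttrli_ker_of_sat (hpM : ¬ p ∣ M) (hA : A.LiesOverPrime p)
    (B : Subring (modularFunctionFieldBar (M * p))) (hBO : B ≤ ttrO2 M A hpM)
    (hsat : ∀ x ∈ ttrO2 M A hpM, ∀ π : A, π ≠ 0 →
      algebraMap Qb (modularFunctionFieldBar (M * p)) (π : Qb) * x ∈ B → x ∈ B)
    (y : modularFunctionFieldBar (M * p)) (hy : y ∈ B)
    (h0 : ttrRed M A hpM hA ⟨y, hBO hy⟩ = 0) :
    ∃ π : Qb, π ∈ A.nonunits ∧ ∃ y' ∈ B,
      y = algebraMap Qb (modularFunctionFieldBar (M * p)) π * y' := by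
  obtain ⟨π, hπ, y', hy'⟩ := (ttrvp_tb M A hpM hA).ker ⟨y, hBO hy⟩ h0
  have hy'' : y = algebraMap Qb (modularFunctionFieldBar (M * p)) (π : Qb) *
      (y' : modularFunctionFieldBar (M * p)) := hy'
  have hπnu : (π : Qb) ∈ A.nonunits := by
    rw [ValuationSubring.mem_nonunits_iff_exists_mem_maximalIdeal]
    exact ⟨π.2, hπ⟩
  by_cases hπ0 : π = 0
  · refine ⟨(π : Qb), hπnu, 0, B.zero_mem, ?_⟩
    rw [hy'', hπ0]
    simp
  · refine ⟨(π : Qb), hπnu, (y' : modularFunctionFieldBar (M * p)), ?_, hy''⟩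
    refine hsat _ y'.2 π hπ0 ?_
    rw [← hy'']
    exact hy

/-- (hker), `α`-chart. -/
theorem ttrli_ker_alpha (hpM : ¬ p ∣ M) (hA : A.LiesOverPrime p) {υ : LaurentSeries ℤ}
    (hc : GrdChart M A υ) (y : modularFunctionFieldBar (M * p))
    (hy : y ∈ grdB (M * p) A (heckeAlphaBar Qb M p (grdQ M hc.mem)))
    (h0 : ttrRed M A hpM hA ⟨y, ttrli_le_alpha M A hpM hA hc hy⟩ = 0) :
    ∃ π : Qb, π ∈ A.nonunits ∧ ∃ y' ∈ grdB (M * p) A (heckeAlphaBar Qb M p (grdQ M hc.mem)),
      y = algebraMap Qb (modularFunctionFieldBar (M * p)) π * y' :=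
  ttrli_ker_of_sat M A hpM hA _ (ttrli_le_alpha M A hpM hA hc)
    (fun x hx π hπ h => ttr_sat_alpha M A hpM hA hc x hx π hπ h) y hy h0

/-- (hker), `β`-chart. -/
theorem ttrli_ker_beta (hpM : ¬ p ∣ M) (hA : A.LiesOverPrime p) {υ : LaurentSeries ℤ}
    (hc : GrdChart M A υ) (y : modularFunctionFieldBar (M * p))
    (hy : y ∈ grdB (M * p) A (heckeBetaBar Qb M p (grdQ M hc.mem)))
    (h0 : ttrRed M A hpM hA ⟨y, ttrli_le_beta M A hpM hA hc hy⟩ = 0) :
    ∃ π : Qb, π ∈ A.nonunits ∧ ∃ y' ∈ grdB (M * p) A (heckeBetaBar Qb M p (grdQ M hc.mem)),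
      y = algebraMap Qb (modularFunctionFieldBar (M * p)) π * y' :=
  ttrli_ker_of_sat M A hpM hA _ (ttrli_le_beta M A hpM hA hc)
    (fun x hx π hπ h => ttr_sat_beta M A hpM hA hc x hx π hπ h) y hy h0

/-! ### (V) at a bad place of a chart of the level `M p` -/

/-- **(V) at a bad place of an `α`-chart** : `v` a place of the chart `α υ`, every place of the
chart with the same closed point on the chart ring is bad; `x ∈ O₂` without pole at the bad
places, reducing to the nonzero constant `(c, c)`.  Then `ord_v x = 0`. -/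
theorem ttrli_bad_ord_alpha (hpM : ¬ p ∣ M) (hA : A.LiesOverPrime p) {υ : LaurentSeries ℤ}
    (hc : GrdChart M A υ) (v : Place Qb (modularFunctionFieldBar (M * p)))
    (hv : ∃ a : A, GrdVal v (heckeAlphaBar Qb M p (grdQ M hc.mem)) (a : Qb))
    (bad : Place Qb (modularFunctionFieldBar (M * p)) → Prop)
    (hbadcen : ∀ v' : Place Qb (modularFunctionFieldBar (M * p)),
      (∃ a : A, GrdVal v' (heckeAlphaBar Qb M p (grdQ M hc.mem)) (a : Qb)) →
      (∀ b ∈ grdB (M * p) A (heckeAlphaBar Qb M p (grdQ M hc.mem)),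
        TtalvIn A v' b ↔ TtalvIn A v b) → bad v')
    (x : modularFunctionFieldBar (M * p)) (hx : x ∈ ttrO2 M A hpM)
    (hxbad : ∀ v' : Place Qb (modularFunctionFieldBar (M * p)), bad v' → 0 ≤ v'.ord x)
    (c : ResidueField A) (hc0 : c ≠ 0)
    (hred : ttrRed M A hpM hA ⟨x, hx⟩ =
      algebraMap (ResidueField A) (↥(modularFunctionFieldFullC (ResidueField A) M) ×
        ↥(modularFunctionFieldFullC (ResidueField A) M)) c) :
    v.ord x = 0 := by
  haveI := gff_hasPrincipalDivisors (M * p)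
  exact ttalv_bad_ord A (ttrO2 M A hpM) (grdB (M * p) A (heckeAlphaBar Qb M p (grdQ M hc.mem)))
    (ttrli_le_alpha M A hpM hA hc) (ttrRed M A hpM hA)
    (ttrli_const (M * p) A _) (fun a => ttrli_redc M A hpM hA a _)
    (fun y hy h0 => ttrli_ker_alpha M A hpM hA hc y hy h0)
    _ (ttrli_u_mem (M * p) A _) (ttrli_breg (M * p) A _) (ttrli_sat_alpha M A hpM hA hc)
    (ttrli_res (M * p)) (ttrli_chart (M * p) A _) v hv bad hbadcen x hx hxbad c hc0 hred

/-- **(V) at a bad place of a `β`-chart**. -/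
theorem ttrli_bad_ord_beta (hpM : ¬ p ∣ M) (hA : A.LiesOverPrime p) {υ : LaurentSeries ℤ}
    (hc : GrdChart M A υ) (v : Place Qb (modularFunctionFieldBar (M * p)))
    (hv : ∃ a : A, GrdVal v (heckeBetaBar Qb M p (grdQ M hc.mem)) (a : Qb))
    (bad : Place Qb (modularFunctionFieldBar (M * p)) → Prop)
    (hbadcen : ∀ v' : Place Qb (modularFunctionFieldBar (M * p)),
      (∃ a : A, GrdVal v' (heckeBetaBar Qb M p (grdQ M hc.mem)) (a : Qb)) →
      (∀ b ∈ grdB (M * p) A (heckeBetaBar Qb M p (grdQ M hc.mem)),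
        TtalvIn A v' b ↔ TtalvIn A v b) → bad v')
    (x : modularFunctionFieldBar (M * p)) (hx : x ∈ ttrO2 M A hpM)
    (hxbad : ∀ v' : Place Qb (modularFunctionFieldBar (M * p)), bad v' → 0 ≤ v'.ord x)
    (c : ResidueField A) (hc0 : c ≠ 0)
    (hred : ttrRed M A hpM hA ⟨x, hx⟩ =
      algebraMap (ResidueField A) (↥(modularFunctionFieldFullC (ResidueField A) M) ×
        ↥(modularFunctionFieldFullC (ResidueField A) M)) c) :
    v.ord x = 0 := by
  haveI := gff_hasPrincipalDivisors (M * p)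
  exact ttalv_bad_ord A (ttrO2 M A hpM) (grdB (M * p) A (heckeBetaBar Qb M p (grdQ M hc.mem)))
    (ttrli_le_beta M A hpM hA hc) (ttrRed M A hpM hA)
    (ttrli_const (M * p) A _) (fun a => ttrli_redc M A hpM hA a _)
    (fun y hy h0 => ttrli_ker_beta M A hpM hA hc y hy h0)
    _ (ttrli_u_mem (M * p) A _) (ttrli_breg (M * p) A _) (ttrli_sat_beta M A hpM hA hc)
    (ttrli_res (M * p)) (ttrli_chart (M * p) A _) v hv bad hbadcen x hx hxbad c hc0 hred

/-! ### (HV) : the hypothesis (V) of `ttalv_const`, at the level `M p` -/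

/-- the coordinatewise form of `red x = (c, c)`. -/
theorem ttrli_red_pair (hpM : ¬ p ∣ M) (hA : A.LiesOverPrime p)
    (x : modularFunctionFieldBar (M * p)) (h₁ : x ∈ ttrV1 M A hpM hA)
    (h₂ : x ∈ ttalV2 (ttrV1 M A hpM hA) (ttrW M hpM)) (c : ResidueField A)
    (hr₁ : ttrRed1 M A hA ⟨x, h₁⟩ =
      algebraMap (ResidueField A) ↥(modularFunctionFieldFullC (ResidueField A) M) c)
    (hr₂ : ttalRed2 (ttrV1 M A hpM hA) (ttrW M hpM) (ttrRed1 M A hA) ⟨x, h₂⟩ =
      algebraMap (ResidueField A) ↥(modularFunctionFieldFullC (ResidueField A) M) c) :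
    ttrRed M A hpM hA ⟨x, ⟨h₁, h₂⟩⟩ =
      algebraMap (ResidueField A) (↥(modularFunctionFieldFullC (ResidueField A) M) ×
        ↥(modularFunctionFieldFullC (ResidueField A) M)) c := by
  rw [ttrhRed_apply]
  exact Prod.ext hr₁ hr₂

/-- **(HV) from charts** : if every bad place (`cls v = none`) lies in an `α`- or a `β`-chart in
which all the places with the same closed point are bad, then a function of `O₂` without pole at
the bad places which reduces to a nonzero constant has order `0` at every bad place. -/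
theorem ttrli_hv (hpM : ¬ p ∣ M) (hA : A.LiesOverPrime p)
    (cls : Place Qb ↥(modularFunctionFieldBar (M * p)) →
      Option (Place (ResidueField A) ↥(modularFunctionFieldFullC (ResidueField A) M) ⊕
        Place (ResidueField A) ↥(modularFunctionFieldFullC (ResidueField A) M)))
    (hcharts : ∀ v : Place Qb ↥(modularFunctionFieldBar (M * p)), cls v = none →
      (∃ (υ : LaurentSeries ℤ) (hc : GrdChart M A υ),
        (∃ a : A, GrdVal v (heckeAlphaBar Qb M p (grdQ M hc.mem)) (a : Qb)) ∧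
        ∀ v' : Place Qb ↥(modularFunctionFieldBar (M * p)),
          (∃ a : A, GrdVal v' (heckeAlphaBar Qb M p (grdQ M hc.mem)) (a : Qb)) →
          (∀ b ∈ grdB (M * p) A (heckeAlphaBar Qb M p (grdQ M hc.mem)),
            TtalvIn A v' b ↔ TtalvIn A v b) → cls v' = none) ∨
      (∃ (υ : LaurentSeries ℤ) (hc : GrdChart M A υ),
        (∃ a : A, GrdVal v (heckeBetaBar Qb M p (grdQ M hc.mem)) (a : Qb)) ∧
        ∀ v' : Place Qb ↥(modularFunctionFieldBar (M * p)),
          (∃ a : A, GrdVal v' (heckeBetaBar Qb M p (grdQ M hc.mem)) (a : Qb)) →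
          (∀ b ∈ grdB (M * p) A (heckeBetaBar Qb M p (grdQ M hc.mem)),
            TtalvIn A v' b ↔ TtalvIn A v b) → cls v' = none)) :
    ∀ (x : ↥(modularFunctionFieldBar (M * p))) (h₁ : x ∈ ttrV1 M A hpM hA)
      (h₂ : x ∈ ttalV2 (ttrV1 M A hpM hA) (ttrW M hpM)) (c : ResidueField A), c ≠ 0 → x ≠ 0 →
      (∀ v : Place Qb ↥(modularFunctionFieldBar (M * p)), cls v = none → 0 ≤ v.ord x) →
      ttrRed1 M A hA ⟨x, h₁⟩ =
        algebraMap (ResidueField A) ↥(modularFunctionFieldFullC (ResidueField A) M) c →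
      ttalRed2 (ttrV1 M A hpM hA) (ttrW M hpM) (ttrRed1 M A hA) ⟨x, h₂⟩ =
        algebraMap (ResidueField A) ↥(modularFunctionFieldFullC (ResidueField A) M) c →
      ∀ v : Place Qb ↥(modularFunctionFieldBar (M * p)), cls v = none → v.ord x = 0 := by
  intro x h₁ h₂ c hc0 hx0 hbad hr₁ hr₂ v hv
  have hred := ttrli_red_pair M A hpM hA x h₁ h₂ c hr₁ hr₂
  rcases hcharts v hv with ⟨υ, hc, hvc, hcen⟩ | ⟨υ, hc, hvc, hcen⟩
  · exact ttrli_bad_ord_alpha M A hpM hA hc v hvc (fun v' => cls v' = none) hcen x ⟨h₁, h₂⟩ hbad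
      c hc0 hred
  · exact ttrli_bad_ord_beta M A hpM hA hc v hvc (fun v' => cls v' = none) hcen x ⟨h₁, h₂⟩ hbad
      c hc0 hred

/-- **(HV) from an atlas** : the two `α`-charts of an atlas `(τ, τ')` of the level `M` cover the
places of the level `M p`; it is enough that badness depends only on the closed point of the
chart ring, in the chart `α τ` and, near `α τ' = 0`, in the chart `α τ'`. -/
theorem ttrli_hv_atlas (hpM : ¬ p ∣ M) (hA : A.LiesOverPrime p) {τ τ' : LaurentSeries ℤ}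
    (hat : GrdAtlas M A τ τ')
    (cls : Place Qb ↥(modularFunctionFieldBar (M * p)) →
      Option (Place (ResidueField A) ↥(modularFunctionFieldFullC (ResidueField A) M) ⊕
        Place (ResidueField A) ↥(modularFunctionFieldFullC (ResidueField A) M)))
    (hcen : ∀ v v' : Place Qb ↥(modularFunctionFieldBar (M * p)), cls v = none →
      GrdInChart (M * p) A (heckeAlphaBar Qb M p (grdQ M hat.c.mem)) v →
      GrdInChart (M * p) A (heckeAlphaBar Qb M p (grdQ M hat.c.mem)) v' →
      (∀ b ∈ grdB (M * p) A (heckeAlphaBar Qb M p (grdQ M hat.c.mem)),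
        TtalvIn A v' b ↔ TtalvIn A v b) → cls v' = none)
    (hcen' : ∀ v v' : Place Qb ↥(modularFunctionFieldBar (M * p)), cls v = none →
      (∃ a : A, a ∈ maximalIdeal A ∧
        GrdVal v (heckeAlphaBar Qb M p (grdQ M hat.c'.mem)) (a : Qb)) →
      GrdInChart (M * p) A (heckeAlphaBar Qb M p (grdQ M hat.c'.mem)) v' →
      (∀ b ∈ grdB (M * p) A (heckeAlphaBar Qb M p (grdQ M hat.c'.mem)),
        TtalvIn A v' b ↔ TtalvIn A v b) → cls v' = none) :
    ∀ (x : ↥(modularFunctionFieldBar (M * p))) (h₁ : x ∈ ttrV1 M A hpM hA)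
      (h₂ : x ∈ ttalV2 (ttrV1 M A hpM hA) (ttrW M hpM)) (c : ResidueField A), c ≠ 0 → x ≠ 0 →
      (∀ v : Place Qb ↥(modularFunctionFieldBar (M * p)), cls v = none → 0 ≤ v.ord x) →
      ttrRed1 M A hA ⟨x, h₁⟩ =
        algebraMap (ResidueField A) ↥(modularFunctionFieldFullC (ResidueField A) M) c →
      ttalRed2 (ttrV1 M A hpM hA) (ttrW M hpM) (ttrRed1 M A hA) ⟨x, h₂⟩ =
        algebraMap (ResidueField A) ↥(modularFunctionFieldFullC (ResidueField A) M) c →
      ∀ v : Place Qb ↥(modularFunctionFieldBar (M * p)), cls v = none → v.ord x = 0 := by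
  refine ttrli_hv M A hpM hA cls fun v hv => Or.inl ?_
  rcases ttrp_chart_cover M p hat (heckeAlphaBar Qb M p) (gff_alpha_integral M p) v with
    h | ⟨a, ha, hva⟩
  · exact ⟨τ, hat.c, h, fun v' hv' hsame => hcen v v' hv h hv' hsame⟩
  · exact ⟨τ', hat.c', ⟨a, hva⟩, fun v' hv' hsame => hcen' v v' hv ⟨a, ha, hva⟩ hv' hsame⟩

end Inst

end Fermat.Agent.TT
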