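import Mathlib
import Fermat.Agent.TT.Geom.Spec
import Fermat.Agent.TT.Alpha.OfW
import Fermat.Agent.TT.Red2.Inst

/-!
# PROGRAM TT (S33), leaf (RED2): THE ASSEMBLY SKELETON of `TtgRed2Spec M p 𝔸`

Owner: helper12 (Red2 instance assembler), deputy helper2 (this file).  Namespace
`Fermat.Agent.TT`, prefix `ttra`.

THE TERMS (helper12's names are the base; helper29's `ttalV2`/`ttalRed2` give the second valuation
as a `ValuationSubring`):

* `V₁   := ttrV1 M 𝔸 hpM h𝔸`                               (carrier `grdO (M * p) 𝔸`)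
* `V₂   := ttraV2 M 𝔸 hpM h𝔸 := ttalV2 V₁ (ttrW M hpM)`    (carrier `ttrV2 M 𝔸 hpM`)
* `red₁ := ttraRed1 M 𝔸 hpM h𝔸 := ttrRed1 M 𝔸 h𝔸`
* `red₂ := ttraRed2 M 𝔸 hpM h𝔸 := ttalRed2 V₁ (ttrW M hpM) red₁`   (`= ttrRed2 M 𝔸 hpM h𝔸`)
* `ρ    := ffigRho (M * p) 𝔸`.

* `ttra_rings` : the RING fields `toRed ker₁ ker₂ idem sc₁ sc₂` of `TtgModel` from the ONE input
  `h₁ : TtbRed 𝔸 V₁.toSubring red₁` (helper27) + helper12's `u₁ u₂` facts (all delivered).
* `ttra_move₁`, `ttra_move₂` : the ACTION fields from main (`ffip_smul_mem_grdO`, `ffip_red_smul`)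
  and the commutation `hcomm` of `w` with the coefficientwise action (helper9 (A7)/(G2)).
* `ttra_red2` : **the skeleton** `TtgRed2Spec M p 𝔸` from `h₁`, `hcomm` and ONE hypothesis per
  geometric field (`cls`, `lift_j`, `ν_j`, `nodes`, `genus_le`, `into`, `val_j`, `const`),
  each hypothesis being the field of `TtgModel` VERBATIM at the terms above.
-/

set_option autoImplicit false
set_option linter.unusedSectionVars false
set_option linter.unusedVariables false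
set_option linter.style.haveILetI false

noncomputable section

namespace Fermat.Agent.TT

open AlgebraicCurve IsLocalRing ModularCurve Fermat.Agent.G Fermat.Agent.FF Fermat.Agent.S18
  Fermat.Agent.SS

local notation "Qb" => AlgebraicClosure ℚ

variable (M : ℕ) [NeZero M] {p : ℕ} [Fact p.Prime] [NeZero p]
variable (A : ValuationSubring Qb)

/-- `V₂ = w⁻¹ V₁` as a valuation subring (underlying subring `ttrV2 M A hpM`). -/
abbrev ttraV2 (hpM : ¬ p ∣ M) (hA : A.LiesOverPrime p) :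
    ValuationSubring (modularFunctionFieldBar (M * p)) :=
  ttalV2 (ttrV1 M A hpM hA) (ttrW M hpM)

/-- `red₁` on the valuation subring `V₁`. -/
abbrev ttraRed1 (hpM : ¬ p ∣ M) (hA : A.LiesOverPrime p) :
    ↥(ttrV1 M A hpM hA) →+* ↥(modularFunctionFieldFullC (ResidueField A) M) :=
  ttrRed1 M A hA

/-- `red₂ = red₁ ∘ w` on the valuation subring `V₂`. -/
abbrev ttraRed2 (hpM : ¬ p ∣ M) (hA : A.LiesOverPrime p) :
    ↥(ttraV2 M A hpM hA) →+* ↥(modularFunctionFieldFullC (ResidueField A) M) :=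
  ttalRed2 (ttrV1 M A hpM hA) (ttrW M hpM) (ttrRed1 M A hA)

theorem ttraV2_toSubring (hpM : ¬ p ∣ M) (hA : A.LiesOverPrime p) :
    (ttraV2 M A hpM hA).toSubring = ttrV2 M A hpM := rfl

theorem ttraRed2_eq (hpM : ¬ p ∣ M) (hA : A.LiesOverPrime p) :
    (ttraRed2 M A hpM hA : ↥(ttrV2 M A hpM) →+* _) = ttrRed2 M A hpM hA := rfl

/-! ## The ring fields -/

section Rings

variable (hpM : ¬ p ∣ M) (hA : A.LiesOverPrime p)
  (h₁ : TtbRed A (ttrV1 M A hpM hA).toSubring (ttraRed1 M A hpM hA))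

include h₁

/-- the reduction axioms of the second valuation. -/
theorem ttra_red₂ : TtbRed A (ttraV2 M A hpM hA).toSubring (ttraRed2 M A hpM hA) :=
  ttal_red_comap h₁ (ttrW M hpM) (ttrW_const M hpM)

/-- field `toRed`. -/
theorem ttra_toRed :
    TtbRed A ((ttrV1 M A hpM hA).toSubring ⊓ (ttraV2 M A hpM hA).toSubring)
      (ttgRed (ttraRed1 M A hpM hA) (ttraRed2 M A hpM hA)) :=
  ttb_red_prod h₁ (ttra_red₂ M A hpM hA h₁)

/-- field `ker₁`. -/
theorem ttra_ker₁ (x : ↥(ttrV1 M A hpM hA)) :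
    ttraRed1 M A hpM hA x = 0 ↔ (x : modularFunctionFieldBar (M * p)) ∈
      (ttrV1 M A hpM hA).nonunits :=
  ttal_red_ker h₁ x

/-- field `ker₂`. -/
theorem ttra_ker₂ (x : ↥(ttraV2 M A hpM hA)) :
    ttraRed2 M A hpM hA x = 0 ↔ (x : modularFunctionFieldBar (M * p)) ∈
      (ttraV2 M A hpM hA).nonunits :=
  ttal_red_ker (ttra_red₂ M A hpM hA h₁) x

/-- field `idem` (helper12's `u₁ = Y - J^p`, `u₂ = Y^p - J`). -/
theorem ttra_idem : TtalIdem A (ttrV1 M A hpM hA) (ttraV2 M A hpM hA) := by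
  have hp1 : 1 < p := (Fact.out : p.Prime).one_lt
  have hr₂ : ttrRed1 M A hA ⟨ttrU2 M A, ttrU2_mem M A⟩ ≠ 0 := by
    rw [ttrRed1_U2]
    exact ttrH_ne_zero M A hp1
  obtain ⟨he, he₂, he₁⟩ := ttal_idem_of_u (V₁ := ttrV1 M A hpM hA) (red₁ := ttrRed1 M A hA) h₁
    (ttrW M hpM) (ttrW_U1 M A hpM) (ttrW_U2 M A hpM) (ttrU1_mem M A) (ttrU2_mem M A)
    (ttrRed1_U1 M A hA) hr₂
  exact ttal_red_idem h₁ (ttra_red₂ M A hpM hA h₁) _ _ he he₂ he₁

/-- field `sc₁`. -/
theorem ttra_sc₁ (f : modularFunctionFieldBar (M * p)) (hf : f ≠ 0) :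
    ∃ c : Qb, c ≠ 0 ∧ TtalIsU (ttrV1 M A hpM hA)
      (algebraMap Qb (modularFunctionFieldBar (M * p)) c * f) :=
  ttal_red_hsc h₁ f hf

/-- field `sc₂`. -/
theorem ttra_sc₂ (f : modularFunctionFieldBar (M * p)) (hf : f ≠ 0) :
    ∃ c : Qb, c ≠ 0 ∧ TtalIsU (ttraV2 M A hpM hA)
      (algebraMap Qb (modularFunctionFieldBar (M * p)) c * f) :=
  ttal_red_hsc (ttra_red₂ M A hpM hA h₁) f hf

end Rings

/-! ## The action fields -/

section Action

variable (hpM : ¬ p ∣ M) (hA : A.LiesOverPrime p)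

/-- the coefficientwise action of the inertia group is `ffipG`. -/
theorem ttra_rho_smul (σ : ↥(ffI A)) (x : modularFunctionFieldBar (M * p)) :
    ffigRho (M * p) A σ • x = ffipG (M * p) (σ : FfGal) • x := rfl

/-- field `move₁` (main: `ffip_smul_mem_grdO`, `ffip_red_smul`). -/
theorem ttra_move₁ (σ : ↥(ffI A)) (x : modularFunctionFieldBar (M * p))
    (hx : x ∈ ttrV1 M A hpM hA) :
    ffigRho (M * p) A σ • x - x ∈ (ttrV1 M A hpM hA).nonunits := by
  have hσ := Fermat.Agent.S05.isInertial_of_mem_inertiaSubgroupIn A σ.1 σ.2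
  refine ttal_move_of_triv (V₁ := ttrV1 M A hpM hA) (red₁ := ttrRed1 M A hA)
    (fun y => ffigRho (M * p) A σ • y) (fun y hy => ffip_smul_mem_grdO (M * p) hσ hy)
    (fun y hy => ?_) x hx
  show ttrResEq M A hA (grdRed (M * p) A _) = ttrResEq M A hA (grdRed (M * p) A _)
  exact congrArg _ (ffip_red_smul (M * p) hσ ⟨y, hy⟩)

/-- field `move₂`, from the commutation of `w` with the coefficientwise action
(helper9 (A7)/(G2)). -/
theorem ttra_move₂
    (hcomm : ∀ (σ : ↥(ffI A)) (x : modularFunctionFieldBar (M * p)),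
      ffigRho (M * p) A σ • ttrW M hpM x = ttrW M hpM (ffigRho (M * p) A σ • x))
    (σ : ↥(ffI A)) (x : modularFunctionFieldBar (M * p)) (hx : x ∈ ttraV2 M A hpM hA) :
    ffigRho (M * p) A σ • x - x ∈ (ttraV2 M A hpM hA).nonunits :=
  ttal_move_V2 (ttrW M hpM) (fun y => ffigRho (M * p) A σ • y) (fun a b => smul_sub _ a b)
    (hcomm σ) (ttra_move₁ M A hpM hA σ) x hx

end Action

/-! ## The skeleton -/

section Skeleton

open Fermat.Agent.V.RR

variable (hpM : ¬ p ∣ M) (hA : A.LiesOverPrime p)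

/-- **THE MODEL**, from `h₁` (helper27), `hcomm` (helper9) and one hypothesis per geometric field
of `TtgModel` (VERBATIM at `V₁ = ttrV1`, `V₂ = ttraV2`, `red₁ = ttraRed1`, `red₂ = ttraRed2`,
`ρ = ffigRho (M * p) A`). -/
theorem ttra_model
    (h₁ : TtbRed A (ttrV1 M A hpM hA).toSubring (ttraRed1 M A hpM hA))
    (hcomm : ∀ (σ : ↥(ffI A)) (x : ↥(modularFunctionFieldBar (M * p))),
      ffigRho (M * p) A σ • ttrW M hpM x = ttrW M hpM (ffigRho (M * p) A σ • x))
    (cls : Place Qb ↥(modularFunctionFieldBar (M * p)) → Option (Place (ResidueField A) ↥(modularFunctionFieldFullC (ResidueField A) M) ⊕ Place (ResidueField A) ↥(modularFunctionFieldFullC (ResidueField A) M)))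
    {S : Type} [Fintype S] (ν₁ ν₂ : S → Place (ResidueField A) ↥(modularFunctionFieldFullC (ResidueField A) M))
    (T₁ T₂ : Finset (Place (ResidueField A) ↥(modularFunctionFieldFullC (ResidueField A) M))) (g g₁ g₂ : ℕ)
    -- PLACES (helper6 (B3))
    (lift₁ : ∀ Q : Place (ResidueField A) ↥(modularFunctionFieldFullC (ResidueField A) M), Q ∉ T₁ →
      ∃ P : Place Qb ↥(modularFunctionFieldBar (M * p)), cls P = some (Sum.inl Q) ∧ ∀ σ : ↥(ffI A), ffigRho (M * p) A σ • P = P)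
    (lift₂ : ∀ Q : Place (ResidueField A) ↥(modularFunctionFieldFullC (ResidueField A) M), Q ∉ T₂ →
      ∃ P : Place Qb ↥(modularFunctionFieldBar (M * p)), cls P = some (Sum.inr Q) ∧ ∀ σ : ↥(ffI A), ffigRho (M * p) A σ • P = P)
    -- NODE (helper19)
    (ν₁_inj : Function.Injective ν₁) (ν₂_inj : Function.Injective ν₂)
    (ν₁_mem : ∀ i, ν₁ i ∈ T₁) (ν₂_mem : ∀ i, ν₂ i ∈ T₂)
    -- POS (helper27)
    (nodes : Nonempty S)
    -- COUNT (helper5)
    (genus_le : (g : ℤ) ≤ g₁ + g₂ + Fintype.card S - 1)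
    -- INTO (helper23)
    (into : ∀ D : Divisor Qb ↥(modularFunctionFieldBar (M * p)), (∀ P, D P ≠ 0 → cls P ≠ none) →
      (∀ P, -1 ≤ D P) →
      (∀ P P' : Place Qb ↥(modularFunctionFieldBar (M * p)), cls P = cls P' → D P < 0 → D P' < 0 →
        P = P') →
      ∀ (x : ↥(modularFunctionFieldBar (M * p))) (hx₁ : x ∈ ttrV1 M A hpM hA) (hx₂ : x ∈ ttraV2 M A hpM hA),
        x ∈ riemannRochSpace D →
        (ttraRed1 M A hpM hA ⟨x, hx₁⟩, ttraRed2 M A hpM hA ⟨x, hx₂⟩) ∈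
          ttnkL ν₁ ν₂ (ttgPush₁ cls D) (ttgPush₂ cls D))
    -- VALUES (helper6 (B2) + helper23 (LOC))
    (val₁ : ∀ (P : Place Qb ↥(modularFunctionFieldBar (M * p))) (Q : Place (ResidueField A) ↥(modularFunctionFieldFullC (ResidueField A) M)), cls P = some (Sum.inl Q) →
      ∀ (x : ↥(modularFunctionFieldBar (M * p))) (hx₁ : x ∈ ttrV1 M A hpM hA) (hx₂ : x ∈ ttraV2 M A hpM hA),
        (∀ P' : Place Qb ↥(modularFunctionFieldBar (M * p)), cls P' = some (Sum.inl Q) → 0 ≤ P'.ord x) →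
        ∃ α : A, GrdVal P x (α : Qb) ∧ GrdVal Q (ttraRed1 M A hpM hA ⟨x, hx₁⟩) (residue A α))
    (val₂ : ∀ (P : Place Qb ↥(modularFunctionFieldBar (M * p))) (Q : Place (ResidueField A) ↥(modularFunctionFieldFullC (ResidueField A) M)), cls P = some (Sum.inr Q) →
      ∀ (x : ↥(modularFunctionFieldBar (M * p))) (hx₁ : x ∈ ttrV1 M A hpM hA) (hx₂ : x ∈ ttraV2 M A hpM hA),
        (∀ P' : Place Qb ↥(modularFunctionFieldBar (M * p)), cls P' = some (Sum.inr Q) → 0 ≤ P'.ord x) →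
        ∃ α : A, GrdVal P x (α : Qb) ∧ GrdVal Q (ttraRed2 M A hpM hA ⟨x, hx₂⟩) (residue A α))
    -- BRIDGE (V)+(D) (helper15)
    (const : ∀ (x : ↥(modularFunctionFieldBar (M * p))) (hx₁ : x ∈ ttrV1 M A hpM hA) (hx₂ : x ∈ ttraV2 M A hpM hA)
      (c : ResidueField A), c ≠ 0 → x ≠ 0 →
      (∀ v : Place Qb ↥(modularFunctionFieldBar (M * p)), cls v = none → 0 ≤ v.ord x) →
      ttraRed1 M A hpM hA ⟨x, hx₁⟩ = algebraMap (ResidueField A) ↥(modularFunctionFieldFullC (ResidueField A) M) c →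
      ttraRed2 M A hpM hA ⟨x, hx₂⟩ = algebraMap (ResidueField A) ↥(modularFunctionFieldFullC (ResidueField A) M) c →
      ∀ Dx : Divisor Qb ↥(modularFunctionFieldBar (M * p)), (∀ v : Place Qb ↥(modularFunctionFieldBar (M * p)), Dx v = v.ord x) →
        (∀ v : Place Qb ↥(modularFunctionFieldBar (M * p)), cls v = none → Dx v = 0) ∧ Finsupp.mapDomain cls Dx = 0) :
    TtgModel A (ttrV1 M A hpM hA) (ttraV2 M A hpM hA) (ttraRed1 M A hpM hA)
      (ttraRed2 M A hpM hA) (ffigRho (M * p) A) cls ν₁ ν₂ T₁ T₂ g g₁ g₂ where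
  toRed := ttra_toRed M A hpM hA h₁
  ker₁ := ttra_ker₁ M A hpM hA h₁
  ker₂ := ttra_ker₂ M A hpM hA h₁
  idem := ttra_idem M A hpM hA h₁
  sc₁ := ttra_sc₁ M A hpM hA h₁
  sc₂ := ttra_sc₂ M A hpM hA h₁
  base_mem := ffig_base_mem (M * p) A
  base_res := ffig_base_res (M * p) A
  move₁ := ttra_move₁ M A hpM hA
  move₂ := ttra_move₂ M A hpM hA hcomm
  lift₁ := lift₁
  lift₂ := lift₂
  ν₁_inj := ν₁_inj
  ν₂_inj := ν₂_inj
  ν₁_mem := ν₁_mem
  ν₂_mem := ν₂_mem
  nodes := nodes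
  genus_le := genus_le
  into := into
  val₁ := val₁
  val₂ := val₂
  const := const

/-- **LEAF (RED2) from the model**: the existential packaging. -/
theorem ttra_red2_of_model
    (cls : Place Qb ↥(modularFunctionFieldBar (M * p)) →
      Option (Place (ResidueField A) ↥(modularFunctionFieldFullC (ResidueField A) M) ⊕
        Place (ResidueField A) ↥(modularFunctionFieldFullC (ResidueField A) M)))
    {S : Type} [Fintype S]
    (ν₁ ν₂ : S → Place (ResidueField A) ↥(modularFunctionFieldFullC (ResidueField A) M))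
    (T₁ T₂ : Finset (Place (ResidueField A) ↥(modularFunctionFieldFullC (ResidueField A) M)))
    (hmod : TtgModel A (ttrV1 M A hpM hA) (ttraV2 M A hpM hA) (ttraRed1 M A hpM hA)
      (ttraRed2 M A hpM hA) (ffigRho (M * p) A) cls ν₁ ν₂ T₁ T₂
      (genusFF FfQb ↥(modularFunctionFieldBar (M * p)))
      (genusFF FfQb ↥(modularFunctionFieldBar M)) (genusFF FfQb ↥(modularFunctionFieldBar M))) :
    TtgRed2Spec M p A :=
  ⟨ttrV1 M A hpM hA, ttraV2 M A hpM hA, ttraRed1 M A hpM hA, ttraRed2 M A hpM hA, cls, S,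
    inferInstance, ν₁, ν₂, T₁, T₂, hmod⟩

end Skeleton

end Fermat.Agent.TT
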