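import Fermat.Agent.TT.Red2.IntoCen
import Fermat.Agent.TT.Alpha.IntoChart
import Fermat.Agent.TT.Red2.LocInputs
import Fermat.Agent.TT.Red2.ChartAll
import Fermat.Agent.TT.Red2.Red2All
import Fermat.Agent.TT.Red2.Cls

/-!
# PROGRAM TT (S33), leaf (RED2) : THE FIELD `into` OF `TtgModel` AT LEVEL `M p` (prefix `ttrgl`)

Owner: helper1 (TT-PM R37).  Namespace `Fermat.Agent.TT`.

Canonical terms of helper2's `ttra_model` : `V₁ = ttrV1`, `V₂ = ttraV2`, `red₁ = ttraRed1`,
`red₂ = ttraRed2`, `O2 = V₁ ⊓ V₂`; an atlas `hat : GrdAtlas M 𝔸 τ τ'` of level `M` with THE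
reduction map `r` of places; `r_j := ttrpR M p 𝔸 α/β _ r` (helper6), class map
`ttrpCls M p 𝔸 r (α τ) v₁ (β τ) v₂` (helper6).

* `ttrglCenC₁/₂ hc Q v` : `v` is centred at the closed point below `Q` of the chart ring
  `B(α υ)` resp. `B(β υ)` (helper3's `ttruCen` at helper29's `ttalN`);
* `ttrglCen₁/₂ hat Q v` : the centre in the chart `τ` if `τ̄` is regular at `Q`, in the chart `τ'`
  otherwise;
* `ttrgl_pk₁/₂` : the local package `TtriPt` at EVERY `Q` (helper29's `ttal_pt_chart` + helper15's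
  `LocInputs`);
* `ttrgl_hCr₁/₂` : `Cen_j Q v → r_j v = Q` ((I1), `IntoCen.lean`);
* `ttrgl_hgood₁/₂` : a good place is centred at `r_j v`;
* **`ttrgl_into_inst`** : the field `into` VERBATIM, from the node data (`hrν_j`, `hcenN`, `hN`)
  and `hcross` (a place centred on both components is centred at a node).
-/

set_option autoImplicit false
set_option linter.unusedSectionVars false
set_option linter.unusedVariables false
set_option linter.style.haveILetI false
set_option synthInstance.maxHeartbeats 400000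

noncomputable section

namespace Fermat.Agent.TT

open ModularCurve AlgebraicCurve IsLocalRing Polynomial Classical Fermat.Agent.S18
  Fermat.Agent.S24 Fermat.Agent.G Fermat.Agent.FF

local notation "Qb" => AlgebraicClosure ℚ

set_option synthInstance.maxHeartbeats 800000 in
/-- instance shortcut (the generic search through `ResidueField` is very slow). -/
local instance ttrglInstF' (A : ValuationSubring Qb) (M : ℕ) [NeZero M] :
    Field ↥(modularFunctionFieldFullC (ResidueField A) M) := inferInstance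

set_option synthInstance.maxHeartbeats 800000 in
/-- instance shortcut (the generic search through `ResidueField` is very slow). -/
local instance ttrglInstA' (A : ValuationSubring Qb) (M : ℕ) [NeZero M] :
    Algebra (ResidueField A) ↥(modularFunctionFieldFullC (ResidueField A) M) := inferInstance

variable (M : ℕ) [NeZero M] {p : ℕ} [Fact p.Prime] [NeZero p]
variable (A : ValuationSubring Qb)

section Defs

variable (hpM : ¬ p ∣ M) (hA : A.LiesOverPrime p)

/-- `O2 = V₁ ⊓ V₂` at the canonical terms. -/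
abbrev ttrglO2 : Subring (modularFunctionFieldBar (M * p)) :=
  (ttrV1 M A hpM hA).toSubring ⊓ (ttraV2 M A hpM hA).toSubring

/-- `red₁` on `O2`. -/
abbrev ttrglRed₁ : ↥(ttrglO2 M A hpM hA) →+* ↥(modularFunctionFieldFullC (ResidueField A) M) :=
  ttalRedO₁ (V₂ := ttraV2 M A hpM hA) (ttraRed1 M A hpM hA)

/-- `red₂` on `O2`. -/
abbrev ttrglRed₂ : ↥(ttrglO2 M A hpM hA) →+* ↥(modularFunctionFieldFullC (ResidueField A) M) :=
  ttalRedO₂ (V₁ := ttrV1 M A hpM hA) (ttraRed2 M A hpM hA)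

theorem ttrgl_le₁ {υ : LaurentSeries ℤ} (hc : GrdChart M A υ) :
    grdB (M * p) A (heckeAlphaBar Qb M p (grdQ M hc.mem)) ≤ ttrglO2 M A hpM hA :=
  ttrli_le_alpha M A hpM hA hc

theorem ttrgl_le₂ {υ : LaurentSeries ℤ} (hc : GrdChart M A υ) :
    grdB (M * p) A (heckeBetaBar Qb M p (grdQ M hc.mem)) ≤ ttrglO2 M A hpM hA :=
  ttrli_le_beta M A hpM hA hc

/-- the centre in ONE chart, index 1. -/
def ttrglCenC₁ {υ : LaurentSeries ℤ} (hc : GrdChart M A υ)
    (Q : Place (ResidueField A) (modularFunctionFieldFullC (ResidueField A) M))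
    (v : Place Qb (modularFunctionFieldBar (M * p))) : Prop :=
  ttruCen A (grdB (M * p) A (heckeAlphaBar Qb M p (grdQ M hc.mem)))
    (heckeAlphaBar Qb M p (grdQ M hc.mem))
    (ttalN (ttrglO2 M A hpM hA) (grdB (M * p) A (heckeAlphaBar Qb M p (grdQ M hc.mem)))
      (ttrgl_le₁ M A hpM hA hc) (ttrglRed₁ M A hpM hA) Q) v

/-- the centre in ONE chart, index 2. -/
def ttrglCenC₂ {υ : LaurentSeries ℤ} (hc : GrdChart M A υ)
    (Q : Place (ResidueField A) (modularFunctionFieldFullC (ResidueField A) M))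
    (v : Place Qb (modularFunctionFieldBar (M * p))) : Prop :=
  ttruCen A (grdB (M * p) A (heckeBetaBar Qb M p (grdQ M hc.mem)))
    (heckeBetaBar Qb M p (grdQ M hc.mem))
    (ttalN (ttrglO2 M A hpM hA) (grdB (M * p) A (heckeBetaBar Qb M p (grdQ M hc.mem)))
      (ttrgl_le₂ M A hpM hA hc) (ttrglRed₂ M A hpM hA) Q) v

variable {τ τ' : LaurentSeries ℤ}

/-- **the centre predicate, index 1** : in the chart `τ` if `τ̄` is regular at `Q`, in the chart
`τ'` otherwise. -/
def ttrglCen₁ (hat : GrdAtlas M A τ τ')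
    (Q : Place (ResidueField A) (modularFunctionFieldFullC (ResidueField A) M))
    (v : Place Qb (modularFunctionFieldBar (M * p))) : Prop :=
  if grdK M A hat.c.mem ∈ Q.toValuationSubring then ttrglCenC₁ M A hpM hA hat.c Q v
  else ttrglCenC₁ M A hpM hA hat.c' Q v

/-- **the centre predicate, index 2.** -/
def ttrglCen₂ (hat : GrdAtlas M A τ τ')
    (Q : Place (ResidueField A) (modularFunctionFieldFullC (ResidueField A) M))
    (v : Place Qb (modularFunctionFieldBar (M * p))) : Prop :=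
  if grdK M A hat.c.mem ∈ Q.toValuationSubring then ttrglCenC₂ M A hpM hA hat.c Q v
  else ttrglCenC₂ M A hpM hA hat.c' Q v

end Defs

section Charts

/-- `TtrpChart`, index 1, for ANY chart, with the trivial `v = 0` (only `base_mem`, `red_base`,
`int_mem` are used below). -/
theorem ttrgl_chart₁ (hpM : ¬ p ∣ M) (hA : A.LiesOverPrime p) {υ : LaurentSeries ℤ}
    (hc : GrdChart M A υ) :
    TtrpChart M p A (heckeAlphaBar Qb M p) hc.mem (grdO (M * p) A) (ttrRed1 M A hA) 0 := by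
  refine ttr_chart₁ M A hpM hA hc 0 (Subring.zero_mem _) fun h => ?_
  have e : (⟨ttrW M hpM 0, h⟩ : ↥(grdO (M * p) A)) = 0 := Subtype.ext (map_zero _)
  rw [e, map_zero]

/-- `TtrpChart`, index 2, for ANY chart, with the trivial `v = 0`. -/
theorem ttrgl_chart₂ (hpM : ¬ p ∣ M) (hA : A.LiesOverPrime p) {υ : LaurentSeries ℤ}
    (hc : GrdChart M A υ) :
    TtrpChart M p A (heckeBetaBar Qb M p) hc.mem (ttrV2 M A hpM) (ttrRed2 M A hpM hA) 0 := by
  refine ttr_chart₂ M A hpM hA hc 0 (Subring.zero_mem _) fun h => ?_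
  have e : (⟨0, h⟩ : ↥(grdO (M * p) A)) = 0 := rfl
  rw [e, map_zero]

/-- integrality of values at a place of the chart. -/
theorem ttrgl_valA (u : modularFunctionFieldBar (M * p))
    (v : Place Qb (modularFunctionFieldBar (M * p)))
    (hv : ∃ a : A, GrdVal v u (a : Qb)) (b : ↥(grdB (M * p) A u)) (c : Qb)
    (hc : GrdVal v (b : modularFunctionFieldBar (M * p)) c) : c ∈ A := by
  obtain ⟨a, ha⟩ := ttrli_chart (M * p) A u v hv b b.2
  rw [grdg_val_unique v hc ha]
  exact a.2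

/-- **the local package at a place `Q` of ONE chart, index 1** (helper29's `ttal_pt_chart` on
helper15's `LocInputs`). -/
theorem ttrgl_pkC₁ (hpM : ¬ p ∣ M) (hA : A.LiesOverPrime p) {υ : LaurentSeries ℤ}
    (hc : GrdChart M A υ)
    (Q : Place (ResidueField A) (modularFunctionFieldFullC (ResidueField A) M))
    (hQ : grdK M A hc.mem ∈ Q.toValuationSubring) :
    TtriPt A (ttrglO2 M A hpM hA) (grdB (M * p) A (heckeAlphaBar Qb M p (grdQ M hc.mem)))
      (ttrgl_le₁ M A hpM hA hc) (ttrglRed₁ M A hpM hA) (ttrglCenC₁ M A hpM hA hc Q) Q := by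
  have H := ttrgl_chart₁ M A hpM hA hc
  exact ttal_pt_chart (heckeAlphaBar Qb M p) hc (grdO (M * p) A) (ttrRed1 M A hA) H.base_mem
    H.red_base H.int_mem (ttrglO2 M A hpM hA)
    (show ttrglO2 M A hpM hA ≤ grdO (M * p) A from inf_le_left) (ttrgl_le₁ M A hpM hA hc) hpM hA
    (ttrli_breg (M * p) A _) (ttrli_sat_alpha M A hpM hA hc) (ttrli_res (M * p))
    (ttrgl_valA M A _) Q hQ

/-- **the local package at a place `Q` of ONE chart, index 2.** -/
theorem ttrgl_pkC₂ (hpM : ¬ p ∣ M) (hA : A.LiesOverPrime p) {υ : LaurentSeries ℤ}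
    (hc : GrdChart M A υ)
    (Q : Place (ResidueField A) (modularFunctionFieldFullC (ResidueField A) M))
    (hQ : grdK M A hc.mem ∈ Q.toValuationSubring) :
    TtriPt A (ttrglO2 M A hpM hA) (grdB (M * p) A (heckeBetaBar Qb M p (grdQ M hc.mem)))
      (ttrgl_le₂ M A hpM hA hc) (ttrglRed₂ M A hpM hA) (ttrglCenC₂ M A hpM hA hc Q) Q := by
  have H := ttrgl_chart₂ M A hpM hA hc
  exact ttal_pt_chart (heckeBetaBar Qb M p) hc (ttrV2 M A hpM) (ttrRed2 M A hpM hA) H.base_mem
    H.red_base H.int_mem (ttrglO2 M A hpM hA)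
    (show ttrglO2 M A hpM hA ≤ ttrV2 M A hpM from inf_le_right) (ttrgl_le₂ M A hpM hA hc) hpM hA
    (ttrli_breg (M * p) A _) (ttrli_sat_beta M A hpM hA hc) (ttrli_res (M * p))
    (ttrgl_valA M A _) Q hQ

/-- values in `k` of `red₁ B` at a place of the chart. -/
theorem ttrgl_valQ₁ (hpM : ¬ p ∣ M) (hA : A.LiesOverPrime p) {υ : LaurentSeries ℤ}
    (hc : GrdChart M A υ)
    (Q : Place (ResidueField A) (modularFunctionFieldFullC (ResidueField A) M))
    (hQ : grdK M A hc.mem ∈ Q.toValuationSubring)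
    (b : ↥(grdB (M * p) A (heckeAlphaBar Qb M p (grdQ M hc.mem)))) :
    ∃ c : ResidueField A,
      GrdVal Q (ttrglRed₁ M A hpM hA ⟨b, ttrgl_le₁ M A hpM hA hc b.2⟩) c := by
  have H := ttrgl_chart₁ M A hpM hA hc
  exact ttal_chart_valQ (heckeAlphaBar Qb M p) hc (grdO (M * p) A) (ttrRed1 M A hA) H.base_mem
    H.red_base H.int_mem Q hQ b

/-- values in `k` of `red₂ B` at a place of the chart. -/
theorem ttrgl_valQ₂ (hpM : ¬ p ∣ M) (hA : A.LiesOverPrime p) {υ : LaurentSeries ℤ}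
    (hc : GrdChart M A υ)
    (Q : Place (ResidueField A) (modularFunctionFieldFullC (ResidueField A) M))
    (hQ : grdK M A hc.mem ∈ Q.toValuationSubring)
    (b : ↥(grdB (M * p) A (heckeBetaBar Qb M p (grdQ M hc.mem)))) :
    ∃ c : ResidueField A,
      GrdVal Q (ttrglRed₂ M A hpM hA ⟨b, ttrgl_le₂ M A hpM hA hc b.2⟩) c := by
  have H := ttrgl_chart₂ M A hpM hA hc
  exact ttal_chart_valQ (heckeBetaBar Qb M p) hc (ttrV2 M A hpM) (ttrRed2 M A hpM hA) H.base_mem
    H.red_base H.int_mem Q hQ b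

end Charts

section Atlas

variable {τ τ' : LaurentSeries ℤ}

/-- a place of `F_k(M)` outside the chart `τ` lies in the chart `τ'`. -/
theorem ttrgl_chartK' (hat : GrdAtlas M A τ τ')
    (Q : Place (ResidueField A) (modularFunctionFieldFullC (ResidueField A) M))
    (hQ : grdK M A hat.c.mem ∉ Q.toValuationSubring) :
    grdK M A hat.c'.mem ∈ Q.toValuationSubring := by
  rcases grd_chart_coverK M A hat Q with h | h
  · exact absurd h hQ
  · exact grdg_val_mem Q h

theorem ttrgl_cen₁_pos (hpM : ¬ p ∣ M) (hA : A.LiesOverPrime p) (hat : GrdAtlas M A τ τ')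
    (Q : Place (ResidueField A) (modularFunctionFieldFullC (ResidueField A) M))
    (hQ : grdK M A hat.c.mem ∈ Q.toValuationSubring) :
    ttrglCen₁ M A hpM hA hat Q = ttrglCenC₁ M A hpM hA hat.c Q := by
  funext v
  unfold ttrglCen₁
  rw [if_pos hQ]

theorem ttrgl_cen₁_neg (hpM : ¬ p ∣ M) (hA : A.LiesOverPrime p) (hat : GrdAtlas M A τ τ')
    (Q : Place (ResidueField A) (modularFunctionFieldFullC (ResidueField A) M))
    (hQ : grdK M A hat.c.mem ∉ Q.toValuationSubring) :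
    ttrglCen₁ M A hpM hA hat Q = ttrglCenC₁ M A hpM hA hat.c' Q := by
  funext v
  unfold ttrglCen₁
  rw [if_neg hQ]

theorem ttrgl_cen₂_pos (hpM : ¬ p ∣ M) (hA : A.LiesOverPrime p) (hat : GrdAtlas M A τ τ')
    (Q : Place (ResidueField A) (modularFunctionFieldFullC (ResidueField A) M))
    (hQ : grdK M A hat.c.mem ∈ Q.toValuationSubring) :
    ttrglCen₂ M A hpM hA hat Q = ttrglCenC₂ M A hpM hA hat.c Q := by
  funext v
  unfold ttrglCen₂
  rw [if_pos hQ]

theorem ttrgl_cen₂_neg (hpM : ¬ p ∣ M) (hA : A.LiesOverPrime p) (hat : GrdAtlas M A τ τ')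
    (Q : Place (ResidueField A) (modularFunctionFieldFullC (ResidueField A) M))
    (hQ : grdK M A hat.c.mem ∉ Q.toValuationSubring) :
    ttrglCen₂ M A hpM hA hat Q = ttrglCenC₂ M A hpM hA hat.c' Q := by
  funext v
  unfold ttrglCen₂
  rw [if_neg hQ]

/-- **the local package at EVERY place `Q` of `F_k(M)`, index 1.** -/
theorem ttrgl_pk₁ (hpM : ¬ p ∣ M) (hA : A.LiesOverPrime p) (hat : GrdAtlas M A τ τ')
    (Q : Place (ResidueField A) (modularFunctionFieldFullC (ResidueField A) M)) :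
    ∃ (B : Subring (modularFunctionFieldBar (M * p))) (hBO : B ≤ ttrglO2 M A hpM hA),
      TtriPt A (ttrglO2 M A hpM hA) B hBO (ttrglRed₁ M A hpM hA)
        (ttrglCen₁ M A hpM hA hat Q) Q := by
  by_cases hQ : grdK M A hat.c.mem ∈ Q.toValuationSubring
  · refine ⟨_, ttrgl_le₁ M A hpM hA hat.c, ?_⟩
    rw [ttrgl_cen₁_pos M A hpM hA hat Q hQ]
    exact ttrgl_pkC₁ M A hpM hA hat.c Q hQ
  · refine ⟨_, ttrgl_le₁ M A hpM hA hat.c', ?_⟩
    rw [ttrgl_cen₁_neg M A hpM hA hat Q hQ]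
    exact ttrgl_pkC₁ M A hpM hA hat.c' Q (ttrgl_chartK' M A hat Q hQ)

/-- **the local package at EVERY place `Q` of `F_k(M)`, index 2.** -/
theorem ttrgl_pk₂ (hpM : ¬ p ∣ M) (hA : A.LiesOverPrime p) (hat : GrdAtlas M A τ τ')
    (Q : Place (ResidueField A) (modularFunctionFieldFullC (ResidueField A) M)) :
    ∃ (B : Subring (modularFunctionFieldBar (M * p))) (hBO : B ≤ ttrglO2 M A hpM hA),
      TtriPt A (ttrglO2 M A hpM hA) B hBO (ttrglRed₂ M A hpM hA)
        (ttrglCen₂ M A hpM hA hat Q) Q := by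
  by_cases hQ : grdK M A hat.c.mem ∈ Q.toValuationSubring
  · refine ⟨_, ttrgl_le₂ M A hpM hA hat.c, ?_⟩
    rw [ttrgl_cen₂_pos M A hpM hA hat Q hQ]
    exact ttrgl_pkC₂ M A hpM hA hat.c Q hQ
  · refine ⟨_, ttrgl_le₂ M A hpM hA hat.c', ?_⟩
    rw [ttrgl_cen₂_neg M A hpM hA hat Q hQ]
    exact ttrgl_pkC₂ M A hpM hA hat.c' Q (ttrgl_chartK' M A hat Q hQ)

/-- **(I1), index 1** : a place centred at `Q` reduces to `Q` through `α`. -/
theorem ttrgl_hCr₁ (hpM : ¬ p ∣ M) (hA : A.LiesOverPrime p) (hat : GrdAtlas M A τ τ')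
    (r : Place Qb (modularFunctionFieldBar M) →
      Place (ResidueField A) (modularFunctionFieldFullC (ResidueField A) M))
    (hr : GrdIsRed M A hat.c.mem hat.c'.mem r)
    (Q : Place (ResidueField A) (modularFunctionFieldFullC (ResidueField A) M))
    (v : Place Qb (modularFunctionFieldBar (M * p)))
    (h : ttrglCen₁ M A hpM hA hat Q v) :
    ttrpR M p A (heckeAlphaBar Qb M p) (gff_alpha_integral M p) r v = Q := by
  by_cases hQ : grdK M A hat.c.mem ∈ Q.toValuationSubring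
  · rw [ttrgl_cen₁_pos M A hpM hA hat Q hQ] at h
    exact ttrgl_r_of_cen hpM hA hat r hr (gff_alpha_integral M p) (ttrgl_chart₁ M A hpM hA hat.c)
      (ttrglO2 M A hpM hA) (show ttrglO2 M A hpM hA ≤ grdO (M * p) A from inf_le_left)
      (ttrgl_le₁ M A hpM hA hat.c) (ttrglRed₁ M A hpM hA) (fun x hx => rfl) Q
      (ttrgl_valQ₁ M A hpM hA hat.c Q hQ) v h
  · rw [ttrgl_cen₁_neg M A hpM hA hat Q hQ] at h
    exact ttrgl_r_of_cen' hpM hA hat r hr (gff_alpha_integral M p)
      (ttrgl_chart₁ M A hpM hA hat.c')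
      (ttrglO2 M A hpM hA) (show ttrglO2 M A hpM hA ≤ grdO (M * p) A from inf_le_left)
      (ttrgl_le₁ M A hpM hA hat.c') (ttrglRed₁ M A hpM hA) (fun x hx => rfl) Q
      (ttrgl_valQ₁ M A hpM hA hat.c' Q (ttrgl_chartK' M A hat Q hQ)) v h

/-- **(I1), index 2** : a place centred at `Q` reduces to `Q` through `β`. -/
theorem ttrgl_hCr₂ (hpM : ¬ p ∣ M) (hA : A.LiesOverPrime p) (hat : GrdAtlas M A τ τ')
    (r : Place Qb (modularFunctionFieldBar M) →
      Place (ResidueField A) (modularFunctionFieldFullC (ResidueField A) M))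
    (hr : GrdIsRed M A hat.c.mem hat.c'.mem r)
    (Q : Place (ResidueField A) (modularFunctionFieldFullC (ResidueField A) M))
    (v : Place Qb (modularFunctionFieldBar (M * p)))
    (h : ttrglCen₂ M A hpM hA hat Q v) :
    ttrpR M p A (heckeBetaBar Qb M p) (gff_beta_integral M p) r v = Q := by
  by_cases hQ : grdK M A hat.c.mem ∈ Q.toValuationSubring
  · rw [ttrgl_cen₂_pos M A hpM hA hat Q hQ] at h
    exact ttrgl_r_of_cen hpM hA hat r hr (gff_beta_integral M p) (ttrgl_chart₂ M A hpM hA hat.c)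
      (ttrglO2 M A hpM hA) (show ttrglO2 M A hpM hA ≤ ttrV2 M A hpM from inf_le_right)
      (ttrgl_le₂ M A hpM hA hat.c) (ttrglRed₂ M A hpM hA) (fun x hx => rfl) Q
      (ttrgl_valQ₂ M A hpM hA hat.c Q hQ) v h
  · rw [ttrgl_cen₂_neg M A hpM hA hat Q hQ] at h
    exact ttrgl_r_of_cen' hpM hA hat r hr (gff_beta_integral M p)
      (ttrgl_chart₂ M A hpM hA hat.c')
      (ttrglO2 M A hpM hA) (show ttrglO2 M A hpM hA ≤ ttrV2 M A hpM from inf_le_right)
      (ttrgl_le₂ M A hpM hA hat.c') (ttrglRed₂ M A hpM hA) (fun x hx => rfl) Q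
      (ttrgl_valQ₂ M A hpM hA hat.c' Q (ttrgl_chartK' M A hat Q hQ)) v h

/-- **a good place of the first kind is centred at its reduction.** -/
theorem ttrgl_hgood₁ (hpM : ¬ p ∣ M) (hA : A.LiesOverPrime p) (hat : GrdAtlas M A τ τ')
    (r : Place Qb (modularFunctionFieldBar M) →
      Place (ResidueField A) (modularFunctionFieldFullC (ResidueField A) M))
    (hr : GrdIsRed M A hat.c.mem hat.c'.mem r)
    (v₁ : modularFunctionFieldBar (M * p))
    (H₁ : TtrpChart M p A (heckeAlphaBar Qb M p) hat.c.mem (grdO (M * p) A) (ttrRed1 M A hA) v₁)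
    (P : Place Qb (modularFunctionFieldBar (M * p)))
    (hP : TtrpGoodC M p A (heckeAlphaBar Qb M p (grdQ M hat.c.mem)) v₁ P) :
    ttrglCen₁ M A hpM hA hat
      (ttrpR M p A (heckeAlphaBar Qb M p) (gff_alpha_integral M p) r P) P := by
  have hP₀ : GrdInChart M A (grdQ M hat.c.mem)
      (ttrpRes M p (heckeAlphaBar Qb M p) (gff_alpha_integral M p) P) :=
    (ttrp_inChart_res (gff_alpha_integral M p) _ P).mpr hP.1
  have hrel := (grd_isRed_rel M A hpM hA hat r hr _).1 hP₀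
  have hQ : grdK M A hat.c.mem ∈
      (ttrpR M p A (heckeAlphaBar Qb M p) (gff_alpha_integral M p) r P).toValuationSubring :=
    grd_rel_inChartK M A hat.c.mem _ hP₀ _ hrel
  rw [ttrgl_cen₁_pos M A hpM hA hat _ hQ]
  exact ttrgl_cen_of_good hpM hA hat r hr (gff_alpha_integral M p) H₁ (ttrglO2 M A hpM hA)
    (show ttrglO2 M A hpM hA ≤ grdO (M * p) A from inf_le_left) (ttrgl_le₁ M A hpM hA hat.c)
    (ttrglRed₁ M A hpM hA) (fun x hx => rfl) P hP

/-- **a good place of the second kind is centred at its reduction.** -/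
theorem ttrgl_hgood₂ (hpM : ¬ p ∣ M) (hA : A.LiesOverPrime p) (hat : GrdAtlas M A τ τ')
    (r : Place Qb (modularFunctionFieldBar M) →
      Place (ResidueField A) (modularFunctionFieldFullC (ResidueField A) M))
    (hr : GrdIsRed M A hat.c.mem hat.c'.mem r)
    (v₂ : modularFunctionFieldBar (M * p))
    (H₂ : TtrpChart M p A (heckeBetaBar Qb M p) hat.c.mem (ttrV2 M A hpM)
      (ttrRed2 M A hpM hA) v₂)
    (P : Place Qb (modularFunctionFieldBar (M * p)))
    (hP : TtrpGoodC M p A (heckeBetaBar Qb M p (grdQ M hat.c.mem)) v₂ P) :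
    ttrglCen₂ M A hpM hA hat
      (ttrpR M p A (heckeBetaBar Qb M p) (gff_beta_integral M p) r P) P := by
  have hP₀ : GrdInChart M A (grdQ M hat.c.mem)
      (ttrpRes M p (heckeBetaBar Qb M p) (gff_beta_integral M p) P) :=
    (ttrp_inChart_res (gff_beta_integral M p) _ P).mpr hP.1
  have hrel := (grd_isRed_rel M A hpM hA hat r hr _).1 hP₀
  have hQ : grdK M A hat.c.mem ∈
      (ttrpR M p A (heckeBetaBar Qb M p) (gff_beta_integral M p) r P).toValuationSubring :=
    grd_rel_inChartK M A hat.c.mem _ hP₀ _ hrel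
  rw [ttrgl_cen₂_pos M A hpM hA hat _ hQ]
  exact ttrgl_cen_of_good hpM hA hat r hr (gff_beta_integral M p) H₂ (ttrglO2 M A hpM hA)
    (show ttrglO2 M A hpM hA ≤ ttrV2 M A hpM from inf_le_right) (ttrgl_le₂ M A hpM hA hat.c)
    (ttrglRed₂ M A hpM hA) (fun x hx => rfl) P hP

/-- **THE FIELD `into` OF `TtgModel` AT LEVEL `M p`, VERBATIM** (helper2's `ttra_model` spelling,
class map helper6's `ttrpCls`), from
* `H₁`, `H₂` : helper6's chart interface for the good-locus equations `v₁`, `v₂` (first chart);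
* `hrν_j` : a good place does not reduce to a node (helper9 `NodeGood`);
* `hcross` : a place centred on both components is centred at a node;
* `hcenN` : the places centred at a node are bad; `hN` : the node packages (helper3). -/
theorem ttrgl_into_inst (hpM : ¬ p ∣ M) (hA : A.LiesOverPrime p) (hat : GrdAtlas M A τ τ')
    (r : Place Qb (modularFunctionFieldBar M) →
      Place (ResidueField A) (modularFunctionFieldFullC (ResidueField A) M))
    (hr : GrdIsRed M A hat.c.mem hat.c'.mem r)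
    (v₁ v₂ : modularFunctionFieldBar (M * p))
    (H₁ : TtrpChart M p A (heckeAlphaBar Qb M p) hat.c.mem (grdO (M * p) A) (ttrRed1 M A hA) v₁)
    (H₂ : TtrpChart M p A (heckeBetaBar Qb M p) hat.c.mem (ttrV2 M A hpM)
      (ttrRed2 M A hpM hA) v₂)
    {S : Type} [Fintype S]
    (ν₁ ν₂ : S → Place (ResidueField A) ↥(modularFunctionFieldFullC (ResidueField A) M))
    (hrν₁ : ∀ (P : Place Qb (modularFunctionFieldBar (M * p))) (i : S),
      TtrpGoodC M p A (heckeAlphaBar Qb M p (grdQ M hat.c.mem)) v₁ P →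
        ttrpR M p A (heckeAlphaBar Qb M p) (gff_alpha_integral M p) r P ≠ ν₁ i)
    (hrν₂ : ∀ (P : Place Qb (modularFunctionFieldBar (M * p))) (i : S),
      TtrpGoodC M p A (heckeBetaBar Qb M p (grdQ M hat.c.mem)) v₂ P →
        ttrpR M p A (heckeBetaBar Qb M p) (gff_beta_integral M p) r P ≠ ν₂ i)
    (hcross : ∀ (Q Q' : Place (ResidueField A) ↥(modularFunctionFieldFullC (ResidueField A) M))
      (v : Place Qb (modularFunctionFieldBar (M * p))),
      ttrglCen₁ M A hpM hA hat Q v → ttrglCen₂ M A hpM hA hat Q' v → ∃ i, ν₁ i = Q)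
    (cenN : S → Place Qb (modularFunctionFieldBar (M * p)) → Prop)
    (hcenN : ∀ i v, cenN i v →
      ¬ TtrpGoodC M p A (heckeAlphaBar Qb M p (grdQ M hat.c.mem)) v₁ v ∧
        ¬ TtrpGoodC M p A (heckeBetaBar Qb M p (grdQ M hat.c.mem)) v₂ v)
    (hN : ∀ i, ∃ (B : Subring (modularFunctionFieldBar (M * p)))
        (hBO : B ≤ ttrglO2 M A hpM hA),
      (∀ x ∈ ttrglO2 M A hpM hA, (∀ v, cenN i v → x ∈ v.toValuationSubring) →
        ∃ s : B, ¬ GrdVal (ν₁ i) (ttrglRed₁ M A hpM hA ⟨s, hBO s.2⟩) 0 ∧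
          (s : modularFunctionFieldBar (M * p)) * x ∈ B) ∧
      ∀ b : B, ∃ c : ResidueField A,
        GrdVal (ν₁ i) (ttrglRed₁ M A hpM hA ⟨b, hBO b.2⟩) c ∧
          GrdVal (ν₂ i) (ttrglRed₂ M A hpM hA ⟨b, hBO b.2⟩) c) :
    ∀ D : Divisor Qb ↥(modularFunctionFieldBar (M * p)),
      (∀ P, D P ≠ 0 → ttrpCls M p A r (heckeAlphaBar Qb M p (grdQ M hat.c.mem)) v₁
        (heckeBetaBar Qb M p (grdQ M hat.c.mem)) v₂ P ≠ none) →
      (∀ P, -1 ≤ D P) →
      (∀ P P' : Place Qb ↥(modularFunctionFieldBar (M * p)),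
        ttrpCls M p A r (heckeAlphaBar Qb M p (grdQ M hat.c.mem)) v₁
          (heckeBetaBar Qb M p (grdQ M hat.c.mem)) v₂ P =
        ttrpCls M p A r (heckeAlphaBar Qb M p (grdQ M hat.c.mem)) v₁
          (heckeBetaBar Qb M p (grdQ M hat.c.mem)) v₂ P' → D P < 0 → D P' < 0 → P = P') →
      ∀ (x : ↥(modularFunctionFieldBar (M * p))) (hx₁ : x ∈ ttrV1 M A hpM hA)
        (hx₂ : x ∈ ttraV2 M A hpM hA), x ∈ riemannRochSpace D →
        (ttraRed1 M A hpM hA ⟨x, hx₁⟩, ttraRed2 M A hpM hA ⟨x, hx₂⟩) ∈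
          ttnkL ν₁ ν₂
            (ttgPush₁ (ttrpCls M p A r (heckeAlphaBar Qb M p (grdQ M hat.c.mem)) v₁
              (heckeBetaBar Qb M p (grdQ M hat.c.mem)) v₂) D)
            (ttgPush₂ (ttrpCls M p A r (heckeAlphaBar Qb M p (grdQ M hat.c.mem)) v₁
              (heckeBetaBar Qb M p (grdQ M hat.c.mem)) v₂) D) :=
  ttrgl_into (ttrV1 M A hpM hA) (ttraV2 M A hpM hA) (ttraRed1 M A hpM hA) (ttraRed2 M A hpM hA)
    (ttrpR M p A (heckeAlphaBar Qb M p) (gff_alpha_integral M p) r)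
    (ttrpR M p A (heckeBetaBar Qb M p) (gff_beta_integral M p) r) ν₁ ν₂
    (ttrglCen₁ M A hpM hA hat) (ttrglCen₂ M A hpM hA hat)
    (ttrgl_hCr₁ M A hpM hA hat r hr) (ttrgl_hCr₂ M A hpM hA hat r hr) hcross
    (TtrpGoodC M p A (heckeAlphaBar Qb M p (grdQ M hat.c.mem)) v₁)
    (TtrpGoodC M p A (heckeBetaBar Qb M p (grdQ M hat.c.mem)) v₂)
    (fun v hv => ⟨fun i h => hrν₁ v i hv h.symm, ttrgl_hgood₁ M A hpM hA hat r hr v₁ H₁ v hv⟩)
    (fun v hv => ⟨fun i h => hrν₂ v i hv h.symm, ttrgl_hgood₂ M A hpM hA hat r hr v₂ H₂ v hv⟩)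
    cenN hcenN (fun Q _ => ttrgl_pk₁ M A hpM hA hat Q) (fun Q _ => ttrgl_pk₂ M A hpM hA hat Q) hN

/-- reduction of `hmix12` to the two charts. -/
theorem ttrgl_hmix₁_of_charts (hpM : ¬ p ∣ M) (hA : A.LiesOverPrime p) (hat : GrdAtlas M A τ τ')
    (T : Place Qb (modularFunctionFieldBar (M * p)) → Prop)
    (hF : ∀ (Q : Place (ResidueField A) ↥(modularFunctionFieldFullC (ResidueField A) M))
      (v : Place Qb (modularFunctionFieldBar (M * p))),
      grdK M A hat.c.mem ∈ Q.toValuationSubring → ttrglCenC₁ M A hpM hA hat.c Q v → ¬ T v)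
    (hC : ∀ (Q : Place (ResidueField A) ↥(modularFunctionFieldFullC (ResidueField A) M))
      (v : Place Qb (modularFunctionFieldBar (M * p))),
      grdK M A hat.c.mem ∉ Q.toValuationSubring → ttrglCenC₁ M A hpM hA hat.c' Q v → ¬ T v)
    (Q : Place (ResidueField A) ↥(modularFunctionFieldFullC (ResidueField A) M))
    (v : Place Qb (modularFunctionFieldBar (M * p))) (h : ttrglCen₁ M A hpM hA hat Q v) :
    ¬ T v := by
  by_cases hQ : grdK M A hat.c.mem ∈ Q.toValuationSubring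
  · rw [ttrgl_cen₁_pos M A hpM hA hat Q hQ] at h
    exact hF Q v hQ h
  · rw [ttrgl_cen₁_neg M A hpM hA hat Q hQ] at h
    exact hC Q v hQ h

/-- reduction of `hmix21` to the two charts. -/
theorem ttrgl_hmix₂_of_charts (hpM : ¬ p ∣ M) (hA : A.LiesOverPrime p) (hat : GrdAtlas M A τ τ')
    (T : Place Qb (modularFunctionFieldBar (M * p)) → Prop)
    (hF : ∀ (Q : Place (ResidueField A) ↥(modularFunctionFieldFullC (ResidueField A) M))
      (v : Place Qb (modularFunctionFieldBar (M * p))),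
      grdK M A hat.c.mem ∈ Q.toValuationSubring → ttrglCenC₂ M A hpM hA hat.c Q v → ¬ T v)
    (hC : ∀ (Q : Place (ResidueField A) ↥(modularFunctionFieldFullC (ResidueField A) M))
      (v : Place Qb (modularFunctionFieldBar (M * p))),
      grdK M A hat.c.mem ∉ Q.toValuationSubring → ttrglCenC₂ M A hpM hA hat.c' Q v → ¬ T v)
    (Q : Place (ResidueField A) ↥(modularFunctionFieldFullC (ResidueField A) M))
    (v : Place Qb (modularFunctionFieldBar (M * p))) (h : ttrglCen₂ M A hpM hA hat Q v) :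
    ¬ T v := by
  by_cases hQ : grdK M A hat.c.mem ∈ Q.toValuationSubring
  · rw [ttrgl_cen₂_pos M A hpM hA hat Q hQ] at h
    exact hF Q v hQ h
  · rw [ttrgl_cen₂_neg M A hpM hA hat Q hQ] at h
    exact hC Q v hQ h

/-- **THE FIELD `into` OF `TtgModel` AT LEVEL `M p`, VERBATIM — MIXED FORM** : `hcross` replaced by
`hmix12`, `hmix21` (a place centred on one component is not a good place of the other kind). -/
theorem ttrgl_into_inst_mixed (hpM : ¬ p ∣ M) (hA : A.LiesOverPrime p)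
    (hat : GrdAtlas M A τ τ')
    (r : Place Qb (modularFunctionFieldBar M) →
      Place (ResidueField A) (modularFunctionFieldFullC (ResidueField A) M))
    (hr : GrdIsRed M A hat.c.mem hat.c'.mem r)
    (v₁ v₂ : modularFunctionFieldBar (M * p))
    (H₁ : TtrpChart M p A (heckeAlphaBar Qb M p) hat.c.mem (grdO (M * p) A) (ttrRed1 M A hA) v₁)
    (H₂ : TtrpChart M p A (heckeBetaBar Qb M p) hat.c.mem (ttrV2 M A hpM)
      (ttrRed2 M A hpM hA) v₂)
    {S : Type} [Fintype S]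
    (ν₁ ν₂ : S → Place (ResidueField A) ↥(modularFunctionFieldFullC (ResidueField A) M))
    (hrν₁ : ∀ (P : Place Qb (modularFunctionFieldBar (M * p))) (i : S),
      TtrpGoodC M p A (heckeAlphaBar Qb M p (grdQ M hat.c.mem)) v₁ P →
        ttrpR M p A (heckeAlphaBar Qb M p) (gff_alpha_integral M p) r P ≠ ν₁ i)
    (hrν₂ : ∀ (P : Place Qb (modularFunctionFieldBar (M * p))) (i : S),
      TtrpGoodC M p A (heckeBetaBar Qb M p (grdQ M hat.c.mem)) v₂ P →
        ttrpR M p A (heckeBetaBar Qb M p) (gff_beta_integral M p) r P ≠ ν₂ i)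
    (hmix12 : ∀ (Q : Place (ResidueField A) ↥(modularFunctionFieldFullC (ResidueField A) M))
      (v : Place Qb (modularFunctionFieldBar (M * p))),
      ttrglCen₁ M A hpM hA hat Q v →
        ¬ TtrpGoodC M p A (heckeBetaBar Qb M p (grdQ M hat.c.mem)) v₂ v)
    (hmix21 : ∀ (Q : Place (ResidueField A) ↥(modularFunctionFieldFullC (ResidueField A) M))
      (v : Place Qb (modularFunctionFieldBar (M * p))),
      ttrglCen₂ M A hpM hA hat Q v →
        ¬ TtrpGoodC M p A (heckeAlphaBar Qb M p (grdQ M hat.c.mem)) v₁ v)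
    (cenN : S → Place Qb (modularFunctionFieldBar (M * p)) → Prop)
    (hcenN : ∀ i v, cenN i v →
      ¬ TtrpGoodC M p A (heckeAlphaBar Qb M p (grdQ M hat.c.mem)) v₁ v ∧
        ¬ TtrpGoodC M p A (heckeBetaBar Qb M p (grdQ M hat.c.mem)) v₂ v)
    (hN : ∀ i, ∃ (B : Subring (modularFunctionFieldBar (M * p)))
        (hBO : B ≤ ttrglO2 M A hpM hA),
      (∀ x ∈ ttrglO2 M A hpM hA, (∀ v, cenN i v → x ∈ v.toValuationSubring) →
        ∃ s : B, ¬ GrdVal (ν₁ i) (ttrglRed₁ M A hpM hA ⟨s, hBO s.2⟩) 0 ∧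
          (s : modularFunctionFieldBar (M * p)) * x ∈ B) ∧
      ∀ b : B, ∃ c : ResidueField A,
        GrdVal (ν₁ i) (ttrglRed₁ M A hpM hA ⟨b, hBO b.2⟩) c ∧
          GrdVal (ν₂ i) (ttrglRed₂ M A hpM hA ⟨b, hBO b.2⟩) c) :
    ∀ D : Divisor Qb ↥(modularFunctionFieldBar (M * p)),
      (∀ P, D P ≠ 0 → ttrpCls M p A r (heckeAlphaBar Qb M p (grdQ M hat.c.mem)) v₁
        (heckeBetaBar Qb M p (grdQ M hat.c.mem)) v₂ P ≠ none) →
      (∀ P, -1 ≤ D P) →
      (∀ P P' : Place Qb ↥(modularFunctionFieldBar (M * p)),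
        ttrpCls M p A r (heckeAlphaBar Qb M p (grdQ M hat.c.mem)) v₁
          (heckeBetaBar Qb M p (grdQ M hat.c.mem)) v₂ P =
        ttrpCls M p A r (heckeAlphaBar Qb M p (grdQ M hat.c.mem)) v₁
          (heckeBetaBar Qb M p (grdQ M hat.c.mem)) v₂ P' → D P < 0 → D P' < 0 → P = P') →
      ∀ (x : ↥(modularFunctionFieldBar (M * p))) (hx₁ : x ∈ ttrV1 M A hpM hA)
        (hx₂ : x ∈ ttraV2 M A hpM hA), x ∈ riemannRochSpace D →
        (ttraRed1 M A hpM hA ⟨x, hx₁⟩, ttraRed2 M A hpM hA ⟨x, hx₂⟩) ∈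
          ttnkL ν₁ ν₂
            (ttgPush₁ (ttrpCls M p A r (heckeAlphaBar Qb M p (grdQ M hat.c.mem)) v₁
              (heckeBetaBar Qb M p (grdQ M hat.c.mem)) v₂) D)
            (ttgPush₂ (ttrpCls M p A r (heckeAlphaBar Qb M p (grdQ M hat.c.mem)) v₁
              (heckeBetaBar Qb M p (grdQ M hat.c.mem)) v₂) D) :=
  ttrgl_into_mixed (ttrV1 M A hpM hA) (ttraV2 M A hpM hA) (ttraRed1 M A hpM hA)
    (ttraRed2 M A hpM hA)
    (ttrpR M p A (heckeAlphaBar Qb M p) (gff_alpha_integral M p) r)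
    (ttrpR M p A (heckeBetaBar Qb M p) (gff_beta_integral M p) r) ν₁ ν₂
    (ttrglCen₁ M A hpM hA hat) (ttrglCen₂ M A hpM hA hat)
    (ttrgl_hCr₁ M A hpM hA hat r hr) (ttrgl_hCr₂ M A hpM hA hat r hr)
    (TtrpGoodC M p A (heckeAlphaBar Qb M p (grdQ M hat.c.mem)) v₁)
    (TtrpGoodC M p A (heckeBetaBar Qb M p (grdQ M hat.c.mem)) v₂) hmix12 hmix21
    (fun v hv => ⟨fun i h => hrν₁ v i hv h.symm, ttrgl_hgood₁ M A hpM hA hat r hr v₁ H₁ v hv⟩)
    (fun v hv => ⟨fun i h => hrν₂ v i hv h.symm, ttrgl_hgood₂ M A hpM hA hat r hr v₂ H₂ v hv⟩)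
    cenN hcenN (fun Q _ => ttrgl_pk₁ M A hpM hA hat Q) (fun Q _ => ttrgl_pk₂ M A hpM hA hat Q) hN

end Atlas

end Fermat.Agent.TT
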