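import Mathlib
import Fermat.Agent.TT.Red2.GalAbs

/-!
# Program TT (S33), G/Red₂ leaf (A6), ABSTRACT part: the two idempotents and `red` ONTO

Owner: helper2.  Namespace `Fermat.Agent.TT`, prefix `ttre`.  Mathlib + helper27's `GalAbs` (the
definitions `ttrhV2`, `ttrhRed2`, `ttrhO2`, `ttrhRed`).

`F` a field, `V₁ ≤ F` a valuation ring (`x ∈ V₁ ∨ x⁻¹ ∈ V₁`, (A1)) with a SURJECTIVE reduction
`red₁ : V₁ →+* Fk` onto a field, `w : F ≃+* F` an involution (Atkin–Lehner), `V₂ := w⁻¹ V₁`,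
`red₂ := red₁ ∘ w`, `O₂ := V₁ ⊓ V₂`, `red := (red₁, red₂)`.

`u₁ u₂ : F` (`u₁ = Y - J^p`, `u₂ = Y^p - J`) with `w u₁ = -u₂`, `w u₂ = -u₁`, `u₁, u₂ ∈ V₁`,
`red₁ u₁ = 0`, `red₁ u₂ = h ≠ 0`.  Then

* `ttre_inv_mem` / `ttre_red_inv` : `x ∈ V₁`, `red₁ x ≠ 0` ⟹ `x⁻¹ ∈ V₁`, `red₁ x⁻¹ = (red₁ x)⁻¹`
  (the maximal ideal of `V₁` is `ker red₁`);
* `ttre_u_V2` : `u₂ ∈ 𝔪_{V₂}` (`red₂ u₂ = 0`), `u₁ ∈ V₂` with `red₂ u₁ = -h`;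
* `ttre_e1` : `e₁ := u₂ / (u₁ + u₂) ∈ O₂`, `red e₁ = (1, 0)`, `red (1 - e₁) = (0, 1)`;
* `ttre_red_surjective` : if `al, be : B₀ → F` map into `V₁`, are exchanged by `w`, and
  `red₁ ∘ al` is onto `Fk`, then `red : O₂ → Fk × Fk` is ONTO.
-/

set_option autoImplicit false

namespace Fermat.Agent.TT

section Idem

variable {F : Type*} [Field F] {Fk : Type*} [Field Fk]

/-- the unit criterion: the maximal ideal of the valuation ring `V₁` is `ker red₁`. -/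
theorem ttre_inv_mem (V₁ : Subring F) (hval : ∀ x : F, x ∈ V₁ ∨ x⁻¹ ∈ V₁) (red₁ : ↥V₁ →+* Fk)
    (hsurj : Function.Surjective red₁) {x : F} (hx : x ∈ V₁) (hne : red₁ ⟨x, hx⟩ ≠ 0) :
    x⁻¹ ∈ V₁ := by
  rcases hval x⁻¹ with h | h
  · exact h
  -- otherwise `x⁻¹ ∉ V₁`; derive a contradiction from `1 = (1 + t) - t`
  by_contra hinv
  have hx0 : x ≠ 0 := by
    rintro rfl
    apply hne
    have : (⟨0, hx⟩ : ↥V₁) = 0 := rfl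
    rw [this, map_zero]
  obtain ⟨z, hz⟩ := hsurj (red₁ ⟨x, hx⟩)⁻¹
  -- `y := x z`, `red₁ y = 1`
  set y : ↥V₁ := ⟨x, hx⟩ * z with hy
  have hy1 : red₁ y = 1 := by rw [hy, map_mul, hz, mul_inv_cancel₀ hne]
  -- `y` is a unit of `V₁`: else `y⁻¹ ∉ V₁`, so by `hval` applied to ... we use `1 - y`
  have hyinv : (y : F)⁻¹ ∈ V₁ := by
    -- `t := y - 1 ∈ ker red₁`; if `y⁻¹ ∉ V₁` then consider `t / y = 1 - y⁻¹`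
    by_contra hyn
    -- `hval (t / y)`: either `1 - y⁻¹ ∈ V₁` (then `y⁻¹ ∈ V₁`) or `y / t ∈ V₁`
    have hy0 : (y : F) ≠ 0 := by
      intro h0
      have : y = 0 := Subtype.ext h0
      rw [this, map_zero] at hy1
      exact zero_ne_one hy1
    rcases hval (1 - (y : F)⁻¹) with h1 | h1
    · apply hyn
      have : (y : F)⁻¹ = 1 - (1 - (y : F)⁻¹) := by ring
      rw [this]
      exact V₁.sub_mem V₁.one_mem h1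
    · -- `s := (1 - y⁻¹)⁻¹ = y / (y - 1) ∈ V₁`, and `s * (y - 1) = y`, so `red₁ s * 0 = 1`
      have ht : red₁ (y - 1) = 0 := by rw [map_sub, hy1, map_one, sub_self]
      have hyne1 : (y : F) - 1 ≠ 0 := by
        intro h0
        apply hyn
        have : (y : F) = 1 := sub_eq_zero.mp h0
        rw [this, inv_one]
        exact V₁.one_mem
      have hs : (⟨(1 - (y : F)⁻¹)⁻¹, h1⟩ : ↥V₁) * (y - 1) = y := by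
        apply Subtype.ext
        show (1 - (y : F)⁻¹)⁻¹ * ((y : F) - 1) = (y : F)
        field_simp
      have := congrArg red₁ hs
      rw [map_mul, ht, mul_zero, hy1] at this
      exact zero_ne_one this
  -- now `x⁻¹ = z * y⁻¹`
  apply hinv
  have : x⁻¹ = (z : F) * (y : F)⁻¹ := by
    have hyF : (y : F) = x * (z : F) := rfl
    have hz0 : (z : F) ≠ 0 := by
      intro h0
      have : z = 0 := Subtype.ext h0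
      rw [this, map_zero] at hz
      exact (inv_ne_zero hne) hz.symm
    rw [hyF]
    field_simp
  rw [this]
  exact V₁.mul_mem z.2 hyinv

/-- `red₁ x⁻¹ = (red₁ x)⁻¹`. -/
theorem ttre_red_inv (V₁ : Subring F) (red₁ : ↥V₁ →+* Fk) {x : F} (hx : x ∈ V₁)
    (hxi : x⁻¹ ∈ V₁) (hx0 : x ≠ 0) : red₁ ⟨x⁻¹, hxi⟩ = (red₁ ⟨x, hx⟩)⁻¹ := by
  have h1 : (⟨x⁻¹, hxi⟩ : ↥V₁) * ⟨x, hx⟩ = 1 := Subtype.ext (inv_mul_cancel₀ hx0)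
  have h2 := congrArg red₁ h1
  rw [map_mul, map_one] at h2
  exact eq_inv_of_mul_eq_one_left h2

variable (V₁ : Subring F) (w : F ≃+* F) (red₁ : ↥V₁ →+* Fk)

/-- the facts about `u₁, u₂` in the second chart. -/
theorem ttre_u_V2 {u₁ u₂ : F} (hwu₁ : w u₁ = -u₂) (hwu₂ : w u₂ = -u₁)
    (hu₁ : u₁ ∈ V₁) (hu₂ : u₂ ∈ V₁) (hr₁ : red₁ ⟨u₁, hu₁⟩ = 0) :
    ∃ (h₂ : u₂ ∈ ttrhV2 V₁ w) (h₁ : u₁ ∈ ttrhV2 V₁ w),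
      ttrhRed2 V₁ w red₁ ⟨u₂, h₂⟩ = 0 ∧
      ttrhRed2 V₁ w red₁ ⟨u₁, h₁⟩ = -red₁ ⟨u₂, hu₂⟩ := by
  have h₂ : u₂ ∈ ttrhV2 V₁ w := by
    rw [ttrh_mem_V2, hwu₂]; exact V₁.neg_mem hu₁
  have h₁ : u₁ ∈ ttrhV2 V₁ w := by
    rw [ttrh_mem_V2, hwu₁]; exact V₁.neg_mem hu₂
  refine ⟨h₂, h₁, ?_, ?_⟩
  · rw [ttrhRed2_apply]
    have : (⟨w u₂, h₂⟩ : ↥V₁) = -⟨u₁, hu₁⟩ := Subtype.ext hwu₂
    rw [this, map_neg, hr₁, neg_zero]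
  · rw [ttrhRed2_apply]
    have : (⟨w u₁, h₁⟩ : ↥V₁) = -⟨u₂, hu₂⟩ := Subtype.ext hwu₁
    rw [this, map_neg]

/-- **the idempotent** `e₁ = u₂ / (u₁ + u₂)`: it lies in `O₂` and reduces to `(1, 0)`;
`1 - e₁` reduces to `(0, 1)`. -/
theorem ttre_e1 (hval : ∀ x : F, x ∈ V₁ ∨ x⁻¹ ∈ V₁) (hsurj : Function.Surjective red₁)
    {u₁ u₂ : F} (hwu₁ : w u₁ = -u₂) (hwu₂ : w u₂ = -u₁)
    (hu₁ : u₁ ∈ V₁) (hu₂ : u₂ ∈ V₁) (hr₁ : red₁ ⟨u₁, hu₁⟩ = 0) (hr₂ : red₁ ⟨u₂, hu₂⟩ ≠ 0) :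
    ∃ he : u₂ / (u₁ + u₂) ∈ ttrhO2 V₁ w,
      ttrhRed V₁ w red₁ ⟨u₂ / (u₁ + u₂), he⟩ = (1, 0) ∧
      ttrhRed V₁ w red₁ (1 - ⟨u₂ / (u₁ + u₂), he⟩) = (0, 1) := by
  -- the sum is a unit of `V₁`
  have hs : u₁ + u₂ ∈ V₁ := V₁.add_mem hu₁ hu₂
  have hrs : red₁ ⟨u₁ + u₂, hs⟩ = red₁ ⟨u₂, hu₂⟩ := by
    have : (⟨u₁ + u₂, hs⟩ : ↥V₁) = ⟨u₁, hu₁⟩ + ⟨u₂, hu₂⟩ := rfl
    rw [this, map_add, hr₁, zero_add]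
  have hsne : red₁ ⟨u₁ + u₂, hs⟩ ≠ 0 := by rw [hrs]; exact hr₂
  have hs0 : u₁ + u₂ ≠ 0 := by
    intro h0
    apply hsne
    have : (⟨u₁ + u₂, hs⟩ : ↥V₁) = 0 := Subtype.ext h0
    rw [this, map_zero]
  have hsi : (u₁ + u₂)⁻¹ ∈ V₁ := ttre_inv_mem V₁ hval red₁ hsurj hs hsne
  have hrsi : red₁ ⟨(u₁ + u₂)⁻¹, hsi⟩ = (red₁ ⟨u₂, hu₂⟩)⁻¹ := by
    rw [ttre_red_inv V₁ red₁ hs hsi hs0, hrs]
  -- `e₁ ∈ V₁`, `w e₁ = u₁ / (u₁ + u₂) ∈ V₁`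
  have he1 : u₂ / (u₁ + u₂) ∈ V₁ := by
    rw [div_eq_mul_inv]; exact V₁.mul_mem hu₂ hsi
  have hwe : w (u₂ / (u₁ + u₂)) = u₁ / (u₁ + u₂) := by
    rw [map_div₀, map_add, hwu₁, hwu₂]
    rw [show -u₂ + -u₁ = -(u₁ + u₂) by ring, neg_div_neg_eq]
  have he2 : u₁ / (u₁ + u₂) ∈ V₁ := by
    rw [div_eq_mul_inv]; exact V₁.mul_mem hu₁ hsi
  have he : u₂ / (u₁ + u₂) ∈ ttrhO2 V₁ w := by
    rw [ttrh_mem_O2, hwe]; exact ⟨he1, he2⟩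
  have hred1 : red₁ ⟨u₂ / (u₁ + u₂), he1⟩ = 1 := by
    have : (⟨u₂ / (u₁ + u₂), he1⟩ : ↥V₁) = ⟨u₂, hu₂⟩ * ⟨(u₁ + u₂)⁻¹, hsi⟩ :=
      Subtype.ext (div_eq_mul_inv _ _)
    rw [this, map_mul, hrsi, mul_inv_cancel₀ hr₂]
  have hred2 : red₁ ⟨u₁ / (u₁ + u₂), he2⟩ = 0 := by
    have : (⟨u₁ / (u₁ + u₂), he2⟩ : ↥V₁) = ⟨u₁, hu₁⟩ * ⟨(u₁ + u₂)⁻¹, hsi⟩ :=
      Subtype.ext (div_eq_mul_inv _ _)
    rw [this, map_mul, hr₁, zero_mul]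
  have hmain : ttrhRed V₁ w red₁ ⟨u₂ / (u₁ + u₂), he⟩ = (1, 0) := by
    rw [ttrhRed_apply]
    refine Prod.ext ?_ ?_
    · exact hred1
    · show red₁ ⟨w (u₂ / (u₁ + u₂)), _⟩ = 0
      have : (⟨w (u₂ / (u₁ + u₂)), he.2⟩ : ↥V₁) = ⟨u₁ / (u₁ + u₂), he2⟩ := Subtype.ext hwe
      rw [this, hred2]
  refine ⟨he, hmain, ?_⟩
  rw [map_sub, map_one, hmain]
  ext <;> simp

/-- **`red : O₂ → Fk × Fk` is ONTO**, from the two sections `al`, `be` exchanged by `w`. -/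
theorem ttre_red_surjective (hval : ∀ x : F, x ∈ V₁ ∨ x⁻¹ ∈ V₁)
    {u₁ u₂ : F} (hwu₁ : w u₁ = -u₂) (hwu₂ : w u₂ = -u₁)
    (hu₁ : u₁ ∈ V₁) (hu₂ : u₂ ∈ V₁) (hr₁ : red₁ ⟨u₁, hu₁⟩ = 0) (hr₂ : red₁ ⟨u₂, hu₂⟩ ≠ 0)
    {B₀ : Type*} (al be : B₀ → F) (hal : ∀ y, al y ∈ V₁) (hbe : ∀ y, be y ∈ V₁)
    (hwal : ∀ y, w (al y) = be y) (hwbe : ∀ y, w (be y) = al y)
    (hon : ∀ a : Fk, ∃ y : B₀, red₁ ⟨al y, hal y⟩ = a) :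
    Function.Surjective (ttrhRed V₁ w red₁) := by
  have hsurj : Function.Surjective red₁ := fun a => by
    obtain ⟨y, hy⟩ := hon a
    exact ⟨_, hy⟩
  obtain ⟨he, hE1, hE2⟩ := ttre_e1 V₁ w red₁ hval hsurj hwu₁ hwu₂ hu₁ hu₂ hr₁ hr₂
  rintro ⟨a, b⟩
  obtain ⟨ya, hya⟩ := hon a
  obtain ⟨yb, hyb⟩ := hon b
  have hA : al ya ∈ ttrhO2 V₁ w := by
    rw [ttrh_mem_O2, hwal]; exact ⟨hal ya, hbe ya⟩
  have hB : be yb ∈ ttrhO2 V₁ w := by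
    rw [ttrh_mem_O2, hwbe]; exact ⟨hbe yb, hal yb⟩
  refine ⟨⟨u₂ / (u₁ + u₂), he⟩ * ⟨al ya, hA⟩ + (1 - ⟨u₂ / (u₁ + u₂), he⟩) * ⟨be yb, hB⟩, ?_⟩
  rw [map_add, map_mul, map_mul, hE1, hE2]
  have h1 : ttrhRed V₁ w red₁ ⟨al ya, hA⟩ = (a, red₁ ⟨be ya, hbe ya⟩) := by
    rw [ttrhRed_apply]
    refine Prod.ext hya ?_
    show red₁ ⟨w (al ya), _⟩ = red₁ ⟨be ya, hbe ya⟩
    congr 1
    exact Subtype.ext (hwal ya)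
  have h2 : ttrhRed V₁ w red₁ ⟨be yb, hB⟩ = (red₁ ⟨be yb, hbe yb⟩, b) := by
    rw [ttrhRed_apply]
    refine Prod.ext rfl ?_
    show red₁ ⟨w (be yb), _⟩ = b
    rw [← hyb]
    congr 1
    exact Subtype.ext (hwbe yb)
  rw [h1, h2]
  ext <;> simp

/-! ### The modular instance of `u₁, u₂`, from the formulas (A2) for `J = α(j)`, `Y = β(j)` -/

/-- `u₁ := Y - J^p`, `u₂ := Y^p - J`: exchanged (up to sign) by `w`, both in `V₁`,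
`red₁ u₁ = 0`, `red₁ u₂ = j̄^(p²) - j̄`. -/
theorem ttre_of_JY (p : ℕ) {J Y : F} (hwJ : w J = Y) (hwY : w Y = J) (hJ : J ∈ V₁) (hY : Y ∈ V₁)
    {jb : Fk} (hrJ : red₁ ⟨J, hJ⟩ = jb) (hrY : red₁ ⟨Y, hY⟩ = jb ^ p) :
    w (Y - J ^ p) = -(Y ^ p - J) ∧ w (Y ^ p - J) = -(Y - J ^ p) ∧
    ∃ (h₁ : Y - J ^ p ∈ V₁) (h₂ : Y ^ p - J ∈ V₁),
      red₁ ⟨Y - J ^ p, h₁⟩ = 0 ∧ red₁ ⟨Y ^ p - J, h₂⟩ = jb ^ (p ^ 2) - jb := by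
  refine ⟨by rw [map_sub, map_pow, hwJ, hwY]; ring, by rw [map_sub, map_pow, hwJ, hwY]; ring,
    V₁.sub_mem hY (V₁.pow_mem hJ p), V₁.sub_mem (V₁.pow_mem hY p) hJ, ?_, ?_⟩
  · have : (⟨Y - J ^ p, V₁.sub_mem hY (V₁.pow_mem hJ p)⟩ : ↥V₁) = ⟨Y, hY⟩ - ⟨J, hJ⟩ ^ p := rfl
    rw [this, map_sub, map_pow, hrJ, hrY, sub_self]
  · have : (⟨Y ^ p - J, V₁.sub_mem (V₁.pow_mem hY p) hJ⟩ : ↥V₁) = ⟨Y, hY⟩ ^ p - ⟨J, hJ⟩ := rfl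
    rw [this, map_sub, map_pow, hrJ, hrY, ← pow_mul, pow_two]

/-- `j̄^(p²) - j̄ ≠ 0` for `j̄` transcendental over a subfield. -/
theorem ttre_h_ne_zero {k : Type*} [Field k] [Algebra k Fk] {p : ℕ} (hp : 1 < p) {jb : Fk}
    (hjb : Transcendental k jb) : jb ^ (p ^ 2) - jb ≠ 0 := by
  intro h
  apply hjb
  refine ⟨Polynomial.X ^ (p ^ 2) - Polynomial.X, ?_, by simpa using h⟩
  have hlt : 1 < p ^ 2 := by nlinarith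
  exact FiniteField.X_pow_card_sub_X_ne_zero k hlt

end Idem

end Fermat.Agent.TT
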