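import Mathlib
import Fermat.Agent.TT.Red2.V1
import Fermat.Agent.TT.Red2.AL
import Fermat.Agent.TT.Red2.Idem
import Fermat.Agent.G.Red.Lift
import Fermat.Agent.G.Red.Gauss

/-!
# Program TT (S33), G/Red₂ leaf (A6), INSTANCE: the idempotents of `O₂` and `red` ONTO

Owner: helper2.  Prefix `ttre`.  On helper12's `ttrW`, `ttrRed1`, `ttrPhi` (`TT/Red2/{AL,V1}`),
helper27's abstract `ttrhO2`, `ttrhRed` (`TT/Red2/GalAbs`) and my abstract `TT/Red2/Idem`.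

For a coordinate `υ ∈ ℤ((q))` of level `M` (`hυ : GrdSerMem M υ`; e.g. `υ = j`):
`J := α(υ_ℚ̄)`, `Y := β(υ_ℚ̄)`, `u₁ := Y - J^p`, `u₂ := Y^p - J`, `h := ῡ^(p²) - ῡ ∈ F_k(M)`.

* `ttre_phi_grdK` : `Φ ῡ = ῡ^p` (the coefficients of `ῡ` are in `𝔽_p`);
* `ttre_inst_u`   : `w u₁ = -u₂`, `w u₂ = -u₁`, `u₁, u₂ ∈ V₁`, `red₁ u₁ = 0`, `red₁ u₂ = h`;
* `ttre_inst_h_ne_zero` : `h ≠ 0` if `ῡ` is transcendental over `k` (a chart coordinate);
* `ttre_inst_e1`  : `e₁ := u₂/(u₁ + u₂) ∈ O₂`, `red e₁ = (1, 0)`, `red (1 - e₁) = (0, 1)`;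
* `ttre_inst_surjective` : `red : O₂ → F_k(M) × F_k(M)` is ONTO.
-/

set_option autoImplicit false
set_option linter.unusedSectionVars false
set_option linter.unusedVariables false
set_option linter.style.haveILetI false
set_option synthInstance.maxHeartbeats 400000

noncomputable section

namespace Fermat.Agent.TT

open Polynomial ModularCurve AlgebraicCurve IsLocalRing IntermediateField
  Fermat.Agent.G Fermat.Agent.S18 Fermat.Agent.SS

local notation "Qb" => AlgebraicClosure ℚ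

variable (M : ℕ) [NeZero M] {p : ℕ} [Fact p.Prime] [NeZero p]
variable (A : ValuationSubring Qb)

/-- `Φ ῡ = ῡ^p` for the reduction of an integral series. -/
theorem ttre_phi_grdK (hA : A.LiesOverPrime p) {υ : LaurentSeries ℤ} (hυ : GrdSerMem M υ) :
    ttrPhi M A hA (grdK M A hυ) = grdK M A hυ ^ p := by
  haveI := ttr_charP A hA
  apply Subtype.ext
  rw [ttrPhi_coe, SubmonoidClass.coe_pow]
  show qExpand (ResidueField A) p (grdSer υ (ResidueField A)) = grdSer υ (ResidueField A) ^ p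
  rw [gcjf_pow_char (ResidueField A) p (grdSer υ (ResidueField A)), grdSer_coeffMap]

/-- `J := α(υ_ℚ̄)` -/
def ttreJ {υ : LaurentSeries ℤ} (hυ : GrdSerMem M υ) (p : ℕ) [NeZero p] :
    modularFunctionFieldBar (M * p) :=
  heckeAlphaBar Qb M p (grdQ M hυ)

/-- `Y := β(υ_ℚ̄)` -/
def ttreY {υ : LaurentSeries ℤ} (hυ : GrdSerMem M υ) (p : ℕ) [NeZero p] :
    modularFunctionFieldBar (M * p) :=
  heckeBetaBar Qb M p (grdQ M hυ)

/-- `u₁ := Y - J^p` -/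
def ttreU1 {υ : LaurentSeries ℤ} (hυ : GrdSerMem M υ) (p : ℕ) [NeZero p] :
    modularFunctionFieldBar (M * p) :=
  ttreY M hυ p - ttreJ M hυ p ^ p

/-- `u₂ := Y^p - J` -/
def ttreU2 {υ : LaurentSeries ℤ} (hυ : GrdSerMem M υ) (p : ℕ) [NeZero p] :
    modularFunctionFieldBar (M * p) :=
  ttreY M hυ p ^ p - ttreJ M hυ p

theorem ttreJ_mem {υ : LaurentSeries ℤ} (hυ : GrdSerMem M υ) :
    ttreJ M hυ p ∈ grdO (M * p) A :=
  ttr_alpha_mem M A (grdQ_mem_grdO M A hυ)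

theorem ttreY_mem {υ : LaurentSeries ℤ} (hυ : GrdSerMem M υ) :
    ttreY M hυ p ∈ grdO (M * p) A :=
  ttr_beta_mem M A (grdQ_mem_grdO M A hυ)

theorem ttre_red_J (hA : A.LiesOverPrime p) {υ : LaurentSeries ℤ} (hυ : GrdSerMem M υ) :
    ttrRed1 M A hA ⟨ttreJ M hυ p, ttreJ_mem M A hυ⟩ = grdK M A hυ := by
  have := ttrRed1_alpha M A hA ⟨grdQ M hυ, grdQ_mem_grdO M A hυ⟩
  rw [grdRed_grdQ] at this
  exact this

theorem ttre_red_Y (hA : A.LiesOverPrime p) {υ : LaurentSeries ℤ} (hυ : GrdSerMem M υ) :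
    ttrRed1 M A hA ⟨ttreY M hυ p, ttreY_mem M A hυ⟩ = grdK M A hυ ^ p := by
  have := ttrRed1_beta M A hA ⟨grdQ M hυ, grdQ_mem_grdO M A hυ⟩
  rw [grdRed_grdQ, ttre_phi_grdK] at this
  exact this

/-- the facts about `u₁, u₂` in the first chart. -/
theorem ttre_inst_u (hpM : ¬ p ∣ M) (hA : A.LiesOverPrime p) {υ : LaurentSeries ℤ}
    (hυ : GrdSerMem M υ) :
    ttrW M hpM (ttreU1 M hυ p) = -ttreU2 M hυ p ∧ ttrW M hpM (ttreU2 M hυ p) = -ttreU1 M hυ p ∧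
    ∃ (h₁ : ttreU1 M hυ p ∈ grdO (M * p) A) (h₂ : ttreU2 M hυ p ∈ grdO (M * p) A),
      ttrRed1 M A hA ⟨ttreU1 M hυ p, h₁⟩ = 0 ∧
      ttrRed1 M A hA ⟨ttreU2 M hυ p, h₂⟩ = grdK M A hυ ^ (p ^ 2) - grdK M A hυ :=
  ttre_of_JY (grdO (M * p) A) (ttrW M hpM) (ttrRed1 M A hA) p
    (ttrW_alpha M hpM _) (ttrW_beta M hpM _) (ttreJ_mem M A hυ) (ttreY_mem M A hυ)
    (ttre_red_J M A hA hυ) (ttre_red_Y M A hA hυ)

/-- `h = ῡ^(p²) - ῡ ≠ 0` for a transcendental `ῡ`. -/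
theorem ttre_inst_h_ne_zero {υ : LaurentSeries ℤ} (hυ : GrdSerMem M υ)
    (htr : Transcendental (ResidueField A) (grdK M A hυ)) :
    grdK M A hυ ^ (p ^ 2) - grdK M A hυ ≠ 0 :=
  ttre_h_ne_zero (k := ResidueField A) (Fact.out : p.Prime).one_lt htr

/-- `red₁` is onto `F_k(M)`, through `α`. -/
theorem ttre_inst_on (hA : A.LiesOverPrime p)
    (a : ↥(modularFunctionFieldFullC (ResidueField A) M)) :
    ∃ y : ↥(grdO M A), ttrRed1 M A hA ⟨heckeAlphaBar Qb M p (y : modularFunctionFieldBar M),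
      ttr_alpha_mem M A y.2⟩ = a := by
  obtain ⟨y, hy⟩ := grdl_red_surjective M A a
  exact ⟨y, by rw [ttrRed1_alpha, hy]⟩

/-- **the idempotent** `e₁ = u₂/(u₁ + u₂)` of `O₂`. -/
theorem ttre_inst_e1 (hpM : ¬ p ∣ M) (hA : A.LiesOverPrime p) {υ : LaurentSeries ℤ}
    (hυ : GrdSerMem M υ) (htr : Transcendental (ResidueField A) (grdK M A hυ)) :
    ∃ he : ttreU2 M hυ p / (ttreU1 M hυ p + ttreU2 M hυ p) ∈
        ttrhO2 (grdO (M * p) A) (ttrW M hpM),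
      ttrhRed (grdO (M * p) A) (ttrW M hpM) (ttrRed1 M A hA)
        ⟨ttreU2 M hυ p / (ttreU1 M hυ p + ttreU2 M hυ p), he⟩ = (1, 0) ∧
      ttrhRed (grdO (M * p) A) (ttrW M hpM) (ttrRed1 M A hA)
        (1 - ⟨ttreU2 M hυ p / (ttreU1 M hυ p + ttreU2 M hυ p), he⟩) = (0, 1) := by
  obtain ⟨hw1, hw2, h₁, h₂, hr1, hr2⟩ := ttre_inst_u M A hpM hA hυ
  have hsurj : Function.Surjective (ttrRed1 M A hA) := fun a => by
    obtain ⟨y, hy⟩ := ttre_inst_on M A hA a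
    exact ⟨_, hy⟩
  refine ttre_e1 (grdO (M * p) A) (ttrW M hpM) (ttrRed1 M A hA)
    (ttr_mem_or_inv_mem M A hpM hA) hsurj hw1 hw2 h₁ h₂ hr1 ?_
  rw [hr2]
  exact ttre_inst_h_ne_zero M A hυ htr

/-- **`red = (red₁, red₂) : O₂ → F_k(M) × F_k(M)` is ONTO.** -/
theorem ttre_inst_surjective (hpM : ¬ p ∣ M) (hA : A.LiesOverPrime p) {υ : LaurentSeries ℤ}
    (hυ : GrdSerMem M υ) (htr : Transcendental (ResidueField A) (grdK M A hυ)) :
    Function.Surjective (ttrhRed (grdO (M * p) A) (ttrW M hpM) (ttrRed1 M A hA)) := by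
  obtain ⟨hw1, hw2, h₁, h₂, hr1, hr2⟩ := ttre_inst_u M A hpM hA hυ
  refine ttre_red_surjective (grdO (M * p) A) (ttrW M hpM) (ttrRed1 M A hA)
    (ttr_mem_or_inv_mem M A hpM hA) hw1 hw2 h₁ h₂ hr1 ?_
    (B₀ := ↥(grdO M A))
    (fun y => heckeAlphaBar Qb M p (y : modularFunctionFieldBar M))
    (fun y => heckeBetaBar Qb M p (y : modularFunctionFieldBar M))
    (fun y => ttr_alpha_mem M A y.2) (fun y => ttr_beta_mem M A y.2)
    (fun y => ttrW_alpha M hpM _) (fun y => ttrW_beta M hpM _)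
    (fun a => ttre_inst_on M A hA a)
  rw [hr2]
  exact ttre_inst_h_ne_zero M A hυ htr

end Fermat.Agent.TT
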