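/-
(I2), the instance (prefix `ttrkT`): THE two-chart model `T : TtoData 𝔸 F_ℚ̄(M p) (F_k(M) × F_k(M))`
of a level-`M` atlas `(τ, τ')` at `𝔸 ∣ p`, `p ∤ M`:

  `O := O₂ = V₁ ⊓ V₂`, `red := (red₁, red₂)`, `B := grdB (M p) 𝔸 (α τ)`, `B' := grdB (M p) 𝔸 (α τ')`,

with the five facts consumed by `ttrk_genus_le_plug`, and `genus_le` from the (NODE) ring-level
inputs on `T` alone (`ttrk_genus_le_T`).
-/
import Mathlib
import Fermat.Agent.TT.Red2.CountPlug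
import Fermat.Agent.TT.Red2.LocInputs
import Fermat.Agent.TT.Red2.RedPack
import Fermat.Agent.TT.Red2.IdemInst
import Fermat.Agent.TT.Red2.Chart

set_option autoImplicit false
set_option linter.unusedSectionVars false
set_option linter.unusedVariables false
set_option linter.style.haveILetI false

noncomputable section

namespace Fermat.Agent.TT

open AlgebraicCurve ModularCurve IsLocalRing Fermat.Agent.G Fermat.Agent.FF Fermat.Agent.S24
  Fermat.Agent.V.RR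

local notation "Qb" => AlgebraicClosure ℚ

variable (M p : ℕ) [NeZero M] [NeZero p] [Fact p.Prime]
variable (A : ValuationSubring (AlgebraicClosure ℚ)) {τ τ' : LaurentSeries ℤ}

/-- `O₂` as an `𝔸`-subalgebra -/
def ttrkTO (hpM : ¬ p ∣ M) : Subalgebra ↥A (modularFunctionFieldBar (M * p)) :=
  { (ttrO2 M A hpM).toSubsemiring with
    algebraMap_mem' := fun a => by
      rw [IsScalarTower.algebraMap_apply ↥A Qb (modularFunctionFieldBar (M * p))]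
      exact (ttrvp_const_mem_O2_iff M A hpM (a : Qb)).2 a.2 }

theorem mem_ttrkTO (hpM : ¬ p ∣ M) (x : modularFunctionFieldBar (M * p)) :
    x ∈ ttrkTO M p A hpM ↔ x ∈ ttrO2 M A hpM := Iff.rfl

/-- the chart ring of `u` as an `𝔸`-subalgebra -/
def ttrkTB (u : modularFunctionFieldBar (M * p)) :
    Subalgebra ↥A (modularFunctionFieldBar (M * p)) :=
  { (grdB (M * p) A u).toSubsemiring with
    algebraMap_mem' := fun a => by
      rw [IsScalarTower.algebraMap_apply ↥A Qb (modularFunctionFieldBar (M * p))]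
      exact ttrli_const (M * p) A u a }

theorem mem_ttrkTB (u x : modularFunctionFieldBar (M * p)) :
    x ∈ ttrkTB M p A u ↔ x ∈ grdB (M * p) A u := Iff.rfl

/-- the identification `↥O → ↥O₂` -/
def ttrkTincl (hpM : ¬ p ∣ M) : ↥(ttrkTO M p A hpM) →+* ↥(ttrO2 M A hpM) :=
  (ttrkTO M p A hpM).val.toRingHom.codRestrict (ttrO2 M A hpM) (fun x => x.2)

/-- **THE two-chart model** of the atlas `(τ, τ')` at level `M p`. -/
def ttrkT (hpM : ¬ p ∣ M) (hA : A.LiesOverPrime p) (hat : GrdAtlas M A τ τ') :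
    TtoData ↥A (modularFunctionFieldBar (M * p))
      (modularFunctionFieldFullC (ResidueField A) M ×
        modularFunctionFieldFullC (ResidueField A) M) where
  O := ttrkTO M p A hpM
  red := (ttrRed M A hpM hA).comp (ttrkTincl M p A hpM)
  red_alg := fun a => by
    have h := (ttrvp_tb M A hpM hA).red_const a
    rw [← h]
    show ttrRed M A hpM hA _ = ttrRed M A hpM hA _
    congr 1
    apply Subtype.ext
    exact IsScalarTower.algebraMap_apply ↥A Qb (modularFunctionFieldBar (M * p)) a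
  B := ttrkTB M p A (heckeAlphaBar Qb M p (grdQ M hat.c.mem))
  B' := ttrkTB M p A (heckeAlphaBar Qb M p (grdQ M hat.c'.mem))
  hB := ttrli_le_alpha M A hpM hA hat.c
  hB' := ttrli_le_alpha M A hpM hA hat.c'
  u := heckeAlphaBar Qb M p (grdQ M hat.c.mem)
  u' := heckeAlphaBar Qb M p (grdQ M hat.c'.mem)
  huu' := by rw [← map_mul, grda_grdQ_mul M A hat, map_one]
  hu := ttrli_u_mem (M * p) A _
  hu' := ttrli_u_mem (M * p) A _
  hpole := fun b hb => by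
    have huu' : heckeAlphaBar Qb M p (grdQ M hat.c'.mem) *
        heckeAlphaBar Qb M p (grdQ M hat.c.mem) = 1 := by
      rw [← map_mul, mul_comm (grdQ M hat.c'.mem), grda_grdQ_mul M A hat, map_one]
    obtain ⟨n, hn⟩ := ttrc_pole (M * p) A huu' hb
    exact ⟨n, by rw [mul_comm b]; exact hn⟩
  hpole' := fun b hb => by
    have huu' : heckeAlphaBar Qb M p (grdQ M hat.c.mem) *
        heckeAlphaBar Qb M p (grdQ M hat.c'.mem) = 1 := by
      rw [← map_mul, grda_grdQ_mul M A hat, map_one]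
    exact ttrc_pole (M * p) A huu' hb

/-- `red (α υ_ℚ̄) = (ῡ, ῡ ^ p)` -/
theorem ttrkT_red_alpha (hpM : ¬ p ∣ M) (hA : A.LiesOverPrime p) {υ : LaurentSeries ℤ}
    (hυ : GrdSerMem M υ) (hmem : heckeAlphaBar Qb M p (grdQ M hυ) ∈ ttrO2 M A hpM) :
    ttrRed M A hpM hA ⟨heckeAlphaBar Qb M p (grdQ M hυ), hmem⟩ =
      (grdK M A hυ, grdK M A hυ ^ p) := by
  have h := ttrRed_alpha M A hpM hA ⟨grdQ M hυ, grdQ_mem_grdO M A hυ⟩
  rw [grdRed_grdQ, ttre_phi_grdK] at h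
  exact h

theorem ttrkT_ub (hpM : ¬ p ∣ M) (hA : A.LiesOverPrime p) (hat : GrdAtlas M A τ τ') :
    (ttrkT M p A hpM hA hat).ub = (grdK M A hat.c.mem, grdK M A hat.c.mem ^ p) :=
  ttrkT_red_alpha M p A hpM hA hat.c.mem _

theorem ttrkT_ub' (hpM : ¬ p ∣ M) (hA : A.LiesOverPrime p) (hat : GrdAtlas M A τ τ') :
    (ttrkT M p A hpM hA hat).ub' = (grdK M A hat.c'.mem, grdK M A hat.c'.mem ^ p) :=
  ttrkT_red_alpha M p A hpM hA hat.c'.mem _

theorem ttrkT_Bint (hpM : ¬ p ∣ M) (hA : A.LiesOverPrime p) (hat : GrdAtlas M A τ τ') :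
    ∀ b ∈ (ttrkT M p A hpM hA hat).B, b ∈ intRing Qb (ttrkT M p A hpM hA hat).u :=
  fun b hb => ttrli_mem_intRing (M * p) (ttrli_sep_alpha M A hat.c) b
    (fun v hv => ttrli_breg (M * p) A _ b hb v hv)

theorem ttrkT_B'int (hpM : ¬ p ∣ M) (hA : A.LiesOverPrime p) (hat : GrdAtlas M A τ τ') :
    ∀ b ∈ (ttrkT M p A hpM hA hat).B', b ∈ intRing Qb (ttrkT M p A hpM hA hat).u' :=
  fun b hb => ttrli_mem_intRing (M * p) (ttrli_sep_alpha M A hat.c') b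
    (fun v hv => ttrli_breg (M * p) A _ b hb v hv)

/-- **`genus_le` at the levels `M`, `M p`** from the (NODE) ring-level inputs on the two chart
rings `B = grdB (M p) 𝔸 (α τ)`, `B' = grdB (M p) 𝔸 (α τ')` of `ttrkT`. -/
theorem ttrk_genus_le_T (hpM : ¬ p ∣ M) (hA : A.LiesOverPrime p) (hat : GrdAtlas M A τ τ')
    (hR₁ : ∀ y, y ∈ intRing (ResidueField A) (grdK M A hat.c.mem) ↔
      ∃ b, ttrkR₁ (ttrkT M p A hpM hA hat) b = y)
    (hR₂ : ∀ y, y ∈ intRing (ResidueField A) (grdK M A hat.c.mem) ↔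
      ∃ b, ttrkR₂ (ttrkT M p A hpM hA hat) b = y)
    (hR₁' : ∀ y, y ∈ intRing (ResidueField A) (grdK M A hat.c'.mem) ↔
      ∃ b, ttrkR₁' (ttrkT M p A hpM hA hat) b = y)
    (hR₂' : ∀ y, y ∈ intRing (ResidueField A) (grdK M A hat.c'.mem) ↔
      ∃ b, ttrkR₂' (ttrkT M p A hpM hA hat) b = y)
    (hT : ∀ 𝔫 : Ideal ↥(ttrkT M p A hpM hA hat).B, 𝔫.IsMaximal →
      RingHom.ker (ttrkR₁ (ttrkT M p A hpM hA hat)) ≤ 𝔫 →
      RingHom.ker (ttrkR₂ (ttrkT M p A hpM hA hat)) ≤ 𝔫 → ∀ x ∈ 𝔫, ∃ s, s ∉ 𝔫 ∧ ∃ y₁ y₂,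
        ttrkR₁ (ttrkT M p A hpM hA hat) y₁ = 0 ∧ ttrkR₂ (ttrkT M p A hpM hA hat) y₂ = 0 ∧
          s * x = y₁ + y₂)
    (hT' : ∀ 𝔫 : Ideal ↥(ttrkT M p A hpM hA hat).B', 𝔫.IsMaximal →
      RingHom.ker (ttrkR₁' (ttrkT M p A hpM hA hat)) ≤ 𝔫 →
      RingHom.ker (ttrkR₂' (ttrkT M p A hpM hA hat)) ≤ 𝔫 → ∀ x ∈ 𝔫, ∃ s, s ∉ 𝔫 ∧ ∃ y₁ y₂,
        ttrkR₁' (ttrkT M p A hpM hA hat) y₁ = 0 ∧ ttrkR₂' (ttrkT M p A hpM hA hat) y₂ = 0 ∧
          s * x = y₁ + y₂)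
    (hcusp : ∀ 𝔫 : Ideal ↥(ttrkT M p A hpM hA hat).B', 𝔫.IsMaximal →
      RingHom.ker (ttrkR₁' (ttrkT M p A hpM hA hat)) ≤ 𝔫 →
      RingHom.ker (ttrkR₂' (ttrkT M p A hpM hA hat)) ≤ 𝔫 →
      (⟨(ttrkT M p A hpM hA hat).u', (ttrkT M p A hpM hA hat).hu'⟩ :
        ↥(ttrkT M p A hpM hA hat).B') ∉ 𝔫)
    {S : Type*} [Fintype S]
    (ν₁ ν₂ : S → Place (ResidueField A) (modularFunctionFieldFullC (ResidueField A) M))
    (hν₁ : Function.Injective ν₁)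
    (hS : ∀ Q₁ Q₂, TtrmPair (ttrkR₁ (ttrkT M p A hpM hA hat)) (ttrkR₂ (ttrkT M p A hpM hA hat))
      (grdK M A hat.c.mem) (grdK M A hat.c.mem) Q₁ Q₂ → ∃ i, ν₁ i = Q₁ ∧ ν₂ i = Q₂)
    (hS' : ∀ i, TtrmPair (ttrkR₁ (ttrkT M p A hpM hA hat)) (ttrkR₂ (ttrkT M p A hpM hA hat))
      (grdK M A hat.c.mem) (grdK M A hat.c.mem) (ν₁ i) (ν₂ i)) :
    (genusFF Qb (modularFunctionFieldBar (M * p)) : ℤ) ≤
      genusFF Qb (modularFunctionFieldBar M) + genusFF Qb (modularFunctionFieldBar M) +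
        Fintype.card S - 1 :=
  ttrk_genus_le_plug M p A hpM hA hat (ttrvp_tb M A hpM hA) (ttrkT M p A hpM hA hat)
    (fun _ h => h) (fun _ _ => rfl) rfl (ttrkT_Bint M p A hpM hA hat)
    (ttrkT_B'int M p A hpM hA hat) (ttrkT_ub M p A hpM hA hat) (ttrkT_ub' M p A hpM hA hat)
    hR₁ hR₂ hR₁' hR₂' hT hT' hcusp ν₁ ν₂ hν₁ hS hS'

/-- the reductions on `B` in helper12's spelling -/
theorem ttrkT_R₁_apply (hpM : ¬ p ∣ M) (hA : A.LiesOverPrime p) (hat : GrdAtlas M A τ τ')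
    (b : ↥(ttrkT M p A hpM hA hat).B) :
    ttrkR₁ (ttrkT M p A hpM hA hat) b =
      (ttrRed M A hpM hA ⟨(b : modularFunctionFieldBar (M * p)),
        ttrli_le_alpha M A hpM hA hat.c b.2⟩).1 := rfl

theorem ttrkT_R₂_apply (hpM : ¬ p ∣ M) (hA : A.LiesOverPrime p) (hat : GrdAtlas M A τ τ')
    (b : ↥(ttrkT M p A hpM hA hat).B) :
    ttrkR₂ (ttrkT M p A hpM hA hat) b =
      (ttrRed M A hpM hA ⟨(b : modularFunctionFieldBar (M * p)),
        ttrli_le_alpha M A hpM hA hat.c b.2⟩).2 := rfl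

theorem ttrkT_R₁'_apply (hpM : ¬ p ∣ M) (hA : A.LiesOverPrime p) (hat : GrdAtlas M A τ τ')
    (b : ↥(ttrkT M p A hpM hA hat).B') :
    ttrkR₁' (ttrkT M p A hpM hA hat) b =
      (ttrRed M A hpM hA ⟨(b : modularFunctionFieldBar (M * p)),
        ttrli_le_alpha M A hpM hA hat.c' b.2⟩).1 := rfl

theorem ttrkT_R₂'_apply (hpM : ¬ p ∣ M) (hA : A.LiesOverPrime p) (hat : GrdAtlas M A τ τ')
    (b : ↥(ttrkT M p A hpM hA hat).B') :
    ttrkR₂' (ttrkT M p A hpM hA hat) b =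
      (ttrRed M A hpM hA ⟨(b : modularFunctionFieldBar (M * p)),
        ttrli_le_alpha M A hpM hA hat.c' b.2⟩).2 := rfl

end Fermat.Agent.TT
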