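/-
(COUNT) on THE set of nodes (prefix `ttrkS`): `S :=` the crossing pairs of the chart ring
`B = grdB (M p) 𝔸 (α τ)` of `ttrkT`, `ν₁ = fst`, `ν₂ = snd`; finiteness, injectivity, the value
property, and `genus_le` with the `S`-hypotheses discharged.
-/
import Mathlib
import Fermat.Agent.TT.Red2.OntoT

set_option autoImplicit false
set_option linter.unusedSectionVars false
set_option linter.unusedVariables false
set_option linter.style.haveILetI false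

noncomputable section

namespace Fermat.Agent.TT

open AlgebraicCurve ModularCurve IsLocalRing Fermat.Agent.G Fermat.Agent.FF Fermat.Agent.S24
  Fermat.Agent.V.RR

local notation "Qb" => AlgebraicClosure ℚ

variable (M p : ℕ) [NeZero M] [NeZero p] [Fact p.Prime]
variable (A : ValuationSubring (AlgebraicClosure ℚ)) {τ τ' : LaurentSeries ℤ}

/-- **THE NODES** of the chart `τ` at level `M p` : the crossing pairs of `B`. -/
abbrev ttrkS (hpM : ¬ p ∣ M) (hA : A.LiesOverPrime p) (hat : GrdAtlas M A τ τ') : Type :=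
  ttrzS (ResidueField A) (ttrkR₁ (ttrkT M p A hpM hA hat)) (ttrkR₂ (ttrkT M p A hpM hA hat))
    (grdK M A hat.c.mem) (grdK M A hat.c.mem)

/-- the branch of a node on the first component -/
abbrev ttrkSν₁ (hpM : ¬ p ∣ M) (hA : A.LiesOverPrime p) (hat : GrdAtlas M A τ τ') :
    ttrkS M p A hpM hA hat →
      Place (ResidueField A) (modularFunctionFieldFullC (ResidueField A) M) :=
  ttrzNu₁

/-- the branch of a node on the second component -/
abbrev ttrkSν₂ (hpM : ¬ p ∣ M) (hA : A.LiesOverPrime p) (hat : GrdAtlas M A τ τ') :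
    ttrkS M p A hpM hA hat →
      Place (ResidueField A) (modularFunctionFieldFullC (ResidueField A) M) :=
  ttrzNu₂

/-- the nodes are finitely many -/
theorem ttrkS_finite (hpM : ¬ p ∣ M) (hA : A.LiesOverPrime p) (hat : GrdAtlas M A τ τ')
    (hR₁ : ∀ y, y ∈ intRing (ResidueField A) (grdK M A hat.c.mem) ↔
      ∃ b, ttrkR₁ (ttrkT M p A hpM hA hat) b = y)
    (hR₂ : ∀ y, y ∈ intRing (ResidueField A) (grdK M A hat.c.mem) ↔
      ∃ b, ttrkR₂ (ttrkT M p A hpM hA hat) b = y)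
    (y : ↥(ttrkT M p A hpM hA hat).B) (hy₁ : ttrkR₁ (ttrkT M p A hpM hA hat) y ≠ 0)
    (hy₂ : ttrkR₂ (ttrkT M p A hpM hA hat) y = 0) : Finite (ttrkS M p A hpM hA hat) := by
  haveI : IsAlgClosed (ResidueField A) := grd_isAlgClosed_residue A
  exact ttrm_finite_pairs hat.c.sepK hat.c.sepK _ _ hR₁ hR₂ y hy₁ hy₂

theorem ttrkS_ν₁_injective (hpM : ¬ p ∣ M) (hA : A.LiesOverPrime p) (hat : GrdAtlas M A τ τ')
    (hR₂ : ∀ y, y ∈ intRing (ResidueField A) (grdK M A hat.c.mem) ↔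
      ∃ b, ttrkR₂ (ttrkT M p A hpM hA hat) b = y) :
    Function.Injective (ttrkSν₁ M p A hpM hA hat) := by
  haveI : IsAlgClosed (ResidueField A) := grd_isAlgClosed_residue A
  exact ttrm_fst_injective hat.c.sepK _ _ hR₂

theorem ttrkS_ν₂_injective (hpM : ¬ p ∣ M) (hA : A.LiesOverPrime p) (hat : GrdAtlas M A τ τ')
    (hR₁ : ∀ y, y ∈ intRing (ResidueField A) (grdK M A hat.c.mem) ↔
      ∃ b, ttrkR₁ (ttrkT M p A hpM hA hat) b = y) :
    Function.Injective (ttrkSν₂ M p A hpM hA hat) := by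
  haveI : IsAlgClosed (ResidueField A) := grd_isAlgClosed_residue A
  exact ttrm_snd_injective hat.c.sepK _ _ hR₁

/-- (NODE)(i), by definition: every element of `B` has the same value on the two branches of a
node. -/
theorem ttrkS_val (hpM : ¬ p ∣ M) (hA : A.LiesOverPrime p) (hat : GrdAtlas M A τ τ')
    (i : ttrkS M p A hpM hA hat) (b : ↥(ttrkT M p A hpM hA hat).B) :
    ∃ c : ResidueField A,
      GrdVal (ttrkSν₁ M p A hpM hA hat i) (ttrkR₁ (ttrkT M p A hpM hA hat) b) c ∧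
      GrdVal (ttrkSν₂ M p A hpM hA hat i) (ttrkR₂ (ttrkT M p A hpM hA hat) b) c :=
  i.2.2.2 b

/-- the chart coordinate is regular at both branches of a node -/
theorem ttrkS_reg (hpM : ¬ p ∣ M) (hA : A.LiesOverPrime p) (hat : GrdAtlas M A τ τ')
    (i : ttrkS M p A hpM hA hat) :
    grdK M A hat.c.mem ∈ (ttrkSν₁ M p A hpM hA hat i).toValuationSubring ∧
      grdK M A hat.c.mem ∈ (ttrkSν₂ M p A hpM hA hat i).toValuationSubring :=
  ⟨i.2.1, i.2.2.1⟩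

/-- **`genus_le` on THE set of nodes.** -/
theorem ttrk_genus_le_S (hpM : ¬ p ∣ M) (hA : A.LiesOverPrime p) (hat : GrdAtlas M A τ τ')
    (hR₁ : ∀ y, y ∈ intRing (ResidueField A) (grdK M A hat.c.mem) ↔
      ∃ b, ttrkR₁ (ttrkT M p A hpM hA hat) b = y)
    (hR₂ : ∀ y, y ∈ intRing (ResidueField A) (grdK M A hat.c.mem) ↔
      ∃ b, ttrkR₂ (ttrkT M p A hpM hA hat) b = y)
    (hR₁' : ∀ y, y ∈ intRing (ResidueField A) (grdK M A hat.c'.mem) ↔
      ∃ b, ttrkR₁' (ttrkT M p A hpM hA hat) b = y)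
    (hR₂' : ∀ y, y ∈ intRing (ResidueField A) (grdK M A hat.c'.mem) ↔
      ∃ b, ttrkR₂' (ttrkT M p A hpM hA hat) b = y)
    (hT : ∀ 𝔫 : Ideal ↥(ttrkT M p A hpM hA hat).B, 𝔫.IsMaximal →
      RingHom.ker (ttrkR₁ (ttrkT M p A hpM hA hat)) ≤ 𝔫 →
      RingHom.ker (ttrkR₂ (ttrkT M p A hpM hA hat)) ≤ 𝔫 → ∀ x ∈ 𝔫, ∃ s, s ∉ 𝔫 ∧ ∃ y₁ y₂,
        ttrkR₁ (ttrkT M p A hpM hA hat) y₁ = 0 ∧ ttrkR₂ (ttrkT M p A hpM hA hat) y₂ = 0 ∧
          s * x = y₁ + y₂)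
    (hT' : ∀ 𝔫 : Ideal ↥(ttrkT M p A hpM hA hat).B', 𝔫.IsMaximal →
      RingHom.ker (ttrkR₁' (ttrkT M p A hpM hA hat)) ≤ 𝔫 →
      RingHom.ker (ttrkR₂' (ttrkT M p A hpM hA hat)) ≤ 𝔫 → ∀ x ∈ 𝔫, ∃ s, s ∉ 𝔫 ∧ ∃ y₁ y₂,
        ttrkR₁' (ttrkT M p A hpM hA hat) y₁ = 0 ∧ ttrkR₂' (ttrkT M p A hpM hA hat) y₂ = 0 ∧
          s * x = y₁ + y₂)
    (hcusp : ∀ 𝔫 : Ideal ↥(ttrkT M p A hpM hA hat).B', 𝔫.IsMaximal →
      RingHom.ker (ttrkR₁' (ttrkT M p A hpM hA hat)) ≤ 𝔫 →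
      RingHom.ker (ttrkR₂' (ttrkT M p A hpM hA hat)) ≤ 𝔫 →
      (⟨(ttrkT M p A hpM hA hat).u', (ttrkT M p A hpM hA hat).hu'⟩ :
        ↥(ttrkT M p A hpM hA hat).B') ∉ 𝔫)
    [Fintype (ttrkS M p A hpM hA hat)] :
    (genusFF Qb (modularFunctionFieldBar (M * p)) : ℤ) ≤
      genusFF Qb (modularFunctionFieldBar M) + genusFF Qb (modularFunctionFieldBar M) +
        Fintype.card (ttrkS M p A hpM hA hat) - 1 :=
  ttrk_genus_le_T M p A hpM hA hat hR₁ hR₂ hR₁' hR₂' hT hT' hcusp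
    (ttrkSν₁ M p A hpM hA hat) (ttrkSν₂ M p A hpM hA hat)
    (ttrkS_ν₁_injective M p A hpM hA hat hR₂)
    (fun Q₁ Q₂ h => ⟨⟨(Q₁, Q₂), h⟩, rfl, rfl⟩) (fun i => i.2)

end Fermat.Agent.TT
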