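/-
(NODE), ascent, shared definitions (prefix `ttrn`).

`N` a level, `A ⊂ ℚ̄` a valuation subring, `υ` an integral series with `υ_K ∈ F_K(N)` for all `K`
(`GrdSerMem N υ`), `t = grdQ N hυ ∈ F_ℚ̄(N)` the chart coordinate, `B = grdB N A t` THE ℚ̄-level
chart ring (main, `G/Red/Defs.lean`).  For a number field `E`:

* `ttrnTE N E hυ`  : the coordinate `υ_E ∈ F_E(N)`;
* `ttrnUp N A E hυ` : the ring homomorphism `P_E = s18tInt (A ∩ E) υ_E → B` (base change of
  series, `grdst_ascend_int`);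
* `ttrnDown N A E hυ 𝔫` : `𝔫_E = 𝔫 ∩ P_E`.
-/
import Mathlib
import Fermat.Agent.G.Red.Sat
import Fermat.Agent.SS.Dict.Descend

set_option autoImplicit false
set_option linter.unusedSectionVars false
set_option linter.unusedVariables false
set_option linter.style.haveILetI false

noncomputable section

namespace Fermat.Agent.TT

open ModularCurve AlgebraicCurve IsLocalRing Polynomial Fermat.Agent.S18 Fermat.Agent.S24
  Fermat.Agent.G Fermat.Agent.SS

local notation "Qb" => AlgebraicClosure ℚ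

variable (N : ℕ) [NeZero N] (A : ValuationSubring Qb) (E : IntermediateField ℚ Qb)
variable {υ : LaurentSeries ℤ} (hυ : GrdSerMem N υ)

/-- the chart coordinate over `E` -/
def ttrnTE : ↥(modularFunctionFieldFullC E N) := ⟨grdSer υ E, hυ E⟩

/-- the two base changes `F_E(N) → F_ℚ̄(N)` of main agree -/
theorem ttrn_up_eq (z : ↥(modularFunctionFieldFullC E N)) : grdstUp N E z = ssdUp E N z := rfl

theorem ttrn_up_coord : ssdUp E N (ttrnTE N E hυ) = grdQ N hυ := grdstUp_coord N E hυ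

/-- `P_E → B` -/
def ttrnUp : ↥(s18tInt ↥(s18dVal A E) (ttrnTE N E hυ)) →+* ↥(grdB N A (grdQ N hυ)) where
  toFun z := ⟨ssdUp E N z, grdst_ascend_int N A hυ E z z.2⟩
  map_one' := Subtype.ext (map_one _)
  map_mul' x y := Subtype.ext (map_mul _ _ _)
  map_zero' := Subtype.ext (map_zero _)
  map_add' x y := Subtype.ext (map_add _ _ _)

@[simp]
theorem coe_ttrnUp (z : ↥(s18tInt ↥(s18dVal A E) (ttrnTE N E hυ))) :
    ((ttrnUp N A E hυ z : ↥(grdB N A (grdQ N hυ))) : ↥(modularFunctionFieldBar N)) =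
      ssdUp E N (z : ↥(modularFunctionFieldFullC E N)) := rfl

theorem ttrnUp_injective : Function.Injective (ttrnUp N A E hυ) := by
  intro x y h
  apply Subtype.ext
  apply ssdUp_injective E N
  exact congrArg (fun z : ↥(grdB N A (grdQ N hυ)) => (z : ↥(modularFunctionFieldBar N))) h

/-- `𝔫_E = 𝔫 ∩ P_E` -/
def ttrnDown (𝔫 : Ideal ↥(grdB N A (grdQ N hυ))) :
    Ideal ↥(s18tInt ↥(s18dVal A E) (ttrnTE N E hυ)) := 𝔫.comap (ttrnUp N A E hυ)

theorem mem_ttrnDown (𝔫 : Ideal ↥(grdB N A (grdQ N hυ)))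
    (z : ↥(s18tInt ↥(s18dVal A E) (ttrnTE N E hυ))) :
    z ∈ ttrnDown N A E hυ 𝔫 ↔ ttrnUp N A E hυ z ∈ 𝔫 := Iff.rfl

instance ttrnDown_isPrime (𝔫 : Ideal ↥(grdB N A (grdQ N hυ))) [𝔫.IsPrime] :
    (ttrnDown N A E hυ 𝔫).IsPrime := Ideal.comap_isPrime _ _

/-- every element of `B` comes from `P_E` for `E` large -/
theorem ttrn_exists_model (x : ↥(grdB N A (grdQ N hυ))) :
    ∃ E₁ : IntermediateField ℚ Qb, FiniteDimensional ℚ E₁ ∧
      ∀ E : IntermediateField ℚ Qb, E₁ ≤ E →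
        ∃ z : ↥(s18tInt ↥(s18dVal A E) (ttrnTE N E hυ)), ttrnUp N A E hυ z = x := by
  obtain ⟨E₁, hfd₁, h₁⟩ := grdst_exists_field_elem N (x : ↥(modularFunctionFieldBar N))
  obtain ⟨E₂, hfd₂, h₂⟩ := grdst_descend_int N A hυ (x : ↥(modularFunctionFieldBar N)) x.2
  haveI := hfd₁
  haveI := hfd₂
  refine ⟨E₁ ⊔ E₂, IntermediateField.finiteDimensional_sup _ _, fun E hE => ?_⟩
  obtain ⟨z, hz⟩ := h₁ E (le_trans le_sup_left hE)
  exact ⟨⟨z, h₂ E (le_trans le_sup_right hE) z hz⟩, Subtype.ext hz⟩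

end Fermat.Agent.TT
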