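/-
(NODE), ascent, sub-slice (ASC-RAT) (prefix `ttrr`, owner helper3; literal = helper19, board 3848).

`B = grdB N A t` the ℚ̄-level chart ring, `𝔫` a prime of `B`, `R` a ℚ̄-place of `F_ℚ̄(N)` with
`B ⊆ 𝒪_R` and `B ∩ 𝔪_R ⊆ 𝔫` (`R` is centred at `𝔫`), and `t(R) ∈ A` (`GrdInChart`; automatic when
`𝔫 ⊇ 𝔪_A`, `ttrr_inChart`).  Then for every number field `E ≥ E₁` the closed point
`𝔫_E = 𝔫 ∩ P_E` of the `E`-level chart ring `P_E = s18tInt (A ∩ E) t_E` is RATIONAL
(`SsResRational`): `P_E = (A ∩ E) + 𝔫_E`.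

* `ttrr_val_mem`   : the value at `R` of an element of `B` lies in `A` (integrally closed);
* `ttrr_rational`  : (ASC-RAT) with the hypothesis `GrdInChart N A t R`;
* `ttrr_inChart`   : `GrdInChart N A t R` from `𝔪_A ⊆ 𝔫`;
* `ttrr_rational'` : (ASC-RAT) with the hypothesis `𝔪_A ⊆ 𝔫`.
-/
import Mathlib
import Fermat.Agent.TT.Red2.NodeUp
import Fermat.Agent.G.Red.RelExists
import Fermat.Agent.SS.Dict.Rational
import Fermat.Agent.SS.Geo.Loc

set_option autoImplicit false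
set_option linter.unusedSectionVars false
set_option linter.unusedVariables false
set_option linter.style.haveILetI false

noncomputable section

namespace Fermat.Agent.TT

open ModularCurve AlgebraicCurve IsLocalRing Polynomial Fermat.Agent.S18 Fermat.Agent.S24
  Fermat.Agent.G Fermat.Agent.SS

local notation "Qb" => AlgebraicClosure ℚ

variable (N : ℕ) [NeZero N] (A : ValuationSubring Qb)
variable {υ : LaurentSeries ℤ} (hυ : GrdSerMem N υ)

/-- the value at a place of the chart of an element integral over `A[t]` lies in `A`. -/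
theorem ttrr_val_mem (u : modularFunctionFieldBar N)
    (R : Place Qb (modularFunctionFieldBar N)) (ht : GrdInChart N A u R)
    {x : modularFunctionFieldBar N} (hx : GrdIsInt N A u x) {b : Qb} (hb : GrdVal R x b) :
    b ∈ A := by
  obtain ⟨a₀, ha₀⟩ := ht
  have h1 : ∀ f : A[X], GrdVal R (Polynomial.eval₂RingHom (grdInclA N A) u f)
      (Polynomial.eval₂RingHom A.subtype (a₀ : Qb) f) := fun f =>
    grdr_val_eval₂ R (grdInclA N A) A.subtype
      (fun r => grdg_val_algebraMap R (r : Qb)) ha₀ f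
  obtain ⟨q, hqm, hq0⟩ := hx
  have h2 := grdr_val_eval₂ R _ _ h1 hb q
  rw [hq0] at h2
  have h3 : q.eval₂ (Polynomial.eval₂RingHom A.subtype (a₀ : Qb)) b = 0 :=
    grdg_val_unique R h2 (grdr_val_zero R)
  have hψ : (Polynomial.eval₂RingHom A.subtype (a₀ : Qb)) =
      (algebraMap A Qb).comp (Polynomial.evalRingHom a₀) := by
    ext f
    · simp
    · simp
  have hint : IsIntegral A b := by
    refine ⟨q.map (Polynomial.evalRingHom a₀), hqm.map _, ?_⟩
    rw [Polynomial.eval₂_map, ← hψ]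
    exact h3
  obtain ⟨y, hy⟩ := IsIntegrallyClosed.isIntegral_iff.mp hint
  have : ((y : A) : Qb) = b := hy
  rw [← this]
  exact y.2

/-- **(ASC-RAT)**: the `E`-level closed points under a closed point of `B` carrying a `ℚ̄`-place
of the chart are rational, for all big `E`. -/
theorem ttrr_rational (R : Place Qb (modularFunctionFieldBar N))
    (hBR : ∀ x ∈ grdB N A (grdQ N hυ), x ∈ R.toValuationSubring)
    (ht : GrdInChart N A (grdQ N hυ) R)
    (𝔫 : Ideal ↥(grdB N A (grdQ N hυ))) [𝔫.IsPrime]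
    (hc : ∀ x : ↥(grdB N A (grdQ N hυ)),
      (x : modularFunctionFieldBar N) ∈ R.toValuationSubring.nonunits → x ∈ 𝔫) :
    ∃ E₁ : IntermediateField ℚ Qb, FiniteDimensional ℚ E₁ ∧
      ∀ (E : IntermediateField ℚ Qb) [FiniteDimensional ℚ E] [Normal ℚ E]
        [IsDiscreteValuationRing ↥(s18dVal A E)] [CharZero ↥(s18dVal A E)], E₁ ≤ E →
        SsResRational (ttrnTE N E hυ) (ttrnDown N A E hυ 𝔫) := by
  obtain ⟨E₁, hfd, hE₁⟩ := ssd_exists_rational N R
  refine ⟨E₁, hfd, ?_⟩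
  intro E _ _ _ _ hE x
  obtain ⟨-, hval⟩ := hE₁ E hE
  -- the value of `x` at `R`
  have hxB : ssdUp E N (x : ↥(modularFunctionFieldFullC E N)) ∈ grdB N A (grdQ N hυ) :=
    (ttrnUp N A E hυ x).2
  obtain ⟨c, hc'⟩ := hval (x : ↥(modularFunctionFieldFullC E N)) (hBR _ hxB)
  have hcA : algebraMap E Qb c ∈ A := ttrr_val_mem N A (grdQ N hυ) R ht hxB hc'
  -- `c ∈ A ∩ E`
  let a : ↥(s18dVal A E) := ⟨c, hcA⟩
  have haF : algebraMap ↥(s18dVal A E) ↥(modularFunctionFieldFullC E N) a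
      = algebraMap E ↥(modularFunctionFieldFullC E N) c := by
    rw [IsScalarTower.algebraMap_apply ↥(s18dVal A E) E ↥(modularFunctionFieldFullC E N)]
    rfl
  refine ⟨a, ⟨(x : ↥(modularFunctionFieldFullC E N)) -
      algebraMap ↥(s18dVal A E) ↥(modularFunctionFieldFullC E N) a,
    Subring.sub_mem _ x.2 (s18tc_algebraMap_mem_int _ a)⟩, ?_, by simp⟩
  rw [mem_ttrnDown]
  apply hc
  rw [coe_ttrnUp]
  show ssdUp E N ((x : ↥(modularFunctionFieldFullC E N)) -
      algebraMap ↥(s18dVal A E) ↥(modularFunctionFieldFullC E N) a) ∈ _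
  rw [map_sub, haF, ssdUp_algebraMap]
  exact hc'

/-- `x ∈ 𝒪`, `y ∈ 𝔪` ⟹ `x y ∈ 𝔪` -/
theorem ttrr_mul_mem_nonunits {F : Type*} [Field F] (V : ValuationSubring F) {x y : F}
    (hx : x ∈ V) (hy : y ∈ V.nonunits) : x * y ∈ V.nonunits := by
  rw [ValuationSubring.mem_nonunits_iff] at hy ⊢
  rw [map_mul]
  exact mul_lt_one_of_nonneg_of_lt_one_right ((V.valuation_le_one_iff x).mpr hx) zero_le hy

/-- a place centred at a prime `𝔫 ⊇ 𝔪_A` of `B` lies in the chart: `t(R) ∈ A`. -/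
theorem ttrr_inChart (R : Place Qb (modularFunctionFieldBar N))
    (hBR : ∀ x ∈ grdB N A (grdQ N hυ), x ∈ R.toValuationSubring)
    (𝔫 : Ideal ↥(grdB N A (grdQ N hυ))) [h𝔫 : 𝔫.IsPrime]
    (hc : ∀ x : ↥(grdB N A (grdQ N hυ)),
      (x : modularFunctionFieldBar N) ∈ R.toValuationSubring.nonunits → x ∈ 𝔫)
    (hm : ∀ a : A, a ∈ maximalIdeal A →
      (⟨algebraMap Qb (modularFunctionFieldBar N) (a : Qb),
        grdr_isInt_algebraMap N A (grdQ N hυ) a⟩ : ↥(grdB N A (grdQ N hυ))) ∈ 𝔫) :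
    GrdInChart N A (grdQ N hυ) R := by
  obtain ⟨E₁, hfd, hE₁⟩ := ssd_exists_rational N R
  obtain ⟨-, hval⟩ := hE₁ E₁ le_rfl
  have htB : grdQ N hυ ∈ grdB N A (grdQ N hυ) := grdr_isInt_self N A (grdQ N hυ)
  obtain ⟨c, hc'⟩ := hval (ttrnTE N E₁ hυ) (by
    rw [ttrn_up_coord]
    exact hBR _ htB)
  rw [ttrn_up_coord] at hc'
  set b : Qb := algebraMap E₁ Qb c with hb
  by_cases hbA : b ∈ A
  · exact ⟨⟨b, hbA⟩, hc'⟩
  · exfalso
    have hb0 : b ≠ 0 := fun h => hbA (h ▸ A.zero_mem)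
    have hinvA : b⁻¹ ∈ A := (A.mem_or_inv_mem b).resolve_left hbA
    have hinvm : (⟨b⁻¹, hinvA⟩ : A) ∈ maximalIdeal A := by
      rw [mem_maximalIdeal, mem_nonunits_iff]
      intro hu
      obtain ⟨v, hv⟩ := hu.exists_right_inv
      apply hbA
      have : (v : Qb) = b := by
        have h1 : b⁻¹ * (v : Qb) = 1 := congrArg Subtype.val hv
        field_simp at h1
        exact h1
      rw [← this]
      exact v.2
    have h1 := hm ⟨b⁻¹, hinvA⟩ hinvm
    -- `b⁻¹ t - 1 ∈ B ∩ 𝔪_R`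
    set aF : ↥(grdB N A (grdQ N hυ)) := ⟨algebraMap Qb (modularFunctionFieldBar N) b⁻¹,
      grdr_isInt_algebraMap N A (grdQ N hυ) ⟨b⁻¹, hinvA⟩⟩ with haF
    set tB : ↥(grdB N A (grdQ N hυ)) := ⟨grdQ N hυ, htB⟩ with htB'
    have h2 : aF * tB - 1 ∈ 𝔫 := by
      apply hc
      have e : ((aF * tB - 1 : ↥(grdB N A (grdQ N hυ))) : modularFunctionFieldBar N)
          = algebraMap Qb (modularFunctionFieldBar N) b⁻¹ *
            (grdQ N hυ - algebraMap Qb (modularFunctionFieldBar N) b) := by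
        show algebraMap Qb (modularFunctionFieldBar N) b⁻¹ * grdQ N hυ - 1 = _
        rw [mul_sub, ← map_mul, inv_mul_cancel₀ hb0, map_one]
      rw [e]
      exact ttrr_mul_mem_nonunits _ (R.algebraMap_mem' _) hc'
    have h3 : (1 : ↥(grdB N A (grdQ N hυ))) ∈ 𝔫 := by
      have := 𝔫.sub_mem (𝔫.mul_mem_right tB h1) h2
      rwa [sub_sub_cancel] at this
    exact h𝔫.ne_top ((Ideal.eq_top_iff_one _).mpr h3)

/-- **(ASC-RAT)**, closed-point form: `𝔫 ⊇ 𝔪_A` instead of `GrdInChart`. -/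
theorem ttrr_rational' (R : Place Qb (modularFunctionFieldBar N))
    (hBR : ∀ x ∈ grdB N A (grdQ N hυ), x ∈ R.toValuationSubring)
    (𝔫 : Ideal ↥(grdB N A (grdQ N hυ))) [𝔫.IsPrime]
    (hc : ∀ x : ↥(grdB N A (grdQ N hυ)),
      (x : modularFunctionFieldBar N) ∈ R.toValuationSubring.nonunits → x ∈ 𝔫)
    (hm : ∀ a : A, a ∈ maximalIdeal A →
      (⟨algebraMap Qb (modularFunctionFieldBar N) (a : Qb),
        grdr_isInt_algebraMap N A (grdQ N hυ) a⟩ : ↥(grdB N A (grdQ N hυ))) ∈ 𝔫) :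
    ∃ E₁ : IntermediateField ℚ Qb, FiniteDimensional ℚ E₁ ∧
      ∀ (E : IntermediateField ℚ Qb) [FiniteDimensional ℚ E] [Normal ℚ E]
        [IsDiscreteValuationRing ↥(s18dVal A E)] [CharZero ↥(s18dVal A E)], E₁ ≤ E →
        SsResRational (ttrnTE N E hυ) (ttrnDown N A E hυ 𝔫) :=
  ttrr_rational N A hυ R hBR (ttrr_inChart N A hυ R hBR 𝔫 hc hm) 𝔫 hc

end Fermat.Agent.TT
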