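import Mathlib
import Fermat.Agent.TT.Red2.IntoNode
import Fermat.Agent.TT.Red2.NodeRat
import Fermat.Agent.TT.Red2.LocInputs
import Fermat.Agent.TT.Red2.Red2All
import Fermat.Agent.TT.Alpha.BridgeInto
import Fermat.Agent.TT.Red2.ChartAll

/-!
# Program TT (S33), package G/Red₂ : the NODE package `hN` of `ttri_into` AT THE LEVEL `M p`

Owner: helper3 (TT-PM R36).  Prefix `ttru`.  Namespace `Fermat.Agent.TT`.

`hc : GrdChart M 𝔸 υ` a chart of level `M`, `u = α υ_ℚ̄`, `B = grdB (M p) 𝔸 u`,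
`V₁ = ttrV1`, `V₂ = ttraV2`, `red_j = ttraRed_j` restricted to `O2 = V₁ ⊓ V₂` (`ttalRedO_j`).
The nodes are ANY family of pairs of places `(ν₁ i, ν₂ i)` of `F_k(M)` at which the two branch
values of every `b ∈ B` agree (`hpair`; helper19's definition of `S`, board 3911).

* `ttruCenN` : the places centred at the node `i` (intrinsic: `u(v) ∈ 𝔸` and
  `(red₁ b)(ν₁ i) = 0 → b(v) ∈ 𝔪_𝔸` for `b ∈ B`);
* `ttru_hN_inst` : the hypothesis `hN` of helper24's `ttg_into_of_ttri'` VERBATIM with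
  `cenN := ttruCenN …`;
* `ttru_hcenN_inst` : the hypothesis `hcenN` (a place centred at a node is good of neither kind),
  from `v₁ ∈ B`, `red₂ v₁ = 0`, `v₂ ∈ B`, `red₁ v₂ = 0`.
-/

set_option autoImplicit false
set_option linter.unusedSectionVars false
set_option linter.unusedVariables false
set_option linter.style.haveILetI false

noncomputable section

namespace Fermat.Agent.TT

open Polynomial ModularCurve AlgebraicCurve IsLocalRing IntermediateField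
  Fermat.Agent.G Fermat.Agent.S18 Fermat.Agent.S24 Fermat.Agent.FF

local notation "Qb" => AlgebraicClosure ℚ

variable (M : ℕ) [NeZero M] {p : ℕ} [Fact p.Prime] [NeZero p]
variable (A : ValuationSubring Qb) (hpM : ¬ p ∣ M) (hA : A.LiesOverPrime p)
variable {υ : LaurentSeries ℤ} (hc : GrdChart M A υ)

/-- (hBO) the `α`-chart ring lies in `V₁ ⊓ V₂`. -/
theorem ttru_le_inst :
    grdB (M * p) A (heckeAlphaBar Qb M p (grdQ M hc.mem)) ≤
      (ttrV1 M A hpM hA).toSubring ⊓ (ttraV2 M A hpM hA).toSubring := by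
  intro x hx
  have h := ttrli_le_alpha M A hpM hA hc hx
  exact ⟨h.1, h.2⟩

/-- the places of `F_ℚ̄(M p)` centred at the closed point of the `α`-chart under the branch `Q₁`
of the first component. -/
def ttruCenN (Q₁ : Place (ResidueField A) ↥(modularFunctionFieldFullC (ResidueField A) M))
    (v : Place Qb ↥(modularFunctionFieldBar (M * p))) : Prop :=
  (∃ a : A, GrdVal v (heckeAlphaBar Qb M p (grdQ M hc.mem)) (a : Qb)) ∧
    ∀ b : ↥(grdB (M * p) A (heckeAlphaBar Qb M p (grdQ M hc.mem))),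
      GrdVal Q₁ (ttalRedO₁ (V₂ := ttraV2 M A hpM hA) (ttraRed1 M A hpM hA)
        ⟨b, ttru_le_inst M A hpM hA hc b.2⟩) 0 →
      ∃ a : A, a ∈ maximalIdeal A ∧ GrdVal v (b : ↥(modularFunctionFieldBar (M * p))) (a : Qb)

/-- `red₁` of a constant, on `O2`. -/
theorem ttru_redc₁_inst (a : A)
    (h : algebraMap Qb ↥(modularFunctionFieldBar (M * p)) (a : Qb) ∈
      (ttrV1 M A hpM hA).toSubring ⊓ (ttraV2 M A hpM hA).toSubring) :
    ttalRedO₁ (V₂ := ttraV2 M A hpM hA) (ttraRed1 M A hpM hA)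
        ⟨algebraMap Qb ↥(modularFunctionFieldBar (M * p)) (a : Qb), h⟩ =
      algebraMap (ResidueField A) ↥(modularFunctionFieldFullC (ResidueField A) M)
        (residue A a) := by
  rw [ttalRedO₁_apply]
  exact (ttrvp_tb1 M A hpM hA).red_const a

/-- **the hypothesis `hN` of `ttg_into_of_ttri'` at the level `M p`, VERBATIM**, for any family
of pairs of branches `(ν₁ i, ν₂ i)` with equal values on the `α`-chart ring. -/
theorem ttru_hN_inst {ι : Type*}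
    (ν₁ ν₂ : ι → Place (ResidueField A) ↥(modularFunctionFieldFullC (ResidueField A) M))
    (hpair : ∀ i, ∀ b : ↥(grdB (M * p) A (heckeAlphaBar Qb M p (grdQ M hc.mem))),
      ∃ c : ResidueField A,
        GrdVal (ν₁ i) (ttalRedO₁ (V₂ := ttraV2 M A hpM hA) (ttraRed1 M A hpM hA)
          ⟨b, ttru_le_inst M A hpM hA hc b.2⟩) c ∧
        GrdVal (ν₂ i) (ttalRedO₂ (V₁ := ttrV1 M A hpM hA) (ttraRed2 M A hpM hA)
          ⟨b, ttru_le_inst M A hpM hA hc b.2⟩) c) :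
    ∀ i, ∃ (B : Subring ↥(modularFunctionFieldBar (M * p)))
      (hBO : B ≤ (ttrV1 M A hpM hA).toSubring ⊓ (ttraV2 M A hpM hA).toSubring),
      (∀ x ∈ (ttrV1 M A hpM hA).toSubring ⊓ (ttraV2 M A hpM hA).toSubring,
        (∀ v, ttruCenN M A hpM hA hc (ν₁ i) v → x ∈ v.toValuationSubring) →
        ∃ s : B, ¬ GrdVal (ν₁ i) (ttalRedO₁ (V₂ := ttraV2 M A hpM hA) (ttraRed1 M A hpM hA)
          ⟨s, hBO s.2⟩) 0 ∧ (s : ↥(modularFunctionFieldBar (M * p))) * x ∈ B) ∧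
      ∀ b : B, ∃ c : ResidueField A,
        GrdVal (ν₁ i) (ttalRedO₁ (V₂ := ttraV2 M A hpM hA) (ttraRed1 M A hpM hA)
          ⟨b, hBO b.2⟩) c ∧
        GrdVal (ν₂ i) (ttalRedO₂ (V₁ := ttrV1 M A hpM hA) (ttraRed2 M A hpM hA)
          ⟨b, hBO b.2⟩) c := by
  intro i
  haveI := gff_hasPrincipalDivisors (M * p)
  refine ⟨grdB (M * p) A (heckeAlphaBar Qb M p (grdQ M hc.mem)), ttru_le_inst M A hpM hA hc, ?_⟩
  have hsat : ∀ x ∈ (ttrV1 M A hpM hA).toSubring ⊓ (ttraV2 M A hpM hA).toSubring,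
      (∀ v : Place Qb ↥(modularFunctionFieldBar (M * p)),
        heckeAlphaBar Qb M p (grdQ M hc.mem) ∈ v.toValuationSubring → x ∈ v.toValuationSubring) →
      x ∈ grdB (M * p) A (heckeAlphaBar Qb M p (grdQ M hc.mem)) := fun x hx hreg =>
    ttrli_sat_alpha M A hpM hA hc x ⟨hx.1, hx.2⟩ hreg
  exact ttru_pkg_pair (A := A) _ _ (ttru_le_inst M A hpM hA hc) _ _ (ν₁ i) (ν₂ i)
    (heckeAlphaBar Qb M p (grdQ M hc.mem)) (ttrli_u_mem (M * p) A _)
    (ttrli_breg (M * p) A _) hsat (ttrli_const (M * p) A _)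
    (ttru_redc₁_inst M A hpM hA)
    (fun v x hx => ttrli_res (M * p) v x hx)
    (fun v hv b c hbc => ttrr_val_mem (M * p) A _ v hv b.2 hbc)
    (hpair i)

/-- **the hypothesis `hcenN` of `ttrgl_into` / `ttg_into_of_ttri'`** : a place centred at a node is
good of neither kind.  Hypothesis-first in `v₁ v₂` (any chart, any `p`): `v₁, v₂` lie in the
`α`-chart ring, `red₂ v₁ = 0`, `red₁ v₂ = 0`.  (`u₁ u₂` are free: only the second half of
`TtrpGoodC` is used.) -/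
theorem ttru_hcenN_inst {ι : Type*}
    (ν₁ ν₂ : ι → Place (ResidueField A) ↥(modularFunctionFieldFullC (ResidueField A) M))
    (hpair : ∀ i, ∀ b : ↥(grdB (M * p) A (heckeAlphaBar Qb M p (grdQ M hc.mem))),
      ∃ c : ResidueField A,
        GrdVal (ν₁ i) (ttalRedO₁ (V₂ := ttraV2 M A hpM hA) (ttraRed1 M A hpM hA)
          ⟨b, ttru_le_inst M A hpM hA hc b.2⟩) c ∧
        GrdVal (ν₂ i) (ttalRedO₂ (V₁ := ttrV1 M A hpM hA) (ttraRed2 M A hpM hA)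
          ⟨b, ttru_le_inst M A hpM hA hc b.2⟩) c)
    (u₁ v₁ u₂ v₂ : ↥(modularFunctionFieldBar (M * p)))
    (hv₁ : v₁ ∈ grdB (M * p) A (heckeAlphaBar Qb M p (grdQ M hc.mem)))
    (hv₂ : v₂ ∈ grdB (M * p) A (heckeAlphaBar Qb M p (grdQ M hc.mem)))
    (hred₂ : ∀ h : v₁ ∈ ttraV2 M A hpM hA, ttraRed2 M A hpM hA ⟨v₁, h⟩ = 0)
    (hred₁ : ∀ h : v₂ ∈ ttrV1 M A hpM hA, ttraRed1 M A hpM hA ⟨v₂, h⟩ = 0) :
    ∀ i v, ttruCenN M A hpM hA hc (ν₁ i) v →
      ¬ TtrpGoodC M p A u₁ v₁ v ∧ ¬ TtrpGoodC M p A u₂ v₂ v := by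
  intro i v hcen
  obtain ⟨-, hcen⟩ := hcen
  have key : ∀ b : ↥(grdB (M * p) A (heckeAlphaBar Qb M p (grdQ M hc.mem))),
      GrdVal (ν₁ i) (ttalRedO₁ (V₂ := ttraV2 M A hpM hA) (ttraRed1 M A hpM hA)
        ⟨b, ttru_le_inst M A hpM hA hc b.2⟩) 0 →
      ∀ u : ↥(modularFunctionFieldBar (M * p)),
        ¬ TtrpGoodC M p A u (b : ↥(modularFunctionFieldBar (M * p))) v := by
    intro b hb u hgood
    obtain ⟨a, ha, hva⟩ := hcen b hb
    refine hgood.2 ⟨(a : Qb), ?_, hva⟩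
    rw [ValuationSubring.mem_nonunits_iff_exists_mem_maximalIdeal]
    exact ⟨a.2, ha⟩
  refine ⟨key ⟨v₁, hv₁⟩ ?_ u₁, key ⟨v₂, hv₂⟩ ?_ u₂⟩
  · obtain ⟨c, h1, h2⟩ := hpair i ⟨v₁, hv₁⟩
    have e : ttalRedO₂ (V₁ := ttrV1 M A hpM hA) (ttraRed2 M A hpM hA)
        ⟨v₁, ttru_le_inst M A hpM hA hc hv₁⟩ = 0 := by
      rw [ttalRedO₂_apply]
      exact hred₂ _
    rw [e] at h2
    have hc0 : c = 0 := grdg_val_unique (ν₂ i) h2 (grdr_val_zero (ν₂ i))
    rw [hc0] at h1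
    exact h1
  · have e : ttalRedO₁ (V₂ := ttraV2 M A hpM hA) (ttraRed1 M A hpM hA)
        ⟨v₂, ttru_le_inst M A hpM hA hc hv₂⟩ = 0 := by
      rw [ttalRedO₁_apply]
      exact hred₁ _
    rw [e]
    exact grdr_val_zero (ν₁ i)

/-! ### the `j`-chart (`p ≥ 5`) : `v₁ = u₂ = Y^p - J`, `v₂ = ± u₁ = ± (Y - J^p)` -/

/-- **`hcenN` in the `j`-chart** (`p ≥ 5`), for helper12's `ttr_chart_j₁/₂`
(`v₁ = ttrU2`, `v₂ = ttrU1`). -/
theorem ttru_hcenN_j (h5 : 5 ≤ p) {ι : Type*}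
    (ν₁ ν₂ : ι → Place (ResidueField A) ↥(modularFunctionFieldFullC (ResidueField A) M))
    (hpair : ∀ i, ∀ b : ↥(grdB (M * p) A
        (heckeAlphaBar Qb M p (grdQ M (grd_chart_j M A hpM hA h5).mem))),
      ∃ c : ResidueField A,
        GrdVal (ν₁ i) (ttalRedO₁ (V₂ := ttraV2 M A hpM hA) (ttraRed1 M A hpM hA)
          ⟨b, ttru_le_inst M A hpM hA (grd_chart_j M A hpM hA h5) b.2⟩) c ∧
        GrdVal (ν₂ i) (ttalRedO₂ (V₁ := ttrV1 M A hpM hA) (ttraRed2 M A hpM hA)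
          ⟨b, ttru_le_inst M A hpM hA (grd_chart_j M A hpM hA h5) b.2⟩) c)
    (u₁ u₂ : ↥(modularFunctionFieldBar (M * p))) :
    ∀ i v, ttruCenN M A hpM hA (grd_chart_j M A hpM hA h5) (ν₁ i) v →
      ¬ TtrpGoodC M p A u₁ (ttrU2 M A) v ∧ ¬ TtrpGoodC M p A u₂ (ttrU1 M A) v :=
  ttru_hcenN_inst M A hpM hA (grd_chart_j M A hpM hA h5) ν₁ ν₂ hpair u₁ (ttrU2 M A) u₂
    (ttrU1 M A) (ttr_chart_U2_mem M A hpM hA) (ttr_chart_U1_mem M A hpM hA)
    (fun h => ttr_chart_red_wU2 M A hpM hA h) (fun h => ttrRed1_U1 M A hA)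

/-- the same with the normalisation `v₂ = -ttrU1`. -/
theorem ttru_hcenN_j_neg (h5 : 5 ≤ p) {ι : Type*}
    (ν₁ ν₂ : ι → Place (ResidueField A) ↥(modularFunctionFieldFullC (ResidueField A) M))
    (hpair : ∀ i, ∀ b : ↥(grdB (M * p) A
        (heckeAlphaBar Qb M p (grdQ M (grd_chart_j M A hpM hA h5).mem))),
      ∃ c : ResidueField A,
        GrdVal (ν₁ i) (ttalRedO₁ (V₂ := ttraV2 M A hpM hA) (ttraRed1 M A hpM hA)
          ⟨b, ttru_le_inst M A hpM hA (grd_chart_j M A hpM hA h5) b.2⟩) c ∧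
        GrdVal (ν₂ i) (ttalRedO₂ (V₁ := ttrV1 M A hpM hA) (ttraRed2 M A hpM hA)
          ⟨b, ttru_le_inst M A hpM hA (grd_chart_j M A hpM hA h5) b.2⟩) c)
    (u₁ u₂ : ↥(modularFunctionFieldBar (M * p))) :
    ∀ i v, ttruCenN M A hpM hA (grd_chart_j M A hpM hA h5) (ν₁ i) v →
      ¬ TtrpGoodC M p A u₁ (ttrU2 M A) v ∧ ¬ TtrpGoodC M p A u₂ (-ttrU1 M A) v :=
  ttru_hcenN_inst M A hpM hA (grd_chart_j M A hpM hA h5) ν₁ ν₂ hpair u₁ (ttrU2 M A) u₂
    (-ttrU1 M A) (ttr_chart_U2_mem M A hpM hA)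
    (Subring.neg_mem _ (ttr_chart_U1_mem M A hpM hA))
    (fun h => ttr_chart_red_wU2 M A hpM hA h)
    (fun h => by
      have e : (⟨-ttrU1 M A, h⟩ : ↥(ttrV1 M A hpM hA)) = -⟨ttrU1 M A, ttrU1_mem M A⟩ := rfl
      rw [e, map_neg]
      exact neg_eq_zero.2 (ttrRed1_U1 M A hA))

end Fermat.Agent.TT
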