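import Mathlib
import Fermat.Agent.TT.Red2.IntoNodeInst
import Fermat.Agent.TT.Red2.CountS

/-!
# Program TT (S33), package G/Red₂ : the NODE package `hN` + `hcenN` of `into` AT THE CANONICAL
SET OF NODES `S := ttrkS M p 𝔸 hpM h𝔸 hat` (TT-PM R42(4))

Owner: helper3.  Prefix `ttru`.  Namespace `Fermat.Agent.TT`.

`S := ttrkS …` (helper5 `CountS`, = the crossing pairs `ttrzS` of helper27 on the chart ring
`B = grdB (M p) 𝔸 (α τ_ℚ̄)` of `ttrkT`), `ν_j := ttrkSν_j …`.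

* `ttru_hpair_S` : the two branch values of every `b ∈ B` agree at every node (the pair condition,
  by definition of `S`);
* `ttruCenS` : the places centred at the node `i`;
* `ttru_hN_S` : the hypothesis `hN` of helper1's `ttrgl_into_inst_mixed` / helper24's
  `ttg_into_of_ttri'` VERBATIM, closed;
* `ttru_hcenN_S` : the hypothesis `hcenN`, hypothesis-first in `v₁ v₂`;
* `ttru_hcenN_S_j`, `ttru_hcenN_S_j_neg` : closed for the `j`-chart atlas (`p ≥ 5`);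
* `ttru_hcenN_S_mul` : `v₁ = e₁ u₂`, `v₂ = e₂ u₁` (the `p = 3` spelling
  `v₁ = (α h)^N u₂`, `v₂ = (β h)^N u₁`).
-/

set_option autoImplicit false
set_option linter.unusedSectionVars false
set_option linter.unusedVariables false
set_option linter.style.haveILetI false

noncomputable section

namespace Fermat.Agent.TT

open Polynomial ModularCurve AlgebraicCurve IsLocalRing IntermediateField
  Fermat.Agent.G Fermat.Agent.S18 Fermat.Agent.S24 Fermat.Agent.FF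

local notation "Qb" => AlgebraicClosure ℚ

variable (M : ℕ) [NeZero M] {p : ℕ} [Fact p.Prime] [NeZero p]
variable (A : ValuationSubring Qb) (hpM : ¬ p ∣ M) (hA : A.LiesOverPrime p)
variable {τ τ' : LaurentSeries ℤ} (hat : GrdAtlas M A τ τ')

/-- **the pair condition** at the canonical nodes: both branch values of every `b ∈ B` agree. -/
theorem ttru_hpair_S :
    ∀ (i : ttrkS M p A hpM hA hat)
      (b : ↥(grdB (M * p) A (heckeAlphaBar Qb M p (grdQ M hat.c.mem)))),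
      ∃ c : ResidueField A,
        GrdVal (ttrkSν₁ M p A hpM hA hat i)
          (ttalRedO₁ (V₂ := ttraV2 M A hpM hA) (ttraRed1 M A hpM hA)
            ⟨b, ttru_le_inst M A hpM hA hat.c b.2⟩) c ∧
        GrdVal (ttrkSν₂ M p A hpM hA hat i)
          (ttalRedO₂ (V₁ := ttrV1 M A hpM hA) (ttraRed2 M A hpM hA)
            ⟨b, ttru_le_inst M A hpM hA hat.c b.2⟩) c :=
  fun i b => ttrz_node_val i ⟨(b : ↥(modularFunctionFieldBar (M * p))), b.2⟩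

/-- the places of `F_ℚ̄(M p)` centred at the node `i`. -/
def ttruCenS (i : ttrkS M p A hpM hA hat)
    (v : Place Qb ↥(modularFunctionFieldBar (M * p))) : Prop :=
  ttruCenN M A hpM hA hat.c (ttrkSν₁ M p A hpM hA hat i) v

/-- **`hN` at the canonical nodes, closed.** -/
theorem ttru_hN_S :
    ∀ i : ttrkS M p A hpM hA hat,
      ∃ (B : Subring ↥(modularFunctionFieldBar (M * p)))
      (hBO : B ≤ (ttrV1 M A hpM hA).toSubring ⊓ (ttraV2 M A hpM hA).toSubring),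
      (∀ x ∈ (ttrV1 M A hpM hA).toSubring ⊓ (ttraV2 M A hpM hA).toSubring,
        (∀ v, ttruCenS M A hpM hA hat i v → x ∈ v.toValuationSubring) →
        ∃ s : B, ¬ GrdVal (ttrkSν₁ M p A hpM hA hat i)
          (ttalRedO₁ (V₂ := ttraV2 M A hpM hA) (ttraRed1 M A hpM hA) ⟨s, hBO s.2⟩) 0 ∧
          (s : ↥(modularFunctionFieldBar (M * p))) * x ∈ B) ∧
      ∀ b : B, ∃ c : ResidueField A,
        GrdVal (ttrkSν₁ M p A hpM hA hat i)
          (ttalRedO₁ (V₂ := ttraV2 M A hpM hA) (ttraRed1 M A hpM hA) ⟨b, hBO b.2⟩) c ∧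
        GrdVal (ttrkSν₂ M p A hpM hA hat i)
          (ttalRedO₂ (V₁ := ttrV1 M A hpM hA) (ttraRed2 M A hpM hA) ⟨b, hBO b.2⟩) c :=
  ttru_hN_inst M A hpM hA hat.c (ttrkSν₁ M p A hpM hA hat) (ttrkSν₂ M p A hpM hA hat)
    (ttru_hpair_S M A hpM hA hat)

/-- **`hcenN` at the canonical nodes**, hypothesis-first in `v₁ v₂`. -/
theorem ttru_hcenN_S (u₁ v₁ u₂ v₂ : ↥(modularFunctionFieldBar (M * p)))
    (hv₁ : v₁ ∈ grdB (M * p) A (heckeAlphaBar Qb M p (grdQ M hat.c.mem)))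
    (hv₂ : v₂ ∈ grdB (M * p) A (heckeAlphaBar Qb M p (grdQ M hat.c.mem)))
    (hred₂ : ∀ h : v₁ ∈ ttraV2 M A hpM hA, ttraRed2 M A hpM hA ⟨v₁, h⟩ = 0)
    (hred₁ : ∀ h : v₂ ∈ ttrV1 M A hpM hA, ttraRed1 M A hpM hA ⟨v₂, h⟩ = 0) :
    ∀ (i : ttrkS M p A hpM hA hat) v, ttruCenS M A hpM hA hat i v →
      ¬ TtrpGoodC M p A u₁ v₁ v ∧ ¬ TtrpGoodC M p A u₂ v₂ v :=
  ttru_hcenN_inst M A hpM hA hat.c (ttrkSν₁ M p A hpM hA hat) (ttrkSν₂ M p A hpM hA hat)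
    (ttru_hpair_S M A hpM hA hat) u₁ v₁ u₂ v₂ hv₁ hv₂ hred₂ hred₁

/-- `u₂ ∈ V₂`. -/
theorem ttru_U2_mem₂ : ttrU2 M A (p := p) ∈ ttraV2 M A hpM hA := by
  show ttrW M hpM (ttrU2 M A) ∈ grdO (M * p) A
  rw [ttrW_U2]
  exact Subring.neg_mem _ (ttrU1_mem M A)

/-- **`hcenN` for `v₁ = e₁ u₂`, `v₂ = e₂ u₁`** (any atlas; the `p = 3` spelling is
`e₁ = (α h)^N`, `e₂ = (β h)^N`). -/
theorem ttru_hcenN_S_mul (u₁ u₂ e₁ e₂ : ↥(modularFunctionFieldBar (M * p)))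
    (he₁ : e₁ ∈ ttraV2 M A hpM hA) (he₂ : e₂ ∈ ttrV1 M A hpM hA)
    (hv₁ : e₁ * ttrU2 M A ∈ grdB (M * p) A (heckeAlphaBar Qb M p (grdQ M hat.c.mem)))
    (hv₂ : e₂ * ttrU1 M A ∈ grdB (M * p) A (heckeAlphaBar Qb M p (grdQ M hat.c.mem))) :
    ∀ (i : ttrkS M p A hpM hA hat) v, ttruCenS M A hpM hA hat i v →
      ¬ TtrpGoodC M p A u₁ (e₁ * ttrU2 M A) v ∧ ¬ TtrpGoodC M p A u₂ (e₂ * ttrU1 M A) v := by
  refine ttru_hcenN_S M A hpM hA hat u₁ _ u₂ _ hv₁ hv₂ (fun h => ?_) (fun h => ?_)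
  · have e : (⟨e₁ * ttrU2 M A, h⟩ : ↥(ttraV2 M A hpM hA)) =
        ⟨e₁, he₁⟩ * ⟨ttrU2 M A, ttru_U2_mem₂ M A hpM hA⟩ := rfl
    rw [e, map_mul]
    have h0 : ttraRed2 M A hpM hA ⟨ttrU2 M A, ttru_U2_mem₂ M A hpM hA⟩ = 0 :=
      ttr_chart_red_wU2 M A hpM hA _
    rw [h0, mul_zero]
  · have e : (⟨e₂ * ttrU1 M A, h⟩ : ↥(ttrV1 M A hpM hA)) =
        ⟨e₂, he₂⟩ * ⟨ttrU1 M A, ttrU1_mem M A⟩ := rfl
    rw [e, map_mul]
    have h0 : ttraRed1 M A hpM hA ⟨ttrU1 M A, ttrU1_mem M A⟩ = 0 := ttrRed1_U1 M A hA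
    rw [h0, mul_zero]

/-! ### the `j`-chart atlas (`p ≥ 5`) -/

/-- **`hcenN` closed, `j`-chart**, `v₁ = ttrU2`, `v₂ = ttrU1` (helper12's `ttr_chart_j₁/₂`). -/
theorem ttru_hcenN_S_j {σ' : LaurentSeries ℤ} (hat : GrdAtlas M A (jqModC ℤ) σ')
    (u₁ u₂ : ↥(modularFunctionFieldBar (M * p))) :
    ∀ (i : ttrkS M p A hpM hA hat) v, ttruCenS M A hpM hA hat i v →
      ¬ TtrpGoodC M p A u₁ (ttrU2 M A) v ∧ ¬ TtrpGoodC M p A u₂ (ttrU1 M A) v :=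
  ttru_hcenN_S M A hpM hA hat u₁ (ttrU2 M A) u₂ (ttrU1 M A)
    (ttr_chart_U2_mem M A hpM hA) (ttr_chart_U1_mem M A hpM hA)
    (fun h => ttr_chart_red_wU2 M A hpM hA h) (fun h => ttrRed1_U1 M A hA)

/-- **`hcenN` closed, `j`-chart**, `v₁ = ttrU2`, `v₂ = -ttrU1` (the cls literal of TT-PM R42(6) /
R44). -/
theorem ttru_hcenN_S_j_neg {σ' : LaurentSeries ℤ} (hat : GrdAtlas M A (jqModC ℤ) σ')
    (u₁ u₂ : ↥(modularFunctionFieldBar (M * p))) :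
    ∀ (i : ttrkS M p A hpM hA hat) v, ttruCenS M A hpM hA hat i v →
      ¬ TtrpGoodC M p A u₁ (ttrU2 M A) v ∧ ¬ TtrpGoodC M p A u₂ (-ttrU1 M A) v :=
  ttru_hcenN_S M A hpM hA hat u₁ (ttrU2 M A) u₂ (-ttrU1 M A)
    (ttr_chart_U2_mem M A hpM hA) (Subring.neg_mem _ (ttr_chart_U1_mem M A hpM hA))
    (fun h => ttr_chart_red_wU2 M A hpM hA h)
    (fun h => by
      have e : (⟨-ttrU1 M A, h⟩ : ↥(ttrV1 M A hpM hA)) = -⟨ttrU1 M A, ttrU1_mem M A⟩ := rfl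
      rw [e, map_neg]
      exact neg_eq_zero.2 (ttrRed1_U1 M A hA))

end Fermat.Agent.TT
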