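import Mathlib
import Fermat.Agent.TT.Red2.Inst

/-!
# Program TT (S33), package G/Red₂ (helper12, prefix `ttr`) : THE FOUR OBJECTS OF THE MODEL

The canonical `V₁ V₂ : ValuationSubring F`, `red₁ : V₁ →+* F_k(M)`, `red₂ : V₂ →+* F_k(M)` of the
two-valuation model of `X₀(M p)` at `p` (`F = modularFunctionFieldBar (M * p)`), in the exact types
asked by the assembly spec (`TtgModel`, helper24) :

* `ttrModV1 M 𝔸 hpM hA = ttrV1 M 𝔸 hpM hA`  (carrier `grdO (M * p) 𝔸`);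
* `ttrModV2 M 𝔸 hpM hA = (ttrV1 M 𝔸 hpM hA).comap w`,  `w = ttrW M hpM`;
* `ttrModRed1 x = ttrRed1 M 𝔸 hA ⟨x, _⟩`,  `ttrModRed2 x = ttrRed1 M 𝔸 hA ⟨w x, _⟩`
  (`ttrModRed1_apply`, `ttrModRed2_apply` are `rfl`);
* `ttrMod_mem_inf` : `x ∈ V₁ ⊓ V₂ ↔ x ∈ ttrO2 M 𝔸 hpM`;  `ttrModRed_eq` : the pair
  `(red₁, red₂)` on `V₁ ⊓ V₂` is `ttrRed`.
-/

set_option autoImplicit false
set_option linter.unusedSectionVars false
set_option linter.unusedVariables false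
set_option linter.style.haveILetI false
set_option synthInstance.maxHeartbeats 400000

noncomputable section

namespace Fermat.Agent.TT

open Polynomial ModularCurve AlgebraicCurve IsLocalRing IntermediateField
  Fermat.Agent.G Fermat.Agent.S18 Fermat.Agent.SS

local notation "Qb" => AlgebraicClosure ℚ

variable (M : ℕ) [NeZero M] {p : ℕ} [Fact p.Prime] [NeZero p]
variable (A : ValuationSubring Qb)

/-- `V₁` of the model -/
def ttrModV1 (hpM : ¬ p ∣ M) (hA : A.LiesOverPrime p) :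
    ValuationSubring (modularFunctionFieldBar (M * p)) := ttrV1 M A hpM hA

/-- `V₂ = w⁻¹ V₁` of the model -/
def ttrModV2 (hpM : ¬ p ∣ M) (hA : A.LiesOverPrime p) :
    ValuationSubring (modularFunctionFieldBar (M * p)) :=
  (ttrV1 M A hpM hA).comap
    (ttrW M hpM : modularFunctionFieldBar (M * p) →+* modularFunctionFieldBar (M * p))

theorem mem_ttrModV1 (hpM : ¬ p ∣ M) (hA : A.LiesOverPrime p)
    {x : modularFunctionFieldBar (M * p)} :
    x ∈ ttrModV1 M A hpM hA ↔ x ∈ grdO (M * p) A := Iff.rfl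

theorem mem_ttrModV2 (hpM : ¬ p ∣ M) (hA : A.LiesOverPrime p)
    {x : modularFunctionFieldBar (M * p)} :
    x ∈ ttrModV2 M A hpM hA ↔ ttrW M hpM x ∈ grdO (M * p) A := Iff.rfl

theorem mem_ttrModV2' (hpM : ¬ p ∣ M) (hA : A.LiesOverPrime p)
    {x : modularFunctionFieldBar (M * p)} :
    x ∈ ttrModV2 M A hpM hA ↔ x ∈ ttrV2 M A hpM := Iff.rfl

/-- `V₁ → grdO (M p) 𝔸` (the identity) -/
def ttrModIncl1 (hpM : ¬ p ∣ M) (hA : A.LiesOverPrime p) :
    ↥(ttrModV1 M A hpM hA) →+* ↥(grdO (M * p) A) where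
  toFun x := ⟨(x : modularFunctionFieldBar (M * p)), x.2⟩
  map_one' := rfl
  map_mul' _ _ := rfl
  map_zero' := rfl
  map_add' _ _ := rfl

/-- `V₂ → grdO (M p) 𝔸`, `x ↦ w x` -/
def ttrModIncl2 (hpM : ¬ p ∣ M) (hA : A.LiesOverPrime p) :
    ↥(ttrModV2 M A hpM hA) →+* ↥(grdO (M * p) A) where
  toFun x := ⟨ttrW M hpM (x : modularFunctionFieldBar (M * p)), x.2⟩
  map_one' := Subtype.ext (map_one (ttrW M hpM))
  map_mul' x y := Subtype.ext (map_mul (ttrW M hpM) _ _)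
  map_zero' := Subtype.ext (map_zero (ttrW M hpM))
  map_add' x y := Subtype.ext (map_add (ttrW M hpM) _ _)

/-- `red₁` of the model -/
def ttrModRed1 (hpM : ¬ p ∣ M) (hA : A.LiesOverPrime p) :
    ↥(ttrModV1 M A hpM hA) →+* ↥(modularFunctionFieldFullC (ResidueField A) M) :=
  (ttrRed1 M A hA).comp (ttrModIncl1 M A hpM hA)

theorem ttrModRed1_apply (hpM : ¬ p ∣ M) (hA : A.LiesOverPrime p)
    (x : ↥(ttrModV1 M A hpM hA)) :
    ttrModRed1 M A hpM hA x = ttrRed1 M A hA ⟨(x : modularFunctionFieldBar (M * p)), x.2⟩ := rfl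

/-- `red₂ = red₁ ∘ w` of the model -/
def ttrModRed2 (hpM : ¬ p ∣ M) (hA : A.LiesOverPrime p) :
    ↥(ttrModV2 M A hpM hA) →+* ↥(modularFunctionFieldFullC (ResidueField A) M) :=
  (ttrRed1 M A hA).comp (ttrModIncl2 M A hpM hA)

theorem ttrModRed2_apply (hpM : ¬ p ∣ M) (hA : A.LiesOverPrime p)
    (x : ↥(ttrModV2 M A hpM hA)) :
    ttrModRed2 M A hpM hA x =
      ttrRed1 M A hA ⟨ttrW M hpM (x : modularFunctionFieldBar (M * p)), x.2⟩ := rfl

/-- `red₂` of the model is `ttrRed2` -/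
theorem ttrModRed2_eq (hpM : ¬ p ∣ M) (hA : A.LiesOverPrime p)
    (x : ↥(ttrModV2 M A hpM hA)) :
    ttrModRed2 M A hpM hA x =
      ttrRed2 M A hpM hA ⟨(x : modularFunctionFieldBar (M * p)), x.2⟩ := rfl

/-- `V₁ ⊓ V₂ = O₂` -/
theorem ttrMod_mem_inf (hpM : ¬ p ∣ M) (hA : A.LiesOverPrime p)
    {x : modularFunctionFieldBar (M * p)} :
    x ∈ (ttrModV1 M A hpM hA).toSubring ⊓ (ttrModV2 M A hpM hA).toSubring ↔
      x ∈ ttrO2 M A hpM := Iff.rfl

/-- the pair `(red₁, red₂)` on `V₁ ⊓ V₂` is `ttrRed` -/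
theorem ttrModRed_eq (hpM : ¬ p ∣ M) (hA : A.LiesOverPrime p)
    (x : modularFunctionFieldBar (M * p)) (h₁ : x ∈ ttrModV1 M A hpM hA)
    (h₂ : x ∈ ttrModV2 M A hpM hA) :
    (ttrModRed1 M A hpM hA ⟨x, h₁⟩, ttrModRed2 M A hpM hA ⟨x, h₂⟩) =
      ttrRed M A hpM hA ⟨x, ⟨h₁, h₂⟩⟩ := rfl

end Fermat.Agent.TT
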