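/-
(NODE), ascent, a Mathlib-only lemma (prefix `ttrn`): a maximal ideal of `R[X]` above the maximal
ideal of a local ring `R` with algebraically closed residue field contains `X - c` for some `c`.
Also: nonunits of a comap valuation subring.
-/
import Mathlib

set_option autoImplicit false

namespace Fermat.Agent.TT

open Polynomial IsLocalRing

/-- a maximal ideal of `R[X]` containing `𝔪_R` contains some `X - C c` (`R / 𝔪_R` algebraically
closed). -/
theorem ttrn_exists_const {R : Type*} [CommRing R] [IsLocalRing R] [IsAlgClosed (ResidueField R)]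
    (𝔫₀ : Ideal R[X]) [h𝔫₀ : 𝔫₀.IsMaximal] (h : ∀ a ∈ maximalIdeal R, C a ∈ 𝔫₀) :
    ∃ c : R, X - C c ∈ 𝔫₀ := by
  classical
  set f : R[X] →+* (ResidueField R)[X] := mapRingHom (residue R) with hf
  have hfsurj : Function.Surjective f := map_surjective _ (residue_surjective)
  -- the kernel of `f` lies in `𝔫₀`
  have hker : RingHom.ker f ≤ 𝔫₀ := by
    intro g hg
    rw [RingHom.mem_ker] at hg
    have hcoeff : ∀ i, g.coeff i ∈ maximalIdeal R := by
      intro i
      have := congrArg (fun p : (ResidueField R)[X] => p.coeff i) hg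
      simp only [hf, coe_mapRingHom, coeff_map, coeff_zero] at this
      rw [← residue_eq_zero_iff]
      exact this
    rw [g.as_sum_range_C_mul_X_pow]
    refine Ideal.sum_mem _ fun i _ => ?_
    exact Ideal.mul_mem_right _ _ (h _ (hcoeff i))
  -- the image is a maximal ideal
  have hmax : (𝔫₀.map f).IsMaximal := by
    rcases Ideal.map_eq_top_or_isMaximal_of_surjective f hfsurj h𝔫₀ with htop | hm
    · exfalso
      have h1 : (1 : (ResidueField R)[X]) ∈ 𝔫₀.map f := by rw [htop]; trivial
      obtain ⟨g, hg, hg1⟩ := (Ideal.mem_map_iff_of_surjective f hfsurj).mp h1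
      have h2 : g - 1 ∈ RingHom.ker f := by rw [RingHom.mem_ker, map_sub, hg1, map_one, sub_self]
      have h3 : (1 : R[X]) ∈ 𝔫₀ := by
        have := 𝔫₀.sub_mem hg (hker h2)
        simpa using this
      exact h𝔫₀.ne_top ((Ideal.eq_top_iff_one _).mpr h3)
    · exact hm
  -- a nonzero element of the image
  have hne : 𝔫₀.map f ≠ ⊥ := by
    intro hbot
    have : IsField (ResidueField R)[X] := by
      rw [Ring.isField_iff_maximal_bot, ← hbot]
      exact hmax
    exact Polynomial.not_isField _ this
  obtain ⟨g, hg, hg0⟩ := Submodule.exists_mem_ne_zero_of_ne_bot hne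
  -- `g` splits
  have hsplit := IsAlgClosed.splits g
  have hprod := Polynomial.Splits.eq_prod_roots hsplit
  rw [hprod] at hg
  have hprime := hmax.isPrime
  rcases hprime.mem_or_mem hg with hlead | hroots
  · exfalso
    have hlc : g.leadingCoeff ≠ 0 := leadingCoeff_ne_zero.mpr hg0
    have hunit : IsUnit (C g.leadingCoeff) := isUnit_C.mpr (isUnit_iff_ne_zero.mpr hlc)
    exact hprime.ne_top (Ideal.eq_top_of_isUnit_mem _ hlead hunit)
  · obtain ⟨p, hp, hpmem⟩ := (hprime.multiset_prod_mem_iff_exists_mem _).mp hroots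
    obtain ⟨cbar, -, rfl⟩ := Multiset.mem_map.mp hp
    obtain ⟨c, rfl⟩ := residue_surjective cbar
    obtain ⟨g', hg', hg'eq⟩ := (Ideal.mem_map_iff_of_surjective f hfsurj).mp hpmem
    refine ⟨c, ?_⟩
    have h2 : g' - (X - C c) ∈ RingHom.ker f := by
      rw [RingHom.mem_ker, map_sub, hg'eq, map_sub]
      simp [hf]
    have := 𝔫₀.sub_mem hg' (hker h2)
    simpa using this

/-- a nonzero element is a nonunit iff its inverse is not in the valuation ring -/
theorem ttrn_mem_nonunits_iff_inv {K : Type*} [Field K] (W : ValuationSubring K) (y : K)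
    (hy : y ≠ 0) : y ∈ W.nonunits ↔ y⁻¹ ∉ W := by
  rw [W.mem_nonunits_iff, ← not_le, ← W.valuation_le_one_iff, map_inv₀]
  have h0 : W.valuation y ≠ 0 := (Valuation.ne_zero_iff _).mpr hy
  rw [inv_le_one₀ (zero_lt_iff.mpr h0)]

/-- nonunits of a comap valuation subring -/
theorem ttrn_comap_nonunits {F₀ F : Type*} [Field F₀] [Field F] (ι : F₀ →+* F)
    (V : ValuationSubring F) (x : F₀) :
    x ∈ (V.comap ι).nonunits ↔ ι x ∈ V.nonunits := by
  by_cases hx : x = 0
  · subst hx
    simp
  have hιx : ι x ≠ 0 := (map_ne_zero ι).mpr hx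
  rw [ttrn_mem_nonunits_iff_inv _ x hx, ttrn_mem_nonunits_iff_inv _ (ι x) hιx,
    ValuationSubring.mem_comap, map_inv₀]

end Fermat.Agent.TT
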