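/-
(NODE), local algebra (prefix `ttrn`, Mathlib only).

`O ⊂ F` a noetherian local subring of a field, `V₁ V₂` two valuation rings of
`F` containing `O` (the two components through the closed point of `O`),
`ϖ ∈ O` with `O ∩ 𝔪₁ ∩ 𝔪₂ = ϖ O` (reduced fibre) and BOTH centres
`𝔭ᵢ = O ∩ 𝔪ᵢ` proper and distinct (`u₁ ∈ 𝔭₁ ∖ 𝔭₂`, `u₂ ∈ 𝔭₂ ∖ 𝔭₁`).

* `ttrn_smooth_false` : then `𝔪_O` is NOT of the form `(ϖ, z)`;
* `ttrn_cross_T`      : if `𝔪_O = (ϖ, u, w)` with `u w ∈ ϖ O` then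
                        `𝔪_O = 𝔭₁ + 𝔭₂` (TRANSVERSALITY (T)).
-/
import Mathlib

set_option autoImplicit false

namespace Fermat.Agent.TT

open IsLocalRing

variable {F : Type*} [Field F]

/-- the two-component hypotheses at a closed point -/
structure TtrnTwo (O : Subring F) (V₁ V₂ : ValuationSubring F) (ϖ : F) : Prop where
  le₁ : ∀ x ∈ O, x ∈ V₁
  le₂ : ∀ x ∈ O, x ∈ V₂
  pi_mem : ϖ ∈ O
  pi₁ : ϖ ∈ V₁.nonunits
  pi₂ : ϖ ∈ V₂.nonunits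
  sat : ∀ x ∈ O, x ∈ V₁.nonunits → x ∈ V₂.nonunits → ∃ y ∈ O, x = ϖ * y
  sep₁ : ∃ u₁ ∈ O, u₁ ∈ V₁.nonunits ∧ u₁ ∉ V₂.nonunits
  sep₂ : ∃ u₂ ∈ O, u₂ ∈ V₂.nonunits ∧ u₂ ∉ V₁.nonunits

theorem TtrnTwo.symm {O : Subring F} {V₁ V₂ : ValuationSubring F} {ϖ : F}
    (h : TtrnTwo O V₁ V₂ ϖ) : TtrnTwo O V₂ V₁ ϖ where
  le₁ := h.le₂
  le₂ := h.le₁
  pi_mem := h.pi_mem
  pi₁ := h.pi₂
  pi₂ := h.pi₁
  sat := fun x hx h₂ h₁ => h.sat x hx h₁ h₂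
  sep₁ := h.sep₂
  sep₂ := h.sep₁

section NU

variable (V : ValuationSubring F)

theorem ttrn_nu_mul {a b : F} (ha : a ∈ V) (hb : b ∈ V.nonunits) : a * b ∈ V.nonunits := by
  rw [V.mem_nonunits_iff] at hb ⊢
  rw [map_mul]
  exact mul_lt_one_of_nonneg_of_lt_one_right ((V.valuation_le_one_iff a).mpr ha) zero_le hb

theorem ttrn_nu_add {a b : F} (ha : a ∈ V.nonunits) (hb : b ∈ V.nonunits) :
    a + b ∈ V.nonunits := by
  rw [V.mem_nonunits_iff] at ha hb ⊢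
  exact V.valuation.map_add_lt ha hb

theorem ttrn_nu_sub {a b : F} (ha : a ∈ V.nonunits) (hb : b ∈ V.nonunits) :
    a - b ∈ V.nonunits := by
  rw [V.mem_nonunits_iff] at ha hb ⊢
  exact V.valuation.map_sub_lt ha hb

/-- `𝔪_V` is prime in `V` -/
theorem ttrn_nu_of_mul {a b : F} (ha : a ∈ V) (hb : b ∈ V) (hab : a * b ∈ V.nonunits) :
    a ∈ V.nonunits ∨ b ∈ V.nonunits := by
  by_contra hcon
  rw [not_or] at hcon
  obtain ⟨h1, h2⟩ := hcon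
  rw [V.mem_nonunits_iff, not_lt] at h1 h2
  have ha1 : V.valuation a = 1 := le_antisymm ((V.valuation_le_one_iff a).mpr ha) h1
  have hb1 : V.valuation b = 1 := le_antisymm ((V.valuation_le_one_iff b).mpr hb) h2
  rw [V.mem_nonunits_iff, map_mul, ha1, hb1, one_mul] at hab
  exact lt_irrefl _ hab

/-- an element of `𝔪_V` inside a local subring `O ≤ V` is not a unit of `O` -/
theorem ttrn_mem_max_of_nu (O : Subring F) [IsLocalRing ↥O] (hle : ∀ x ∈ O, x ∈ V)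
    (x : ↥O) (hx : (x : F) ∈ V.nonunits) : x ∈ maximalIdeal ↥O := by
  rw [mem_maximalIdeal, mem_nonunits_iff]
  intro hu
  obtain ⟨y, hy⟩ := hu.exists_right_inv
  have h1 : (x : F) * (y : F) = 1 := by
    have := congrArg (fun z : ↥O => (z : F)) hy
    simpa using this
  have h2 : (x : F) * (y : F) ∈ V.nonunits := by
    rw [mul_comm]; exact ttrn_nu_mul V (hle _ y.2) hx
  rw [h1] at h2
  exact (V.mem_nonunits_iff.mp h2).ne (map_one _)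

end NU

/-- the centre `O ∩ 𝔪_V` as an ideal of `O` -/
def ttrnCentre (O : Subring F) (V : ValuationSubring F) (hle : ∀ x ∈ O, x ∈ V) : Ideal ↥O where
  carrier := {x | (x : F) ∈ V.nonunits}
  add_mem' := by
    intro a b ha hb
    show ((a + b : ↥O) : F) ∈ V.nonunits
    rw [Subring.coe_add]
    exact ttrn_nu_add V ha hb
  zero_mem' := by
    show ((0 : ↥O) : F) ∈ V.nonunits
    rw [Subring.coe_zero, V.mem_nonunits_iff, map_zero]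
    exact zero_lt_one
  smul_mem' := by
    intro c a ha
    show ((c • a : ↥O) : F) ∈ V.nonunits
    rw [smul_eq_mul, Subring.coe_mul]
    exact ttrn_nu_mul V (hle _ c.2) ha

theorem mem_ttrnCentre {O : Subring F} {V : ValuationSubring F} (hle : ∀ x ∈ O, x ∈ V)
    (x : ↥O) : x ∈ ttrnCentre O V hle ↔ (x : F) ∈ V.nonunits := Iff.rfl

variable {O : Subring F} [IsLocalRing ↥O] [IsNoetherianRing ↥O]
variable {V₁ V₂ : ValuationSubring F} {ϖ : F}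

/-- **no smooth germ on two components**: `𝔪_O = (ϖ, z)` is impossible. -/
theorem ttrn_smooth_false (h : TtrnTwo O V₁ V₂ ϖ) (z : F) (hz : z ∈ O)
    (hzmax : (⟨z, hz⟩ : ↥O) ∈ maximalIdeal ↥O)
    (hmax : ∀ x : ↥O, x ∈ maximalIdeal ↥O → ∃ a b : ↥O, (x : F) = (a : F) * ϖ + (b : F) * z) :
    False := by
  obtain ⟨u₁, hu₁O, hu₁, hu₁'⟩ := h.sep₁
  obtain ⟨u₂, hu₂O, hu₂, hu₂'⟩ := h.sep₂
  -- `z` is a unit of `V₁`
  have hz₁ : z ∉ V₁.nonunits := by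
    intro hz₁
    obtain ⟨a, b, hab⟩ := hmax ⟨u₂, hu₂O⟩ (ttrn_mem_max_of_nu V₂ O h.le₂ _ hu₂)
    apply hu₂'
    have e : u₂ = (a : F) * ϖ + (b : F) * z := hab
    rw [e]
    exact ttrn_nu_add V₁ (ttrn_nu_mul V₁ (h.le₁ _ a.2) h.pi₁) (ttrn_nu_mul V₁ (h.le₁ _ b.2) hz₁)
  -- `𝔭₁ ≤ (ϖ) ⊔ 𝔪 • 𝔭₁`
  have hle : ttrnCentre O V₁ h.le₁ ≤
      Ideal.span {(⟨ϖ, h.pi_mem⟩ : ↥O)} ⊔ maximalIdeal ↥O • ttrnCentre O V₁ h.le₁ := by
    intro y hy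
    have hy' : (y : F) ∈ V₁.nonunits := hy
    obtain ⟨a, b, hab⟩ := hmax y (ttrn_mem_max_of_nu V₁ O h.le₁ _ hy')
    have hbz : (b : F) * z ∈ V₁.nonunits := by
      have e : (b : F) * z = (y : F) - (a : F) * ϖ := by rw [hab]; ring
      rw [e]
      exact ttrn_nu_sub V₁ hy' (ttrn_nu_mul V₁ (h.le₁ _ a.2) h.pi₁)
    have hb : (b : F) ∈ V₁.nonunits := by
      rcases ttrn_nu_of_mul V₁ (h.le₁ _ b.2) (h.le₁ _ hz) hbz with hb | hz'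
      · exact hb
      · exact absurd hz' hz₁
    have e : y = a * ⟨ϖ, h.pi_mem⟩ + ⟨z, hz⟩ * b := by
      apply Subtype.ext
      rw [Subring.coe_add, Subring.coe_mul, Subring.coe_mul]
      show (y : F) = (a : F) * ϖ + z * (b : F)
      rw [hab]; ring
    rw [e]
    refine Submodule.add_mem_sup ?_ ?_
    · exact Ideal.mul_mem_left _ _ (Ideal.subset_span (Set.mem_singleton _))
    · rw [smul_eq_mul]
      exact Ideal.mul_mem_mul hzmax hb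
  -- Nakayama: `𝔭₁ ≤ (ϖ)`
  have hfg : (ttrnCentre O V₁ h.le₁).FG := IsNoetherian.noetherian _
  have hjac : maximalIdeal ↥O ≤ Ideal.jacobson ⊥ := by
    rw [IsLocalRing.jacobson_eq_maximalIdeal ⊥ bot_ne_top]
  have hle' : ttrnCentre O V₁ h.le₁ ≤ Ideal.span {(⟨ϖ, h.pi_mem⟩ : ↥O)} :=
    Submodule.le_of_le_smul_of_le_jacobson_bot hfg hjac hle
  -- contradiction: `u₁ ∈ ϖ O ⊆ 𝔪₂`
  have hu₁mem : (⟨u₁, hu₁O⟩ : ↥O) ∈ ttrnCentre O V₁ h.le₁ := hu₁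
  obtain ⟨c, hc⟩ := Ideal.mem_span_singleton'.mp (hle' hu₁mem)
  apply hu₁'
  have e : u₁ = (c : F) * ϖ := by
    have := congrArg (fun z : ↥O => (z : F)) hc
    simpa using this.symm
  rw [e]
  exact ttrn_nu_mul V₂ (h.le₂ _ c.2) h.pi₂

/-- **TRANSVERSALITY (T)** at a crossing germ: `𝔪_O = (ϖ, u, w)`, `u w ∈ ϖ O` ⟹ every element of
`𝔪_O` is `y₁ + y₂` with `y₁ ∈ O ∩ 𝔪₁`, `y₂ ∈ O ∩ 𝔪₂`. -/
theorem ttrn_cross_T (h : TtrnTwo O V₁ V₂ ϖ) (u w : F) (hu : u ∈ O) (hw : w ∈ O)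
    (humax : (⟨u, hu⟩ : ↥O) ∈ maximalIdeal ↥O) (hwmax : (⟨w, hw⟩ : ↥O) ∈ maximalIdeal ↥O)
    (huw : ∃ ρ ∈ O, u * w = ϖ * ρ)
    (hmax : ∀ x : ↥O, x ∈ maximalIdeal ↥O →
      ∃ a b c : ↥O, (x : F) = (a : F) * ϖ + (b : F) * u + (c : F) * w)
    (x : ↥O) (hx : x ∈ maximalIdeal ↥O) :
    ∃ y₁ y₂ : ↥O, (y₁ : F) ∈ V₁.nonunits ∧ (y₂ : F) ∈ V₂.nonunits ∧ x = y₁ + y₂ := by
  obtain ⟨ρ, hρ, huw⟩ := huw
  have huw₁ : u * w ∈ V₁.nonunits := by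
    rw [huw, mul_comm]; exact ttrn_nu_mul V₁ (h.le₁ _ hρ) h.pi₁
  have huw₂ : u * w ∈ V₂.nonunits := by
    rw [huw, mul_comm]; exact ttrn_nu_mul V₂ (h.le₂ _ hρ) h.pi₂
  -- the good case
  have good : ∀ {V V' : ValuationSubring F} (h' : TtrnTwo O V V' ϖ) (u w : F) (hu : u ∈ O)
      (hw : w ∈ O) (hmax : ∀ x : ↥O, x ∈ maximalIdeal ↥O →
        ∃ a b c : ↥O, (x : F) = (a : F) * ϖ + (b : F) * u + (c : F) * w)
      (hu₁ : u ∈ V.nonunits) (hw₂ : w ∈ V'.nonunits) (x : ↥O) (hx : x ∈ maximalIdeal ↥O),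
      ∃ y₁ y₂ : ↥O, (y₁ : F) ∈ V.nonunits ∧ (y₂ : F) ∈ V'.nonunits ∧ x = y₁ + y₂ := by
    intro V V' h' u w hu hw hmax hu₁ hw₂ x hx
    obtain ⟨a, b, c, habc⟩ := hmax x hx
    refine ⟨a * ⟨ϖ, h'.pi_mem⟩ + b * ⟨u, hu⟩, c * ⟨w, hw⟩, ?_, ?_, ?_⟩
    · rw [Subring.coe_add, Subring.coe_mul, Subring.coe_mul]
      exact ttrn_nu_add V (ttrn_nu_mul V (h'.le₁ _ a.2) h'.pi₁) (ttrn_nu_mul V (h'.le₁ _ b.2) hu₁)
    · rw [Subring.coe_mul]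
      exact ttrn_nu_mul V' (h'.le₂ _ c.2) hw₂
    · apply Subtype.ext
      rw [Subring.coe_add, Subring.coe_add, Subring.coe_mul, Subring.coe_mul, Subring.coe_mul]
      exact habc
  -- the degenerate case: one coordinate is divisible by `ϖ`
  have bad : ∀ (u w : F) (hu : u ∈ O) (hw : w ∈ O)
      (hwmax : (⟨w, hw⟩ : ↥O) ∈ maximalIdeal ↥O)
      (hmax : ∀ x : ↥O, x ∈ maximalIdeal ↥O →
        ∃ a b c : ↥O, (x : F) = (a : F) * ϖ + (b : F) * u + (c : F) * w)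
      (hu₁ : u ∈ V₁.nonunits) (hu₂ : u ∈ V₂.nonunits), False := by
    intro u w hu hw hwmax hmax hu₁ hu₂
    obtain ⟨y, hy, huy⟩ := h.sat u hu hu₁ hu₂
    refine ttrn_smooth_false h w hw hwmax ?_
    intro x hx
    obtain ⟨a, b, c, habc⟩ := hmax x hx
    refine ⟨a + b * ⟨y, hy⟩, c, ?_⟩
    rw [habc, huy, Subring.coe_add, Subring.coe_mul]
    ring
  rcases ttrn_nu_of_mul V₁ (h.le₁ _ hu) (h.le₁ _ hw) huw₁ with hu₁ | hw₁
  · rcases ttrn_nu_of_mul V₂ (h.le₂ _ hu) (h.le₂ _ hw) huw₂ with hu₂ | hw₂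
    · exact (bad u w hu hw hwmax hmax hu₁ hu₂).elim
    · exact good h u w hu hw hmax hu₁ hw₂ x hx
  · rcases ttrn_nu_of_mul V₂ (h.le₂ _ hu) (h.le₂ _ hw) huw₂ with hu₂ | hw₂
    · -- `w ∈ 𝔪₁`, `u ∈ 𝔪₂`: swap the roles of `u` and `w`
      have hmax' : ∀ x : ↥O, x ∈ maximalIdeal ↥O →
          ∃ a b c : ↥O, (x : F) = (a : F) * ϖ + (b : F) * w + (c : F) * u := by
        intro x hx
        obtain ⟨a, b, c, habc⟩ := hmax x hx
        exact ⟨a, c, b, by rw [habc]; ring⟩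
      exact good h w u hw hu hmax' hw₁ hu₂ x hx
    · have hmax' : ∀ x : ↥O, x ∈ maximalIdeal ↥O →
          ∃ a b c : ↥O, (x : F) = (a : F) * ϖ + (b : F) * w + (c : F) * u := by
        intro x hx
        obtain ⟨a, b, c, habc⟩ := hmax x hx
        exact ⟨a, c, b, by rw [habc]; ring⟩
      exact (bad w u hw hu humax hmax' hw₁ hw₂).elim

end Fermat.Agent.TT
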