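/-
(NODE), number-field level (prefix `ttrn`): TRANSVERSALITY (T) at a closed point
lying on BOTH components, from main's Program-S germ alternative
`SsGermSmooth ∨ SsGermCross` (`ss_germJ`, `ss_germH`).

Setting of S18 package T: `A` a DVR, `L = Frac A`, `F / L(t)` finite,
`P = s18tInt A t`, `V₁ V₂` the two valuation rings above the Gauss ring
(`SsgaTwo`), `𝔫` a prime of `P` containing `ϖ` and both centres
`𝔭ᵢ = P ∩ 𝔪_{Vᵢ}`, which are distinct (`sep₁`, `sep₂`).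

* `ttrn_two_of_ssga` : the hypotheses `TtrnTwo` of `NodeLoc.lean` for `O = P_𝔫`;
* `ttrn_T_of_germ`   : `∀ x ∈ 𝔫, ∃ s ∉ 𝔫, s x = y₁ + y₂`, `yᵢ ∈ P ∩ 𝔪_{Vᵢ}`.
-/
import Mathlib
import Fermat.Agent.TT.Red2.NodeLoc
import Fermat.Agent.SS.NF.Defs
import Fermat.Agent.SS.Loc.Place
import Fermat.Agent.SS.Loc.GermNF
import Fermat.Agent.SS.Germ.MainPlus

set_option autoImplicit false
set_option linter.unusedSectionVars false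
set_option linter.unusedVariables false

noncomputable section

namespace Fermat.Agent.TT

open Polynomial IntermediateField AlgebraicCurve Fermat.Agent.S18 Fermat.Agent.SS IsLocalRing

universe u

variable {A : Type*} [CommRing A] [IsDomain A] [IsDiscreteValuationRing A] [CharZero A]
variable {L : Type*} [Field L] [Algebra A L] [IsFractionRing A L]
variable {F : Type u} [Field F] [Algebra A F] [Algebra L F] [IsScalarTower A L F]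
variable {ϖ : A} {t : F} {V₁ V₂ : ValuationSubring F}
variable {𝔫 : Ideal ↥(s18tInt A t)} [h𝔫 : 𝔫.IsPrime]

/-- the inverse of an element of `P ∖ 𝔫` lies in `P_𝔫` -/
theorem ttrn_inv_mem {s : ↥(s18tInt A t)} (hs : s ∉ 𝔫) : (s : F)⁻¹ ∈ ssLocRing t 𝔫 := by
  have hs0 : (s : F) ≠ 0 := fun h => hs (by
    have : s = 0 := Subtype.ext h
    rw [this]; exact 𝔫.zero_mem)
  exact ⟨s, hs, by rw [mul_inv_cancel₀ hs0]; exact Subring.one_mem _⟩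

theorem ttrn_ne_zero {s : ↥(s18tInt A t)} (hs : s ∉ 𝔫) : (s : F) ≠ 0 := fun h => hs (by
  have : s = 0 := Subtype.ext h
  rw [this]; exact 𝔫.zero_mem)

/-- the hypotheses of `NodeLoc.lean` for `O = P_𝔫` -/
theorem ttrn_two_of_ssga (two : SsgaTwo ϖ t V₁ V₂)
    (h𝔭₁ : ∀ p : ↥(s18tInt A t), (p : F) ∈ V₁.nonunits → p ∈ 𝔫)
    (h𝔭₂ : ∀ p : ↥(s18tInt A t), (p : F) ∈ V₂.nonunits → p ∈ 𝔫)
    (sep₁ : ∃ u₁ ∈ s18tInt A t, u₁ ∈ V₁.nonunits ∧ u₁ ∉ V₂.nonunits)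
    (sep₂ : ∃ u₂ ∈ s18tInt A t, u₂ ∈ V₂.nonunits ∧ u₂ ∉ V₁.nonunits) :
    TtrnTwo (ssLocRing t 𝔫) V₁ V₂ (algebraMap A F ϖ) where
  le₁ := fun x hx => ssgmp_inLoc_mem V₁ two.le₁ h𝔭₁ hx
  le₂ := fun x hx => ssgmp_inLoc_mem V₂ two.le₂ h𝔭₂ hx
  pi_mem := ssl_int_le_locRing t 𝔫 (s18tc_algebraMap_mem_int t ϖ)
  pi₁ := two.unif₁
  pi₂ := two.unif₂
  sat := by
    intro x hx h₁ h₂
    obtain ⟨s, hs, hsx⟩ := hx
    have hs₁ : (s : F) * x ∈ V₁.nonunits := ttrn_nu_mul V₁ (two.le₁ _ s.2) h₁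
    have hs₂ : (s : F) * x ∈ V₂.nonunits := ttrn_nu_mul V₂ (two.le₂ _ s.2) h₂
    obtain ⟨y, hy, hxy⟩ := two.sat _ hsx hs₁ hs₂
    refine ⟨(s : F)⁻¹ * y, Subring.mul_mem _ (ttrn_inv_mem hs) (ssl_int_le_locRing t 𝔫 hy), ?_⟩
    have hs0 := ttrn_ne_zero hs
    field_simp
    rw [mul_comm x, hxy]
  sep₁ := by
    obtain ⟨u, hu, h1, h2⟩ := sep₁
    exact ⟨u, ssl_int_le_locRing t 𝔫 hu, h1, h2⟩
  sep₂ := by
    obtain ⟨u, hu, h1, h2⟩ := sep₂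
    exact ⟨u, ssl_int_le_locRing t 𝔫 hu, h1, h2⟩

/-- elements of `𝔪_{P_𝔫}` as fractions -/
theorem ttrn_max_frac (x : ↥(ssLocRing t 𝔫)) (hx : x ∈ maximalIdeal ↥(ssLocRing t 𝔫)) :
    ∃ s : ↥(s18tInt A t), s ∉ 𝔫 ∧ ∃ p : ↥(s18tInt A t), p ∈ 𝔫 ∧ (s : F) * (x : F) = (p : F) :=
  (ssl_mem_maximalIdeal t 𝔫 x).mp hx

/-- **TRANSVERSALITY (T)** at a closed point on both components, from the germ alternative. -/
theorem ttrn_T_of_germ (hϖ : Irreducible ϖ) (ht : Transcendental L t) [FiniteDimensional L⟮t⟯ F]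
    (hϖ𝔫 : sskPi ϖ t ∈ 𝔫) (two : SsgaTwo ϖ t V₁ V₂)
    (h𝔭₁ : ∀ p : ↥(s18tInt A t), (p : F) ∈ V₁.nonunits → p ∈ 𝔫)
    (h𝔭₂ : ∀ p : ↥(s18tInt A t), (p : F) ∈ V₂.nonunits → p ∈ 𝔫)
    (sep₁ : ∃ u₁ ∈ s18tInt A t, u₁ ∈ V₁.nonunits ∧ u₁ ∉ V₂.nonunits)
    (sep₂ : ∃ u₂ ∈ s18tInt A t, u₂ ∈ V₂.nonunits ∧ u₂ ∉ V₁.nonunits)
    (G : Subgroup (SemilinearAut L F))
    (germ : SsGermSmooth ϖ t G 𝔫 ∨ SsGermCross ϖ t G 𝔫)
    (x : ↥(s18tInt A t)) (hx : x ∈ 𝔫) :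
    ∃ s : ↥(s18tInt A t), s ∉ 𝔫 ∧ ∃ y₁ y₂ : ↥(s18tInt A t),
      (y₁ : F) ∈ V₁.nonunits ∧ (y₂ : F) ∈ V₂.nonunits ∧ (s : F) * (x : F) = (y₁ : F) + (y₂ : F) := by
  have : IsNoetherianRing ↥(ssLocRing t 𝔫) := ssl_locRing_isNoetherianRing (L := L) t ht 𝔫
  have H := ttrn_two_of_ssga two h𝔭₁ h𝔭₂ sep₁ sep₂
  -- `x` in the maximal ideal of `P_𝔫`
  have hxO : (x : F) ∈ ssLocRing t 𝔫 := ssl_int_le_locRing t 𝔫 x.2
  have hxmax : (⟨(x : F), hxO⟩ : ↥(ssLocRing t 𝔫)) ∈ maximalIdeal ↥(ssLocRing t 𝔫) := by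
    rw [ssl_mem_maximalIdeal]
    exact ⟨1, fun h => h𝔫.ne_top ((Ideal.eq_top_iff_one _).mpr h), x, hx, by
      rw [OneMemClass.coe_one, one_mul]⟩
  -- the conclusion from a decomposition in `P_𝔫`
  have concl : (∃ y₁ y₂ : ↥(ssLocRing t 𝔫), (y₁ : F) ∈ V₁.nonunits ∧ (y₂ : F) ∈ V₂.nonunits ∧
      (⟨(x : F), hxO⟩ : ↥(ssLocRing t 𝔫)) = y₁ + y₂) →
      ∃ s : ↥(s18tInt A t), s ∉ 𝔫 ∧ ∃ y₁ y₂ : ↥(s18tInt A t),
        (y₁ : F) ∈ V₁.nonunits ∧ (y₂ : F) ∈ V₂.nonunits ∧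
          (s : F) * (x : F) = (y₁ : F) + (y₂ : F) := by
    rintro ⟨⟨y₁, s₁, hs₁, hy₁⟩, ⟨y₂, s₂, hs₂, hy₂⟩, h₁, h₂, hsum⟩
    have hsum' : (x : F) = y₁ + y₂ := congrArg (fun z : ↥(ssLocRing t 𝔫) => (z : F)) hsum
    refine ⟨s₁ * s₂, fun h => (h𝔫.mem_or_mem h).elim hs₁ hs₂,
      s₂ * ⟨_, hy₁⟩, s₁ * ⟨_, hy₂⟩, ?_, ?_, ?_⟩
    · rw [Subring.coe_mul]
      exact ttrn_nu_mul V₁ (two.le₁ _ s₂.2) (ttrn_nu_mul V₁ (two.le₁ _ s₁.2) h₁)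
    · rw [Subring.coe_mul]
      exact ttrn_nu_mul V₂ (two.le₂ _ s₁.2) (ttrn_nu_mul V₂ (two.le₂ _ s₂.2) h₂)
    · rw [Subring.coe_mul, Subring.coe_mul, Subring.coe_mul, hsum']
      ring
  rcases germ with ⟨z, hz, hspan⟩ | hcross
  · -- smooth germ : impossible
    exfalso
    have hzO : z ∈ ssLocRing t 𝔫 := SsInMax.inLoc (t := t) (𝔫 := 𝔫) hz
    refine ttrn_smooth_false H z hzO ?_ ?_
    · rw [ssl_mem_maximalIdeal]; exact hz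
    · intro x' hx'
      obtain ⟨s, hs, p, hp, hsp⟩ := ttrn_max_frac x' hx'
      obtain ⟨s', hs', a, b, hab⟩ := hspan p hp
      have hs0 := ttrn_ne_zero hs
      have hs0' := ttrn_ne_zero hs'
      refine ⟨⟨(s : F)⁻¹ * (s' : F)⁻¹ * a, Subring.mul_mem _ (Subring.mul_mem _ (ttrn_inv_mem hs)
        (ttrn_inv_mem hs')) (ssl_int_le_locRing t 𝔫 a.2)⟩,
        ⟨(s : F)⁻¹ * (s' : F)⁻¹ * b, Subring.mul_mem _ (Subring.mul_mem _ (ttrn_inv_mem hs)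
        (ttrn_inv_mem hs')) (ssl_int_le_locRing t 𝔫 b.2)⟩, ?_⟩
      show (x' : F) = (s : F)⁻¹ * (s' : F)⁻¹ * a * algebraMap A F ϖ + (s : F)⁻¹ * (s' : F)⁻¹ * b * z
      have e : (x' : F) = (s : F)⁻¹ * (s' : F)⁻¹ * ((s' : F) * ((s : F) * (x' : F))) := by
        field_simp
      rw [e, hsp, hab]
      ring
  · -- crossing germ
    apply concl
    obtain ⟨u, w, hu, hw, -, -, hspan, κ, ρ, hρ, huw⟩ := hcross 1
    have huO : u ∈ ssLocRing t 𝔫 := SsInMax.inLoc (t := t) (𝔫 := 𝔫) hu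
    have hwO : w ∈ ssLocRing t 𝔫 := SsInMax.inLoc (t := t) (𝔫 := 𝔫) hw
    have humax : (⟨u, huO⟩ : ↥(ssLocRing t 𝔫)) ∈ maximalIdeal ↥(ssLocRing t 𝔫) := by
      rw [ssl_mem_maximalIdeal]; exact hu
    have hwmax : (⟨w, hwO⟩ : ↥(ssLocRing t 𝔫)) ∈ maximalIdeal ↥(ssLocRing t 𝔫) := by
      rw [ssl_mem_maximalIdeal]; exact hw
    have hρO : ρ ∈ ssLocRing t 𝔫 := hρ
    have hπO : algebraMap A F ϖ ∈ ssLocRing t 𝔫 := H.pi_mem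
    have hπmax : (⟨algebraMap A F ϖ, hπO⟩ : ↥(ssLocRing t 𝔫)) ∈
        maximalIdeal ↥(ssLocRing t 𝔫) := by
      rw [ssl_mem_maximalIdeal]
      exact ⟨1, fun h => h𝔫.ne_top ((Ideal.eq_top_iff_one _).mpr h), sskPi ϖ t, hϖ𝔫, by
        rw [OneMemClass.coe_one, one_mul]; rfl⟩
    -- `κ ∈ ϖ A`
    have hκ : κ ∈ maximalIdeal A := by
      by_contra hκ
      have hκu : IsUnit κ := by
        rw [mem_maximalIdeal, mem_nonunits_iff, not_not] at hκ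
        exact hκ
      obtain ⟨κ', hκ'⟩ := hκu.exists_right_inv
      have hκO : algebraMap A F κ ∈ ssLocRing t 𝔫 :=
        ssl_int_le_locRing t 𝔫 (s18tc_algebraMap_mem_int t κ)
      have hκmax : (⟨algebraMap A F κ, hκO⟩ : ↥(ssLocRing t 𝔫)) ∈
          maximalIdeal ↥(ssLocRing t 𝔫) := by
        have e : (⟨algebraMap A F κ, hκO⟩ : ↥(ssLocRing t 𝔫)) =
            ⟨u, huO⟩ * ⟨w, hwO⟩ - ⟨algebraMap A F ϖ, hπO⟩ * ⟨ρ, hρO⟩ := by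
          apply Subtype.ext
          show algebraMap A F κ = u * w - algebraMap A F ϖ * ρ
          rw [huw, pow_one]; ring
        rw [e]
        exact Ideal.sub_mem _ (Ideal.mul_mem_right _ _ humax) (Ideal.mul_mem_right _ _ hπmax)
      have hκ'O : algebraMap A F κ' ∈ ssLocRing t 𝔫 :=
        ssl_int_le_locRing t 𝔫 (s18tc_algebraMap_mem_int t κ')
      have h1 : (1 : ↥(ssLocRing t 𝔫)) ∈ maximalIdeal ↥(ssLocRing t 𝔫) := by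
        have e : (1 : ↥(ssLocRing t 𝔫)) = ⟨algebraMap A F κ, hκO⟩ * ⟨algebraMap A F κ', hκ'O⟩ := by
          apply Subtype.ext
          show (1 : F) = algebraMap A F κ * algebraMap A F κ'
          rw [← map_mul, hκ', map_one]
        rw [e]
        exact Ideal.mul_mem_right _ _ hκmax
      exact (Ideal.ne_top_iff_one _).mp (IsLocalRing.maximalIdeal.isMaximal _).ne_top h1
    rw [hϖ.maximalIdeal_eq, Ideal.mem_span_singleton'] at hκ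
    obtain ⟨κ₁, hκ₁⟩ := hκ
    have huw' : ∃ ρ' ∈ ssLocRing t 𝔫, u * w = algebraMap A F ϖ * ρ' := by
      refine ⟨algebraMap A F κ₁ + ρ, Subring.add_mem _
        (ssl_int_le_locRing t 𝔫 (s18tc_algebraMap_mem_int t κ₁)) hρO, ?_⟩
      rw [huw, ← hκ₁, map_mul, pow_one]; ring
    refine ttrn_cross_T H u w huO hwO humax hwmax huw' ?_ _ hxmax
    intro x' hx'
    obtain ⟨s, hs, p, hp, hsp⟩ := ttrn_max_frac x' hx'
    obtain ⟨s', hs', a, b, c, hab⟩ := hspan p hp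
    have hs0 := ttrn_ne_zero hs
    have hs0' := ttrn_ne_zero hs'
    have hinv : (s : F)⁻¹ * (s' : F)⁻¹ ∈ ssLocRing t 𝔫 :=
      Subring.mul_mem _ (ttrn_inv_mem hs) (ttrn_inv_mem hs')
    refine ⟨⟨(s : F)⁻¹ * (s' : F)⁻¹ * a, Subring.mul_mem _ hinv (ssl_int_le_locRing t 𝔫 a.2)⟩,
      ⟨(s : F)⁻¹ * (s' : F)⁻¹ * b, Subring.mul_mem _ hinv (ssl_int_le_locRing t 𝔫 b.2)⟩,
      ⟨(s : F)⁻¹ * (s' : F)⁻¹ * c, Subring.mul_mem _ hinv (ssl_int_le_locRing t 𝔫 c.2)⟩, ?_⟩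
    show (x' : F) = (s : F)⁻¹ * (s' : F)⁻¹ * a * algebraMap A F ϖ +
      (s : F)⁻¹ * (s' : F)⁻¹ * b * u + (s : F)⁻¹ * (s' : F)⁻¹ * c * w
    have e : (x' : F) = (s : F)⁻¹ * (s' : F)⁻¹ * ((s' : F) * ((s : F) * (x' : F))) := by
      field_simp
    rw [e, hsp, hab]
    ring

end Fermat.Agent.TT
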