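/-
(NODE), THE ASCENT (prefix `ttrn`): transversality (T) for the ℚ̄-level chart ring
`B = grdB N A t` at every closed point lying on both components, from the number-field
statement `ttrn_T_of_germ` (NodeGerm.lean) and main's germ alternative `SsGermAll`.

INPUTS (hypotheses of `ttrn_T_bar`):
* `TtrnGauss N A hυ V` for `V = V1, V2` : the two ℚ̄-level valuation rings lie above the Gauss
  valuation of `ℚ̄(t)`;
* `TtrnPL`  : every closed point of `B` above `𝔪_A` is the centre of a ℚ̄-place   [(NODE-PL)];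
* `TtrnRAT` : rationality of `𝔫_E` from a place                                     [(ASC-RAT)];
* `TtrnTWO` : `V.comap` is the labelled member of main's `SsvTwo` pair               [(ASC-TWO)];
* the E-level germ alternative `SsGermAll N A E t_E` for all big `E` and an `SsvTwo` pair.
-/
import Mathlib
import Fermat.Agent.TT.Red2.NodeGerm
import Fermat.Agent.TT.Red2.NodeUp
import Fermat.Agent.TT.Red2.NodeClosed
import Fermat.Agent.SS.Geo.Loc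
import Fermat.Agent.SS.Val.Gauss2
import Fermat.Agent.G.Red.Zero
import Fermat.Agent.G.GN

set_option autoImplicit false
set_option linter.unusedSectionVars false
set_option linter.unusedVariables false
set_option linter.style.haveILetI false
set_option synthInstance.maxHeartbeats 400000

noncomputable section

namespace Fermat.Agent.TT

open ModularCurve AlgebraicCurve IsLocalRing Polynomial IntermediateField Fermat.Agent.S18
  Fermat.Agent.S24 Fermat.Agent.G Fermat.Agent.SS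

local notation "Qb" => AlgebraicClosure ℚ

variable (N : ℕ) [NeZero N] (A : ValuationSubring Qb)
variable {υ : LaurentSeries ℤ} (hυ : GrdSerMem N υ)

/-- `V` lies above the Gauss valuation of `ℚ̄(t)` attached to `A`. -/
structure TtrnGauss (V : ValuationSubring ↥(modularFunctionFieldBar N)) : Prop where
  const_mem : ∀ a : ↥A, grdInclA N A a ∈ V
  coord_mem : grdQ N hυ ∈ V
  max_mem : ∀ a : ↥A, a ∈ maximalIdeal ↥A → grdInclA N A a ∈ V.nonunits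
  unit : ∀ g : (↥A)[X], (∃ i, g.coeff i ∉ maximalIdeal ↥A) →
    Polynomial.eval₂ (grdInclA N A) (grdQ N hυ) g ∉ V.nonunits

/-- (NODE-PL) every closed point of `B` above `𝔪_A` carries a ℚ̄-place. -/
def TtrnPL : Prop :=
  ∀ 𝔫 : Ideal ↥(grdB N A (grdQ N hυ)), 𝔫.IsMaximal →
    (∀ a : ↥A, a ∈ maximalIdeal ↥A → grdzι N A (grdQ N hυ) a ∈ 𝔫) →
    ∃ R : Place Qb ↥(modularFunctionFieldBar N),
      (∀ x ∈ grdB N A (grdQ N hυ), x ∈ R.toValuationSubring) ∧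
      ∀ x : ↥(grdB N A (grdQ N hυ)),
        (x : ↥(modularFunctionFieldBar N)) ∈ R.toValuationSubring.nonunits → x ∈ 𝔫

/-- (ASC-RAT) rationality of `𝔫_E` for all big `E` from a place centred at `𝔫` (a closed point
of the special fibre: `𝔪_A ⊆ 𝔫`). -/
def TtrnRAT : Prop :=
  ∀ (R : Place Qb ↥(modularFunctionFieldBar N)),
    (∀ x ∈ grdB N A (grdQ N hυ), x ∈ R.toValuationSubring) →
    ∀ 𝔫 : Ideal ↥(grdB N A (grdQ N hυ)), 𝔫.IsPrime →
      (∀ x : ↥(grdB N A (grdQ N hυ)),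
        (x : ↥(modularFunctionFieldBar N)) ∈ R.toValuationSubring.nonunits → x ∈ 𝔫) →
      (∀ a : ↥A, a ∈ maximalIdeal ↥A → grdzι N A (grdQ N hυ) a ∈ 𝔫) →
      ∃ E₁ : IntermediateField ℚ Qb, FiniteDimensional ℚ E₁ ∧
        ∀ (E : IntermediateField ℚ Qb) [FiniteDimensional ℚ E] [Normal ℚ E]
          [IsDiscreteValuationRing ↥(s18dVal A E)] [CharZero ↥(s18dVal A E)], E₁ ≤ E →
          SsResRational (ttrnTE N E hυ) (ttrnDown N A E hυ 𝔫)

/-- (ASC-TWO) the comap of a Gauss-type valuation ring is the labelled member of main's pair. -/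
def TtrnTWO : Prop :=
  ∀ V : ValuationSubring ↥(modularFunctionFieldBar N), TtrnGauss N A hυ V →
    ∀ (E : IntermediateField ℚ Qb) [FiniteDimensional ℚ E] [Normal ℚ E]
      [IsDiscreteValuationRing ↥(s18dVal A E)] [CharZero ↥(s18dVal A E)]
      (ϖ : ↥(s18dVal A E)) (hϖ : Irreducible ϖ) (u₁ u₂ : ↥(modularFunctionFieldFullC E N))
      (W₁ W₂ : ValuationSubring ↥(modularFunctionFieldFullC E N)),
      SsvTwo hϖ (ttrnTE N E hυ) u₁ u₂ W₁ W₂ →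
        (ssdUp E N u₁ ∈ V.nonunits → V.comap (ssdUp E N) = W₁) ∧
        (ssdUp E N u₂ ∈ V.nonunits → V.comap (ssdUp E N) = W₂)

variable {N A}

/-- `B ≤ V` for a Gauss-type `V` (valuation rings are integrally closed) -/
theorem TtrnGauss.le {V : ValuationSubring ↥(modularFunctionFieldBar N)}
    (h : TtrnGauss N A hυ V) {x : ↥(modularFunctionFieldBar N)}
    (hx : x ∈ grdB N A (grdQ N hυ)) : x ∈ V := by
  obtain ⟨p, hpm, hp⟩ := hx
  -- `x` is integral over `V`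
  have hcoeff : ∀ g : (↥A)[X], Polynomial.eval₂ (grdInclA N A) (grdQ N hυ) g ∈ V := by
    intro g
    rw [Polynomial.eval₂_eq_sum_range]
    exact V.toSubring.sum_mem fun i _ =>
      V.toSubring.mul_mem (h.const_mem _) (V.toSubring.pow_mem h.coord_mem _)
  let φ : (↥A)[X] →+* ↥V :=
    (Polynomial.eval₂RingHom (grdInclA N A) (grdQ N hυ)).codRestrict V.toSubring hcoeff
  have hint : IsIntegral ↥V x := by
    refine ⟨p.map φ, hpm.map φ, ?_⟩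
    rw [Polynomial.eval₂_map]
    exact hp
  have := IsIntegrallyClosed.algebraMap_eq_of_integral (R := ↥V)
    (K := ↥(modularFunctionFieldBar N)) hint
  obtain ⟨y, hy⟩ := this
  rw [← hy]
  exact y.2


section NF

universe u

variable {A₀ : Type*} [CommRing A₀] [IsDomain A₀] [IsDiscreteValuationRing A₀] [CharZero A₀]
variable {L₀ : Type*} [Field L₀] [Algebra A₀ L₀] [IsFractionRing A₀ L₀]
variable {F₀ : Type u} [Field F₀] [Algebra A₀ F₀] [Algebra L₀ F₀] [IsScalarTower A₀ L₀ F₀]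
variable {ϖ : A₀} {t : F₀}

/-- a prime of `P` containing `ϖ` with residue field `A/ϖ` is maximal -/
theorem ttrn_isMaximal_of_rational (hϖ : Irreducible ϖ) (𝔫 : Ideal ↥(s18tInt A₀ t)) [h𝔫 : 𝔫.IsPrime]
    (hϖ𝔫 : sskPi ϖ t ∈ 𝔫) (hres : SsResRational t 𝔫) : 𝔫.IsMaximal := by
  rw [Ideal.isMaximal_iff]
  refine ⟨fun h1 => h𝔫.ne_top ((Ideal.eq_top_iff_one _).mpr h1), ?_⟩
  intro J x h𝔫J hx𝔫 hxJ
  obtain ⟨a, p, hp, hxa⟩ := hres x
  have ha : a ∉ maximalIdeal A₀ := by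
    intro ha
    rw [hϖ.maximalIdeal_eq, Ideal.mem_span_singleton'] at ha
    obtain ⟨a', rfl⟩ := ha
    apply hx𝔫
    have e : x = ⟨algebraMap A₀ F₀ a', s18tc_algebraMap_mem_int t a'⟩ * sskPi ϖ t + p := by
      apply Subtype.ext
      rw [Subring.coe_add, Subring.coe_mul, hxa, map_mul]
      rfl
    rw [e]
    exact 𝔫.add_mem (𝔫.mul_mem_left _ hϖ𝔫) hp
  have hau : IsUnit a := by
    rw [mem_maximalIdeal, mem_nonunits_iff, not_not] at ha
    exact ha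
  obtain ⟨a', ha'⟩ := hau.exists_left_inv
  have e : (1 : ↥(s18tInt A₀ t)) =
      ⟨algebraMap A₀ F₀ a', s18tc_algebraMap_mem_int t a'⟩ * (x - p) := by
    apply Subtype.ext
    show (1 : F₀) = algebraMap A₀ F₀ a' * ((x : F₀) - (p : F₀))
    rw [hxa, add_sub_cancel_right, ← map_mul, ha', map_one]
  rw [e]
  exact J.mul_mem_left _ (J.sub_mem hxJ (h𝔫J hp))

/-- separating elements of `P` from an `SsvTwo` pair -/
theorem ttrn_sep_of_ssvTwo (hϖ : Irreducible ϖ) (ht : Transcendental L₀ t) {u₁ u₂ : F₀}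
    {V₁ V₂ : ValuationSubring F₀} (h : SsvTwo hϖ t u₁ u₂ V₁ V₂) :
    (∃ u ∈ s18tInt A₀ t, u ∈ V₁.nonunits ∧ u ∉ V₂.nonunits) ∧
      (∃ u ∈ s18tInt A₀ t, u ∈ V₂.nonunits ∧ u ∉ V₁.nonunits) := by
  have htA : Transcendental A₀ t := s18tb_transcendental ht
  -- a polynomial in `t` not divisible by `ϖ` has valuation one in both valuation rings
  have hunit : ∀ b : A₀[X], ¬ (C ϖ ∣ b) →
      V₁.valuation (aeval t b) = 1 ∧ V₂.valuation (aeval t b) = 1 := by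
    intro b hb
    have hb0' : b ≠ 0 := fun h0 => hb (h0 ▸ dvd_zero _)
    have hb0 : aeval t b ≠ 0 := fun h0 => hb0' ((transcendental_iff.mp htA) b h0)
    have hbI : aeval t b ∈ s18tIntLoc A₀ t (C ϖ) (s18t_prime_C hϖ) :=
      s18tInt_le_intLoc hϖ t (s18tc_chart_le_int t (s18tb_aeval_mem_chart t b))
    have hinvI : (aeval t b)⁻¹ ∈ s18tIntLoc A₀ t (C ϖ) (s18t_prime_C hϖ) := by
      apply s18tc_loc_le_intLoc
      exact ⟨1, b, hb, by rw [inv_mul_cancel₀ hb0, map_one]⟩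
    have key : ∀ V : ValuationSubring F₀, aeval t b ∈ V → (aeval t b)⁻¹ ∈ V →
        V.valuation (aeval t b) = 1 := by
      intro V hbV hinv
      have h1 : V.valuation (aeval t b) ≤ 1 := (V.valuation_le_one_iff _).mpr hbV
      have h2 : V.valuation (aeval t b)⁻¹ ≤ 1 := (V.valuation_le_one_iff _).mpr hinv
      rw [map_inv₀] at h2
      have h0 : V.valuation (aeval t b) ≠ 0 := (Valuation.ne_zero_iff _).mpr hb0
      exact le_antisymm h1 ((inv_le_one₀ (zero_lt_iff.mpr h0)).mp h2)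
    exact ⟨key V₁ ((h.mem_iff _).mp hbI).1 ((h.mem_iff _).mp hinvI).1,
      key V₂ ((h.mem_iff _).mp hbI).2 ((h.mem_iff _).mp hinvI).2⟩
  constructor
  · have hu₁V₁ : u₁ ∈ V₁ := (V₁.valuation_le_one_iff _).mp (le_of_lt (V₁.mem_nonunits_iff.mp h.mem₁))
    have hu₁V₂ : u₁ ∈ V₂ := (V₂.valuation_le_one_iff _).mp (le_of_eq h.unit₁)
    obtain ⟨b, hb, hbu⟩ := (s18t_intLoc_iff hϖ t u₁).mp ((h.mem_iff u₁).mpr ⟨hu₁V₁, hu₁V₂⟩)
    obtain ⟨hv₁, hv₂⟩ := hunit b hb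
    refine ⟨_, hbu, ?_, ?_⟩
    · rw [V₁.mem_nonunits_iff, map_mul, hv₁, one_mul]
      exact V₁.mem_nonunits_iff.mp h.mem₁
    · rw [V₂.mem_nonunits_iff, map_mul, hv₂, one_mul, h.unit₁]
      exact lt_irrefl _
  · have hu₂V₂ : u₂ ∈ V₂ := (V₂.valuation_le_one_iff _).mp (le_of_lt (V₂.mem_nonunits_iff.mp h.mem₂))
    have hu₂V₁ : u₂ ∈ V₁ := (V₁.valuation_le_one_iff _).mp (le_of_eq h.unit₂)
    obtain ⟨b, hb, hbu⟩ := (s18t_intLoc_iff hϖ t u₂).mp ((h.mem_iff u₂).mpr ⟨hu₂V₁, hu₂V₂⟩)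
    obtain ⟨hv₁, hv₂⟩ := hunit b hb
    refine ⟨_, hbu, ?_, ?_⟩
    · rw [V₂.mem_nonunits_iff, map_mul, hv₂, one_mul]
      exact V₂.mem_nonunits_iff.mp h.mem₂
    · rw [V₁.mem_nonunits_iff, map_mul, hv₁, one_mul, h.unit₂]
      exact lt_irrefl _

end NF

section Main

variable {N : ℕ} [NeZero N] {A : ValuationSubring Qb}
variable {υ : LaurentSeries ℤ} (hυ : GrdSerMem N υ)

set_option maxHeartbeats 1000000 in
/-- **TRANSVERSALITY (T) FOR THE ℚ̄-LEVEL CHART RING** `B = grdB N A t` at a closed point lying on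
both components `V1`, `V2`. -/
theorem ttrn_T_bar {ℓ : ℕ} [Fact ℓ.Prime] (hA : A.LiesOverPrime ℓ)
    (V1 V2 : ValuationSubring ↥(modularFunctionFieldBar N))
    (hV1 : TtrnGauss N A hυ V1) (hV2 : TtrnGauss N A hυ V2)
    (hPL : TtrnPL N A hυ) (hRAT : TtrnRAT N A hυ) (hTWO : TtrnTWO N A hυ)
    (htr : ∀ E : IntermediateField ℚ Qb, Transcendental E (ttrnTE N E hυ))
    (hfd : ∀ E : IntermediateField ℚ Qb,
      FiniteDimensional E⟮ttrnTE N E hυ⟯ (modularFunctionFieldFullC E N))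
    (hgerm : ∃ (E₁ : IntermediateField ℚ Qb) (_ : FiniteDimensional ℚ E₁),
      ∀ (E : IntermediateField ℚ Qb) [FiniteDimensional ℚ E] [Normal ℚ E]
        [IsDiscreteValuationRing ↥(s18dVal A E)] [CharZero ↥(s18dVal A E)], E₁ ≤ E →
        SsGermAll N A E (ttrnTE N E hυ))
    (u₁ u₂ : ∀ E : IntermediateField ℚ Qb, ↥(modularFunctionFieldFullC E N))
    (hu₁ : ∀ E, ssdUp E N (u₁ E) ∈ V1.nonunits) (hu₂ : ∀ E, ssdUp E N (u₂ E) ∈ V2.nonunits)
    (htwo : ∀ (E : IntermediateField ℚ Qb) [FiniteDimensional ℚ E] [Normal ℚ E]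
      [IsDiscreteValuationRing ↥(s18dVal A E)] [CharZero ↥(s18dVal A E)]
      (ϖ : ↥(s18dVal A E)) (hϖ : Irreducible ϖ),
      ∃ W₁ W₂ : ValuationSubring ↥(modularFunctionFieldFullC E N),
        SsvTwo hϖ (ttrnTE N E hυ) (u₁ E) (u₂ E) W₁ W₂)
    (𝔫 : Ideal ↥(grdB N A (grdQ N hυ))) (h𝔫 : 𝔫.IsMaximal)
    (h𝔭₁ : ∀ x : ↥(grdB N A (grdQ N hυ)),
      (x : ↥(modularFunctionFieldBar N)) ∈ V1.nonunits → x ∈ 𝔫)
    (h𝔭₂ : ∀ x : ↥(grdB N A (grdQ N hυ)),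
      (x : ↥(modularFunctionFieldBar N)) ∈ V2.nonunits → x ∈ 𝔫)
    (x : ↥(grdB N A (grdQ N hυ))) (hx : x ∈ 𝔫) :
    ∃ s : ↥(grdB N A (grdQ N hυ)), s ∉ 𝔫 ∧ ∃ y₁ y₂ : ↥(grdB N A (grdQ N hυ)),
      (y₁ : ↥(modularFunctionFieldBar N)) ∈ V1.nonunits ∧
      (y₂ : ↥(modularFunctionFieldBar N)) ∈ V2.nonunits ∧ s * x = y₁ + y₂ := by
  classical
  haveI h𝔫p : 𝔫.IsPrime := h𝔫.isPrime
  -- `𝔪_A ⊆ 𝔫`
  have hm : ∀ a : ↥A, a ∈ maximalIdeal ↥A → grdzι N A (grdQ N hυ) a ∈ 𝔫 :=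
    fun a ha => h𝔭₁ _ (hV1.max_mem a ha)
  -- a place through `𝔫`
  obtain ⟨R, hBR, hRc⟩ := hPL 𝔫 h𝔫 hm
  obtain ⟨E₁, hfd₁, hrat⟩ := hRAT R hBR 𝔫 h𝔫p hRc hm
  obtain ⟨E₂, hfd₂, hgermE⟩ := hgerm
  obtain ⟨E₃, hfd₃, hmodel⟩ := ttrn_exists_model N A hυ x
  haveI := hfd₁
  haveI := hfd₂
  haveI := hfd₃
  haveI halg : Algebra.IsAlgebraic ℚ Qb := AlgebraicClosure.isAlgebraic ℚ
  haveI hcl : IsAlgClosure ℚ Qb := AlgebraicClosure.instIsAlgClosure ℚ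
  haveI hnormQb : Normal ℚ Qb := IsAlgClosure.normal ℚ Qb
  obtain ⟨E₀, hE₀⟩ : ∃ E₀ : IntermediateField ℚ Qb, E₀ = E₁ ⊔ E₂ ⊔ E₃ := ⟨_, rfl⟩
  haveI hfd₀ : FiniteDimensional ℚ E₀ := by
    rw [hE₀]
    haveI : FiniteDimensional ℚ (E₁ ⊔ E₂ : IntermediateField ℚ Qb) :=
      IntermediateField.finiteDimensional_sup _ _
    exact IntermediateField.finiteDimensional_sup _ _
  obtain ⟨E, hEdef⟩ : ∃ E : IntermediateField ℚ Qb, E = IntermediateField.normalClosure ℚ E₀ Qb :=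
    ⟨_, rfl⟩
  have hE₀E : E₀ ≤ E := hEdef ▸ IntermediateField.le_normalClosure E₀
  haveI hEfd : FiniteDimensional ℚ E := by
    rw [hEdef]; exact normalClosure.is_finiteDimensional ℚ E₀ Qb
  haveI hEn : Normal ℚ E := by
    rw [hEdef]; exact normalClosure.normal ℚ E₀ Qb
  have hE₁E : E₁ ≤ E := le_trans (hE₀ ▸ (le_sup_left.trans le_sup_left)) hE₀E
  have hE₂E : E₂ ≤ E := le_trans (hE₀ ▸ (le_sup_right.trans le_sup_left)) hE₀E
  have hE₃E : E₃ ≤ E := le_trans (hE₀ ▸ le_sup_right) hE₀E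
  haveI : IsDiscreteValuationRing ↥(s18dVal A E) := s18d_isDVR A E hA
  haveI : CharZero ↥(s18dVal A E) := ggn_charZero A E
  haveI := hfd E
  obtain ⟨ϖ, hϖ⟩ := IsDiscreteValuationRing.exists_irreducible ↥(s18dVal A E)
  obtain ⟨z, hz⟩ := hmodel E hE₃E
  obtain ⟨W₁, W₂, h2⟩ := htwo E ϖ hϖ
  have e₁ : V1.comap (ssdUp E N) = W₁ := (hTWO V1 hV1 E ϖ hϖ _ _ W₁ W₂ h2).1 (hu₁ E)
  have e₂ : V2.comap (ssdUp E N) = W₂ := (hTWO V2 hV2 E ϖ hϖ _ _ W₁ W₂ h2).2 (hu₂ E)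
  have two : SsgaTwo ϖ (ttrnTE N E hυ) W₁ W₂ := ssga_two_of_ssvTwo hϖ _ (htr E) h2
  obtain ⟨sep₁, sep₂⟩ := ttrn_sep_of_ssvTwo hϖ (htr E) h2
  have hres : SsResRational (ttrnTE N E hυ) (ttrnDown N A E hυ 𝔫) := hrat E hE₁E
  -- `ϖ ∈ 𝔫_E`
  have hϖ𝔫 : sskPi ϖ (ttrnTE N E hυ) ∈ ttrnDown N A E hυ 𝔫 := by
    rw [mem_ttrnDown]
    have hϖm : s18dIncl A E ϖ ∈ maximalIdeal ↥A := by
      rw [mem_maximalIdeal, mem_nonunits_iff]
      intro hu
      haveI := ggn_isLocalHom A E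
      exact hϖ.not_isUnit (isUnit_of_map_unit (s18dIncl A E) ϖ hu)
    have e : ttrnUp N A E hυ (sskPi ϖ (ttrnTE N E hυ)) =
        grdzι N A (grdQ N hυ) (s18dIncl A E ϖ) := by
      apply Subtype.ext
      exact grdstUp_algebraMap N A E ϖ
    rw [e]
    exact hm _ hϖm
  have hmaxE : (ttrnDown N A E hυ 𝔫).IsMaximal :=
    ttrn_isMaximal_of_rational hϖ _ hϖ𝔫 hres
  have germ := hgermE E hE₂E ϖ hϖ (ttrnDown N A E hυ 𝔫) hmaxE hϖ𝔫 hres
  have h𝔭₁E : ∀ p : ↥(s18tInt ↥(s18dVal A E) (ttrnTE N E hυ)),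
      (p : ↥(modularFunctionFieldFullC E N)) ∈ W₁.nonunits → p ∈ ttrnDown N A E hυ 𝔫 := by
    intro p hp
    rw [← e₁, ttrn_comap_nonunits] at hp
    exact h𝔭₁ (ttrnUp N A E hυ p) hp
  have h𝔭₂E : ∀ p : ↥(s18tInt ↥(s18dVal A E) (ttrnTE N E hυ)),
      (p : ↥(modularFunctionFieldFullC E N)) ∈ W₂.nonunits → p ∈ ttrnDown N A E hυ 𝔫 := by
    intro p hp
    rw [← e₂, ttrn_comap_nonunits] at hp
    exact h𝔭₂ (ttrnUp N A E hυ p) hp
  have hzmem : z ∈ ttrnDown N A E hυ 𝔫 := by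
    rw [mem_ttrnDown, hz]; exact hx
  obtain ⟨s, hs, y₁, y₂, hy₁, hy₂, hsum⟩ := ttrn_T_of_germ hϖ (htr E) hϖ𝔫 two h𝔭₁E h𝔭₂E sep₁ sep₂
    (ssInertiaE E N A) germ z hzmem
  refine ⟨ttrnUp N A E hυ s, hs, ttrnUp N A E hυ y₁, ttrnUp N A E hυ y₂, ?_, ?_, ?_⟩
  · rw [← e₁, ttrn_comap_nonunits] at hy₁
    exact hy₁
  · rw [← e₂, ttrn_comap_nonunits] at hy₂
    exact hy₂
  · rw [← hz, ← map_mul, ← map_add]
    congr 1
    apply Subtype.ext
    rw [Subring.coe_mul, Subring.coe_add]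
    exact hsum

end Main

end Fermat.Agent.TT
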