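/-
(NODE), ascent, sub-slice (ASC-TWO) (owner helper18, prefix `ttrt`).

`N` a level, `A ⊂ ℚ̄`, `υ` a chart series, `t = grdQ N hυ ∈ F_ℚ̄(N)`.  Let `V` be a valuation subring
of `F_ℚ̄(N)` lying over the Gauss valuation of `ℚ̄(t)`:

* (HV1) `A ⊂ V` and `t ∈ V`;
* (HV2) `𝔪_A ⊂ 𝔪_V`;
* (HV3) `g(t)` is a unit of `V` for every `g ∈ A[X]` with a unit coefficient.

Then for every number field `E` (with `A ∩ E` a DVR), every uniformiser `ϖ` of `A ∩ E` and every
main-pair `SsvTwo hϖ t_E u₁ u₂ V₁ V₂` of valuation rings of `F_E(N)`: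
`V ∩ F_E(N) = V₁ ∨ V ∩ F_E(N) = V₂` (`ttrt_cases`), with the labelled forms `ttrt_eq_V₁`,
`ttrt_eq_V₂`.
-/
import Mathlib
import Fermat.Agent.TT.Red2.NodeUp
import Fermat.Agent.SS.Val.Gauss2

set_option autoImplicit false
set_option linter.unusedSectionVars false
set_option linter.unusedVariables false

noncomputable section

namespace Fermat.Agent.TT

open ModularCurve AlgebraicCurve IsLocalRing Polynomial Fermat.Agent.S18 Fermat.Agent.S24
  Fermat.Agent.G Fermat.Agent.SS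

local notation "Qb" => AlgebraicClosure ℚ

section Abs

variable {F F' : Type*} [Field F] [Field F']

/-- non-units of a pulled-back valuation ring -/
theorem ttrt_mem_comap_nonunits (σ : F' →+* F) (V : ValuationSubring F) (x : F') :
    x ∈ (V.comap σ).nonunits ↔ σ x ∈ V.nonunits := by
  rw [ValuationSubring.mem_nonunits_iff_or, ValuationSubring.mem_nonunits_iff_or,
    ValuationSubring.mem_comap, map_inv₀, map_eq_zero]

/-- an element which is not a non-unit has its inverse in the valuation ring -/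
theorem ttrt_inv_mem (V : ValuationSubring F) {y : F} (hy : y ∉ V.nonunits) :
    y ≠ 0 ∧ y⁻¹ ∈ V := by
  rw [ValuationSubring.mem_nonunits_iff_or, not_or, not_not] at hy
  exact hy

end Abs

variable (N : ℕ) [NeZero N] (A : ValuationSubring Qb) (E : IntermediateField ℚ Qb)
variable {υ : LaurentSeries ℤ} (hυ : GrdSerMem N υ)

/-- base change of polynomials in the chart coordinate -/
theorem ttrt_up_aeval (a : (↥(s18dVal A E))[X]) :
    ssdUp E N (aeval (ttrnTE N E hυ) a) =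
      eval₂ (grdInclA N A) (grdQ N hυ) (a.map (s18dIncl A E)) := by
  rw [eval₂_map]
  have h : (ssdUp E N).comp (aeval (R := ↥(s18dVal A E)) (ttrnTE N E hυ)).toRingHom =
      eval₂RingHom ((grdInclA N A).comp (s18dIncl A E)) (grdQ N hυ) := by
    apply Polynomial.ringHom_ext
    · intro c
      simp only [RingHom.coe_comp, AlgHom.toRingHom_eq_coe, RingHom.coe_coe, Function.comp_apply,
        aeval_C, coe_eval₂RingHom, eval₂_C]
      rw [IsScalarTower.algebraMap_apply ↥(s18dVal A E) E, ssdUp_algebraMap]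
      rfl
    · simp only [RingHom.coe_comp, AlgHom.toRingHom_eq_coe, RingHom.coe_coe, Function.comp_apply,
        aeval_X, coe_eval₂RingHom, eval₂_X]
      exact ttrn_up_coord N E hυ
  exact congrFun (congrArg DFunLike.coe h) a

variable [IsDiscreteValuationRing ↥(s18dVal A E)] [CharZero ↥(s18dVal A E)]

/-- **(ASC-TWO)** : a valuation ring of `F_ℚ̄(N)` over the Gauss valuation of `ℚ̄(t)` restricts to
one of the two valuation rings of the number-field package. -/
theorem ttrt_cases (V : ValuationSubring ↥(modularFunctionFieldBar N))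
    (hV1 : ∀ a : ↥A, algebraMap Qb ↥(modularFunctionFieldBar N) (a : Qb) ∈ V)
    (hVt : grdQ N hυ ∈ V)
    (hV2 : ∀ a : ↥A, a ∈ maximalIdeal ↥A →
      algebraMap Qb ↥(modularFunctionFieldBar N) (a : Qb) ∈ V.nonunits)
    (hV3 : ∀ g : (↥A)[X], (∃ i, g.coeff i ∉ maximalIdeal ↥A) →
      eval₂ (grdInclA N A) (grdQ N hυ) g ∉ V.nonunits)
    {ϖ : ↥(s18dVal A E)} (hϖ : Irreducible ϖ)
    {u₁ u₂ : ↥(modularFunctionFieldFullC E N)}
    {V₁ V₂ : ValuationSubring ↥(modularFunctionFieldFullC E N)}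
    (two : SsvTwo hϖ (ttrnTE N E hυ) u₁ u₂ V₁ V₂) :
    V.comap (ssdUp E N) = V₁ ∨ V.comap (ssdUp E N) = V₂ := by
  -- polynomials in `t` with coefficients in `A` lie in `V`
  have hpoly : ∀ g : (↥A)[X], eval₂ (grdInclA N A) (grdQ N hυ) g ∈ V := by
    intro g
    induction g using Polynomial.induction_on' with
    | add p q hp hq => rw [eval₂_add]; exact V.add_mem _ _ hp hq
    | monomial n a =>
      rw [eval₂_monomial]
      exact V.mul_mem _ _ (hV1 a) (pow_mem hVt n)
  refine two.cases _ ?_ ?_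
  · -- the Gauss ring `A₀[t]_(ϖ)` lies in `V`
    rintro x ⟨a, b, hb, hx⟩
    change ssdUp E N x ∈ V
    have hx' := congrArg (ssdUp E N) hx
    rw [map_mul, ttrt_up_aeval, ttrt_up_aeval] at hx'
    -- some coefficient of `b` is a unit
    have hcoef : ∃ i, (b.map (s18dIncl A E)).coeff i ∉ maximalIdeal ↥A := by
      rw [Polynomial.C_dvd_iff_dvd_coeff] at hb
      push Not at hb
      obtain ⟨i, hi⟩ := hb
      refine ⟨i, ?_⟩
      rw [coeff_map]
      have hu : IsUnit (b.coeff i) := by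
        by_contra hnu
        apply hi
        have : b.coeff i ∈ maximalIdeal ↥(s18dVal A E) := (mem_maximalIdeal _).2 hnu
        rw [hϖ.maximalIdeal_eq, Ideal.mem_span_singleton] at this
        exact this
      intro hmem
      exact ((mem_maximalIdeal _).1 hmem) (hu.map (s18dIncl A E))
    obtain ⟨h0, hinv⟩ := ttrt_inv_mem V (hV3 _ hcoef)
    have : ssdUp E N x = eval₂ (grdInclA N A) (grdQ N hυ) (a.map (s18dIncl A E)) *
        (eval₂ (grdInclA N A) (grdQ N hυ) (b.map (s18dIncl A E)))⁻¹ := by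
      rw [← hx', mul_assoc, mul_inv_cancel₀ h0, mul_one]
    rw [this]
    exact V.mul_mem _ _ (hpoly _) hinv
  · -- `ϖ` is a non-unit
    rw [ttrt_mem_comap_nonunits, IsScalarTower.algebraMap_apply ↥(s18dVal A E) E, ssdUp_algebraMap]
    have h1 : ((ϖ : ↥(s18dVal A E)) : E) ∈ (s18dVal A E).nonunits :=
      ValuationSubring.coe_mem_nonunits_iff.2 ((mem_maximalIdeal _).2 hϖ.not_isUnit)
    have h2 : algebraMap E Qb (ϖ : E) ∈ A.nonunits :=
      (ttrt_mem_comap_nonunits (algebraMap E Qb) A _).1 h1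
    have hϖm : s18dIncl A E ϖ ∈ maximalIdeal ↥A :=
      ValuationSubring.coe_mem_nonunits_iff.1 h2
    have e : algebraMap E Qb (algebraMap ↥(s18dVal A E) E ϖ) = ((s18dIncl A E ϖ : ↥A) : Qb) := rfl
    rw [e]
    exact hV2 _ hϖm

/-- labelled form : `u₁ ∈ 𝔪_V` forces the first valuation ring -/
theorem ttrt_eq_V₁ (V : ValuationSubring ↥(modularFunctionFieldBar N))
    (hV1 : ∀ a : ↥A, algebraMap Qb ↥(modularFunctionFieldBar N) (a : Qb) ∈ V)
    (hVt : grdQ N hυ ∈ V)
    (hV2 : ∀ a : ↥A, a ∈ maximalIdeal ↥A →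
      algebraMap Qb ↥(modularFunctionFieldBar N) (a : Qb) ∈ V.nonunits)
    (hV3 : ∀ g : (↥A)[X], (∃ i, g.coeff i ∉ maximalIdeal ↥A) →
      eval₂ (grdInclA N A) (grdQ N hυ) g ∉ V.nonunits)
    {ϖ : ↥(s18dVal A E)} (hϖ : Irreducible ϖ)
    {u₁ u₂ : ↥(modularFunctionFieldFullC E N)}
    {V₁ V₂ : ValuationSubring ↥(modularFunctionFieldFullC E N)}
    (two : SsvTwo hϖ (ttrnTE N E hυ) u₁ u₂ V₁ V₂) (hu : ssdUp E N u₁ ∈ V.nonunits) :
    V.comap (ssdUp E N) = V₁ := by
  rcases ttrt_cases N A E hυ V hV1 hVt hV2 hV3 hϖ two with h | h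
  · exact h
  · exfalso
    have h1 : u₁ ∈ (V.comap (ssdUp E N)).nonunits := (ttrt_mem_comap_nonunits _ _ _).2 hu
    rw [h, ValuationSubring.mem_nonunits_iff, two.unit₁] at h1
    exact lt_irrefl _ h1

/-- labelled form : `u₂ ∈ 𝔪_V` forces the second valuation ring -/
theorem ttrt_eq_V₂ (V : ValuationSubring ↥(modularFunctionFieldBar N))
    (hV1 : ∀ a : ↥A, algebraMap Qb ↥(modularFunctionFieldBar N) (a : Qb) ∈ V)
    (hVt : grdQ N hυ ∈ V)
    (hV2 : ∀ a : ↥A, a ∈ maximalIdeal ↥A →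
      algebraMap Qb ↥(modularFunctionFieldBar N) (a : Qb) ∈ V.nonunits)
    (hV3 : ∀ g : (↥A)[X], (∃ i, g.coeff i ∉ maximalIdeal ↥A) →
      eval₂ (grdInclA N A) (grdQ N hυ) g ∉ V.nonunits)
    {ϖ : ↥(s18dVal A E)} (hϖ : Irreducible ϖ)
    {u₁ u₂ : ↥(modularFunctionFieldFullC E N)}
    {V₁ V₂ : ValuationSubring ↥(modularFunctionFieldFullC E N)}
    (two : SsvTwo hϖ (ttrnTE N E hυ) u₁ u₂ V₁ V₂) (hu : ssdUp E N u₂ ∈ V.nonunits) :
    V.comap (ssdUp E N) = V₂ := by
  rcases ttrt_cases N A E hυ V hV1 hVt hV2 hV3 hϖ two with h | h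
  · exfalso
    have h1 : u₂ ∈ (V.comap (ssdUp E N)).nonunits := (ttrt_mem_comap_nonunits _ _ _).2 hu
    rw [h, ValuationSubring.mem_nonunits_iff, two.unit₂] at h1
    exact lt_irrefl _ h1
  · exact h

/-- membership in the pulled-back ring, for the consumer -/
theorem ttrt_mem_comap (V : ValuationSubring ↥(modularFunctionFieldBar N))
    (z : ↥(modularFunctionFieldFullC E N)) : z ∈ V.comap (ssdUp E N) ↔ ssdUp E N z ∈ V :=
  ValuationSubring.mem_comap

end Fermat.Agent.TT
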