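/-
(NODE), ascent, the inputs `hV1 hV2 : TtrnGauss …` of helper19's `ttrn_T_bar` at the instance
(owner helper18, prefix `ttrt`).

`p ∤ M`, `𝔸` over `p`, `F = F_ℚ̄(M p)`, `V₁ = grdO (M p) 𝔸` (helper12's `ttrV1`), `V₂ = w⁻¹ V₁`
(`w = ttrW`, any spelling), `υ` a chart series of level `M` whose reduction `ῡ ∈ F_k(M)` is
transcendental over `k` (e.g. `hc : GrdChart M 𝔸 υ`), `t = υ_ℚ̄` at level `M p` (`= α υ_ℚ̄`).
Then `V₁` and `V₂` lie above the Gauss valuation of `ℚ̄(t)` :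

* `ttrt_gauss_V1` : `TtrnGauss (M * p) 𝔸 hυ' (ttrV1 M 𝔸 hpM hA)`;
* `ttrt_gauss_V2` : `TtrnGauss (M * p) 𝔸 hυ' V₂` for every `V₂` with `x ∈ V₂ ↔ w x ∈ grdO (M p) 𝔸`;
* `ttrt_gauss_ModV2` : the instance `V₂ = ttrModV2 M 𝔸 hpM hA`.

Abstract core (Mathlib only) : `ttrt_red_eval`, `ttrt_gauss_abs`.
-/
import Mathlib
import Fermat.Agent.TT.Red2.NodeAscent
import Fermat.Agent.TT.Red2.NodeTwo
import Fermat.Agent.TT.Red2.ModelDefs

set_option autoImplicit false
set_option linter.unusedSectionVars false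
set_option linter.unusedVariables false
set_option linter.style.haveILetI false

noncomputable section

namespace Fermat.Agent.TT

open ModularCurve AlgebraicCurve IsLocalRing Polynomial Fermat.Agent.S18 Fermat.Agent.S24
  Fermat.Agent.G Fermat.Agent.SS

local notation "Qb" => AlgebraicClosure ℚ

/-! ### Abstract core -/

section Abs

variable {F : Type*} [Field F] {A : Type*} [CommRing A] [IsLocalRing A]
variable {R : Type*} [CommRing R] [Algebra (ResidueField A) R]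

/-- the reduction of a polynomial expression `g(s)` is `ḡ(s̄)` -/
theorem ttrt_red_eval (O : Subring F) (red : ↥O →+* R) (ι : A →+* F) (hι : ∀ a, ι a ∈ O)
    (hred : ∀ a, red ⟨ι a, hι a⟩ = algebraMap (ResidueField A) R (residue A a))
    {s : F} (hs : s ∈ O) (g : A[X]) :
    ∃ h : eval₂ ι s g ∈ O,
      red ⟨eval₂ ι s g, h⟩ = aeval (red ⟨s, hs⟩) (g.map (residue A)) := by
  have hmem : ∀ g : A[X], eval₂RingHom ι s g ∈ O := by
    intro g
    rw [coe_eval₂RingHom, eval₂_eq_sum_range]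
    exact O.sum_mem fun i _ => O.mul_mem (hι _) (O.pow_mem hs i)
  let φ' : A[X] →+* ↥O := (eval₂RingHom ι s).codRestrict O hmem
  have hcomp : red.comp φ' =
      ((aeval (R := ResidueField A) (red ⟨s, hs⟩)).toRingHom).comp (mapRingHom (residue A)) := by
    apply Polynomial.ringHom_ext
    · intro a
      have h1 : φ' (C a) = ⟨ι a, hι a⟩ := by
        apply Subtype.ext
        show eval₂RingHom ι s (C a) = _
        rw [coe_eval₂RingHom, eval₂_C]
      rw [RingHom.comp_apply, h1, hred, RingHom.comp_apply, coe_mapRingHom, map_C]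
      simp only [AlgHom.toRingHom_eq_coe, RingHom.coe_coe, aeval_C]
    · have h1 : φ' X = ⟨s, hs⟩ := by
        apply Subtype.ext
        show eval₂RingHom ι s X = _
        rw [coe_eval₂RingHom, eval₂_X]
      rw [RingHom.comp_apply, h1, RingHom.comp_apply, coe_mapRingHom, map_X]
      simp only [AlgHom.toRingHom_eq_coe, RingHom.coe_coe, aeval_X]
  refine ⟨hmem g, ?_⟩
  have := congrArg (fun f : A[X] →+* R => f g) hcomp
  simp only [RingHom.comp_apply, AlgHom.toRingHom_eq_coe, RingHom.coe_coe, coe_mapRingHom] at this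
  exact this

variable [Nontrivial R]

/-- **the Gauss-type properties from a reduction map** : a valuation ring `V` (with carrier `O`)
carrying a reduction `red : O → R` which restricts to the residue map on the constants `ι A`, which
inverts every element with non-zero reduction, and for which the reduction of the coordinate `s` is
transcendental over the residue field. -/
theorem ttrt_gauss_abs (V : ValuationSubring F) (O : Subring F) (hVO : ∀ x, x ∈ V ↔ x ∈ O)
    (red : ↥O →+* R) (ι : A →+* F) (hι : ∀ a, ι a ∈ O)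
    (hred : ∀ a, red ⟨ι a, hι a⟩ = algebraMap (ResidueField A) R (residue A a))
    (hinv : ∀ x : ↥O, red x ≠ 0 → (x : F)⁻¹ ∈ O)
    {s : F} (hs : s ∈ O) (htr : Transcendental (ResidueField A) (red ⟨s, hs⟩)) :
    (∀ a, ι a ∈ V) ∧ s ∈ V ∧ (∀ a, a ∈ maximalIdeal A → ι a ∈ V.nonunits) ∧
      ∀ g : A[X], (∃ i, g.coeff i ∉ maximalIdeal A) → eval₂ ι s g ∉ V.nonunits := by
  refine ⟨fun a => (hVO _).2 (hι a), (hVO _).2 hs, ?_, ?_⟩
  · intro a ha
    by_contra hnu
    obtain ⟨h0, hinvV⟩ := ttrt_inv_mem V hnu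
    have hinvO : (ι a)⁻¹ ∈ O := (hVO _).1 hinvV
    have h1 : red ⟨ι a, hι a⟩ * red ⟨(ι a)⁻¹, hinvO⟩ = 1 := by
      rw [← map_mul, ← map_one red]
      congr 1
      apply Subtype.ext
      exact mul_inv_cancel₀ h0
    rw [hred, (residue_eq_zero_iff a).2 ha, map_zero, zero_mul] at h1
    exact zero_ne_one h1
  · rintro g ⟨i, hi⟩ hnu
    obtain ⟨hgO, hgred⟩ := ttrt_red_eval O red ι hι hred hs g
    have hg0 : g.map (residue A) ≠ 0 := by
      intro h0
      apply hi
      have := congrArg (fun q : (ResidueField A)[X] => q.coeff i) h0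
      simp only [coeff_map, coeff_zero] at this
      exact (residue_eq_zero_iff _).1 this
    have hne : red ⟨eval₂ ι s g, hgO⟩ ≠ 0 := by
      rw [hgred]
      intro h0
      exact hg0 ((transcendental_iff.1 htr) _ h0)
    have hinvO := hinv ⟨eval₂ ι s g, hgO⟩ hne
    have hy0 : eval₂ ι s g ≠ 0 := by
      intro h0
      apply hne
      have : (⟨eval₂ ι s g, hgO⟩ : ↥O) = 0 := Subtype.ext h0
      rw [this, map_zero]
    rw [ValuationSubring.mem_nonunits_iff_or] at hnu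
    rcases hnu with h | h
    · exact hy0 h
    · exact h ((hVO _).2 hinvO)

/-- non-units of `V₂ = w⁻¹ V₁` -/
theorem ttrt_nonunits_of_equiv (V₁ V₂ : ValuationSubring F) (w : F ≃+* F)
    (hV : ∀ x, x ∈ V₂ ↔ w x ∈ V₁) (x : F) : x ∈ V₂.nonunits ↔ w x ∈ V₁.nonunits := by
  rw [ValuationSubring.mem_nonunits_iff_or, ValuationSubring.mem_nonunits_iff_or, hV, map_inv₀,
    map_eq_zero_iff w w.injective]

end Abs

/-! ### The instance -/

variable (M : ℕ) [NeZero M] {p : ℕ} [Fact p.Prime] [NeZero p]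
variable (A : ValuationSubring Qb)

/-- `red₁` on the constants -/
theorem ttrt_red1_const (hA : A.LiesOverPrime p) (a : ↥A) :
    ttrRed1 M A hA ⟨grdInclA (M * p) A a, grdO_algebraMap_mem (M * p) A a⟩ =
      algebraMap (ResidueField ↥A) ↥(modularFunctionFieldFullC (ResidueField ↥A) M)
        (residue ↥A a) := by
  apply Subtype.ext
  rw [ttrRed1_coe]
  have h1 : (⟨grdInclA (M * p) A a, grdO_algebraMap_mem (M * p) A a⟩ : ↥(grdO (M * p) A)) =
      ⟨algebraMap Qb (modularFunctionFieldBar (M * p)) (a : Qb),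
        grdO_algebraMap_mem (M * p) A a⟩ := rfl
  rw [h1, grdRed_algebraMap]
  show algebraMap (ResidueField ↥A) (LaurentSeries (ResidueField ↥A)) (residue ↥A a) =
    algebraMap (ResidueField ↥A) (LaurentSeries (ResidueField ↥A)) (residue ↥A a)
  rfl

/-- `Φ` fixes the constants -/
theorem ttrt_phi_const (hA : A.LiesOverPrime p) (c : ResidueField ↥A) :
    ttrPhi M A hA (algebraMap (ResidueField ↥A)
      ↥(modularFunctionFieldFullC (ResidueField ↥A) M) c) =
      algebraMap (ResidueField ↥A) ↥(modularFunctionFieldFullC (ResidueField ↥A) M) c := by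
  apply Subtype.ext
  rw [ttrPhi_coe]
  show qExpand (ResidueField ↥A) p
      (algebraMap (ResidueField ↥A) (LaurentSeries (ResidueField ↥A)) c) =
    algebraMap (ResidueField ↥A) (LaurentSeries (ResidueField ↥A)) c
  rw [algebraMap_laurentSeries_eq_single, qExpand_single, mul_zero]

/-- `Φ` preserves transcendence over `k` -/
theorem ttrt_phi_transcendental (hA : A.LiesOverPrime p)
    {x : ↥(modularFunctionFieldFullC (ResidueField ↥A) M)}
    (hx : Transcendental (ResidueField ↥A) x) :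
    Transcendental (ResidueField ↥A) (ttrPhi M A hA x) := by
  rw [transcendental_iff] at hx ⊢
  intro P hP
  apply hx P
  apply (ttrPhi M A hA).injective
  have hcomp : (ttrPhi M A hA).comp (algebraMap (ResidueField ↥A)
      ↥(modularFunctionFieldFullC (ResidueField ↥A) M)) =
      algebraMap (ResidueField ↥A) ↥(modularFunctionFieldFullC (ResidueField ↥A) M) :=
    RingHom.ext fun c => ttrt_phi_const M A hA c
  rw [map_zero, ← hP, aeval_def, aeval_def, hom_eval₂, hcomp]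

variable {υ : LaurentSeries ℤ}

/-- the coordinate at level `M p` is `α` of the coordinate at level `M` -/
theorem ttrt_grdQ_alpha (hυ : GrdSerMem M υ) (hυ' : GrdSerMem (M * p) υ) :
    grdQ (M * p) hυ' = heckeAlphaBar Qb M p (grdQ M hυ) := by
  apply Subtype.ext
  rw [coe_heckeAlphaBar]
  unfold grdQ
  exact (Subtype.coe_mk _ _).trans (Subtype.coe_mk _ _).symm

/-- `red₁ t = ῡ` -/
theorem ttrt_red1_coord (hυ : GrdSerMem M υ) (hυ' : GrdSerMem (M * p) υ)
    (hA : A.LiesOverPrime p) :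
    ttrRed1 M A hA ⟨grdQ (M * p) hυ', grdQ_mem_grdO (M * p) A hυ'⟩ = grdK M A hυ := by
  apply Subtype.ext
  rw [ttrRed1_coe, grdRed_grdQ]
  unfold grdK
  exact (Subtype.coe_mk _ _).trans (Subtype.coe_mk _ _).symm

/-- `w t = β υ_ℚ̄` -/
theorem ttrt_w_coord (hυ : GrdSerMem M υ) (hυ' : GrdSerMem (M * p) υ) (hpM : ¬ p ∣ M) :
    ttrW M hpM (grdQ (M * p) hυ') = heckeBetaBar Qb M p (grdQ M hυ) := by
  rw [ttrt_grdQ_alpha M hυ hυ', ttrW_alpha]

theorem ttrt_w_coord_mem (hυ : GrdSerMem M υ) (hυ' : GrdSerMem (M * p) υ) (hpM : ¬ p ∣ M) :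
    ttrW M hpM (grdQ (M * p) hυ') ∈ grdO (M * p) A := by
  rw [ttrt_w_coord M hυ hυ' hpM]
  exact ttr_beta_mem M A (grdQ_mem_grdO M A hυ)

/-- `red₁ (w t) = Φ ῡ` -/
theorem ttrt_red1_w_coord (hυ : GrdSerMem M υ) (hυ' : GrdSerMem (M * p) υ) (hpM : ¬ p ∣ M)
    (hA : A.LiesOverPrime p) :
    ttrRed1 M A hA ⟨ttrW M hpM (grdQ (M * p) hυ'), ttrt_w_coord_mem M A hυ hυ' hpM⟩ =
      ttrPhi M A hA (grdK M A hυ) := by
  have h1 : (⟨ttrW M hpM (grdQ (M * p) hυ'), ttrt_w_coord_mem M A hυ hυ' hpM⟩ :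
      ↥(grdO (M * p) A)) =
      ⟨heckeBetaBar Qb M p ((⟨grdQ M hυ, grdQ_mem_grdO M A hυ⟩ : ↥(grdO M A)) :
        modularFunctionFieldBar M), ttr_beta_mem M A (grdQ_mem_grdO M A hυ)⟩ :=
    Subtype.ext (ttrt_w_coord M hυ hυ' hpM)
  rw [h1, ttrRed1_beta, grdRed_grdQ]

/-- the common hypotheses of `ttrt_gauss_abs` at `(grdO (M p) 𝔸, red₁)` -/
theorem ttrt_red1_inv (hpM : ¬ p ∣ M) (hA : A.LiesOverPrime p) (x : ↥(grdO (M * p) A))
    (hx : ttrRed1 M A hA x ≠ 0) : (x : modularFunctionFieldBar (M * p))⁻¹ ∈ grdO (M * p) A :=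
  ttr_inv_mem M A hpM hA x fun h => hx ((ttrRed1_eq_zero_iff' M A hA x).2 h)

/-- **(HV1)-(HV3) for `V₁`** -/
theorem ttrt_gauss_V1 (hυ : GrdSerMem M υ) (hυ' : GrdSerMem (M * p) υ) (hpM : ¬ p ∣ M)
    (hA : A.LiesOverPrime p)
    (htr : Transcendental (ResidueField ↥A) (grdK M A hυ)) :
    TtrnGauss (M * p) A hυ' (ttrV1 M A hpM hA) := by
  have htr' : Transcendental (ResidueField ↥A)
      (ttrRed1 M A hA ⟨grdQ (M * p) hυ', grdQ_mem_grdO (M * p) A hυ'⟩) := by
    rw [ttrt_red1_coord M A hυ hυ' hA]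
    exact htr
  obtain ⟨h1, h2, h3, h4⟩ := ttrt_gauss_abs (ttrV1 M A hpM hA) (grdO (M * p) A)
    (fun _ => Iff.rfl) (ttrRed1 M A hA) (grdInclA (M * p) A)
    (grdO_algebraMap_mem (M * p) A) (ttrt_red1_const M A hA) (ttrt_red1_inv M A hpM hA)
    (grdQ_mem_grdO (M * p) A hυ') htr'
  exact ⟨h1, h2, h3, h4⟩

/-- **(HV1)-(HV3) for `V₂ = w⁻¹ V₁`** (any spelling of `V₂`) -/
theorem ttrt_gauss_V2 (hυ : GrdSerMem M υ) (hυ' : GrdSerMem (M * p) υ) (hpM : ¬ p ∣ M)
    (hA : A.LiesOverPrime p)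
    (htr : Transcendental (ResidueField ↥A) (grdK M A hυ))
    (V₂ : ValuationSubring ↥(modularFunctionFieldBar (M * p)))
    (hV₂ : ∀ x, x ∈ V₂ ↔ ttrW M hpM x ∈ grdO (M * p) A) :
    TtrnGauss (M * p) A hυ' V₂ := by
  have htr' : Transcendental (ResidueField ↥A)
      (ttrRed1 M A hA ⟨ttrW M hpM (grdQ (M * p) hυ'), ttrt_w_coord_mem M A hυ hυ' hpM⟩) := by
    rw [ttrt_red1_w_coord M A hυ hυ' hpM hA]
    exact ttrt_phi_transcendental M A hA htr
  obtain ⟨h1, h2, h3, h4⟩ := ttrt_gauss_abs (ttrV1 M A hpM hA) (grdO (M * p) A)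
    (fun _ => Iff.rfl) (ttrRed1 M A hA) (grdInclA (M * p) A)
    (grdO_algebraMap_mem (M * p) A) (ttrt_red1_const M A hA) (ttrt_red1_inv M A hpM hA)
    (ttrt_w_coord_mem M A hυ hυ' hpM) htr'
  have hV : ∀ x, x ∈ V₂ ↔ ttrW M hpM x ∈ ttrV1 M A hpM hA := hV₂
  have hwι : ∀ a : ↥A, ttrW M hpM (grdInclA (M * p) A a) = grdInclA (M * p) A a :=
    fun a => ttrW_const M hpM (a : Qb)
  refine ⟨?_, ?_, ?_, ?_⟩
  · intro a
    rw [hV, hwι]
    exact h1 a
  · rw [hV]
    exact h2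
  · intro a ha
    rw [ttrt_nonunits_of_equiv (ttrV1 M A hpM hA) V₂ (ttrW M hpM) hV, hwι]
    exact h3 a ha
  · intro g hg
    rw [ttrt_nonunits_of_equiv (ttrV1 M A hpM hA) V₂ (ttrW M hpM) hV]
    have e : ttrW M hpM (eval₂ (grdInclA (M * p) A) (grdQ (M * p) hυ') g) =
        eval₂ (grdInclA (M * p) A) (ttrW M hpM (grdQ (M * p) hυ')) g := by
      have := hom_eval₂ g (grdInclA (M * p) A)
        (ttrW M hpM : modularFunctionFieldBar (M * p) →+* modularFunctionFieldBar (M * p))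
        (grdQ (M * p) hυ')
      have hcomp : (ttrW M hpM : modularFunctionFieldBar (M * p) →+*
          modularFunctionFieldBar (M * p)).comp (grdInclA (M * p) A) = grdInclA (M * p) A :=
        RingHom.ext fun a => hwι a
      rw [RingHom.coe_coe, hcomp] at this
      exact this
    rw [e]
    exact h4 g hg

/-- the instance `V₂ = ttrModV2` -/
theorem ttrt_gauss_ModV2 (hυ : GrdSerMem M υ) (hυ' : GrdSerMem (M * p) υ) (hpM : ¬ p ∣ M)
    (hA : A.LiesOverPrime p)
    (htr : Transcendental (ResidueField ↥A) (grdK M A hυ)) :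
    TtrnGauss (M * p) A hυ' (ttrModV2 M A hpM hA) :=
  ttrt_gauss_V2 M A hυ hυ' hpM hA htr _ fun _ => Iff.rfl

/-- both, for a chart of the atlas -/
theorem ttrt_gauss_chart (hυ' : GrdSerMem (M * p) υ) (hpM : ¬ p ∣ M) (hA : A.LiesOverPrime p)
    (hc : GrdChart M A υ) :
    TtrnGauss (M * p) A hυ' (ttrV1 M A hpM hA) ∧
      TtrnGauss (M * p) A hυ' (ttrModV2 M A hpM hA) :=
  ⟨ttrt_gauss_V1 M A hc.mem hυ' hpM hA hc.sepK.transcendental,
    ttrt_gauss_ModV2 M A hc.mem hυ' hpM hA hc.sepK.transcendental⟩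

end Fermat.Agent.TT
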