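import Mathlib
import Fermat.Agent.TT.Red2.Inst
import Fermat.Agent.SS.Dict.Aut

/-!
# Program TT (S33), package G/Red₂ (helper12, prefix `ttr`) : `(HV4)` of the NODE ascent

`u₁ = Y - J^p ∈ 𝔪_{V₁}`, `u₂ = Y^p - J ∈ 𝔪_{V₂}` in the number-field spelling of helper19's
`NodeAscent.lean` : for every `E ⊂ ℚ̄`

* `ttr_hv4_up_J`, `ttr_hv4_up_Y` : `ssdUp E (M p) j_E = J`, `ssdUp E (M p) j_E(q^p) = Y`;
* `ttr_hv4₁` : `ssdUp E (M p) (ssvmmY E M p - ssvmdJ E (M p) ^ p) ∈ 𝔪_{V₁}`;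
* `ttr_hv4₂` : `ssdUp E (M p) (ssvmmY E M p ^ p - ssvmdJ E (M p)) ∈ 𝔪_{V₂}` for every valuation
  subring `V₂` with `x ∈ V₂ ↔ w x ∈ V₁`;
* `ttr_hv4_mem_nonunits₁/₂` : `red₁ x = 0 ⟹ x ∈ 𝔪_{V₁}`, `red₁ (w x) = 0 ⟹ x ∈ 𝔪_{V₂}`.
-/

set_option autoImplicit false
set_option linter.unusedSectionVars false
set_option linter.unusedVariables false
set_option linter.style.haveILetI false
set_option synthInstance.maxHeartbeats 400000

noncomputable section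

namespace Fermat.Agent.TT

open Polynomial ModularCurve AlgebraicCurve IsLocalRing IntermediateField
  Fermat.Agent.G Fermat.Agent.S18 Fermat.Agent.SS

local notation "Qb" => AlgebraicClosure ℚ

variable (M : ℕ) [NeZero M] {p : ℕ} [Fact p.Prime] [NeZero p]
variable (A : ValuationSubring Qb)

/-- `red₁ x = 0 ⟹ x ∈ 𝔪_{V₁}` -/
theorem ttr_hv4_mem_nonunits₁ (hpM : ¬ p ∣ M) (hA : A.LiesOverPrime p) (x : ↥(grdO (M * p) A))
    (h : ttrRed1 M A hA x = 0) :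
    (x : modularFunctionFieldBar (M * p)) ∈ (ttrV1 M A hpM hA).nonunits := by
  rw [ValuationSubring.mem_nonunits_iff_or]
  by_cases h0 : (x : modularFunctionFieldBar (M * p)) = 0
  · exact Or.inl h0
  right
  intro hinv
  have hinv' : (x : modularFunctionFieldBar (M * p))⁻¹ ∈ grdO (M * p) A := hinv
  have h1 : x * ⟨(x : modularFunctionFieldBar (M * p))⁻¹, hinv'⟩ = 1 :=
    Subtype.ext (mul_inv_cancel₀ h0)
  have h2 := congrArg (ttrRed1 M A hA) h1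
  rw [map_mul, h, zero_mul, map_one] at h2
  exact zero_ne_one h2

/-- `red₁ (w x) = 0 ⟹ x ∈ 𝔪_{V₂}` for every `V₂` with `x ∈ V₂ ↔ w x ∈ V₁` -/
theorem ttr_hv4_mem_nonunits₂ (hpM : ¬ p ∣ M) (hA : A.LiesOverPrime p)
    (V2 : ValuationSubring (modularFunctionFieldBar (M * p)))
    (hV2 : ∀ x, x ∈ V2 ↔ ttrW M hpM x ∈ grdO (M * p) A)
    (x : modularFunctionFieldBar (M * p)) (hx : ttrW M hpM x ∈ grdO (M * p) A)
    (h : ttrRed1 M A hA ⟨ttrW M hpM x, hx⟩ = 0) : x ∈ V2.nonunits := by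
  have h1 := ttr_hv4_mem_nonunits₁ M A hpM hA ⟨ttrW M hpM x, hx⟩ h
  rw [ValuationSubring.mem_nonunits_iff_or] at h1 ⊢
  rcases h1 with h1 | h1
  · left
    have h2 : ttrW M hpM x = 0 := h1
    rwa [map_eq_zero_iff _ (ttrW M hpM).injective] at h2
  · right
    intro hinv
    apply h1
    have := (hV2 _).mp hinv
    rwa [map_inv₀] at this

/-- `ssdUp E (M p) j = J` -/
theorem ttr_hv4_up_J (E : IntermediateField ℚ Qb) :
    ssdUp E (M * p) (ssvmdJ E (M * p)) = ttrJ M A (p := p) := by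
  apply Subtype.ext
  rw [coe_ssdUp]
  unfold ttrJ ttrJ0 ssvmdJ
  rw [coe_heckeAlphaBar]
  show s18dUp E (jqModC E) = grdSer (jqModC ℤ) Qb
  rw [grdi_grdSer_j]
  exact coeffMap_jqModC _

/-- `ssdUp E (M p) j(q^p) = Y` -/
theorem ttr_hv4_up_Y (E : IntermediateField ℚ Qb) :
    ssdUp E (M * p) (ssvmmY E M p) = ttrY M A (p := p) := by
  apply Subtype.ext
  rw [coe_ssdUp]
  unfold ttrY ttrJ0
  rw [coe_heckeBetaBar, ssvmmY_coe]
  show s18dUp E (qExpand E p (jqModC E)) = qExpand Qb p (grdSer (jqModC ℤ) Qb)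
  rw [grdi_grdSer_j]
  have : s18dUp E (qExpand E p (jqModC E)) = qExpand Qb p (s18dUp E (jqModC E)) :=
    coeffMap_qExpand _ p _
  rw [this]
  congr 1
  exact coeffMap_jqModC _

/-- **(HV4), first half** : `u₁ ∈ 𝔪_{V₁}` in the number-field spelling -/
theorem ttr_hv4₁ (hpM : ¬ p ∣ M) (hA : A.LiesOverPrime p) (E : IntermediateField ℚ Qb) :
    ssdUp E (M * p) (ssvmmY E M p - ssvmdJ E (M * p) ^ p) ∈ (ttrV1 M A hpM hA).nonunits := by
  have e : ssdUp E (M * p) (ssvmmY E M p - ssvmdJ E (M * p) ^ p) = ttrU1 M A (p := p) := by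
    rw [map_sub, map_pow, ttr_hv4_up_J M A, ttr_hv4_up_Y M A]
    rfl
  rw [e]
  exact ttr_hv4_mem_nonunits₁ M A hpM hA ⟨ttrU1 M A, ttrU1_mem M A⟩ (ttrRed1_U1 M A hA)

/-- **(HV4), second half** : `u₂ ∈ 𝔪_{V₂}` in the number-field spelling -/
theorem ttr_hv4₂ (hpM : ¬ p ∣ M) (hA : A.LiesOverPrime p)
    (V2 : ValuationSubring (modularFunctionFieldBar (M * p)))
    (hV2 : ∀ x, x ∈ V2 ↔ ttrW M hpM x ∈ grdO (M * p) A) (E : IntermediateField ℚ Qb) :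
    ssdUp E (M * p) (ssvmmY E M p ^ p - ssvmdJ E (M * p)) ∈ V2.nonunits := by
  have e : ssdUp E (M * p) (ssvmmY E M p ^ p - ssvmdJ E (M * p)) = ttrU2 M A (p := p) := by
    rw [map_sub, map_pow, ttr_hv4_up_J M A, ttr_hv4_up_Y M A]
    rfl
  rw [e]
  have hx : ttrW M hpM (ttrU2 M A) ∈ grdO (M * p) A := by
    rw [ttrW_U2]
    exact Subring.neg_mem _ (ttrU1_mem M A)
  refine ttr_hv4_mem_nonunits₂ M A hpM hA V2 hV2 (ttrU2 M A) hx ?_
  have e2 : (⟨ttrW M hpM (ttrU2 M A), hx⟩ : ↥(grdO (M * p) A)) =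
      -⟨ttrU1 M A, ttrU1_mem M A⟩ := Subtype.ext (ttrW_U2 M A hpM)
  rw [e2, map_neg, ttrRed1_U1, neg_zero]

end Fermat.Agent.TT
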