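import Mathlib
import Fermat.Agent.S18.T.Defs

/-!
# Program TT (S33), (NODE) ascent, leaf (NODE-PL): closed points are specialisations of places

Owner: helper25 (leaf requested by helper19).  Namespace `Fermat.Agent.TT`, prefix `ttrj`.

`𝔸 ⊂ K` a valuation subring, `F / K` a field, `t ∈ F` transcendental over `K`,
`B := s18tInt 𝔸 t` the integral closure of `𝔸[t]` in `F`.  For every prime `𝔫` of `B` containing
`t - c` (`c ∈ 𝔸`) there is a place `W` of `F / K` (a valuation subring `≠ ⊤` containing `K`) with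
`B ⊆ W` and `𝔪_W ∩ B ⊆ 𝔫`  (`ttrj_place`).  The same for an ABSTRACT chart ring `B : Subring F`
given as the set of elements integral along `𝔸[X] → F`, `X ↦ t` (main's `grdB N A u` is literally
of this shape): `ttrj_place_abs`, `ttrj_place_abs'` (section `Abs`, no `Algebra ↥𝔸 F` instance).
For an algebraically closed residue field every maximal `𝔫 ⊇ 𝔪_𝔸 B` contains some `t - c`
(`ttrj_exists_c`), hence `ttrj_place_max`: every closed point of the special fibre of `B` is a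
specialisation of the centre of a place of `F / K`.

Proof: `𝔸[X]` is integrally closed (Mathlib instance), `B` is an integral extension domain of
`𝔸[X]` (`X ↦ t`, injective as `t` is transcendental), so going down (Mathlib, stacks 00H8) gives a
prime `𝔥 ⊆ 𝔫` of `B` over the prime `(X - c)` (`ttrj_exists_prime`); a valuation ring `W` dominating
`B_𝔥` (`LocalSubring.exists_le_valuationSubring`) does the job: `𝔥 ∩ 𝔸 = 0` puts `K` inside `W`,
`0 ≠ t - c ∈ 𝔥` is a non-unit of `W`, so `W ≠ ⊤`, and `x ∈ B \ 𝔥` is a unit of `B_𝔥 ⊆ W`.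
-/

set_option autoImplicit false
set_option linter.unusedSectionVars false

noncomputable section

namespace Fermat.Agent.TT

open Polynomial Fermat.Agent.S18 IsLocalRing

section

variable {K F : Type*} [Field K] [Field F] [Algebra K F] (𝔸 : ValuationSubring K)
  [Algebra ↥𝔸 F] [IsScalarTower ↥𝔸 K F] (t : F)

theorem ttrj_aeval_mem (p : Polynomial ↥𝔸) : aeval t p ∈ s18tInt ↥𝔸 t := by
  rw [mem_s18tInt]
  have h : aeval t p ∈ s18tChart ↥𝔸 t := by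
    unfold s18tChart
    rw [Algebra.adjoin_singleton_eq_range_aeval]
    exact ⟨p, rfl⟩
  exact (isIntegral_algebraMap (R := ↥(s18tChart ↥𝔸 t)) (A := F) (x := ⟨_, h⟩))

/-- the structure map `𝔸[X] → B`, `X ↦ t` -/
def ttrjPhi : Polynomial ↥𝔸 →+* ↥(s18tInt ↥𝔸 t) :=
  (aeval t : Polynomial ↥𝔸 →ₐ[↥𝔸] F).toRingHom.codRestrict (s18tInt ↥𝔸 t) (ttrj_aeval_mem 𝔸 t)

@[simp] theorem ttrjPhi_coe (p : Polynomial ↥𝔸) : ((ttrjPhi 𝔸 t p : ↥(s18tInt ↥𝔸 t)) : F) = aeval t p :=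
  rfl

theorem ttrj_transcendental (ht : Transcendental K t) : Transcendental ↥𝔸 t :=
  ht.restrictScalars (R := ↥𝔸) (S := K) (A := F) Subtype.val_injective

theorem ttrjPhi_injective (ht : Transcendental K t) : Function.Injective (ttrjPhi 𝔸 t) := by
  intro p q h
  have := congrArg (fun x : ↥(s18tInt ↥𝔸 t) => (x : F)) h
  simp only [ttrjPhi_coe] at this
  exact (transcendental_iff_injective.mp (ttrj_transcendental 𝔸 t ht)) this

/-- every element of `B` is integral over `𝔸[X]` along `ttrjPhi` -/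
theorem ttrjPhi_isIntegral : (ttrjPhi 𝔸 t).IsIntegral := by
  intro x
  obtain ⟨q, hq, hx⟩ := (mem_s18tInt (A := ↥𝔸)).mp x.2
  -- the surjection `𝔸[X] → 𝔸[t]`
  let ψ : Polynomial ↥𝔸 →+* ↥(s18tChart ↥𝔸 t) :=
    (aeval t : Polynomial ↥𝔸 →ₐ[↥𝔸] F).toRingHom.codRestrict (s18tChart ↥𝔸 t).toSubring
      (fun p => by
        show aeval t p ∈ s18tChart ↥𝔸 t
        unfold s18tChart
        rw [Algebra.adjoin_singleton_eq_range_aeval]
        exact ⟨p, rfl⟩)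
  have hψ : Function.Surjective ψ := by
    rintro ⟨y, hy⟩
    have hy' : y ∈ Algebra.adjoin ↥𝔸 {t} := hy
    rw [Algebra.adjoin_singleton_eq_range_aeval] at hy'
    obtain ⟨p, hp⟩ := hy'
    exact ⟨p, Subtype.ext hp⟩
  obtain ⟨q', hq', -, hq'm⟩ :=
    lifts_and_natDegree_eq_and_monic (f := ψ) ((Polynomial.mem_lifts _).mpr
      (Polynomial.map_surjective ψ hψ q)) hq
  refine ⟨q', hq'm, ?_⟩
  apply Subtype.val_injective
  have h1 : ((eval₂ (ttrjPhi 𝔸 t) x q' : ↥(s18tInt ↥𝔸 t)) : F) =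
      eval₂ ((s18tInt ↥𝔸 t).subtype.comp (ttrjPhi 𝔸 t)) (x : F) q' :=
    (Polynomial.hom_eval₂ q' (ttrjPhi 𝔸 t) (s18tInt ↥𝔸 t).subtype x)
  show ((eval₂ (ttrjPhi 𝔸 t) x q' : ↥(s18tInt ↥𝔸 t)) : F) = ((0 : ↥(s18tInt ↥𝔸 t)) : F)
  rw [h1, ZeroMemClass.coe_zero, ← hx, ← hq', Polynomial.eval₂_map]
  rfl

/-- the inverse of a unit of a subring of a field lies in the subring -/
theorem ttrj_inv_mem_of_isUnit (S : Subring F) (a : ↥S) (ha : IsUnit a) : ((a : F))⁻¹ ∈ S := by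
  obtain ⟨u, rfl⟩ := ha
  have h : ((u : ↥S) : F) * (((u⁻¹ : (↥S)ˣ) : ↥S) : F) = 1 := by
    rw [← Subring.coe_mul, Units.mul_inv, Subring.coe_one]
  rw [← eq_inv_of_mul_eq_one_right h]
  exact (((u⁻¹ : (↥S)ˣ) : ↥S)).2

/-- **going down**: a prime of `B` below `𝔫` lying over `(X - c)` -/
theorem ttrj_exists_prime (ht : Transcendental K t) (𝔫 : Ideal ↥(s18tInt ↥𝔸 t)) [𝔫.IsPrime]
    (c : ↥𝔸) (hc : ttrjPhi 𝔸 t (X - C c) ∈ 𝔫) :
    ∃ 𝔥 : Ideal ↥(s18tInt ↥𝔸 t), 𝔥 ≤ 𝔫 ∧ 𝔥.IsPrime ∧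
      ∀ p : Polynomial ↥𝔸, ttrjPhi 𝔸 t p ∈ 𝔥 ↔ (X - C c) ∣ p := by
  let : Algebra (Polynomial ↥𝔸) ↥(s18tInt ↥𝔸 t) := (ttrjPhi 𝔸 t).toAlgebra
  have : FaithfulSMul (Polynomial ↥𝔸) ↥(s18tInt ↥𝔸 t) :=
    (faithfulSMul_iff_algebraMap_injective _ _).mpr (ttrjPhi_injective 𝔸 t ht)
  have : Algebra.IsIntegral (Polynomial ↥𝔸) ↥(s18tInt ↥𝔸 t) := ⟨ttrjPhi_isIntegral 𝔸 t⟩
  have hP : (Ideal.span {(X - C c : Polynomial ↥𝔸)}).IsPrime :=
    (Ideal.span_singleton_prime (X_sub_C_ne_zero c)).mpr (prime_X_sub_C c)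
  have hle : Ideal.span {(X - C c : Polynomial ↥𝔸)} ≤ 𝔫.under (Polynomial ↥𝔸) := by
    rw [Ideal.span_le, Set.singleton_subset_iff]
    exact hc
  obtain ⟨𝔥, h𝔥le, h𝔥p, h𝔥o⟩ :=
    Ideal.exists_ideal_le_liesOver_of_le (p := Ideal.span {(X - C c : Polynomial ↥𝔸)})
      (q := 𝔫.under (Polynomial ↥𝔸)) 𝔫 hle
  refine ⟨𝔥, h𝔥le, h𝔥p, fun p => ?_⟩
  have := h𝔥o.over
  rw [← Ideal.mem_span_singleton, this]
  rfl

/-- **(NODE-PL)**: every prime `𝔫` of `B = s18tInt 𝔸 t` containing `t - c` (`c ∈ 𝔸`) is a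
specialisation of the centre of a place `W` of `F / K`: `B ⊆ W` and `𝔪_W ∩ B ⊆ 𝔫`. -/
theorem ttrj_place (ht : Transcendental K t) (𝔫 : Ideal ↥(s18tInt ↥𝔸 t)) [𝔫.IsPrime]
    (c : ↥𝔸) (y : ↥(s18tInt ↥𝔸 t)) (hy : (y : F) = t - algebraMap K F (c : K)) (hc : y ∈ 𝔫) :
    ∃ W : ValuationSubring F, S18IsPlace K W ∧ (∀ x ∈ s18tInt ↥𝔸 t, x ∈ W) ∧
      (∀ x : ↥(s18tInt ↥𝔸 t), (x : F) ∈ W.nonunits → x ∈ 𝔫) ∧ (y : F) ∈ W.nonunits := by
  have hyφ : y = ttrjPhi 𝔸 t (X - C c) := by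
    apply Subtype.ext
    rw [hy, ttrjPhi_coe, map_sub, aeval_X, aeval_C, IsScalarTower.algebraMap_apply ↥𝔸 K F c]
    rfl
  obtain ⟨𝔥, h𝔥le, h𝔥p, h𝔥⟩ := ttrj_exists_prime 𝔸 t ht 𝔫 c (hyφ ▸ hc)
  have := h𝔥p
  obtain ⟨W, hW, hWloc⟩ := (LocalSubring.ofPrime (s18tInt ↥𝔸 t) 𝔥).exists_le_valuationSubring
  have hBW : ∀ x ∈ s18tInt ↥𝔸 t, x ∈ W := fun x hx =>
    hW (LocalSubring.le_ofPrime (s18tInt ↥𝔸 t) 𝔥 hx)
  -- elements of `B` outside `𝔥` are units of `W`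
  have hunit : ∀ x : ↥(s18tInt ↥𝔸 t), x ∉ 𝔥 → ((x : F))⁻¹ ∈ W := fun x hx => by
    have h1 : IsUnit (algebraMap ↥(s18tInt ↥𝔸 t)
        ↥(LocalSubring.ofPrime (s18tInt ↥𝔸 t) 𝔥).toSubring x) :=
      IsLocalization.map_units (M := 𝔥.primeCompl) _ ⟨x, hx⟩
    exact hW (ttrj_inv_mem_of_isUnit _ _ h1)
  have hy𝔥 : y ∈ 𝔥 := by rw [hyφ, h𝔥]
  have hy0 : (y : F) ≠ 0 := by
    rw [hy]
    intro h0
    apply ht
    rw [sub_eq_zero.mp h0]
    exact isAlgebraic_algebraMap _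
  -- `y` is a non-unit of `W`
  have hynu : (y : F) ∈ W.nonunits := by
    rw [ValuationSubring.mem_nonunits_iff_or]
    right
    intro hinv
    -- then the image of `y` in `W` is a unit, so `y` is a unit of `B_𝔥`
    have hmem : algebraMap ↥(s18tInt ↥𝔸 t)
        ↥(LocalSubring.ofPrime (s18tInt ↥𝔸 t) 𝔥).toSubring y ∈
        IsLocalRing.maximalIdeal ↥(LocalSubring.ofPrime (s18tInt ↥𝔸 t) 𝔥).toSubring :=
      (IsLocalization.AtPrime.to_map_mem_maximal_iff _ 𝔥 y).mpr hy𝔥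
    have hu : IsUnit (Subring.inclusion hW (algebraMap ↥(s18tInt ↥𝔸 t)
        ↥(LocalSubring.ofPrime (s18tInt ↥𝔸 t) 𝔥).toSubring y)) := by
      refine isUnit_iff_exists_inv.mpr ⟨⟨((y : F))⁻¹, hinv⟩, ?_⟩
      apply Subtype.ext
      show (y : F) * ((y : F))⁻¹ = 1
      exact mul_inv_cancel₀ hy0
    exact hmem (hWloc.map_nonunit _ hu)
  refine ⟨W, ⟨?_, fun a => ?_⟩, hBW, fun x hx => ?_, hynu⟩
  · -- `W ≠ ⊤`
    rintro rfl
    rw [ValuationSubring.mem_nonunits_iff_or] at hynu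
    rcases hynu with h | h
    · exact hy0 h
    · exact h (ValuationSubring.mem_top _)
  · -- `K ⊆ W`
    have hA : ∀ b : ↥𝔸, algebraMap K F (b : K) ∈ s18tInt ↥𝔸 t := fun b => by
      have := ttrj_aeval_mem 𝔸 t (C b)
      rwa [aeval_C, IsScalarTower.algebraMap_apply ↥𝔸 K F b] at this
    rcases 𝔸.mem_or_inv_mem a with ha | ha
    · exact hBW _ (hA ⟨a, ha⟩)
    · by_cases ha0 : a = 0
      · rw [ha0, map_zero]; exact W.zero_mem
      have hb : (⟨_, hA ⟨a⁻¹, ha⟩⟩ : ↥(s18tInt ↥𝔸 t)) ∉ 𝔥 := by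
        have h2 : (⟨_, hA ⟨a⁻¹, ha⟩⟩ : ↥(s18tInt ↥𝔸 t)) = ttrjPhi 𝔸 t (C ⟨a⁻¹, ha⟩) := by
          apply Subtype.ext
          rw [ttrjPhi_coe, aeval_C, IsScalarTower.algebraMap_apply ↥𝔸 K F]
          rfl
        rw [h2, h𝔥, dvd_iff_isRoot, IsRoot.def, eval_C]
        intro h0
        have : a⁻¹ = 0 := congrArg Subtype.val h0
        exact ha0 (inv_eq_zero.mp this)
      have := hunit _ hb
      simpa using this
  · -- the centre
    by_contra hx𝔫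
    have hx𝔥 : x ∉ 𝔥 := fun h => hx𝔫 (h𝔥le h)
    have hinv := hunit x hx𝔥
    rw [ValuationSubring.mem_nonunits_iff_or] at hx
    rcases hx with h | h
    · apply hx𝔥
      have : x = 0 := Subtype.ext h
      rw [this]
      exact 𝔥.zero_mem
    · exact h hinv

end

section Abs

variable {K F : Type*} [Field K] [Field F] [Algebra K F] (𝔸 : ValuationSubring K) (t : F)

/-- the evaluation `𝔸[X] → F`, `X ↦ t` (no `Algebra ↥𝔸 F` instance needed) -/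
def ttrjHom : Polynomial ↥𝔸 →+* F :=
  Polynomial.eval₂RingHom ((algebraMap K F).comp 𝔸.subtype) t

theorem ttrjHom_apply (p : Polynomial ↥𝔸) :
    ttrjHom 𝔸 t p = aeval t (p.map 𝔸.subtype) := by
  unfold ttrjHom
  rw [coe_eval₂RingHom, aeval_def, eval₂_map]

theorem ttrjHom_injective (ht : Transcendental K t) : Function.Injective (ttrjHom 𝔸 t) := by
  intro p q h
  rw [ttrjHom_apply, ttrjHom_apply] at h
  exact Polynomial.map_injective _ Subtype.val_injective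
    ((transcendental_iff_injective.mp ht) h)

variable (B : Subring F) (hB : ∀ x, x ∈ B ↔ (ttrjHom 𝔸 t).IsIntegralElem x)

include hB in
theorem ttrj_hom_mem (p : Polynomial ↥𝔸) : ttrjHom 𝔸 t p ∈ B :=
  (hB _).mpr (RingHom.isIntegralElem_map _)

/-- the structure map `𝔸[X] → B` -/
def ttrjPhiB : Polynomial ↥𝔸 →+* ↥B :=
  (ttrjHom 𝔸 t).codRestrict B (ttrj_hom_mem 𝔸 t B hB)

theorem ttrjPhiB_coe (p : Polynomial ↥𝔸) : ((ttrjPhiB 𝔸 t B hB p : ↥B) : F) = ttrjHom 𝔸 t p :=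
  rfl

theorem ttrjPhiB_injective (ht : Transcendental K t) :
    Function.Injective (ttrjPhiB 𝔸 t B hB) := by
  intro p q h
  have := congrArg (fun x : ↥B => (x : F)) h
  simp only [ttrjPhiB_coe] at this
  exact ttrjHom_injective 𝔸 t ht this

theorem ttrjPhiB_isIntegral : (ttrjPhiB 𝔸 t B hB).IsIntegral := by
  intro x
  obtain ⟨q, hq, hx⟩ := (hB _).mp x.2
  refine ⟨q, hq, ?_⟩
  apply Subtype.val_injective
  have h1 : ((eval₂ (ttrjPhiB 𝔸 t B hB) x q : ↥B) : F) =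
      eval₂ (B.subtype.comp (ttrjPhiB 𝔸 t B hB)) (x : F) q :=
    (Polynomial.hom_eval₂ q (ttrjPhiB 𝔸 t B hB) B.subtype x)
  show ((eval₂ (ttrjPhiB 𝔸 t B hB) x q : ↥B) : F) = ((0 : ↥B) : F)
  rw [h1, ZeroMemClass.coe_zero, ← hx]
  rfl

/-- **going down**, abstract chart ring -/
theorem ttrj_exists_prime_abs (ht : Transcendental K t) (𝔫 : Ideal ↥B) [𝔫.IsPrime]
    (c : ↥𝔸) (hc : ttrjPhiB 𝔸 t B hB (X - C c) ∈ 𝔫) :
    ∃ 𝔥 : Ideal ↥B, 𝔥 ≤ 𝔫 ∧ 𝔥.IsPrime ∧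
      ∀ p : Polynomial ↥𝔸, ttrjPhiB 𝔸 t B hB p ∈ 𝔥 ↔ (X - C c) ∣ p := by
  let : Algebra (Polynomial ↥𝔸) ↥B := (ttrjPhiB 𝔸 t B hB).toAlgebra
  have : FaithfulSMul (Polynomial ↥𝔸) ↥B :=
    (faithfulSMul_iff_algebraMap_injective _ _).mpr (ttrjPhiB_injective 𝔸 t B hB ht)
  have : Algebra.IsIntegral (Polynomial ↥𝔸) ↥B := ⟨ttrjPhiB_isIntegral 𝔸 t B hB⟩
  have hP : (Ideal.span {(X - C c : Polynomial ↥𝔸)}).IsPrime :=
    (Ideal.span_singleton_prime (X_sub_C_ne_zero c)).mpr (prime_X_sub_C c)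
  have hle : Ideal.span {(X - C c : Polynomial ↥𝔸)} ≤ 𝔫.under (Polynomial ↥𝔸) := by
    rw [Ideal.span_le, Set.singleton_subset_iff]
    exact hc
  obtain ⟨𝔥, h𝔥le, h𝔥p, h𝔥o⟩ :=
    Ideal.exists_ideal_le_liesOver_of_le (p := Ideal.span {(X - C c : Polynomial ↥𝔸)})
      (q := 𝔫.under (Polynomial ↥𝔸)) 𝔫 hle
  refine ⟨𝔥, h𝔥le, h𝔥p, fun p => ?_⟩
  have := h𝔥o.over
  rw [← Ideal.mem_span_singleton, this]
  rfl

include hB in
/-- **(NODE-PL), abstract chart ring** `B = {x | x integral over 𝔸[t]}` (e.g. main's `grdB N A u`) -/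
theorem ttrj_place_abs (ht : Transcendental K t) (𝔫 : Ideal ↥B) [𝔫.IsPrime]
    (c : ↥𝔸) (y : ↥B) (hy : (y : F) = t - algebraMap K F (c : K)) (hc : y ∈ 𝔫) :
    ∃ W : ValuationSubring F, W ≠ ⊤ ∧ (∀ a : K, algebraMap K F a ∈ W) ∧ (∀ x ∈ B, x ∈ W) ∧
      (∀ x : ↥B, (x : F) ∈ W.nonunits → x ∈ 𝔫) ∧ (y : F) ∈ W.nonunits := by
  have hyφ : y = ttrjPhiB 𝔸 t B hB (X - C c) := by
    apply Subtype.ext
    rw [hy, ttrjPhiB_coe, ttrjHom_apply, Polynomial.map_sub, map_X, map_C, map_sub, aeval_X,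
      aeval_C]
    rfl
  obtain ⟨𝔥, h𝔥le, h𝔥p, h𝔥⟩ := ttrj_exists_prime_abs 𝔸 t B hB ht 𝔫 c (hyφ ▸ hc)
  have := h𝔥p
  obtain ⟨W, hW, hWloc⟩ := (LocalSubring.ofPrime B 𝔥).exists_le_valuationSubring
  have hBW : ∀ x ∈ B, x ∈ W := fun x hx => hW (LocalSubring.le_ofPrime B 𝔥 hx)
  -- elements of `B` outside `𝔥` are units of `W`
  have hunit : ∀ x : ↥B, x ∉ 𝔥 → ((x : F))⁻¹ ∈ W := fun x hx => by
    have h1 : IsUnit (algebraMap ↥B ↥(LocalSubring.ofPrime B 𝔥).toSubring x) :=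
      IsLocalization.map_units (M := 𝔥.primeCompl) _ ⟨x, hx⟩
    exact hW (ttrj_inv_mem_of_isUnit _ _ h1)
  have hy𝔥 : y ∈ 𝔥 := by rw [hyφ, h𝔥]
  have hy0 : (y : F) ≠ 0 := by
    rw [hy]
    intro h0
    apply ht
    rw [sub_eq_zero.mp h0]
    exact isAlgebraic_algebraMap _
  -- `y` is a non-unit of `W`
  have hynu : (y : F) ∈ W.nonunits := by
    rw [ValuationSubring.mem_nonunits_iff_or]
    right
    intro hinv
    have hmem : algebraMap ↥B ↥(LocalSubring.ofPrime B 𝔥).toSubring y ∈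
        IsLocalRing.maximalIdeal ↥(LocalSubring.ofPrime B 𝔥).toSubring :=
      (IsLocalization.AtPrime.to_map_mem_maximal_iff _ 𝔥 y).mpr hy𝔥
    have hu : IsUnit (Subring.inclusion hW
        (algebraMap ↥B ↥(LocalSubring.ofPrime B 𝔥).toSubring y)) := by
      refine isUnit_iff_exists_inv.mpr ⟨⟨((y : F))⁻¹, hinv⟩, ?_⟩
      apply Subtype.ext
      show (y : F) * ((y : F))⁻¹ = 1
      exact mul_inv_cancel₀ hy0
    exact hmem (hWloc.map_nonunit _ hu)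
  refine ⟨W, ?_, fun a => ?_, hBW, fun x hx => ?_, hynu⟩
  · -- `W ≠ ⊤`
    rintro rfl
    rw [ValuationSubring.mem_nonunits_iff_or] at hynu
    rcases hynu with h | h
    · exact hy0 h
    · exact h (ValuationSubring.mem_top _)
  · -- `K ⊆ W`
    have hA : ∀ b : ↥𝔸, algebraMap K F (b : K) ∈ B := fun b => by
      have := ttrj_hom_mem 𝔸 t B hB (C b)
      rwa [ttrjHom_apply, map_C, aeval_C] at this
    rcases 𝔸.mem_or_inv_mem a with ha | ha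
    · exact hBW _ (hA ⟨a, ha⟩)
    · by_cases ha0 : a = 0
      · rw [ha0, map_zero]; exact W.zero_mem
      have hb : (⟨_, hA ⟨a⁻¹, ha⟩⟩ : ↥B) ∉ 𝔥 := by
        have h2 : (⟨_, hA ⟨a⁻¹, ha⟩⟩ : ↥B) = ttrjPhiB 𝔸 t B hB (C ⟨a⁻¹, ha⟩) := by
          apply Subtype.ext
          rw [ttrjPhiB_coe, ttrjHom_apply, map_C, aeval_C]
          rfl
        rw [h2, h𝔥, dvd_iff_isRoot, IsRoot.def, eval_C]
        intro h0
        have : a⁻¹ = 0 := congrArg Subtype.val h0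
        exact ha0 (inv_eq_zero.mp this)
      have := hunit _ hb
      simpa using this
  · -- the centre
    by_contra hx𝔫
    have hx𝔥 : x ∉ 𝔥 := fun h => hx𝔫 (h𝔥le h)
    have hinv := hunit x hx𝔥
    rw [ValuationSubring.mem_nonunits_iff_or] at hx
    rcases hx with h | h
    · apply hx𝔥
      have : x = 0 := Subtype.ext h
      rw [this]
      exact 𝔥.zero_mem
    · exact h hinv

/-- helper19's literal (3848) -/
theorem ttrj_place_abs' (ht : Transcendental K t)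
    (hB' : ∀ x, x ∈ B ↔
      (Polynomial.eval₂RingHom ((algebraMap K F).comp 𝔸.subtype) t).IsIntegralElem x)
    (𝔫 : Ideal ↥B) [𝔫.IsPrime] (c : ↥𝔸)
    (hc : ∀ h : t - algebraMap K F (c : K) ∈ B, (⟨_, h⟩ : ↥B) ∈ 𝔫) :
    ∃ W : ValuationSubring F, W ≠ ⊤ ∧ (∀ a : K, algebraMap K F a ∈ W) ∧ (∀ x ∈ B, x ∈ W) ∧
      ∀ x : ↥B, (x : F) ∈ W.nonunits → x ∈ 𝔫 := by
  have hmem : t - algebraMap K F (c : K) ∈ B := by
    have := ttrj_hom_mem 𝔸 t B hB' (X - C c)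
    rwa [ttrjHom_apply, Polynomial.map_sub, map_X, map_C, map_sub, aeval_X, aeval_C] at this
  obtain ⟨W, h1, h2, h3, h4, -⟩ := ttrj_place_abs 𝔸 t B hB' ht 𝔫 c ⟨_, hmem⟩ rfl (hc hmem)
  exact ⟨W, h1, h2, h3, h4⟩

end Abs

section ExistsC

/-- a maximal ideal of `R[X]` containing `𝔪_R` contains some `X - c` when the residue field is
algebraically closed -/
theorem ttrj_exists_c_poly {R : Type*} [CommRing R] [IsLocalRing R] [IsAlgClosed (ResidueField R)]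
    (𝔮 : Ideal (Polynomial R)) [h𝔮 : 𝔮.IsMaximal]
    (h𝔪 : ∀ a : R, a ∈ maximalIdeal R → C a ∈ 𝔮) : ∃ c : R, X - C c ∈ 𝔮 := by
  set π : Polynomial R →+* Polynomial (ResidueField R) := Polynomial.mapRingHom (residue R) with hπ
  have hsurj : Function.Surjective π := Polynomial.map_surjective _ IsLocalRing.residue_surjective
  -- the kernel of `π` lies in `𝔮`
  have hker : Ideal.comap π ⊥ ≤ 𝔮 := by
    intro p hp
    rw [Ideal.mem_comap, Ideal.mem_bot] at hp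
    refine Ideal.polynomial_mem_ideal_of_coeff_mem_ideal 𝔮 p fun n => ?_
    rw [Ideal.mem_comap]
    apply h𝔪
    have := congrArg (fun q : Polynomial (ResidueField R) => q.coeff n) hp
    simp only [hπ, coe_mapRingHom, coeff_map, coeff_zero] at this
    rwa [IsLocalRing.residue_eq_zero_iff] at this
  have hcm : Ideal.comap π (Ideal.map π 𝔮) = 𝔮 := by
    rw [Ideal.comap_map_of_surjective π hsurj, sup_eq_left]
    exact hker
  -- the image of `𝔮` is a maximal ideal of `k[X]`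
  have hmax : (Ideal.map π 𝔮).IsMaximal := by
    rcases Ideal.map_eq_top_or_isMaximal_of_surjective π hsurj h𝔮 with h | h
    · exfalso
      apply h𝔮.ne_top
      rw [← hcm, h, Ideal.comap_top]
    · exact h
  -- it is generated by some `g` with a root
  obtain ⟨g, hg⟩ := (IsPrincipalIdealRing.principal (Ideal.map π 𝔮)).principal
  have hg' : Ideal.map π 𝔮 = Ideal.span {g} := hg
  have hdeg : g.degree ≠ 0 := fun h => by
    apply hmax.ne_top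
    rw [hg', Ideal.span_singleton_eq_top]
    exact Polynomial.isUnit_iff_degree_eq_zero.mpr h
  obtain ⟨r, hr⟩ := IsAlgClosed.exists_root g hdeg
  have hle : Ideal.map π 𝔮 ≤ Ideal.span {(X - C r : Polynomial (ResidueField R))} := by
    rw [hg', Ideal.span_singleton_le_span_singleton]
    exact dvd_iff_isRoot.mpr hr
  have hne : Ideal.span {(X - C r : Polynomial (ResidueField R))} ≠ ⊤ := by
    rw [Ne, Ideal.span_singleton_eq_top]
    exact Polynomial.not_isUnit_X_sub_C r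
  have heq := hmax.eq_of_le hne hle
  obtain ⟨c, rfl⟩ := IsLocalRing.residue_surjective r
  refine ⟨c, ?_⟩
  rw [← hcm, Ideal.mem_comap, heq]
  have : π (X - C c) = X - C (residue R c) := by
    simp [hπ]
  rw [this]
  exact Ideal.mem_span_singleton_self _

end ExistsC

section AbsMax

variable {K F : Type*} [Field K] [Field F] [Algebra K F] (𝔸 : ValuationSubring K) (t : F)
variable (B : Subring F) (hB : ∀ x, x ∈ B ↔ (ttrjHom 𝔸 t).IsIntegralElem x)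

/-- every closed point of the special fibre of `B` lies over some `t = c` -/
theorem ttrj_exists_c [IsAlgClosed (ResidueField ↥𝔸)] (𝔫 : Ideal ↥B) [𝔫.IsMaximal]
    (h𝔪 : ∀ a : ↥𝔸, a ∈ maximalIdeal ↥𝔸 → ttrjPhiB 𝔸 t B hB (C a) ∈ 𝔫) :
    ∃ c : ↥𝔸, ttrjPhiB 𝔸 t B hB (X - C c) ∈ 𝔫 := by
  have : (𝔫.comap (ttrjPhiB 𝔸 t B hB)).IsMaximal :=
    Ideal.isMaximal_comap_of_isIntegral_of_isMaximal' _ (ttrjPhiB_isIntegral 𝔸 t B hB) 𝔫
  exact ttrj_exists_c_poly (𝔫.comap (ttrjPhiB 𝔸 t B hB)) h𝔪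

include hB in
/-- **(NODE-PL) for every closed point of the special fibre** -/
theorem ttrj_place_max [IsAlgClosed (ResidueField ↥𝔸)] (ht : Transcendental K t)
    (𝔫 : Ideal ↥B) [𝔫.IsMaximal]
    (h𝔪 : ∀ a : ↥𝔸, a ∈ maximalIdeal ↥𝔸 →
      ∀ h : algebraMap K F (a : K) ∈ B, (⟨_, h⟩ : ↥B) ∈ 𝔫) :
    ∃ W : ValuationSubring F, W ≠ ⊤ ∧ (∀ a : K, algebraMap K F a ∈ W) ∧ (∀ x ∈ B, x ∈ W) ∧
      ∀ x : ↥B, (x : F) ∈ W.nonunits → x ∈ 𝔫 := by
  have h𝔪' : ∀ a : ↥𝔸, a ∈ maximalIdeal ↥𝔸 → ttrjPhiB 𝔸 t B hB (C a) ∈ 𝔫 := fun a ha => by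
    have hmem : algebraMap K F (a : K) ∈ B := by
      have := ttrj_hom_mem 𝔸 t B hB (C a)
      rwa [ttrjHom_apply, map_C, aeval_C] at this
    have h2 : ttrjPhiB 𝔸 t B hB (C a) = ⟨_, hmem⟩ := by
      apply Subtype.ext
      rw [ttrjPhiB_coe, ttrjHom_apply, map_C, aeval_C]
      rfl
    rw [h2]
    exact h𝔪 a ha hmem
  obtain ⟨c, hc⟩ := ttrj_exists_c 𝔸 t B hB 𝔫 h𝔪'
  have hy : ((ttrjPhiB 𝔸 t B hB (X - C c) : ↥B) : F) = t - algebraMap K F (c : K) := by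
    rw [ttrjPhiB_coe, ttrjHom_apply, Polynomial.map_sub, map_X, map_C, map_sub, aeval_X, aeval_C]
    rfl
  obtain ⟨W, h1, h2, h3, h4, -⟩ := ttrj_place_abs 𝔸 t B hB ht 𝔫 c _ hy hc
  exact ⟨W, h1, h2, h3, h4⟩

end AbsMax

end Fermat.Agent.TT
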