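import Mathlib
import Fermat.Agent.TT.Red2.NodePlace
import Fermat.Agent.G.Red.Gauss
import Fermat.Agent.SS.Dict.Place

/-!
# Program TT (S33), (NODE) ascent: (NODE-PL) at main's chart ring `grdB N A u`

Owner: helper25.  Namespace `Fermat.Agent.TT`, prefix `ttrj`.

`ttrj_place_grdB` : for `A` a valuation subring of `ℚ̄`, `u ∈ F_ℚ̄(N)` transcendental over `ℚ̄` and
`𝔫` a MAXIMAL ideal of `grdB N A u` containing `𝔪_A`, there is a genuine
`P : Place ℚ̄ F_ℚ̄(N)` with `grdB N A u ⊆ O_P` and `𝔪_P ∩ grdB N A u ⊆ 𝔫`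
(`ttrj_place_max` of `NodePlace.lean` + main's `grd_isAlgClosed_residue` + `ssd_weak_place_bar`).
`ttrj_place_grdB_c` : the same for a PRIME `𝔫` containing a given `u - c`, `c ∈ A`, and then
`u - c ∈ 𝔪_P`.
-/

set_option autoImplicit false
set_option linter.unusedSectionVars false

noncomputable section

namespace Fermat.Agent.TT

open ModularCurve AlgebraicCurve IsLocalRing Polynomial Fermat.Agent.S18 Fermat.Agent.G
  Fermat.Agent.SS

variable (N : ℕ) [NeZero N] (A : ValuationSubring (AlgebraicClosure ℚ))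
  (u : modularFunctionFieldBar N)

/-- **(NODE-PL) at `grdB N A u`**: every closed point of the special fibre is a specialisation of
the centre of a place of `F_ℚ̄(N)`. -/
theorem ttrj_place_grdB (ht : Transcendental (AlgebraicClosure ℚ) u)
    (𝔫 : Ideal ↥(grdB N A u)) [𝔫.IsMaximal]
    (h𝔪 : ∀ a : ↥A, a ∈ maximalIdeal ↥A →
      ∀ h : algebraMap (AlgebraicClosure ℚ) (modularFunctionFieldBar N) (a : AlgebraicClosure ℚ) ∈
        grdB N A u, (⟨_, h⟩ : ↥(grdB N A u)) ∈ 𝔫) :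
    ∃ P : Place (AlgebraicClosure ℚ) (modularFunctionFieldBar N),
      (∀ x ∈ grdB N A u, x ∈ P.toValuationSubring) ∧
      ∀ x : ↥(grdB N A u), (x : modularFunctionFieldBar N) ∈ P.toValuationSubring.nonunits →
        x ∈ 𝔫 := by
  have : IsAlgClosed (ResidueField ↥A) := grd_isAlgClosed_residue A
  obtain ⟨W, h1, h2, h3, h4⟩ :=
    ttrj_place_max A u (grdB N A u) (fun _ => Iff.rfl) ht 𝔫 h𝔪
  obtain ⟨P, rfl⟩ := ssd_weak_place_bar N W ⟨h1, h2⟩
  exact ⟨P, h3, h4⟩

/-- the same for a prime `𝔫` containing a given `u - c` -/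
theorem ttrj_place_grdB_c (ht : Transcendental (AlgebraicClosure ℚ) u)
    (𝔫 : Ideal ↥(grdB N A u)) [𝔫.IsPrime] (c : ↥A) (y : ↥(grdB N A u))
    (hy : (y : modularFunctionFieldBar N) =
      u - algebraMap (AlgebraicClosure ℚ) (modularFunctionFieldBar N) (c : AlgebraicClosure ℚ))
    (hc : y ∈ 𝔫) :
    ∃ P : Place (AlgebraicClosure ℚ) (modularFunctionFieldBar N),
      (∀ x ∈ grdB N A u, x ∈ P.toValuationSubring) ∧
      (∀ x : ↥(grdB N A u), (x : modularFunctionFieldBar N) ∈ P.toValuationSubring.nonunits →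
        x ∈ 𝔫) ∧ (y : modularFunctionFieldBar N) ∈ P.toValuationSubring.nonunits := by
  obtain ⟨W, h1, h2, h3, h4, h5⟩ :=
    ttrj_place_abs A u (grdB N A u) (fun _ => Iff.rfl) ht 𝔫 c y hy hc
  obtain ⟨P, rfl⟩ := ssd_weak_place_bar N W ⟨h1, h2⟩
  exact ⟨P, h3, h4, h5⟩

end Fermat.Agent.TT
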