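/-
(NODE), THE ASCENT INSTANTIATED (prefix `ttrn`): the three sub-leaves of `ttrn_T_bar` are
discharged (helper25 `ttrj_place_grdB`, helper3 `ttrr_rational'`, helper18 `ttrt_eq_V₁/V₂`) and the
germ / two-valuation inputs are taken from main's Program S for the two finite charts
`t = j` (`q ≥ 5`, `ss_germJ`) and `t = h_a` (`q ∈ {2, 3}`, `ss_germH`).

* `ttrn_PL`, `ttrn_RAT`, `ttrn_TWO` : the three sub-leaf Props;
* `ttrn_T_chart` : `ttrn_T_bar` with the three sub-leaves discharged;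
* `ttrn_T_j`     : (T) for `B = grdB (M q) A j` at every closed point on both components;
* `ttrn_T_h`     : the same for `B = grdB (M q) A h_a`.

The two valuation rings `V1`, `V2` stay abstract: `TtrnGauss` (above the Gauss valuation of
`ℚ̄(t)`) and (HV4) `Y - J^q ∈ 𝔪_{V1}`, `Y^q - J ∈ 𝔪_{V2}`.
-/
import Mathlib
import Fermat.Agent.TT.Red2.NodeAscent
import Fermat.Agent.TT.Red2.NodePlaceInst
import Fermat.Agent.TT.Red2.NodeRat
import Fermat.Agent.TT.Red2.NodeTwo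
import Fermat.Agent.SS.Germ.Close
import Fermat.Agent.SS.Germ.ModSingle
import Fermat.Agent.G.Red.InstSmall

set_option autoImplicit false
set_option linter.unusedSectionVars false
set_option linter.unusedVariables false
set_option linter.style.haveILetI false
set_option synthInstance.maxHeartbeats 400000

noncomputable section

namespace Fermat.Agent.TT

open ModularCurve AlgebraicCurve IsLocalRing Polynomial IntermediateField Fermat.Agent.S18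
  Fermat.Agent.S24 Fermat.Agent.G Fermat.Agent.SS

local notation "Qb" => AlgebraicClosure ℚ

section SubLeaves

variable (N : ℕ) [NeZero N] (A : ValuationSubring Qb)
variable {υ : LaurentSeries ℤ} (hυ : GrdSerMem N υ)

/-- (NODE-PL), from helper25's `ttrj_place_grdB`. -/
theorem ttrn_PL (htr : Transcendental Qb (grdQ N hυ)) : TtrnPL N A hυ := by
  intro 𝔫 h𝔫 hm
  haveI := h𝔫
  exact ttrj_place_grdB N A (grdQ N hυ) htr 𝔫 (fun a ha h => hm a ha)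

/-- (ASC-RAT), from helper3's `ttrr_rational'`. -/
theorem ttrn_RAT : TtrnRAT N A hυ := by
  intro R hBR 𝔫 h𝔫 hRc hm
  haveI := h𝔫
  exact ttrr_rational' N A hυ R hBR 𝔫 hRc (fun a ha => hm a ha)

/-- (ASC-TWO), from helper18's `ttrt_eq_V₁`, `ttrt_eq_V₂`. -/
theorem ttrn_TWO : TtrnTWO N A hυ := by
  intro V hV E _ _ _ _ ϖ hϖ u₁ u₂ W₁ W₂ two
  exact ⟨fun hu => ttrt_eq_V₁ N A E hυ V hV.const_mem hV.coord_mem hV.max_mem hV.unit hϖ two hu,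
    fun hu => ttrt_eq_V₂ N A E hυ V hV.const_mem hV.coord_mem hV.max_mem hV.unit hϖ two hu⟩

end SubLeaves

variable {N : ℕ} [NeZero N] {A : ValuationSubring Qb}
variable {υ : LaurentSeries ℤ} (hυ : GrdSerMem N υ)

/-- **`ttrn_T_bar` with the three sub-leaves discharged.** -/
theorem ttrn_T_chart {ℓ : ℕ} [Fact ℓ.Prime] (hA : A.LiesOverPrime ℓ)
    (V1 V2 : ValuationSubring ↥(modularFunctionFieldBar N))
    (hV1 : TtrnGauss N A hυ V1) (hV2 : TtrnGauss N A hυ V2)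
    (htrQ : Transcendental Qb (grdQ N hυ))
    (htr : ∀ E : IntermediateField ℚ Qb, Transcendental E (ttrnTE N E hυ))
    (hfd : ∀ E : IntermediateField ℚ Qb,
      FiniteDimensional E⟮ttrnTE N E hυ⟯ (modularFunctionFieldFullC E N))
    (hgerm : ∃ (E₁ : IntermediateField ℚ Qb) (_ : FiniteDimensional ℚ E₁),
      ∀ (E : IntermediateField ℚ Qb) [FiniteDimensional ℚ E] [Normal ℚ E]
        [IsDiscreteValuationRing ↥(s18dVal A E)] [CharZero ↥(s18dVal A E)], E₁ ≤ E →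
        SsGermAll N A E (ttrnTE N E hυ))
    (u₁ u₂ : ∀ E : IntermediateField ℚ Qb, ↥(modularFunctionFieldFullC E N))
    (hu₁ : ∀ E, ssdUp E N (u₁ E) ∈ V1.nonunits) (hu₂ : ∀ E, ssdUp E N (u₂ E) ∈ V2.nonunits)
    (htwo : ∀ (E : IntermediateField ℚ Qb) [FiniteDimensional ℚ E] [Normal ℚ E]
      [IsDiscreteValuationRing ↥(s18dVal A E)] [CharZero ↥(s18dVal A E)]
      (ϖ : ↥(s18dVal A E)) (hϖ : Irreducible ϖ),
      ∃ W₁ W₂ : ValuationSubring ↥(modularFunctionFieldFullC E N),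
        SsvTwo hϖ (ttrnTE N E hυ) (u₁ E) (u₂ E) W₁ W₂)
    (𝔫 : Ideal ↥(grdB N A (grdQ N hυ))) (h𝔫 : 𝔫.IsMaximal)
    (h𝔭₁ : ∀ x : ↥(grdB N A (grdQ N hυ)),
      (x : ↥(modularFunctionFieldBar N)) ∈ V1.nonunits → x ∈ 𝔫)
    (h𝔭₂ : ∀ x : ↥(grdB N A (grdQ N hυ)),
      (x : ↥(modularFunctionFieldBar N)) ∈ V2.nonunits → x ∈ 𝔫)
    (x : ↥(grdB N A (grdQ N hυ))) (hx : x ∈ 𝔫) :
    ∃ s : ↥(grdB N A (grdQ N hυ)), s ∉ 𝔫 ∧ ∃ y₁ y₂ : ↥(grdB N A (grdQ N hυ)),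
      (y₁ : ↥(modularFunctionFieldBar N)) ∈ V1.nonunits ∧
      (y₂ : ↥(modularFunctionFieldBar N)) ∈ V2.nonunits ∧ s * x = y₁ + y₂ :=
  ttrn_T_bar hυ hA V1 V2 hV1 hV2 (ttrn_PL N A hυ htrQ) (ttrn_RAT N A hυ) (ttrn_TWO N A hυ)
    htr hfd hgerm u₁ u₂ hu₁ hu₂ htwo 𝔫 h𝔫 h𝔭₁ h𝔭₂ x hx

section J

variable (M : ℕ) [NeZero M] (q : ℕ) [Fact q.Prime] [NeZero q]

/-- the `E`-form of the chart coordinate `j`. -/
theorem ttrn_TE_j (E : IntermediateField ℚ Qb) (h : GrdSerMem (M * q) (jqModC ℤ)) :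
    ttrnTE (M * q) E h = ssdJ E (M * q) :=
  Subtype.ext (grdi_grdSer_j E)

/-- **(T) for the chart `j` at level `M q`, `q ≥ 5`.** -/
theorem ttrn_T_j (hqM : ¬ q ∣ M) (h5 : 5 ≤ q) (A : ValuationSubring Qb) (hA : A.LiesOverPrime q)
    (V1 V2 : ValuationSubring ↥(modularFunctionFieldBar (M * q)))
    (hV1 : TtrnGauss (M * q) A (grdi_mem_j (M * q)) V1)
    (hV2 : TtrnGauss (M * q) A (grdi_mem_j (M * q)) V2)
    (hu₁ : ∀ E : IntermediateField ℚ Qb,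
      ssdUp E (M * q) (ssvmmY E M q - ssvmdJ E (M * q) ^ q) ∈ V1.nonunits)
    (hu₂ : ∀ E : IntermediateField ℚ Qb,
      ssdUp E (M * q) (ssvmmY E M q ^ q - ssvmdJ E (M * q)) ∈ V2.nonunits)
    (𝔫 : Ideal ↥(grdB (M * q) A (grdQ (M * q) (grdi_mem_j (M * q))))) (h𝔫 : 𝔫.IsMaximal)
    (h𝔭₁ : ∀ x : ↥(grdB (M * q) A (grdQ (M * q) (grdi_mem_j (M * q)))),
      (x : ↥(modularFunctionFieldBar (M * q))) ∈ V1.nonunits → x ∈ 𝔫)
    (h𝔭₂ : ∀ x : ↥(grdB (M * q) A (grdQ (M * q) (grdi_mem_j (M * q)))),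
      (x : ↥(modularFunctionFieldBar (M * q))) ∈ V2.nonunits → x ∈ 𝔫)
    (x : ↥(grdB (M * q) A (grdQ (M * q) (grdi_mem_j (M * q))))) (hx : x ∈ 𝔫) :
    ∃ s : ↥(grdB (M * q) A (grdQ (M * q) (grdi_mem_j (M * q)))), s ∉ 𝔫 ∧
      ∃ y₁ y₂ : ↥(grdB (M * q) A (grdQ (M * q) (grdi_mem_j (M * q)))),
        (y₁ : ↥(modularFunctionFieldBar (M * q))) ∈ V1.nonunits ∧
        (y₂ : ↥(modularFunctionFieldBar (M * q))) ∈ V2.nonunits ∧ s * x = y₁ + y₂ := by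
  have hmem := grdi_mem_j (M * q)
  refine ttrn_T_chart hmem hA V1 V2 hV1 hV2 (grdi_sepQ_j (M * q) hmem).transcendental
    (fun E => ?_) (fun E => ?_) ?_
    (fun E => ssvmmY E M q - ssvmdJ E (M * q) ^ q) (fun E => ssvmmY E M q ^ q - ssvmdJ E (M * q))
    hu₁ hu₂ ?_ 𝔫 h𝔫 h𝔭₁ h𝔭₂ x hx
  · rw [ttrn_TE_j]
    exact ssd_transcendental_j E (M * q)
  · rw [ttrn_TE_j]
    exact ssd_finiteDimensional_j E (M * q)
  · obtain ⟨E₁, hfd₁, hE₁⟩ := ss_germJ M q hqM h5 A hA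
    refine ⟨E₁, hfd₁, ?_⟩
    intro E _ _ _ _ hE
    rw [ttrn_TE_j]
    exact (hE₁ E hE).1
  · intro E _ _ _ _ ϖ hϖ
    obtain ⟨Ξ, G, h, h2⟩ := ssgms_two_j A E M hA hqM ϖ hϖ
    rw [ttrn_TE_j]
    exact ⟨h.V₁, h.V₂, h2⟩

end J

section H

variable (M : ℕ) [NeZero M] (q : ℕ) [Fact q.Prime] [NeZero q] (a : ℕ) [NeZero a]

/-- the `E`-form of the chart coordinate `h_a`. -/
theorem ttrn_TE_h (E : IntermediateField ℚ Qb) (ha : a = 2 ∨ a = 3) (haN : a ∣ M * q)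
    (h : GrdSerMem (M * q) (s18hq a (s18hExp a) ℤ)) :
    ttrnTE (M * q) E h = ssgH E (M * q) a ha haN :=
  Subtype.ext (grdis_grdSer_hq a (s18hExp a) E)

/-- **(T) for the chart `h_a` at level `M q`, `q ∈ {2, 3}`, `a = 5 - q ∣ M`.** -/
theorem ttrn_T_h (ha : a = 2 ∨ a = 3) (haM : a ∣ M) (hqa : (q = 2 ∧ a = 3) ∨ (q = 3 ∧ a = 2))
    (hqM : ¬ q ∣ M) (A : ValuationSubring Qb) (hA : A.LiesOverPrime q)
    (hmem : GrdSerMem (M * q) (s18hq a (s18hExp a) ℤ))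
    (V1 V2 : ValuationSubring ↥(modularFunctionFieldBar (M * q)))
    (hV1 : TtrnGauss (M * q) A hmem V1) (hV2 : TtrnGauss (M * q) A hmem V2)
    (hu₁ : ∀ E : IntermediateField ℚ Qb,
      ssdUp E (M * q) (ssvmmY E M q - ssvmdJ E (M * q) ^ q) ∈ V1.nonunits)
    (hu₂ : ∀ E : IntermediateField ℚ Qb,
      ssdUp E (M * q) (ssvmmY E M q ^ q - ssvmdJ E (M * q)) ∈ V2.nonunits)
    (𝔫 : Ideal ↥(grdB (M * q) A (grdQ (M * q) hmem))) (h𝔫 : 𝔫.IsMaximal)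
    (h𝔭₁ : ∀ x : ↥(grdB (M * q) A (grdQ (M * q) hmem)),
      (x : ↥(modularFunctionFieldBar (M * q))) ∈ V1.nonunits → x ∈ 𝔫)
    (h𝔭₂ : ∀ x : ↥(grdB (M * q) A (grdQ (M * q) hmem)),
      (x : ↥(modularFunctionFieldBar (M * q))) ∈ V2.nonunits → x ∈ 𝔫)
    (x : ↥(grdB (M * q) A (grdQ (M * q) hmem))) (hx : x ∈ 𝔫) :
    ∃ s : ↥(grdB (M * q) A (grdQ (M * q) hmem)), s ∉ 𝔫 ∧
      ∃ y₁ y₂ : ↥(grdB (M * q) A (grdQ (M * q) hmem)),
        (y₁ : ↥(modularFunctionFieldBar (M * q))) ∈ V1.nonunits ∧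
        (y₂ : ↥(modularFunctionFieldBar (M * q))) ∈ V2.nonunits ∧ s * x = y₁ + y₂ := by
  have haN : a ∣ M * q := Dvd.dvd.mul_right haM q
  refine ttrn_T_chart hmem hA V1 V2 hV1 hV2 (grdis_sepQ_h (M * q) a ha hmem).transcendental
    (fun E => ?_) (fun E => ?_) ?_
    (fun E => ssvmmY E M q - ssvmdJ E (M * q) ^ q) (fun E => ssvmmY E M q ^ q - ssvmdJ E (M * q))
    hu₁ hu₂ ?_ 𝔫 h𝔫 h𝔭₁ h𝔭₂ x hx
  · rw [ttrn_TE_h M q a E ha haN]
    exact ssg_transcendental_h E (M * q) a ha haN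
  · rw [ttrn_TE_h M q a E ha haN]
    exact ssg_finiteDimensional_h E (M * q) a ha haN
  · obtain ⟨E₁, hfd₁, hE₁⟩ := ss_germH M q a ha haM hqa hqM A hA
    refine ⟨E₁, hfd₁, ?_⟩
    intro E _ _ _ _ hE
    rw [ttrn_TE_h M q a E ha haN]
    exact (hE₁ E hE).1
  · intro E _ _ _ _ ϖ hϖ
    obtain ⟨Ξ, G, h, h2⟩ := ssgms_two_h A E M a ha haM hA hqM ϖ hϖ
    rw [ttrn_TE_h M q a E ha haN]
    exact ⟨h.V₁, h.V₂, h2⟩

end H

end Fermat.Agent.TT
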