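import Mathlib
import Fermat.Agent.S24.CountPsi
import Fermat.Prelude.Def_ModularCurve_GenusNumerics

/-!
# Program TT (S33), G/Red₂ leaf (POS), NUMERICAL part:
`0 < genusFormula (M p) - 2 genusFormula M + 1` for a prime `p ∤ M`

Owner: helper27.  Namespace `Fermat.Agent.TT`, prefix `ttrq`.

The number of nodes of the special fibre of `X₀(pM)` at `p` is `s = g(pM) - 2 g(M) + 1`
(helper5's count); the engine needs `s ≥ 1` (the fibre is connected).  With the classical genus
formula (S24 on main) this is a numerical fact: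
`g(pM) - 2 g(M) + 1 = (p-1) ψ(M)/12 + ν₂(M) (2 - ν₂(p))/4 + ν₃(M) (2 - ν₃(p))/3 > 0`.

* `ttrq_psi_mul_prime`   : `ψ(M p) = ψ(M) (p + 1)`;  `ttrq_psi_pos`;
* `ttrq_card_roots_mul`  : the number of roots of `x² + c x + 1` in `ℤ/mn` is multiplicative
  (`m`, `n` coprime);  `ttrq_card_roots_le_two` : at most `2` roots modulo a prime;
* `ttrq_nuTwo_le`, `ttrq_nuThree_le` : `ν(M p) ≤ 2 ν(M)`;
* `ttrq_cuspCount_mul_prime` : `c(M p) = 2 c(M)`;
* **`ttrq_pos`** : `0 < genusFormula (M * p) - 2 * genusFormula M + 1`.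
-/

set_option autoImplicit false

namespace Fermat.Agent.TT

open ModularCurve Fermat.Agent.S24

/-! ### `ψ` -/

theorem ttrq_psi_mul_prime (M : ℕ) {p : ℕ} (hp : p.Prime) (hpM : ¬ p ∣ M) :
    dedekindPsi (M * p) = dedekindPsi M * (p + 1) := by
  have hcop : M.Coprime p := ((Nat.Prime.coprime_iff_not_dvd hp).mpr hpM).symm
  rw [dedekindPsi_mul hcop]
  have := dedekindPsi_prime_pow hp (k := 1) one_pos
  simp only [pow_one, Nat.sub_self, pow_zero] at this
  rw [this]

theorem ttrq_psi_pos {M : ℕ} (hM : M ≠ 0) : 0 < dedekindPsi M := by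
  unfold dedekindPsi
  refine Finset.sum_pos' (fun _ _ => Nat.zero_le _) ⟨1, ?_, ?_⟩
  · rw [Finset.mem_filter]
    exact ⟨Nat.one_mem_divisors.mpr hM, squarefree_one⟩
  · rw [Nat.div_one]
    exact Nat.pos_of_ne_zero hM

/-! ### roots of `x² + c x + 1` -/

/-- the number of roots of `x² + c x + 1` in `ℤ/mn` is multiplicative. -/
theorem ttrq_card_roots_mul {m n : ℕ} (h : m.Coprime n) (c : ℕ) :
    Nat.card {x : ZMod (m * n) // x ^ 2 + (c : ZMod (m * n)) * x + 1 = 0} =
      Nat.card {x : ZMod m // x ^ 2 + (c : ZMod m) * x + 1 = 0} *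
        Nat.card {x : ZMod n // x ^ 2 + (c : ZMod n) * x + 1 = 0} := by
  let e : ZMod (m * n) ≃+* ZMod m × ZMod n := ZMod.chineseRemainder h
  rw [← Nat.card_prod]
  refine Nat.card_congr
    { toFun := fun x => (⟨(e x.1).1, ?_⟩, ⟨(e x.1).2, ?_⟩)
      invFun := fun y => ⟨e.symm (y.1.1, y.2.1), ?_⟩
      left_inv := ?_
      right_inv := ?_ }
  · have h1 := congrArg (fun z => (e z).1) x.2
    simpa using h1
  · have h1 := congrArg (fun z => (e z).2) x.2
    simpa using h1
  · apply e.injective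
    rw [map_add, map_add, map_mul, map_pow, map_natCast, map_one, map_zero,
      RingEquiv.apply_symm_apply]
    refine Prod.ext ?_ ?_
    · simpa using y.1.2
    · simpa using y.2.2
  · intro x
    apply Subtype.ext
    show e.symm ((e x.1).1, (e x.1).2) = x.1
    rw [Prod.mk.eta, RingEquiv.symm_apply_apply]
  · intro y
    refine Prod.ext (Subtype.ext ?_) (Subtype.ext ?_)
    · show (e (e.symm (y.1.1, y.2.1))).1 = y.1.1
      rw [RingEquiv.apply_symm_apply]
    · show (e (e.symm (y.1.1, y.2.1))).2 = y.2.1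
      rw [RingEquiv.apply_symm_apply]

/-- at most two roots modulo a prime. -/
theorem ttrq_card_roots_le_two {p : ℕ} (hp : p.Prime) (c : ℕ) :
    Nat.card {x : ZMod p // x ^ 2 + (c : ZMod p) * x + 1 = 0} ≤ 2 := by
  haveI : Fact p.Prime := ⟨hp⟩
  classical
  let f : Polynomial (ZMod p) := Polynomial.X ^ 2 + Polynomial.C (c : ZMod p) * Polynomial.X + 1
  have hdeg : f.natDegree = 2 := by
    have : f = Polynomial.X ^ 2 + (Polynomial.C (c : ZMod p) * Polynomial.X + Polynomial.C 1) := by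
      simp only [f, map_one]; ring
    rw [this]
    have hlt : (Polynomial.C (c : ZMod p) * Polynomial.X + Polynomial.C 1).degree <
        (Polynomial.X ^ 2 : Polynomial (ZMod p)).degree := by
      rw [Polynomial.degree_X_pow]
      exact lt_of_le_of_lt (Polynomial.degree_linear_le) (by norm_num)
    rw [Polynomial.natDegree_add_eq_left_of_degree_lt hlt, Polynomial.natDegree_X_pow]
  have hf0 : f ≠ 0 := by
    intro h0
    rw [h0, Polynomial.natDegree_zero] at hdeg
    exact absurd hdeg (by norm_num)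
  have hsub : {x : ZMod p | x ^ 2 + (c : ZMod p) * x + 1 = 0} ⊆ ↑f.roots.toFinset := by
    intro x hx
    rw [Finset.mem_coe, Multiset.mem_toFinset, Polynomial.mem_roots hf0]
    show Polynomial.eval x f = 0
    simpa [f] using hx
  calc Nat.card {x : ZMod p // x ^ 2 + (c : ZMod p) * x + 1 = 0}
      = Set.ncard {x : ZMod p | x ^ 2 + (c : ZMod p) * x + 1 = 0} := rfl
    _ ≤ Set.ncard (↑f.roots.toFinset : Set (ZMod p)) :=
        Set.ncard_le_ncard hsub (Finset.finite_toSet _)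
    _ = f.roots.toFinset.card := Set.ncard_coe_finset _
    _ ≤ Multiset.card f.roots := Multiset.toFinset_card_le _
    _ ≤ f.natDegree := Polynomial.card_roots' f
    _ = 2 := hdeg

theorem ttrq_nuTwo_eq (N : ℕ) :
    nuTwo N = Nat.card {x : ZMod N // x ^ 2 + ((0 : ℕ) : ZMod N) * x + 1 = 0} := by
  unfold nuTwo
  exact Nat.card_congr (Equiv.subtypeEquivRight fun x => by simp)

theorem ttrq_nuThree_eq (N : ℕ) :
    nuThree N = Nat.card {x : ZMod N // x ^ 2 + ((1 : ℕ) : ZMod N) * x + 1 = 0} := by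
  unfold nuThree
  exact Nat.card_congr (Equiv.subtypeEquivRight fun x => by simp)

theorem ttrq_nuTwo_le (M : ℕ) {p : ℕ} (hp : p.Prime) (hpM : ¬ p ∣ M) :
    nuTwo (M * p) ≤ 2 * nuTwo M := by
  have hcop : M.Coprime p := ((Nat.Prime.coprime_iff_not_dvd hp).mpr hpM).symm
  rw [ttrq_nuTwo_eq, ttrq_nuTwo_eq, ttrq_card_roots_mul hcop, mul_comm]
  exact Nat.mul_le_mul_right _ (ttrq_card_roots_le_two hp 0)

theorem ttrq_nuThree_le (M : ℕ) {p : ℕ} (hp : p.Prime) (hpM : ¬ p ∣ M) :
    nuThree (M * p) ≤ 2 * nuThree M := by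
  have hcop : M.Coprime p := ((Nat.Prime.coprime_iff_not_dvd hp).mpr hpM).symm
  rw [ttrq_nuThree_eq, ttrq_nuThree_eq, ttrq_card_roots_mul hcop, mul_comm]
  exact Nat.mul_le_mul_right _ (ttrq_card_roots_le_two hp 1)

/-! ### cusps -/

open scoped Pointwise in
theorem ttrq_cuspCount_mul_prime {M : ℕ} (hM : M ≠ 0) {p : ℕ} (hp : p.Prime) (hpM : ¬ p ∣ M) :
    cuspCount (M * p) = 2 * cuspCount M := by
  have hcop : M.Coprime p := ((Nat.Prime.coprime_iff_not_dvd hp).mpr hpM).symm
  unfold cuspCount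
  rw [Nat.divisors_mul, Finset.mul_def, Finset.sum_image hcop.mul_injOn_divisors,
    Finset.sum_product, hp.divisors, two_mul, ← Finset.sum_add_distrib]
  refine Finset.sum_congr rfl fun a ha => ?_
  have haM : a ∣ M := Nat.dvd_of_mem_divisors ha
  have ha0 : a ≠ 0 := fun h => hM (by rw [h] at haM; exact Nat.eq_zero_of_zero_dvd haM)
  have hap : Nat.Coprime p a := (hcop.coprime_dvd_left haM).symm
  have hMa : Nat.Coprime p (M / a) := (hcop.coprime_dvd_left (Nat.div_dvd_of_dvd haM)).symm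
  have hne : (1 : ℕ) ≠ p := hp.one_lt.ne
  rw [Finset.sum_pair hne]
  congr 1
  · -- `d = a`
    show Nat.totient (Nat.gcd (a * 1) (M * p / (a * 1))) = _
    rw [mul_one, Nat.mul_div_right_comm haM, Nat.Coprime.gcd_mul_right_cancel_right _ hap]
  · -- `d = a p`
    show Nat.totient (Nat.gcd (a * p) (M * p / (a * p))) = _
    rw [Nat.mul_div_mul_right _ _ hp.pos, Nat.Coprime.gcd_mul_right_cancel _ hMa]

/-! ### (POS) -/

/-- **(POS)** : `0 < g(Mp) - 2 g(M) + 1` for the classical genus formula. -/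
theorem ttrq_pos {M : ℕ} (hM : M ≠ 0) {p : ℕ} (hp : p.Prime) (hpM : ¬ p ∣ M) :
    0 < genusFormula (M * p) - 2 * genusFormula M + 1 := by
  unfold genusFormula
  rw [ttrq_psi_mul_prime M hp hpM, ttrq_cuspCount_mul_prime hM hp hpM]
  have h2 : (nuTwo (M * p) : ℚ) ≤ 2 * nuTwo M := by exact_mod_cast ttrq_nuTwo_le M hp hpM
  have h3 : (nuThree (M * p) : ℚ) ≤ 2 * nuThree M := by exact_mod_cast ttrq_nuThree_le M hp hpM
  have hψ : (0 : ℚ) < dedekindPsi M := by exact_mod_cast ttrq_psi_pos hM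
  have hp2 : (2 : ℚ) ≤ p := by exact_mod_cast hp.two_le
  push_cast
  nlinarith [mul_pos hψ (by linarith : (0 : ℚ) < (p : ℚ) - 1)]

end Fermat.Agent.TT
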