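import Mathlib
import Fermat.Agent.S24.Main
import Fermat.Agent.MW.GT.X0
import Fermat.Agent.MW17.Kan
import Fermat.Agent.TT.Red2.GenusPos

/-!
# Program TT (S33), G/Red₂ leaf (POS), BRIDGE: the Riemann–Roch genus of `X₀(N)` is the classical
genus formula, and `2 g(M) ≤ g(M p)`

Owner: helper27.  Namespace `Fermat.Agent.TT`, prefix `ttrq`.

* `ttrq_hasCanonicalDivisor N` : every non-zero Kähler differential of `F_ℚ̄(N)` has a divisor
  (`HasCanonicalDivisor`, the hypothesis of S24) - from MW17's (KAN) machinery;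
* `ttrq_genusFF_eq N` : `(genusFF ℚ̄ F_ℚ̄(N) : ℚ) = genusFormula N` - the genus `g` of main's
  Riemann–Roch package `mwgt_rr_X0 N : V27RR ℚ̄ F_ℚ̄(N) g` is the classical formula (S24);
* **`ttrq_two_mul_genus_le`** : `2 * genusFF(M) + 1 ≤ genusFF(M p) + 1`, i.e. the number of nodes
  `s = g(Mp) - 2 g(M) + 1` of the special fibre is `≥ 1`;
* `ttrq_nodes_pos` : the same in the shape `g(Mp) + 1 = 2 g(M) + s → 1 ≤ s`.
-/

set_option autoImplicit false
set_option linter.unusedSectionVars false
set_option linter.style.haveILetI false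
set_option synthInstance.maxHeartbeats 400000

noncomputable section

namespace Fermat.Agent.TT

open Polynomial Module AlgebraicCurve IntermediateField KaehlerDifferential ModularCurve
  Fermat.Agent.S24 Fermat.Agent.V.RR Fermat.Agent.V.Dual Fermat.Agent.MW Fermat.Agent.MW17

local notation "Qb" => AlgebraicClosure ℚ

section Abstract

variable {K F : Type*} [Field K] [Field F] [Algebra K F] [IsAlgClosed K] [CharZero K]

/-- abstract form: a Riemann–Roch package and a separating coordinate give divisors of all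
non-zero differentials. -/
theorem ttrq_hasCanonicalDivisor_of_rr {g : ℕ} (R : V27RR K F g) (x : F)
    (hx : Transcendental K x) [FiniteDimensional K⟮x⟯ F] :
    HasCanonicalDivisor (K := K) (F := F) := by
  refine ⟨fun ω hω => ?_⟩
  haveI := R.hasDiv
  obtain ⟨Dx, hDx⟩ := mw17kn_exists_divisor x hx
  obtain ⟨c, rfl⟩ := kaehlerRank_exists_eq_smul (K := K) (x := x) ω
  have hc : c ≠ 0 := by
    rintro rfl
    exact hω (zero_smul _ _)
  have hdx : D K F x ≠ 0 := kaehlerRank_D_ne_zero hx
  refine ⟨v27d_div K c + Dx, fun v => ?_⟩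
  have := place_nontrivial_kaehler (K := K) (F := F) hx
  have := place_dCoordGenerates v hx
  have hcoeff : v.differentialCoeff (D K F x) ≠ 0 := by
    intro h0
    have h3 := v.differentialCoeff_smul_dCoord (D K F x)
    rw [h0, zero_smul] at h3
    exact hdx h3.symm
  rw [Finsupp.add_apply, v27d_div_apply', hDx v, v.ordDifferential_smul hc hcoeff]

end Abstract

variable (N : ℕ) [NeZero N]

/-- every non-zero differential of `F_ℚ̄(N)` has a divisor. -/
theorem ttrq_hasCanonicalDivisor :
    HasCanonicalDivisor (K := Qb) (F := ↥(modularFunctionFieldBar N)) := by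
  haveI : FiniteDimensional Qb⟮jBar N⟯ ↥(modularFunctionFieldBar N) := finiteDimensional_jBar N
  exact ttrq_hasCanonicalDivisor_of_rr (mwgt_rr_X0 N) (jBar N) (transcendental_jBar N)

/-- **the genus of main's Riemann–Roch package of `X₀(N)` is the classical genus formula.** -/
theorem ttrq_genusFF_eq :
    (genusFF Qb ↥(modularFunctionFieldBar N) : ℚ) = genusFormula N := by
  haveI := ttrq_hasCanonicalDivisor N
  haveI : FiniteDimensional Qb⟮jBar N⟯ ↥(modularFunctionFieldBar N) := finiteDimensional_jBar N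
  rw [← main_genus N, mw17kn_genus_eq (mwgt_rr_X0 N) (jBar N) (transcendental_jBar N)]

/-- **(POS)** : `2 g(M) ≤ g(M p)` for a prime `p ∤ M`. -/
theorem ttrq_two_mul_genus_le (M : ℕ) [NeZero M] {p : ℕ} (hp : p.Prime) (hpM : ¬ p ∣ M) :
    haveI : NeZero (M * p) := ⟨Nat.mul_ne_zero (NeZero.ne M) hp.ne_zero⟩
    2 * genusFF Qb ↥(modularFunctionFieldBar M) ≤ genusFF Qb ↥(modularFunctionFieldBar (M * p)) := by
  haveI : NeZero (M * p) := ⟨Nat.mul_ne_zero (NeZero.ne M) hp.ne_zero⟩
  have h := ttrq_pos (NeZero.ne M) hp hpM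
  rw [← ttrq_genusFF_eq M, ← ttrq_genusFF_eq (M * p)] at h
  have h' : ((2 * genusFF Qb ↥(modularFunctionFieldBar M) : ℕ) : ℚ) <
      ((genusFF Qb ↥(modularFunctionFieldBar (M * p)) + 1 : ℕ) : ℚ) := by
    push_cast
    linarith
  have h'' := Nat.cast_lt.mp h'
  omega

/-- the number of nodes is positive: if `g(Mp) + 1 = 2 g(M) + s` then `1 ≤ s`. -/
theorem ttrq_nodes_pos (M : ℕ) [NeZero M] {p : ℕ} (hp : p.Prime) (hpM : ¬ p ∣ M) (s : ℕ)
    (hs : haveI : NeZero (M * p) := ⟨Nat.mul_ne_zero (NeZero.ne M) hp.ne_zero⟩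
      genusFF Qb ↥(modularFunctionFieldBar (M * p)) + 1 =
        2 * genusFF Qb ↥(modularFunctionFieldBar M) + s) : 1 ≤ s := by
  have h := ttrq_two_mul_genus_le M hp hpM
  omega

/-- the same from the INEQUALITY `g(Mp) + 1 ≤ 2 g(M) + s` (the half of the genus identity that the
count of the special fibre provides). -/
theorem ttrq_nodes_pos_of_le (M : ℕ) [NeZero M] {p : ℕ} (hp : p.Prime) (hpM : ¬ p ∣ M) (s : ℕ)
    (hs : haveI : NeZero (M * p) := ⟨Nat.mul_ne_zero (NeZero.ne M) hp.ne_zero⟩
      genusFF Qb ↥(modularFunctionFieldBar (M * p)) + 1 ≤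
        2 * genusFF Qb ↥(modularFunctionFieldBar M) + s) : 1 ≤ s := by
  have h := ttrq_two_mul_genus_le M hp hpM
  omega

/-- **the field `nodes` of the two-valuation model from its field `genus_le`** (helper24's
`TtgModel` at `g := genusFF(M p)`, `g₁ = g₂ := genusFF(M)`): the special fibre has a node. -/
theorem ttrq_nodes_of_genus_le (M : ℕ) [NeZero M] {p : ℕ} (hp : p.Prime) (hpM : ¬ p ∣ M)
    [NeZero (M * p)] (S : Type*) [Fintype S]
    (h : (genusFF Qb ↥(modularFunctionFieldBar (M * p)) : ℤ) ≤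
      (genusFF Qb ↥(modularFunctionFieldBar M) : ℤ) + (genusFF Qb ↥(modularFunctionFieldBar M) : ℤ) +
        (Fintype.card S : ℤ) - 1) : Nonempty S := by
  have h2 := ttrq_two_mul_genus_le M hp hpM
  have h1 : 1 ≤ Fintype.card S := by
    have h2' : (2 * genusFF Qb ↥(modularFunctionFieldBar M) : ℤ) ≤
        (genusFF Qb ↥(modularFunctionFieldBar (M * p)) : ℤ) := by exact_mod_cast h2
    have : (1 : ℤ) ≤ (Fintype.card S : ℤ) := by linarith
    exact_mod_cast this
  exact Fintype.card_pos_iff.mp h1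

end Fermat.Agent.TT
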