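import Mathlib
import Fermat.Agent.SS.Val.ModBar
import Fermat.Agent.G.Lvl.Finrank
import Fermat.Agent.G.Asm.HeckeGalois
import Fermat.Agent.FF.IntPts

/-!
# Program TT (S33), G/Red₂ layer A, leaf (A7), `ℚ̄`-level part

Owner: helper4.  Namespace `Fermat.Agent.TT`, prefix `ttre`.

* `ttre_bar_hom_ext` : two ring homomorphisms out of `F_ℚ̄(M p)` agreeing on `α F_ℚ̄(M)` and on
  `β j` are equal (`F_ℚ̄(M p) = α F_ℚ̄(M)(β j)` : degree `p + 1` on both sides);
* `ttre_galois_comm` : a ring automorphism `w` of `F_ℚ̄(M p)` exchanging `α` and `β` commutes with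
  the coefficientwise Galois action.
-/

set_option autoImplicit false
set_option linter.unusedSectionVars false
set_option linter.style.haveILetI false
set_option synthInstance.maxHeartbeats 400000

noncomputable section

namespace Fermat.Agent.TT

open ModularCurve AlgebraicCurve Polynomial Fermat.Agent.G Fermat.Agent.SS Fermat.Agent.FF

local notation "Qb" => AlgebraicClosure ℚ

section Ext

variable (M : ℕ) [NeZero M] {p : ℕ} [Fact p.Prime]

/-- `F_ℚ̄(M p)` is generated over `α F_ℚ̄(M)` by `β j`. -/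
theorem ttre_adjoin_eq_top (hpM : ¬ p ∣ M) :
    haveI : NeZero p := ⟨(Fact.out : p.Prime).ne_zero⟩
    letI := algebraAlong (heckeAlphaBar Qb M p)
    IntermediateField.adjoin (modularFunctionFieldBar M)
      {heckeBetaBar Qb M p (ssvmbJ M)} = ⊤ := by
  haveI : NeZero p := ⟨(Fact.out : p.Prime).ne_zero⟩
  letI := algebraAlong (heckeAlphaBar Qb M p)
  obtain ⟨ζ₀, -, hdeg, -⟩ := ssvmb_minpoly M hpM
  have hfr : Module.finrank (modularFunctionFieldBar M) (modularFunctionFieldBar (M * p)) =
      p + 1 := glv_finrank M p Fact.out hpM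
  haveI : FiniteDimensional (modularFunctionFieldBar M) (modularFunctionFieldBar (M * p)) :=
    Module.finite_of_finrank_pos (by rw [hfr]; omega)
  have hint : IsIntegral (modularFunctionFieldBar M) (heckeBetaBar Qb M p (ssvmbJ M)) :=
    IsIntegral.of_finite _ _
  apply IntermediateField.eq_of_le_of_finrank_eq' le_top
  rw [IntermediateField.finrank_top]
  have h2 := Module.finrank_mul_finrank (modularFunctionFieldBar M)
    (IntermediateField.adjoin (modularFunctionFieldBar M)
      {heckeBetaBar Qb M p (ssvmbJ M)}) (modularFunctionFieldBar (M * p))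
  rw [IntermediateField.adjoin.finrank hint, hdeg, hfr] at h2
  have h3 : 0 < p + 1 := by omega
  exact Nat.eq_of_mul_eq_mul_left h3 (by rw [h2, mul_one])

/-- **two ring homomorphisms out of `F_ℚ̄(M p)` agreeing on `α F_ℚ̄(M)` and on `β j` are equal.** -/
theorem ttre_bar_hom_ext (hpM : ¬ p ∣ M) {S : Type*} [DivisionRing S]
    (f g : haveI : NeZero p := ⟨(Fact.out : p.Prime).ne_zero⟩
      modularFunctionFieldBar (M * p) →+* S)
    (hα : haveI : NeZero p := ⟨(Fact.out : p.Prime).ne_zero⟩
      ∀ x : modularFunctionFieldBar M, f (heckeAlphaBar Qb M p x) = g (heckeAlphaBar Qb M p x))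
    (hβ : haveI : NeZero p := ⟨(Fact.out : p.Prime).ne_zero⟩
      f (heckeBetaBar Qb M p (ssvmbJ M)) = g (heckeBetaBar Qb M p (ssvmbJ M))) :
    f = g := by
  haveI : NeZero p := ⟨(Fact.out : p.Prime).ne_zero⟩
  letI := algebraAlong (heckeAlphaBar Qb M p)
  let E : IntermediateField (modularFunctionFieldBar M) (modularFunctionFieldBar (M * p)) :=
    (RingHom.eqLocusField f g).toIntermediateField (fun x => hα x)
  have hy : heckeBetaBar Qb M p (ssvmbJ M) ∈ E := hβ
  have hle : IntermediateField.adjoin (modularFunctionFieldBar M)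
      {heckeBetaBar Qb M p (ssvmbJ M)} ≤ E := by
    rw [IntermediateField.adjoin_le_iff]
    intro z hz
    rw [Set.mem_singleton_iff] at hz
    rw [hz]
    exact hy
  rw [ttre_adjoin_eq_top M hpM] at hle
  apply RingHom.ext
  intro x
  exact hle (IntermediateField.mem_top (x := x))

/-- **a ring automorphism of `F_ℚ̄(M p)` exchanging `α` and `β` commutes with the coefficientwise
Galois action.** -/
theorem ttre_galois_comm (hpM : ¬ p ∣ M)
    (w : haveI : NeZero p := ⟨(Fact.out : p.Prime).ne_zero⟩
      modularFunctionFieldBar (M * p) ≃+* modularFunctionFieldBar (M * p))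
    (hwα : haveI : NeZero p := ⟨(Fact.out : p.Prime).ne_zero⟩
      ∀ x : modularFunctionFieldBar M, w (heckeAlphaBar Qb M p x) = heckeBetaBar Qb M p x)
    (hwβ : haveI : NeZero p := ⟨(Fact.out : p.Prime).ne_zero⟩
      ∀ x : modularFunctionFieldBar M, w (heckeBetaBar Qb M p x) = heckeAlphaBar Qb M p x)
    (σ : Qb ≃ₐ[ℚ] Qb) (x : haveI : NeZero p := ⟨(Fact.out : p.Prime).ne_zero⟩
      modularFunctionFieldBar (M * p)) :
    haveI : NeZero p := ⟨(Fact.out : p.Prime).ne_zero⟩
    ffipG (M * p) σ • (w x) = w (ffipG (M * p) σ • x) := by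
  haveI : NeZero p := ⟨(Fact.out : p.Prime).ne_zero⟩
  have hα' : ∀ y : modularFunctionFieldBar M,
      ffipG (M * p) σ • heckeAlphaBar Qb M p y = heckeAlphaBar Qb M p (ffipG M σ • y) :=
    fun y => gasmhg_alpha_intertwines M p σ y
  have hβ' : ∀ y : modularFunctionFieldBar M,
      ffipG (M * p) σ • heckeBetaBar Qb M p y = heckeBetaBar Qb M p (ffipG M σ • y) :=
    fun y => gasmhg_beta_intertwines M p σ y
  let G : modularFunctionFieldBar (M * p) →+* modularFunctionFieldBar (M * p) :=
    MulSemiringAction.toRingHom _ _ (ffipG (M * p) σ)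
  have hG : ∀ z, G z = ffipG (M * p) σ • z := fun z => rfl
  let W : modularFunctionFieldBar (M * p) →+* modularFunctionFieldBar (M * p) := w.toRingHom
  have hW : ∀ z, W z = w z := fun z => rfl
  have key : G.comp W = W.comp G := by
    apply ttre_bar_hom_ext M hpM
    · intro y
      rw [RingHom.comp_apply, RingHom.comp_apply, hW, hwα, hG, hG, hβ', hα', hW, hwα]
    · rw [RingHom.comp_apply, RingHom.comp_apply, hW, hwβ, hG, hG, hα', hβ', hW, hwβ]
  have := RingHom.congr_fun key x
  rw [RingHom.comp_apply, RingHom.comp_apply, hW, hG, hG, hW] at this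
  exact this

end Ext

end Fermat.Agent.TT
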