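import Mathlib
import Fermat.Agent.TT.Red2.AL
import Fermat.Agent.TT.Red2.V1
import Fermat.Agent.TT.Red2.GalAbs
import Fermat.Agent.G.Red.Gauss

/-!
# Program TT (S33), package G/Red₂, layer A : the second chart `V₂`, `red₂`, `O₂`, `red`

Owner: helper4 (on top of helper12's `AL.lean`/`V1.lean` and helper27's `GalAbs.lean`).
Namespace `Fermat.Agent.TT`, prefix `ttrw`.

`p ∤ M`, `𝔸` over `p`, `k = 𝔸/𝔪`, `F = modularFunctionFieldBar (M * p)`, `w = ttrW M hpM` the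
Atkin–Lehner involution, `V₁ = grdO (M p) 𝔸`, `red₁ = ttrRed1 M 𝔸 hA : V₁ → F_k(M)`.

DEFINITIONS (all through helper27's abstract `ttrhV2 / ttrhRed2 / ttrhO2 / ttrhRed`, so that the
equivariance lemmas `ttrh_*` of `GalAbs.lean` apply verbatim):

* `ttrwV2s M 𝔸 hpM : Subring F`              `:= V₁.comap w`               (`x ∈ V₂ ↔ w x ∈ V₁`);
* `ttrwV2 M 𝔸 hpM hA : ValuationSubring F`   the same as a valuation subring (`(ttrV1 …).comap w`);
* `ttrwRed2 M 𝔸 hpM hA : V₂ →+* F_k(M)`      `:= red₁ ∘ w`;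
* `ttrwO2 M 𝔸 hpM : Subring F`               `:= V₁ ⊓ V₂`;
* `ttrwRed M 𝔸 hpM hA : O₂ →+* F_k(M) × F_k(M)` `:= (red₁, red₂)`.

TRANSPORTED TWINS of helper12's `V₁`-facts: `ttrw_mem_or_inv_mem₂`, constants
(`ttrw_algebraMap_mem₂`, `ttrwRed2_algebraMap`, `ttrw_algebraMap_mem₂_iff`), the kernel
`ttrwRed2_eq_zero_iff` (`= 𝔪_𝔸 V₂`), `ttrw_inv_mem₂`; the swap `w : O₂ ≃ O₂`,
`red (w x) = (red x).swap` (`ttrw_w_mem_O2`, `ttrwRed_w`); the degeneracy maps in the second chart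
(`ttrw_beta_mem₂`, `ttrwRed2_beta : red₂ (β f) = f̄`, `ttrw_alpha_mem₂`,
`ttrwRed2_alpha : red₂ (α f) = Φ f̄`); `α f, β f ∈ O₂` with `red (α f) = (f̄, Φ f̄)`,
`red (β f) = (Φ f̄, f̄)`; constants in `O₂` (`ttrw_algebraMap_mem_O2`, `ttrwRed_algebraMap`).
-/

set_option autoImplicit false
set_option linter.unusedSectionVars false
set_option linter.unusedVariables false
set_option linter.style.haveILetI false
set_option synthInstance.maxHeartbeats 400000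

noncomputable section

namespace Fermat.Agent.TT

open Polynomial ModularCurve AlgebraicCurve IsLocalRing IntermediateField
  Fermat.Agent.G Fermat.Agent.S18 Fermat.Agent.SS

local notation "Qb" => AlgebraicClosure ℚ

variable (M : ℕ) [NeZero M] {p : ℕ} [Fact p.Prime] [NeZero p]
variable (A : ValuationSubring Qb)

/-! ### Definitions -/

/-- `V₂ := w⁻¹ V₁` as a subring of `F_ℚ̄(M p)` -/
def ttrwV2s (hpM : ¬ p ∣ M) : Subring (modularFunctionFieldBar (M * p)) :=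
  ttrhV2 (grdO (M * p) A) (ttrW M hpM)

theorem ttrw_mem_V2 (hpM : ¬ p ∣ M) {x : modularFunctionFieldBar (M * p)} :
    x ∈ ttrwV2s M A hpM ↔ ttrW M hpM x ∈ grdO (M * p) A := Iff.rfl

/-- `x ∈ V₁ ↔ w x ∈ V₂` -/
theorem ttrw_w_mem_V2 (hpM : ¬ p ∣ M) {x : modularFunctionFieldBar (M * p)} :
    ttrW M hpM x ∈ ttrwV2s M A hpM ↔ x ∈ grdO (M * p) A := by
  rw [ttrw_mem_V2, ttrW_invol]

/-- `V₂` as a valuation subring : `(ttrV1 …).comap w` -/
def ttrwV2 (hpM : ¬ p ∣ M) (hA : A.LiesOverPrime p) :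
    ValuationSubring (modularFunctionFieldBar (M * p)) :=
  (ttrV1 M A hpM hA).comap (ttrW M hpM : modularFunctionFieldBar (M * p) →+* _)

theorem mem_ttrwV2 (hpM : ¬ p ∣ M) (hA : A.LiesOverPrime p)
    (x : modularFunctionFieldBar (M * p)) :
    x ∈ ttrwV2 M A hpM hA ↔ x ∈ ttrwV2s M A hpM := Iff.rfl

/-- `red₂ := red₁ ∘ w : V₂ → F_k(M)` -/
def ttrwRed2 (hpM : ¬ p ∣ M) (hA : A.LiesOverPrime p) :
    ↥(ttrwV2s M A hpM) →+* ↥(modularFunctionFieldFullC (ResidueField A) M) :=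
  ttrhRed2 (grdO (M * p) A) (ttrW M hpM) (ttrRed1 M A hA)

theorem ttrwRed2_apply (hpM : ¬ p ∣ M) (hA : A.LiesOverPrime p) (x : ↥(ttrwV2s M A hpM)) :
    ttrwRed2 M A hpM hA x = ttrRed1 M A hA ⟨ttrW M hpM (x : modularFunctionFieldBar (M * p)), x.2⟩ :=
  rfl

/-- `O₂ := V₁ ⊓ V₂` -/
def ttrwO2 (hpM : ¬ p ∣ M) : Subring (modularFunctionFieldBar (M * p)) :=
  ttrhO2 (grdO (M * p) A) (ttrW M hpM)

theorem ttrw_mem_O2 (hpM : ¬ p ∣ M) {x : modularFunctionFieldBar (M * p)} :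
    x ∈ ttrwO2 M A hpM ↔ x ∈ grdO (M * p) A ∧ ttrW M hpM x ∈ grdO (M * p) A := Iff.rfl

theorem ttrwO2_eq_inf (hpM : ¬ p ∣ M) : ttrwO2 M A hpM = grdO (M * p) A ⊓ ttrwV2s M A hpM := rfl

theorem ttrwO2_le_V1 (hpM : ¬ p ∣ M) : ttrwO2 M A hpM ≤ grdO (M * p) A := inf_le_left

theorem ttrwO2_le_V2 (hpM : ¬ p ∣ M) : ttrwO2 M A hpM ≤ ttrwV2s M A hpM := inf_le_right

/-- `red := (red₁, red₂) : O₂ → F_k(M) × F_k(M)` -/
def ttrwRed (hpM : ¬ p ∣ M) (hA : A.LiesOverPrime p) :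
    ↥(ttrwO2 M A hpM) →+* ↥(modularFunctionFieldFullC (ResidueField A) M) ×
      ↥(modularFunctionFieldFullC (ResidueField A) M) :=
  ttrhRed (grdO (M * p) A) (ttrW M hpM) (ttrRed1 M A hA)

theorem ttrwRed_apply (hpM : ¬ p ∣ M) (hA : A.LiesOverPrime p) (x : ↥(ttrwO2 M A hpM)) :
    ttrwRed M A hpM hA x =
      (ttrRed1 M A hA ⟨(x : modularFunctionFieldBar (M * p)), x.2.1⟩,
        ttrRed1 M A hA ⟨ttrW M hpM (x : modularFunctionFieldBar (M * p)), x.2.2⟩) := rfl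

theorem ttrwRed_fst (hpM : ¬ p ∣ M) (hA : A.LiesOverPrime p) (x : ↥(ttrwO2 M A hpM)) :
    (ttrwRed M A hpM hA x).1 =
      ttrRed1 M A hA ⟨(x : modularFunctionFieldBar (M * p)), x.2.1⟩ := rfl

theorem ttrwRed_snd (hpM : ¬ p ∣ M) (hA : A.LiesOverPrime p) (x : ↥(ttrwO2 M A hpM)) :
    (ttrwRed M A hpM hA x).2 =
      ttrwRed2 M A hpM hA ⟨(x : modularFunctionFieldBar (M * p)), x.2.2⟩ := rfl

/-! ### `V₂` is a valuation ring; units -/

/-- `x ∈ V₂ ∨ x⁻¹ ∈ V₂` -/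
theorem ttrw_mem_or_inv_mem₂ (hpM : ¬ p ∣ M) (hA : A.LiesOverPrime p)
    (x : modularFunctionFieldBar (M * p)) :
    x ∈ ttrwV2s M A hpM ∨ x⁻¹ ∈ ttrwV2s M A hpM := by
  rw [ttrw_mem_V2, ttrw_mem_V2, map_inv₀]
  exact ttr_mem_or_inv_mem M A hpM hA _

/-- an element of `V₂` with nonzero reduction is a unit of `V₂` -/
theorem ttrw_inv_mem₂ (hpM : ¬ p ∣ M) (hA : A.LiesOverPrime p) (x : ↥(ttrwV2s M A hpM))
    (hx : ttrwRed2 M A hpM hA x ≠ 0) :
    (x : modularFunctionFieldBar (M * p))⁻¹ ∈ ttrwV2s M A hpM := by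
  rw [ttrw_mem_V2, map_inv₀]
  refine ttr_inv_mem M A hpM hA ⟨ttrW M hpM (x : modularFunctionFieldBar (M * p)), x.2⟩ ?_
  intro h
  apply hx
  rw [ttrwRed2_apply]
  exact (ttrRed1_eq_zero_iff' M A hA _).2 h

/-! ### Constants -/

theorem ttrw_algebraMap_mem₂ (hpM : ¬ p ∣ M) (a : A) :
    algebraMap Qb (modularFunctionFieldBar (M * p)) (a : Qb) ∈ ttrwV2s M A hpM := by
  rw [ttrw_mem_V2, ttrW_const]
  exact grdO_algebraMap_mem (M * p) A a

theorem ttrw_algebraMap_mem₂_iff (hpM : ¬ p ∣ M) (c : Qb) :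
    algebraMap Qb (modularFunctionFieldBar (M * p)) c ∈ ttrwV2s M A hpM ↔ c ∈ A := by
  rw [ttrw_mem_V2, ttrW_const]
  exact grdO_algebraMap_mem_iff (M * p) A c

theorem ttrw_algebraMap_mem_O2 (hpM : ¬ p ∣ M) (a : A) :
    algebraMap Qb (modularFunctionFieldBar (M * p)) (a : Qb) ∈ ttrwO2 M A hpM :=
  ⟨grdO_algebraMap_mem (M * p) A a, ttrw_algebraMap_mem₂ M A hpM a⟩

theorem ttrw_algebraMap_mem_O2_iff (hpM : ¬ p ∣ M) (c : Qb) :
    algebraMap Qb (modularFunctionFieldBar (M * p)) c ∈ ttrwO2 M A hpM ↔ c ∈ A :=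
  ⟨fun h => (grdO_algebraMap_mem_iff (M * p) A c).1 h.1,
    fun h => ttrw_algebraMap_mem_O2 M A hpM ⟨c, h⟩⟩

/-- `red₁ a = ā` for a constant `a ∈ 𝔸` -/
theorem ttrRed1_algebraMap' (hA : A.LiesOverPrime p) (a : A) :
    ttrRed1 M A hA ⟨algebraMap Qb (modularFunctionFieldBar (M * p)) (a : Qb),
      grdO_algebraMap_mem (M * p) A a⟩ =
      algebraMap (ResidueField A) (modularFunctionFieldFullC (ResidueField A) M)
        (residue A a) := by
  apply Subtype.ext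
  rw [ttrRed1_coe, grdRed_algebraMap]
  show algebraMap (ResidueField A) (LaurentSeries (ResidueField A)) (residue A a) =
    algebraMap (ResidueField A) (LaurentSeries (ResidueField A)) (residue A a)
  rfl

/-- `red₂ a = ā` for a constant `a ∈ 𝔸` -/
theorem ttrwRed2_algebraMap (hpM : ¬ p ∣ M) (hA : A.LiesOverPrime p) (a : A) :
    ttrwRed2 M A hpM hA ⟨algebraMap Qb (modularFunctionFieldBar (M * p)) (a : Qb),
      ttrw_algebraMap_mem₂ M A hpM a⟩ =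
      algebraMap (ResidueField A) (modularFunctionFieldFullC (ResidueField A) M)
        (residue A a) := by
  rw [ttrwRed2_apply, ← ttrRed1_algebraMap' M A hA a]
  congr 1
  exact Subtype.ext (ttrW_const M hpM _)

/-- `red a = (ā, ā)` for a constant `a ∈ 𝔸` -/
theorem ttrwRed_algebraMap (hpM : ¬ p ∣ M) (hA : A.LiesOverPrime p) (a : A) :
    ttrwRed M A hpM hA ⟨algebraMap Qb (modularFunctionFieldBar (M * p)) (a : Qb),
      ttrw_algebraMap_mem_O2 M A hpM a⟩ =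
      (algebraMap (ResidueField A) (modularFunctionFieldFullC (ResidueField A) M) (residue A a),
        algebraMap (ResidueField A) (modularFunctionFieldFullC (ResidueField A) M)
          (residue A a)) := by
  refine Prod.ext ?_ ?_
  · exact ttrRed1_algebraMap' M A hA a
  · exact ttrwRed2_algebraMap M A hpM hA a

/-! ### The kernel of `red₂` -/

/-- the kernel of `red₂` is `𝔪_𝔸 V₂` -/
theorem ttrwRed2_eq_zero_iff (hpM : ¬ p ∣ M) (hA : A.LiesOverPrime p)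
    (x : ↥(ttrwV2s M A hpM)) :
    ttrwRed2 M A hpM hA x = 0 ↔ ∃ (π : A) (x' : ↥(ttrwV2s M A hpM)), π ∈ maximalIdeal A ∧
      (x : modularFunctionFieldBar (M * p)) =
        algebraMap Qb (modularFunctionFieldBar (M * p)) (π : Qb) *
          (x' : modularFunctionFieldBar (M * p)) := by
  rw [ttrwRed2_apply, ttrRed1_eq_zero_iff M A hpM hA]
  constructor
  · rintro ⟨π, x', hπ, hx⟩
    refine ⟨π, ⟨ttrW M hpM (x' : modularFunctionFieldBar (M * p)),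
      (ttrw_w_mem_V2 M A hpM).2 x'.2⟩, hπ, ?_⟩
    have := congrArg (ttrW M hpM) hx
    rw [ttrW_invol, map_mul, ttrW_const] at this
    exact this
  · rintro ⟨π, x', hπ, hx⟩
    refine ⟨π, ⟨ttrW M hpM (x' : modularFunctionFieldBar (M * p)), x'.2⟩, hπ, ?_⟩
    show ttrW M hpM (x : modularFunctionFieldBar (M * p)) = _
    rw [hx, map_mul, ttrW_const]

/-! ### The swap `w : O₂ → O₂` -/

theorem ttrw_w_mem_O2 (hpM : ¬ p ∣ M) {x : modularFunctionFieldBar (M * p)}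
    (hx : x ∈ ttrwO2 M A hpM) : ttrW M hpM x ∈ ttrwO2 M A hpM := by
  refine ⟨hx.2, ?_⟩
  show ttrW M hpM (ttrW M hpM x) ∈ grdO (M * p) A
  rw [ttrW_invol]
  exact hx.1

/-- `red (w x) = (red x).swap` -/
theorem ttrwRed_w (hpM : ¬ p ∣ M) (hA : A.LiesOverPrime p) (x : ↥(ttrwO2 M A hpM)) :
    ttrwRed M A hpM hA ⟨ttrW M hpM (x : modularFunctionFieldBar (M * p)),
      ttrw_w_mem_O2 M A hpM x.2⟩ = (ttrwRed M A hpM hA x).swap := by
  rw [ttrwRed_apply, ttrwRed_apply]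
  refine Prod.ext ?_ ?_
  · rfl
  · show ttrRed1 M A hA ⟨ttrW M hpM (ttrW M hpM (x : modularFunctionFieldBar (M * p))), _⟩ =
      ttrRed1 M A hA ⟨(x : modularFunctionFieldBar (M * p)), x.2.1⟩
    congr 1
    exact Subtype.ext (ttrW_invol M hpM _)

/-! ### The degeneracy maps in the second chart -/

theorem ttrw_beta_mem₂ (hpM : ¬ p ∣ M) {f : modularFunctionFieldBar M} (hf : f ∈ grdO M A) :
    heckeBetaBar Qb M p f ∈ ttrwV2s M A hpM := by
  rw [ttrw_mem_V2, ttrW_beta]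
  exact ttr_alpha_mem M A hf

theorem ttrw_alpha_mem₂ (hpM : ¬ p ∣ M) {f : modularFunctionFieldBar M} (hf : f ∈ grdO M A) :
    heckeAlphaBar Qb M p f ∈ ttrwV2s M A hpM := by
  rw [ttrw_mem_V2, ttrW_alpha]
  exact ttr_beta_mem M A hf

/-- `red₂ (β f) = f̄` -/
theorem ttrwRed2_beta (hpM : ¬ p ∣ M) (hA : A.LiesOverPrime p) (f : ↥(grdO M A)) :
    ttrwRed2 M A hpM hA ⟨heckeBetaBar Qb M p (f : modularFunctionFieldBar M),
      ttrw_beta_mem₂ M A hpM f.2⟩ = grdRed M A f := by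
  rw [ttrwRed2_apply, ← ttrRed1_alpha M A hA f]
  congr 1
  exact Subtype.ext (ttrW_beta M hpM _)

/-- `red₂ (α f) = Φ f̄` -/
theorem ttrwRed2_alpha (hpM : ¬ p ∣ M) (hA : A.LiesOverPrime p) (f : ↥(grdO M A)) :
    ttrwRed2 M A hpM hA ⟨heckeAlphaBar Qb M p (f : modularFunctionFieldBar M),
      ttrw_alpha_mem₂ M A hpM f.2⟩ = ttrPhi M A hA (grdRed M A f) := by
  rw [ttrwRed2_apply, ← ttrRed1_beta M A hA f]
  congr 1
  exact Subtype.ext (ttrW_alpha M hpM _)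

theorem ttrw_alpha_mem_O2 (hpM : ¬ p ∣ M) {f : modularFunctionFieldBar M} (hf : f ∈ grdO M A) :
    heckeAlphaBar Qb M p f ∈ ttrwO2 M A hpM :=
  ⟨ttr_alpha_mem M A hf, ttrw_alpha_mem₂ M A hpM hf⟩

theorem ttrw_beta_mem_O2 (hpM : ¬ p ∣ M) {f : modularFunctionFieldBar M} (hf : f ∈ grdO M A) :
    heckeBetaBar Qb M p f ∈ ttrwO2 M A hpM :=
  ⟨ttr_beta_mem M A hf, ttrw_beta_mem₂ M A hpM hf⟩

/-- `red (α f) = (f̄, Φ f̄)` -/
theorem ttrwRed_alpha (hpM : ¬ p ∣ M) (hA : A.LiesOverPrime p) (f : ↥(grdO M A)) :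
    ttrwRed M A hpM hA ⟨heckeAlphaBar Qb M p (f : modularFunctionFieldBar M),
      ttrw_alpha_mem_O2 M A hpM f.2⟩ = (grdRed M A f, ttrPhi M A hA (grdRed M A f)) := by
  refine Prod.ext ?_ ?_
  · exact ttrRed1_alpha M A hA f
  · exact ttrwRed2_alpha M A hpM hA f

/-- `red (β f) = (Φ f̄, f̄)` -/
theorem ttrwRed_beta (hpM : ¬ p ∣ M) (hA : A.LiesOverPrime p) (f : ↥(grdO M A)) :
    ttrwRed M A hpM hA ⟨heckeBetaBar Qb M p (f : modularFunctionFieldBar M),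
      ttrw_beta_mem_O2 M A hpM f.2⟩ = (ttrPhi M A hA (grdRed M A f), grdRed M A f) := by
  refine Prod.ext ?_ ?_
  · exact ttrRed1_beta M A hA f
  · exact ttrwRed2_beta M A hpM hA f

end Fermat.Agent.TT
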