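import Mathlib
import Fermat.Agent.TT.Red2.V2
import Fermat.Agent.TT.Red2.EquivBar

/-!
# Program TT (S33), package G/Red₂, layer A : `w` commutes with Galois; inertia on `V₂`, `O₂`

Owner: helper4.  Namespace `Fermat.Agent.TT`, prefix `ttrw`.

* `ttrw_galois` : the Atkin–Lehner involution `ttrW M hpM` commutes with the coefficientwise
  Galois action `ffipG (M p) σ` (`σ ∈ Gal(ℚ̄/ℚ)` arbitrary) — the hypothesis `hcomm` of helper27's
  `ttrh_*` lemmas (`GalAbs.lean`);
* `ttrw_galois_mem_V2`, `ttrw_galois_mem_O2` : a `σ` preserving `V₁` preserves `V₂` and `O₂`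
  (e.g. `σ` inertial, by main's `ffip_smul_mem_grdO`).
-/

set_option autoImplicit false
set_option linter.unusedSectionVars false
set_option linter.unusedVariables false
set_option linter.style.haveILetI false
set_option synthInstance.maxHeartbeats 400000

noncomputable section

namespace Fermat.Agent.TT

open Polynomial ModularCurve AlgebraicCurve IsLocalRing IntermediateField
  Fermat.Agent.G Fermat.Agent.S18 Fermat.Agent.SS Fermat.Agent.FF

local notation "Qb" => AlgebraicClosure ℚ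

variable (M : ℕ) [NeZero M] {p : ℕ} [Fact p.Prime] [NeZero p]
variable (A : ValuationSubring Qb)

/-- **`w` commutes with the coefficientwise Galois action.** -/
theorem ttrw_galois (hpM : ¬ p ∣ M) (σ : Qb ≃ₐ[ℚ] Qb) (x : modularFunctionFieldBar (M * p)) :
    ffipG (M * p) σ • (ttrW M hpM x) = ttrW M hpM (ffipG (M * p) σ • x) :=
  ttre_galois_comm M hpM (ttrW M hpM) (ttrW_alpha M hpM) (ttrW_beta M hpM) σ x

/-- the same, spelled with the ring automorphism `SemilinearAut.toRingAut` (the `hcomm` of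
`ttrh_smul_mem_V2`, `ttrh_red2_smul`, `ttrh_red_smul`, `ttrh_hs` with
`s := SemilinearAut.toRingAut (ffipG (M p) σ)`). -/
theorem ttrw_galois_toRingAut (hpM : ¬ p ∣ M) (σ : Qb ≃ₐ[ℚ] Qb)
    (x : modularFunctionFieldBar (M * p)) :
    SemilinearAut.toRingAut (ffipG (M * p) σ) (ttrW M hpM x) =
      ttrW M hpM (SemilinearAut.toRingAut (ffipG (M * p) σ) x) :=
  ttrw_galois M hpM σ x

/-- a `σ` preserving `V₁` preserves `V₂`. -/
theorem ttrw_galois_mem_V2 (hpM : ¬ p ∣ M) (σ : Qb ≃ₐ[ℚ] Qb)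
    (hstab : ∀ x ∈ grdO (M * p) A, ffipG (M * p) σ • x ∈ grdO (M * p) A)
    {x : modularFunctionFieldBar (M * p)} (hx : x ∈ ttrwV2s M A hpM) :
    ffipG (M * p) σ • x ∈ ttrwV2s M A hpM := by
  rw [ttrw_mem_V2] at hx ⊢
  rw [← ttrw_galois]
  exact hstab _ hx

/-- a `σ` preserving `V₁` preserves `O₂`. -/
theorem ttrw_galois_mem_O2 (hpM : ¬ p ∣ M) (σ : Qb ≃ₐ[ℚ] Qb)
    (hstab : ∀ x ∈ grdO (M * p) A, ffipG (M * p) σ • x ∈ grdO (M * p) A)
    {x : modularFunctionFieldBar (M * p)} (hx : x ∈ ttrwO2 M A hpM) :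
    ffipG (M * p) σ • x ∈ ttrwO2 M A hpM :=
  ⟨hstab _ hx.1, ttrw_galois_mem_V2 M A hpM σ hstab hx.2⟩

end Fermat.Agent.TT
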