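import Mathlib
import Fermat.Agent.TT.Red2.Red2All
import Fermat.Agent.TT.Red2.RedPack
import Fermat.Agent.TT.Red2.V2Gal
import Fermat.Agent.TT.Red2.GenusBridge

/-!
# PROGRAM TT (S33), leaf (RED2): THE INSTANCE of `TtgRed2Spec M p 𝔸` (plug file)

Owner: helper12 (Red2 instance assembler), deputy helper2 (this file).  Namespace
`Fermat.Agent.TT`, prefix `ttra`.

The hypotheses of the skeleton `ttra_model` (`TT/Red2/Red2All.lean`) are discharged here one by one
as the owners' lemmas land: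

* `h₁`    := helper27's `ttrvp_tb1` (`TT/Red2/RedPack.lean`);
* `hcomm` := helper4's `ttrw_galois` (`TT/Red2/V2Gal.lean`);
* `nodes` := helper27's `ttrq_nodes_of_genus_le` (`TT/Red2/GenusBridge.lean`), from `genus_le`.
-/

set_option autoImplicit false
set_option linter.unusedSectionVars false
set_option linter.unusedVariables false
set_option linter.style.haveILetI false

noncomputable section

namespace Fermat.Agent.TT

open AlgebraicCurve IsLocalRing ModularCurve Fermat.Agent.G Fermat.Agent.FF Fermat.Agent.S18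
  Fermat.Agent.SS Fermat.Agent.V.RR

local notation "Qb" => AlgebraicClosure ℚ

variable (M : ℕ) [NeZero M] {p : ℕ} [Fact p.Prime] [NeZero p]
variable (A : ValuationSubring Qb) (hpM : ¬ p ∣ M) (hA : A.LiesOverPrime p)

/-- the reduction axioms of `(V₁, red₁)` (helper27). -/
theorem ttra_h₁ : TtbRed A (ttrV1 M A hpM hA).toSubring (ttraRed1 M A hpM hA) :=
  ttrvp_tb1 M A hpM hA

/-- `w` commutes with the inertia action (helper4). -/
theorem ttra_hcomm (σ : ↥(ffI A)) (x : ↥(modularFunctionFieldBar (M * p))) :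
    ffigRho (M * p) A σ • ttrW M hpM x = ttrW M hpM (ffigRho (M * p) A σ • x) :=
  ttrw_galois M hpM (σ : FfGal) x

/-- the ring and action fields, closed. -/
theorem ttra_toRed' :
    TtbRed A ((ttrV1 M A hpM hA).toSubring ⊓ (ttraV2 M A hpM hA).toSubring)
      (ttgRed (ttraRed1 M A hpM hA) (ttraRed2 M A hpM hA)) :=
  ttra_toRed M A hpM hA (ttra_h₁ M A hpM hA)

/-- **THE MODEL at level `M p`**, closed in the ring and action fields: one hypothesis per
geometric field of `TtgModel` (Spec BUMP #2: `into` with the two side conditions, no `cls_smul`). -/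
theorem ttra_model_inst
    (cls : Place Qb ↥(modularFunctionFieldBar (M * p)) → Option (Place (ResidueField A) ↥(modularFunctionFieldFullC (ResidueField A) M) ⊕ Place (ResidueField A) ↥(modularFunctionFieldFullC (ResidueField A) M)))
    {S : Type} [Fintype S] (ν₁ ν₂ : S → Place (ResidueField A) ↥(modularFunctionFieldFullC (ResidueField A) M))
    (T₁ T₂ : Finset (Place (ResidueField A) ↥(modularFunctionFieldFullC (ResidueField A) M))) (g g₁ g₂ : ℕ)
    -- PLACES (helper6 (B3))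
    (lift₁ : ∀ Q : Place (ResidueField A) ↥(modularFunctionFieldFullC (ResidueField A) M), Q ∉ T₁ →
      ∃ P : Place Qb ↥(modularFunctionFieldBar (M * p)), cls P = some (Sum.inl Q) ∧ ∀ σ : ↥(ffI A), ffigRho (M * p) A σ • P = P)
    (lift₂ : ∀ Q : Place (ResidueField A) ↥(modularFunctionFieldFullC (ResidueField A) M), Q ∉ T₂ →
      ∃ P : Place Qb ↥(modularFunctionFieldBar (M * p)), cls P = some (Sum.inr Q) ∧ ∀ σ : ↥(ffI A), ffigRho (M * p) A σ • P = P)
    -- NODE (helper19)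
    (ν₁_inj : Function.Injective ν₁) (ν₂_inj : Function.Injective ν₂)
    (ν₁_mem : ∀ i, ν₁ i ∈ T₁) (ν₂_mem : ∀ i, ν₂ i ∈ T₂)
    -- POS (helper27)
    (nodes : Nonempty S)
    -- COUNT (helper5)
    (genus_le : (g : ℤ) ≤ g₁ + g₂ + Fintype.card S - 1)
    -- INTO (helper23)
    (into : ∀ D : Divisor Qb ↥(modularFunctionFieldBar (M * p)), (∀ P, D P ≠ 0 → cls P ≠ none) →
      (∀ P, -1 ≤ D P) →
      (∀ P P' : Place Qb ↥(modularFunctionFieldBar (M * p)), cls P = cls P' → D P < 0 → D P' < 0 →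
        P = P') →
      ∀ (x : ↥(modularFunctionFieldBar (M * p))) (hx₁ : x ∈ ttrV1 M A hpM hA) (hx₂ : x ∈ ttraV2 M A hpM hA),
        x ∈ riemannRochSpace D →
        (ttraRed1 M A hpM hA ⟨x, hx₁⟩, ttraRed2 M A hpM hA ⟨x, hx₂⟩) ∈
          ttnkL ν₁ ν₂ (ttgPush₁ cls D) (ttgPush₂ cls D))
    -- VALUES (helper6 (B2) + helper23 (LOC))
    (val₁ : ∀ (P : Place Qb ↥(modularFunctionFieldBar (M * p))) (Q : Place (ResidueField A) ↥(modularFunctionFieldFullC (ResidueField A) M)), cls P = some (Sum.inl Q) →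
      ∀ (x : ↥(modularFunctionFieldBar (M * p))) (hx₁ : x ∈ ttrV1 M A hpM hA) (hx₂ : x ∈ ttraV2 M A hpM hA),
        (∀ P' : Place Qb ↥(modularFunctionFieldBar (M * p)), cls P' = some (Sum.inl Q) → 0 ≤ P'.ord x) →
        ∃ α : A, GrdVal P x (α : Qb) ∧ GrdVal Q (ttraRed1 M A hpM hA ⟨x, hx₁⟩) (residue A α))
    (val₂ : ∀ (P : Place Qb ↥(modularFunctionFieldBar (M * p))) (Q : Place (ResidueField A) ↥(modularFunctionFieldFullC (ResidueField A) M)), cls P = some (Sum.inr Q) →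
      ∀ (x : ↥(modularFunctionFieldBar (M * p))) (hx₁ : x ∈ ttrV1 M A hpM hA) (hx₂ : x ∈ ttraV2 M A hpM hA),
        (∀ P' : Place Qb ↥(modularFunctionFieldBar (M * p)), cls P' = some (Sum.inr Q) → 0 ≤ P'.ord x) →
        ∃ α : A, GrdVal P x (α : Qb) ∧ GrdVal Q (ttraRed2 M A hpM hA ⟨x, hx₂⟩) (residue A α))
    -- BRIDGE (V)+(D) (helper15)
    (const : ∀ (x : ↥(modularFunctionFieldBar (M * p))) (hx₁ : x ∈ ttrV1 M A hpM hA) (hx₂ : x ∈ ttraV2 M A hpM hA)
      (c : ResidueField A), c ≠ 0 → x ≠ 0 →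
      (∀ v : Place Qb ↥(modularFunctionFieldBar (M * p)), cls v = none → 0 ≤ v.ord x) →
      ttraRed1 M A hpM hA ⟨x, hx₁⟩ = algebraMap (ResidueField A) ↥(modularFunctionFieldFullC (ResidueField A) M) c →
      ttraRed2 M A hpM hA ⟨x, hx₂⟩ = algebraMap (ResidueField A) ↥(modularFunctionFieldFullC (ResidueField A) M) c →
      ∀ Dx : Divisor Qb ↥(modularFunctionFieldBar (M * p)), (∀ v : Place Qb ↥(modularFunctionFieldBar (M * p)), Dx v = v.ord x) →
        (∀ v : Place Qb ↥(modularFunctionFieldBar (M * p)), cls v = none → Dx v = 0) ∧ Finsupp.mapDomain cls Dx = 0) :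
    TtgModel A (ttrV1 M A hpM hA) (ttraV2 M A hpM hA) (ttraRed1 M A hpM hA)
      (ttraRed2 M A hpM hA) (ffigRho (M * p) A) cls ν₁ ν₂ T₁ T₂ g g₁ g₂ :=
  ttra_model M A hpM hA (ttra_h₁ M A hpM hA) (ttra_hcomm M A hpM) cls ν₁ ν₂ T₁ T₂ g g₁ g₂
    lift₁ lift₂ ν₁_inj ν₂_inj ν₁_mem ν₂_mem nodes genus_le into val₁ val₂ const

/-- **LEAF (RED2) at level `M p`** from the ELEVEN open geometric inputs (`nodes` is derived from
`genus_le`, helper27). -/
theorem ttra_red2
    (cls : Place Qb ↥(modularFunctionFieldBar (M * p)) → Option (Place (ResidueField A) ↥(modularFunctionFieldFullC (ResidueField A) M) ⊕ Place (ResidueField A) ↥(modularFunctionFieldFullC (ResidueField A) M)))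
    {S : Type} [Fintype S] (ν₁ ν₂ : S → Place (ResidueField A) ↥(modularFunctionFieldFullC (ResidueField A) M))
    (T₁ T₂ : Finset (Place (ResidueField A) ↥(modularFunctionFieldFullC (ResidueField A) M)))
    -- PLACES (helper6 (B3))
    (lift₁ : ∀ Q : Place (ResidueField A) ↥(modularFunctionFieldFullC (ResidueField A) M), Q ∉ T₁ →
      ∃ P : Place Qb ↥(modularFunctionFieldBar (M * p)), cls P = some (Sum.inl Q) ∧ ∀ σ : ↥(ffI A), ffigRho (M * p) A σ • P = P)
    (lift₂ : ∀ Q : Place (ResidueField A) ↥(modularFunctionFieldFullC (ResidueField A) M), Q ∉ T₂ →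
      ∃ P : Place Qb ↥(modularFunctionFieldBar (M * p)), cls P = some (Sum.inr Q) ∧ ∀ σ : ↥(ffI A), ffigRho (M * p) A σ • P = P)
    -- NODE (helper19)
    (ν₁_inj : Function.Injective ν₁) (ν₂_inj : Function.Injective ν₂)
    (ν₁_mem : ∀ i, ν₁ i ∈ T₁) (ν₂_mem : ∀ i, ν₂ i ∈ T₂)
    -- COUNT (helper5)
    (genus_le : (genusFF FfQb ↥(modularFunctionFieldBar (M * p)) : ℤ) ≤
      (genusFF FfQb ↥(modularFunctionFieldBar M) : ℤ) +
        (genusFF FfQb ↥(modularFunctionFieldBar M) : ℤ) + (Fintype.card S : ℤ) - 1)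
    -- INTO (helper23)
    (into : ∀ D : Divisor Qb ↥(modularFunctionFieldBar (M * p)), (∀ P, D P ≠ 0 → cls P ≠ none) →
      (∀ P, -1 ≤ D P) →
      (∀ P P' : Place Qb ↥(modularFunctionFieldBar (M * p)), cls P = cls P' → D P < 0 → D P' < 0 →
        P = P') →
      ∀ (x : ↥(modularFunctionFieldBar (M * p))) (hx₁ : x ∈ ttrV1 M A hpM hA) (hx₂ : x ∈ ttraV2 M A hpM hA),
        x ∈ riemannRochSpace D →
        (ttraRed1 M A hpM hA ⟨x, hx₁⟩, ttraRed2 M A hpM hA ⟨x, hx₂⟩) ∈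
          ttnkL ν₁ ν₂ (ttgPush₁ cls D) (ttgPush₂ cls D))
    -- VALUES (helper6 (B2) + helper23 (LOC))
    (val₁ : ∀ (P : Place Qb ↥(modularFunctionFieldBar (M * p))) (Q : Place (ResidueField A) ↥(modularFunctionFieldFullC (ResidueField A) M)), cls P = some (Sum.inl Q) →
      ∀ (x : ↥(modularFunctionFieldBar (M * p))) (hx₁ : x ∈ ttrV1 M A hpM hA) (hx₂ : x ∈ ttraV2 M A hpM hA),
        (∀ P' : Place Qb ↥(modularFunctionFieldBar (M * p)), cls P' = some (Sum.inl Q) → 0 ≤ P'.ord x) →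
        ∃ α : A, GrdVal P x (α : Qb) ∧ GrdVal Q (ttraRed1 M A hpM hA ⟨x, hx₁⟩) (residue A α))
    (val₂ : ∀ (P : Place Qb ↥(modularFunctionFieldBar (M * p))) (Q : Place (ResidueField A) ↥(modularFunctionFieldFullC (ResidueField A) M)), cls P = some (Sum.inr Q) →
      ∀ (x : ↥(modularFunctionFieldBar (M * p))) (hx₁ : x ∈ ttrV1 M A hpM hA) (hx₂ : x ∈ ttraV2 M A hpM hA),
        (∀ P' : Place Qb ↥(modularFunctionFieldBar (M * p)), cls P' = some (Sum.inr Q) → 0 ≤ P'.ord x) →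
        ∃ α : A, GrdVal P x (α : Qb) ∧ GrdVal Q (ttraRed2 M A hpM hA ⟨x, hx₂⟩) (residue A α))
    -- BRIDGE (V)+(D) (helper15)
    (const : ∀ (x : ↥(modularFunctionFieldBar (M * p))) (hx₁ : x ∈ ttrV1 M A hpM hA) (hx₂ : x ∈ ttraV2 M A hpM hA)
      (c : ResidueField A), c ≠ 0 → x ≠ 0 →
      (∀ v : Place Qb ↥(modularFunctionFieldBar (M * p)), cls v = none → 0 ≤ v.ord x) →
      ttraRed1 M A hpM hA ⟨x, hx₁⟩ = algebraMap (ResidueField A) ↥(modularFunctionFieldFullC (ResidueField A) M) c →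
      ttraRed2 M A hpM hA ⟨x, hx₂⟩ = algebraMap (ResidueField A) ↥(modularFunctionFieldFullC (ResidueField A) M) c →
      ∀ Dx : Divisor Qb ↥(modularFunctionFieldBar (M * p)), (∀ v : Place Qb ↥(modularFunctionFieldBar (M * p)), Dx v = v.ord x) →
        (∀ v : Place Qb ↥(modularFunctionFieldBar (M * p)), cls v = none → Dx v = 0) ∧ Finsupp.mapDomain cls Dx = 0) :
    TtgRed2Spec M p A :=
  ttra_red2_of_model M A hpM hA cls ν₁ ν₂ T₁ T₂
    (ttra_model_inst M A hpM hA cls ν₁ ν₂ T₁ T₂ _ _ _ lift₁ lift₂ ν₁_inj ν₂_inj ν₁_mem ν₂_mem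
      (ttrq_nodes_of_genus_le M (Fact.out : p.Prime) hpM S genus_le) genus_le into val₁ val₂
      const)

end Fermat.Agent.TT
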