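import Mathlib
import Fermat.Agent.TT.Red2.ChartRed
import Fermat.Agent.G.Red.InstSmall
import Fermat.Agent.SS.Geo.NewtonPhi
import Fermat.Agent.SS.Germ.Close

/-!
# Program TT (S33), G/Red2 leaf (A8) : THE CHART RINGS OF `X₀(p M)` AT `p`  (part 3 : `p ∈ {2, 3}`)

Owner: helper17.  Namespace `Fermat.Agent.TT`, prefix `ttrc`.  Notation of `TT/Red2/Chart.lean`.

For `p ∈ {2, 3}` the atlas of level `M` is `h_a`, `h_a⁻¹` (`a = 5 - p ∣ M`, main's `grd_atlas_small`),
`h_a` the Hauptmodul of `Γ₀(a)`.  All hypotheses of the generic theorems of `Chart.lean` /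
`ChartRed.lean` are discharged for BOTH charts of this atlas :

* `ttrc_pole_h`, `ttrc_loc_h`, `ttrc_loc_hinv` : `TtrcLoc` (hence saturation `ttrc_saturated`,
  `ttrc_saturated_int`, the kernel `ttrc_ker`, fractions `ttrc_frac`, the conductor);
* `ttrc_be_h_isInt`, `ttrc_be_hinv_isInt` : `β h_a = h_a(q^p)` is integral over `𝔸[α h_a]` and
  `β h_a⁻¹` is integral over `𝔸[α h_a⁻¹]` at level `M p` (the hypothesis `hbe` of `ttrc_lift₂`;
  main's Newton polygon theorem `ssgnp_hInt` over `E = ℚ`, pushed up to `ℚ̄` by `grdl_isInt_up`) :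
  here `β` maps the chart ring of level `M` into the chart ring of level `M p` on BOTH charts
  (for `τ = j` this holds on the finite chart only);
* `ttrc_lift₂_h`, `ttrc_lift₂_hinv` : (A8)(iv) ONTO, second branch, both charts;
* `ttrc_exists_atlas` : the uniform package for every prime `p ∤ M` with `5 ≤ p ∨ (5 - p) ∣ M` :
  an atlas `τ, τ'` of level `M` with `TtrcLoc` for both charts, the pole of `τ`, and `hbe` for `τ`.
-/

set_option autoImplicit false
set_option linter.unusedSectionVars false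
set_option linter.unusedVariables false
set_option linter.style.haveILetI false
set_option synthInstance.maxHeartbeats 400000

noncomputable section

namespace Fermat.Agent.TT

open Polynomial ModularCurve AlgebraicCurve IsLocalRing IntermediateField Fermat.Agent.S24
  Fermat.Agent.G Fermat.Agent.S18 Fermat.Agent.SS Fermat.Agent.SQ

local notation "Qb" => AlgebraicClosure ℚ

attribute [local instance] ttrc_neZero

section H

variable {M : ℕ} [NeZero M] {p : ℕ} [Fact p.Prime] {A : ValuationSubring Qb}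
variable {w : modularFunctionFieldBar (M * p) ≃+* modularFunctionFieldBar (M * p)}

/-- `h_a` has a pole modulo every prime -/
theorem ttrc_pole_h (a : ℕ) [NeZero a] (e : ℕ) (K : Type) [Field K] :
    (grdSer (s18hq a e ℤ) K).order < 0 := by
  rw [grdis_grdSer_hq]
  exact s18hk_order_hq_neg a e

/-- `TtrcLoc` for `τ = h_a`, `a = 5 - p`, `a ∣ M`. -/
theorem ttrc_loc_h (hA : A.LiesOverPrime p) (hpM : ¬ p ∣ M) (hw : TtrcW M p w)
    (a : ℕ) [NeZero a] (ha : (p = 2 ∧ a = 3) ∨ (p = 3 ∧ a = 2)) (haM : a ∣ M) :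
    TtrcLoc M p A w (s18hq a (s18hExp a) ℤ)
      (ttrc_serMem M p (grd_chart_h M A a hpM hA ha haM).mem) :=
  ttrc_loc_of_chart hA hpM hw (grd_chart_h M A a hpM hA ha haM)
    (fun K _ => ttrc_pole_h a _ K)

/-- `TtrcLoc` for `τ' = h_a⁻¹`. -/
theorem ttrc_loc_hinv (hA : A.LiesOverPrime p) (hpM : ¬ p ∣ M) (hw : TtrcW M p w)
    (a : ℕ) [NeZero a] (ha : (p = 2 ∧ a = 3) ∨ (p = 3 ∧ a = 2)) (haM : a ∣ M)
    {τ' : LaurentSeries ℤ} (hτ' : s18hq a (s18hExp a) ℤ * τ' = 1) :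
    TtrcLoc M p A w τ' (ttrc_serMem M p (grd_chart_hinv M A a hpM hA ha haM τ' hτ').mem) :=
  ttrc_loc_inv hτ' (ttrc_loc_h hA hpM hw a ha haM) _

/-- **`h_a(q^p)` IS INTEGRAL OVER `𝔸[h_a]` AT LEVEL `M p`** (`p ∈ {2,3}`, `a = 5 - p ∣ M`; main's
Newton polygon theorem `ssgnp_hInt` over `E = ℚ`, pushed up to `ℚ̄`). -/
theorem ttrc_be_h_isInt (hA : A.LiesOverPrime p)
    (a : ℕ) [NeZero a] (ha : (p = 2 ∧ a = 3) ∨ (p = 3 ∧ a = 2)) (haM : a ∣ M)
    (hmem : GrdSerMem M (s18hq a (s18hExp a) ℤ)) :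
    heckeBetaBar Qb M p (grdQ M hmem) ∈
      grdB (M * p) A (grdQ (M * p) (ttrc_serMem M p hmem)) := by
  have ha23 : a = 2 ∨ a = 3 := by
    rcases ha with ⟨-, h⟩ | ⟨-, h⟩
    · exact Or.inr h
    · exact Or.inl h
  haveI : IsDiscreteValuationRing (s18dVal A (⊥ : IntermediateField ℚ Qb)) := s18d_isDVR A ⊥ hA
  have hInt := (ssgnp_hInt A hA (⊥ : IntermediateField ℚ Qb) M a ha23 haM ha
    (ssgcl_modPoly_over p A hA ⊥)).1 _ (s18tc_self_mem_int _)
  have e1 : ssgH (⊥ : IntermediateField ℚ Qb) (M * p) a ha23 (haM.mul_right p) =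
      ⟨grdSer (s18hq a (s18hExp a) ℤ) (⊥ : IntermediateField ℚ Qb),
        ttrc_serMem M p hmem (⊥ : IntermediateField ℚ Qb)⟩ :=
    Subtype.ext (grdis_grdSer_hq a _ _).symm
  rw [e1] at hInt
  have h := grdl_isInt_up (A := A) (ttrc_serMem M p hmem) _ hInt
  have e2 : grdlUp (M * p) (⊥ : IntermediateField ℚ Qb)
      (ssvmfPhi (⊥ : IntermediateField ℚ Qb) M p
        (ssgH (⊥ : IntermediateField ℚ Qb) M a ha23 haM)) =
      heckeBetaBar Qb M p (grdQ M hmem) := by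
    apply Subtype.ext
    have h2 : ((grdQ M hmem : modularFunctionFieldBar M) : LaurentSeries Qb) =
        grdSer (s18hq a (s18hExp a) ℤ) Qb := rfl
    rw [grdlUp_coe, ssvmfPhi_coe, coe_ssgH, coe_heckeBetaBar, h2, grdis_grdSer_hq,
      coeffMap_qExpand, s18hk_coeffMap_hq]
  rw [e2] at h
  exact h

/-- **`h_a⁻¹(q^p)` IS INTEGRAL OVER `𝔸[h_a⁻¹]` AT LEVEL `M p`**. -/
theorem ttrc_be_hinv_isInt (hA : A.LiesOverPrime p)
    (a : ℕ) [NeZero a] (ha : (p = 2 ∧ a = 3) ∨ (p = 3 ∧ a = 2)) (haM : a ∣ M)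
    (hmem : GrdSerMem M (s18hq a (s18hExp a) ℤ))
    {τ' : LaurentSeries ℤ} (hτ' : s18hq a (s18hExp a) ℤ * τ' = 1) (hmem' : GrdSerMem M τ') :
    heckeBetaBar Qb M p (grdQ M hmem') ∈
      grdB (M * p) A (grdQ (M * p) (ttrc_serMem M p hmem')) := by
  have ha23 : a = 2 ∨ a = 3 := by
    rcases ha with ⟨-, h⟩ | ⟨-, h⟩
    · exact Or.inr h
    · exact Or.inl h
  haveI : IsDiscreteValuationRing (s18dVal A (⊥ : IntermediateField ℚ Qb)) := s18d_isDVR A ⊥ hA
  have hInt := (ssgnp_hInt A hA (⊥ : IntermediateField ℚ Qb) M a ha23 haM ha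
    (ssgcl_modPoly_over p A hA ⊥)).2 _ (s18tc_self_mem_int _)
  have e1 : (ssgH (⊥ : IntermediateField ℚ Qb) (M * p) a ha23 (haM.mul_right p))⁻¹ =
      ⟨grdSer τ' (⊥ : IntermediateField ℚ Qb),
        ttrc_serMem M p hmem' (⊥ : IntermediateField ℚ Qb)⟩ := by
    apply Subtype.ext
    rw [IntermediateField.coe_inv, coe_ssgH]
    show _ = grdSer τ' (⊥ : IntermediateField ℚ Qb)
    rw [grdis_grdSer_inv hτ', grdis_grdSer_hq]
  rw [e1] at hInt
  have h := grdl_isInt_up (A := A) (ttrc_serMem M p hmem') _ hInt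
  have e2 : grdlUp (M * p) (⊥ : IntermediateField ℚ Qb)
      (ssvmfPhi (⊥ : IntermediateField ℚ Qb) M p
        (ssgH (⊥ : IntermediateField ℚ Qb) M a ha23 haM)⁻¹) =
      heckeBetaBar Qb M p (grdQ M hmem') := by
    rw [grdis_grdQ_inv M hτ' hmem hmem', map_inv₀, map_inv₀, map_inv₀]
    congr 1
    apply Subtype.ext
    have h2 : ((grdQ M hmem : modularFunctionFieldBar M) : LaurentSeries Qb) =
        grdSer (s18hq a (s18hExp a) ℤ) Qb := rfl
    rw [grdlUp_coe, ssvmfPhi_coe, coe_ssgH, coe_heckeBetaBar, h2, grdis_grdSer_hq,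
      coeffMap_qExpand, s18hk_coeffMap_hq]
  rw [e2] at h
  exact h

/-- (A8)(iv) ONTO, second branch, for `τ = h_a`. -/
theorem ttrc_lift₂_h (hpM : ¬ p ∣ M) (hA : A.LiesOverPrime p) (hw : TtrcW M p w)
    (a : ℕ) [NeZero a] (ha : (p = 2 ∧ a = 3) ∨ (p = 3 ∧ a = 2)) (haM : a ∣ M)
    (c : ↥(intRing (ResidueField A) (grdK M A (grd_chart_h M A a hpM hA ha haM).mem))) :
    ∃ x : modularFunctionFieldBar (M * p),
      x ∈ grdB (M * p) A
        (grdQ (M * p) (ttrc_serMem M p (grd_chart_h M A a hpM hA ha haM).mem)) ∧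
      ∃ (h₁ : x ∈ grdO (M * p) A) (h₂ : w x ∈ grdO (M * p) A),
        ((grdRed (M * p) A ⟨x, h₁⟩ : modularFunctionFieldFullC (ResidueField A) (M * p)) :
          LaurentSeries (ResidueField A)) =
          qExpand (ResidueField A) p
            ((c : modularFunctionFieldFullC (ResidueField A) M) :
              LaurentSeries (ResidueField A)) ∧
        ((grdRed (M * p) A ⟨w x, h₂⟩ : modularFunctionFieldFullC (ResidueField A) (M * p)) :
          LaurentSeries (ResidueField A)) =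
          ((c : modularFunctionFieldFullC (ResidueField A) M) :
            LaurentSeries (ResidueField A)) :=
  ttrc_lift₂ hpM hA hw (grd_chart_h M A a hpM hA ha haM)
    (ttrc_be_h_isInt hA a ha haM _) c

/-- (A8)(iv) ONTO, second branch, for `τ' = h_a⁻¹`. -/
theorem ttrc_lift₂_hinv (hpM : ¬ p ∣ M) (hA : A.LiesOverPrime p) (hw : TtrcW M p w)
    (a : ℕ) [NeZero a] (ha : (p = 2 ∧ a = 3) ∨ (p = 3 ∧ a = 2)) (haM : a ∣ M)
    {τ' : LaurentSeries ℤ} (hτ' : s18hq a (s18hExp a) ℤ * τ' = 1)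
    (c : ↥(intRing (ResidueField A)
      (grdK M A (grd_chart_hinv M A a hpM hA ha haM τ' hτ').mem))) :
    ∃ x : modularFunctionFieldBar (M * p),
      x ∈ grdB (M * p) A
        (grdQ (M * p) (ttrc_serMem M p (grd_chart_hinv M A a hpM hA ha haM τ' hτ').mem)) ∧
      ∃ (h₁ : x ∈ grdO (M * p) A) (h₂ : w x ∈ grdO (M * p) A),
        ((grdRed (M * p) A ⟨x, h₁⟩ : modularFunctionFieldFullC (ResidueField A) (M * p)) :
          LaurentSeries (ResidueField A)) =
          qExpand (ResidueField A) p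
            ((c : modularFunctionFieldFullC (ResidueField A) M) :
              LaurentSeries (ResidueField A)) ∧
        ((grdRed (M * p) A ⟨w x, h₂⟩ : modularFunctionFieldFullC (ResidueField A) (M * p)) :
          LaurentSeries (ResidueField A)) =
          ((c : modularFunctionFieldFullC (ResidueField A) M) :
            LaurentSeries (ResidueField A)) :=
  ttrc_lift₂ hpM hA hw (grd_chart_hinv M A a hpM hA ha haM τ' hτ')
    (ttrc_be_hinv_isInt hA a ha haM (grd_chart_h M A a hpM hA ha haM).mem hτ' _) c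

/-- **THE ATLAS PACKAGE at level `M p`**, every prime `p ∤ M` with `5 ≤ p` or `(5 - p) ∣ M` :
an atlas `τ, τ'` of level `M` (`τ = j` for `p ≥ 5`, `τ = h_{5-p}` for `p ∈ {2,3}`) such that
`TtrcLoc` holds for both charts, `τ` has a pole modulo every prime, and `β τ` is integral over
`𝔸[α τ]` (`hbe` of `ttrc_lift₂`). -/
theorem ttrc_exists_atlas (hA : A.LiesOverPrime p) (hpM : ¬ p ∣ M) (hw : TtrcW M p w)
    (h5 : 5 ≤ p ∨ (5 - p) ∣ M) :
    ∃ (τ τ' : LaurentSeries ℤ) (hat : GrdAtlas M A τ τ'),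
      TtrcLoc M p A w τ (ttrc_serMem M p hat.c.mem) ∧
      TtrcLoc M p A w τ' (ttrc_serMem M p hat.c'.mem) ∧
      (∀ (K : Type) [Field K], (grdSer τ K).order < 0) ∧
      heckeBetaBar Qb M p (grdQ M hat.c.mem) ∈
        grdB (M * p) A (grdQ (M * p) (ttrc_serMem M p hat.c.mem)) := by
  by_cases h5' : 5 ≤ p
  · obtain ⟨τ', hτ'⟩ := grd_exists_jinv
    exact ⟨_, τ', ⟨hτ', grd_chart_j M A hpM hA h5', grd_chart_jinv M A hpM hA h5' τ' hτ'⟩,
      ttrc_loc_j hA hpM hw, ttrc_loc_jinv hA hpM hw hτ', fun K _ => ttrc_pole_j K,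
      ttrc_be_j_isInt hA hpM hw⟩
  · have hd : (5 - p) ∣ M := h5.resolve_left h5'
    have hp : p.Prime := Fact.out
    have h23 : p = 2 ∨ p = 3 := by
      have h2 := hp.two_le
      have hlt : p < 5 := by omega
      interval_cases p
      · exact Or.inl rfl
      · exact Or.inr rfl
      · exact absurd hp (by decide)
    rcases h23 with rfl | rfl
    · haveI : NeZero (3 : ℕ) := ⟨by norm_num⟩
      exact ⟨_, _, grd_atlas_small M A 3 hpM hA (Or.inl ⟨rfl, rfl⟩) hd,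
        ttrc_loc_h hA hpM hw 3 (Or.inl ⟨rfl, rfl⟩) hd,
        ttrc_loc_hinv hA hpM hw 3 (Or.inl ⟨rfl, rfl⟩) hd (grdis_mul_hinv 3 _),
        fun K _ => ttrc_pole_h 3 _ K,
        ttrc_be_h_isInt hA 3 (Or.inl ⟨rfl, rfl⟩) hd _⟩
    · haveI : NeZero (2 : ℕ) := ⟨by norm_num⟩
      exact ⟨_, _, grd_atlas_small M A 2 hpM hA (Or.inr ⟨rfl, rfl⟩) hd,
        ttrc_loc_h hA hpM hw 2 (Or.inr ⟨rfl, rfl⟩) hd,
        ttrc_loc_hinv hA hpM hw 2 (Or.inr ⟨rfl, rfl⟩) hd (grdis_mul_hinv 2 _),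
        fun K _ => ttrc_pole_h 2 _ K,
        ttrc_be_h_isInt hA 2 (Or.inr ⟨rfl, rfl⟩) hd _⟩

end H

end Fermat.Agent.TT
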