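import Mathlib
import Fermat.Agent.SS.Val.ModCoeff
import Fermat.Agent.G.Red.Defs
import Fermat.Agent.G.Red.Inst

/-!
# Program TT (S33), two-valuation layer: THE CUSP CHART, integrality of `Y / J^p` over `𝔸[1/J]`

Owner: helper25 (sub-slice (S2) of helper17's (A8)).  Namespace `Fermat.Agent.TT`, prefix `ttrci`.

* `ttrci_int` (Mathlib only): if `Φ(J, Y) = 0` with `Φ ∈ R[X][T]` monic of degree `d` in `T` and
  `deg_X Φ_n ≤ q (d - n)` for all `n`, and `J J' = 1`, then `Y J'^q` is integral over `R[J']`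
  (divide the equation by `J^{q d}`; `ttrci_reflect` : `Φ_n(J) J'^N` is a polynomial in `J'`).
* `ttrci_Y` : for `J, Y ∈ F_ℚ̄(N)` with `q`-expansions `j(q)`, `j(q^p)` and `J J' = 1` :
  `Y J'^p ∈ grdB N A J'` (`GrdIsInt N A J' (Y * J'^p)`), `A` a place of `ℚ̄` over `p`.  Input: main's
  modular polynomial `ssvmc_modular` (monic of degree `p + 1`, `deg_X Φ_0 ≤ p + 1`,
  `deg_X Φ_n ≤ p` for `n ≥ 1`).  NO saturation, NO place theory.
* `ttrci_u1`, `ttrci_u2` : `(Y - J^p) J'^p = Y' - 1` and `(Y^p - J) J'^(p^2) = Y'^p - J'^(p^2-1)` lie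
  in `grdB N A J'` (`Y' = Y J'^p`): the elements `u₁ / J^p`, `v' = u₂ / J^{p²}` of the cusp chart.
* `ttrci_level` : the same at level `M p` for `J = α j`, `Y = β j`, `J' = α (1/j)`.
-/

set_option autoImplicit false
set_option linter.unusedSectionVars false
set_option linter.unusedVariables false

noncomputable section

namespace Fermat.Agent.TT

open Polynomial ModularCurve AlgebraicCurve IsLocalRing Fermat.Agent.S18 Fermat.Agent.G
  Fermat.Agent.SS

local notation "Qb" => AlgebraicClosure ℚ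

section Abs

variable {R F : Type*} [CommRing R] [CommRing F] (φ : R →+* F)

/-- `Φ_n(J) · J'^N` is a polynomial in `J' = J⁻¹` when `deg Φ_n ≤ N` -/
theorem ttrci_reflect {J J' : F} (hJ : J * J' = 1) (N : ℕ) (f : Polynomial R)
    (hf : f.natDegree ≤ N) :
    eval₂ φ J' (reflect N f) = eval₂ φ J f * J' ^ N := by
  let : Invertible J := ⟨J', by rw [mul_comm]; exact hJ, hJ⟩
  have h := eval₂_reflect_mul_pow φ J N f hf
  have h2 : (⅟J : F) = J' := rfl
  rw [h2] at h
  rw [← h, mul_assoc, ← mul_pow, hJ, one_pow, mul_one]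

/-- **the cusp-chart integrality, abstract form**: if `Φ(J, Y) = 0` with `Φ ∈ R[X][T]` monic of
degree `d` in `T` and `deg_X Φ_n ≤ q (d - n)`, then `Y / J^q` is integral over `R[1/J]`. -/
theorem ttrci_int {J J' Y : F} (hJ : J * J' = 1) (q d : ℕ) (Φ : Polynomial (Polynomial R))
    (hm : Φ.Monic) (hd : Φ.natDegree = d)
    (hdeg : ∀ n, (Φ.coeff n).natDegree ≤ q * (d - n))
    (h0 : eval₂ (eval₂RingHom φ J) Y Φ = 0) :
    (eval₂RingHom φ J').IsIntegralElem (Y * J' ^ q) := by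
  classical
  set r : ℕ → Polynomial R := fun n => reflect (q * (d - n)) (Φ.coeff n) with hr
  have hlt : (∑ n ∈ Finset.range d, monomial n (r n)).degree < (d : WithBot ℕ) := by
    refine lt_of_le_of_lt (degree_sum_le _ _) ?_
    exact (Finset.sup_lt_iff (WithBot.bot_lt_coe d)).mpr fun n hn =>
      lt_of_le_of_lt (degree_monomial_le n _) (WithBot.coe_lt_coe.mpr (Finset.mem_range.mp hn))
  refine ⟨X ^ d + ∑ n ∈ Finset.range d, monomial n (r n), monic_X_pow_add hlt, ?_⟩
  -- the original equation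
  have hΦd : Φ.coeff d = 1 := by rw [← hd]; exact hm.coeff_natDegree
  have h1 : eval₂ (eval₂RingHom φ J) Y Φ =
      Y ^ d + ∑ n ∈ Finset.range d, eval₂ φ J (Φ.coeff n) * Y ^ n := by
    rw [eval₂_eq_sum_range, hd, Finset.sum_range_succ, hΦd, map_one, one_mul, add_comm]
    rfl
  rw [h0] at h1
  -- evaluate the new polynomial
  rw [eval₂_add, eval₂_pow, eval₂_X, eval₂_finsetSum]
  have h2 : ∀ n ∈ Finset.range d,
      eval₂ (eval₂RingHom φ J') (Y * J' ^ q) (monomial n (r n)) =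
        J' ^ (q * d) * (eval₂ φ J (Φ.coeff n) * Y ^ n) := by
    intro n hn
    have hnd : n ≤ d := (Finset.mem_range.mp hn).le
    rw [eval₂_monomial, coe_eval₂RingHom, hr]
    simp only
    rw [ttrci_reflect φ hJ _ _ (hdeg n), mul_pow, ← pow_mul]
    have : q * d = q * (d - n) + q * n := by
      rw [← mul_add, Nat.sub_add_cancel hnd]
    rw [this, pow_add]
    ring
  rw [Finset.sum_congr rfl h2, ← Finset.mul_sum, mul_pow, ← pow_mul]
  have h3 : ∑ n ∈ Finset.range d, eval₂ φ J (Φ.coeff n) * Y ^ n = -Y ^ d := by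
    rw [eq_neg_iff_add_eq_zero, add_comm]
    exact h1.symm
  rw [h3]
  ring

end Abs


section Inst

variable (N : ℕ) [NeZero N] {p : ℕ} [Fact p.Prime] (A : ValuationSubring Qb)

/-- **`Y / J^p` is integral over `𝔸[1/J]`** at every level `N`, for `J, Y ∈ F_ℚ̄(N)` with
`q`-expansions `j(q)`, `j(q^p)`; `A` a place of `ℚ̄` over `p`. -/
theorem ttrci_Y (hA : A.LiesOverPrime p) {J J' Y : modularFunctionFieldBar N}
    (hJ : ((J : modularFunctionFieldBar N) : LaurentSeries Qb) = jqModC Qb)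
    (hY : haveI : NeZero p := ⟨(Fact.out : p.Prime).ne_zero⟩
      ((Y : modularFunctionFieldBar N) : LaurentSeries Qb) = qExpand Qb p (jqModC Qb))
    (hJJ' : J * J' = 1) : GrdIsInt N A J' (Y * J' ^ p) := by
  have : NeZero p := ⟨(Fact.out : p.Prime).ne_zero⟩
  have hp : p.Prime := Fact.out
  obtain ⟨Φ, hΦm, hΦd, hΦc, -, hroot, -, hΦc'⟩ :=
    ssvmc_modular (q := p) A (⊥ : IntermediateField ℚ Qb) hA
  -- the coefficient maps
  set ι : ↥(s18dVal A (⊥ : IntermediateField ℚ Qb)) →+* ↥A := s18dIncl A ⊥ with hι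
  set f : ↥(s18dVal A (⊥ : IntermediateField ℚ Qb)) →+* Qb := ssvmcF A ⊥ with hf
  set φ : ↥(s18dVal A (⊥ : IntermediateField ℚ Qb)) →+* ↥(modularFunctionFieldBar N) :=
    (grdInclA N A).comp ι with hφ
  -- the degree bounds
  have hdeg : ∀ n, (Φ.coeff n).natDegree ≤ p * (p + 1 - n) := by
    intro n
    rcases Nat.lt_or_ge n (p + 1) with hn | hn
    · rcases Nat.eq_zero_or_pos n with rfl | hn0
      · refine (hΦc 0).trans ?_
        rw [Nat.sub_zero]
        exact Nat.le_mul_of_pos_left _ hp.pos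
      · refine (hΦc' n hn0).trans ?_
        exact Nat.le_mul_of_pos_right _ (by omega)
    · rcases Nat.eq_or_lt_of_le hn with rfl | hn'
      · have : Φ.coeff (p + 1) = 1 := by rw [← hΦd]; exact hΦm.coeff_natDegree
        rw [this, natDegree_one]
        exact Nat.zero_le _
      · rw [coeff_eq_zero_of_natDegree_lt (by rw [hΦd]; exact hn'), natDegree_zero]
        exact Nat.zero_le _
  -- the equation `Φ(J, Y) = 0` in `F_ℚ̄(N)`
  have h0 : eval₂ (eval₂RingHom φ J) Y Φ = 0 := by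
    apply (modularFunctionFieldBar N).val.toRingHom.injective
    rw [map_zero, Polynomial.hom_eval₂]
    have hcomp : ((modularFunctionFieldBar N).val.toRingHom).comp (eval₂RingHom φ J) =
        (coeffMap f).comp (ssvmcEv ↥(s18dVal A (⊥ : IntermediateField ℚ Qb))) := by
      apply Polynomial.ringHom_ext
      · intro a
        simp only [RingHom.coe_comp, Function.comp_apply, coe_eval₂RingHom, eval₂_C,
          ssvmcEv_apply, aeval_C, ssvmc_coeffMap_algebraMap]
        rfl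
      · simp only [RingHom.coe_comp, Function.comp_apply, coe_eval₂RingHom, eval₂_X,
          ssvmcEv_apply, aeval_X, coeffMap_jqModC]
        exact hJ
    have hy : (modularFunctionFieldBar N).val.toRingHom Y =
        coeffMap f (qExpand ↥(s18dVal A (⊥ : IntermediateField ℚ Qb)) p
          (jqModC ↥(s18dVal A (⊥ : IntermediateField ℚ Qb)))) := by
      rw [coeffMap_qExpand, coeffMap_jqModC]
      exact hY
    rw [hcomp, hy, ← Polynomial.hom_eval₂, ← Polynomial.eval_map, hroot, map_zero]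
  obtain ⟨Ψ, hΨm, hΨ0⟩ := ttrci_int φ hJJ' p (p + 1) Φ hΦm hΦd hdeg h0
  refine ⟨Ψ.map (mapRingHom ι), hΨm.map _, ?_⟩
  rw [eval₂_map]
  have hcomp2 : (eval₂RingHom (grdInclA N A) J').comp (mapRingHom ι) = eval₂RingHom φ J' := by
    apply Polynomial.ringHom_ext
    · intro a
      simp [hφ]
    · simp
  rw [hcomp2]
  exact hΨ0


/-- the chart coordinate is integral -/
theorem ttrci_self (u : modularFunctionFieldBar N) : GrdIsInt N A u u :=
  ⟨X - C X, monic_X_sub_C _, by simp⟩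

/-- `u₁ / J^p = Y' - 1` lies in the cusp chart ring -/
theorem ttrci_u1 (hA : A.LiesOverPrime p) {J J' Y : modularFunctionFieldBar N}
    (hJ : ((J : modularFunctionFieldBar N) : LaurentSeries Qb) = jqModC Qb)
    (hY : haveI : NeZero p := ⟨(Fact.out : p.Prime).ne_zero⟩
      ((Y : modularFunctionFieldBar N) : LaurentSeries Qb) = qExpand Qb p (jqModC Qb))
    (hJJ' : J * J' = 1) : GrdIsInt N A J' ((Y - J ^ p) * J' ^ p) := by
  have h1 : (Y - J ^ p) * J' ^ p = Y * J' ^ p - 1 := by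
    rw [sub_mul, ← mul_pow, hJJ', one_pow]
  rw [h1]
  exact (grdB N A J').sub_mem (ttrci_Y N A hA hJ hY hJJ') (grdB N A J').one_mem

/-- `v' = u₂ / J^{p²} = Y'^p - J'^{p² - 1}` lies in the cusp chart ring -/
theorem ttrci_u2 (hA : A.LiesOverPrime p) {J J' Y : modularFunctionFieldBar N}
    (hJ : ((J : modularFunctionFieldBar N) : LaurentSeries Qb) = jqModC Qb)
    (hY : haveI : NeZero p := ⟨(Fact.out : p.Prime).ne_zero⟩
      ((Y : modularFunctionFieldBar N) : LaurentSeries Qb) = qExpand Qb p (jqModC Qb))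
    (hJJ' : J * J' = 1) : GrdIsInt N A J' ((Y ^ p - J) * J' ^ (p ^ 2)) := by
  have hp : p.Prime := Fact.out
  have hp2 : p ^ 2 = (p ^ 2 - 1) + 1 := (Nat.sub_add_cancel (Nat.one_le_pow _ _ hp.pos)).symm
  have h1 : (Y ^ p - J) * J' ^ (p ^ 2) = (Y * J' ^ p) ^ p - J' ^ (p ^ 2 - 1) := by
    have h2 : J * J' ^ (p ^ 2) = J' ^ (p ^ 2 - 1) := by
      conv_lhs => rw [hp2, pow_succ, ← mul_assoc, mul_comm J, mul_assoc, hJJ', mul_one]
    rw [sub_mul, h2, mul_pow, ← pow_mul, sq]
  rw [h1]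
  exact (grdB N A J').sub_mem ((grdB N A J').pow_mem (ttrci_Y N A hA hJ hY hJJ') p)
    ((grdB N A J').pow_mem (ttrci_self N A J') _)

end Inst


section Level

variable (M : ℕ) [NeZero M] {p : ℕ} [Fact p.Prime] [NeZero p] (A : ValuationSubring Qb)

/-- **the cusp chart at level `M p`**: with `J = α j`, `Y = β j`, `J' = α (1/j)` the elements
`Y J'^p`, `(Y - J^p) J'^p`, `(Y^p - J) J'^(p²)` lie in `B' = grdB (M p) A J'`. -/
theorem ttrci_level (hA : A.LiesOverPrime p) {τ' : LaurentSeries ℤ} (hτ' : jqModC ℤ * τ' = 1) :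
    heckeBetaBar Qb M p (grdQ M (grdi_mem_j M)) *
        heckeAlphaBar Qb M p (grdQ M (grdi_mem_jinv M hτ')) ^ p ∈
      grdB (M * p) A (heckeAlphaBar Qb M p (grdQ M (grdi_mem_jinv M hτ'))) ∧
    (heckeBetaBar Qb M p (grdQ M (grdi_mem_j M)) -
        heckeAlphaBar Qb M p (grdQ M (grdi_mem_j M)) ^ p) *
        heckeAlphaBar Qb M p (grdQ M (grdi_mem_jinv M hτ')) ^ p ∈
      grdB (M * p) A (heckeAlphaBar Qb M p (grdQ M (grdi_mem_jinv M hτ'))) ∧
    (heckeBetaBar Qb M p (grdQ M (grdi_mem_j M)) ^ p -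
        heckeAlphaBar Qb M p (grdQ M (grdi_mem_j M))) *
        heckeAlphaBar Qb M p (grdQ M (grdi_mem_jinv M hτ')) ^ (p ^ 2) ∈
      grdB (M * p) A (heckeAlphaBar Qb M p (grdQ M (grdi_mem_jinv M hτ'))) := by
  have hJ : ((heckeAlphaBar Qb M p (grdQ M (grdi_mem_j M)) : modularFunctionFieldBar (M * p)) :
      LaurentSeries Qb) = jqModC Qb := by
    rw [coe_heckeAlphaBar]
    exact grdi_grdSer_j Qb
  have hY : ((heckeBetaBar Qb M p (grdQ M (grdi_mem_j M)) : modularFunctionFieldBar (M * p)) :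
      LaurentSeries Qb) = qExpand Qb p (jqModC Qb) := by
    rw [coe_heckeBetaBar]
    exact congrArg (qExpand Qb p) (grdi_grdSer_j Qb)
  have hJJ' : heckeAlphaBar Qb M p (grdQ M (grdi_mem_j M)) *
      heckeAlphaBar Qb M p (grdQ M (grdi_mem_jinv M hτ')) = 1 := by
    rw [← map_mul]
    have : grdQ M (grdi_mem_j M) * grdQ M (grdi_mem_jinv M hτ') = 1 := by
      rw [grdi_grdQ_j, grdi_grdQ_jinv M hτ']
      exact mul_inv_cancel₀ (fun h => Fermat.Agent.S24.transcendental_jBar M (h ▸ isAlgebraic_zero))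
    rw [this, map_one]
  exact ⟨ttrci_Y (M * p) A hA hJ hY hJJ', ttrci_u1 (M * p) A hA hJ hY hJJ',
    ttrci_u2 (M * p) A hA hJ hY hJJ'⟩

end Level

end Fermat.Agent.TT
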