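import Mathlib
import Fermat.Agent.TT.Red2.CuspInt

/-!
# Program TT (S33), gap (G1): the ONE-UNIT `h = Ψ(1/J)` of the cusp chart

Owner: helper25 (steps (a)+(b) of helper24's repair of (G1)).  Namespace `Fermat.Agent.TT`,
prefix `ttrcu`.

Let `Φ ∈ A₀[X][T]` be main's modular polynomial (`ssvmc_modular`): monic of degree `p + 1` in `T`,
`deg_X Φ_i ≤ p + 1`, `Φ ≡ (T - X^p)(T^p - X)` modulo the maximal ideal, `Φ(J, Y) = 0`.  Put
`Ψ := reverse_{p+1} (Φ(X, 0))`.  Then `Ψ ≡ 1` modulo the maximal ideal (Kronecker at `T = 0`: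
`Φ(X, 0) ≡ X^{p+1}`) and, with `J J' = 1`,

  `Ψ(J') = J'^{p+1} Φ(J, 0) = - J'^{p+1} · Y · R(J, Y)`,   `R := (Φ - Φ(X, 0)) / T`.

* `ttrcu_abs` (Mathlib only) : the identity, for any `Φ` with `Φ(J, Y) = 0`.
* `ttrcu_eval_mem` : `P(J, Y)` lies in every subring containing the constants, `J` and `Y`.
* `ttrcu_unit` : the statement for `J, Y ∈ F_ℚ̄(N)` given by their `q`-expansions.
* `ttrcu_unit_mem` : `Ψ(J') ∈ grdB N A J'`.
* `ttrcu_level` : the same at level `M p` for `J = α j`, `Y = β j`, `J' = α (1/j)`.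
-/

set_option autoImplicit false
set_option linter.unusedSectionVars false
set_option linter.unusedVariables false

noncomputable section

namespace Fermat.Agent.TT

open Polynomial ModularCurve AlgebraicCurve IsLocalRing Fermat.Agent.S18 Fermat.Agent.G
  Fermat.Agent.SS

local notation "Qb" => AlgebraicClosure ℚ

section Abs

variable {R F : Type*} [CommRing R] [CommRing F] (φ : R →+* F)

/-- `P(J, Y)` lies in every subring containing the constants, `J` and `Y` -/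
theorem ttrcu_eval_mem (S : Subring F) (J Y : F) (hc : ∀ a, φ a ∈ S) (hJ : J ∈ S) (hY : Y ∈ S)
    (P : Polynomial (Polynomial R)) : eval₂ (eval₂RingHom φ J) Y P ∈ S := by
  rw [eval₂_eq_sum_range]
  refine S.sum_mem fun i _ => S.mul_mem ?_ (S.pow_mem hY i)
  rw [coe_eval₂RingHom, eval₂_eq_sum_range]
  exact S.sum_mem fun k _ => S.mul_mem (hc _) (S.pow_mem hJ k)

/-- **the one-unit identity, abstract form** -/
theorem ttrcu_abs {J J' Y : F} (hJ : J * J' = 1) (d : ℕ) (Φ : Polynomial (Polynomial R))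
    (hdeg : (Φ.coeff 0).natDegree ≤ d) (h0 : eval₂ (eval₂RingHom φ J) Y Φ = 0) :
    eval₂ φ J' (reflect d (Φ.coeff 0)) =
      -(J' ^ d * Y * eval₂ (eval₂RingHom φ J) Y (divX Φ)) := by
  have h1 : eval₂ (eval₂RingHom φ J) Y Φ =
      eval₂ (eval₂RingHom φ J) Y (divX Φ) * Y + eval₂ φ J (Φ.coeff 0) := by
    conv_lhs => rw [← divX_mul_X_add Φ]
    rw [eval₂_add, eval₂_mul, eval₂_X, eval₂_C]
    rfl
  rw [h0] at h1
  have h2 : eval₂ φ J (Φ.coeff 0) = -(eval₂ (eval₂RingHom φ J) Y (divX Φ) * Y) := by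
    rw [eq_neg_iff_add_eq_zero, add_comm]
    exact h1.symm
  rw [ttrci_reflect φ hJ d _ hdeg, h2]
  ring

end Abs

section Loc

variable (A : ValuationSubring Qb) (E : IntermediateField ℚ Qb)

/-- the inclusion `𝔸 ∩ E → 𝔸` is local -/
theorem ttrcu_incl_isLocalHom : IsLocalHom (s18dIncl A E) := by
  refine ⟨fun a ha => ?_⟩
  obtain ⟨b, hb⟩ := ha.exists_right_inv
  have hb' : algebraMap E Qb (a : E) * (b : Qb) = 1 := by
    have := congrArg (Subtype.val) hb
    exact this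
  have ha0 : (a : E) ≠ 0 := by
    intro h
    rw [h, map_zero, zero_mul] at hb'
    exact zero_ne_one hb'
  have hinv : algebraMap E Qb ((a : E)⁻¹) = (b : Qb) := by
    rw [map_inv₀]
    exact (eq_inv_of_mul_eq_one_right hb').symm
  have hmem : (a : E)⁻¹ ∈ s18dVal A E := by
    change algebraMap E Qb ((a : E)⁻¹) ∈ A
    rw [hinv]
    exact b.2
  refine IsUnit.of_mul_eq_one (⟨(a : E)⁻¹, hmem⟩ : ↥(s18dVal A E)) ?_
  apply Subtype.ext
  change (a : E) * (a : E)⁻¹ = 1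
  exact mul_inv_cancel₀ ha0

end Loc

section Inst

variable (N : ℕ) [NeZero N] {p : ℕ} [Fact p.Prime] (A : ValuationSubring Qb)

/-- **the one-unit of the cusp chart**: `Ψ ∈ 𝔸[X]` with `Ψ̄ = 1` and
`Ψ(1/J) = - (1/J)^{p+1} · Y · R(J, Y)`. -/
theorem ttrcu_unit (hA : A.LiesOverPrime p) {J J' Y : modularFunctionFieldBar N}
    (hJ : ((J : modularFunctionFieldBar N) : LaurentSeries Qb) = jqModC Qb)
    (hY : haveI : NeZero p := ⟨(Fact.out : p.Prime).ne_zero⟩
      ((Y : modularFunctionFieldBar N) : LaurentSeries Qb) = qExpand Qb p (jqModC Qb))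
    (hJJ' : J * J' = 1) :
    ∃ Ψ : (↥A)[X], Ψ.map (residue ↥A) = 1 ∧ ∃ R : ↥(modularFunctionFieldBar N),
      (∀ S : Subring ↥(modularFunctionFieldBar N), (∀ a : ↥A, grdInclA N A a ∈ S) →
        J ∈ S → Y ∈ S → R ∈ S) ∧
      eval₂ (grdInclA N A) J' Ψ = -(J' ^ (p + 1) * Y * R) := by
  have : NeZero p := ⟨(Fact.out : p.Prime).ne_zero⟩
  have hp : p.Prime := Fact.out
  obtain ⟨Φ, hΦm, hΦd, hΦc, hΦk, hroot, -, hΦc'⟩ :=
    ssvmc_modular (q := p) A (⊥ : IntermediateField ℚ Qb) hA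
  -- the coefficient maps
  set ι : ↥(s18dVal A (⊥ : IntermediateField ℚ Qb)) →+* ↥A := s18dIncl A ⊥ with hι
  set f : ↥(s18dVal A (⊥ : IntermediateField ℚ Qb)) →+* Qb := ssvmcF A ⊥ with hf
  set φ : ↥(s18dVal A (⊥ : IntermediateField ℚ Qb)) →+* ↥(modularFunctionFieldBar N) :=
    (grdInclA N A).comp ι with hφ
  have : IsLocalHom ι := ttrcu_incl_isLocalHom A ⊥
  -- the equation `Φ(J, Y) = 0` in `F_ℚ̄(N)`
  have h0 : eval₂ (eval₂RingHom φ J) Y Φ = 0 := by
    apply (modularFunctionFieldBar N).val.toRingHom.injective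
    rw [map_zero, Polynomial.hom_eval₂]
    have hcomp : ((modularFunctionFieldBar N).val.toRingHom).comp (eval₂RingHom φ J) =
        (coeffMap f).comp (ssvmcEv ↥(s18dVal A (⊥ : IntermediateField ℚ Qb))) := by
      apply Polynomial.ringHom_ext
      · intro a
        simp only [RingHom.coe_comp, Function.comp_apply, coe_eval₂RingHom, eval₂_C,
          ssvmcEv_apply, aeval_C, ssvmc_coeffMap_algebraMap]
        rfl
      · simp only [RingHom.coe_comp, Function.comp_apply, coe_eval₂RingHom, eval₂_X,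
          ssvmcEv_apply, aeval_X, coeffMap_jqModC]
        exact hJ
    have hy : (modularFunctionFieldBar N).val.toRingHom Y =
        coeffMap f (qExpand ↥(s18dVal A (⊥ : IntermediateField ℚ Qb)) p
          (jqModC ↥(s18dVal A (⊥ : IntermediateField ℚ Qb)))) := by
      rw [coeffMap_qExpand, coeffMap_jqModC]
      exact hY
    rw [hcomp, hy, ← Polynomial.hom_eval₂, ← Polynomial.eval_map, hroot, map_zero]
  -- the reversed constant term
  set Ψ₀ : (↥(s18dVal A (⊥ : IntermediateField ℚ Qb)))[X] := reflect (p + 1) (Φ.coeff 0) with hΨ₀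
  have hres : Ψ₀.map (residue ↥(s18dVal A (⊥ : IntermediateField ℚ Qb))) = 1 := by
    have hc0 : (Φ.coeff 0).map (residue ↥(s18dVal A (⊥ : IntermediateField ℚ Qb))) =
        X ^ (p + 1) := by
      have h1 := congrArg (fun P => P.coeff 0) hΦk
      simp only [coeff_map, coe_mapRingHom, mul_coeff_zero, coeff_sub, coeff_X_zero, coeff_C_zero,
        zero_sub, coeff_X_pow] at h1
      rw [h1, if_neg hp.ne_zero.symm, zero_sub, neg_mul_neg, pow_succ]
    rw [hΨ₀, ← reflect_map, hc0, reflect_monomial, revAt_le le_rfl, Nat.sub_self, pow_zero]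
  refine ⟨Ψ₀.map ι, ?_, eval₂ (eval₂RingHom φ J) Y (divX Φ), ?_, ?_⟩
  · rw [Polynomial.map_map, ← IsLocalRing.ResidueField.map_comp_residue, ← Polynomial.map_map,
      hres, Polynomial.map_one]
  · intro S hc hJS hYS
    exact ttrcu_eval_mem φ S J Y (fun a => hc (ι a)) hJS hYS _
  · rw [eval₂_map]
    exact ttrcu_abs φ hJJ' (p + 1) Φ (hΦc 0) h0

/-- constants lie in the chart ring -/
theorem ttrcu_const_mem (u : modularFunctionFieldBar N) (a : ↥A) :
    grdInclA N A a ∈ grdB N A u :=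
  ⟨X - C (C a), monic_X_sub_C _, by simp⟩

/-- the one-unit lies in the cusp chart ring -/
theorem ttrcu_unit_mem (J' : modularFunctionFieldBar N) (Ψ : (↥A)[X]) :
    eval₂ (grdInclA N A) J' Ψ ∈ grdB N A J' := by
  rw [eval₂_eq_sum_range]
  exact (grdB N A J').sum_mem fun i _ => (grdB N A J').mul_mem (ttrcu_const_mem N A J' _)
    ((grdB N A J').pow_mem (ttrci_self N A J') i)

end Inst

section Level

variable (M : ℕ) [NeZero M] {p : ℕ} [Fact p.Prime] [NeZero p] (A : ValuationSubring Qb)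

theorem ttrcu_coe_J : ((heckeAlphaBar Qb M p (grdQ M (grdi_mem_j M)) :
    modularFunctionFieldBar (M * p)) : LaurentSeries Qb) = jqModC Qb := by
  rw [coe_heckeAlphaBar]
  exact grdi_grdSer_j Qb

theorem ttrcu_coe_Y : ((heckeBetaBar Qb M p (grdQ M (grdi_mem_j M)) :
    modularFunctionFieldBar (M * p)) : LaurentSeries Qb) = qExpand Qb p (jqModC Qb) := by
  rw [coe_heckeBetaBar]
  exact congrArg (qExpand Qb p) (grdi_grdSer_j Qb)

theorem ttrcu_J_mul {τ' : LaurentSeries ℤ} (hτ' : jqModC ℤ * τ' = 1) :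
    heckeAlphaBar Qb M p (grdQ M (grdi_mem_j M)) *
      heckeAlphaBar Qb M p (grdQ M (grdi_mem_jinv M hτ')) = 1 := by
  rw [← map_mul]
  have : grdQ M (grdi_mem_j M) * grdQ M (grdi_mem_jinv M hτ') = 1 := by
    rw [grdi_grdQ_j, grdi_grdQ_jinv M hτ']
    exact mul_inv_cancel₀ (fun h => Fermat.Agent.S24.transcendental_jBar M (h ▸ isAlgebraic_zero))
  rw [this, map_one]

/-- **the one-unit at level `M p`**: `J = α j`, `Y = β j`, `J' = α (1/j)`. -/
theorem ttrcu_level (hA : A.LiesOverPrime p) {τ' : LaurentSeries ℤ} (hτ' : jqModC ℤ * τ' = 1) :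
    ∃ Ψ : (↥A)[X], Ψ.map (residue ↥A) = 1 ∧
      eval₂ (grdInclA (M * p) A) (heckeAlphaBar Qb M p (grdQ M (grdi_mem_jinv M hτ'))) Ψ ∈
        grdB (M * p) A (heckeAlphaBar Qb M p (grdQ M (grdi_mem_jinv M hτ'))) ∧
      ∃ R : ↥(modularFunctionFieldBar (M * p)),
      (∀ S : Subring ↥(modularFunctionFieldBar (M * p)),
        (∀ a : ↥A, grdInclA (M * p) A a ∈ S) →
        heckeAlphaBar Qb M p (grdQ M (grdi_mem_j M)) ∈ S →
        heckeBetaBar Qb M p (grdQ M (grdi_mem_j M)) ∈ S → R ∈ S) ∧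
      eval₂ (grdInclA (M * p) A) (heckeAlphaBar Qb M p (grdQ M (grdi_mem_jinv M hτ'))) Ψ =
        -(heckeAlphaBar Qb M p (grdQ M (grdi_mem_jinv M hτ')) ^ (p + 1) *
          heckeBetaBar Qb M p (grdQ M (grdi_mem_j M)) * R) := by
  obtain ⟨Ψ, hΨ, R, hR, h⟩ := ttrcu_unit (M * p) A hA (ttrcu_coe_J M) (ttrcu_coe_Y M)
    (ttrcu_J_mul M hτ')
  exact ⟨Ψ, hΨ, ttrcu_unit_mem (M * p) A _ Ψ, R, hR, h⟩

end Level

end Fermat.Agent.TT
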