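import Mathlib
import Fermat.Agent.TT.Red2.ChartRed
import Fermat.Agent.TT.Red2.ChartSmall
import Fermat.Agent.TT.Red2.CuspUnit
import Fermat.Agent.FF.IntL
import Fermat.Agent.FF.IntLRed
import Fermat.Agent.G.Red.DivFormula

/-!
# Program TT (S33), gap (G1) : (A8)(iv) ONTO, second branch, FOR THE CUSP CHART `τ' = 1/τ`

Owner: helper26 (steps (c)+(d) of helper24's repair of (G1)).  Namespace `Fermat.Agent.TT`,
prefix `ttrcc`.  Notation of helper17's `TT/Red2/Chart.lean`, `TT/Red2/ChartRed.lean`.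

`(τ, τ')` an atlas of level `M`, `J = α u`, `J' = α u'`, `Y = β u`, `Y' = β u'` at level `M p`
(`u = τ_ℚ̄`, `u' = τ'_ℚ̄`, `u u' = 1`), `B' = grdB (M p) 𝔸 J'` THE CUSP CHART RING.  `β u'` is NOT
integral over `𝔸[J']` (for `τ = j`), so `ttrc_lift₂` does not apply to `τ'`.  Instead : with a
ONE-UNIT `h = Ψ(J')`, `Ψ ∈ 𝔸[X]`, `Ψ̄ = 1`, `h = J'^d · Y · R`, `R` integral over `𝔸[J]`
(helper25's `ttrcu_level` for `τ = j`) and `f` integral over `𝔸[u']` at level `M`, `u^n f` integral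
over `𝔸[u]` :

  `x := β f · h^n`  lies in `B'`,  `red₁ x = f̄(q^p)`,  `red₂ x = f̄`.

* `ttrcc_breg` : a chart ring is regular wherever its coordinate is;
* `ttrcc_reg` : the regularity of `β f · h^n` at the places where `J'` is regular (abstract);
* `ttrcc_lift₂` : **(A8)(iv) ONTO, second branch, cusp chart**, hypothesis-first in `(Ψ, d, R)`;
* `ttrcc_lift₂_jinv` : the instance `τ = j`, `τ' = 1/j`, `p ≥ 5`, NO hypothesis;
* `ttrcc_exists_atlas` : helper17's atlas package `ttrc_exists_atlas` with one more conjunct :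
  the second-branch lift for the chart `τ'` (all primes `p ∤ M` with `5 ≤ p ∨ (5 - p) ∣ M`).
-/

set_option autoImplicit false
set_option linter.unusedSectionVars false
set_option linter.unusedVariables false
set_option linter.style.haveILetI false
set_option synthInstance.maxHeartbeats 400000

noncomputable section

namespace Fermat.Agent.TT

open Polynomial ModularCurve AlgebraicCurve IsLocalRing IntermediateField Fermat.Agent.S24
  Fermat.Agent.G Fermat.Agent.S18 Fermat.Agent.SS Fermat.Agent.SQ Fermat.Agent.FF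

local notation "Qb" => AlgebraicClosure ℚ

attribute [local instance] ttrc_neZero

/-! ## regularity -/

section Reg

variable (N : ℕ) [NeZero N] (A : ValuationSubring Qb)

/-- the elements of the chart ring of `u` are regular wherever `u` is -/
theorem ttrcc_breg {u b : modularFunctionFieldBar N} (hb : b ∈ grdB N A u)
    (v : Place Qb (modularFunctionFieldBar N)) (hu : u ∈ v.toValuationSubring) :
    b ∈ v.toValuationSubring := by
  refine ttrc_mem_of_isIntegralElem v.toValuationSubring.toSubring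
    (fun x => v.toValuationSubring.mem_or_inv_mem x) _ (fun r => ?_) hb
  rw [coe_eval₂RingHom, eval₂_eq_sum_range]
  refine Subring.sum_mem _ fun i _ => ?_
  exact Subring.mul_mem _ (v.algebraMap_mem' ((r.coeff i : A) : Qb)) (Subring.pow_mem _ hu i)

/-- **REGULARITY OF `β f · h^n`** (abstract form) : `J J' = 1`, `Y Y' = 1`, `Y` integral over
`𝔸[J]`, `J` integral over `𝔸[Y]`, `h = J'^d Y R` integral over `𝔸[J']`, `R` integral over `𝔸[J]`,
`bf` integral over `𝔸[Y']`, `Y^n bf` integral over `𝔸[Y]`.  Then `bf · h^n` is regular at every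
place where `J'` is. -/
theorem ttrcc_reg {J J' Y Y' R h bf : modularFunctionFieldBar N} (hJJ' : J * J' = 1)
    (hYY' : Y * Y' = 1) (hYJ : Y ∈ grdB N A J) (hJY : J ∈ grdB N A Y) (hR : R ∈ grdB N A J)
    (hh : h ∈ grdB N A J') (d : ℕ) (hhR : h = J' ^ d * Y * R) (hbf : bf ∈ grdB N A Y') (n : ℕ)
    (hbg : Y ^ n * bf ∈ grdB N A Y) (v : Place Qb (modularFunctionFieldBar N))
    (hv : J' ∈ v.toValuationSubring) : bf * h ^ n ∈ v.toValuationSubring := by
  by_cases hJv : J ∈ v.toValuationSubring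
  · have hYv : Y ∈ v.toValuationSubring := ttrcc_breg N A hYJ v hJv
    have hbgv : Y ^ n * bf ∈ v.toValuationSubring := ttrcc_breg N A hbg v hYv
    have hRv : R ∈ v.toValuationSubring := ttrcc_breg N A hR v hJv
    have e : bf * h ^ n = Y ^ n * bf * (J' ^ d) ^ n * R ^ n := by
      rw [hhR]
      ring
    rw [e]
    exact v.toValuationSubring.mul_mem _ _
      (v.toValuationSubring.mul_mem _ _ hbgv
        (v.toValuationSubring.pow_mem (v.toValuationSubring.pow_mem hv d) n))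
      (v.toValuationSubring.pow_mem hRv n)
  · have hYv : Y ∉ v.toValuationSubring := fun hY => hJv (ttrcc_breg N A hJY v hY)
    have hY'v : Y' ∈ v.toValuationSubring := by
      have hinv : Y' = Y⁻¹ := eq_inv_of_mul_eq_one_right hYY'
      rw [hinv]
      exact (v.toValuationSubring.mem_or_inv_mem Y).resolve_left hYv
    exact v.toValuationSubring.mul_mem _ _ (ttrcc_breg N A hbf v hY'v)
      (v.toValuationSubring.pow_mem (ttrcc_breg N A hh v hv) n)

/-- a function regular wherever the separating generator `u` is regular is integral over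
`ℚ̄[u]` -/
theorem ttrcc_mem_intRing {u : modularFunctionFieldBar N} (hs : IsSepGen Qb u)
    (x : modularFunctionFieldBar N)
    (hx : ∀ v : Place Qb (modularFunctionFieldBar N),
      u ∈ v.toValuationSubring → x ∈ v.toValuationSubring) : x ∈ intRing Qb u := by
  rw [ffil_mem_intRing_iff hs]
  intro v hv
  exact PlaceOrd.ord_nonneg_of_mem v (hx v (PlaceOrd.mem_of_ord_nonneg v hv))

/-- `Ψ(u)` lies in the chart ring of `u` -/
theorem ttrcc_eval_mem (u : modularFunctionFieldBar N) (Ψ : A[X]) :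
    eval₂ (grdInclA N A) u Ψ ∈ grdB N A u :=
  ttrcu_unit_mem N A u Ψ

end Reg

/-! ## the lift -/

section Lift

variable {M : ℕ} [NeZero M] {p : ℕ} [Fact p.Prime] {A : ValuationSubring Qb}
variable {w : modularFunctionFieldBar (M * p) ≃+* modularFunctionFieldBar (M * p)}

/-- `w` commutes with the evaluation of a polynomial with coefficients in `𝔸` -/
theorem ttrcc_w_eval (hw : TtrcW M p w) (u : modularFunctionFieldBar (M * p)) (Ψ : A[X]) :
    w (eval₂ (grdInclA (M * p) A) u Ψ) = eval₂ (grdInclA (M * p) A) (w u) Ψ := by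
  have h1 := Polynomial.hom_eval₂ Ψ (grdInclA (M * p) A)
    (w : modularFunctionFieldBar (M * p) →+* modularFunctionFieldBar (M * p)) u
  have h2 : (w : modularFunctionFieldBar (M * p) →+* modularFunctionFieldBar (M * p)).comp
      (grdInclA (M * p) A) = grdInclA (M * p) A :=
    RingHom.ext fun a => ttrc_w_algebraMap hw _
  rw [h2] at h1
  exact h1

/-- the reduction of `Ψ(u)`, `Ψ̄ = 1`, is `1` -/
theorem ttrcc_red_unit (N : ℕ) [NeZero N] (A : ValuationSubring Qb) {υ : LaurentSeries ℤ}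
    (hυ : GrdSerMem N υ) (Ψ : A[X]) (hΨ : Ψ.map (residue A) = 1)
    (hmem : eval₂ (grdInclA N A) (grdQ N hυ) Ψ ∈ grdO N A) :
    grdRed N A ⟨eval₂ (grdInclA N A) (grdQ N hυ) Ψ, hmem⟩ = 1 := by
  have h := ttrc_red_eval N A hυ Ψ
  rw [hΨ, map_one] at h
  exact h

/-- the coordinate `α u'` of the cusp chart is a separating generator -/
theorem ttrcc_sep {υ : LaurentSeries ℤ} (hc : GrdChart M A υ) :
    IsSepGen Qb (grdQ (M * p) (ttrc_serMem M p hc.mem)) := by
  rw [← ttrc_al_grdQ M p hc.mem]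
  refine (isSepGen_jBar (N := M * p)).of_transcendental ?_
  intro h
  exact hc.sepQ.transcendental
    ((isAlgebraic_algHom_iff (heckeAlphaBar Qb M p) (heckeAlphaBar Qb M p).injective).mp h)

set_option maxHeartbeats 1000000 in
/-- **(A8)(iv) ONTO, second branch, FOR THE CUSP CHART `τ'`** (hypothesis-first) : `(τ, τ')` an
atlas of level `M`, `β u` integral over `𝔸[α u]` (`hbe`, as in `ttrc_lift₂` for `τ`), and a
one-unit `Ψ(α u') = (α u')^d · β u · R`, `Ψ̄ = 1`, `R` integral over `𝔸[α u]`.  Then every `c` of the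
normal chart ring of `ū'` in `F_k(M)` is `red₂ x` for some `x` of the cusp chart ring
`B' = grdB (M p) 𝔸 (α u')`, with `red₁ x = c(q^p)`. -/
theorem ttrcc_lift₂ (hpM : ¬ p ∣ M) (hA : A.LiesOverPrime p) (hw : TtrcW M p w)
    {τ τ' : LaurentSeries ℤ} (hat : GrdAtlas M A τ τ')
    (hloc' : TtrcLoc M p A w τ' (ttrc_serMem M p hat.c'.mem))
    (hbe : heckeBetaBar Qb M p (grdQ M hat.c.mem) ∈
      grdB (M * p) A (grdQ (M * p) (ttrc_serMem M p hat.c.mem)))
    (Ψ : A[X]) (hΨ : Ψ.map (residue A) = 1) (d : ℕ) (R : modularFunctionFieldBar (M * p))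
    (hR : R ∈ grdB (M * p) A (grdQ (M * p) (ttrc_serMem M p hat.c.mem)))
    (hΨR : eval₂ (grdInclA (M * p) A) (grdQ (M * p) (ttrc_serMem M p hat.c'.mem)) Ψ =
      grdQ (M * p) (ttrc_serMem M p hat.c'.mem) ^ d *
        heckeBetaBar Qb M p (grdQ M hat.c.mem) * R)
    (c : ↥(intRing (ResidueField A) (grdK M A hat.c'.mem))) :
    ∃ x : modularFunctionFieldBar (M * p),
      x ∈ grdB (M * p) A (grdQ (M * p) (ttrc_serMem M p hat.c'.mem)) ∧
      ∃ (h₁ : x ∈ grdO (M * p) A) (h₂ : w x ∈ grdO (M * p) A),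
        ((grdRed (M * p) A ⟨x, h₁⟩ : modularFunctionFieldFullC (ResidueField A) (M * p)) :
          LaurentSeries (ResidueField A)) =
          qExpand (ResidueField A) p
            ((c : modularFunctionFieldFullC (ResidueField A) M) :
              LaurentSeries (ResidueField A)) ∧
        ((grdRed (M * p) A ⟨w x, h₂⟩ : modularFunctionFieldFullC (ResidueField A) (M * p)) :
          LaurentSeries (ResidueField A)) =
          ((c : modularFunctionFieldFullC (ResidueField A) M) :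
            LaurentSeries (ResidueField A)) := by
  -- the coordinates
  have huu' : grdQ M hat.c.mem * grdQ M hat.c'.mem = 1 :=
    grdf_grdQ_mul M hat.c.mem hat.c'.mem hat.inv
  have hJJ' : grdQ (M * p) (ttrc_serMem M p hat.c.mem) *
      grdQ (M * p) (ttrc_serMem M p hat.c'.mem) = 1 :=
    grdf_grdQ_mul (M * p) (ttrc_serMem M p hat.c.mem) (ttrc_serMem M p hat.c'.mem) hat.inv
  have hαu : heckeAlphaBar Qb M p (grdQ M hat.c.mem) =
      grdQ (M * p) (ttrc_serMem M p hat.c.mem) := ttrc_al_grdQ M p hat.c.mem _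
  have hαu' : heckeAlphaBar Qb M p (grdQ M hat.c'.mem) =
      grdQ (M * p) (ttrc_serMem M p hat.c'.mem) := ttrc_al_grdQ M p hat.c'.mem _
  have hYY' : heckeBetaBar Qb M p (grdQ M hat.c.mem) *
      heckeBetaBar Qb M p (grdQ M hat.c'.mem) = 1 := by
    rw [← map_mul, huu', map_one]
  -- `J` is integral over `𝔸[Y]`
  have hJY : grdQ (M * p) (ttrc_serMem M p hat.c.mem) ∈
      grdB (M * p) A (heckeBetaBar Qb M p (grdQ M hat.c.mem)) := by
    have h := ttrc_w_isInt hw hbe
    rw [hw.2, ← hαu, hw.1] at h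
    exact h
  -- the level-`M` lift and its pole order
  obtain ⟨x₀, hx₀, hred⟩ := grd_lift M A hpM hA hat.c' c
  obtain ⟨n, hn⟩ := ttrc_pole M A huu' hx₀
  obtain ⟨hb₁, hrb⟩ := ttrc_be_mem M p A x₀.2
  obtain ⟨ha₁, hra⟩ := ttrc_al_mem M p A x₀.2
  have hbf : heckeBetaBar Qb M p (x₀ : modularFunctionFieldBar M) ∈
      grdB (M * p) A (heckeBetaBar Qb M p (grdQ M hat.c'.mem)) := ttrc_be_isInt M p A hx₀
  have hbg : heckeBetaBar Qb M p (grdQ M hat.c.mem) ^ n *
      heckeBetaBar Qb M p (x₀ : modularFunctionFieldBar M) ∈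
      grdB (M * p) A (heckeBetaBar Qb M p (grdQ M hat.c.mem)) := by
    have h := ttrc_be_isInt M p A hn
    rw [map_mul, map_pow] at h
    exact h
  -- the one-unit
  have hh : eval₂ (grdInclA (M * p) A) (grdQ (M * p) (ttrc_serMem M p hat.c'.mem)) Ψ ∈
      grdB (M * p) A (grdQ (M * p) (ttrc_serMem M p hat.c'.mem)) := ttrcc_eval_mem (M * p) A _ Ψ
  have hh₁ : eval₂ (grdInclA (M * p) A) (grdQ (M * p) (ttrc_serMem M p hat.c'.mem)) Ψ ∈
      grdO (M * p) A :=
    grdga_eval_mem (M * p) A (grdQ_mem_grdO (M * p) A (ttrc_serMem M p hat.c'.mem)) Ψ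
  have hwJ' : w (grdQ (M * p) (ttrc_serMem M p hat.c'.mem)) =
      grdQ (M * p) (ttrc_phiMem M p hat.c'.mem) := by
    rw [← hαu', hw.1, ttrc_be_grdQ]
  have hwh : w (eval₂ (grdInclA (M * p) A) (grdQ (M * p) (ttrc_serMem M p hat.c'.mem)) Ψ) =
      eval₂ (grdInclA (M * p) A) (grdQ (M * p) (ttrc_phiMem M p hat.c'.mem)) Ψ := by
    rw [ttrcc_w_eval hw, hwJ']
  have hh₂ : eval₂ (grdInclA (M * p) A) (grdQ (M * p) (ttrc_phiMem M p hat.c'.mem)) Ψ ∈
      grdO (M * p) A :=
    grdga_eval_mem (M * p) A (grdQ_mem_grdO (M * p) A (ttrc_phiMem M p hat.c'.mem)) Ψ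
  have hrh₁ := ttrcc_red_unit (M * p) A (ttrc_serMem M p hat.c'.mem) Ψ hΨ hh₁
  have hrh₂ := ttrcc_red_unit (M * p) A (ttrc_phiMem M p hat.c'.mem) Ψ hΨ hh₂
  -- the element
  have hwx : w (heckeBetaBar Qb M p (x₀ : modularFunctionFieldBar M) *
      eval₂ (grdInclA (M * p) A) (grdQ (M * p) (ttrc_serMem M p hat.c'.mem)) Ψ ^ n) =
      heckeAlphaBar Qb M p (x₀ : modularFunctionFieldBar M) *
        eval₂ (grdInclA (M * p) A) (grdQ (M * p) (ttrc_phiMem M p hat.c'.mem)) Ψ ^ n := by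
    rw [map_mul, map_pow, hw.2, hwh]
  have hx₁ : heckeBetaBar Qb M p (x₀ : modularFunctionFieldBar M) *
      eval₂ (grdInclA (M * p) A) (grdQ (M * p) (ttrc_serMem M p hat.c'.mem)) Ψ ^ n ∈
      grdO (M * p) A := Subring.mul_mem _ hb₁ (Subring.pow_mem _ hh₁ n)
  have hx₂' : heckeAlphaBar Qb M p (x₀ : modularFunctionFieldBar M) *
      eval₂ (grdInclA (M * p) A) (grdQ (M * p) (ttrc_phiMem M p hat.c'.mem)) Ψ ^ n ∈
      grdO (M * p) A := Subring.mul_mem _ ha₁ (Subring.pow_mem _ hh₂ n)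
  have hx₂ : w (heckeBetaBar Qb M p (x₀ : modularFunctionFieldBar M) *
      eval₂ (grdInclA (M * p) A) (grdQ (M * p) (ttrc_serMem M p hat.c'.mem)) Ψ ^ n) ∈
      grdO (M * p) A := hwx ▸ hx₂'
  refine ⟨heckeBetaBar Qb M p (x₀ : modularFunctionFieldBar M) *
      eval₂ (grdInclA (M * p) A) (grdQ (M * p) (ttrc_serMem M p hat.c'.mem)) Ψ ^ n,
    ?_, hx₁, hx₂, ?_, ?_⟩
  · -- membership in the cusp chart ring : regularity, then saturation
    have hreg : ∀ v : Place Qb (modularFunctionFieldBar (M * p)),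
        grdQ (M * p) (ttrc_serMem M p hat.c'.mem) ∈ v.toValuationSubring →
        heckeBetaBar Qb M p (x₀ : modularFunctionFieldBar M) *
          eval₂ (grdInclA (M * p) A) (grdQ (M * p) (ttrc_serMem M p hat.c'.mem)) Ψ ^ n ∈
          v.toValuationSubring := fun v hv =>
      ttrcc_reg (M * p) A hJJ' hYY' hbe hJY hR hh d hΨR hbf n hbg v hv
    have hint := ttrcc_mem_intRing (M * p) (ttrcc_sep (p := p) hat.c') _ hreg
    obtain ⟨π, hπ, hπx⟩ := fflr_exists_smul_isIntegralElem (A₀ := ↥A) (K := Qb)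
      (grdQ (M * p) (ttrc_serMem M p hat.c'.mem)) _ hint
    exact ttrc_saturated hA hloc' _ hx₁ hx₂ π hπ hπx
  · -- `red₁`
    have e : (⟨heckeBetaBar Qb M p (x₀ : modularFunctionFieldBar M) *
        eval₂ (grdInclA (M * p) A) (grdQ (M * p) (ttrc_serMem M p hat.c'.mem)) Ψ ^ n, hx₁⟩ :
        ↥(grdO (M * p) A)) = ⟨_, hb₁⟩ * ⟨_, hh₁⟩ ^ n := rfl
    rw [e, map_mul, map_pow, hrh₁, one_pow, mul_one, hrb]
    exact congrArg (qExpand (ResidueField A) p) (congrArg Subtype.val hred)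
  · -- `red₂`
    have e : (⟨w (heckeBetaBar Qb M p (x₀ : modularFunctionFieldBar M) *
        eval₂ (grdInclA (M * p) A) (grdQ (M * p) (ttrc_serMem M p hat.c'.mem)) Ψ ^ n), hx₂⟩ :
        ↥(grdO (M * p) A)) = ⟨_, ha₁⟩ * ⟨_, hh₂⟩ ^ n := Subtype.ext hwx
    rw [e, map_mul, map_pow, hrh₂, one_pow, mul_one, hra]
    exact congrArg Subtype.val hred

end Lift

/-! ## the instance `τ = j`, `τ' = 1/j` (`p ≥ 5`), and the atlas package -/

section J

variable {M : ℕ} [NeZero M] {p : ℕ} [Fact p.Prime] {A : ValuationSubring Qb}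
variable {w : modularFunctionFieldBar (M * p) ≃+* modularFunctionFieldBar (M * p)}

/-- the atlas `(j, 1/j)` of level `M`, `p ≥ 5` -/
theorem ttrcc_atlas_j (hpM : ¬ p ∣ M) (hA : A.LiesOverPrime p) (h5 : 5 ≤ p)
    {τ' : LaurentSeries ℤ} (hτ' : jqModC ℤ * τ' = 1) : GrdAtlas M A (jqModC ℤ) τ' :=
  ⟨hτ', grd_chart_j M A hpM hA h5, grd_chart_jinv M A hpM hA h5 τ' hτ'⟩

/-- **(A8)(iv) ONTO, second branch, for the CUSP CHART `τ' = 1/j`, `p ≥ 5`** (gap (G1)) : every
`c` of the normal chart ring of `1/j̄` in `F_k(M)` is `red₂ x` for some `x` of the cusp chart ring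
`grdB (M p) 𝔸 (α (1/j))`, with `red₁ x = c(q^p)`. -/
theorem ttrcc_lift₂_jinv (hpM : ¬ p ∣ M) (hA : A.LiesOverPrime p) (hw : TtrcW M p w) (h5 : 5 ≤ p)
    {τ' : LaurentSeries ℤ} (hτ' : jqModC ℤ * τ' = 1)
    (c : ↥(intRing (ResidueField A) (grdK M A (grd_chart_jinv M A hpM hA h5 τ' hτ').mem))) :
    ∃ x : modularFunctionFieldBar (M * p),
      x ∈ grdB (M * p) A
        (grdQ (M * p) (ttrc_serMem M p (grd_chart_jinv M A hpM hA h5 τ' hτ').mem)) ∧
      ∃ (h₁ : x ∈ grdO (M * p) A) (h₂ : w x ∈ grdO (M * p) A),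
        ((grdRed (M * p) A ⟨x, h₁⟩ : modularFunctionFieldFullC (ResidueField A) (M * p)) :
          LaurentSeries (ResidueField A)) =
          qExpand (ResidueField A) p
            ((c : modularFunctionFieldFullC (ResidueField A) M) :
              LaurentSeries (ResidueField A)) ∧
        ((grdRed (M * p) A ⟨w x, h₂⟩ : modularFunctionFieldFullC (ResidueField A) (M * p)) :
          LaurentSeries (ResidueField A)) =
          ((c : modularFunctionFieldFullC (ResidueField A) M) :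
            LaurentSeries (ResidueField A)) := by
  obtain ⟨Ψ, hΨ, -, R, hR, hΨR⟩ := ttrcu_level M A hA hτ'
  have hbe := ttrc_be_j_isInt (M := M) (A := A) hA hpM hw
  have hαJ : heckeAlphaBar Qb M p (grdQ M (grdi_mem_j M)) =
      grdQ (M * p) (ttrc_serMem M p (grdi_mem_j M)) := ttrc_al_grdQ M p (grdi_mem_j M) _
  have hαJ' : heckeAlphaBar Qb M p (grdQ M (grdi_mem_jinv M hτ')) =
      grdQ (M * p) (ttrc_serMem M p (grdi_mem_jinv M hτ')) :=
    ttrc_al_grdQ M p (grdi_mem_jinv M hτ') _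
  refine ttrcc_lift₂ hpM hA hw (ttrcc_atlas_j hpM hA h5 hτ') (ttrc_loc_jinv hA hpM hw hτ') hbe
    Ψ hΨ (p + 1) (-R) ?_ ?_ c
  · refine Subring.neg_mem _ (hR _ (fun a => ttrcu_const_mem (M * p) A _ a) ?_ hbe)
    rw [hαJ]
    exact ttrci_self (M * p) A _
  · rw [hαJ'] at hΨR
    rw [hΨR]
    ring

/-- **THE ATLAS PACKAGE at level `M p`, WITH THE SECOND-BRANCH LIFT FOR THE CHART `τ'`** : helper17's
`ttrc_exists_atlas` (every prime `p ∤ M` with `5 ≤ p` or `(5 - p) ∣ M`) plus : every `c` of the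
normal chart ring of `ū'` is `red₂ x`, `x` in the chart ring of `α u'`, `red₁ x = c(q^p)`. -/
theorem ttrcc_exists_atlas (hA : A.LiesOverPrime p) (hpM : ¬ p ∣ M) (hw : TtrcW M p w)
    (h5 : 5 ≤ p ∨ (5 - p) ∣ M) :
    ∃ (τ τ' : LaurentSeries ℤ) (hat : GrdAtlas M A τ τ'),
      TtrcLoc M p A w τ (ttrc_serMem M p hat.c.mem) ∧
      TtrcLoc M p A w τ' (ttrc_serMem M p hat.c'.mem) ∧
      (∀ (K : Type) [Field K], (grdSer τ K).order < 0) ∧
      heckeBetaBar Qb M p (grdQ M hat.c.mem) ∈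
        grdB (M * p) A (grdQ (M * p) (ttrc_serMem M p hat.c.mem)) ∧
      ∀ c : ↥(intRing (ResidueField A) (grdK M A hat.c'.mem)),
        ∃ x : modularFunctionFieldBar (M * p),
          x ∈ grdB (M * p) A (grdQ (M * p) (ttrc_serMem M p hat.c'.mem)) ∧
          ∃ (h₁ : x ∈ grdO (M * p) A) (h₂ : w x ∈ grdO (M * p) A),
            ((grdRed (M * p) A ⟨x, h₁⟩ : modularFunctionFieldFullC (ResidueField A) (M * p)) :
              LaurentSeries (ResidueField A)) =
              qExpand (ResidueField A) p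
                ((c : modularFunctionFieldFullC (ResidueField A) M) :
                  LaurentSeries (ResidueField A)) ∧
            ((grdRed (M * p) A ⟨w x, h₂⟩ : modularFunctionFieldFullC (ResidueField A) (M * p)) :
              LaurentSeries (ResidueField A)) =
              ((c : modularFunctionFieldFullC (ResidueField A) M) :
                LaurentSeries (ResidueField A)) := by
  by_cases h5' : 5 ≤ p
  · obtain ⟨τ', hτ'⟩ := grd_exists_jinv
    exact ⟨_, τ', ttrcc_atlas_j hpM hA h5' hτ',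
      ttrc_loc_j hA hpM hw, ttrc_loc_jinv hA hpM hw hτ', fun K _ => ttrc_pole_j K,
      ttrc_be_j_isInt hA hpM hw, fun c => ttrcc_lift₂_jinv hpM hA hw h5' hτ' c⟩
  · have hd : (5 - p) ∣ M := h5.resolve_left h5'
    have hp : p.Prime := Fact.out
    have h23 : p = 2 ∨ p = 3 := by
      have h2 := hp.two_le
      have hlt : p < 5 := by omega
      interval_cases p
      · exact Or.inl rfl
      · exact Or.inr rfl
      · exact absurd hp (by decide)
    rcases h23 with rfl | rfl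
    · haveI : NeZero (3 : ℕ) := ⟨by norm_num⟩
      exact ⟨_, _, grd_atlas_small M A 3 hpM hA (Or.inl ⟨rfl, rfl⟩) hd,
        ttrc_loc_h hA hpM hw 3 (Or.inl ⟨rfl, rfl⟩) hd,
        ttrc_loc_hinv hA hpM hw 3 (Or.inl ⟨rfl, rfl⟩) hd (grdis_mul_hinv 3 _),
        fun K _ => ttrc_pole_h 3 _ K,
        ttrc_be_h_isInt hA 3 (Or.inl ⟨rfl, rfl⟩) hd _,
        fun c => ttrc_lift₂_hinv hpM hA hw 3 (Or.inl ⟨rfl, rfl⟩) hd (grdis_mul_hinv 3 _) c⟩
    · haveI : NeZero (2 : ℕ) := ⟨by norm_num⟩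
      exact ⟨_, _, grd_atlas_small M A 2 hpM hA (Or.inr ⟨rfl, rfl⟩) hd,
        ttrc_loc_h hA hpM hw 2 (Or.inr ⟨rfl, rfl⟩) hd,
        ttrc_loc_hinv hA hpM hw 2 (Or.inr ⟨rfl, rfl⟩) hd (grdis_mul_hinv 2 _),
        fun K _ => ttrc_pole_h 2 _ K,
        ttrc_be_h_isInt hA 2 (Or.inr ⟨rfl, rfl⟩) hd _,
        fun c => ttrc_lift₂_hinv hpM hA hw 2 (Or.inr ⟨rfl, rfl⟩) hd (grdis_mul_hinv 2 _) c⟩

end J

end Fermat.Agent.TT
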