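import Mathlib
import Fermat.Agent.TT.Red2.Inst
import Fermat.Agent.TT.Red2.ChartRed

/-!
# Program TT (S33), G/Red2 leaf (A8)(iv) in the IFF shape of (COUNT)

Owner: helper17.  Namespace `Fermat.Agent.TT`, prefix `ttrc`.

(A8)(iv) at helper12's reductions `ttrRed1 : V₁ → F_k(M)`, `ttrRed2 : V₂ → F_k(M)` (level-`M`
targets), for the chart ring `B = grdB (M p) 𝔸 (α u)`, `u = grdQ M hυ` a chart coordinate of level `M`:

* `ttrc_intRing_map` : integrality over `k[t]` passes along a `k`-linear ring homomorphism;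
* INTO  : `ttrc_red1_mem`, `ttrc_red2_mem`  (`red_j B ⊆ C_M = intRing k ū`);
* ONTO  : `ttrc_lift1_red` (any chart), `ttrc_lift2_red` (from `TtrcLift₂` = the conclusion of
  `ttrc_lift₂` / of the cusp-chart lifting (G1) at `w = ttrW`; `ttrc_lift₂_of_be`);
* IFF   : `ttrc_hR₁`, `ttrc_hR₂` = `hR₁`, `hR₂` (`hR₁'`, `hR₂'` at the inverse chart) of helper5's
  `ttrk_genus_le_plug`, up to the spelling of the reduction of the `TtoData` (see `ChartOntoPlug`).
-/

set_option autoImplicit false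
set_option linter.unusedSectionVars false
set_option linter.unusedVariables false
set_option linter.style.haveILetI false
set_option synthInstance.maxHeartbeats 400000

noncomputable section

namespace Fermat.Agent.TT

open Polynomial ModularCurve AlgebraicCurve IsLocalRing IntermediateField Fermat.Agent.S24
  Fermat.Agent.G Fermat.Agent.S18 Fermat.Agent.SS Fermat.Agent.SQ

local notation "Qb" => AlgebraicClosure ℚ

attribute [local instance] ttrc_neZero

/-! ## transport of `intRing` along a `k`-linear ring homomorphism -/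

section Abs

/-- integrality over `k[t]` passes along a ring homomorphism fixing the constants -/
theorem ttrc_intRing_map {k F F' : Type*} [Field k] [Field F] [Field F'] [Algebra k F]
    [Algebra k F'] (φ : F →+* F') (hφ : ∀ c : k, φ (algebraMap k F c) = algebraMap k F' c)
    {t x : F} (hx : x ∈ intRing k t) : φ x ∈ intRing k (φ t) := by
  let φ' : F →ₐ[k] F' := { φ with commutes' := hφ }
  have hx' : IsIntegral (Algebra.adjoin k {t}) x := hx
  show IsIntegral (Algebra.adjoin k {φ t}) (φ x)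
  have hmem : ∀ r : Algebra.adjoin k {t}, φ (r : F) ∈ Algebra.adjoin k {φ t} := by
    intro r
    have h : φ' (r : F) ∈ (Algebra.adjoin k {t}).map φ' := ⟨r, r.2, rfl⟩
    rw [AlgHom.map_adjoin, Set.image_singleton] at h
    exact h
  let ψ : Algebra.adjoin k {t} →+* Algebra.adjoin k {φ t} :=
    (φ.comp (Algebra.adjoin k {t}).val.toRingHom).codRestrict (Algebra.adjoin k {φ t}) hmem
  exact IsIntegral.map_of_comp_eq ψ φ (RingHom.ext fun r => rfl) hx'

end Abs

section Onto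

variable (M : ℕ) [NeZero M] {p : ℕ} [Fact p.Prime] [NeZero p]
variable (A : ValuationSubring Qb)

/-- `F_k(M p) → F_k(M)` fixes the constants -/
theorem ttrc_resEq_algebraMap (hA : A.LiesOverPrime p) (c : ResidueField A) :
    ttrResEq M A hA (algebraMap (ResidueField A)
      (modularFunctionFieldFullC (ResidueField A) (M * p)) c) =
      algebraMap (ResidueField A) (modularFunctionFieldFullC (ResidueField A) M) c := by
  apply Subtype.ext
  rw [ttrResEq_coe, IntermediateField.coe_algebraMap_apply,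
    IntermediateField.coe_algebraMap_apply]

/-- `F_k(M p) → F_k(M)` maps the coordinate to the coordinate -/
theorem ttrc_resEq_grdK (hA : A.LiesOverPrime p) {υ : LaurentSeries ℤ} (hυ : GrdSerMem M υ)
    (hυ' : GrdSerMem (M * p) υ) : ttrResEq M A hA (grdK (M * p) A hυ') = grdK M A hυ := by
  apply Subtype.ext
  have h1 : ((grdK (M * p) A hυ' : modularFunctionFieldFullC (ResidueField A) (M * p)) :
      LaurentSeries (ResidueField A)) = grdSer υ (ResidueField A) := rfl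
  have h2 : ((grdK M A hυ : modularFunctionFieldFullC (ResidueField A) M) :
      LaurentSeries (ResidueField A)) = grdSer υ (ResidueField A) := rfl
  rw [ttrResEq_coe, h1, h2]

/-- `TtrcW` for helper12's `ttrW` -/
theorem ttrc_w_ttrW (hpM : ¬ p ∣ M) : TtrcW M p (ttrW M hpM) :=
  ⟨ttrW_alpha M hpM, ttrW_beta M hpM⟩

/-- **(A8)(iv) INTO, first branch, level-`M` spelling** : `red₁ B ⊆ C_M`. -/
theorem ttrc_red1_mem (hA : A.LiesOverPrime p) {υ : LaurentSeries ℤ} (hυ : GrdSerMem M υ)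
    {x : modularFunctionFieldBar (M * p)}
    (hx : x ∈ grdB (M * p) A (heckeAlphaBar Qb M p (grdQ M hυ))) (h₁ : x ∈ grdO (M * p) A) :
    ttrRed1 M A hA ⟨x, h₁⟩ ∈ intRing (ResidueField A) (grdK M A hυ) := by
  have hx' : x ∈ grdB (M * p) A (grdQ (M * p) (ttrc_serMem M p hυ)) := by
    rw [← ttrc_al_grdQ M p hυ]
    exact hx
  have h := ttrc_intRing_map (ttrResEq M A hA) (ttrc_resEq_algebraMap M A hA)
    (ttrc_red₁_int (ttrc_serMem M p hυ) hx' h₁)
  rw [ttrc_resEq_grdK M A hA hυ] at h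
  exact h

/-- **(A8)(iv) INTO, second branch, level-`M` spelling** : `red₂ B ⊆ C_M`. -/
theorem ttrc_red2_mem (hpM : ¬ p ∣ M) (hA : A.LiesOverPrime p) {υ : LaurentSeries ℤ}
    (hυ : GrdSerMem M υ) {x : modularFunctionFieldBar (M * p)}
    (hx : x ∈ grdB (M * p) A (heckeAlphaBar Qb M p (grdQ M hυ))) (h₂ : x ∈ ttrV2 M A hpM) :
    ttrRed2 M A hpM hA ⟨x, h₂⟩ ∈ intRing (ResidueField A) (grdK M A hυ) := by
  have hx' : x ∈ grdB (M * p) A (grdQ (M * p) (ttrc_serMem M p hυ)) := by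
    rw [← ttrc_al_grdQ M p hυ]
    exact hx
  have h₂' : ttrW M hpM x ∈ grdO (M * p) A := h₂
  have h := ttrc_intRing_map (ttrResEq M A hA) (ttrc_resEq_algebraMap M A hA)
    (ttrc_intRing_phi_le hA hυ (ttrc_red₂_int (ttrc_w_ttrW M hpM) hυ hx' h₂'))
  rw [ttrc_resEq_grdK M A hA hυ] at h
  exact h

/-! ### ONTO -/

/-- **(A8)(iv) ONTO, first branch, level-`M` spelling** : every `y ∈ C_M` is `red₁ b`, `b = α x₀ ∈ B`,
and then `red₂ b = Φ y`. -/
theorem ttrc_lift1_red (hpM : ¬ p ∣ M) (hA : A.LiesOverPrime p) {υ : LaurentSeries ℤ}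
    (hc : GrdChart M A υ) (y : modularFunctionFieldFullC (ResidueField A) M)
    (hy : y ∈ intRing (ResidueField A) (grdK M A hc.mem)) :
    ∃ (b : modularFunctionFieldBar (M * p))
      (hb : b ∈ grdB (M * p) A (heckeAlphaBar Qb M p (grdQ M hc.mem)))
      (h₁ : b ∈ grdO (M * p) A) (h₂ : b ∈ ttrV2 M A hpM),
      ttrRed1 M A hA ⟨b, h₁⟩ = y ∧ ttrRed2 M A hpM hA ⟨b, h₂⟩ = ttrPhi M A hA y := by
  obtain ⟨x₀, hx₀, hred⟩ := grd_lift M A hpM hA hc ⟨y, hy⟩
  refine ⟨heckeAlphaBar Qb M p (x₀ : modularFunctionFieldBar M), ttrc_al_isInt M p A hx₀,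
    ttr_alpha_mem M A x₀.2, ttr_alpha_mem₂ M A hpM x₀.2, ?_, ?_⟩
  · rw [ttrRed1_alpha, hred]
  · rw [ttrRed2_alpha, hred]

/-- the shape of the conclusion of `ttrc_lift₂` (second-branch lifting, series spelling) at
`w = ttrW` -/
def TtrcLift₂ (hpM : ¬ p ∣ M) {υ : LaurentSeries ℤ} (hυ : GrdSerMem M υ) : Prop :=
  ∀ c : ↥(intRing (ResidueField A) (grdK M A hυ)),
    ∃ x : modularFunctionFieldBar (M * p),
      x ∈ grdB (M * p) A (grdQ (M * p) (ttrc_serMem M p hυ)) ∧
      ∃ (h₁ : x ∈ grdO (M * p) A) (h₂ : ttrW M hpM x ∈ grdO (M * p) A),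
        ((grdRed (M * p) A ⟨x, h₁⟩ : modularFunctionFieldFullC (ResidueField A) (M * p)) :
          LaurentSeries (ResidueField A)) =
          qExpand (ResidueField A) p
            ((c : modularFunctionFieldFullC (ResidueField A) M) :
              LaurentSeries (ResidueField A)) ∧
        ((grdRed (M * p) A ⟨ttrW M hpM x, h₂⟩ :
          modularFunctionFieldFullC (ResidueField A) (M * p)) :
          LaurentSeries (ResidueField A)) =
          ((c : modularFunctionFieldFullC (ResidueField A) M) :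
            LaurentSeries (ResidueField A))

/-- `TtrcLift₂` from `hbe` (`β u` integral over `𝔸[α u]`) -/
theorem ttrc_lift₂_of_be (hpM : ¬ p ∣ M) (hA : A.LiesOverPrime p) {υ : LaurentSeries ℤ}
    (hc : GrdChart M A υ)
    (hbe : heckeBetaBar Qb M p (grdQ M hc.mem) ∈
      grdB (M * p) A (grdQ (M * p) (ttrc_serMem M p hc.mem))) :
    TtrcLift₂ M A hpM hc.mem :=
  fun c => ttrc_lift₂ hpM hA (ttrc_w_ttrW M hpM) hc hbe c

/-- **(A8)(iv) ONTO, second branch, level-`M` spelling** : every `y ∈ C_M` is `red₂ b`, `b ∈ B`,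
and then `red₁ b = Φ y`. -/
theorem ttrc_lift2_red (hpM : ¬ p ∣ M) (hA : A.LiesOverPrime p) {υ : LaurentSeries ℤ}
    (hυ : GrdSerMem M υ) (hlift : TtrcLift₂ M A hpM hυ)
    (y : modularFunctionFieldFullC (ResidueField A) M)
    (hy : y ∈ intRing (ResidueField A) (grdK M A hυ)) :
    ∃ (b : modularFunctionFieldBar (M * p))
      (hb : b ∈ grdB (M * p) A (heckeAlphaBar Qb M p (grdQ M hυ)))
      (h₁ : b ∈ grdO (M * p) A) (h₂ : b ∈ ttrV2 M A hpM),
      ttrRed1 M A hA ⟨b, h₁⟩ = ttrPhi M A hA y ∧ ttrRed2 M A hpM hA ⟨b, h₂⟩ = y := by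
  obtain ⟨x, hx, h₁, h₂, e₁, e₂⟩ := hlift ⟨y, hy⟩
  refine ⟨x, ?_, h₁, h₂, ?_, ?_⟩
  · rw [ttrc_al_grdQ M p hυ (ttrc_serMem M p hυ)]
    exact hx
  · apply Subtype.ext
    rw [ttrRed1_coe, ttrPhi_coe]
    exact e₁
  · apply Subtype.ext
    rw [ttrhRed2_apply, ttrRed1_coe]
    exact e₂

/-! ### the IFF forms (`hR₁`, `hR₂` of (COUNT)) -/

/-- **`hR₁`** : `red₁ B = C_M`, for every chart coordinate of level `M`. -/
theorem ttrc_hR₁ (hpM : ¬ p ∣ M) (hA : A.LiesOverPrime p) {υ : LaurentSeries ℤ}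
    (hc : GrdChart M A υ) (y : modularFunctionFieldFullC (ResidueField A) M) :
    y ∈ intRing (ResidueField A) (grdK M A hc.mem) ↔
      ∃ (b : modularFunctionFieldBar (M * p))
        (hb : b ∈ grdB (M * p) A (heckeAlphaBar Qb M p (grdQ M hc.mem)))
        (h₁ : b ∈ grdO (M * p) A), ttrRed1 M A hA ⟨b, h₁⟩ = y := by
  constructor
  · intro hy
    obtain ⟨b, hb, h₁, -, e, -⟩ := ttrc_lift1_red M A hpM hA hc y hy
    exact ⟨b, hb, h₁, e⟩
  · rintro ⟨b, hb, h₁, rfl⟩
    exact ttrc_red1_mem M A hA hc.mem hb h₁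

/-- **`hR₂`** : `red₂ B = C_M`, for every coordinate series with second-branch lifting. -/
theorem ttrc_hR₂ (hpM : ¬ p ∣ M) (hA : A.LiesOverPrime p) {υ : LaurentSeries ℤ}
    (hυ : GrdSerMem M υ) (hlift : TtrcLift₂ M A hpM hυ)
    (y : modularFunctionFieldFullC (ResidueField A) M) :
    y ∈ intRing (ResidueField A) (grdK M A hυ) ↔
      ∃ (b : modularFunctionFieldBar (M * p))
        (hb : b ∈ grdB (M * p) A (heckeAlphaBar Qb M p (grdQ M hυ)))
        (h₂ : b ∈ ttrV2 M A hpM), ttrRed2 M A hpM hA ⟨b, h₂⟩ = y := by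
  constructor
  · intro hy
    obtain ⟨b, hb, -, h₂, -, e⟩ := ttrc_lift2_red M A hpM hA hυ hlift y hy
    exact ⟨b, hb, h₂, e⟩
  · rintro ⟨b, hb, h₂, rfl⟩
    exact ttrc_red2_mem M A hpM hA hυ hb h₂

/-! ### the reductions of the chart coordinate -/

/-- in characteristic `p` : `Φ ū = ū ^ p` (level `M`) -/
theorem ttrc_phi_grdK (hA : A.LiesOverPrime p) {υ : LaurentSeries ℤ} (hυ : GrdSerMem M υ) :
    ttrPhi M A hA (grdK M A hυ) = grdK M A hυ ^ p := by
  haveI : CharP (ResidueField A) p := s18ac_charP A hA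
  apply Subtype.ext
  have h2 : ((grdK M A hυ : modularFunctionFieldFullC (ResidueField A) M) :
      LaurentSeries (ResidueField A)) = grdSer υ (ResidueField A) := rfl
  rw [ttrPhi_coe]
  push_cast
  rw [h2, gcjf_pow_char (ResidueField A) p, grdSer_coeffMap]

/-- `red₁ (α u) = ū` -/
theorem ttrc_red1_coord (hA : A.LiesOverPrime p) {υ : LaurentSeries ℤ} (hυ : GrdSerMem M υ)
    (h₁ : heckeAlphaBar Qb M p (grdQ M hυ) ∈ grdO (M * p) A) :
    ttrRed1 M A hA ⟨heckeAlphaBar Qb M p (grdQ M hυ), h₁⟩ = grdK M A hυ := by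
  have h := ttrRed1_alpha M A hA ⟨grdQ M hυ, grdQ_mem_grdO M A hυ⟩ (p := p)
  rw [grdRed_grdQ] at h
  exact h

/-- `red₂ (α u) = ū ^ p` -/
theorem ttrc_red2_coord (hpM : ¬ p ∣ M) (hA : A.LiesOverPrime p) {υ : LaurentSeries ℤ}
    (hυ : GrdSerMem M υ) (h₂ : heckeAlphaBar Qb M p (grdQ M hυ) ∈ ttrV2 M A hpM) :
    ttrRed2 M A hpM hA ⟨heckeAlphaBar Qb M p (grdQ M hυ), h₂⟩ = grdK M A hυ ^ p := by
  have h := ttrRed2_alpha M A hpM hA ⟨grdQ M hυ, grdQ_mem_grdO M A hυ⟩
  rw [grdRed_grdQ, ttrc_phi_grdK] at h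
  exact h

end Onto

end Fermat.Agent.TT
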