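import Mathlib
import Fermat.Agent.TT.B2.Lattice
import Fermat.Agent.TT.Nodal.Space
import Fermat.Agent.FF.Interp
import Fermat.Agent.FF.OntoAbs
import Fermat.Agent.FF.IntL

/-!
# Program TT (S33): (COUNT) - the number of nodes of the special fibre

Owner: helper5.  Namespace `Fermat.Agent.TT`, prefix `ttrk` (names `ttrk_full_*`, `ttrk_pt_*`,
`ttrk_L_*`, `ttrk_count*`, `ttrk_dim*`; the arithmetic half `ttrk_genusFormula_lt` lives in
`TT/Red2/GenusNum.lean`).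

Setting of `TT/B2/Lattice.lean` (`h : TtbRed A O red`, `red : O → Rk`) and of `TT/Nodal/Space.lean`
(`ttnkL ν₁ ν₂ A₁ A₂ ≤ F₁ × F₂`).  Everything is hypothesis-first: no level, no modular curve.

* `TtrkPt red V` : the point hypothesis (every `x ∈ V ∩ O` with `red x ≠ 0` has a place `P` at
  which all of `V ∩ O` takes values in `A` and `x` takes a unit value);
  `ttrk_full_of_pt` : **fullness** `TtbFull h V` from `TtrkPt` (induction on `dim V`; no (DIM), no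
  general position: this is what makes the count independent of the interpolation layer);
  `ttrk_pt_of_lift` : `TtrkPt` for `Rk = F₁ × F₂` from the (LIFT) hypotheses in EXACTLY the shape of
  helper26's `TtbLift₁`/`TtbLift₂` (TT/B2/Nodal.lean);
* `ttrk_L_eq` : **the special-fibre lattice is the nodal Riemann-Roch space**:
  `C ∩ ū^m C' = ttnkL ν₁ ν₂ (m•dd₁) (m•dd₂)` for two charts `C`, `C'` of the nodal curve described
  by (NODE) (pairs of the two normal chart rings with equal values at the nodes of the chart);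
* `ttrk_count` : **(COUNT)** `deg 𝔡 = deg 𝔡₁ + deg 𝔡₂` and `g + 1 = g₁ + g₂ + #S` from fullness and
  the identification `red(L(m𝔡) ∩ O) = L̃(m𝔡₁, m𝔡₂)` for all large `m`;
  `ttrk_count_of_onto` : the same from (R-in) + (ONTO) separately;
* `ttrk_dim` : **(DIM)** `l̃(i𝔡₁, i𝔡₂) ≤ l(i𝔡)` in the shape of helper26's `ttb_model_nodal`;
  `ttrk_dim_five` : for `i = 1..5` at once.
-/

set_option autoImplicit false
set_option linter.unusedSectionVars false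
set_option linter.unusedVariables false
set_option linter.style.haveILetI false

noncomputable section

namespace Fermat.Agent.TT

open AlgebraicCurve IsLocalRing Module Fermat.Agent.G Fermat.Agent.FF Fermat.Agent.V.RR
  Fermat.Agent.S24

/-! ### 1. Fullness from points -/

section Full

variable {K : Type*} [Field K] {A : ValuationSubring K}
variable {F : Type*} [Field F] [Algebra K F]
variable {Rk : Type*} [CommRing Rk] [Algebra (ResidueField A) Rk]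
variable {O : Subring F} {red : O →+* Rk}

/-- the point hypothesis: every `x ∈ V ∩ O` with nonzero reduction has a place `P` at which all
elements of `V ∩ O` take values in `A`, and `x` a unit value. -/
def TtrkPt (red : O →+* Rk) (V : Submodule K F) : Prop :=
  ∀ x : O, ((x : O) : F) ∈ V → red x ≠ 0 → ∃ P : Place K F,
    (∀ y : O, ((y : O) : F) ∈ V → ∃ α : A, GrdVal P ((y : O) : F) (α : K)) ∧
    ∃ α : A, GrdVal P ((x : O) : F) (α : K) ∧ residue A α ≠ 0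

theorem ttrk_pt_mono {V W : Submodule K F} (hWV : W ≤ V) (hpt : TtrkPt (A := A) red V) :
    TtrkPt (A := A) red W := by
  intro x hx hred
  obtain ⟨P, hval, hunit⟩ := hpt x (hWV hx) hred
  exact ⟨P, fun y hy => hval y (hWV hy), hunit⟩

/-- every element of `V` has a value at a place where `V ∩ O` has values. -/
theorem ttrk_exists_val (h : TtbRed A O red) (V : Submodule K F) (P : Place K F)
    (hval : ∀ y : O, ((y : O) : F) ∈ V → ∃ α : A, GrdVal P ((y : O) : F) (α : K))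
    (x : F) (hx : x ∈ V) : ∃ a : K, GrdVal P x a := by
  by_cases hx0 : x = 0
  · exact ⟨0, hx0 ▸ ffin_val_zero P⟩
  obtain ⟨c, hc, hmem, -⟩ := h.scale x hx0
  have hyV : algebraMap K F c * x ∈ V := by rw [← Algebra.smul_def]; exact V.smul_mem _ hx
  obtain ⟨α, hα⟩ := hval ⟨algebraMap K F c * x, hmem⟩ hyV
  refine ⟨c⁻¹ * α, ?_⟩
  have := ffin_val_smul P c⁻¹ hα
  rwa [← mul_assoc, ← map_mul, inv_mul_cancel₀ hc, map_one, one_mul] at this

/-- **fullness from points** (induction on the dimension). -/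
theorem ttrk_full_of_pt_aux (h : TtbRed A O red) :
    ∀ (n : ℕ) (V : Submodule K F), FiniteDimensional K V → finrank K V = n →
      TtrkPt (A := A) red V → TtbFull h V := by
  classical
  intro n
  induction n with
  | zero =>
    intro V hfV hn _
    exact ⟨hfV, by rw [hn]; exact Nat.zero_le _⟩
  | succ n ih =>
    intro V hfV hn hpt
    haveI := hfV
    refine ⟨hfV, ?_⟩
    have hVbot : V ≠ ⊥ := by
      intro hb
      rw [hb, finrank_bot] at hn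
      exact Nat.succ_ne_zero n hn.symm
    obtain ⟨f, hfV', hf0⟩ := Submodule.exists_mem_ne_zero_of_ne_bot hVbot
    obtain ⟨c, hc, hmem, hred⟩ := h.scale f hf0
    set x : O := ⟨algebraMap K F c * f, hmem⟩ with hxdef
    have hxV : ((x : O) : F) ∈ V := by
      show algebraMap K F c * f ∈ V
      rw [← Algebra.smul_def]; exact V.smul_mem _ hfV'
    obtain ⟨P, hval, α0, hα0, hunit⟩ := hpt x hxV hred
    -- the evaluation functional
    have hex : ∀ y : V, ∃ a : K, GrdVal P (y : F) a := fun y =>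
      ttrk_exists_val h V P hval y y.2
    choose e he using hex
    let ev : V →ₗ[K] K :=
      { toFun := e
        map_add' := fun y z =>
          grdg_val_unique P (he (y + z)) (grdg_val_add P (he y) (he z))
        map_smul' := fun c y => by
          have h1 := ffin_val_smul P c (he y)
          rw [← Algebra.smul_def] at h1
          exact grdg_val_unique P (he (c • y)) h1 }
    have hev : ∀ y : V, ev y = e y := fun _ => rfl
    have hevx : ev ⟨x, hxV⟩ = (α0 : K) := grdg_val_unique P (he ⟨x, hxV⟩) hα0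
    have hα0ne : (α0 : K) ≠ 0 := by
      intro h0
      apply hunit
      have : α0 = 0 := Subtype.ext h0
      rw [this, map_zero]
    have hsurj : Function.Surjective ev := by
      intro b
      refine ⟨(b * (α0 : K)⁻¹) • ⟨x, hxV⟩, ?_⟩
      rw [map_smul, hevx, smul_eq_mul, mul_assoc, inv_mul_cancel₀ hα0ne, mul_one]
    have hker : finrank K (LinearMap.ker ev) = n := by
      have h1 := LinearMap.finrank_range_add_finrank_ker ev
      rw [LinearMap.range_eq_top.mpr hsurj, finrank_top, Module.finrank_self, hn] at h1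
      omega
    set V₁ : Submodule K F := (LinearMap.ker ev).map V.subtype with hV₁
    have hV₁V : V₁ ≤ V := by
      rintro _ ⟨y, -, rfl⟩
      exact y.2
    have hV₁fin : FiniteDimensional K V₁ := Submodule.finiteDimensional_of_le hV₁V
    have hV₁dim : finrank K V₁ = n := by
      rw [hV₁, ← hker]
      exact (Submodule.equivMapOfInjective V.subtype (Submodule.injective_subtype V)
        (LinearMap.ker ev)).finrank_eq.symm
    have hV₁val : ∀ y : F, y ∈ V₁ → GrdVal P y 0 := by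
      rintro _ ⟨y, hy, rfl⟩
      have := he y
      rw [← hev, LinearMap.mem_ker.mp hy] at this
      exact this
    have hfull₁ : TtbFull h V₁ := ih V₁ hV₁fin hV₁dim (ttrk_pt_mono hV₁V hpt)
    obtain ⟨hfR, -⟩ := ttb_redSub_finite h V
    haveI := hfR
    have hle : ttbRedSub h V₁ ≤ ttbRedSub h V := ttbRedSub_mono h hV₁V
    have hxin : red x ∈ ttbRedSub h V := ⟨x, hxV, rfl⟩
    have hxnot : red x ∉ ttbRedSub h V₁ := by
      rintro ⟨y, hyV₁, hy⟩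
      have hy0 : GrdVal P ((y : O) : F) 0 := hV₁val _ hyV₁
      have hdiff : GrdVal P (((x : O) : F) - ((y : O) : F)) ((α0 : K) - 0) :=
        ttnk_val_sub P hα0 hy0
      have hred0 : red (x - y) = 0 := by rw [map_sub, hy, sub_self]
      obtain ⟨π, hπ, z, hz⟩ := h.ker (x - y) hred0
      have hz' : ((x : O) : F) - ((y : O) : F) = algebraMap K F (π : K) * (z : F) := by
        rw [← hz]; push_cast; rfl
      by_cases hπ0 : (π : K) = 0
      · rw [hz', hπ0, map_zero, zero_mul] at hdiff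
        have := grdg_val_unique P hdiff (ffin_val_zero P)
        rw [sub_zero] at this
        exact hα0ne this
      · have hzV : ((z : O) : F) ∈ V := by
          have : ((z : O) : F) = (π : K)⁻¹ • (((x : O) : F) - ((y : O) : F)) := by
            rw [hz', Algebra.smul_def, ← mul_assoc, ← map_mul, inv_mul_cancel₀ hπ0, map_one,
              one_mul]
          rw [this]
          exact V.smul_mem _ (V.sub_mem hxV (hV₁V hyV₁))
        obtain ⟨β, hβ⟩ := hval z hzV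
        have h2 := ffin_val_smul P (π : K) hβ
        rw [← hz'] at h2
        have h3 := grdg_val_unique P hdiff h2
        rw [sub_zero] at h3
        apply hunit
        have h4 : α0 = π * β := Subtype.ext (by rw [h3]; push_cast; rfl)
        rw [h4, map_mul, (residue_eq_zero_iff π).mpr hπ, zero_mul]
    have hlt : ttbRedSub h V₁ < ttbRedSub h V :=
      lt_of_le_of_ne hle fun heq => hxnot (heq ▸ hxin)
    have hlt' := Submodule.finrank_lt_finrank_of_lt hlt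
    have h1 := hfull₁.2
    rw [hV₁dim] at h1
    rw [hn]
    omega

/-- **fullness from points**: `dim_k red(V ∩ O) = dim_K V` as soon as `V` satisfies `TtrkPt`. -/
theorem ttrk_full_of_pt (h : TtbRed A O red) (V : Submodule K F) [FiniteDimensional K V]
    (hpt : TtrkPt (A := A) red V) : TtbFull h V :=
  ttrk_full_of_pt_aux h _ V inferInstance rfl hpt

end Full

/-! ### 2. The point hypothesis from (LIFT) on a two-component fibre -/

section Lift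

variable {K : Type*} [Field K] {A : ValuationSubring K}
variable {F : Type*} [Field F] [Algebra K F]
variable {F₁ F₂ : Type*} [Field F₁] [Field F₂] [Algebra (ResidueField A) F₁]
  [Algebra (ResidueField A) F₂]
variable {O : Subring F} {red : O →+* F₁ × F₂} {G : Type*} [Group G]

/-- `TtrkPt` from the (LIFT) hypotheses, in the shape of helper26's `TtbLift₁`, `TtbLift₂`. -/
theorem ttrk_pt_of_lift (ρ : G →* SemilinearAut K F) {g₁ g₂ : ℕ}
    (RR₁ : V27RR (ResidueField A) F₁ g₁) (RR₂ : V27RR (ResidueField A) F₂ g₂)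
    [Infinite (ResidueField A)]
    (hdeg₁ : ∀ v : Place (ResidueField A) F₁, v.deg = 1)
    (hdeg₂ : ∀ v : Place (ResidueField A) F₂, v.deg = 1)
    {S : Type*} [Fintype S] (ν₁ : S → Place (ResidueField A) F₁)
    (ν₂ : S → Place (ResidueField A) F₂) (V : Submodule K F)
    (A₁ : Divisor (ResidueField A) F₁) (A₂ : Divisor (ResidueField A) F₂)
    (T₁ : Finset (Place (ResidueField A) F₁)) (T₂ : Finset (Place (ResidueField A) F₂))
    (hlift₁ : ∀ Q : Place (ResidueField A) F₁, Q ∉ T₁ → (∀ s, Q ≠ ν₁ s) → A₁ Q = 0 →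
      ∃ P : Place K F, (∀ σ : G, ρ σ • P = P) ∧
        ∀ x : O, ((x : O) : F) ∈ V → ∃ α : A, GrdVal P ((x : O) : F) (α : K) ∧
          GrdVal Q (red x).1 (residue A α))
    (hlift₂ : ∀ Q : Place (ResidueField A) F₂, Q ∉ T₂ → (∀ s, Q ≠ ν₂ s) → A₂ Q = 0 →
      ∃ P : Place K F, (∀ σ : G, ρ σ • P = P) ∧
        ∀ x : O, ((x : O) : F) ∈ V → ∃ α : A, GrdVal P ((x : O) : F) (α : K) ∧
          GrdVal Q (red x).2 (residue A α)) :
    TtrkPt (A := A) red V := by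
  classical
  intro x hxV hred
  have hne : (red x).1 ≠ 0 ∨ (red x).2 ≠ 0 := by
    by_contra hcon
    push Not at hcon
    exact hred (Prod.ext hcon.1 hcon.2)
  rcases hne with ha | ha
  · have := RR₁.hasDiv
    obtain ⟨Da, hDa, -⟩ := HasPrincipalDivisors.exists_divisor (K := ResidueField A) _ ha
    obtain ⟨Q, hQ⟩ := ffkg_exists_place_not_mem RR₁ hdeg₁
      (T₁ ∪ Finset.univ.image ν₁ ∪ A₁.support ∪ Da.support)
    simp only [Finset.mem_union, not_or] at hQ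
    obtain ⟨⟨⟨hQT, hQν⟩, hQA⟩, hQD⟩ := hQ
    have hQν' : ∀ s, Q ≠ ν₁ s := fun s hs =>
      hQν (Finset.mem_image.mpr ⟨s, Finset.mem_univ s, hs.symm⟩)
    have hQA' : A₁ Q = 0 := Finsupp.notMem_support_iff.mp hQA
    have hQord : Q.ord (red x).1 = 0 := by
      rw [← hDa Q]; exact Finsupp.notMem_support_iff.mp hQD
    obtain ⟨P, -, hP⟩ := hlift₁ Q hQT hQν' hQA'
    refine ⟨P, fun y hy => ?_, ?_⟩
    · obtain ⟨α, hα, -⟩ := hP y hy
      exact ⟨α, hα⟩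
    · obtain ⟨α, hα, hαk⟩ := hP x hxV
      exact ⟨α, hα, ttnk_val_ne_zero Q ha hQord hαk⟩
  · have := RR₂.hasDiv
    obtain ⟨Da, hDa, -⟩ := HasPrincipalDivisors.exists_divisor (K := ResidueField A) _ ha
    obtain ⟨Q, hQ⟩ := ffkg_exists_place_not_mem RR₂ hdeg₂
      (T₂ ∪ Finset.univ.image ν₂ ∪ A₂.support ∪ Da.support)
    simp only [Finset.mem_union, not_or] at hQ
    obtain ⟨⟨⟨hQT, hQν⟩, hQA⟩, hQD⟩ := hQ
    have hQν' : ∀ s, Q ≠ ν₂ s := fun s hs =>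
      hQν (Finset.mem_image.mpr ⟨s, Finset.mem_univ s, hs.symm⟩)
    have hQA' : A₂ Q = 0 := Finsupp.notMem_support_iff.mp hQA
    have hQord : Q.ord (red x).2 = 0 := by
      rw [← hDa Q]; exact Finsupp.notMem_support_iff.mp hQD
    obtain ⟨P, -, hP⟩ := hlift₂ Q hQT hQν' hQA'
    refine ⟨P, fun y hy => ?_, ?_⟩
    · obtain ⟨α, hα, -⟩ := hP y hy
      exact ⟨α, hα⟩
    · obtain ⟨α, hα, hαk⟩ := hP x hxV
      exact ⟨α, hα, ttnk_val_ne_zero Q ha hQord hαk⟩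

end Lift

/-! ### 3. The special-fibre lattice is the nodal Riemann-Roch space -/

section Lattice

variable {k F₁ F₂ : Type*} [Field k] [Field F₁] [Field F₂] [Algebra k F₁] [Algebra k F₂]
  {ι : Type*} [Fintype ι] (ν₁ : ι → Place k F₁) (ν₂ : ι → Place k F₂)

theorem ttrk_val_pow {F : Type*} [Field F] [Algebra k F] (P : Place k F) {x : F} {a : k}
    (hx : GrdVal P x a) (m : ℕ) : GrdVal P (x ^ m) (a ^ m) := by
  induction m with
  | zero =>
    rw [pow_zero, pow_zero]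
    have := grdg_val_algebraMap P (1 : k)
    rwa [map_one] at this
  | succ m ih =>
    rw [pow_succ, pow_succ]
    exact grdg_val_mul P ih hx

/-- an element with a value has non-negative order -/
theorem ttrk_ord_nonneg_of_val {F : Type*} [Field F] [Algebra k F] (P : Place k F) {x : F}
    {a : k} (hx : GrdVal P x a) : 0 ≤ P.ord x := by
  by_cases h0 : x = 0
  · rw [h0, Place.ord_zero]
  · exact (grdg_mem_iff_ord P h0).mp (grdg_val_mem P hx)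

theorem ttrk_valuation_eq_one {F : Type*} [Field F] [Algebra k F] (P : Place k F) {x : F}
    {a : k} (hx : GrdVal P x a) (ha : a ≠ 0) : P.toValuationSubring.valuation x = 1 := by
  have h1 : P.toValuationSubring.valuation (x - algebraMap k F a) < 1 :=
    (ValuationSubring.mem_nonunits_iff _).1 hx
  have h2 := grdv_valuation_algebraMap P ha
  have h3 : x = algebraMap k F a + (x - algebraMap k F a) := by ring
  rw [h3, Valuation.map_add_eq_of_lt_left _ (by rw [h2]; exact h1), h2]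

/-- the value of the inverse -/
theorem ttrk_val_inv {F : Type*} [Field F] [Algebra k F] (P : Place k F) {x : F} {a : k}
    (hx : GrdVal P x a) (ha : a ≠ 0) : GrdVal P x⁻¹ a⁻¹ := by
  have hv := ttrk_valuation_eq_one P hx ha
  have hx0 : x ≠ 0 := by
    rintro rfl
    rw [map_zero] at hv
    exact zero_ne_one hv
  have haF : algebraMap k F a ≠ 0 := by simpa using ha
  have h1 : P.toValuationSubring.valuation (x - algebraMap k F a) < 1 :=
    (ValuationSubring.mem_nonunits_iff _).1 hx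
  show x⁻¹ - algebraMap k F a⁻¹ ∈ P.toValuationSubring.nonunits
  rw [ValuationSubring.mem_nonunits_iff]
  have h2 : x⁻¹ - algebraMap k F a⁻¹ =
      -((x - algebraMap k F a) * (x⁻¹ * (algebraMap k F a)⁻¹)) := by
    rw [map_inv₀]
    field_simp
    ring
  rw [h2, Valuation.map_neg, map_mul, map_mul, map_inv₀, map_inv₀, hv,
    grdv_valuation_algebraMap P ha, inv_one, mul_one, mul_one]
  exact h1

/-- **`C ∩ ū^m C' = L̃(m𝔡₁, m𝔡₂)`.**  `D` is the pair of charts of the nodal fibre inside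
`F₁ × F₂`; `R_j`, `R_j'` are the normal chart rings of the two components
(`hP_j` : `L(m𝔡_j) = R_j ∩ ū_j^m R_j'`, e.g. `ffil_mem_rr_iff`); (NODE) for the chart of `ū` sees
ALL the nodes (`hN`), (NODE) for the chart of `ū⁻¹` those of a subset `S'` (`hN'`). -/
theorem ttrk_L_eq (D : FfoaData k (F₁ × F₂)) (R₁ R₁' : Subalgebra k F₁) (R₂ R₂' : Subalgebra k F₂)
    (dd₁ : Divisor k F₁) (dd₂ : Divisor k F₂) (S' : Set ι)
    (hP₁ : ∀ (m : ℕ) (a : F₁), a ∈ riemannRochSpace (m • dd₁) ↔ a ∈ R₁ ∧ a * D.ui.1 ^ m ∈ R₁')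
    (hP₂ : ∀ (m : ℕ) (a : F₂), a ∈ riemannRochSpace (m • dd₂) ↔ a ∈ R₂ ∧ a * D.ui.2 ^ m ∈ R₂')
    (hN : ∀ f : F₁ × F₂, f ∈ D.C ↔ f.1 ∈ R₁ ∧ f.2 ∈ R₂ ∧ TtnkMatch ν₁ ν₂ f)
    (hN' : ∀ f : F₁ × F₂, f ∈ D.C' ↔ f.1 ∈ R₁' ∧ f.2 ∈ R₂' ∧
      ∀ i ∈ S', ∃ c : k, GrdVal (ν₁ i) f.1 c ∧ GrdVal (ν₂ i) f.2 c)
    (m : ℕ) : D.L m = ttnkL ν₁ ν₂ (m • dd₁) (m • dd₂) := by
  ext f
  rw [FfoaData.mem_L, ttnk_mem_L, hN, hN', hP₁, hP₂]
  have e1 : (f * D.ui ^ m).1 = f.1 * D.ui.1 ^ m := by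
    rw [Prod.fst_mul, Prod.pow_fst]
  have e2 : (f * D.ui ^ m).2 = f.2 * D.ui.2 ^ m := by
    rw [Prod.snd_mul, Prod.pow_snd]
  rw [e1, e2]
  constructor
  · rintro ⟨⟨h1, h2, hm⟩, h1', h2', -⟩
    exact ⟨⟨h1, h1'⟩, ⟨h2, h2'⟩, hm⟩
  · rintro ⟨⟨h1, h1'⟩, ⟨h2, h2'⟩, hm⟩
    refine ⟨⟨h1, h2, hm⟩, h1', h2', fun i hi => ?_⟩
    obtain ⟨c, hc1, hc2⟩ := hm i
    obtain ⟨-, -, hui⟩ := (hN' D.ui).mp D.hui_mem
    obtain ⟨d, hd1, hd2⟩ := hui i hi
    exact ⟨c * d ^ m, grdg_val_mul _ hc1 (ttrk_val_pow _ hd1 m),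
      grdg_val_mul _ hc2 (ttrk_val_pow _ hd2 m)⟩

/-- **the dictionary with a Frobenius twist on the second branch** (the case of `X₀(pM)`:
`ū = (j̄, j̄^p)`, and `j̄^p` is NOT a separating generator, so `ffil_mem_rr_iff` does not apply to
`ū₂` itself): `D.u = (t₁, t₂^q)`, the chart rings are the normal chart rings of `t₁`, `t₂`
(`intRing k (t₂^q) = intRing k t₂`), (NODE) in the shape of helper25's `ttnk_chart_L_eq`. Then
`C ∩ ū^m C' = L̃(m·(t₁)_∞, m·q·(t₂)_∞)`. -/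
theorem ttrk_L_eq_frob (D : FfoaData k (F₁ × F₂)) {t₁ t₁' : F₁} {t₂ t₂' : F₂} (q : ℕ)
    (hs₁ : IsSepGen k t₁) (hs₂ : IsSepGen k t₂) (h₁ : t₁ * t₁' = 1) (h₂ : t₂ * t₂' = 1)
    (hu : D.u = (t₁, t₂ ^ q)) (hui : D.ui = (t₁', t₂' ^ q))
    (hC : ∀ c : F₁ × F₂, c ∈ D.C ↔ c.1 ∈ intRing k t₁ ∧ c.2 ∈ intRing k t₂ ∧ TtnkMatch ν₁ ν₂ c)
    (hC'₁ : ∀ c : F₁ × F₂, c ∈ D.C' → c.1 ∈ intRing k t₁' ∧ c.2 ∈ intRing k t₂')
    (hC'₂ : ∀ c : F₁ × F₂, c.1 ∈ intRing k t₁' → c.2 ∈ intRing k t₂' →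
      (∀ i, 0 ≤ (ν₁ i).ord t₁' → ∃ a : k, GrdVal (ν₁ i) c.1 a ∧ GrdVal (ν₂ i) c.2 a) →
      c ∈ D.C') (m : ℕ) :
    D.L m = ttnkL ν₁ ν₂ (m • ffilPolar hs₁) (m • (q • ffilPolar hs₂)) := by
  have e₁ : m • ffilPolar hs₁ = ((m : ℕ) : ℤ) • ffilPolar hs₁ := (natCast_zsmul _ _).symm
  have e₂ : m • (q • ffilPolar hs₂) = ((m * q : ℕ) : ℤ) • ffilPolar hs₂ := by
    rw [natCast_zsmul, mul_nsmul']
  have hpow : D.ui ^ m = (t₁' ^ m, t₂' ^ (m * q)) := by
    rw [hui, Prod.pow_mk, ← pow_mul, mul_comm q m]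
  ext c
  rw [FfoaData.mem_L, ttnk_mem_L, e₁, e₂, ffil_mem_rr_iff hs₁ h₁, ffil_mem_rr_iff hs₂ h₂, hC c,
    hpow]
  constructor
  · rintro ⟨⟨hc1, hc2, hm⟩, hc'⟩
    have := hC'₁ _ hc'
    exact ⟨⟨hc1, this.1⟩, ⟨hc2, this.2⟩, hm⟩
  · rintro ⟨⟨hc1, hc1'⟩, ⟨hc2, hc2'⟩, hm⟩
    refine ⟨⟨hc1, hc2, hm⟩, hC'₂ _ hc1' hc2' fun i hi => ?_⟩
    -- `ū = (t₁, t₂^q) ∈ C` is matched at the crossing `i`, with a nonzero value
    obtain ⟨c0, hc01, hc02⟩ := hm i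
    have hu_mem := (hC D.u).mp D.hu_mem
    rw [hu] at hu_mem
    obtain ⟨a, ha1, ha2⟩ := hu_mem.2.2 i
    have ht₁0 : t₁ ≠ 0 := left_ne_zero_of_mul_eq_one h₁
    have ht₁' : t₁' = t₁⁻¹ := eq_inv_of_mul_eq_one_right h₁
    have ht₂' : t₂' = t₂⁻¹ := eq_inv_of_mul_eq_one_right h₂
    have ha0 : a ≠ 0 := by
      rintro rfl
      have hpos := (grdg_val_zero_iff_ord (ν₁ i) ht₁0).mp ha1
      rw [ht₁', Place.ord_inv] at hi
      omega
    have hv₁ : GrdVal (ν₁ i) t₁' a⁻¹ := ht₁' ▸ ttrk_val_inv (ν₁ i) ha1 ha0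
    have hv₂ : GrdVal (ν₂ i) (t₂' ^ q) a⁻¹ := by
      have : t₂' ^ q = (t₂ ^ q)⁻¹ := by rw [ht₂', inv_pow]
      rw [this]
      exact ttrk_val_inv (ν₂ i) ha2 ha0
    refine ⟨c0 * (a⁻¹) ^ m, grdg_val_mul _ hc01 (ttrk_val_pow _ hv₁ m), ?_⟩
    have : t₂' ^ (m * q) = (t₂' ^ q) ^ m := by rw [← pow_mul, mul_comm]
    rw [this]
    exact grdg_val_mul _ hc02 (ttrk_val_pow _ hv₂ m)

/-- the half of `ttrk_L_eq_frob` used by `genus_le`: `L̃(m·(t₁)_∞, m·q·(t₂)_∞) ≤ C ∩ ū^m C'`; it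
needs only the GLUING halves of (NODE) (`hC`, `hC'₂`), not `hC'₁`. -/
theorem ttrk_L_ge_frob (D : FfoaData k (F₁ × F₂)) {t₁ t₁' : F₁} {t₂ t₂' : F₂} (q : ℕ)
    (hs₁ : IsSepGen k t₁) (hs₂ : IsSepGen k t₂) (h₁ : t₁ * t₁' = 1) (h₂ : t₂ * t₂' = 1)
    (hu : D.u = (t₁, t₂ ^ q)) (hui : D.ui = (t₁', t₂' ^ q))
    (hC : ∀ c : F₁ × F₂, c ∈ D.C ↔ c.1 ∈ intRing k t₁ ∧ c.2 ∈ intRing k t₂ ∧ TtnkMatch ν₁ ν₂ c)
    (hC'₂ : ∀ c : F₁ × F₂, c.1 ∈ intRing k t₁' → c.2 ∈ intRing k t₂' →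
      (∀ i, 0 ≤ (ν₁ i).ord t₁' → ∃ a : k, GrdVal (ν₁ i) c.1 a ∧ GrdVal (ν₂ i) c.2 a) →
      c ∈ D.C') (m : ℕ) :
    ttnkL ν₁ ν₂ (m • ffilPolar hs₁) (m • (q • ffilPolar hs₂)) ≤ D.L m := by
  have e₁ : m • ffilPolar hs₁ = ((m : ℕ) : ℤ) • ffilPolar hs₁ := (natCast_zsmul _ _).symm
  have e₂ : m • (q • ffilPolar hs₂) = ((m * q : ℕ) : ℤ) • ffilPolar hs₂ := by
    rw [natCast_zsmul, mul_nsmul']
  have hpow : D.ui ^ m = (t₁' ^ m, t₂' ^ (m * q)) := by
    rw [hui, Prod.pow_mk, ← pow_mul, mul_comm q m]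
  intro c hc
  rw [ttnk_mem_L, e₁, e₂, ffil_mem_rr_iff hs₁ h₁, ffil_mem_rr_iff hs₂ h₂] at hc
  obtain ⟨⟨hc1, hc1'⟩, ⟨hc2, hc2'⟩, hm⟩ := hc
  rw [FfoaData.mem_L, hC c, hpow]
  refine ⟨⟨hc1, hc2, hm⟩, hC'₂ _ hc1' hc2' fun i hi => ?_⟩
  obtain ⟨c0, hc01, hc02⟩ := hm i
  have hu_mem := (hC D.u).mp D.hu_mem
  rw [hu] at hu_mem
  obtain ⟨a, ha1, ha2⟩ := hu_mem.2.2 i
  have ht₁0 : t₁ ≠ 0 := left_ne_zero_of_mul_eq_one h₁
  have ht₁' : t₁' = t₁⁻¹ := eq_inv_of_mul_eq_one_right h₁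
  have ht₂' : t₂' = t₂⁻¹ := eq_inv_of_mul_eq_one_right h₂
  have ha0 : a ≠ 0 := by
    rintro rfl
    have hpos := (grdg_val_zero_iff_ord (ν₁ i) ht₁0).mp ha1
    rw [ht₁', Place.ord_inv] at hi
    omega
  have hv₁ : GrdVal (ν₁ i) t₁' a⁻¹ := ht₁' ▸ ttrk_val_inv (ν₁ i) ha1 ha0
  have hv₂ : GrdVal (ν₂ i) (t₂' ^ q) a⁻¹ := by
    have : t₂' ^ q = (t₂ ^ q)⁻¹ := by rw [ht₂', inv_pow]
    rw [this]
    exact ttrk_val_inv (ν₂ i) ha2 ha0
  refine ⟨c0 * (a⁻¹) ^ m, grdg_val_mul _ hc01 (ttrk_val_pow _ hv₁ m), ?_⟩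
  have : t₂' ^ (m * q) = (t₂' ^ q) ^ m := by rw [← pow_mul, mul_comm]
  show GrdVal (ν₂ i) (c.2 * t₂' ^ (m * q)) _
  rw [this]
  exact grdg_val_mul _ hc02 (ttrk_val_pow _ hv₂ m)

end Lattice

/-! ### 4. (COUNT) -/

section Count

variable {K : Type*} [Field K] {A : ValuationSubring K}
variable {F : Type*} [Field F] [Algebra K F]
variable {F₁ F₂ : Type*} [Field F₁] [Field F₂] [Algebra (ResidueField A) F₁]
  [Algebra (ResidueField A) F₂]
variable {O : Subring F} {red : O →+* F₁ × F₂}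

/-- **(COUNT)**: if for all large `m` the lattice `L(m𝔡) ∩ O` is full and reduces ONTO the nodal
space `L̃(m𝔡₁, m𝔡₂)`, then `deg 𝔡 = deg 𝔡₁ + deg 𝔡₂` and `g + 1 = g₁ + g₂ + #S`. -/
theorem ttrk_count (h : TtbRed A O red) {g g₁ g₂ : ℕ} (RR : V27RR K F g)
    (RR₁ : V27RR (ResidueField A) F₁ g₁) (RR₂ : V27RR (ResidueField A) F₂ g₂)
    (hdeg₁ : ∀ v : Place (ResidueField A) F₁, v.deg = 1)
    (hdeg₂ : ∀ v : Place (ResidueField A) F₂, v.deg = 1)
    {S : Type*} [Fintype S] (ν₁ : S → Place (ResidueField A) F₁)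
    (ν₂ : S → Place (ResidueField A) F₂) (hν₁ : Function.Injective ν₁)
    (dd : Divisor K F) (dd₁ : Divisor (ResidueField A) F₁) (dd₂ : Divisor (ResidueField A) F₂)
    (hdd₁ : ∀ s, dd₁ (ν₁ s) = 0) (hdd₂ : ∀ s, dd₂ (ν₂ s) = 0)
    (hpos : 0 < Divisor.degree dd) (hpos₁ : 0 < Divisor.degree dd₁)
    (hpos₂ : 0 < Divisor.degree dd₂) (m0 : ℕ)
    (hfull : ∀ m, m0 ≤ m → TtbFull h (riemannRochSpace (m • dd)))
    (hid : ∀ m, m0 ≤ m → ttbRedSub h (riemannRochSpace (m • dd)) =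
      ttnkL ν₁ ν₂ (m • dd₁) (m • dd₂)) :
    Divisor.degree dd = Divisor.degree dd₁ + Divisor.degree dd₂ ∧
      (g : ℤ) + 1 = g₁ + g₂ + Fintype.card S := by
  -- the dimension identity at a large level `m`
  have key : ∀ m : ℕ, m0 ≤ m → 2 * g + 2 * g₁ + 2 * g₂ + Fintype.card S ≤ m →
      (m : ℤ) * Divisor.degree dd + 1 - g =
        (m : ℤ) * Divisor.degree dd₁ + (m : ℤ) * Divisor.degree dd₂ + 1 -
          ((g₁ : ℤ) + g₂ + Fintype.card S - 1) := by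
    intro m hm hm'
    have hmZ : (2 * (g : ℤ) + 2 * g₁ + 2 * g₂ + Fintype.card S) ≤ (m : ℤ) := by exact_mod_cast hm'
    have hg0 : (0 : ℤ) ≤ g := Int.natCast_nonneg _
    have hg1 : (0 : ℤ) ≤ g₁ := Int.natCast_nonneg _
    have hg2 : (0 : ℤ) ≤ g₂ := Int.natCast_nonneg _
    have hs0 : (0 : ℤ) ≤ Fintype.card S := Int.natCast_nonneg _
    have hm0 : (0 : ℤ) ≤ m := Int.natCast_nonneg _
    have d0 : Divisor.degree (m • dd) = (m : ℤ) * Divisor.degree dd := by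
      rw [map_nsmul, nsmul_eq_mul]
    have d1 : Divisor.degree (m • dd₁) = (m : ℤ) * Divisor.degree dd₁ := by
      rw [map_nsmul, nsmul_eq_mul]
    have d2 : Divisor.degree (m • dd₂) = (m : ℤ) * Divisor.degree dd₂ := by
      rw [map_nsmul, nsmul_eq_mul]
    have b0 : (m : ℤ) ≤ (m : ℤ) * Divisor.degree dd := by nlinarith
    have b1 : (m : ℤ) ≤ (m : ℤ) * Divisor.degree dd₁ := by nlinarith
    have b2 : (m : ℤ) ≤ (m : ℤ) * Divisor.degree dd₂ := by nlinarith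
    have e0 := ffkm_finrank RR (A := m • dd) (by rw [d0]; linarith)
    have e1 := ttnk_finrank_deg ν₁ ν₂ hdeg₁ hdeg₂ (m • dd₁) (m • dd₂)
      (fun i => by rw [Finsupp.smul_apply, hdd₁ i, smul_zero])
      (fun i => by rw [Finsupp.smul_apply, hdd₂ i, smul_zero]) RR₁ RR₂ hν₁
      (by rw [d1]; linarith) (by rw [d2]; linarith)
    have e2 := ttb_full_finrank h (hfull m hm)
    rw [hid m hm] at e2
    rw [d0] at e0
    rw [d1, d2] at e1
    rw [← e0, ← e1]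
    exact_mod_cast e2.symm
  set m : ℕ := m0 + (2 * g + 2 * g₁ + 2 * g₂ + Fintype.card S) with hm
  have k1 := key m (by omega) (by omega)
  have k2 := key (m + 1) (by omega) (by omega)
  push_cast at k2
  have hD : Divisor.degree dd = Divisor.degree dd₁ + Divisor.degree dd₂ := by linarith
  refine ⟨hD, ?_⟩
  rw [hD, mul_add] at k1
  linarith

/-- (COUNT) from (R-in) and (ONTO) separately. -/
theorem ttrk_count_of_onto (h : TtbRed A O red) {g g₁ g₂ : ℕ} (RR : V27RR K F g)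
    (RR₁ : V27RR (ResidueField A) F₁ g₁) (RR₂ : V27RR (ResidueField A) F₂ g₂)
    (hdeg₁ : ∀ v : Place (ResidueField A) F₁, v.deg = 1)
    (hdeg₂ : ∀ v : Place (ResidueField A) F₂, v.deg = 1)
    {S : Type*} [Fintype S] (ν₁ : S → Place (ResidueField A) F₁)
    (ν₂ : S → Place (ResidueField A) F₂) (hν₁ : Function.Injective ν₁)
    (dd : Divisor K F) (dd₁ : Divisor (ResidueField A) F₁) (dd₂ : Divisor (ResidueField A) F₂)
    (hdd₁ : ∀ s, dd₁ (ν₁ s) = 0) (hdd₂ : ∀ s, dd₂ (ν₂ s) = 0)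
    (hpos : 0 < Divisor.degree dd) (hpos₁ : 0 < Divisor.degree dd₁)
    (hpos₂ : 0 < Divisor.degree dd₂) (m0 : ℕ)
    (hpt : ∀ m, m0 ≤ m → TtrkPt (A := A) red (riemannRochSpace (m • dd)))
    (hin : ∀ m, m0 ≤ m → ∀ x : O, ((x : O) : F) ∈ riemannRochSpace (m • dd) →
      red x ∈ ttnkL ν₁ ν₂ (m • dd₁) (m • dd₂))
    (honto : ∀ m, m0 ≤ m → ∀ c ∈ ttnkL ν₁ ν₂ (m • dd₁) (m • dd₂),
      ∃ x : O, ((x : O) : F) ∈ riemannRochSpace (m • dd) ∧ red x = c) :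
    Divisor.degree dd = Divisor.degree dd₁ + Divisor.degree dd₂ ∧
      (g : ℤ) + 1 = g₁ + g₂ + Fintype.card S := by
  refine ttrk_count h RR RR₁ RR₂ hdeg₁ hdeg₂ ν₁ ν₂ hν₁ dd dd₁ dd₂ hdd₁ hdd₂ hpos hpos₁ hpos₂ m0
    (fun m hm => ?_) (fun m hm => ?_)
  · haveI : FiniteDimensional K (riemannRochSpace (m • dd)) := RR.finL _
    exact ttrk_full_of_pt h _ (hpt m hm)
  · apply le_antisymm
    · rintro c ⟨x, hx, rfl⟩
      exact hin m hm x hx
    · intro c hc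
      exact honto m hm c hc

/-- (COUNT) in chart form: `D` = the pair of special-fibre charts (`FfoaData`), `hchart` = the
dictionary `D.L m = L̃(m𝔡₁, m𝔡₂)` (`ttrk_L_eq`, `ttrk_L_eq_frob` or helper25's `ttnk_chart_L_eq`),
`hin`/`honto` = the two halves of `red(L(m𝔡) ∩ O) = C ∩ ū^m C'` (`tto_onto` + (A8)). -/
theorem ttrk_count_chart (h : TtbRed A O red) {g g₁ g₂ : ℕ} (RR : V27RR K F g)
    (RR₁ : V27RR (ResidueField A) F₁ g₁) (RR₂ : V27RR (ResidueField A) F₂ g₂)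
    (hdeg₁ : ∀ v : Place (ResidueField A) F₁, v.deg = 1)
    (hdeg₂ : ∀ v : Place (ResidueField A) F₂, v.deg = 1)
    {S : Type*} [Fintype S] (ν₁ : S → Place (ResidueField A) F₁)
    (ν₂ : S → Place (ResidueField A) F₂) (hν₁ : Function.Injective ν₁)
    (D : FfoaData (ResidueField A) (F₁ × F₂))
    (dd : Divisor K F) (dd₁ : Divisor (ResidueField A) F₁) (dd₂ : Divisor (ResidueField A) F₂)
    (hdd₁ : ∀ s, dd₁ (ν₁ s) = 0) (hdd₂ : ∀ s, dd₂ (ν₂ s) = 0)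
    (hpos : 0 < Divisor.degree dd) (hpos₁ : 0 < Divisor.degree dd₁)
    (hpos₂ : 0 < Divisor.degree dd₂) (m0 : ℕ)
    (hchart : ∀ m, m0 ≤ m → D.L m = ttnkL ν₁ ν₂ (m • dd₁) (m • dd₂))
    (hpt : ∀ m, m0 ≤ m → TtrkPt (A := A) red (riemannRochSpace (m • dd)))
    (hin : ∀ m, m0 ≤ m → ∀ x : O, ((x : O) : F) ∈ riemannRochSpace (m • dd) → red x ∈ D.L m)
    (honto : ∀ m, m0 ≤ m → ∀ c ∈ D.L m,
      ∃ x : O, ((x : O) : F) ∈ riemannRochSpace (m • dd) ∧ red x = c) :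
    Divisor.degree dd = Divisor.degree dd₁ + Divisor.degree dd₂ ∧
      (g : ℤ) + 1 = g₁ + g₂ + Fintype.card S :=
  ttrk_count_of_onto h RR RR₁ RR₂ hdeg₁ hdeg₂ ν₁ ν₂ hν₁ dd dd₁ dd₂ hdd₁ hdd₂ hpos hpos₁ hpos₂ m0
    hpt (fun m hm x hx => hchart m hm ▸ hin m hm x hx)
    (fun m hm c hc => honto m hm c (by rw [hchart m hm]; exact hc))

/-- **(COUNT) for `ū = (t₁, t₂^q)`** (the shape of `X₀(pM)`: `t₁ = t₂ = j̄`, `q = p`): the chart
rings of the special fibre are described by (NODE) (`hC`, `hC'₁`, `hC'₂`, helper25's shape), the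
generic side by `hpt`, `hin`, `honto`.  Output: `deg 𝔡 = [F₁ : k(t₁)] + q [F₂ : k(t₂)]` and
`g + 1 = g₁ + g₂ + #S`. -/
theorem ttrk_count_frob (h : TtbRed A O red) {g g₁ g₂ : ℕ} (RR : V27RR K F g)
    (RR₁ : V27RR (ResidueField A) F₁ g₁) (RR₂ : V27RR (ResidueField A) F₂ g₂)
    (hdeg₁ : ∀ v : Place (ResidueField A) F₁, v.deg = 1)
    (hdeg₂ : ∀ v : Place (ResidueField A) F₂, v.deg = 1)
    {S : Type*} [Fintype S] (ν₁ : S → Place (ResidueField A) F₁)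
    (ν₂ : S → Place (ResidueField A) F₂) (hν₁ : Function.Injective ν₁)
    (D : FfoaData (ResidueField A) (F₁ × F₂)) {t₁ t₁' : F₁} {t₂ t₂' : F₂} (q : ℕ) (hq : 0 < q)
    (hs₁ : IsSepGen (ResidueField A) t₁) (hs₂ : IsSepGen (ResidueField A) t₂)
    (h₁ : t₁ * t₁' = 1) (h₂ : t₂ * t₂' = 1)
    (hu : D.u = (t₁, t₂ ^ q)) (hui : D.ui = (t₁', t₂' ^ q))
    (hC : ∀ c : F₁ × F₂, c ∈ D.C ↔
      c.1 ∈ intRing (ResidueField A) t₁ ∧ c.2 ∈ intRing (ResidueField A) t₂ ∧ TtnkMatch ν₁ ν₂ c)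
    (hC'₁ : ∀ c : F₁ × F₂, c ∈ D.C' →
      c.1 ∈ intRing (ResidueField A) t₁' ∧ c.2 ∈ intRing (ResidueField A) t₂')
    (hC'₂ : ∀ c : F₁ × F₂, c.1 ∈ intRing (ResidueField A) t₁' →
      c.2 ∈ intRing (ResidueField A) t₂' →
      (∀ i, 0 ≤ (ν₁ i).ord t₁' →
        ∃ a : ResidueField A, GrdVal (ν₁ i) c.1 a ∧ GrdVal (ν₂ i) c.2 a) → c ∈ D.C')
    (dd : Divisor K F) (hpos : 0 < Divisor.degree dd) (m0 : ℕ)
    (hpt : ∀ m, m0 ≤ m → TtrkPt (A := A) red (riemannRochSpace (m • dd)))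
    (hin : ∀ m, m0 ≤ m → ∀ x : O, ((x : O) : F) ∈ riemannRochSpace (m • dd) → red x ∈ D.L m)
    (honto : ∀ m, m0 ≤ m → ∀ c ∈ D.L m,
      ∃ x : O, ((x : O) : F) ∈ riemannRochSpace (m • dd) ∧ red x = c) :
    Divisor.degree dd = Divisor.degree (ffilPolar hs₁) + q * Divisor.degree (ffilPolar hs₂) ∧
      (g : ℤ) + 1 = g₁ + g₂ + Fintype.card S := by
  -- the polar divisors avoid the crossings
  have hmatch : TtnkMatch ν₁ ν₂ ((t₁, t₂ ^ q) : F₁ × F₂) := by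
    have := (hC D.u).mp D.hu_mem
    rw [hu] at this
    exact this.2.2
  have hdd₁ : ∀ s, (ffilPolar hs₁) (ν₁ s) = 0 := fun s => by
    obtain ⟨a, ha1, -⟩ := hmatch s
    exact ffil_polar_of_nonneg hs₁ (ttrk_ord_nonneg_of_val _ ha1)
  have hdd₂ : ∀ s, (q • ffilPolar hs₂) (ν₂ s) = 0 := fun s => by
    obtain ⟨a, -, ha2⟩ := hmatch s
    have h1 : 0 ≤ (ν₂ s).ord (t₂ ^ q) := ttrk_ord_nonneg_of_val _ ha2
    rw [ffil_ord_pow] at h1
    have h2 : 0 ≤ (ν₂ s).ord t₂ := by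
      have hq' : (0 : ℤ) < q := by exact_mod_cast hq
      by_contra hneg
      push Not at hneg
      nlinarith
    rw [Finsupp.smul_apply, ffil_polar_of_nonneg hs₂ h2, smul_zero]
  have hp₁ : 0 < Divisor.degree (ffilPolar hs₁) := by
    rw [ffil_degree_polar hs₁]
    haveI := hs₁.finite
    exact_mod_cast Module.finrank_pos
  have hp₂ : 0 < Divisor.degree (ffilPolar hs₂) := by
    rw [ffil_degree_polar hs₂]
    haveI := hs₂.finite
    exact_mod_cast Module.finrank_pos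
  have hp₂' : 0 < Divisor.degree (q • ffilPolar hs₂) := by
    rw [map_nsmul, nsmul_eq_mul]
    have hq' : (0 : ℤ) < q := by exact_mod_cast hq
    positivity
  have key := ttrk_count_chart h RR RR₁ RR₂ hdeg₁ hdeg₂ ν₁ ν₂ hν₁ D dd (ffilPolar hs₁)
    (q • ffilPolar hs₂) hdd₁ hdd₂ hpos hp₁ hp₂' m0
    (fun m _ => ttrk_L_eq_frob ν₁ ν₂ D q hs₁ hs₂ h₁ h₂ hu hui hC hC'₁ hC'₂ m) hpt hin honto
  rw [map_nsmul, nsmul_eq_mul] at key
  exact key

/-- **`genus_le`** (the field of helper24's `TtgModel`): `g ≤ g₁ + g₂ + #S - 1` from (ONTO)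
alone (+ `deg 𝔡 ≤ deg 𝔡₁ + deg 𝔡₂`); no fullness, no (R-in), no lifts:
`l̃(m𝔡₁, m𝔡₂) ≤ dim_k red(L(m𝔡) ∩ O) ≤ l(m𝔡)` (largest-coefficient trick). -/
theorem ttrk_genus_le (h : TtbRed A O red) {g g₁ g₂ : ℕ} (RR : V27RR K F g)
    (RR₁ : V27RR (ResidueField A) F₁ g₁) (RR₂ : V27RR (ResidueField A) F₂ g₂)
    (hdeg₁ : ∀ v : Place (ResidueField A) F₁, v.deg = 1)
    (hdeg₂ : ∀ v : Place (ResidueField A) F₂, v.deg = 1)
    {S : Type*} [Fintype S] (ν₁ : S → Place (ResidueField A) F₁)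
    (ν₂ : S → Place (ResidueField A) F₂) (hν₁ : Function.Injective ν₁)
    (dd : Divisor K F) (dd₁ : Divisor (ResidueField A) F₁) (dd₂ : Divisor (ResidueField A) F₂)
    (hdd₁ : ∀ s, dd₁ (ν₁ s) = 0) (hdd₂ : ∀ s, dd₂ (ν₂ s) = 0)
    (hpos : 0 < Divisor.degree dd) (hpos₁ : 0 < Divisor.degree dd₁)
    (hpos₂ : 0 < Divisor.degree dd₂)
    (hdeg : Divisor.degree dd ≤ Divisor.degree dd₁ + Divisor.degree dd₂) (m0 : ℕ)
    (honto : ∀ m, m0 ≤ m → ∀ c ∈ ttnkL ν₁ ν₂ (m • dd₁) (m • dd₂),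
      ∃ x : O, ((x : O) : F) ∈ riemannRochSpace (m • dd) ∧ red x = c) :
    (g : ℤ) ≤ g₁ + g₂ + Fintype.card S - 1 := by
  set m : ℕ := m0 + (2 * g + 2 * g₁ + 2 * g₂ + Fintype.card S) with hm
  have hm0 : m0 ≤ m := by omega
  have hmZ : (2 * (g : ℤ) + 2 * g₁ + 2 * g₂ + Fintype.card S) ≤ (m : ℤ) := by
    have : 2 * g + 2 * g₁ + 2 * g₂ + Fintype.card S ≤ m := by omega
    exact_mod_cast this
  have hg0 : (0 : ℤ) ≤ g := Int.natCast_nonneg _
  have hg1 : (0 : ℤ) ≤ g₁ := Int.natCast_nonneg _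
  have hg2 : (0 : ℤ) ≤ g₂ := Int.natCast_nonneg _
  have hs0 : (0 : ℤ) ≤ Fintype.card S := Int.natCast_nonneg _
  have hmnn : (0 : ℤ) ≤ m := Int.natCast_nonneg _
  have d0 : Divisor.degree (m • dd) = (m : ℤ) * Divisor.degree dd := by
    rw [map_nsmul, nsmul_eq_mul]
  have d1 : Divisor.degree (m • dd₁) = (m : ℤ) * Divisor.degree dd₁ := by
    rw [map_nsmul, nsmul_eq_mul]
  have d2 : Divisor.degree (m • dd₂) = (m : ℤ) * Divisor.degree dd₂ := by
    rw [map_nsmul, nsmul_eq_mul]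
  have b0 : (m : ℤ) ≤ (m : ℤ) * Divisor.degree dd := by nlinarith
  have b1 : (m : ℤ) ≤ (m : ℤ) * Divisor.degree dd₁ := by nlinarith
  have b2 : (m : ℤ) ≤ (m : ℤ) * Divisor.degree dd₂ := by nlinarith
  have e0 := ffkm_finrank RR (A := m • dd) (by rw [d0]; linarith)
  have e1 := ttnk_finrank_deg ν₁ ν₂ hdeg₁ hdeg₂ (m • dd₁) (m • dd₂)
    (fun i => by rw [Finsupp.smul_apply, hdd₁ i, smul_zero])
    (fun i => by rw [Finsupp.smul_apply, hdd₂ i, smul_zero]) RR₁ RR₂ hν₁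
    (by rw [d1]; linarith) (by rw [d2]; linarith)
  haveI : FiniteDimensional K (riemannRochSpace (m • dd)) := RR.finL _
  obtain ⟨hfR, hRle⟩ := ttb_redSub_finite h (riemannRochSpace (m • dd))
  haveI := hfR
  have hle : ttnkL ν₁ ν₂ (m • dd₁) (m • dd₂) ≤ ttbRedSub h (riemannRochSpace (m • dd)) := by
    intro c hc
    obtain ⟨x, hx, hxc⟩ := honto m hm0 c hc
    exact ⟨x, hx, hxc⟩
  have h1 := Submodule.finrank_mono hle
  have h2 : (finrank (ResidueField A) (ttnkL ν₁ ν₂ (m • dd₁) (m • dd₂)) : ℤ) ≤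
      finrank K (riemannRochSpace (m • dd)) := by exact_mod_cast h1.trans hRle
  rw [e0, e1, d0, d1, d2] at h2
  have hmul : (m : ℤ) * Divisor.degree dd ≤
      (m : ℤ) * (Divisor.degree dd₁ + Divisor.degree dd₂) :=
    mul_le_mul_of_nonneg_left hdeg hmnn
  rw [mul_add] at hmul
  linarith

/-- **`genus_le` for `ū = (t₁, t₂^q)`**, in chart form: (NODE) gluing halves `hC`, `hC'₂`,
(ONTO) against `D.L m = C ∩ ū^m C'` (`tto_onto`), and the degree inequality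
`deg 𝔡 ≤ [F₁ : k(t₁)] + q [F₂ : k(t₂)]`. -/
theorem ttrk_genus_le_frob (h : TtbRed A O red) {g g₁ g₂ : ℕ} (RR : V27RR K F g)
    (RR₁ : V27RR (ResidueField A) F₁ g₁) (RR₂ : V27RR (ResidueField A) F₂ g₂)
    (hdeg₁ : ∀ v : Place (ResidueField A) F₁, v.deg = 1)
    (hdeg₂ : ∀ v : Place (ResidueField A) F₂, v.deg = 1)
    {S : Type*} [Fintype S] (ν₁ : S → Place (ResidueField A) F₁)
    (ν₂ : S → Place (ResidueField A) F₂) (hν₁ : Function.Injective ν₁)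
    (D : FfoaData (ResidueField A) (F₁ × F₂)) {t₁ t₁' : F₁} {t₂ t₂' : F₂} (q : ℕ) (hq : 0 < q)
    (hs₁ : IsSepGen (ResidueField A) t₁) (hs₂ : IsSepGen (ResidueField A) t₂)
    (h₁ : t₁ * t₁' = 1) (h₂ : t₂ * t₂' = 1)
    (hu : D.u = (t₁, t₂ ^ q)) (hui : D.ui = (t₁', t₂' ^ q))
    (hC : ∀ c : F₁ × F₂, c ∈ D.C ↔
      c.1 ∈ intRing (ResidueField A) t₁ ∧ c.2 ∈ intRing (ResidueField A) t₂ ∧ TtnkMatch ν₁ ν₂ c)
    (hC'₂ : ∀ c : F₁ × F₂, c.1 ∈ intRing (ResidueField A) t₁' →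
      c.2 ∈ intRing (ResidueField A) t₂' →
      (∀ i, 0 ≤ (ν₁ i).ord t₁' →
        ∃ a : ResidueField A, GrdVal (ν₁ i) c.1 a ∧ GrdVal (ν₂ i) c.2 a) → c ∈ D.C')
    (dd : Divisor K F) (hpos : 0 < Divisor.degree dd)
    (hdeg : Divisor.degree dd ≤
      Divisor.degree (ffilPolar hs₁) + q * Divisor.degree (ffilPolar hs₂)) (m0 : ℕ)
    (honto : ∀ m, m0 ≤ m → ∀ c ∈ D.L m,
      ∃ x : O, ((x : O) : F) ∈ riemannRochSpace (m • dd) ∧ red x = c) :
    (g : ℤ) ≤ g₁ + g₂ + Fintype.card S - 1 := by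
  have hmatch : TtnkMatch ν₁ ν₂ ((t₁, t₂ ^ q) : F₁ × F₂) := by
    have := (hC D.u).mp D.hu_mem
    rw [hu] at this
    exact this.2.2
  have hdd₁ : ∀ s, (ffilPolar hs₁) (ν₁ s) = 0 := fun s => by
    obtain ⟨a, ha1, -⟩ := hmatch s
    exact ffil_polar_of_nonneg hs₁ (ttrk_ord_nonneg_of_val _ ha1)
  have hdd₂ : ∀ s, (q • ffilPolar hs₂) (ν₂ s) = 0 := fun s => by
    obtain ⟨a, -, ha2⟩ := hmatch s
    have h1 : 0 ≤ (ν₂ s).ord (t₂ ^ q) := ttrk_ord_nonneg_of_val _ ha2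
    rw [ffil_ord_pow] at h1
    have h2 : 0 ≤ (ν₂ s).ord t₂ := by
      have hq' : (0 : ℤ) < q := by exact_mod_cast hq
      by_contra hneg
      push Not at hneg
      nlinarith
    rw [Finsupp.smul_apply, ffil_polar_of_nonneg hs₂ h2, smul_zero]
  have hp₁ : 0 < Divisor.degree (ffilPolar hs₁) := by
    rw [ffil_degree_polar hs₁]
    haveI := hs₁.finite
    exact_mod_cast Module.finrank_pos
  have hp₂ : 0 < Divisor.degree (ffilPolar hs₂) := by
    rw [ffil_degree_polar hs₂]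
    haveI := hs₂.finite
    exact_mod_cast Module.finrank_pos
  have hp₂' : 0 < Divisor.degree (q • ffilPolar hs₂) := by
    rw [map_nsmul, nsmul_eq_mul]
    have hq' : (0 : ℤ) < q := by exact_mod_cast hq
    positivity
  refine ttrk_genus_le h RR RR₁ RR₂ hdeg₁ hdeg₂ ν₁ ν₂ hν₁ dd (ffilPolar hs₁)
    (q • ffilPolar hs₂) hdd₁ hdd₂ hpos hp₁ hp₂' ?_ m0 (fun m hm c hc => ?_)
  · rw [map_nsmul, nsmul_eq_mul]
    exact hdeg
  · exact honto m hm c (ttrk_L_ge_frob ν₁ ν₂ D q hs₁ hs₂ h₁ h₂ hu hui hC hC'₂ m hc)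

/-- **(DIM)** in the shape of helper26's `ttb_model_nodal` / helper28's `TT/Lvl/Pts.lean`:
from the genus identity and `deg 𝔡 = deg 𝔡₁ + deg 𝔡₂`. -/
theorem ttrk_dim {g g₁ g₂ : ℕ} (RR : V27RR K F g)
    (RR₁ : V27RR (ResidueField A) F₁ g₁) (RR₂ : V27RR (ResidueField A) F₂ g₂)
    (hdeg₁ : ∀ v : Place (ResidueField A) F₁, v.deg = 1)
    (hdeg₂ : ∀ v : Place (ResidueField A) F₂, v.deg = 1)
    {S : Type*} [Fintype S] (ν₁ : S → Place (ResidueField A) F₁)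
    (ν₂ : S → Place (ResidueField A) F₂) (hν₁ : Function.Injective ν₁)
    (hgen : (g : ℤ) + 1 = g₁ + g₂ + Fintype.card S)
    (dd : Divisor K F) (dd₁ : Divisor (ResidueField A) F₁) (dd₂ : Divisor (ResidueField A) F₂)
    (hdd₁ : ∀ s, dd₁ (ν₁ s) = 0) (hdd₂ : ∀ s, dd₂ (ν₂ s) = 0)
    (hdd : Divisor.degree dd₁ + Divisor.degree dd₂ ≤ Divisor.degree dd) (i : ℕ)
    (h₁ : 2 * (g₁ : ℤ) - 1 + Fintype.card S ≤ (i : ℤ) * Divisor.degree dd₁)
    (h₂ : 2 * (g₂ : ℤ) - 1 ≤ (i : ℤ) * Divisor.degree dd₂) :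
    finrank (ResidueField A) (ttnkL ν₁ ν₂ (i • dd₁) (i • dd₂)) ≤
      finrank K (riemannRochSpace (i • dd)) := by
  have d0 : Divisor.degree (i • dd) = (i : ℤ) * Divisor.degree dd := by
    rw [map_nsmul, nsmul_eq_mul]
  have d1 : Divisor.degree (i • dd₁) = (i : ℤ) * Divisor.degree dd₁ := by
    rw [map_nsmul, nsmul_eq_mul]
  have d2 : Divisor.degree (i • dd₂) = (i : ℤ) * Divisor.degree dd₂ := by
    rw [map_nsmul, nsmul_eq_mul]
  have e1 := ttnk_finrank_deg ν₁ ν₂ hdeg₁ hdeg₂ (i • dd₁) (i • dd₂)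
    (fun s => by rw [Finsupp.smul_apply, hdd₁ s, smul_zero])
    (fun s => by rw [Finsupp.smul_apply, hdd₂ s, smul_zero]) RR₁ RR₂ hν₁
    (by rw [d1]; exact h₁) (by rw [d2]; exact h₂)
  have e0 := RR.riemann_ineq (i • dd)
  rw [d0] at e0
  rw [d1, d2] at e1
  have hi0 : (0 : ℤ) ≤ i := Int.natCast_nonneg _
  have hmul : (i : ℤ) * (Divisor.degree dd₁ + Divisor.degree dd₂) ≤ (i : ℤ) * Divisor.degree dd :=
    mul_le_mul_of_nonneg_left hdd hi0
  have : (finrank (ResidueField A) (ttnkL ν₁ ν₂ (i • dd₁) (i • dd₂)) : ℤ) ≤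
      finrank K (riemannRochSpace (i • dd)) := by
    rw [e1]
    linarith
  exact_mod_cast this

/-- (DIM) for `i = 1..5` at once, from the bound at `i = 1`. -/
theorem ttrk_dim_five {g g₁ g₂ : ℕ} (RR : V27RR K F g)
    (RR₁ : V27RR (ResidueField A) F₁ g₁) (RR₂ : V27RR (ResidueField A) F₂ g₂)
    (hdeg₁ : ∀ v : Place (ResidueField A) F₁, v.deg = 1)
    (hdeg₂ : ∀ v : Place (ResidueField A) F₂, v.deg = 1)
    {S : Type*} [Fintype S] (ν₁ : S → Place (ResidueField A) F₁)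
    (ν₂ : S → Place (ResidueField A) F₂) (hν₁ : Function.Injective ν₁)
    (hgen : (g : ℤ) + 1 = g₁ + g₂ + Fintype.card S)
    (dd : Divisor K F) (dd₁ : Divisor (ResidueField A) F₁) (dd₂ : Divisor (ResidueField A) F₂)
    (hdd₁ : ∀ s, dd₁ (ν₁ s) = 0) (hdd₂ : ∀ s, dd₂ (ν₂ s) = 0)
    (hdd : Divisor.degree dd₁ + Divisor.degree dd₂ ≤ Divisor.degree dd)
    (h₁ : 2 * (g₁ : ℤ) - 1 + Fintype.card S ≤ Divisor.degree dd₁)
    (h₂ : 2 * (g₂ : ℤ) - 1 ≤ Divisor.degree dd₂) (h₁' : 0 ≤ Divisor.degree dd₁)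
    (h₂' : 0 ≤ Divisor.degree dd₂) :
    ∀ i : ℕ, 1 ≤ i → i ≤ 5 →
      finrank (ResidueField A) (ttnkL ν₁ ν₂ (i • dd₁) (i • dd₂)) ≤
        finrank K (riemannRochSpace (i • dd)) := by
  intro i hi _
  have hiZ : (1 : ℤ) ≤ i := by exact_mod_cast hi
  have hs0 : (0 : ℤ) ≤ Fintype.card S := Int.natCast_nonneg _
  have hg1 : (0 : ℤ) ≤ g₁ := Int.natCast_nonneg _
  refine ttrk_dim RR RR₁ RR₂ hdeg₁ hdeg₂ ν₁ ν₂ hν₁ hgen dd dd₁ dd₂ hdd₁ hdd₂ hdd i ?_ ?_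
  · nlinarith
  · nlinarith

end Count

end Fermat.Agent.TT
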