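import Mathlib
import Fermat.Agent.FF.IntL
import Fermat.Agent.FF.IntLRed
import Fermat.Agent.G.FF.Dict
import Fermat.Agent.G.Lvl.Finrank

/-!
# Program TT (S33): (COUNT), the degree identity `deg (α u)_∞ = (p + 1) deg (ū)_∞`

Owner: helper5.  Namespace `Fermat.Agent.TT`, prefix `ttrk` (names `ttrk_polar_*`, `ttrk_degree_*`).

* `ttrk_polar_along` : for an integral `K`-embedding `φ : F → F'` of function fields,
  `(φ u)_∞ = φ^* (u)_∞` (pull-back of divisors);
* `ttrk_degree_polar_along` : `deg (φ u)_∞ = [F' : φ F] · deg (u)_∞`;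
* `ttrk_isSepGen_along` : `φ u` is a separating generator of `F'` (characteristic zero);
* `ttrk_degree_polar_alpha` : at the levels `M`, `M p` (`p` prime, `p ∤ M`):
  `deg (α u)_∞ = (p + 1) · deg (u)_∞`;
* `ttrk_degree_polar_chart` : for a chart `(τ, τ')` of the level-`M` atlas at `𝔸 ∣ ℓ`, `ℓ ∤ M`:
  `deg (α u)_∞ = (p + 1) · deg (ū)_∞`, the hypothesis `hdeg` of `ttrk_genus_le_frob` /
  `ttrk_count_frob` (with `q = p`, `t₁ = t₂ = ū`: `deg (ū)_∞ + p · deg (ū)_∞`).
-/

set_option autoImplicit false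
set_option linter.unusedSectionVars false
set_option linter.unusedVariables false
set_option linter.style.haveILetI false

noncomputable section

namespace Fermat.Agent.TT

open AlgebraicCurve ModularCurve Fermat.Agent.G Fermat.Agent.FF Fermat.Agent.S24

section Along

variable {K F F' : Type*} [Field K] [Field F] [Field F'] [Algebra K F] [Algebra K F']

/-- `(φ u)_∞ = φ^* (u)_∞`. -/
theorem ttrk_polar_along [HasPrincipalDivisors K F'] (φ : F →ₐ[K] F')
    (hφ : φ.toRingHom.IsIntegral) {u : F} (hs : IsSepGen K u) (hs' : IsSepGen K (φ u)) :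
    ffilPolar hs' = Divisor.pullbackAlong φ hφ (ffilPolar hs) := by
  symm
  apply ffil_polar_eq_of_apply hs'
  intro w
  rw [Divisor.pullbackAlong_apply, ffilPolar_apply, Place.ord_restrictAlong φ hφ w u]
  have he : (0 : ℤ) ≤ (Place.ramificationIndexAlong φ w : ℤ) := Int.natCast_nonneg _
  rw [mul_max_of_nonneg _ _ he, mul_zero, mul_neg]

/-- `deg (φ u)_∞ = [F' : φ F] · deg (u)_∞`. -/
theorem ttrk_degree_polar_along [HasPrincipalDivisors K F'] (φ : F →ₐ[K] F')
    (hφ : φ.toRingHom.IsIntegral) (hFI : FundamentalIdentityAlong K φ hφ) {u : F}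
    (hs : IsSepGen K u) (hs' : IsSepGen K (φ u)) :
    Divisor.degree (ffilPolar hs') = (finrankAlong K φ : ℤ) * Divisor.degree (ffilPolar hs) := by
  rw [ttrk_polar_along φ hφ hs hs', Divisor.degree_pullbackAlong φ hφ hFI]

/-- the image of a separating generator along a finite embedding (characteristic zero). -/
theorem ttrk_isSepGen_along [CharZero K] (φ : F →ₐ[K] F') (hfin : FiniteAlong K φ) {u : F}
    (hs : IsSepGen K u) : IsSepGen K (φ u) := by
  letI := algebraAlong φ
  haveI := isScalarTower_along φ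
  haveI : Module.Finite F F' := hfin
  exact gffa_isSepGen_algebraMap (F' := F') hs

end Along

section Level

local notation "Qb" => AlgebraicClosure ℚ

variable (M p : ℕ) [NeZero M] [NeZero p]

/-- `α u` is a separating generator of `F_ℚ̄(M p)`. -/
theorem ttrk_isSepGen_alpha {u : modularFunctionFieldBar M} (hs : IsSepGen Qb u) :
    IsSepGen Qb (heckeAlphaBar Qb M p u) :=
  ttrk_isSepGen_along (heckeAlphaBar Qb M p) (gff_alpha_finite M p) hs

/-- `deg (α u)_∞ = (p + 1) · deg (u)_∞` for a prime `p ∤ M`. -/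
theorem ttrk_degree_polar_alpha (hp : p.Prime) (hpM : ¬ p ∣ M) {u : modularFunctionFieldBar M}
    (hs : IsSepGen Qb u) (hs' : IsSepGen Qb (heckeAlphaBar Qb M p u)) :
    Divisor.degree (ffilPolar hs') = ((p : ℤ) + 1) * Divisor.degree (ffilPolar hs) := by
  haveI := gff_hasPrincipalDivisors (M * p)
  rw [ttrk_degree_polar_along (heckeAlphaBar Qb M p) (gff_alpha_integral M p)
    (glv_alpha_fundamentalIdentity M p) hs hs', glv_finrank M p hp hpM]
  push_cast
  ring

end Level

section Chart

local notation "Qb" => AlgebraicClosure ℚ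

variable (M p : ℕ) [NeZero M] [NeZero p] {ℓ : ℕ} [Fact ℓ.Prime]
variable (A : ValuationSubring (AlgebraicClosure ℚ)) {τ τ' : LaurentSeries ℤ}
variable (r : Place Qb (modularFunctionFieldBar M) →
  Place (IsLocalRing.ResidueField A) (modularFunctionFieldFullC (IsLocalRing.ResidueField A) M))

/-- **the degree identity of (COUNT)**: for a chart of the level-`M` atlas at `𝔸 ∣ ℓ ∤ M` and a
prime `p ∤ M`, `deg (α u)_∞ = (p + 1) · deg (ū)_∞ = deg (ū)_∞ + p · deg (ū)_∞`. -/
theorem ttrk_degree_polar_chart (hp : p.Prime) (hpM : ¬ p ∣ M) (hℓM : ¬ ℓ ∣ M)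
    (hA : A.LiesOverPrime ℓ) (hat : GrdAtlas M A τ τ')
    (hr : GrdIsRed M A hat.c.mem hat.c'.mem r)
    (hs' : IsSepGen Qb (heckeAlphaBar Qb M p (grdQ M hat.c.mem))) :
    Divisor.degree (ffilPolar hs') =
      Divisor.degree (ffilPolar hat.c.sepK) + (p : ℤ) * Divisor.degree (ffilPolar hat.c.sepK) := by
  rw [ttrk_degree_polar_alpha M p hp hpM hat.c.sepQ hs', fflr_degree_polar M A r hℓM hA hat hr]
  ring

end Chart

end Fermat.Agent.TT
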