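import Mathlib
import Fermat.Agent.TT.Red2.NodeCount
import Fermat.Agent.TT.Red2.NodeDeg
import Fermat.Agent.FF.IntInst.Main

/-!
# Program TT (S33): (COUNT) at the levels `M`, `M p` - the field `genus_le` of `TtgModel`

Owner: helper5.  Namespace `Fermat.Agent.TT`, prefix `ttrk`.

`F = F_ℚ̄(M p)`, `F_k = F_k(M)`, a chart `(τ, τ')` of the level-`M` atlas at `𝔸 ∣ p`, `p ∤ M`;
`u = α(grdQ M τ)`, `ū = grdK M 𝔸 τ`, `red u = (ū, ū^p)`.  Inputs (one per producer):

* `h : TtbRed 𝔸 O red` for `O = V₁ ⊓ V₂`, `red = (red₁, red₂)`             (Layer A, helper27);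
* `D : FfoaData k (F_k × F_k)` = the two special-fibre chart rings `C = red(B)`, `C' = red(B')`
  with `D.u = (ū, ū^p)`, `D.ui = (ū', ū'^p)`                                  (OntoInst, helper28);
* (NODE), gluing halves `hC`, `hC'₂`                                          (helper19);
* (ONTO) `honto` : every element of `C ∩ ū^m C'` is the reduction of an element of
  `O ∩ L(m·(u)_∞)`, `m ≥ m0`               (`tto_onto` + (A8)(i) + `ffil_mem_rr_iff`, helper28).

Output: `g(M p) ≤ 2 g(M) + #S - 1`, the field `genus_le` of helper24's `TtgModel` verbatim.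
-/

set_option autoImplicit false
set_option linter.unusedSectionVars false
set_option linter.unusedVariables false
set_option linter.style.haveILetI false

noncomputable section

namespace Fermat.Agent.TT

open AlgebraicCurve ModularCurve IsLocalRing Fermat.Agent.G Fermat.Agent.FF Fermat.Agent.S24
  Fermat.Agent.V.RR

local notation "Qb" => AlgebraicClosure ℚ

variable (M p : ℕ) [NeZero M] [NeZero p] [Fact p.Prime]
variable (A : ValuationSubring (AlgebraicClosure ℚ)) {τ τ' : LaurentSeries ℤ}

/-- **`genus_le` at the levels `M`, `M p`.** -/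
theorem ttrk_genus_le_inst (hpM : ¬ p ∣ M) (hA : A.LiesOverPrime p) (hat : GrdAtlas M A τ τ')
    {O : Subring (modularFunctionFieldBar (M * p))}
    {red : O →+* modularFunctionFieldFullC (ResidueField A) M ×
      modularFunctionFieldFullC (ResidueField A) M}
    (h : TtbRed A O red) {S : Type*} [Fintype S]
    (ν₁ ν₂ : S → Place (ResidueField A) (modularFunctionFieldFullC (ResidueField A) M))
    (hν₁ : Function.Injective ν₁)
    (D : FfoaData (ResidueField A) (modularFunctionFieldFullC (ResidueField A) M ×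
      modularFunctionFieldFullC (ResidueField A) M))
    (hu : D.u = (grdK M A hat.c.mem, grdK M A hat.c.mem ^ p))
    (hui : D.ui = (grdK M A hat.c'.mem, grdK M A hat.c'.mem ^ p))
    (hC : ∀ c, c ∈ D.C ↔
      c.1 ∈ intRing (ResidueField A) (grdK M A hat.c.mem) ∧
        c.2 ∈ intRing (ResidueField A) (grdK M A hat.c.mem) ∧ TtnkMatch ν₁ ν₂ c)
    (hC'₂ : ∀ c : modularFunctionFieldFullC (ResidueField A) M ×
        modularFunctionFieldFullC (ResidueField A) M,
      c.1 ∈ intRing (ResidueField A) (grdK M A hat.c'.mem) →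
      c.2 ∈ intRing (ResidueField A) (grdK M A hat.c'.mem) →
      (∀ i, 0 ≤ (ν₁ i).ord (grdK M A hat.c'.mem) →
        ∃ a : ResidueField A, GrdVal (ν₁ i) c.1 a ∧ GrdVal (ν₂ i) c.2 a) → c ∈ D.C')
    (m0 : ℕ)
    (honto : ∀ m, m0 ≤ m → ∀ c ∈ D.L m, ∃ x : O,
      ((x : O) : modularFunctionFieldBar (M * p)) ∈
        riemannRochSpace (m • ffilPolar (ttrk_isSepGen_alpha M p hat.c.sepQ)) ∧ red x = c) :
    (genusFF Qb (modularFunctionFieldBar (M * p)) : ℤ) ≤
      genusFF Qb (modularFunctionFieldBar M) + genusFF Qb (modularFunctionFieldBar M) +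
        Fintype.card S - 1 := by
  have hp : p.Prime := Fact.out
  obtain ⟨r, hr⟩ := grd_exists_isRed M A hpM hA hat
  obtain ⟨-, RRk, -, hdegk, -, -, -, -, -⟩ := ffii_bundle M A hpM hA hat
  have RR := ffg_rr_bar (M * p)
  have hs' := ttrk_isSepGen_alpha M p hat.c.sepQ
  have hpos : 0 < Divisor.degree (ffilPolar hs') := by
    rw [ffil_degree_polar hs']
    haveI := hs'.finite
    exact_mod_cast Module.finrank_pos
  have hdeg := ttrk_degree_polar_chart M p A r hp hpM hpM hA hat hr hs'
  exact ttrk_genus_le_frob h RR RRk RRk hdegk hdegk ν₁ ν₂ hν₁ D p hp.pos hat.c.sepK hat.c.sepK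
    (grda_grdK_mul M A hat) (grda_grdK_mul M A hat) hu hui hC hC'₂ (ffilPolar hs') hpos
    hdeg.le m0 honto

end Fermat.Agent.TT
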