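import Mathlib
import Fermat.Agent.G.Red.Val

/-!
# Program TT (S33), (NODE), the place-level GLUE `(I3)` : the set of nodes as crossing pairs,
`hC`, chart comparison and `hC'₂`

Owner: helper27.  Namespace `Fermat.Agent.TT`, prefix `ttrz`.  Mathlib + main `G/Red/Val` only.

`k` a field, `F₁ F₂ / k` two function fields (the two components of the closed fibre),
`B` the chart ring with its two reductions `r₁ : B →+* F₁`, `r₂ : B →+* F₂`, `t_j ∈ F_j` the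
reductions of the chart coordinate.

* `TtrzPair r₁ r₂ t₁ t₂ Q₁ Q₂` : `(Q₁, Q₂)` is a CROSSING PAIR : `t_j` is regular at `Q_j` and every
  `x ∈ B` has the same value at the two branches (same body as helper19's `TtrmPair`);
* `ttrzS k r₁ r₂ t₁ t₂` : THE NODES := the subtype of crossing pairs; `ttrzNu₁`, `ttrzNu₂` the two
  projections; `ttrz_nu₁_injective`, `ttrz_nu₂_injective`, `ttrz_finite` (from the uniqueness and
  finiteness statements of (N-A));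
* `ttrz_hC` : the image of `B` in `F₁ × F₂` is the ring of pairs of integral functions with equal
  values at all nodes (from the node theorem (N-A)(d));
* `ttrz_pair_of_pair'` : CHART COMPARISON : a crossing pair of the inverse chart `(B', r₁', r₂')`
  is a crossing pair of `B` (no crossing where the inverse coordinate vanishes, (N-C));
* `ttrz_hC'₂` : the gluing half for the inverse chart, in the shape consumed by (COUNT).
-/

set_option autoImplicit false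
set_option linter.unusedVariables false
set_option linter.unusedSectionVars false

namespace Fermat.Agent.TT

open AlgebraicCurve Fermat.Agent.G Fermat.Agent.S24

variable {k F₁ F₂ : Type*} [Field k] [Field F₁] [Field F₂] [Algebra k F₁] [Algebra k F₂]

/-! ### Value calculus: inverses and powers -/

section Val

variable {F : Type*} [Field F] [Algebra k F]

/-- an element with a nonzero value is a unit of the valuation ring -/
theorem ttrz_val_unit (P : Place k F) {y : F} {d : k} (hy : GrdVal P y d) (hd : d ≠ 0) :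
    P.toValuationSubring.valuation y = 1 := by
  have h1 : P.toValuationSubring.valuation (y - algebraMap k F d) < 1 :=
    (ValuationSubring.mem_nonunits_iff _).1 hy
  have h2 : P.toValuationSubring.valuation (algebraMap k F d) = 1 :=
    grdv_valuation_algebraMap P hd
  have e : y = algebraMap k F d + (y - algebraMap k F d) := by ring
  rw [e, Valuation.map_add_eq_of_lt_left _ (by rw [h2]; exact h1), h2]

/-- the value of an inverse -/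
theorem ttrz_val_inv (P : Place k F) {y : F} {d : k} (hy : GrdVal P y d) (hd : d ≠ 0) :
    GrdVal P y⁻¹ d⁻¹ := by
  have hv := ttrz_val_unit P hy hd
  have hy0 : y ≠ 0 := by
    rintro rfl
    rw [map_zero] at hv
    exact zero_ne_one hv
  have hd0 : algebraMap k F d ≠ 0 := (map_ne_zero_iff _ (algebraMap k F).injective).mpr hd
  have e : y⁻¹ - algebraMap k F d⁻¹ = -(y - algebraMap k F d) * (y⁻¹ * (algebraMap k F d)⁻¹) := by
    rw [map_inv₀]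
    field_simp
    ring
  show y⁻¹ - algebraMap k F d⁻¹ ∈ P.toValuationSubring.nonunits
  rw [e, ValuationSubring.mem_nonunits_iff, map_mul, map_mul, Valuation.map_neg, map_inv₀,
    map_inv₀, hv, grdv_valuation_algebraMap P hd, inv_one, mul_one, mul_one]
  exact (ValuationSubring.mem_nonunits_iff _).1 hy

/-- the value of a power -/
theorem ttrz_val_pow (P : Place k F) {y : F} {d : k} (hy : GrdVal P y d) (n : ℕ) :
    GrdVal P (y ^ n) (d ^ n) := by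
  induction n with
  | zero =>
    rw [pow_zero, pow_zero]
    show (1 : F) - algebraMap k F 1 ∈ _
    rw [map_one, sub_self]
    exact zero_mem _
  | succ n ih =>
    rw [pow_succ, pow_succ]
    exact grdg_val_mul P ih hy

/-- if a positive power has a nonzero value, the element is a unit of the valuation ring -/
theorem ttrz_inv_mem_of_pow (P : Place k F) {y : F} (hy : y ∈ P.toValuationSubring) {d : k}
    {q : ℕ} (hq : q ≠ 0) (hyq : GrdVal P (y ^ q) d) (hd : d ≠ 0) :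
    y⁻¹ ∈ P.toValuationSubring := by
  have h1 := ttrz_val_unit P hyq hd
  rw [map_pow] at h1
  have h2 : P.toValuationSubring.valuation y ≤ 1 :=
    (P.toValuationSubring.valuation_le_one_iff _).2 hy
  have h3 : P.toValuationSubring.valuation y = 1 := by
    rcases eq_or_lt_of_le h2 with h | h
    · exact h
    · exfalso
      have : P.toValuationSubring.valuation y ^ q < 1 := pow_lt_one₀ zero_le' h hq
      rw [h1] at this
      exact lt_irrefl _ this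
  rw [← P.toValuationSubring.valuation_le_one_iff, map_inv₀, h3, inv_one]

end Val

/-! ### Crossing pairs and the set of nodes -/

section Pair

variable {B : Type*} [CommRing B] (r₁ : B →+* F₁) (r₂ : B →+* F₂) (t₁ : F₁) (t₂ : F₂)

/-- `(Q₁, Q₂)` is a crossing pair of the chart `(B, r₁, r₂)` : the chart coordinate is regular at
both points and every element of `B` takes the same value at the two branches. -/
def TtrzPair (Q₁ : Place k F₁) (Q₂ : Place k F₂) : Prop :=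
  t₁ ∈ Q₁.toValuationSubring ∧ t₂ ∈ Q₂.toValuationSubring ∧
    ∀ x : B, ∃ c : k, GrdVal Q₁ (r₁ x) c ∧ GrdVal Q₂ (r₂ x) c

/-- **the nodes** := the crossing pairs. -/
def ttrzS (k : Type*) {F₁ F₂ : Type*} [Field k] [Field F₁] [Field F₂] [Algebra k F₁]
    [Algebra k F₂] {B : Type*} [CommRing B] (r₁ : B →+* F₁) (r₂ : B →+* F₂) (t₁ : F₁) (t₂ : F₂) :
    Type _ :=
  {q : Place k F₁ × Place k F₂ // TtrzPair r₁ r₂ t₁ t₂ q.1 q.2}

variable {r₁ r₂ t₁ t₂}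

/-- the branch of a node on the first component -/
def ttrzNu₁ (i : ttrzS k r₁ r₂ t₁ t₂) : Place k F₁ := i.1.1

/-- the branch of a node on the second component -/
def ttrzNu₂ (i : ttrzS k r₁ r₂ t₁ t₂) : Place k F₂ := i.1.2

theorem ttrz_pair_of_node (i : ttrzS k r₁ r₂ t₁ t₂) :
    TtrzPair r₁ r₂ t₁ t₂ (ttrzNu₁ i) (ttrzNu₂ i) := i.2

/-- NODE (i) by definition : both branch values of every `x ∈ B` agree. -/
theorem ttrz_node_val (i : ttrzS k r₁ r₂ t₁ t₂) (x : B) :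
    ∃ c : k, GrdVal (ttrzNu₁ i) (r₁ x) c ∧ GrdVal (ttrzNu₂ i) (r₂ x) c :=
  i.2.2.2 x

theorem ttrz_nu₁_injective
    (huniq : ∀ (Q₁ : Place k F₁) (Q₂ Q₂' : Place k F₂), TtrzPair r₁ r₂ t₁ t₂ Q₁ Q₂ →
      TtrzPair r₁ r₂ t₁ t₂ Q₁ Q₂' → Q₂ = Q₂') :
    Function.Injective (ttrzNu₁ (k := k) (r₁ := r₁) (r₂ := r₂) (t₁ := t₁) (t₂ := t₂)) := by
  rintro ⟨⟨Q₁, Q₂⟩, h⟩ ⟨⟨Q₁', Q₂'⟩, h'⟩ (e : Q₁ = Q₁')
  subst e
  have := huniq Q₁ Q₂ Q₂' h h'
  subst this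
  rfl

theorem ttrz_nu₂_injective
    (huniq : ∀ (Q₁ Q₁' : Place k F₁) (Q₂ : Place k F₂), TtrzPair r₁ r₂ t₁ t₂ Q₁ Q₂ →
      TtrzPair r₁ r₂ t₁ t₂ Q₁' Q₂ → Q₁ = Q₁') :
    Function.Injective (ttrzNu₂ (k := k) (r₁ := r₁) (r₂ := r₂) (t₁ := t₁) (t₂ := t₂)) := by
  rintro ⟨⟨Q₁, Q₂⟩, h⟩ ⟨⟨Q₁', Q₂'⟩, h'⟩ (e : Q₂ = Q₂')
  subst e
  have := huniq Q₁ Q₁' Q₂ h h'
  subst this
  rfl

/-- the set of nodes is finite. -/
theorem ttrz_finite
    (huniq : ∀ (Q₁ : Place k F₁) (Q₂ Q₂' : Place k F₂), TtrzPair r₁ r₂ t₁ t₂ Q₁ Q₂ →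
      TtrzPair r₁ r₂ t₁ t₂ Q₁ Q₂' → Q₂ = Q₂')
    (hfin : {Q₁ : Place k F₁ | ∃ Q₂, TtrzPair r₁ r₂ t₁ t₂ Q₁ Q₂}.Finite) :
    Finite (ttrzS k r₁ r₂ t₁ t₂) := by
  haveI : Finite ↥{Q₁ : Place k F₁ | ∃ Q₂, TtrzPair r₁ r₂ t₁ t₂ Q₁ Q₂} := hfin.to_subtype
  let f : ttrzS k r₁ r₂ t₁ t₂ → ↥{Q₁ : Place k F₁ | ∃ Q₂, TtrzPair r₁ r₂ t₁ t₂ Q₁ Q₂} :=
    fun i => ⟨ttrzNu₁ i, ⟨ttrzNu₂ i, i.2⟩⟩
  have hf : Function.Injective f := by
    intro i j hij
    exact ttrz_nu₁_injective huniq (congrArg Subtype.val hij)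
  exact Finite.of_injective f hf

/-- **`hC`** : the image of the chart ring in `F₁ × F₂` is the ring of pairs of integral functions
with equal values at all nodes.  `hnode` is the node theorem (N-A)(d). -/
theorem ttrz_hC
    (hR₁ : ∀ y : F₁, y ∈ intRing k t₁ ↔ ∃ b : B, r₁ b = y)
    (hR₂ : ∀ y : F₂, y ∈ intRing k t₂ ↔ ∃ b : B, r₂ b = y)
    (hnode : ∀ (a : F₁) (b : F₂), a ∈ intRing k t₁ → b ∈ intRing k t₂ →
      (∀ (Q₁ : Place k F₁) (Q₂ : Place k F₂), TtrzPair r₁ r₂ t₁ t₂ Q₁ Q₂ →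
        ∃ c : k, GrdVal Q₁ a c ∧ GrdVal Q₂ b c) →
      ∃ x : B, r₁ x = a ∧ r₂ x = b)
    (c : F₁ × F₂) :
    (∃ x : B, r₁ x = c.1 ∧ r₂ x = c.2) ↔
      c.1 ∈ intRing k t₁ ∧ c.2 ∈ intRing k t₂ ∧
        ∀ i : ttrzS k r₁ r₂ t₁ t₂, ∃ a : k, GrdVal (ttrzNu₁ i) c.1 a ∧
          GrdVal (ttrzNu₂ i) c.2 a := by
  constructor
  · rintro ⟨x, hx₁, hx₂⟩
    refine ⟨(hR₁ _).2 ⟨x, hx₁⟩, (hR₂ _).2 ⟨x, hx₂⟩, fun i => ?_⟩
    rw [← hx₁, ← hx₂]
    exact ttrz_node_val i x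
  · rintro ⟨h₁, h₂, hm⟩
    exact hnode c.1 c.2 h₁ h₂ fun Q₁ Q₂ hp => hm ⟨(Q₁, Q₂), hp⟩

end Pair

/-! ### Chart comparison and the inverse chart -/

section Compare

variable {B B' : Type*} [CommRing B] [CommRing B']
  {r₁ : B →+* F₁} {r₂ : B →+* F₂} {t₁ : F₁} {t₂ : F₂}
  {r₁' : B' →+* F₁} {r₂' : B' →+* F₂} {t₁' : F₁} {t₂' : F₂}

/-- **CHART COMPARISON** : a crossing pair of the inverse chart is a crossing pair of the chart.
`u' ∈ B'` is the inverse chart coordinate, with reductions `t₁'` and `t₂' ^ q` (`q = p` at the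
instance); `hpole` : every `x ∈ B` becomes an element of `B'` after multiplication by a power of
`u'`; `hcusp` : no crossing where `u'` vanishes (N-C). -/
theorem ttrz_pair_of_pair' (ht₁ : t₁ * t₁' = 1) (ht₂ : t₂ * t₂' = 1) (q : ℕ) (hq : q ≠ 0)
    (u' : B') (hu₁ : r₁' u' = t₁') (hu₂ : r₂' u' = t₂' ^ q)
    (hpole : ∀ x : B, ∃ (n : ℕ) (x' : B'), r₁' x' = r₁ x * t₁' ^ n ∧
      r₂' x' = r₂ x * (t₂' ^ q) ^ n)
    {Q₁ : Place k F₁} {Q₂ : Place k F₂} (hp : TtrzPair r₁' r₂' t₁' t₂' Q₁ Q₂)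
    (hcusp : ¬ GrdVal Q₁ t₁' 0) : TtrzPair r₁ r₂ t₁ t₂ Q₁ Q₂ := by
  obtain ⟨hreg₁, hreg₂, hval⟩ := hp
  -- the common value of `u'`
  obtain ⟨c₀, hc₁, hc₂⟩ := hval u'
  rw [hu₁] at hc₁
  rw [hu₂] at hc₂
  have hc₀ : c₀ ≠ 0 := by
    rintro rfl
    exact hcusp hc₁
  have e₁ : t₁ = t₁'⁻¹ := eq_inv_of_mul_eq_one_left ht₁
  have e₂ : t₂ = t₂'⁻¹ := eq_inv_of_mul_eq_one_left ht₂
  have ht₁'0 : t₁' ≠ 0 := right_ne_zero_of_mul_eq_one ht₁
  have ht₂'0 : t₂' ≠ 0 := right_ne_zero_of_mul_eq_one ht₂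
  refine ⟨?_, ?_, ?_⟩
  · rw [e₁]
    exact grdg_val_mem Q₁ (ttrz_val_inv Q₁ hc₁ hc₀)
  · rw [e₂]
    exact ttrz_inv_mem_of_pow Q₂ hreg₂ hq hc₂ hc₀
  · intro x
    obtain ⟨n, x', hx₁, hx₂⟩ := hpole x
    obtain ⟨c, hcx₁, hcx₂⟩ := hval x'
    rw [hx₁] at hcx₁
    rw [hx₂] at hcx₂
    have hd₁ : GrdVal Q₁ (t₁' ^ n) (c₀ ^ n) := ttrz_val_pow Q₁ hc₁ n
    have hd₂ : GrdVal Q₂ ((t₂' ^ q) ^ n) (c₀ ^ n) := ttrz_val_pow Q₂ hc₂ n
    have hdn : c₀ ^ n ≠ 0 := pow_ne_zero n hc₀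
    refine ⟨c * (c₀ ^ n)⁻¹, ?_, ?_⟩
    · have e : r₁ x = r₁ x * t₁' ^ n * (t₁' ^ n)⁻¹ := by
        rw [mul_assoc, mul_inv_cancel₀ (pow_ne_zero n ht₁'0), mul_one]
      rw [e]
      exact grdg_val_mul Q₁ hcx₁ (ttrz_val_inv Q₁ hd₁ hdn)
    · have e : r₂ x = r₂ x * (t₂' ^ q) ^ n * ((t₂' ^ q) ^ n)⁻¹ := by
        rw [mul_assoc, mul_inv_cancel₀ (pow_ne_zero n (pow_ne_zero q ht₂'0)), mul_one]
      rw [e]
      exact grdg_val_mul Q₂ hcx₂ (ttrz_val_inv Q₂ hd₂ hdn)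

/-- **`hC'₂`** : the gluing half for the inverse chart : a pair of functions integral over the
inverse coordinate whose values agree at all nodes (of the FIRST chart) where the inverse
coordinate is regular comes from `B'`.  `hnode'` is the node theorem (N-A)(d) for `B'`. -/
theorem ttrz_hC'₂ (ht₁ : t₁ * t₁' = 1) (ht₂ : t₂ * t₂' = 1) (q : ℕ) (hq : q ≠ 0)
    (u' : B') (hu₁ : r₁' u' = t₁') (hu₂ : r₂' u' = t₂' ^ q)
    (hpole : ∀ x : B, ∃ (n : ℕ) (x' : B'), r₁' x' = r₁ x * t₁' ^ n ∧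
      r₂' x' = r₂ x * (t₂' ^ q) ^ n)
    (hcusp : ∀ (Q₁ : Place k F₁) (Q₂ : Place k F₂), TtrzPair r₁' r₂' t₁' t₂' Q₁ Q₂ →
      ¬ GrdVal Q₁ t₁' 0)
    (hnode' : ∀ (a : F₁) (b : F₂), a ∈ intRing k t₁' → b ∈ intRing k t₂' →
      (∀ (Q₁ : Place k F₁) (Q₂ : Place k F₂), TtrzPair r₁' r₂' t₁' t₂' Q₁ Q₂ →
        ∃ c : k, GrdVal Q₁ a c ∧ GrdVal Q₂ b c) →
      ∃ x : B', r₁' x = a ∧ r₂' x = b)
    (c : F₁ × F₂) (h₁ : c.1 ∈ intRing k t₁') (h₂ : c.2 ∈ intRing k t₂')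
    (hm : ∀ i : ttrzS k r₁ r₂ t₁ t₂, 0 ≤ (ttrzNu₁ i).ord t₁' →
      ∃ a : k, GrdVal (ttrzNu₁ i) c.1 a ∧ GrdVal (ttrzNu₂ i) c.2 a) :
    ∃ x : B', r₁' x = c.1 ∧ r₂' x = c.2 := by
  refine hnode' c.1 c.2 h₁ h₂ fun Q₁ Q₂ hp => ?_
  have hp0 := ttrz_pair_of_pair' ht₁ ht₂ q hq u' hu₁ hu₂ hpole hp (hcusp Q₁ Q₂ hp)
  refine hm ⟨(Q₁, Q₂), hp0⟩ ?_
  show 0 ≤ Q₁.ord t₁'
  exact (grdg_mem_iff_ord Q₁ (right_ne_zero_of_mul_eq_one ht₁)).1 hp.1

/-- every node of the inverse chart is a node (the map on the sets of nodes). -/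
def ttrzOfInv (ht₁ : t₁ * t₁' = 1) (ht₂ : t₂ * t₂' = 1) (q : ℕ) (hq : q ≠ 0)
    (u' : B') (hu₁ : r₁' u' = t₁') (hu₂ : r₂' u' = t₂' ^ q)
    (hpole : ∀ x : B, ∃ (n : ℕ) (x' : B'), r₁' x' = r₁ x * t₁' ^ n ∧
      r₂' x' = r₂ x * (t₂' ^ q) ^ n)
    (hcusp : ∀ (Q₁ : Place k F₁) (Q₂ : Place k F₂), TtrzPair r₁' r₂' t₁' t₂' Q₁ Q₂ →
      ¬ GrdVal Q₁ t₁' 0)
    (i : ttrzS k r₁' r₂' t₁' t₂') : ttrzS k r₁ r₂ t₁ t₂ :=
  ⟨i.1, ttrz_pair_of_pair' ht₁ ht₂ q hq u' hu₁ hu₂ hpole i.2 (hcusp _ _ i.2)⟩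

end Compare

end Fermat.Agent.TT
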