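/-
(NODE), abstract part (prefix `ttrn`, Mathlib only): the localisation principle
for a reduction with two components.

`B` is the chart ring, `r₁ : B → C₁`, `r₂ : B → C₂` its two branch reductions
(both onto), `J = ker r₁ ⊔ ker r₂` the ideal of the intersection of the two
components.  THE transversality hypothesis is

  (T)  for every maximal ideal `𝔫 ⊇ J` and every `x ∈ 𝔫` there is `s ∉ 𝔫`
       with `s * x ∈ J`          (`𝔫 B_𝔫 = J B_𝔫`: the components cross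
                                  transversally at `𝔫`).

Under (T) the image of `B` in `C₁ × C₂` is EXACTLY the ring of pairs taking
the same value at every crossing point.  No noetherian / finiteness /
finite-length hypothesis; the crossing points are DEFINED as the maximal
ideals of `B` containing both `ker r₁` and `ker r₂`.

* `ttrn_mem_of_local`   : the colon-ideal core;
* `ttrn_glue_of_mem`    : gluing along `J`;
* `ttrn_node_intrinsic` : pairs `(r₁ x₁, r₂ x₂)` in the image  ⟺  `x₁ - x₂ ∈ 𝔫` at all crossings;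
* `ttrn_node`           : the same with named branch evaluations `e₁ i`, `e₂ i`
                          at an indexed family of nodes (target ring may depend on `i`);
* `ttrn_into`           : the trivial half in the shape used for (R-in);
* `ttrn_root`           : (N) - the image is closed under `q`-th roots when the
                          evaluation rings are reduced of characteristic `q`-Frobenius-injective.
-/
import Mathlib

set_option autoImplicit false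

namespace Fermat.Agent.TT

open Ideal

section Abstract

variable {B C₁ C₂ : Type*} [CommRing B] [CommRing C₁] [CommRing C₂]

/-- The colon-ideal core: if at every maximal ideal `𝔪 ⊇ J` some `s ∉ 𝔪` has
`s * d ∈ J`, then `d ∈ J`. -/
theorem ttrn_mem_of_local (J : Ideal B) (d : B)
    (h : ∀ 𝔪 : Ideal B, 𝔪.IsMaximal → J ≤ 𝔪 → ∃ s, s ∉ 𝔪 ∧ s * d ∈ J) : d ∈ J := by
  classical
  by_contra hd
  -- the colon ideal `(J : d)`
  let Q : Ideal B :=
    { carrier := {s | s * d ∈ J}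
      add_mem' := by
        intro a b ha hb
        show (a + b) * d ∈ J
        rw [add_mul]; exact J.add_mem ha hb
      zero_mem' := by
        show (0 : B) * d ∈ J
        rw [zero_mul]; exact J.zero_mem
      smul_mem' := by
        intro c a ha
        show (c • a) * d ∈ J
        rw [smul_eq_mul, mul_assoc]; exact J.mul_mem_left c ha }
  have hQ : Q ≠ ⊤ := by
    intro hQ
    have h1 : (1 : B) ∈ Q := by rw [hQ]; trivial
    have h2 : (1 : B) * d ∈ J := h1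
    rw [one_mul] at h2
    exact hd h2
  obtain ⟨𝔪, h𝔪, hQ𝔪⟩ := Ideal.exists_le_maximal Q hQ
  have hJ𝔪 : J ≤ 𝔪 := by
    intro x hx
    apply hQ𝔪
    show x * d ∈ J
    exact J.mul_mem_right d hx
  obtain ⟨s, hs, hsd⟩ := h 𝔪 h𝔪 hJ𝔪
  exact hs (hQ𝔪 hsd)

/-- Gluing along `J = ker r₁ ⊔ ker r₂`: if `x₁ - x₂ ∈ J` there is ONE element
with the `r₁`-image of `x₁` and the `r₂`-image of `x₂`. -/
theorem ttrn_glue_of_mem (r₁ : B →+* C₁) (r₂ : B →+* C₂) (x₁ x₂ : B)
    (h : x₁ - x₂ ∈ RingHom.ker r₁ ⊔ RingHom.ker r₂) :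
    ∃ x, r₁ x = r₁ x₁ ∧ r₂ x = r₂ x₂ := by
  obtain ⟨y₁, hy₁, y₂, hy₂, hy⟩ := Submodule.mem_sup.1 h
  refine ⟨x₁ - y₁, ?_, ?_⟩
  · rw [map_sub, (RingHom.mem_ker).1 hy₁, sub_zero]
  · have e : x₁ - y₁ = x₂ + y₂ := by
      have e' : x₁ = x₂ + (y₁ + y₂) := by rw [hy]; ring
      rw [e']; ring
    rw [e, map_add, (RingHom.mem_ker).1 hy₂, add_zero]

/-- the converse of `ttrn_glue_of_mem` -/
theorem ttrn_mem_of_glue (r₁ : B →+* C₁) (r₂ : B →+* C₂) (x₁ x₂ x : B)
    (h₁ : r₁ x = r₁ x₁) (h₂ : r₂ x = r₂ x₂) :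
    x₁ - x₂ ∈ RingHom.ker r₁ ⊔ RingHom.ker r₂ := by
  have e : x₁ - x₂ = (x₁ - x) + (x - x₂) := by ring
  rw [e]
  refine Submodule.add_mem_sup ?_ ?_
  · rw [RingHom.mem_ker, map_sub, h₁, sub_self]
  · rw [RingHom.mem_ker, map_sub, h₂, sub_self]

/-- **(NODE), intrinsic form.**  Under (T), `(r₁ x₁, r₂ x₂)` is in the image of
`B` iff `x₁ ≡ x₂` at every crossing point (maximal ideal above `ker r₁ ⊔ ker r₂`). -/
theorem ttrn_node_intrinsic (r₁ : B →+* C₁) (r₂ : B →+* C₂)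
    (hT : ∀ 𝔫 : Ideal B, 𝔫.IsMaximal → RingHom.ker r₁ ⊔ RingHom.ker r₂ ≤ 𝔫 →
      ∀ x ∈ 𝔫, ∃ s, s ∉ 𝔫 ∧ s * x ∈ RingHom.ker r₁ ⊔ RingHom.ker r₂)
    (x₁ x₂ : B) :
    (∃ x, r₁ x = r₁ x₁ ∧ r₂ x = r₂ x₂) ↔
      ∀ 𝔫 : Ideal B, 𝔫.IsMaximal → RingHom.ker r₁ ⊔ RingHom.ker r₂ ≤ 𝔫 → x₁ - x₂ ∈ 𝔫 := by
  constructor
  · rintro ⟨x, h₁, h₂⟩ 𝔫 _ hJ
    exact hJ (ttrn_mem_of_glue r₁ r₂ x₁ x₂ x h₁ h₂)
  · intro h
    apply ttrn_glue_of_mem
    apply ttrn_mem_of_local
    intro 𝔪 h𝔪 hJ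
    exact hT 𝔪 h𝔪 hJ _ (h 𝔪 h𝔪 hJ)

/-- **(NODE), indexed form.**  Nodes `i : ι` with branch evaluations
`e₁ i : C₁ → k i`, `e₂ i : C₂ → k i`;
(INTO) the two branch values of an element of `B` agree at every node,
(M) every maximal ideal above `ker r₁ ⊔ ker r₂` is the ideal of a node,
(T) transversality at every node.
Then the image of `B` in `C₁ × C₂` is the ring of pairs with equal values at
all nodes. -/
theorem ttrn_node {ι : Type*} {k : ι → Type*} [∀ i, CommRing (k i)]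
    (r₁ : B →+* C₁) (r₂ : B →+* C₂)
    (hr₁ : Function.Surjective r₁) (hr₂ : Function.Surjective r₂)
    (e₁ : ∀ i, C₁ →+* k i) (e₂ : ∀ i, C₂ →+* k i)
    (hinto : ∀ i x, e₁ i (r₁ x) = e₂ i (r₂ x))
    (hM : ∀ 𝔪 : Ideal B, 𝔪.IsMaximal → RingHom.ker r₁ ⊔ RingHom.ker r₂ ≤ 𝔪 →
      ∃ i, ∀ x, x ∈ 𝔪 ↔ e₁ i (r₁ x) = 0)
    (hT : ∀ i x, e₁ i (r₁ x) = 0 →
      ∃ s, e₁ i (r₁ s) ≠ 0 ∧ s * x ∈ RingHom.ker r₁ ⊔ RingHom.ker r₂)
    (a : C₁) (b : C₂) :
    (∃ x, r₁ x = a ∧ r₂ x = b) ↔ ∀ i, e₁ i a = e₂ i b := by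
  constructor
  · rintro ⟨x, rfl, rfl⟩ i
    exact hinto i x
  · intro hab
    obtain ⟨x₁, rfl⟩ := hr₁ a
    obtain ⟨x₂, rfl⟩ := hr₂ b
    have hd : ∀ i, e₁ i (r₁ (x₁ - x₂)) = 0 := by
      intro i
      rw [map_sub, map_sub, hinto i x₂, hab i, sub_self]
    have hmem : x₁ - x₂ ∈ RingHom.ker r₁ ⊔ RingHom.ker r₂ := by
      apply ttrn_mem_of_local
      intro 𝔪 h𝔪 hJ
      obtain ⟨i, hi⟩ := hM 𝔪 h𝔪 hJ
      obtain ⟨s, hs, hsx⟩ := hT i _ (hd i)
      exact ⟨s, fun h => hs ((hi s).1 h), hsx⟩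
    exact ttrn_glue_of_mem r₁ r₂ x₁ x₂ hmem

/-- (INTO) in the shape used for (R-in): a ring hom `ev : B → k` (evaluation at
the closed point) that factors through both branches gives equal branch values. -/
theorem ttrn_into {k : Type*} [CommRing k] (r₁ : B →+* C₁) (r₂ : B →+* C₂)
    (ev : B →+* k) (e₁ : C₁ →+* k) (e₂ : C₂ →+* k)
    (h₁ : ∀ x, e₁ (r₁ x) = ev x) (h₂ : ∀ x, e₂ (r₂ x) = ev x) (x : B) :
    e₁ (r₁ x) = e₂ (r₂ x) := by
  rw [h₁, h₂]

/-- a ring hom `ev : B → k` killing `ker r₁` factors through the surjection `r₁` -/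
theorem ttrn_exists_factor {k : Type*} [CommRing k] (r₁ : B →+* C₁)
    (hr₁ : Function.Surjective r₁) (ev : B →+* k) (hker : RingHom.ker r₁ ≤ RingHom.ker ev) :
    ∃ e₁ : C₁ →+* k, ∀ x, e₁ (r₁ x) = ev x :=
  ⟨RingHom.liftOfRightInverse r₁ (Function.surjInv hr₁) (Function.rightInverse_surjInv hr₁)
      ⟨ev, hker⟩,
    fun x => RingHom.liftOfRightInverse_comp_apply r₁ _ (Function.rightInverse_surjInv hr₁)
      ⟨ev, hker⟩ x⟩

/-- **(N)**: closure under `q`-th roots.  If the node condition holds for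
`(a ^ q, b ^ q)` and `x ↦ x ^ q` is injective on differences in every `k i`
(e.g. `k i` a field of characteristic `p`, `q = p ^ n`), it holds for `(a, b)`. -/
theorem ttrn_root {ι : Type*} {k : ι → Type*} [∀ i, CommRing (k i)]
    (e₁ : ∀ i, C₁ →+* k i) (e₂ : ∀ i, C₂ →+* k i) (q : ℕ)
    (hq : ∀ i (y z : k i), y ^ q = z ^ q → y = z)
    (a : C₁) (b : C₂) (h : ∀ i, e₁ i (a ^ q) = e₂ i (b ^ q)) :
    ∀ i, e₁ i a = e₂ i b := by
  intro i
  apply hq i
  rw [← map_pow, ← map_pow]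
  exact h i

/-- Frobenius is injective on a reduced ring of characteristic `p`. -/
theorem ttrn_pow_inj {k : Type*} [CommRing k] [IsReduced k] (p : ℕ) [Fact p.Prime] [CharP k p]
    (n : ℕ) (y z : k) (h : y ^ p ^ n = z ^ p ^ n) : y = z := by
  have h1 : (y - z) ^ p ^ n = 0 := by
    rw [sub_pow_char_pow, h, sub_self]
  exact sub_eq_zero.1 (IsReduced.eq_zero _ ⟨_, h1⟩)

end Abstract

end Fermat.Agent.TT
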