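/-
(N-A) NODE-PLC (prefix `ttrm`): abstract passage from the RING-level description of the
crossing points of a chart with two components (maximal ideals of the chart ring `B`
containing both branch kernels) to the PLACE-level description (pairs of places of the two
components at which every element of `B` takes the same value).

Setting: `k` algebraically closed, `F₁ F₂ / k` function fields with separating generators
`t₁ t₂`, `B` any commutative ring with `r_j : B →+* F_j` of image `intRing k t_j`, and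
every constant of `k` lifts simultaneously.
-/
import Mathlib
import Fermat.Agent.G.Red.Defs
import Fermat.Agent.G.Red.Val
import Fermat.Agent.G.Red.GenPlace
import Fermat.Agent.S24.Places
import Fermat.Agent.S24.PlacesInt
import Fermat.Agent.S24.PlacesCenter
import Fermat.Agent.TT.Red2.Node

set_option autoImplicit false
set_option linter.unusedSectionVars false
set_option linter.unusedVariables false

noncomputable section

namespace Fermat.Agent.TT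

open AlgebraicCurve Fermat.Agent.S24 Fermat.Agent.G IsDedekindDomain

section Point

variable {k F : Type*} [Field k] [IsAlgClosed k] [Field F] [Algebra k F] {t : F}

/-- a maximal ideal of `C = intRing k t` is the kernel of a `k`-point of `C` -/
theorem ttrm_point_of_max (ht : IsSepGen k t) (𝔪 : Ideal ↥(intRing k t)) (h𝔪 : 𝔪.IsMaximal) :
    ∃ χ : ↥(intRing k t) →+* k,
      (∀ (c : k) (hc : algebraMap k F c ∈ intRing k t), χ ⟨algebraMap k F c, hc⟩ = c) ∧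
      ∀ x, x ∈ 𝔪 ↔ χ x = 0 := by
  have hft := intRing_finiteType ht
  letI := Ideal.Quotient.field 𝔪
  have hfin : Module.Finite k (↥(intRing k t) ⧸ 𝔪) :=
    finite_of_finite_type_of_isJacobsonRing k _
  haveI : Algebra.IsIntegral k (↥(intRing k t) ⧸ 𝔪) := Algebra.IsIntegral.of_finite k _
  have hbij : Function.Bijective (algebraMap k (↥(intRing k t) ⧸ 𝔪)) :=
    IsAlgClosed.algebraMap_bijective_of_isIntegral
  let e : k ≃+* (↥(intRing k t) ⧸ 𝔪) := RingEquiv.ofBijective _ hbij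
  refine ⟨(e.symm : (↥(intRing k t) ⧸ 𝔪) →+* k).comp (Ideal.Quotient.mk 𝔪), ?_, ?_⟩
  · intro c hc
    have h1 : (⟨algebraMap k F c, hc⟩ : ↥(intRing k t)) = algebraMap k ↥(intRing k t) c := by
      apply Subtype.ext
      exact IsScalarTower.algebraMap_apply k ↥(intRing k t) F c
    rw [h1]
    show e.symm (Ideal.Quotient.mk 𝔪 (algebraMap k ↥(intRing k t) c)) = c
    have h2 : Ideal.Quotient.mk 𝔪 (algebraMap k ↥(intRing k t) c) = e c := rfl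
    rw [h2, RingEquiv.symm_apply_apply]
  · intro x
    show x ∈ 𝔪 ↔ e.symm (Ideal.Quotient.mk 𝔪 x) = 0
    rw [map_eq_zero_iff _ e.symm.injective, Ideal.Quotient.eq_zero_iff_mem]

/-- a maximal ideal of `C = intRing k t` is the centre of a place -/
theorem ttrm_place_of_max (ht : IsSepGen k t) (𝔪 : Ideal ↥(intRing k t)) (h𝔪 : 𝔪.IsMaximal) :
    ∃ (χ : ↥(intRing k t) →+* k) (Q : Place k F),
      (∀ (c : k) (hc : algebraMap k F c ∈ intRing k t), χ ⟨algebraMap k F c, hc⟩ = c) ∧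
      (∀ x, x ∈ 𝔪 ↔ χ x = 0) ∧ t ∈ Q.toValuationSubring ∧
      ∀ x : ↥(intRing k t), GrdVal Q (x : F) (χ x) := by
  obtain ⟨χ, hχ, hker⟩ := ttrm_point_of_max ht 𝔪 h𝔪
  obtain ⟨Q, ⟨hQ, hval⟩, -⟩ := grdg_place_of_hom ht χ hχ
  exact ⟨χ, Q, hχ, hker, hQ, hval⟩

end Point

section PairDef

variable {k F₁ F₂ B : Type*} [Field k] [Field F₁] [Field F₂] [Algebra k F₁] [Algebra k F₂]
  [CommRing B]

/-- `(Q₁, Q₂)` is a crossing pair of the chart `(B, r₁, r₂)`: both places lie in the chart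
and every element of `B` takes the same value at `Q₁` (through `r₁`) and at `Q₂`
(through `r₂`). -/
def TtrmPair (r₁ : B →+* F₁) (r₂ : B →+* F₂) (t₁ : F₁) (t₂ : F₂)
    (Q₁ : Place k F₁) (Q₂ : Place k F₂) : Prop :=
  t₁ ∈ Q₁.toValuationSubring ∧ t₂ ∈ Q₂.toValuationSubring ∧
    ∀ x : B, ∃ c : k, GrdVal Q₁ (r₁ x) c ∧ GrdVal Q₂ (r₂ x) c

end PairDef

section Branch

variable {k F B : Type*} [Field k] [IsAlgClosed k] [Field F] [Algebra k F] [CommRing B] {t : F}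

/-- one branch: a maximal ideal of `B` above `ker r` is the centre of a place of the branch. -/
theorem ttrm_branch (ht : IsSepGen k t) (r : B →+* F)
    (hR : ∀ y, y ∈ intRing k t ↔ ∃ b, r b = y)
    (𝔫 : Ideal B) (h𝔫 : 𝔫.IsMaximal) (h₁ : RingHom.ker r ≤ 𝔫) :
    ∃ Q : Place k F, t ∈ Q.toValuationSubring ∧ (∀ x : B, ∃ c : k, GrdVal Q (r x) c) ∧
      ∀ x : B, x ∈ 𝔫 ↔ GrdVal Q (r x) 0 := by
  let ρ : B →+* ↥(intRing k t) := r.codRestrict (intRing k t) (fun b => (hR _).2 ⟨b, rfl⟩)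
  have hρ : ∀ b, ((ρ b : ↥(intRing k t)) : F) = r b := fun b => rfl
  have hsurj : Function.Surjective ρ := by
    intro y
    obtain ⟨b, hb⟩ := (hR (y : F)).1 y.2
    exact ⟨b, Subtype.ext hb⟩
  have hker : Ideal.comap ρ ⊥ ≤ 𝔫 := by
    intro x hx
    apply h₁
    rw [RingHom.mem_ker]
    have h0 : ρ x = 0 := by simpa using hx
    rw [← hρ x, h0]
    rfl
  have hcomap : Ideal.comap ρ (Ideal.map ρ 𝔫) = 𝔫 := by
    rw [Ideal.comap_map_of_surjective ρ hsurj 𝔫]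
    exact sup_eq_left.2 hker
  have hmax : (Ideal.map ρ 𝔫).IsMaximal := by
    rcases Ideal.map_eq_top_or_isMaximal_of_surjective ρ hsurj h𝔫 with h | h
    · exfalso
      apply h𝔫.ne_top
      rw [← hcomap, h, Ideal.comap_top]
    · exact h
  obtain ⟨χ, Q, hχ, hχker, hQ, hval⟩ := ttrm_place_of_max ht _ hmax
  have hv : ∀ x : B, GrdVal Q (r x) (χ (ρ x)) := fun x => hval (ρ x)
  refine ⟨Q, hQ, fun x => ⟨_, hv x⟩, fun x => ?_⟩
  have h1 : x ∈ 𝔫 ↔ ρ x ∈ Ideal.map ρ 𝔫 := by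
    conv_lhs => rw [← hcomap]
    exact Ideal.mem_comap
  rw [h1, hχker]
  constructor
  · intro h0
    have := hv x
    rwa [h0] at this
  · intro h0
    exact grdg_val_unique Q (hv x) h0

end Branch

section Pair

variable {k F₁ F₂ B : Type*} [Field k] [IsAlgClosed k] [Field F₁] [Field F₂] [Algebra k F₁]
  [Algebra k F₂] [CommRing B] {t₁ : F₁} {t₂ : F₂}

/-- value of a difference -/
theorem ttrm_val_sub {F : Type*} [Field F] [Algebra k F] (Q : Place k F) {x y : F} {a b : k}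
    (hx : GrdVal Q x a) (hy : GrdVal Q y b) : GrdVal Q (x - y) (a - b) := by
  have := grdg_val_add Q hx (grdg_val_neg Q hy)
  rwa [← sub_eq_add_neg, ← sub_eq_add_neg] at this

/-- (N-A)(a): the residue field of a closed point of `B` on the first component is `k`. -/
theorem ttrm_res (ht₁ : IsSepGen k t₁) (r₁ : B →+* F₁) (r₂ : B →+* F₂)
    (hR₁ : ∀ y, y ∈ intRing k t₁ ↔ ∃ b, r₁ b = y)
    (𝔫 : Ideal B) (h𝔫 : 𝔫.IsMaximal) (h₁ : RingHom.ker r₁ ≤ 𝔫) (x : B) :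
    ∃ c : k, ∀ b, r₁ b = algebraMap k F₁ c → r₂ b = algebraMap k F₂ c → x - b ∈ 𝔫 := by
  obtain ⟨Q, hQ, hval, hmem⟩ := ttrm_branch ht₁ r₁ hR₁ 𝔫 h𝔫 h₁
  obtain ⟨c, hc⟩ := hval x
  refine ⟨c, fun b hb _ => ?_⟩
  rw [hmem, map_sub, hb]
  have := ttrm_val_sub Q hc (grdg_val_algebraMap Q c)
  rwa [sub_self] at this

/-- (N-A)(b): a crossing point of `B` gives a crossing pair of places. -/
theorem ttrm_exists_pair (ht₁ : IsSepGen k t₁) (ht₂ : IsSepGen k t₂)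
    (r₁ : B →+* F₁) (r₂ : B →+* F₂)
    (hR₁ : ∀ y, y ∈ intRing k t₁ ↔ ∃ b, r₁ b = y) (hR₂ : ∀ y, y ∈ intRing k t₂ ↔ ∃ b, r₂ b = y)
    (hconst : ∀ c : k, ∃ b, r₁ b = algebraMap k F₁ c ∧ r₂ b = algebraMap k F₂ c)
    (𝔫 : Ideal B) (h𝔫 : 𝔫.IsMaximal) (h₁ : RingHom.ker r₁ ≤ 𝔫) (h₂ : RingHom.ker r₂ ≤ 𝔫) :
    ∃ (Q₁ : Place k F₁) (Q₂ : Place k F₂), TtrmPair r₁ r₂ t₁ t₂ Q₁ Q₂ ∧
      ∀ x, x ∈ 𝔫 ↔ GrdVal Q₁ (r₁ x) 0 := by
  obtain ⟨Q₁, hQ₁, hval₁, hmem₁⟩ := ttrm_branch ht₁ r₁ hR₁ 𝔫 h𝔫 h₁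
  obtain ⟨Q₂, hQ₂, hval₂, hmem₂⟩ := ttrm_branch ht₂ r₂ hR₂ 𝔫 h𝔫 h₂
  refine ⟨Q₁, Q₂, ⟨hQ₁, hQ₂, fun x => ?_⟩, hmem₁⟩
  obtain ⟨c, hc⟩ := hval₁ x
  refine ⟨c, hc, ?_⟩
  obtain ⟨b, hb₁, hb₂⟩ := hconst c
  have hxb : x - b ∈ 𝔫 := by
    rw [hmem₁, map_sub, hb₁]
    have := ttrm_val_sub Q₁ hc (grdg_val_algebraMap Q₁ c)
    rwa [sub_self] at this
  have h0 : GrdVal Q₂ (r₂ (x - b)) 0 := (hmem₂ _).1 hxb
  have h3 := grdg_val_add Q₂ h0 (grdg_val_algebraMap Q₂ c)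
  rw [map_sub, hb₂, sub_add_cancel, zero_add] at h3
  exact h3

/-- (N-A)(c): a crossing pair of places gives a crossing point of `B`. -/
theorem ttrm_ideal (r₁ : B →+* F₁) (r₂ : B →+* F₂)
    (hconst : ∀ c : k, ∃ b, r₁ b = algebraMap k F₁ c ∧ r₂ b = algebraMap k F₂ c)
    {Q₁ : Place k F₁} {Q₂ : Place k F₂} (h : TtrmPair r₁ r₂ t₁ t₂ Q₁ Q₂) :
    ∃ 𝔫 : Ideal B, 𝔫.IsMaximal ∧ RingHom.ker r₁ ≤ 𝔫 ∧ RingHom.ker r₂ ≤ 𝔫 ∧
      ∀ x, x ∈ 𝔫 ↔ GrdVal Q₁ (r₁ x) 0 := by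
  obtain ⟨hQ₁, hQ₂, hp⟩ := h
  let 𝔫 : Ideal B :=
    { carrier := {x | GrdVal Q₁ (r₁ x) 0}
      add_mem' := by
        intro a b ha hb
        show GrdVal Q₁ (r₁ (a + b)) 0
        have := grdg_val_add Q₁ ha hb
        rwa [← map_add, add_zero] at this
      zero_mem' := by
        show GrdVal Q₁ (r₁ 0) 0
        rw [map_zero]
        have := grdg_val_algebraMap Q₁ (0 : k)
        rwa [map_zero] at this
      smul_mem' := by
        intro c a ha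
        show GrdVal Q₁ (r₁ (c • a)) 0
        obtain ⟨d, hd, -⟩ := hp c
        have := grdg_val_mul Q₁ hd ha
        rwa [smul_eq_mul, map_mul, ← mul_zero d] }
  have hmem : ∀ x, x ∈ 𝔫 ↔ GrdVal Q₁ (r₁ x) 0 := fun x => Iff.rfl
  refine ⟨𝔫, ?_, ?_, ?_, hmem⟩
  · rw [Ideal.isMaximal_iff]
    constructor
    · intro h1
      have h2 : GrdVal Q₁ (r₁ 1) 0 := h1
      rw [map_one] at h2
      have h3 : GrdVal Q₁ (1 : F₁) 1 := by
        have := grdg_val_algebraMap Q₁ (1 : k)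
        rwa [map_one] at this
      exact zero_ne_one (grdg_val_unique Q₁ h2 h3)
    · intro J x hJ hx hxJ
      obtain ⟨c, hc, -⟩ := hp x
      have hc0 : c ≠ 0 := by
        rintro rfl
        exact hx hc
      obtain ⟨b, hb, -⟩ := hconst c⁻¹
      have h1 : x * b - 1 ∈ 𝔫 := by
        show GrdVal Q₁ (r₁ (x * b - 1)) 0
        rw [map_sub, map_mul, map_one, hb]
        have h2 := grdg_val_mul Q₁ hc (grdg_val_algebraMap Q₁ c⁻¹)
        have h3 : GrdVal Q₁ (1 : F₁) 1 := by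
          have := grdg_val_algebraMap Q₁ (1 : k)
          rwa [map_one] at this
        have h4 := ttrm_val_sub Q₁ h2 h3
        rwa [mul_inv_cancel₀ hc0, sub_self] at h4
      have h2 : (1 : B) = x * b - (x * b - 1) := by ring
      rw [h2]
      exact J.sub_mem (J.mul_mem_right b hxJ) (hJ h1)
  · intro x hx
    show GrdVal Q₁ (r₁ x) 0
    rw [RingHom.mem_ker.1 hx]
    have := grdg_val_algebraMap Q₁ (0 : k)
    rwa [map_zero] at this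
  · intro x hx
    show GrdVal Q₁ (r₁ x) 0
    obtain ⟨c, hc₁, hc₂⟩ := hp x
    rw [RingHom.mem_ker.1 hx] at hc₂
    have h0 : GrdVal Q₂ (0 : F₂) 0 := by
      have := grdg_val_algebraMap Q₂ (0 : k)
      rwa [map_zero] at this
    rw [grdg_val_unique Q₂ hc₂ h0] at hc₁
    exact hc₁

/-- (N-A)(d): **gluing**.  Under transversality (T) at every crossing point, a pair
`(a, b)` of integral functions taking the same value at every crossing pair of places is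
the image of ONE element of `B`. -/
theorem ttrm_node (ht₁ : IsSepGen k t₁) (ht₂ : IsSepGen k t₂)
    (r₁ : B →+* F₁) (r₂ : B →+* F₂)
    (hR₁ : ∀ y, y ∈ intRing k t₁ ↔ ∃ b, r₁ b = y) (hR₂ : ∀ y, y ∈ intRing k t₂ ↔ ∃ b, r₂ b = y)
    (hconst : ∀ c : k, ∃ b, r₁ b = algebraMap k F₁ c ∧ r₂ b = algebraMap k F₂ c)
    (hT : ∀ 𝔫 : Ideal B, 𝔫.IsMaximal → RingHom.ker r₁ ≤ 𝔫 → RingHom.ker r₂ ≤ 𝔫 →
      ∀ x ∈ 𝔫, ∃ s, s ∉ 𝔫 ∧ ∃ y₁ y₂, r₁ y₁ = 0 ∧ r₂ y₂ = 0 ∧ s * x = y₁ + y₂)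
    (a : F₁) (b : F₂) (ha : a ∈ intRing k t₁) (hb : b ∈ intRing k t₂)
    (hm : ∀ (Q₁ : Place k F₁) (Q₂ : Place k F₂), TtrmPair r₁ r₂ t₁ t₂ Q₁ Q₂ →
      ∃ c : k, GrdVal Q₁ a c ∧ GrdVal Q₂ b c) :
    ∃ x : B, r₁ x = a ∧ r₂ x = b := by
  obtain ⟨x₁, hx₁⟩ := (hR₁ a).1 ha
  obtain ⟨x₂, hx₂⟩ := (hR₂ b).1 hb
  have hT' : ∀ 𝔫 : Ideal B, 𝔫.IsMaximal → RingHom.ker r₁ ⊔ RingHom.ker r₂ ≤ 𝔫 →
      ∀ x ∈ 𝔫, ∃ s, s ∉ 𝔫 ∧ s * x ∈ RingHom.ker r₁ ⊔ RingHom.ker r₂ := by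
    intro 𝔫 h𝔫 hJ x hx
    obtain ⟨s, hs, y₁, y₂, hy₁, hy₂, hsx⟩ :=
      hT 𝔫 h𝔫 (le_trans le_sup_left hJ) (le_trans le_sup_right hJ) x hx
    refine ⟨s, hs, ?_⟩
    rw [hsx]
    exact Submodule.add_mem_sup (RingHom.mem_ker.2 hy₁) (RingHom.mem_ker.2 hy₂)
  have key := (ttrn_node_intrinsic r₁ r₂ hT' x₁ x₂).2 ?_
  · obtain ⟨x, h1, h2⟩ := key
    exact ⟨x, by rw [h1, hx₁], by rw [h2, hx₂]⟩
  · intro 𝔫 h𝔫 hJ
    obtain ⟨Q₁, Q₂, hpair, hmem⟩ := ttrm_exists_pair ht₁ ht₂ r₁ r₂ hR₁ hR₂ hconst 𝔫 h𝔫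
      (le_trans le_sup_left hJ) (le_trans le_sup_right hJ)
    obtain ⟨c, hc₁, hc₂⟩ := hm Q₁ Q₂ hpair
    obtain ⟨c', hc'₁, hc'₂⟩ := hpair.2.2 x₂
    rw [hx₂] at hc'₂
    have hcc : c' = c := grdg_val_unique Q₂ hc'₂ hc₂
    rw [hcc] at hc'₁
    rw [hmem, map_sub, hx₁]
    have := ttrm_val_sub Q₁ hc₁ hc'₁
    rwa [sub_self] at this

/-- (N-A)(e): the second place of a crossing pair is determined by the first. -/
theorem ttrm_snd_unique (ht₂ : IsSepGen k t₂) (r₁ : B →+* F₁) (r₂ : B →+* F₂)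
    (hR₂ : ∀ y, y ∈ intRing k t₂ ↔ ∃ b, r₂ b = y)
    {Q₁ : Place k F₁} {Q₂ Q₂' : Place k F₂}
    (h : TtrmPair r₁ r₂ t₁ t₂ Q₁ Q₂) (h' : TtrmPair r₁ r₂ t₁ t₂ Q₁ Q₂') : Q₂ = Q₂' := by
  by_contra hne
  obtain ⟨y, hy0, hy1⟩ := grdg_separate ht₂ Q₂ Q₂' h.2.1 h'.2.1 hne
  obtain ⟨b, hb⟩ := (hR₂ (y : F₂)).1 y.2
  obtain ⟨c, hc₁, hc₂⟩ := h.2.2 b
  obtain ⟨c', hc'₁, hc'₂⟩ := h'.2.2 b
  rw [hb] at hc₂ hc'₂
  have e1 : c = 0 := grdg_val_unique Q₂ hc₂ hy0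
  have e2 : c' = 1 := grdg_val_unique Q₂' hc'₂ hy1
  have e3 : c = c' := grdg_val_unique Q₁ hc₁ hc'₁
  rw [e1, e2] at e3
  exact zero_ne_one e3

/-- (N-A)(e'): the first place of a crossing pair is determined by the second. -/
theorem ttrm_fst_unique (ht₁ : IsSepGen k t₁) (r₁ : B →+* F₁) (r₂ : B →+* F₂)
    (hR₁ : ∀ y, y ∈ intRing k t₁ ↔ ∃ b, r₁ b = y)
    {Q₁ Q₁' : Place k F₁} {Q₂ : Place k F₂}
    (h : TtrmPair r₁ r₂ t₁ t₂ Q₁ Q₂) (h' : TtrmPair r₁ r₂ t₁ t₂ Q₁' Q₂) : Q₁ = Q₁' := by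
  by_contra hne
  obtain ⟨y, hy0, hy1⟩ := grdg_separate ht₁ Q₁ Q₁' h.1 h'.1 hne
  obtain ⟨b, hb⟩ := (hR₁ (y : F₁)).1 y.2
  obtain ⟨c, hc₁, hc₂⟩ := h.2.2 b
  obtain ⟨c', hc'₁, hc'₂⟩ := h'.2.2 b
  rw [hb] at hc₁ hc'₁
  have e1 : c = 0 := grdg_val_unique Q₁ hc₁ hy0
  have e2 : c' = 1 := grdg_val_unique Q₁' hc'₁ hy1
  have e3 : c = c' := grdg_val_unique Q₂ hc₂ hc'₂
  rw [e1, e2] at e3
  exact zero_ne_one e3

/-- finitely many places of the chart where a non-zero integral function vanishes -/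
theorem ttrm_finite_zeros {F : Type*} [Field F] [Algebra k F] {t : F} (ht : IsSepGen k t)
    (f : F) (hf : f ∈ intRing k t) (hf0 : f ≠ 0) :
    {Q : Place k F | t ∈ Q.toValuationSubring ∧ GrdVal Q f 0}.Finite := by
  haveI := Fact.mk ht
  haveI : IsDedekindDomain (intRing k t) := intRing_isDedekindDomain ht
  haveI : IsFractionRing (intRing k t) F := intRing_isFractionRing ht
  let fC : ↥(intRing k t) := ⟨f, hf⟩
  have hfC : fC ≠ 0 := fun h => hf0 (congrArg Subtype.val h)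
  have hI : Ideal.span {fC} ≠ 0 := by
    intro h
    exact hfC (Ideal.span_singleton_eq_bot.1 h)
  have hfin := Ideal.finite_factors hI
  refine (hfin.image (fun w => Place.ofHeightOneSpectrum (K := k) (F := F) w)).subset ?_
  rintro Q ⟨hQ, hv⟩
  obtain ⟨w, rfl⟩ := exists_eq_ofHeightOneSpectrum_intRing Q hQ
  refine ⟨w, ?_, rfl⟩
  have h1 : fC ∈ w.asIdeal :=
    (grdv_val_zero_ofHeightOneSpectrum_iff (K := k) w fC).1 hv
  show w.asIdeal ∣ Ideal.span {fC}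
  rw [Ideal.dvd_span_singleton]
  exact h1

/-- (N-A)(f): finitely many crossing pairs. -/
theorem ttrm_finite (ht₁ : IsSepGen k t₁) (r₁ : B →+* F₁) (r₂ : B →+* F₂)
    (hR₁ : ∀ y, y ∈ intRing k t₁ ↔ ∃ b, r₁ b = y)
    (h : B) (h₁ : r₁ h ≠ 0) (h₂ : r₂ h = 0) :
    {Q₁ : Place k F₁ | ∃ Q₂ : Place k F₂, TtrmPair r₁ r₂ t₁ t₂ Q₁ Q₂}.Finite := by
  refine (ttrm_finite_zeros ht₁ (r₁ h) ((hR₁ _).2 ⟨h, rfl⟩) h₁).subset ?_
  rintro Q₁ ⟨Q₂, hp⟩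
  refine ⟨hp.1, ?_⟩
  obtain ⟨c, hc₁, hc₂⟩ := hp.2.2 h
  rw [h₂] at hc₂
  have h0 : GrdVal Q₂ (0 : F₂) 0 := by
    have := grdg_val_algebraMap Q₂ (0 : k)
    rwa [map_zero] at this
  rw [grdg_val_unique Q₂ hc₂ h0] at hc₁
  exact hc₁

/-- the set of crossing pairs is finite -/
theorem ttrm_finite_pairs (ht₁ : IsSepGen k t₁) (ht₂ : IsSepGen k t₂)
    (r₁ : B →+* F₁) (r₂ : B →+* F₂)
    (hR₁ : ∀ y, y ∈ intRing k t₁ ↔ ∃ b, r₁ b = y) (hR₂ : ∀ y, y ∈ intRing k t₂ ↔ ∃ b, r₂ b = y)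
    (h : B) (h₁ : r₁ h ≠ 0) (h₂ : r₂ h = 0) :
    Finite {q : Place k F₁ × Place k F₂ // TtrmPair r₁ r₂ t₁ t₂ q.1 q.2} := by
  have hfin := ttrm_finite (t₂ := t₂) ht₁ r₁ r₂ hR₁ h h₁ h₂
  haveI : Finite ↥{Q₁ : Place k F₁ | ∃ Q₂ : Place k F₂, TtrmPair r₁ r₂ t₁ t₂ Q₁ Q₂} :=
    hfin.to_subtype
  let g : {q : Place k F₁ × Place k F₂ // TtrmPair r₁ r₂ t₁ t₂ q.1 q.2} →
      ↥{Q₁ : Place k F₁ | ∃ Q₂ : Place k F₂, TtrmPair r₁ r₂ t₁ t₂ Q₁ Q₂} :=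
    fun q => ⟨q.1.1, q.1.2, q.2⟩
  refine Finite.of_injective g ?_
  intro q q' hqq'
  have e1 : q.1.1 = q'.1.1 := congrArg Subtype.val hqq'
  have hq' := q'.2
  rw [← e1] at hq'
  have e2 : q.1.2 = q'.1.2 := ttrm_snd_unique ht₂ r₁ r₂ hR₂ q.2 hq'
  exact Subtype.ext (Prod.ext e1 e2)

/-- the first branch place is an injective function of the crossing pair -/
theorem ttrm_fst_injective (ht₂ : IsSepGen k t₂) (r₁ : B →+* F₁) (r₂ : B →+* F₂)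
    (hR₂ : ∀ y, y ∈ intRing k t₂ ↔ ∃ b, r₂ b = y) :
    Function.Injective
      (fun q : {q : Place k F₁ × Place k F₂ // TtrmPair r₁ r₂ t₁ t₂ q.1 q.2} => q.1.1) := by
  intro q q' e1
  have e1' : q.1.1 = q'.1.1 := e1
  have hq' := q'.2
  rw [← e1'] at hq'
  have e2 : q.1.2 = q'.1.2 := ttrm_snd_unique ht₂ r₁ r₂ hR₂ q.2 hq'
  exact Subtype.ext (Prod.ext e1' e2)

/-- the second branch place is an injective function of the crossing pair -/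
theorem ttrm_snd_injective (ht₁ : IsSepGen k t₁) (r₁ : B →+* F₁) (r₂ : B →+* F₂)
    (hR₁ : ∀ y, y ∈ intRing k t₁ ↔ ∃ b, r₁ b = y) :
    Function.Injective
      (fun q : {q : Place k F₁ × Place k F₂ // TtrmPair r₁ r₂ t₁ t₂ q.1 q.2} => q.1.2) := by
  intro q q' e2
  have e2' : q.1.2 = q'.1.2 := e2
  have hq' := q'.2
  rw [← e2'] at hq'
  have e1 : q.1.1 = q'.1.1 := ttrm_fst_unique ht₁ r₁ r₂ hR₁ q.2 hq'
  exact Subtype.ext (Prod.ext e1 e2')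

end Pair

end Fermat.Agent.TT
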