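/-
(I2), abstract half (prefix `ttrk_hyp`): the three inputs of `tto_hyp_of_ambient` on a special
fibre `Fk × Fk` whose chart rings lie in `intRing k ū × intRing k ū` (resp. `ū'`), with chart
coordinate `(ū, ū ^ q)` (Frobenius twist on the second component).

* `ttrk_hyp_span`      : `intRing k t` is spanned over `k` by the `t ^ j * s`, `s` in a finite set;
* `ttrk_hyp_span_pow`  : the same with `(t ^ q) ^ j`, `q ≥ 1`;
* `ttrk_hyp_span_prod` : the product statement for the coordinate `(t, t ^ q)`;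
* `ttrk_hyp_const`     : functions integral on both charts lie in `L(0) × L(0)`;
* `ttrk_hyp_of_int`    : `D.toFfoa.Hyp` for a `TtoData` with values in `Fk × Fk`.
-/
import Mathlib
import Fermat.Agent.TT.Onto2
import Fermat.Agent.S24.PlacesDefs
import Fermat.Agent.S24.PlacesInt
import Fermat.Agent.S24.PlaceOrd
import Fermat.Prelude.Def_AlgebraicCurve_Repartitions

set_option autoImplicit false
set_option linter.unusedSectionVars false
set_option linter.unusedVariables false

noncomputable section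

namespace Fermat.Agent.TT

open AlgebraicCurve Fermat.Agent.S24 Fermat.Agent.FF IsLocalRing

section Span

variable {k Fk : Type*} [Field k] [Field Fk] [Algebra k Fk] {t : Fk}

/-- `intRing k t` is a finitely generated `k[t]`-module, span form. -/
theorem ttrk_hyp_span (hs : IsSepGen k t) :
    ∃ T : Finset Fk, ∀ c ∈ intRing k t,
      c ∈ Submodule.span k {x | ∃ s ∈ T, ∃ j : ℕ, x = t ^ j * s} := by
  classical
  have hfin := intRing_finite hs
  obtain ⟨G, hG⟩ := hfin.fg_top
  refine ⟨G.image Subtype.val, ?_⟩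
  intro c hc
  have hmem : (⟨c, hc⟩ : ↥(intRing k t)) ∈
      Submodule.span ↥(Algebra.adjoin k {t}) (G : Set ↥(intRing k t)) := by
    rw [hG]; trivial
  have key : ∀ y ∈ Submodule.span ↥(Algebra.adjoin k {t}) (G : Set ↥(intRing k t)),
      ((y : ↥(intRing k t)) : Fk) ∈
        Submodule.span k {x | ∃ s ∈ G.image Subtype.val, ∃ j : ℕ, x = t ^ j * s} := by
    intro y hy
    induction hy using Submodule.span_induction with
    | mem x hx =>
      refine Submodule.subset_span ⟨(x : Fk), ?_, 0, ?_⟩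
      · exact Finset.mem_image.2 ⟨x, hx, rfl⟩
      · rw [pow_zero, one_mul]
    | zero => exact Submodule.zero_mem _
    | add x y _ _ hx hy => exact Submodule.add_mem _ hx hy
    | smul a x _ hx =>
      have e : (((a • x : ↥(intRing k t)) : ↥(intRing k t)) : Fk) = (a : Fk) * (x : Fk) := rfl
      rw [e]
      exact tto_span_mul_mem t _ a.2 hx
  exact key _ hmem

/-- Frobenius-twisted form: the same with `(t ^ q) ^ j`. -/
theorem ttrk_hyp_span_pow (hs : IsSepGen k t) (q : ℕ) (hq : 0 < q) :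
    ∃ T : Finset Fk, ∀ c ∈ intRing k t,
      c ∈ Submodule.span k {x | ∃ s ∈ T, ∃ j : ℕ, x = (t ^ q) ^ j * s} := by
  classical
  obtain ⟨T, hT⟩ := ttrk_hyp_span hs
  refine ⟨(Finset.range q ×ˢ T).image (fun is => t ^ is.1 * is.2), ?_⟩
  intro c hc
  have h1 := hT c hc
  refine (Submodule.span_le.2 ?_) h1
  rintro _ ⟨s, hs', j, rfl⟩
  refine Submodule.subset_span ⟨t ^ (j % q) * s, ?_, j / q, ?_⟩
  · refine Finset.mem_image.2 ⟨(j % q, s), ?_, rfl⟩
    exact Finset.mem_product.2 ⟨Finset.mem_range.2 (Nat.mod_lt _ hq), hs'⟩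
  · rw [← pow_mul, ← mul_assoc, ← pow_add, Nat.div_add_mod]

/-- the product statement for the chart coordinate `(t, t ^ q)`. -/
theorem ttrk_hyp_span_prod (hs : IsSepGen k t) (q : ℕ) (hq : 0 < q) :
    ∃ T0 : Finset (Fk × Fk), ∀ c : Fk × Fk, c.1 ∈ intRing k t → c.2 ∈ intRing k t →
      c ∈ Submodule.span k {x | ∃ s ∈ T0, ∃ j : ℕ, x = ((t, t ^ q) : Fk × Fk) ^ j * s} := by
  classical
  obtain ⟨T₁, hT₁⟩ := ttrk_hyp_span hs
  obtain ⟨T₂, hT₂⟩ := ttrk_hyp_span_pow hs q hq
  refine ⟨T₁.image (fun s => ((s, 0) : Fk × Fk)) ∪ T₂.image (fun s => ((0, s) : Fk × Fk)), ?_⟩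
  rintro ⟨c₁, c₂⟩ h₁ h₂
  exact tto_span_prod t (t ^ q) T₁ T₂ (hT₁ c₁ h₁) (hT₂ c₂ h₂)

/-- a function integral over `k[t]` and over `k[t⁻¹]` has no pole. -/
theorem ttrk_hyp_mem_L0 {t' : Fk} (htt' : t * t' = 1) {c : Fk} (hc : c ∈ intRing k t)
    (hc' : c ∈ intRing k t') : c ∈ riemannRochSpace (0 : Divisor k Fk) := by
  rw [mem_riemannRochSpace_iff]
  intro v
  by_cases h0 : c = 0
  · exact Or.inl h0
  · right
    have hmem : c ∈ v.toValuationSubring := by
      rcases v.toValuationSubring.mem_or_inv_mem t with h | h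
      · exact intRing_le_place v h ⟨c, hc⟩
      · have e : t⁻¹ = t' := by
          have ht0 : t ≠ 0 := left_ne_zero_of_mul_eq_one htt'
          exact inv_eq_of_mul_eq_one_right htt'
        rw [e] at h
        exact intRing_le_place v h ⟨c, hc'⟩
    have := (PlaceOrd.mem_iff_ord_nonneg v h0).1 hmem
    simpa using this

/-- functions integral on both charts, on both components, lie in a finite-dimensional space. -/
theorem ttrk_hyp_const {t' : Fk} (htt' : t * t' = 1)
    (hfin : Module.Finite k ↥(riemannRochSpace (0 : Divisor k Fk))) :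
    ∃ S0 : Submodule k (Fk × Fk), S0.FG ∧ ∀ c : Fk × Fk, c.1 ∈ intRing k t → c.1 ∈ intRing k t' →
      c.2 ∈ intRing k t → c.2 ∈ intRing k t' → c ∈ S0 := by
  refine ⟨(riemannRochSpace (0 : Divisor k Fk)).prod (riemannRochSpace (0 : Divisor k Fk)),
    ?_, ?_⟩
  · have h1 : (riemannRochSpace (0 : Divisor k Fk)).FG := Module.Finite.iff_fg.1 hfin
    exact Submodule.FG.prod h1 h1
  · intro c h1 h1' h2 h2'
    exact ⟨ttrk_hyp_mem_L0 htt' h1 h1', ttrk_hyp_mem_L0 htt' h2 h2'⟩

end Span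

section Hyp

variable {A F Fk : Type*} [CommRing A] [IsLocalRing A] [CommRing F] [Algebra A F]
  [Field Fk] [Algebra (ResidueField A) Fk]

/-- **the hypotheses of `tto_onto`** for a two-chart model whose special fibre algebra is
`Fk × Fk`, whose chart rings reduce into `intRing k ū × intRing k ū` resp.
`intRing k ū' × intRing k ū'`, and whose coordinate reduces to `(ū, ū ^ q)`. -/
theorem ttrk_hyp_of_int (D : TtoData A F (Fk × Fk)) {ū ū' : Fk}
    (hs : IsSepGen (ResidueField A) ū) (hs' : IsSepGen (ResidueField A) ū') (huu' : ū * ū' = 1)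
    (q : ℕ) (hq : 0 < q) (hub : D.ub = (ū, ū ^ q)) (hub' : D.ub' = (ū', ū' ^ q))
    (hC : ∀ c ∈ D.C, c.1 ∈ intRing (ResidueField A) ū ∧ c.2 ∈ intRing (ResidueField A) ū)
    (hC' : ∀ c ∈ D.C', c.1 ∈ intRing (ResidueField A) ū' ∧ c.2 ∈ intRing (ResidueField A) ū')
    (hfin : Module.Finite (ResidueField A)
      ↥(riemannRochSpace (0 : Divisor (ResidueField A) Fk))) : D.toFfoa.Hyp := by
  obtain ⟨T0, hT0⟩ := ttrk_hyp_span_prod hs q hq
  obtain ⟨T0', hT0'⟩ := ttrk_hyp_span_prod hs' q hq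
  obtain ⟨S0, hS0, h0⟩ := ttrk_hyp_const huu' hfin
  refine D.tto_hyp_of_ambient T0 ?_ T0' ?_ S0 hS0 ?_
  · intro c hc
    rw [hub]
    exact hT0 c (hC c hc).1 (hC c hc).2
  · intro c hc
    rw [hub']
    exact hT0' c (hC' c hc).1 (hC' c hc).2
  · intro c hc hc'
    exact h0 c (hC c hc).1 (hC' c hc').1 (hC c hc).2 (hC' c hc').2

end Hyp

end Fermat.Agent.TT
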