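/-
(COUNT), the assembly (prefix `ttrk_plug`): the field `genus_le` of `TtgModel` at the levels
`M`, `M p` from RING-LEVEL inputs only, for a two-chart model `T : TtoData 𝔸 F (F_k × F_k)`:

* (A8)(iv) `hR₁ hR₂ hR₁' hR₂'` : the branch reductions of the chart rings `T.B`, `T.B'` are ONTO
  the integral closures `intRing k ū`, `intRing k ū'`;
* (T) for `T.B` and for `T.B'` (transversality at every crossing point);
* (N-C) no crossing point of `T.B'` where `u'` vanishes;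
* one `y ∈ T.B` vanishing on the second branch and not on the first;
* the set of nodes `(S, ν₁, ν₂)` = ALL crossing pairs of `T.B` (`hS`), `ν₁` injective.

Everything else ((NODE) gluing `hC`, `hC'₂`, the hypotheses of (ONTO), (ONTO) itself, the
dictionary with `L(m (u)_∞)`, Riemann-Roch on both fibres, the degree identity) is discharged
here from `NodePlc`, `NodeGlue`, `OntoHyp`, `Onto2`, `NodeCountInst`.
-/
import Mathlib
import Fermat.Agent.TT.Onto2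
import Fermat.Agent.TT.Red2.OntoHyp
import Fermat.Agent.TT.Red2.NodePlc
import Fermat.Agent.TT.Red2.NodeGlue
import Fermat.Agent.TT.Red2.NodeCountInst

set_option autoImplicit false
set_option linter.unusedSectionVars false
set_option linter.unusedVariables false
set_option linter.style.haveILetI false

noncomputable section

namespace Fermat.Agent.TT

open AlgebraicCurve ModularCurve IsLocalRing Fermat.Agent.G Fermat.Agent.FF Fermat.Agent.S24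
  Fermat.Agent.V.RR

section Abstract

variable {A F Fk : Type*} [CommRing A] [IsLocalRing A] [CommRing F] [Algebra A F]
  [CommRing Fk] [Algebra (ResidueField A) Fk] (T : TtoData A F (Fk × Fk))

/-- the first branch reduction on the chart ring `B` -/
def ttrkR₁ : ↥T.B →+* Fk :=
  (RingHom.fst Fk Fk).comp (T.red.comp (Subalgebra.inclusion T.hB).toRingHom)

/-- the second branch reduction on the chart ring `B` -/
def ttrkR₂ : ↥T.B →+* Fk :=
  (RingHom.snd Fk Fk).comp (T.red.comp (Subalgebra.inclusion T.hB).toRingHom)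

/-- the first branch reduction on the chart ring `B'` -/
def ttrkR₁' : ↥T.B' →+* Fk :=
  (RingHom.fst Fk Fk).comp (T.red.comp (Subalgebra.inclusion T.hB').toRingHom)

/-- the second branch reduction on the chart ring `B'` -/
def ttrkR₂' : ↥T.B' →+* Fk :=
  (RingHom.snd Fk Fk).comp (T.red.comp (Subalgebra.inclusion T.hB').toRingHom)

theorem ttrkR₁_apply (b : ↥T.B) : ttrkR₁ T b = (T.redOf (b : F) (T.hB b.2)).1 := rfl

theorem ttrkR₂_apply (b : ↥T.B) : ttrkR₂ T b = (T.redOf (b : F) (T.hB b.2)).2 := rfl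

theorem ttrkR₁'_apply (b : ↥T.B') : ttrkR₁' T b = (T.redOf (b : F) (T.hB' b.2)).1 := rfl

theorem ttrkR₂'_apply (b : ↥T.B') : ttrkR₂' T b = (T.redOf (b : F) (T.hB' b.2)).2 := rfl

theorem ttrk_plug_mem_C (c : Fk × Fk) :
    c ∈ T.toFfoa.C ↔ ∃ x : ↥T.B, ttrkR₁ T x = c.1 ∧ ttrkR₂ T x = c.2 := by
  constructor
  · rintro ⟨b, hb, rfl⟩
    exact ⟨⟨b, hb⟩, rfl, rfl⟩
  · rintro ⟨x, h1, h2⟩
    exact ⟨(x : F), x.2, Prod.ext h1 h2⟩

theorem ttrk_plug_mem_C' (c : Fk × Fk) :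
    c ∈ T.toFfoa.C' ↔ ∃ x : ↥T.B', ttrkR₁' T x = c.1 ∧ ttrkR₂' T x = c.2 := by
  constructor
  · rintro ⟨b, hb, rfl⟩
    exact ⟨⟨b, hb⟩, rfl, rfl⟩
  · rintro ⟨x, h1, h2⟩
    exact ⟨(x : F), x.2, Prod.ext h1 h2⟩

/-- constants lift to `B` with the same value on both branches -/
theorem ttrk_plug_const (c : ResidueField A) :
    ∃ b : ↥T.B, ttrkR₁ T b = algebraMap (ResidueField A) Fk c ∧
      ttrkR₂ T b = algebraMap (ResidueField A) Fk c := by
  obtain ⟨a, rfl⟩ := residue_surjective c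
  refine ⟨⟨algebraMap A F a, T.B.algebraMap_mem a⟩, ?_, ?_⟩
  · rw [ttrkR₁_apply]
    have := T.redOf_algebraMap a
    rw [T.redOf_congr rfl _ (T.O.algebraMap_mem a), this]
    rfl
  · rw [ttrkR₂_apply]
    have := T.redOf_algebraMap a
    rw [T.redOf_congr rfl _ (T.O.algebraMap_mem a), this]
    rfl

/-- constants lift to `B'` with the same value on both branches -/
theorem ttrk_plug_const' (c : ResidueField A) :
    ∃ b : ↥T.B', ttrkR₁' T b = algebraMap (ResidueField A) Fk c ∧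
      ttrkR₂' T b = algebraMap (ResidueField A) Fk c := by
  obtain ⟨a, rfl⟩ := residue_surjective c
  refine ⟨⟨algebraMap A F a, T.B'.algebraMap_mem a⟩, ?_, ?_⟩
  · rw [ttrkR₁'_apply]
    have := T.redOf_algebraMap a
    rw [T.redOf_congr rfl _ (T.O.algebraMap_mem a), this]
    rfl
  · rw [ttrkR₂'_apply]
    have := T.redOf_algebraMap a
    rw [T.redOf_congr rfl _ (T.O.algebraMap_mem a), this]
    rfl

/-- the reductions of `u'` -/
theorem ttrk_plug_u' {t₁' t₂' : Fk} (hub' : T.ub' = (t₁', t₂')) :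
    ttrkR₁' T ⟨T.u', T.hu'⟩ = t₁' ∧ ttrkR₂' T ⟨T.u', T.hu'⟩ = t₂' := by
  have h : T.redOf T.u' (T.hB' T.hu') = (t₁', t₂') := hub'
  exact ⟨by rw [ttrkR₁'_apply, h], by rw [ttrkR₂'_apply, h]⟩

/-- finite pole order, on both branches -/
theorem ttrk_plug_pole {t₁' t₂' : Fk} (hub' : T.ub' = (t₁', t₂')) (x : ↥T.B) :
    ∃ (n : ℕ) (x' : ↥T.B'), ttrkR₁' T x' = ttrkR₁ T x * t₁' ^ n ∧
      ttrkR₂' T x' = ttrkR₂ T x * t₂' ^ n := by
  obtain ⟨n, hn⟩ := T.hpole (x : F) x.2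
  have h : T.redOf T.u' (T.hB' T.hu') = (t₁', t₂') := hub'
  have e : T.redOf ((x : F) * T.u' ^ n) (T.hB' hn) =
      T.redOf (x : F) (T.hB x.2) * (t₁', t₂') ^ n := by
    rw [T.redOf_congr rfl _ (T.O.mul_mem (T.hB x.2) (T.O.pow_mem (T.hB' T.hu') n)),
      T.redOf_mul (T.hB x.2) (T.O.pow_mem (T.hB' T.hu') n), T.redOf_pow (T.hB' T.hu'), h]
  refine ⟨n, ⟨(x : F) * T.u' ^ n, hn⟩, ?_, ?_⟩
  · rw [ttrkR₁'_apply, ttrkR₁_apply]
    show (T.redOf ((x : F) * T.u' ^ n) (T.hB' hn)).1 = _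
    rw [e]
    rfl
  · rw [ttrkR₂'_apply, ttrkR₂_apply]
    show (T.redOf ((x : F) * T.u' ^ n) (T.hB' hn)).2 = _
    rw [e]
    rfl

end Abstract

section Inst

local notation "Qb" => AlgebraicClosure ℚ

variable (M p : ℕ) [NeZero M] [NeZero p] [Fact p.Prime]
variable (A : ValuationSubring (AlgebraicClosure ℚ)) {τ τ' : LaurentSeries ℤ}

/-- **`genus_le` at the levels `M`, `M p` from ring-level inputs.** -/
theorem ttrk_genus_le_plug (hpM : ¬ p ∣ M) (hA : A.LiesOverPrime p) (hat : GrdAtlas M A τ τ')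
    {O : Subring (modularFunctionFieldBar (M * p))}
    {red : O →+* modularFunctionFieldFullC (ResidueField A) M ×
      modularFunctionFieldFullC (ResidueField A) M}
    (h : TtbRed A O red)
    (T : TtoData ↥A (modularFunctionFieldBar (M * p))
      (modularFunctionFieldFullC (ResidueField A) M × modularFunctionFieldFullC (ResidueField A) M))
    (hO : ∀ x, x ∈ T.O → x ∈ O)
    (hred : ∀ (x : modularFunctionFieldBar (M * p)) (hx : x ∈ T.O),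
      red ⟨x, hO x hx⟩ = T.red ⟨x, hx⟩)
    (hTu : T.u = heckeAlphaBar Qb M p (grdQ M hat.c.mem))
    (hBint : ∀ b ∈ T.B, b ∈ intRing Qb T.u) (hB'int : ∀ b ∈ T.B', b ∈ intRing Qb T.u')
    (hub : T.ub = (grdK M A hat.c.mem, grdK M A hat.c.mem ^ p))
    (hub' : T.ub' = (grdK M A hat.c'.mem, grdK M A hat.c'.mem ^ p))
    -- (A8)(iv): the branch reductions of the chart rings are onto the integral closures
    (hR₁ : ∀ y, y ∈ intRing (ResidueField A) (grdK M A hat.c.mem) ↔ ∃ b, ttrkR₁ T b = y)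
    (hR₂ : ∀ y, y ∈ intRing (ResidueField A) (grdK M A hat.c.mem) ↔ ∃ b, ttrkR₂ T b = y)
    (hR₁' : ∀ y, y ∈ intRing (ResidueField A) (grdK M A hat.c'.mem) ↔ ∃ b, ttrkR₁' T b = y)
    (hR₂' : ∀ y, y ∈ intRing (ResidueField A) (grdK M A hat.c'.mem) ↔ ∃ b, ttrkR₂' T b = y)
    -- (T) for both charts
    (hT : ∀ 𝔫 : Ideal ↥T.B, 𝔫.IsMaximal → RingHom.ker (ttrkR₁ T) ≤ 𝔫 →
      RingHom.ker (ttrkR₂ T) ≤ 𝔫 → ∀ x ∈ 𝔫, ∃ s, s ∉ 𝔫 ∧ ∃ y₁ y₂, ttrkR₁ T y₁ = 0 ∧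
        ttrkR₂ T y₂ = 0 ∧ s * x = y₁ + y₂)
    (hT' : ∀ 𝔫 : Ideal ↥T.B', 𝔫.IsMaximal → RingHom.ker (ttrkR₁' T) ≤ 𝔫 →
      RingHom.ker (ttrkR₂' T) ≤ 𝔫 → ∀ x ∈ 𝔫, ∃ s, s ∉ 𝔫 ∧ ∃ y₁ y₂, ttrkR₁' T y₁ = 0 ∧
        ttrkR₂' T y₂ = 0 ∧ s * x = y₁ + y₂)
    -- (N-C) no crossing point of the inverse chart where `u'` vanishes
    (hcusp : ∀ 𝔫 : Ideal ↥T.B', 𝔫.IsMaximal → RingHom.ker (ttrkR₁' T) ≤ 𝔫 →
      RingHom.ker (ttrkR₂' T) ≤ 𝔫 → (⟨T.u', T.hu'⟩ : ↥T.B') ∉ 𝔫)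
    -- the nodes = all crossing pairs of `B`
    {S : Type*} [Fintype S]
    (ν₁ ν₂ : S → Place (ResidueField A) (modularFunctionFieldFullC (ResidueField A) M))
    (hν₁ : Function.Injective ν₁)
    (hS : ∀ Q₁ Q₂, TtrmPair (ttrkR₁ T) (ttrkR₂ T) (grdK M A hat.c.mem) (grdK M A hat.c.mem) Q₁ Q₂ →
      ∃ i, ν₁ i = Q₁ ∧ ν₂ i = Q₂)
    (hS' : ∀ i, TtrmPair (ttrkR₁ T) (ttrkR₂ T) (grdK M A hat.c.mem) (grdK M A hat.c.mem)
      (ν₁ i) (ν₂ i)) :
    (genusFF Qb (modularFunctionFieldBar (M * p)) : ℤ) ≤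
      genusFF Qb (modularFunctionFieldBar M) + genusFF Qb (modularFunctionFieldBar M) +
        Fintype.card S - 1 := by
  haveI : IsAlgClosed (ResidueField A) := grd_isAlgClosed_residue A
  have hp : p.Prime := Fact.out
  have hs := hat.c.sepK
  have hs' := hat.c'.sepK
  have huu' := grda_grdK_mul M A hat
  obtain ⟨-, RRk, -, -, -, -, -, -, -⟩ := ffii_bundle M A hpM hA hat
  -- the gluing half for `B`
  have hC : ∀ c, c ∈ T.toFfoa.C ↔
      c.1 ∈ intRing (ResidueField A) (grdK M A hat.c.mem) ∧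
        c.2 ∈ intRing (ResidueField A) (grdK M A hat.c.mem) ∧ TtnkMatch ν₁ ν₂ c := by
    intro c
    rw [ttrk_plug_mem_C]
    constructor
    · rintro ⟨x, h1, h2⟩
      refine ⟨(hR₁ _).2 ⟨x, h1⟩, (hR₂ _).2 ⟨x, h2⟩, fun i => ?_⟩
      obtain ⟨a, ha1, ha2⟩ := (hS' i).2.2 x
      rw [h1] at ha1
      rw [h2] at ha2
      exact ⟨a, ha1, ha2⟩
    · rintro ⟨h1, h2, hm⟩
      refine ttrm_node hs hs (ttrkR₁ T) (ttrkR₂ T) hR₁ hR₂ (ttrk_plug_const T) hT c.1 c.2 h1 h2 ?_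
      intro Q₁ Q₂ hpair
      obtain ⟨i, rfl, rfl⟩ := hS Q₁ Q₂ hpair
      exact hm i
  -- the gluing half for `B'`
  have hC'₂ : ∀ c : modularFunctionFieldFullC (ResidueField A) M ×
        modularFunctionFieldFullC (ResidueField A) M,
      c.1 ∈ intRing (ResidueField A) (grdK M A hat.c'.mem) →
      c.2 ∈ intRing (ResidueField A) (grdK M A hat.c'.mem) →
      (∀ i, 0 ≤ (ν₁ i).ord (grdK M A hat.c'.mem) →
        ∃ a : ResidueField A, GrdVal (ν₁ i) c.1 a ∧ GrdVal (ν₂ i) c.2 a) → c ∈ T.toFfoa.C' := by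
    intro c h1 h2 hm
    rw [ttrk_plug_mem_C']
    refine ttrm_node hs' hs' (ttrkR₁' T) (ttrkR₂' T) hR₁' hR₂' (ttrk_plug_const' T) hT'
      c.1 c.2 h1 h2 ?_
    intro Q₁ Q₂ hpair'
    obtain ⟨hu₁, hu₂⟩ := ttrk_plug_u' T hub'
    -- `u'` does not vanish at the crossing
    have hnc : ¬ GrdVal Q₁ (grdK M A hat.c'.mem) 0 := by
      intro hv
      obtain ⟨𝔫, h𝔫, hk₁, hk₂, hmem⟩ := ttrm_ideal (ttrkR₁' T) (ttrkR₂' T) (ttrk_plug_const' T) hpair'
      apply hcusp 𝔫 h𝔫 hk₁ hk₂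
      rw [hmem, hu₁]
      exact hv
    have hpair : TtrmPair (ttrkR₁ T) (ttrkR₂ T) (grdK M A hat.c.mem) (grdK M A hat.c.mem) Q₁ Q₂ :=
      ttrz_pair_of_pair' huu' huu' p hp.ne_zero ⟨T.u', T.hu'⟩ hu₁ hu₂
        (fun x => ttrk_plug_pole T hub' x) hpair' hnc
    obtain ⟨i, rfl, rfl⟩ := hS Q₁ Q₂ hpair
    refine hm i ?_
    exact (grdg_mem_iff_ord (ν₁ i) (right_ne_zero_of_mul_eq_one huu')).1 hpair'.1
  -- the hypotheses of (ONTO)
  have hCint : ∀ c ∈ T.C, c.1 ∈ intRing (ResidueField A) (grdK M A hat.c.mem) ∧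
      c.2 ∈ intRing (ResidueField A) (grdK M A hat.c.mem) := by
    intro c hc
    obtain ⟨x, h1, h2⟩ := (ttrk_plug_mem_C T c).1 hc
    exact ⟨(hR₁ _).2 ⟨x, h1⟩, (hR₂ _).2 ⟨x, h2⟩⟩
  have hC'int : ∀ c ∈ T.C', c.1 ∈ intRing (ResidueField A) (grdK M A hat.c'.mem) ∧
      c.2 ∈ intRing (ResidueField A) (grdK M A hat.c'.mem) := by
    intro c hc
    obtain ⟨x, h1, h2⟩ := (ttrk_plug_mem_C' T c).1 hc
    exact ⟨(hR₁' _).2 ⟨x, h1⟩, (hR₂' _).2 ⟨x, h2⟩⟩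
  have Hyp : T.toFfoa.Hyp :=
    ttrk_hyp_of_int T hs hs' huu' p hp.pos hub hub' hCint hC'int (RRk.finL 0)
  obtain ⟨m₀, hm₀⟩ := T.tto_onto Hyp
  -- the dictionary with `L(m (u)_∞)`
  have hsα := ttrk_isSepGen_alpha M p hat.c.sepQ
  have huu'α : heckeAlphaBar Qb M p (grdQ M hat.c.mem) * T.u' = 1 := by
    rw [← hTu]; exact T.huu'
  have hBint' : ∀ b ∈ T.B, b ∈ intRing Qb (heckeAlphaBar Qb M p (grdQ M hat.c.mem)) := by
    rw [← hTu]; exact hBint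
  have honto : ∀ m, m₀ ≤ m → ∀ c ∈ T.toFfoa.L m, ∃ x : O,
      ((x : O) : modularFunctionFieldBar (M * p)) ∈
        riemannRochSpace (m • ffilPolar (ttrk_isSepGen_alpha M p hat.c.sepQ)) ∧ red x = c := by
    intro m hm c hc
    obtain ⟨hc1, hc2⟩ := hc
    obtain ⟨x, hx, hx', hxc⟩ := hm₀ m hm c hc1 hc2
    refine ⟨⟨x, hO x (T.hB hx)⟩, ?_, ?_⟩
    · rw [← natCast_zsmul]
      exact (ffil_mem_rr_iff hsα huu'α m x).2 ⟨hBint' x hx, hB'int _ hx'⟩
    · rw [hred x (T.hB hx)]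
      exact hxc
  exact ttrk_genus_le_inst M p A hpM hA hat h ν₁ ν₂ hν₁ T.toFfoa hub hub' hC hC'₂ m₀ honto

end Inst

end Fermat.Agent.TT
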