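import Mathlib
import Fermat.Agent.TT.Red2.ChartOnto
import Fermat.Agent.TT.Red2.CountPlug

/-!
# Program TT (S33), G/Red2 : (A8)(iv) PLUGGED into helper5's `ttrk_genus_le_plug`

Owner: helper17.  Namespace `Fermat.Agent.TT`, prefix `ttrc`.

For a two-chart model `T : TtoData ↥𝔸 F(M p) (F_k(M) × F_k(M))` whose reduction is componentwise
helper12's `(ttrRed1, ttrRed2)` (`TtrcRedSpec`), and whose chart rings have the carriers
`grdB (M p) 𝔸 (α u)`, `grdB (M p) 𝔸 (α u')` : the hypotheses `hR₁ hR₂ hR₁' hR₂'`, `hub`, `hub'` of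
`ttrk_genus_le_plug`, VERBATIM.
-/

set_option autoImplicit false
set_option linter.unusedSectionVars false
set_option linter.unusedVariables false
set_option linter.style.haveILetI false
set_option synthInstance.maxHeartbeats 400000

noncomputable section

namespace Fermat.Agent.TT

open Polynomial ModularCurve AlgebraicCurve IsLocalRing IntermediateField Fermat.Agent.S24
  Fermat.Agent.G Fermat.Agent.S18 Fermat.Agent.SS Fermat.Agent.SQ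

local notation "Qb" => AlgebraicClosure ℚ

attribute [local instance] ttrc_neZero

section Plug

variable (M : ℕ) [NeZero M] {p : ℕ} [Fact p.Prime] [NeZero p]
variable (A : ValuationSubring Qb)

/-- the two components of the reduction of a `TtoData` are helper12's `ttrRed1`, `ttrRed2` -/
def TtrcRedSpec (hpM : ¬ p ∣ M) (hA : A.LiesOverPrime p)
    (T : TtoData ↥A (modularFunctionFieldBar (M * p))
      (modularFunctionFieldFullC (ResidueField A) M × modularFunctionFieldFullC (ResidueField A) M)) :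
    Prop :=
  ∀ (x : modularFunctionFieldBar (M * p)) (hx : x ∈ T.O),
    ∃ (h₁ : x ∈ grdO (M * p) A) (h₂ : x ∈ ttrV2 M A hpM),
      T.red ⟨x, hx⟩ = (ttrRed1 M A hA ⟨x, h₁⟩, ttrRed2 M A hpM hA ⟨x, h₂⟩)

variable {M A}
variable {T : TtoData ↥A (modularFunctionFieldBar (M * p))
  (modularFunctionFieldFullC (ResidueField A) M × modularFunctionFieldFullC (ResidueField A) M)}

/-- **`hR₁`** of `ttrk_genus_le_plug` -/
theorem ttrc_plug_hR₁ (hpM : ¬ p ∣ M) (hA : A.LiesOverPrime p)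
    (hT : TtrcRedSpec M A hpM hA T) {υ : LaurentSeries ℤ} (hc : GrdChart M A υ)
    (hTB : ∀ x, x ∈ T.B ↔ x ∈ grdB (M * p) A (heckeAlphaBar Qb M p (grdQ M hc.mem))) :
    ∀ y, y ∈ intRing (ResidueField A) (grdK M A hc.mem) ↔ ∃ b, ttrkR₁ T b = y := by
  intro y
  rw [ttrc_hR₁ M A hpM hA hc y]
  constructor
  · rintro ⟨b, hb, h₁, e⟩
    refine ⟨⟨b, (hTB b).2 hb⟩, ?_⟩
    obtain ⟨h₁', h₂', e'⟩ := hT b (T.hB ((hTB b).2 hb))
    rw [ttrkR₁_apply]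
    show (T.red ⟨b, _⟩).1 = y
    rw [e']
    exact e
  · rintro ⟨b, rfl⟩
    obtain ⟨h₁', h₂', e'⟩ := hT (b : modularFunctionFieldBar (M * p)) (T.hB b.2)
    refine ⟨b, (hTB _).1 b.2, h₁', ?_⟩
    rw [ttrkR₁_apply]
    show _ = (T.red ⟨(b : modularFunctionFieldBar (M * p)), _⟩).1
    rw [e']

/-- **`hR₂`** of `ttrk_genus_le_plug` -/
theorem ttrc_plug_hR₂ (hpM : ¬ p ∣ M) (hA : A.LiesOverPrime p)
    (hT : TtrcRedSpec M A hpM hA T) {υ : LaurentSeries ℤ} (hυ : GrdSerMem M υ)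
    (hlift : TtrcLift₂ M A hpM hυ)
    (hTB : ∀ x, x ∈ T.B ↔ x ∈ grdB (M * p) A (heckeAlphaBar Qb M p (grdQ M hυ))) :
    ∀ y, y ∈ intRing (ResidueField A) (grdK M A hυ) ↔ ∃ b, ttrkR₂ T b = y := by
  intro y
  rw [ttrc_hR₂ M A hpM hA hυ hlift y]
  constructor
  · rintro ⟨b, hb, h₂, e⟩
    refine ⟨⟨b, (hTB b).2 hb⟩, ?_⟩
    obtain ⟨h₁', h₂', e'⟩ := hT b (T.hB ((hTB b).2 hb))
    rw [ttrkR₂_apply]
    show (T.red ⟨b, _⟩).2 = y
    rw [e']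
    exact e
  · rintro ⟨b, rfl⟩
    obtain ⟨h₁', h₂', e'⟩ := hT (b : modularFunctionFieldBar (M * p)) (T.hB b.2)
    refine ⟨b, (hTB _).1 b.2, h₂', ?_⟩
    rw [ttrkR₂_apply]
    show _ = (T.red ⟨(b : modularFunctionFieldBar (M * p)), _⟩).2
    rw [e']

/-- **`hR₁'`** of `ttrk_genus_le_plug` -/
theorem ttrc_plug_hR₁' (hpM : ¬ p ∣ M) (hA : A.LiesOverPrime p)
    (hT : TtrcRedSpec M A hpM hA T) {υ : LaurentSeries ℤ} (hc : GrdChart M A υ)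
    (hTB : ∀ x, x ∈ T.B' ↔ x ∈ grdB (M * p) A (heckeAlphaBar Qb M p (grdQ M hc.mem))) :
    ∀ y, y ∈ intRing (ResidueField A) (grdK M A hc.mem) ↔ ∃ b, ttrkR₁' T b = y := by
  intro y
  rw [ttrc_hR₁ M A hpM hA hc y]
  constructor
  · rintro ⟨b, hb, h₁, e⟩
    refine ⟨⟨b, (hTB b).2 hb⟩, ?_⟩
    obtain ⟨h₁', h₂', e'⟩ := hT b (T.hB' ((hTB b).2 hb))
    rw [ttrkR₁'_apply]
    show (T.red ⟨b, _⟩).1 = y
    rw [e']
    exact e
  · rintro ⟨b, rfl⟩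
    obtain ⟨h₁', h₂', e'⟩ := hT (b : modularFunctionFieldBar (M * p)) (T.hB' b.2)
    refine ⟨b, (hTB _).1 b.2, h₁', ?_⟩
    rw [ttrkR₁'_apply]
    show _ = (T.red ⟨(b : modularFunctionFieldBar (M * p)), _⟩).1
    rw [e']

/-- **`hR₂'`** of `ttrk_genus_le_plug` -/
theorem ttrc_plug_hR₂' (hpM : ¬ p ∣ M) (hA : A.LiesOverPrime p)
    (hT : TtrcRedSpec M A hpM hA T) {υ : LaurentSeries ℤ} (hυ : GrdSerMem M υ)
    (hlift : TtrcLift₂ M A hpM hυ)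
    (hTB : ∀ x, x ∈ T.B' ↔ x ∈ grdB (M * p) A (heckeAlphaBar Qb M p (grdQ M hυ))) :
    ∀ y, y ∈ intRing (ResidueField A) (grdK M A hυ) ↔ ∃ b, ttrkR₂' T b = y := by
  intro y
  rw [ttrc_hR₂ M A hpM hA hυ hlift y]
  constructor
  · rintro ⟨b, hb, h₂, e⟩
    refine ⟨⟨b, (hTB b).2 hb⟩, ?_⟩
    obtain ⟨h₁', h₂', e'⟩ := hT b (T.hB' ((hTB b).2 hb))
    rw [ttrkR₂'_apply]
    show (T.red ⟨b, _⟩).2 = y
    rw [e']
    exact e
  · rintro ⟨b, rfl⟩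
    obtain ⟨h₁', h₂', e'⟩ := hT (b : modularFunctionFieldBar (M * p)) (T.hB' b.2)
    refine ⟨b, (hTB _).1 b.2, h₂', ?_⟩
    rw [ttrkR₂'_apply]
    show _ = (T.red ⟨(b : modularFunctionFieldBar (M * p)), _⟩).2
    rw [e']

/-- **`hub`** of `ttrk_genus_le_plug` -/
theorem ttrc_plug_hub (hpM : ¬ p ∣ M) (hA : A.LiesOverPrime p)
    (hT : TtrcRedSpec M A hpM hA T) {υ : LaurentSeries ℤ} (hυ : GrdSerMem M υ)
    (hTu : T.u = heckeAlphaBar Qb M p (grdQ M hυ)) :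
    T.ub = (grdK M A hυ, grdK M A hυ ^ p) := by
  obtain ⟨h₁, h₂, e⟩ := hT T.u (T.hB T.hu)
  show T.red ⟨T.u, _⟩ = _
  rw [e]
  refine Prod.ext ?_ ?_
  · have h₁' : heckeAlphaBar Qb M p (grdQ M hυ) ∈ grdO (M * p) A := hTu ▸ h₁
    have e₁ : (⟨T.u, h₁⟩ : ↥(grdO (M * p) A)) = ⟨heckeAlphaBar Qb M p (grdQ M hυ), h₁'⟩ :=
      Subtype.ext hTu
    show ttrRed1 M A hA ⟨T.u, h₁⟩ = grdK M A hυ
    rw [e₁, ttrc_red1_coord]
  · have h₂' : heckeAlphaBar Qb M p (grdQ M hυ) ∈ ttrV2 M A hpM := hTu ▸ h₂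
    have e₂ : (⟨T.u, h₂⟩ : ↥(ttrV2 M A hpM)) = ⟨heckeAlphaBar Qb M p (grdQ M hυ), h₂'⟩ :=
      Subtype.ext hTu
    show ttrRed2 M A hpM hA ⟨T.u, h₂⟩ = grdK M A hυ ^ p
    rw [e₂, ttrc_red2_coord]

/-- **`hub'`** of `ttrk_genus_le_plug` -/
theorem ttrc_plug_hub' (hpM : ¬ p ∣ M) (hA : A.LiesOverPrime p)
    (hT : TtrcRedSpec M A hpM hA T) {υ : LaurentSeries ℤ} (hυ : GrdSerMem M υ)
    (hTu : T.u' = heckeAlphaBar Qb M p (grdQ M hυ)) :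
    T.ub' = (grdK M A hυ, grdK M A hυ ^ p) := by
  obtain ⟨h₁, h₂, e⟩ := hT T.u' (T.hB' T.hu')
  show T.red ⟨T.u', _⟩ = _
  rw [e]
  refine Prod.ext ?_ ?_
  · have h₁' : heckeAlphaBar Qb M p (grdQ M hυ) ∈ grdO (M * p) A := hTu ▸ h₁
    have e₁ : (⟨T.u', h₁⟩ : ↥(grdO (M * p) A)) = ⟨heckeAlphaBar Qb M p (grdQ M hυ), h₁'⟩ :=
      Subtype.ext hTu
    show ttrRed1 M A hA ⟨T.u', h₁⟩ = grdK M A hυ
    rw [e₁, ttrc_red1_coord]
  · have h₂' : heckeAlphaBar Qb M p (grdQ M hυ) ∈ ttrV2 M A hpM := hTu ▸ h₂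
    have e₂ : (⟨T.u', h₂⟩ : ↥(ttrV2 M A hpM)) = ⟨heckeAlphaBar Qb M p (grdQ M hυ), h₂'⟩ :=
      Subtype.ext hTu
    show ttrRed2 M A hpM hA ⟨T.u', h₂⟩ = grdK M A hυ ^ p
    rw [e₂, ttrc_red2_coord]

end Plug

end Fermat.Agent.TT
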