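import Mathlib
import Fermat.Agent.TT.Red2.ChartOntoPlug
import Fermat.Agent.TT.Red2.OntoT

/-!
# Program TT (S33), G/Red2 : (A8)(iv) ON helper5's CANONICAL `ttrkT`

Owner: helper17.  Namespace `Fermat.Agent.TT`, prefix `ttrc`.

`hR₁ hR₂ hR₁' hR₂'` of `ttrk_genus_le_T` VERBATIM : `ttrc_T_hR₁`, `ttrc_T_hR₁'` (no hypothesis),
`ttrc_T_hR₂`, `ttrc_T_hR₂'` (from `TtrcLift₂` at `τ`, `τ'` : the conclusion of `ttrc_lift₂` resp. of
the cusp-chart lifting (G1) at `w = ttrW M hpM`).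
-/

set_option autoImplicit false
set_option linter.unusedSectionVars false
set_option linter.unusedVariables false
set_option linter.style.haveILetI false
set_option synthInstance.maxHeartbeats 400000

noncomputable section

namespace Fermat.Agent.TT

open Polynomial ModularCurve AlgebraicCurve IsLocalRing IntermediateField Fermat.Agent.S24
  Fermat.Agent.G Fermat.Agent.S18 Fermat.Agent.SS Fermat.Agent.SQ

local notation "Qb" => AlgebraicClosure ℚ

section T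

variable (M p : ℕ) [NeZero M] [NeZero p] [Fact p.Prime]
variable (A : ValuationSubring Qb) {τ τ' : LaurentSeries ℤ}

/-- the reduction of helper5's canonical `ttrkT` is componentwise `(ttrRed1, ttrRed2)` -/
theorem ttrc_T_spec (hpM : ¬ p ∣ M) (hA : A.LiesOverPrime p) (hat : GrdAtlas M A τ τ') :
    TtrcRedSpec M A hpM hA (ttrkT M p A hpM hA hat) := by
  intro x hx
  exact ⟨hx.1, hx.2, rfl⟩

/-- **`hR₁`** of `ttrk_genus_le_T` -/
theorem ttrc_T_hR₁ (hpM : ¬ p ∣ M) (hA : A.LiesOverPrime p) (hat : GrdAtlas M A τ τ') :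
    ∀ y, y ∈ intRing (ResidueField A) (grdK M A hat.c.mem) ↔
      ∃ b, ttrkR₁ (ttrkT M p A hpM hA hat) b = y :=
  ttrc_plug_hR₁ hpM hA (ttrc_T_spec M p A hpM hA hat) hat.c (fun _ => Iff.rfl)

/-- **`hR₁'`** of `ttrk_genus_le_T` -/
theorem ttrc_T_hR₁' (hpM : ¬ p ∣ M) (hA : A.LiesOverPrime p) (hat : GrdAtlas M A τ τ') :
    ∀ y, y ∈ intRing (ResidueField A) (grdK M A hat.c'.mem) ↔
      ∃ b, ttrkR₁' (ttrkT M p A hpM hA hat) b = y :=
  ttrc_plug_hR₁' hpM hA (ttrc_T_spec M p A hpM hA hat) hat.c' (fun _ => Iff.rfl)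

/-- **`hR₂`** of `ttrk_genus_le_T`, from the second-branch lifting at `τ` -/
theorem ttrc_T_hR₂ (hpM : ¬ p ∣ M) (hA : A.LiesOverPrime p) (hat : GrdAtlas M A τ τ')
    (hlift : TtrcLift₂ M A hpM hat.c.mem) :
    ∀ y, y ∈ intRing (ResidueField A) (grdK M A hat.c.mem) ↔
      ∃ b, ttrkR₂ (ttrkT M p A hpM hA hat) b = y :=
  ttrc_plug_hR₂ hpM hA (ttrc_T_spec M p A hpM hA hat) hat.c.mem hlift (fun _ => Iff.rfl)

/-- **`hR₂'`** of `ttrk_genus_le_T`, from the second-branch lifting at `τ'` -/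
theorem ttrc_T_hR₂' (hpM : ¬ p ∣ M) (hA : A.LiesOverPrime p) (hat : GrdAtlas M A τ τ')
    (hlift' : TtrcLift₂ M A hpM hat.c'.mem) :
    ∀ y, y ∈ intRing (ResidueField A) (grdK M A hat.c'.mem) ↔
      ∃ b, ttrkR₂' (ttrkT M p A hpM hA hat) b = y :=
  ttrc_plug_hR₂' hpM hA (ttrc_T_spec M p A hpM hA hat) hat.c'.mem hlift' (fun _ => Iff.rfl)

end T

end Fermat.Agent.TT
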