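import Mathlib
import Fermat.Agent.TT.Red2.ChartOntoT
import Fermat.Agent.TT.Red2.ChartCusp

/-!
# Program TT (S33), G/Red2 : (A8)(iv) ON `ttrkT`, CLOSED, for the two explicit atlases

Owner: helper17.  Namespace `Fermat.Agent.TT`, prefix `ttrc`.

* `ttrc_T_hR_j` : the four `hR`'s of helper5's `ttrk_genus_le_T` for ANY atlas `(j, τ')`, `p ≥ 5`
  (second branch of the cusp chart : helper26's `ttrcc_lift₂_jinv`, gap (G1));
* `ttrc_T_hR_h` : the same for ANY atlas `(h_a, τ')`, `p ∈ {2, 3}`, `a = 5 - p ∣ M`.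
-/

set_option autoImplicit false
set_option linter.unusedSectionVars false
set_option linter.unusedVariables false
set_option linter.style.haveILetI false
set_option synthInstance.maxHeartbeats 400000

noncomputable section

namespace Fermat.Agent.TT

open Polynomial ModularCurve AlgebraicCurve IsLocalRing IntermediateField Fermat.Agent.S24
  Fermat.Agent.G Fermat.Agent.S18 Fermat.Agent.SS Fermat.Agent.SQ

local notation "Qb" => AlgebraicClosure ℚ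

section Atlas

variable (M p : ℕ) [NeZero M] [NeZero p] [Fact p.Prime]
variable (A : ValuationSubring Qb) {τ' : LaurentSeries ℤ}

/-- second-branch lifting at `τ = j` (every `p ∤ M`) -/
theorem ttrc_lift₂_j_all (hpM : ¬ p ∣ M) (hA : A.LiesOverPrime p)
    (hmem : GrdSerMem M (jqModC ℤ)) (hc : GrdChart M A (jqModC ℤ)) :
    TtrcLift₂ M A hpM hmem :=
  ttrc_lift₂_of_be M A hpM hA hc (ttrc_be_j_isInt hA hpM (ttrc_w_ttrW M hpM))

/-- second-branch lifting at the cusp chart `τ' = 1/j`, `p ≥ 5` (helper26's (G1)) -/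
theorem ttrc_lift₂_jinv_all (hpM : ¬ p ∣ M) (hA : A.LiesOverPrime p) (h5 : 5 ≤ p)
    (hτ' : jqModC ℤ * τ' = 1) (hmem' : GrdSerMem M τ') : TtrcLift₂ M A hpM hmem' :=
  fun c => ttrcc_lift₂_jinv hpM hA (ttrc_w_ttrW M hpM) h5 hτ' c

/-- **the four `hR`'s of `ttrk_genus_le_T` on ANY atlas `(j, τ')`, `p ≥ 5`** -/
theorem ttrc_T_hR_j (hpM : ¬ p ∣ M) (hA : A.LiesOverPrime p) (h5 : 5 ≤ p)
    (hat : GrdAtlas M A (jqModC ℤ) τ') :
    (∀ y, y ∈ intRing (ResidueField A) (grdK M A hat.c.mem) ↔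
      ∃ b, ttrkR₁ (ttrkT M p A hpM hA hat) b = y) ∧
    (∀ y, y ∈ intRing (ResidueField A) (grdK M A hat.c.mem) ↔
      ∃ b, ttrkR₂ (ttrkT M p A hpM hA hat) b = y) ∧
    (∀ y, y ∈ intRing (ResidueField A) (grdK M A hat.c'.mem) ↔
      ∃ b, ttrkR₁' (ttrkT M p A hpM hA hat) b = y) ∧
    (∀ y, y ∈ intRing (ResidueField A) (grdK M A hat.c'.mem) ↔
      ∃ b, ttrkR₂' (ttrkT M p A hpM hA hat) b = y) :=
  ⟨ttrc_T_hR₁ M p A hpM hA hat,
    ttrc_T_hR₂ M p A hpM hA hat (ttrc_lift₂_j_all M p A hpM hA hat.c.mem hat.c),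
    ttrc_T_hR₁' M p A hpM hA hat,
    ttrc_T_hR₂' M p A hpM hA hat (ttrc_lift₂_jinv_all M p A hpM hA h5 hat.inv hat.c'.mem)⟩

/-- **the four `hR`'s of `ttrk_genus_le_T` on ANY atlas `(h_a, τ')`, `p ∈ {2,3}`, `a = 5 - p ∣ M`** -/
theorem ttrc_T_hR_h (hpM : ¬ p ∣ M) (hA : A.LiesOverPrime p)
    (a : ℕ) [NeZero a] (ha : (p = 2 ∧ a = 3) ∨ (p = 3 ∧ a = 2)) (haM : a ∣ M)
    (hat : GrdAtlas M A (s18hq a (s18hExp a) ℤ) τ') :
    (∀ y, y ∈ intRing (ResidueField A) (grdK M A hat.c.mem) ↔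
      ∃ b, ttrkR₁ (ttrkT M p A hpM hA hat) b = y) ∧
    (∀ y, y ∈ intRing (ResidueField A) (grdK M A hat.c.mem) ↔
      ∃ b, ttrkR₂ (ttrkT M p A hpM hA hat) b = y) ∧
    (∀ y, y ∈ intRing (ResidueField A) (grdK M A hat.c'.mem) ↔
      ∃ b, ttrkR₁' (ttrkT M p A hpM hA hat) b = y) ∧
    (∀ y, y ∈ intRing (ResidueField A) (grdK M A hat.c'.mem) ↔
      ∃ b, ttrkR₂' (ttrkT M p A hpM hA hat) b = y) :=
  ⟨ttrc_T_hR₁ M p A hpM hA hat,
    ttrc_T_hR₂ M p A hpM hA hat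
      (ttrc_lift₂_of_be M A hpM hA hat.c (ttrc_be_h_isInt hA a ha haM hat.c.mem)),
    ttrc_T_hR₁' M p A hpM hA hat,
    ttrc_T_hR₂' M p A hpM hA hat
      (ttrc_lift₂_of_be M A hpM hA hat.c'
        (ttrc_be_hinv_isInt hA a ha haM hat.c.mem hat.inv hat.c'.mem))⟩

end Atlas

end Fermat.Agent.TT
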