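import Mathlib
import Fermat.Agent.TT.Red2.GoodLift
import Fermat.Agent.G.Red.GenPlace

/-!
# PROGRAM TT (S33), G/Red₂ LAYER B (owner helper6, prefix `ttrp`) : THE CENTRE OF A PLACE OF THE
CHART — SEPARATION

For a place `Q` of `F_k(M)` in the chart with `(red v)(Q) ≠ 0`, the fibre `ttrpS … Q` is exactly
the set of places of the chart centred at the closed point `𝔫_Q = {b ∈ B | (red b)(Q) = 0}` of the
chart ring :

* `ttrp_centre` (`⊆`, from `ttrp_rel`) : `P ∈ ttrpS Q`, `b ∈ B`, `b(P) = a` ⟹ `(red b)(Q) = ā`;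
* `ttrp_sep` (`⊇`) : a place `P` of the chart with `P ∉ ttrpS Q` is SEPARATED from `Q` :
  there is `s₀ ∈ B` with `s₀(P) ∈ 𝔪_𝔸` and `(red s₀)(Q) ≠ 0`.

This is the input "classification of the places of the chart by their centre" of helper23's `(LOC)`.
-/

set_option autoImplicit false
set_option linter.unusedSectionVars false
set_option linter.unusedVariables false
set_option synthInstance.maxHeartbeats 400000

noncomputable section

namespace Fermat.Agent.TT

open ModularCurve AlgebraicCurve IsLocalRing Polynomial Fermat.Agent.S18 Fermat.Agent.S24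
  Fermat.Agent.G Fermat.Agent.FF Fermat.Agent.S05

local notation "Qb" => AlgebraicClosure ℚ

section Sep

variable {M p : ℕ} [NeZero M] [NeZero p] {ℓ : ℕ} [Fact ℓ.Prime]
variable {A : ValuationSubring Qb}
variable {υ : LaurentSeries ℤ}
variable {φ : modularFunctionFieldBar M →ₐ[Qb] modularFunctionFieldBar (M * p)}
variable {V : Subring (modularFunctionFieldBar (M * p))}
variable {red : ↥V →+* modularFunctionFieldFullC (ResidueField A) M}
variable {v : modularFunctionFieldBar (M * p)}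

/-- SEPARATION (chart form) : `P` in the chart, `Q` in the chart of `F_k` with `(red v)(Q) ≠ 0`;
if `P` is not good, or if the place related to `P ∘ φ` is not `Q`, some `s₀ ∈ B` has
`s₀(P) ∈ 𝔪_𝔸` and `(red s₀)(Q) ≠ 0`. -/
theorem ttrp_sep_chart (hℓM : ¬ ℓ ∣ M) (hA : A.LiesOverPrime ℓ) (hc : GrdChart M A υ)
    (hφ : φ.toRingHom.IsIntegral) (H : TtrpChart M p A φ hc.mem V red v)
    (Q : Place (ResidueField A) (modularFunctionFieldFullC (ResidueField A) M))
    (hQ : grdK M A hc.mem ∈ Q.toValuationSubring)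
    (hvQ : ¬ GrdVal Q (red ⟨v, H.int_mem H.v_int⟩) 0)
    (P : Place Qb (modularFunctionFieldBar (M * p)))
    (hPc : GrdInChart (M * p) A (φ (grdQ M hc.mem)) P)
    (hPS : ¬ (TtrpGoodC M p A (φ (grdQ M hc.mem)) v P ∧
      GrdRel M A (grdQ M hc.mem) (ttrpRes M p φ hφ P) Q)) :
    ∃ (s₀ : modularFunctionFieldBar (M * p))
      (hs₀ : s₀ ∈ grdB (M * p) A (φ (grdQ M hc.mem))),
      (∃ a : Qb, a ∈ A.nonunits ∧ GrdVal P s₀ a) ∧ ¬ GrdVal Q (red ⟨s₀, H.int_mem hs₀⟩) 0 := by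
  have : IsAlgClosed (ResidueField A) := grd_isAlgClosed_residue A
  by_cases hg : TtrpGoodC M p A (φ (grdQ M hc.mem)) v P
  · -- `P` good, related to `Q' ≠ Q`
    have hP₀ : GrdInChart M A (grdQ M hc.mem) (ttrpRes M p φ hφ P) :=
      (ttrp_inChart_res hφ _ P).mpr hPc
    obtain ⟨Q', hQ'rel, -⟩ := grd_rel_exists M A hℓM hA hc (ttrpRes M p φ hφ P) hP₀
    have hne : Q' ≠ Q := by
      rintro rfl
      exact hPS ⟨hg, hQ'rel⟩
    have hQ' : grdK M A hc.mem ∈ Q'.toValuationSubring :=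
      grd_rel_inChartK M A hc.mem _ hP₀ Q' hQ'rel
    obtain ⟨x, hx0, hx1⟩ := grdg_separate hc.sepK Q' Q hQ' hQ hne
    obtain ⟨x₀, hx₀int, hx₀red⟩ := grd_lift M A hℓM hA hc x
    have hs₀ : φ (x₀ : modularFunctionFieldBar M) ∈ grdB (M * p) A (φ (grdQ M hc.mem)) :=
      ttrp_isInt_map M p A φ _ _ hx₀int
    have hred : red ⟨φ (x₀ : modularFunctionFieldBar M), H.int_mem hs₀⟩ =
        (x : modularFunctionFieldFullC (ResidueField A) M) := by
      have h1 := H.red_base _ x₀.2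
      have h2 : (⟨(x₀ : modularFunctionFieldBar M), x₀.2⟩ : ↥(grdO M A)) = x₀ := rfl
      rw [h2, hx₀red] at h1
      exact h1
    refine ⟨_, hs₀, ?_, ?_⟩
    · obtain ⟨a, ha⟩ := ttrp_val_exists (M * p) A _ P hPc hs₀
      refine ⟨a, ?_, ha⟩
      have h0 : GrdVal (ttrpRes M p φ hφ P) (x₀ : modularFunctionFieldBar M) (a : Qb) :=
        (ttrp_val_res φ hφ P _ _).mpr ha
      have h1 := hQ'rel (x₀ : modularFunctionFieldBar M) x₀.2 hx₀int a h0
      have h2 : (⟨(x₀ : modularFunctionFieldBar M), x₀.2⟩ : ↥(grdO M A)) = x₀ := rfl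
      rw [h2, hx₀red] at h1
      have h3 : residue A a = 0 := grdg_val_unique Q' h1 hx0
      rw [ValuationSubring.mem_nonunits_iff_exists_mem_maximalIdeal]
      exact ⟨a.2, (residue_eq_zero_iff _).mp h3⟩
    · rw [hred]
      intro h0
      have := grdg_val_unique Q h0 hx1
      exact zero_ne_one this
  · -- `P` not good : `s₀ = v`
    refine ⟨v, H.v_int, ?_, hvQ⟩
    by_contra hno
    exact hg ⟨hPc, hno⟩

/-- THE CENTRE (`⊆`) : restatement of `ttrp_rel`. -/
theorem ttrp_centre (hℓM : ¬ ℓ ∣ M) (hA : A.LiesOverPrime ℓ) (hc : GrdChart M A υ)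
    (hφ : φ.toRingHom.IsIntegral) (H : TtrpChart M p A φ hc.mem V red v)
    (Q : Place (ResidueField A) (modularFunctionFieldFullC (ResidueField A) M))
    (P : Place Qb (modularFunctionFieldBar (M * p)))
    (hP : TtrpGoodC M p A (φ (grdQ M hc.mem)) v P)
    (hPQ : GrdRel M A (grdQ M hc.mem) (ttrpRes M p φ hφ P) Q)
    (b : modularFunctionFieldBar (M * p)) (hb : b ∈ grdB (M * p) A (φ (grdQ M hc.mem))) :
    (∃ a : Qb, a ∈ A.nonunits ∧ GrdVal P b a) ↔ GrdVal Q (red ⟨b, H.int_mem hb⟩) 0 := by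
  obtain ⟨a, ha⟩ := ttrp_val_exists (M * p) A _ P hP.1 hb
  have h1 := ttrp_rel hℓM hA hc hφ H P hP Q hPQ b hb a ha
  constructor
  · rintro ⟨a', ha'm, ha'⟩
    have : (a : Qb) = a' := grdg_val_unique P ha ha'
    rw [ValuationSubring.mem_nonunits_iff_exists_mem_maximalIdeal] at ha'm
    obtain ⟨ha'A, ha'm⟩ := ha'm
    have h2 : a = ⟨a', ha'A⟩ := Subtype.ext this
    rw [h2, (residue_eq_zero_iff _).mpr ha'm] at h1
    exact h1
  · intro h0
    have h2 : residue A a = 0 := grdg_val_unique Q h1 h0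
    refine ⟨a, ?_, ha⟩
    rw [ValuationSubring.mem_nonunits_iff_exists_mem_maximalIdeal]
    exact ⟨a.2, (residue_eq_zero_iff _).mp h2⟩

end Sep

section SepR

variable {M p : ℕ} [NeZero M] [NeZero p] {ℓ : ℕ} [Fact ℓ.Prime]
variable {A : ValuationSubring Qb}
variable {τ τ' : LaurentSeries ℤ}
variable {φ : modularFunctionFieldBar M →ₐ[Qb] modularFunctionFieldBar (M * p)}
variable {V : Subring (modularFunctionFieldBar (M * p))}
variable {red : ↥V →+* modularFunctionFieldFullC (ResidueField A) M}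
variable {v : modularFunctionFieldBar (M * p)}

/-- SEPARATION in terms of `r` (first chart of the atlas) : a place of the chart outside
`ttrpS … Q` is separated from `Q` by an element of the chart ring. -/
theorem ttrp_sep (hℓM : ¬ ℓ ∣ M) (hA : A.LiesOverPrime ℓ) (hat : GrdAtlas M A τ τ')
    (r : Place Qb (modularFunctionFieldBar M) →
      Place (ResidueField A) (modularFunctionFieldFullC (ResidueField A) M))
    (hr : GrdIsRed M A hat.c.mem hat.c'.mem r)
    (hφ : φ.toRingHom.IsIntegral) (H : TtrpChart M p A φ hat.c.mem V red v)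
    (Q : Place (ResidueField A) (modularFunctionFieldFullC (ResidueField A) M))
    (hQ : grdK M A hat.c.mem ∈ Q.toValuationSubring)
    (hvQ : ¬ GrdVal Q (red ⟨v, H.int_mem H.v_int⟩) 0)
    (P : Place Qb (modularFunctionFieldBar (M * p)))
    (hPc : GrdInChart (M * p) A (φ (grdQ M hat.c.mem)) P)
    (hPS : P ∉ ttrpS M p A φ hφ r (φ (grdQ M hat.c.mem)) v Q) :
    ∃ (s₀ : modularFunctionFieldBar (M * p))
      (hs₀ : s₀ ∈ grdB (M * p) A (φ (grdQ M hat.c.mem))),
      (∃ a : Qb, a ∈ A.nonunits ∧ GrdVal P s₀ a) ∧ ¬ GrdVal Q (red ⟨s₀, H.int_mem hs₀⟩) 0 := by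
  apply ttrp_sep_chart hℓM hA hat.c hφ H Q hQ hvQ P hPc
  rintro ⟨hg, hrel⟩
  apply hPS
  refine ⟨hg, ?_⟩
  have hP₀ : GrdInChart M A (grdQ M hat.c.mem) (ttrpRes M p φ hφ P) :=
    (ttrp_inChart_res hφ _ P).mpr hPc
  obtain ⟨Q', -, hQ'uniq⟩ := grd_rel_exists M A hℓM hA hat.c (ttrpRes M p φ hφ P) hP₀
  have h1 := hQ'uniq _ ((grd_isRed_rel M A hℓM hA hat r hr _).1 hP₀)
  have h2 := hQ'uniq _ hrel
  unfold ttrpR
  rw [h1, h2]

end SepR

end Fermat.Agent.TT
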