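import Mathlib
import Fermat.Agent.TT.Red2.GoodCentre
import Fermat.Agent.G.Red.Simple
import Fermat.Agent.G.Red.DivChart

/-!
# Program TT, G/Red2 layer B, leaf (HW) : THE ONE-ZERO FUNCTION OF A GOOD PLACE (prefix `ttrf`)

`P` a good place of the chart (index `φ`, helper6's `TtrpGoodC`) over the place `Q` of `F_k(M)`,
unramified over `P₀ = P ∘ φ` and the only good place over `P₀` (`(B3)`, helper6 `ttrp_fib` from
`Fib8.lean`).  Then `w = φ (t₀ - β)` (`t₀` a level-`M` lift of a uniformiser at `Q`, `β = t₀(P₀)`)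
satisfies : `ord_Q (red w) = 1`, `ord_P w = 1`, and `ord_{P'} w = 0` at every other good place `P'`
over `Q`.  This is the input `(HW_j)` of helper15's `ttalv_const` (divisor formula of a residue disc
for common units) and the `z_Q`-multiplier of the `(POLE)` calculus.
-/

set_option autoImplicit false
set_option linter.unusedSectionVars false
set_option linter.unusedVariables false
set_option synthInstance.maxHeartbeats 400000

noncomputable section

namespace Fermat.Agent.TT

open ModularCurve AlgebraicCurve IsLocalRing Polynomial Fermat.Agent.S18 Fermat.Agent.S24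
  Fermat.Agent.G Fermat.Agent.FF Fermat.Agent.S05

local notation "Qb" => AlgebraicClosure ℚ

section Unif

variable {M p : ℕ} [NeZero M] [NeZero p] {ℓ : ℕ} [Fact ℓ.Prime]
variable {A : ValuationSubring Qb}
variable {υ : LaurentSeries ℤ}
variable {φ : modularFunctionFieldBar M →ₐ[Qb] modularFunctionFieldBar (M * p)}
variable {v : modularFunctionFieldBar (M * p)}

/-- THE ONE-ZERO FUNCTION (chart form). -/
theorem ttrf_unif_chart (hℓM : ¬ ℓ ∣ M) (hA : A.LiesOverPrime ℓ) (hc : GrdChart M A υ)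
    (hφ : φ.toRingHom.IsIntegral)
    (Q : Place (ResidueField A) (modularFunctionFieldFullC (ResidueField A) M))
    (hQ : grdK M A hc.mem ∈ Q.toValuationSubring)
    (P : Place Qb (modularFunctionFieldBar (M * p)))
    (hPc : GrdInChart (M * p) A (φ (grdQ M hc.mem)) P)
    (hPQ : GrdRel M A (grdQ M hc.mem) (ttrpRes M p φ hφ P) Q)
    (he : P.ramificationIndexAlong φ = 1) :
    ∃ (f : modularFunctionFieldBar M) (hf : f ∈ grdO M A), GrdIsInt M A (grdQ M hc.mem) f ∧
      Q.ord (grdRed M A ⟨f, hf⟩) = 1 ∧ P.ord (φ f) = 1 ∧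
      ∀ P' : Place Qb (modularFunctionFieldBar (M * p)),
        GrdInChart (M * p) A (φ (grdQ M hc.mem)) P' →
        GrdRel M A (grdQ M hc.mem) (ttrpRes M p φ hφ P') Q →
        ttrpRes M p φ hφ P' ≠ ttrpRes M p φ hφ P → P'.ord (φ f) = 0 := by
  have : IsAlgClosed (ResidueField A) := grd_isAlgClosed_residue A
  set P₀ := ttrpRes M p φ hφ P with hP₀def
  have hP₀ : GrdInChart M A (grdQ M hc.mem) P₀ := (ttrp_inChart_res hφ _ P).mpr hPc
  -- a lift of a uniformiser
  obtain ⟨x, hx⟩ := grdg_exists_unif hc.sepK Q hQ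
  obtain ⟨t₀, ht₀, ht₀x⟩ := grd_lift M A hℓM hA hc x
  have hord : Q.ord (grdRed M A t₀) = 1 := by rw [ht₀x]; exact hx
  obtain ⟨β, hβ⟩ := grd_val_exists M A hc P₀ hP₀ ht₀
  obtain ⟨hw1, hwuniq⟩ := grd_simple_zero M A hℓM hA hc P₀ hP₀ Q hPQ t₀ ht₀ hord β hβ
  set βO : ↥(grdO M A) := ⟨algebraMap Qb (modularFunctionFieldBar M) (β : Qb),
    grdO_algebraMap_mem M A β⟩ with hβO
  set w : ↥(grdO M A) := t₀ - βO with hw
  have hwcoe : (w : modularFunctionFieldBar M) = (t₀ : modularFunctionFieldBar M) -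
      algebraMap Qb (modularFunctionFieldBar M) (β : Qb) := rfl
  have hwint : GrdIsInt M A (grdQ M hc.mem) (w : modularFunctionFieldBar M) := by
    rw [hwcoe]
    exact (grdB M A (grdQ M hc.mem)).sub_mem ht₀ (grdr5_isInt_const M A _ β)
  have ht₀ne : grdRed M A t₀ ≠ 0 := by
    intro h0
    rw [h0, Place.ord_zero] at hord
    exact zero_ne_one hord
  have hβ0 : residue A β = 0 := by
    have h1 : GrdVal Q (grdRed M A t₀) (residue A β) :=
      hPQ (t₀ : modularFunctionFieldBar M) t₀.2 ht₀ β hβ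
    have h2 : GrdVal Q (grdRed M A t₀) 0 :=
      (grdg_val_zero_iff_ord Q ht₀ne).mpr (by rw [hord]; exact one_pos)
    exact grdg_val_unique Q h1 h2
  have hwred : grdRed M A w = grdRed M A t₀ := by
    rw [hw, map_sub, hβO, grdRed_algebraMap, hβ0, map_zero, sub_zero]
  refine ⟨(w : modularFunctionFieldBar M), w.2, hwint, ?_, ?_, ?_⟩
  · have : (⟨(w : modularFunctionFieldBar M), w.2⟩ : ↥(grdO M A)) = w := rfl
    rw [this, hwred]
    exact hord
  · rw [Place.ord_restrictAlong φ hφ P, he, hwcoe]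
    show (1 : ℤ) * P₀.ord _ = 1
    rw [one_mul]
    exact hw1
  · intro P' hP'c hP'Q hne
    set P₀' := ttrpRes M p φ hφ P' with hP₀'def
    have hP₀' : GrdInChart M A (grdQ M hc.mem) P₀' := (ttrp_inChart_res hφ _ P').mpr hP'c
    rw [Place.ord_restrictAlong φ hφ P']
    have h0 : P₀'.ord (w : modularFunctionFieldBar M) = 0 := by
      by_contra hne0
      have hw0 : (w : modularFunctionFieldBar M) ≠ 0 := by
        intro h0
        rw [h0, Place.ord_zero] at hne0
        exact hne0 rfl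
      obtain ⟨a, ha⟩ := grd_val_exists M A hc P₀' hP₀' hwint
      have hmem : (w : modularFunctionFieldBar M) ∈ P₀'.toValuationSubring := grdg_val_mem P₀' ha
      have hnn : 0 ≤ P₀'.ord (w : modularFunctionFieldBar M) := (grdg_mem_iff_ord P₀' hw0).mp hmem
      have hpos : 0 < P₀'.ord (w : modularFunctionFieldBar M) := lt_of_le_of_ne hnn (Ne.symm hne0)
      have hv0 : GrdVal P₀' (w : modularFunctionFieldBar M) 0 := (grdg_val_zero_iff_ord P₀' hw0).mpr hpos
      have hvβ : GrdVal P₀' (t₀ : modularFunctionFieldBar M) (β : Qb) := by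
        rw [grdg_val_zero_iff] at hv0
        exact hv0
      exact hne (hwuniq P₀' hP₀' hP'Q hvβ)
    show (P'.ramificationIndexAlong φ : ℤ) * P₀'.ord (w : modularFunctionFieldBar M) = 0
    rw [h0, mul_zero]

/-- THE ONE-ZERO FUNCTION (index form, = `(HW_j)` of `ttalv_const` on the fibre of a chart) :
`H : TtrpChart` for the index `(φ, V, red, v)`, `(V', red')` the OTHER index with `φ (grdO M A) ⊆ V'`
and `red' ∘ φ` injective on reductions, `hfib` the fibre statement `(B3)` (helper6 `ttrp_fib`).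
For every good `P` of the chart over `Q` there is `w ∈ V ∩ V'` with `ord_Q (red w) = 1`,
`red' w ≠ 0`, `ord_P w = 1` and `ord_{P'} w = 0` at every other good `P'` of the chart over `Q`. -/
theorem ttrf_unif_index {V V' : Subring (modularFunctionFieldBar (M * p))}
    {red : ↥V →+* modularFunctionFieldFullC (ResidueField A) M}
    {Fk' : Type*} [CommRing Fk'] {red' : ↥V' →+* Fk'}
    (hℓM : ¬ ℓ ∣ M) (hA : A.LiesOverPrime ℓ) (hc : GrdChart M A υ)
    (hφ : φ.toRingHom.IsIntegral) (H : TtrpChart M p A φ hc.mem V red v)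
    (hbase' : ∀ y ∈ grdO M A, φ y ∈ V')
    (hinj' : ∀ (y : modularFunctionFieldBar M) (hy : y ∈ grdO M A),
      red' ⟨φ y, hbase' y hy⟩ = 0 → grdRed M A ⟨y, hy⟩ = 0)
    (Q : Place (ResidueField A) (modularFunctionFieldFullC (ResidueField A) M))
    (hQ : grdK M A hc.mem ∈ Q.toValuationSubring)
    (hfib : ∀ P₀ : Place Qb (modularFunctionFieldBar M), GrdInChart M A (grdQ M hc.mem) P₀ →
      GrdRel M A (grdQ M hc.mem) P₀ Q →
      ∀ P : Place Qb (modularFunctionFieldBar (M * p)),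
        TtrpGoodC M p A (φ (grdQ M hc.mem)) v P → ttrpRes M p φ hφ P = P₀ →
        P.ramificationIndexAlong φ = 1 ∧
        ∀ P' : Place Qb (modularFunctionFieldBar (M * p)),
          TtrpGoodC M p A (φ (grdQ M hc.mem)) v P' → ttrpRes M p φ hφ P' = P₀ → P' = P)
    (P : Place Qb (modularFunctionFieldBar (M * p)))
    (hPg : TtrpGoodC M p A (φ (grdQ M hc.mem)) v P)
    (hPQ : GrdRel M A (grdQ M hc.mem) (ttrpRes M p φ hφ P) Q) :
    ∃ (w : modularFunctionFieldBar (M * p)) (h₁ : w ∈ V) (h₂ : w ∈ V'),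
      Q.ord (red ⟨w, h₁⟩) = 1 ∧ red' ⟨w, h₂⟩ ≠ 0 ∧ P.ord w = 1 ∧
      ∀ P' : Place Qb (modularFunctionFieldBar (M * p)),
        TtrpGoodC M p A (φ (grdQ M hc.mem)) v P' →
        GrdRel M A (grdQ M hc.mem) (ttrpRes M p φ hφ P') Q → P' ≠ P → P'.ord w = 0 := by
  have hP₀ : GrdInChart M A (grdQ M hc.mem) (ttrpRes M p φ hφ P) :=
    (ttrp_inChart_res hφ _ P).mpr hPg.1
  obtain ⟨he, huniq⟩ := hfib _ hP₀ hPQ P hPg rfl
  obtain ⟨f, hf, hfint, hfQ, hfP, hfother⟩ :=
    ttrf_unif_chart hℓM hA hc hφ Q hQ P hPg.1 hPQ he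
  have hred0 : grdRed M A ⟨f, hf⟩ ≠ 0 := by
    intro h0
    rw [h0, Place.ord_zero] at hfQ
    exact zero_ne_one hfQ
  refine ⟨φ f, H.base_mem f hf, hbase' f hf, ?_, ?_, hfP, ?_⟩
  · rw [H.red_base f hf]
    exact hfQ
  · exact fun h0 => hred0 (hinj' f hf h0)
  · intro P' hP'g hP'Q hne
    apply hfother P' hP'g.1 hP'Q
    intro heq
    exact hne (huniq P' hP'g heq)

/-- the hypothesis `hfib` of `ttrf_unif_index` from the EXISTENCE form of `(B3)` (the literal
conclusion of helper6's `ttrp_fib`). -/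
theorem ttrf_fib_of_exists (hφ : φ.toRingHom.IsIntegral)
    (u : modularFunctionFieldBar M)
    (P₀ : Place Qb (modularFunctionFieldBar M))
    (hex : ∃ P : Place Qb (modularFunctionFieldBar (M * p)),
      TtrpGoodC M p A (φ u) v P ∧ ttrpRes M p φ hφ P = P₀ ∧
      P.ramificationIndexAlong φ = 1 ∧
      ∀ P' : Place Qb (modularFunctionFieldBar (M * p)),
        TtrpGoodC M p A (φ u) v P' → ttrpRes M p φ hφ P' = P₀ → P' = P)
    (P : Place Qb (modularFunctionFieldBar (M * p)))
    (hPg : TtrpGoodC M p A (φ u) v P) (hP : ttrpRes M p φ hφ P = P₀) :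
    P.ramificationIndexAlong φ = 1 ∧
      ∀ P' : Place Qb (modularFunctionFieldBar (M * p)),
        TtrpGoodC M p A (φ u) v P' → ttrpRes M p φ hφ P' = P₀ → P' = P := by
  obtain ⟨Ps, -, -, hes, huniq⟩ := hex
  have h1 : P = Ps := huniq P hPg hP
  subst h1
  exact ⟨hes, huniq⟩

end Unif

end Fermat.Agent.TT
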