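/-
Program TT (S33), package G/Red₂ : THE FIELD `const` OF THE MODEL AT THE LEVEL `M p`, for helper6's
class map `ttrpCls`.

Owner: helper15.  Prefix `ttrli`.  Namespace `Fermat.Agent.TT`.

* `ttrli_cls_cen`, `ttrli_cls_cen'` : badness for `ttrpCls` only depends on the closed point of the
  chart ring (finite chart : `v₁, v₂, u₂ ∈ B(u₁)`; chart at infinity : `u₁ ∈ B(u₂)`);
* `ttrli_hv_cls`  : (HV) of `ttalv_const` for `cls = ttrpCls`;
* `ttrli_hw₁`, `ttrli_hw₂` : (HW_j) of `ttalv_const` from helper8's `ttrf_unif_index`;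
* `ttrli_const_cls` : the field `const` of `TtgModel`.
-/
import Mathlib
import Fermat.Agent.TT.Red2.LocInputs
import Fermat.Agent.TT.Red2.Cls
import Fermat.Agent.TT.Red2.Unif8
import Fermat.Agent.TT.Alpha.ConstD

set_option autoImplicit false
set_option linter.unusedSectionVars false
set_option linter.unusedVariables false
set_option linter.style.haveILetI false
set_option synthInstance.maxHeartbeats 400000

noncomputable section

namespace Fermat.Agent.TT

open Polynomial ModularCurve AlgebraicCurve IsLocalRing IntermediateField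
  Fermat.Agent.G Fermat.Agent.S18 Fermat.Agent.S24 Fermat.Agent.FF

local notation "Qb" => AlgebraicClosure ℚ

/-! ### badness depends only on the centre -/

section Cen

variable {M p : ℕ} [NeZero M] [NeZero p]
variable {A : ValuationSubring Qb}
variable {r : Place Qb (modularFunctionFieldBar M) →
  Place (ResidueField A) (modularFunctionFieldFullC (ResidueField A) M)}

/-- FINITE CHART : if `v₁, v₂, u₂` lie in the chart ring `B(u₁)`, a place of the chart `u₁` with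
the same closed point as a bad place is bad. -/
theorem ttrli_cls_cen (u₁ v₁ u₂ v₂ : modularFunctionFieldBar (M * p))
    (hv₁ : v₁ ∈ grdB (M * p) A u₁) (hv₂ : v₂ ∈ grdB (M * p) A u₁)
    (hu₂ : u₂ ∈ grdB (M * p) A u₁)
    (v v' : Place Qb (modularFunctionFieldBar (M * p)))
    (hv : ttrpCls M p A r u₁ v₁ u₂ v₂ v = none)
    (hvc : GrdInChart (M * p) A u₁ v) (hvc' : GrdInChart (M * p) A u₁ v')
    (hsame : ∀ b ∈ grdB (M * p) A u₁, TtalvIn A v' b ↔ TtalvIn A v b) :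
    ttrpCls M p A r u₁ v₁ u₂ v₂ v' = none := by
  rw [ttrp_cls_none_iff] at hv ⊢
  refine ⟨fun h => hv.1 (ttrp_goodC_of_centre u₁ v₁ hv₁ v v' hvc
    (fun b hb hb' => (hsame b hb).mpr hb') h), fun h => hv.2 ⟨?_, fun hh => h.2 ?_⟩⟩
  · exact ttrp_inChart_of_int (M * p) u₁ u₂ hu₂ v hvc
  · exact (hsame v₂ hv₂).mpr hh

/-- CHART AT INFINITY : if `u₁ u₁' = 1` and `u₁ ∈ B(u₂)`, a place of the chart `u₁'` with the same
closed point as a place where `u₁'` vanishes modulo `𝔪` is bad. -/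
theorem ttrli_cls_cen' (u₁ u₁' v₁ u₂ v₂ : modularFunctionFieldBar (M * p))
    (huu' : u₁ * u₁' = 1) (hu₁₂ : u₁ ∈ grdB (M * p) A u₂)
    (v v' : Place Qb (modularFunctionFieldBar (M * p)))
    (hv : ∃ a : A, a ∈ maximalIdeal A ∧ GrdVal v u₁' (a : Qb))
    (hsame : ∀ b ∈ grdB (M * p) A u₁', TtalvIn A v' b ↔ TtalvIn A v b) :
    ttrpCls M p A r u₁ v₁ u₂ v₂ v' = none := by
  obtain ⟨a, ha, hva⟩ := hv
  have hin : TtalvIn A v u₁' :=
    ⟨(a : Qb), A.mem_nonunits_iff_exists_mem_maximalIdeal.mpr ⟨a.2, ha⟩, hva⟩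
  obtain ⟨m, hm, hvm⟩ := (hsame u₁' (ttrli_u_mem (M * p) A u₁')).mpr hin
  have hnot : ¬ GrdInChart (M * p) A u₁ v' := by
    rintro ⟨b, hb⟩
    have h1 := grdg_val_mul v' hb hvm
    rw [huu'] at h1
    have h2 : GrdVal v' (1 : modularFunctionFieldBar (M * p)) (1 : Qb) := by
      have := grdg_val_algebraMap v' (1 : Qb)
      rwa [map_one] at this
    have h3 : (b : Qb) * m = 1 := grdg_val_unique v' h1 h2
    have h4 : (b : Qb) * m ∈ A.nonunits := by
      rw [mul_comm]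
      exact ttalv_nu_mul hm b.2
    rw [h3] at h4
    exact ttalv_one_not_nu h4
  rw [ttrp_cls_none_iff]
  exact ⟨fun h => hnot h.1, fun h => hnot (ttrp_inChart_of_int (M * p) u₂ u₁ hu₁₂ v' h.1)⟩

end Cen

/-! ### (HV) for `ttrpCls` -/

section HV

variable (M : ℕ) [NeZero M] {p : ℕ} [Fact p.Prime] [NeZero p]
variable (A : ValuationSubring Qb)

/-- `β υ ∈ B(α υ)` ⟹ `α υ ∈ B(β υ)` (by `w`). -/
theorem ttrli_alpha_mem_beta (hpM : ¬ p ∣ M) (x : modularFunctionFieldBar M)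
    (hbe : heckeBetaBar Qb M p x ∈ grdB (M * p) A (heckeAlphaBar Qb M p x)) :
    heckeAlphaBar Qb M p x ∈ grdB (M * p) A (heckeBetaBar Qb M p x) := by
  have h := ttr_isInt_w M A hpM hbe
  rwa [ttrW_alpha, ttrW_beta] at h

/-- **(HV) of `ttalv_const` for helper6's class map** `ttrpCls M p 𝔸 r (α τ) v₁ (β τ) v₂`, from
`v₁, v₂, β τ ∈ B(α τ)`. -/
theorem ttrli_hv_cls (hpM : ¬ p ∣ M) (hA : A.LiesOverPrime p) {τ τ' : LaurentSeries ℤ}
    (hat : GrdAtlas M A τ τ')
    (r : Place Qb (modularFunctionFieldBar M) →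
      Place (ResidueField A) (modularFunctionFieldFullC (ResidueField A) M))
    (v₁ v₂ : modularFunctionFieldBar (M * p))
    (hv₁ : v₁ ∈ grdB (M * p) A (heckeAlphaBar Qb M p (grdQ M hat.c.mem)))
    (hv₂ : v₂ ∈ grdB (M * p) A (heckeAlphaBar Qb M p (grdQ M hat.c.mem)))
    (hbe : heckeBetaBar Qb M p (grdQ M hat.c.mem) ∈
      grdB (M * p) A (heckeAlphaBar Qb M p (grdQ M hat.c.mem))) :
    ∀ (x : ↥(modularFunctionFieldBar (M * p))) (h₁ : x ∈ ttrV1 M A hpM hA)
      (h₂ : x ∈ ttalV2 (ttrV1 M A hpM hA) (ttrW M hpM)) (c : ResidueField A), c ≠ 0 → x ≠ 0 →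
      (∀ v : Place Qb ↥(modularFunctionFieldBar (M * p)),
        ttrpCls M p A r (heckeAlphaBar Qb M p (grdQ M hat.c.mem)) v₁
          (heckeBetaBar Qb M p (grdQ M hat.c.mem)) v₂ v = none → 0 ≤ v.ord x) →
      ttrRed1 M A hA ⟨x, h₁⟩ =
        algebraMap (ResidueField A) ↥(modularFunctionFieldFullC (ResidueField A) M) c →
      ttalRed2 (ttrV1 M A hpM hA) (ttrW M hpM) (ttrRed1 M A hA) ⟨x, h₂⟩ =
        algebraMap (ResidueField A) ↥(modularFunctionFieldFullC (ResidueField A) M) c →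
      ∀ v : Place Qb ↥(modularFunctionFieldBar (M * p)),
        ttrpCls M p A r (heckeAlphaBar Qb M p (grdQ M hat.c.mem)) v₁
          (heckeBetaBar Qb M p (grdQ M hat.c.mem)) v₂ v = none → v.ord x = 0 := by
  have huu' : heckeAlphaBar Qb M p (grdQ M hat.c.mem) *
      heckeAlphaBar Qb M p (grdQ M hat.c'.mem) = 1 := by
    rw [← map_mul, grda_grdQ_mul M A hat, map_one]
  refine ttrli_hv_atlas M A hpM hA hat _
    (fun v v' hv hvc hvc' hsame => ttrli_cls_cen _ _ _ _ hv₁ hv₂ hbe v v' hv hvc hvc' hsame)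
    (fun v v' hv hva hvc' hsame => ttrli_cls_cen' _ _ v₁ _ v₂ huu'
      (ttrli_alpha_mem_beta M A hpM _ hbe) v v' hva hsame)

end HV

/-! ### (HW_j) for `ttrpCls` -/

section HW

variable (M : ℕ) [NeZero M] {p : ℕ} [Fact p.Prime] [NeZero p]
variable (A : ValuationSubring Qb)

/-- the reduction of a place of the chart lies in the chart of `ū`. -/
theorem ttrli_rel_mem {υ : LaurentSeries ℤ} (hυ : GrdSerMem M υ)
    (P₀ : Place Qb (modularFunctionFieldBar M))
    (Q : Place (ResidueField A) (modularFunctionFieldFullC (ResidueField A) M))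
    (hP₀ : GrdInChart M A (grdQ M hυ) P₀) (hrel : GrdRel M A (grdQ M hυ) P₀ Q) :
    grdK M A hυ ∈ Q.toValuationSubring := by
  obtain ⟨a, ha⟩ := hP₀
  have h := hrel (grdQ M hυ) (grdQ_mem_grdO M A hυ) (grdr_isInt_self M A _) a ha
  rw [grdRed_grdQ] at h
  exact grdg_val_mem Q h

/-- **(HW₁)** : the one-zero function of a good place of the first kind (helper8's
`ttrf_unif_index`), in the shape of `ttalv_const`. -/
theorem ttrli_hw₁ (hpM : ¬ p ∣ M) (hA : A.LiesOverPrime p) {τ τ' : LaurentSeries ℤ}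
    (hat : GrdAtlas M A τ τ')
    (r : Place Qb (modularFunctionFieldBar M) →
      Place (ResidueField A) (modularFunctionFieldFullC (ResidueField A) M))
    (hr : GrdIsRed M A hat.c.mem hat.c'.mem r)
    (v₁ u₂ v₂ : modularFunctionFieldBar (M * p))
    (H₁ : TtrpChart M p A (heckeAlphaBar Qb M p) hat.c.mem (grdO (M * p) A) (ttrRed1 M A hA) v₁)
    (hfib₁ : ∀ P : Place Qb (modularFunctionFieldBar (M * p)),
      TtrpGoodC M p A (heckeAlphaBar Qb M p (grdQ M hat.c.mem)) v₁ P →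
      P.ramificationIndexAlong (heckeAlphaBar Qb M p) = 1 ∧
      ∀ P' : Place Qb (modularFunctionFieldBar (M * p)),
        TtrpGoodC M p A (heckeAlphaBar Qb M p (grdQ M hat.c.mem)) v₁ P' →
        ttrpRes M p (heckeAlphaBar Qb M p) (gff_alpha_integral M p) P' =
          ttrpRes M p (heckeAlphaBar Qb M p) (gff_alpha_integral M p) P → P' = P) :
    ∀ (P : Place Qb (modularFunctionFieldBar (M * p)))
      (Q : Place (ResidueField A) (modularFunctionFieldFullC (ResidueField A) M)),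
      ttrpCls M p A r (heckeAlphaBar Qb M p (grdQ M hat.c.mem)) v₁ u₂ v₂ P = some (Sum.inl Q) →
      ∃ (w : modularFunctionFieldBar (M * p)) (h₁ : w ∈ ttrV1 M A hpM hA)
        (h₂ : w ∈ ttalV2 (ttrV1 M A hpM hA) (ttrW M hpM)),
        Q.ord (ttrRed1 M A hA ⟨w, h₁⟩) = 1 ∧
        ttalRed2 (ttrV1 M A hpM hA) (ttrW M hpM) (ttrRed1 M A hA) ⟨w, h₂⟩ ≠ 0 ∧
        P.ord w = 1 ∧ ∀ P' : Place Qb (modularFunctionFieldBar (M * p)),
          ttrpCls M p A r (heckeAlphaBar Qb M p (grdQ M hat.c.mem)) v₁ u₂ v₂ P' =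
            some (Sum.inl Q) → P' ≠ P → P'.ord w = 0 := by
  intro P Q hP
  have hp : p.Prime := Fact.out
  obtain ⟨hPg, hPQ⟩ := ttrp_cls_inl_iff.mp hP
  have hrelOf : ∀ P' : Place Qb (modularFunctionFieldBar (M * p)),
      TtrpGoodC M p A (heckeAlphaBar Qb M p (grdQ M hat.c.mem)) v₁ P' →
      ttrpR M p A (heckeAlphaBar Qb M p) (gff_alpha_integral M p) r P' = Q →
      GrdRel M A (grdQ M hat.c.mem)
        (ttrpRes M p (heckeAlphaBar Qb M p) (gff_alpha_integral M p) P') Q := by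
    intro P' hP'g hP'Q
    have h := (grd_isRed_rel M A hpM hA hat r hr
      (ttrpRes M p (heckeAlphaBar Qb M p) (gff_alpha_integral M p) P')).1
      ((ttrp_inChart_res (gff_alpha_integral M p) _ P').mpr hP'g.1)
    have hQ' : r (ttrpRes M p (heckeAlphaBar Qb M p) (gff_alpha_integral M p) P') = Q := hP'Q
    rwa [hQ'] at h
  have hrel := hrelOf P hPg hPQ
  have hQ : grdK M A hat.c.mem ∈ Q.toValuationSubring :=
    ttrli_rel_mem M A hat.c.mem _ Q
      ((ttrp_inChart_res (gff_alpha_integral M p) _ P).mpr hPg.1) hrel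
  obtain ⟨w, h₁, h₂, hw1, hw2, hw3, hw4⟩ := ttrf_unif_index (V' := ttrV2 M A hpM)
    (red' := ttrRed2 M A hpM hA) hpM hA hat.c (gff_alpha_integral M p) H₁
    (fun y hy => ttr_alpha_mem₂ M A hpM hy)
    (fun y hy h0 => by
      have h1 := ttrRed2_alpha M A hpM hA ⟨y, hy⟩
      rw [h0] at h1
      exact ((map_eq_zero_iff (ttrPhi M A hA) (ttrPhi M A hA).injective).mp h1.symm))
    Q hQ
    (fun P₀ hP₀ hP₀Q P₁ hP₁g hP₁ => ⟨(hfib₁ P₁ hP₁g).1, fun P' hP'g hP' =>
      (hfib₁ P₁ hP₁g).2 P' hP'g (hP'.trans hP₁.symm)⟩)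
    P hPg hrel
  refine ⟨w, h₁, h₂, hw1, hw2, hw3, fun P' hP' hne => ?_⟩
  obtain ⟨hP'g, hP'Q⟩ := ttrp_cls_inl_iff.mp hP'
  exact hw4 P' hP'g (hrelOf P' hP'g hP'Q) hne

/-- **(HW₂)** : the one-zero function of a good place of the second kind. -/
theorem ttrli_hw₂ (hpM : ¬ p ∣ M) (hA : A.LiesOverPrime p) {τ τ' : LaurentSeries ℤ}
    (hat : GrdAtlas M A τ τ')
    (r : Place Qb (modularFunctionFieldBar M) →
      Place (ResidueField A) (modularFunctionFieldFullC (ResidueField A) M))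
    (hr : GrdIsRed M A hat.c.mem hat.c'.mem r)
    (u₁ v₁ v₂ : modularFunctionFieldBar (M * p))
    (H₂ : TtrpChart M p A (heckeBetaBar Qb M p) hat.c.mem (ttrV2 M A hpM) (ttrRed2 M A hpM hA) v₂)
    (hfib₂ : ∀ P : Place Qb (modularFunctionFieldBar (M * p)),
      TtrpGoodC M p A (heckeBetaBar Qb M p (grdQ M hat.c.mem)) v₂ P →
      P.ramificationIndexAlong (heckeBetaBar Qb M p) = 1 ∧
      ∀ P' : Place Qb (modularFunctionFieldBar (M * p)),
        TtrpGoodC M p A (heckeBetaBar Qb M p (grdQ M hat.c.mem)) v₂ P' →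
        ttrpRes M p (heckeBetaBar Qb M p) (gff_beta_integral M p) P' =
          ttrpRes M p (heckeBetaBar Qb M p) (gff_beta_integral M p) P → P' = P) :
    ∀ (P : Place Qb (modularFunctionFieldBar (M * p)))
      (Q : Place (ResidueField A) (modularFunctionFieldFullC (ResidueField A) M)),
      ttrpCls M p A r u₁ v₁ (heckeBetaBar Qb M p (grdQ M hat.c.mem)) v₂ P = some (Sum.inr Q) →
      ∃ (w : modularFunctionFieldBar (M * p)) (h₁ : w ∈ ttrV1 M A hpM hA)
        (h₂ : w ∈ ttalV2 (ttrV1 M A hpM hA) (ttrW M hpM)),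
        Q.ord (ttalRed2 (ttrV1 M A hpM hA) (ttrW M hpM) (ttrRed1 M A hA) ⟨w, h₂⟩) = 1 ∧
        ttrRed1 M A hA ⟨w, h₁⟩ ≠ 0 ∧
        P.ord w = 1 ∧ ∀ P' : Place Qb (modularFunctionFieldBar (M * p)),
          ttrpCls M p A r u₁ v₁ (heckeBetaBar Qb M p (grdQ M hat.c.mem)) v₂ P' =
            some (Sum.inr Q) → P' ≠ P → P'.ord w = 0 := by
  intro P Q hP
  have hp : p.Prime := Fact.out
  obtain ⟨-, hPg, hPQ⟩ := ttrp_cls_inr_iff'.mp hP
  have hrelOf : ∀ P' : Place Qb (modularFunctionFieldBar (M * p)),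
      TtrpGoodC M p A (heckeBetaBar Qb M p (grdQ M hat.c.mem)) v₂ P' →
      ttrpR M p A (heckeBetaBar Qb M p) (gff_beta_integral M p) r P' = Q →
      GrdRel M A (grdQ M hat.c.mem)
        (ttrpRes M p (heckeBetaBar Qb M p) (gff_beta_integral M p) P') Q := by
    intro P' hP'g hP'Q
    have h := (grd_isRed_rel M A hpM hA hat r hr
      (ttrpRes M p (heckeBetaBar Qb M p) (gff_beta_integral M p) P')).1
      ((ttrp_inChart_res (gff_beta_integral M p) _ P').mpr hP'g.1)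
    have hQ' : r (ttrpRes M p (heckeBetaBar Qb M p) (gff_beta_integral M p) P') = Q := hP'Q
    rwa [hQ'] at h
  have hrel := hrelOf P hPg hPQ
  have hQ : grdK M A hat.c.mem ∈ Q.toValuationSubring :=
    ttrli_rel_mem M A hat.c.mem _ Q
      ((ttrp_inChart_res (gff_beta_integral M p) _ P).mpr hPg.1) hrel
  obtain ⟨w, h₂, h₁, hw1, hw2, hw3, hw4⟩ := ttrf_unif_index (V' := grdO (M * p) A)
    (red' := ttrRed1 M A hA) hpM hA hat.c (gff_beta_integral M p) H₂
    (fun y hy => ttr_beta_mem M A hy)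
    (fun y hy h0 => by
      have h1 := ttrRed1_beta M A hA ⟨y, hy⟩
      rw [h0] at h1
      exact ((map_eq_zero_iff (ttrPhi M A hA) (ttrPhi M A hA).injective).mp h1.symm))
    Q hQ
    (fun P₀ hP₀ hP₀Q P₁ hP₁g hP₁ => ⟨(hfib₂ P₁ hP₁g).1, fun P' hP'g hP' =>
      (hfib₂ P₁ hP₁g).2 P' hP'g (hP'.trans hP₁.symm)⟩)
    P hPg hrel
  refine ⟨w, h₁, h₂, hw1, hw2, hw3, fun P' hP' hne => ?_⟩
  obtain ⟨-, hP'g, hP'Q⟩ := ttrp_cls_inr_iff'.mp hP'
  exact hw4 P' hP'g (hrelOf P' hP'g hP'Q) hne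

end HW

/-! ### the field `const` -/

section Const

variable (M : ℕ) [NeZero M] {p : ℕ} [Fact p.Prime] [NeZero p]
variable (A : ValuationSubring Qb)

/-- **THE FIELD `const` OF `TtgModel` AT THE LEVEL `M p`**, for helper6's class map
`cls = ttrpCls M p 𝔸 r (α τ) v₁ (β τ) v₂`, from : the two chart packages `H₁`, `H₂` (helper12),
`v₂, β τ ∈ B(α τ)`, the fibre statement (B3) for both kinds (helper6 `ttrp_fib`), and the fields
`val₁`, `val₂`. -/
theorem ttrli_const_cls (hpM : ¬ p ∣ M) (hA : A.LiesOverPrime p) {τ τ' : LaurentSeries ℤ}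
    (hat : GrdAtlas M A τ τ')
    (r : Place Qb (modularFunctionFieldBar M) →
      Place (ResidueField A) (modularFunctionFieldFullC (ResidueField A) M))
    (hr : GrdIsRed M A hat.c.mem hat.c'.mem r)
    (v₁ v₂ : modularFunctionFieldBar (M * p))
    (H₁ : TtrpChart M p A (heckeAlphaBar Qb M p) hat.c.mem (grdO (M * p) A) (ttrRed1 M A hA) v₁)
    (H₂ : TtrpChart M p A (heckeBetaBar Qb M p) hat.c.mem (ttrV2 M A hpM) (ttrRed2 M A hpM hA) v₂)
    (hv₂ : v₂ ∈ grdB (M * p) A (heckeAlphaBar Qb M p (grdQ M hat.c.mem)))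
    (hbe : heckeBetaBar Qb M p (grdQ M hat.c.mem) ∈
      grdB (M * p) A (heckeAlphaBar Qb M p (grdQ M hat.c.mem)))
    (hfib₁ : ∀ P : Place Qb (modularFunctionFieldBar (M * p)),
      TtrpGoodC M p A (heckeAlphaBar Qb M p (grdQ M hat.c.mem)) v₁ P →
      P.ramificationIndexAlong (heckeAlphaBar Qb M p) = 1 ∧
      ∀ P' : Place Qb (modularFunctionFieldBar (M * p)),
        TtrpGoodC M p A (heckeAlphaBar Qb M p (grdQ M hat.c.mem)) v₁ P' →
        ttrpRes M p (heckeAlphaBar Qb M p) (gff_alpha_integral M p) P' =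
          ttrpRes M p (heckeAlphaBar Qb M p) (gff_alpha_integral M p) P → P' = P)
    (hfib₂ : ∀ P : Place Qb (modularFunctionFieldBar (M * p)),
      TtrpGoodC M p A (heckeBetaBar Qb M p (grdQ M hat.c.mem)) v₂ P →
      P.ramificationIndexAlong (heckeBetaBar Qb M p) = 1 ∧
      ∀ P' : Place Qb (modularFunctionFieldBar (M * p)),
        TtrpGoodC M p A (heckeBetaBar Qb M p (grdQ M hat.c.mem)) v₂ P' →
        ttrpRes M p (heckeBetaBar Qb M p) (gff_beta_integral M p) P' =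
          ttrpRes M p (heckeBetaBar Qb M p) (gff_beta_integral M p) P → P' = P)
    (val₁ : ∀ (P : Place Qb ↥(modularFunctionFieldBar (M * p)))
      (Q : Place (ResidueField A) ↥(modularFunctionFieldFullC (ResidueField A) M)),
      ttrpCls M p A r (heckeAlphaBar Qb M p (grdQ M hat.c.mem)) v₁
        (heckeBetaBar Qb M p (grdQ M hat.c.mem)) v₂ P = some (Sum.inl Q) →
      ∀ (x : ↥(modularFunctionFieldBar (M * p))) (hx₁ : x ∈ ttrV1 M A hpM hA)
        (hx₂ : x ∈ ttalV2 (ttrV1 M A hpM hA) (ttrW M hpM)),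
        (∀ P' : Place Qb ↥(modularFunctionFieldBar (M * p)),
          ttrpCls M p A r (heckeAlphaBar Qb M p (grdQ M hat.c.mem)) v₁
            (heckeBetaBar Qb M p (grdQ M hat.c.mem)) v₂ P' = some (Sum.inl Q) → 0 ≤ P'.ord x) →
        ∃ α : A, GrdVal P x (α : Qb) ∧ GrdVal Q (ttrRed1 M A hA ⟨x, hx₁⟩) (residue A α))
    (val₂ : ∀ (P : Place Qb ↥(modularFunctionFieldBar (M * p)))
      (Q : Place (ResidueField A) ↥(modularFunctionFieldFullC (ResidueField A) M)),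
      ttrpCls M p A r (heckeAlphaBar Qb M p (grdQ M hat.c.mem)) v₁
        (heckeBetaBar Qb M p (grdQ M hat.c.mem)) v₂ P = some (Sum.inr Q) →
      ∀ (x : ↥(modularFunctionFieldBar (M * p))) (hx₁ : x ∈ ttrV1 M A hpM hA)
        (hx₂ : x ∈ ttalV2 (ttrV1 M A hpM hA) (ttrW M hpM)),
        (∀ P' : Place Qb ↥(modularFunctionFieldBar (M * p)),
          ttrpCls M p A r (heckeAlphaBar Qb M p (grdQ M hat.c.mem)) v₁
            (heckeBetaBar Qb M p (grdQ M hat.c.mem)) v₂ P' = some (Sum.inr Q) → 0 ≤ P'.ord x) →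
        ∃ α : A, GrdVal P x (α : Qb) ∧
          GrdVal Q (ttalRed2 (ttrV1 M A hpM hA) (ttrW M hpM) (ttrRed1 M A hA) ⟨x, hx₂⟩)
            (residue A α)) :
    ∀ (x : ↥(modularFunctionFieldBar (M * p))) (hx₁ : x ∈ ttrV1 M A hpM hA)
      (hx₂ : x ∈ ttalV2 (ttrV1 M A hpM hA) (ttrW M hpM)) (c : ResidueField A), c ≠ 0 → x ≠ 0 →
      (∀ v : Place Qb ↥(modularFunctionFieldBar (M * p)),
        ttrpCls M p A r (heckeAlphaBar Qb M p (grdQ M hat.c.mem)) v₁
          (heckeBetaBar Qb M p (grdQ M hat.c.mem)) v₂ v = none → 0 ≤ v.ord x) →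
      ttrRed1 M A hA ⟨x, hx₁⟩ =
        algebraMap (ResidueField A) ↥(modularFunctionFieldFullC (ResidueField A) M) c →
      ttalRed2 (ttrV1 M A hpM hA) (ttrW M hpM) (ttrRed1 M A hA) ⟨x, hx₂⟩ =
        algebraMap (ResidueField A) ↥(modularFunctionFieldFullC (ResidueField A) M) c →
      ∀ Dx : Divisor Qb ↥(modularFunctionFieldBar (M * p)),
        (∀ v : Place Qb ↥(modularFunctionFieldBar (M * p)), Dx v = v.ord x) →
        (∀ v : Place Qb ↥(modularFunctionFieldBar (M * p)),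
          ttrpCls M p A r (heckeAlphaBar Qb M p (grdQ M hat.c.mem)) v₁
            (heckeBetaBar Qb M p (grdQ M hat.c.mem)) v₂ v = none → Dx v = 0) ∧
        Finsupp.mapDomain (ttrpCls M p A r (heckeAlphaBar Qb M p (grdQ M hat.c.mem)) v₁
          (heckeBetaBar Qb M p (grdQ M hat.c.mem)) v₂) Dx = 0 := by
  have h₁ : TtbRed A (ttrV1 M A hpM hA).toSubring (ttrRed1 M A hA) := ttrvp_tb1 M A hpM hA
  have h₂ : TtbRed A (ttalV2 (ttrV1 M A hpM hA) (ttrW M hpM)).toSubring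
      (ttalRed2 (ttrV1 M A hpM hA) (ttrW M hpM) (ttrRed1 M A hA)) :=
    ttal_red_comap h₁ (ttrW M hpM) (ttrW_const M hpM)
  exact ttalv_const A (ttrV1 M A hpM hA) (ttalV2 (ttrV1 M A hpM hA) (ttrW M hpM))
    (ttrRed1 M A hA) (ttalRed2 (ttrV1 M A hpM hA) (ttrW M hpM) (ttrRed1 M A hA))
    (ttrpCls M p A r (heckeAlphaBar Qb M p (grdQ M hat.c.mem)) v₁
      (heckeBetaBar Qb M p (grdQ M hat.c.mem)) v₂)
    (fun x => ttal_red_ker h₁ x) (fun x => ttal_red_ker h₂ x) val₁ val₂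
    (ttrli_hw₁ M A hpM hA hat r hr v₁ _ v₂ H₁ hfib₁)
    (ttrli_hw₂ M A hpM hA hat r hr _ v₁ v₂ H₂ hfib₂)
    (ttrli_hv_cls M A hpM hA hat r v₁ v₂ H₁.v_int hv₂ hbe)

end Const

end Fermat.Agent.TT
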