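import Mathlib
import Fermat.Prelude.Def_AlgebraicCurve_Correspondence
import Fermat.Agent.G.Red.Val
import Fermat.Agent.S24.PlaceOrd

/-!
# Program TT, G/Red2 layer B, leaf (B3-abs) : THE ABSTRACT FIBRE LEMMA (prefix `ttrf`)

`K ⊂ F₀ ⊂ F` function fields, `F = F₀(y)` finite over `F₀`, `Φ` the minimal polynomial of `y` over
`F₀`, `P₁` a place of `F₀` at which the coefficients of `Φ` are regular, `a ∈ K` with
`Φ(a)(P₁) = 0` and `Φ'(a)(P₁) ≠ 0` (a SIMPLE root of the value polynomial).  Then there is exactly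
one place `P` of `F` over `P₁` with `y(P) = a`, and it is unramified over `P₁`.

Proof.  Norm formula: `∑_{P ∣ P₁} f_P · ord_P (y - a) = ord_{P₁} N(y - a) = ord_{P₁} Φ(a) =: v ≥ 1`.
For a place `P ∣ P₁` : `y ∈ 𝒪_P`; if `y(P) ≠ a` then `ord_P (y - a) = 0`; if `y(P) = a` the Taylor
expansion `0 = Φ(y) = Φ(a) + (y - a) (Φ'(a) + k (y - a))` with `Φ'(a)` a unit gives
`ord_P (y - a) = ord_P Φ(a) = e_P v`.  Hence `∑_{y(P) = a} e_P f_P = 1`.
-/

set_option autoImplicit false
set_option linter.unusedSectionVars false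
set_option linter.unusedVariables false
set_option linter.style.haveILetI false

noncomputable section

namespace Fermat.Agent.TT

open AlgebraicCurve Polynomial Fermat.Agent.G Fermat.Agent.S24

/-! ### the norm of `y - c` -/

section Norm

variable {F₀ F : Type*} [Field F₀] [Field F] [Algebra F₀ F] [FiniteDimensional F₀ F]

/-- `N_{F/F₀}(y - c) = (-1)^n Φ(c)` when `F = F₀(y)`, `Φ` the minimal polynomial of `y`. -/
theorem ttrf_norm_sub (y : F) (hgen : IntermediateField.adjoin F₀ {y} = ⊤) (c : F₀) :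
    Algebra.norm F₀ (y - algebraMap F₀ F c) =
      (-1) ^ (Module.finrank F₀ F) * (minpoly F₀ y).eval c := by
  set x : F := y - algebraMap F₀ F c with hx
  have hxint : IsIntegral F₀ x := Algebra.IsIntegral.isIntegral x
  have hxtop : IntermediateField.adjoin F₀ {x} = ⊤ := by
    rw [eq_top_iff, ← hgen, IntermediateField.adjoin_le_iff]
    rintro z hz
    rw [Set.mem_singleton_iff] at hz
    subst hz
    have h1 : x ∈ IntermediateField.adjoin F₀ {x} :=
      IntermediateField.subset_adjoin F₀ {x} (Set.mem_singleton x)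
    have h2 : algebraMap F₀ F c ∈ IntermediateField.adjoin F₀ {x} :=
      (IntermediateField.adjoin F₀ {x}).algebraMap_mem c
    have h3 := add_mem h1 h2
    rwa [hx, sub_add_cancel] at h3
  let e : ↥(IntermediateField.adjoin F₀ {x}) ≃ₐ[F₀] F :=
    (IntermediateField.equivOfEq hxtop).trans IntermediateField.topEquiv
  let pb : PowerBasis F₀ F := (IntermediateField.adjoin.powerBasis hxint).map e
  have hgenpb : pb.gen = x := by
    show (PowerBasis.map _ e).gen = x
    rw [PowerBasis.map_gen, IntermediateField.adjoin.powerBasis_gen]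
    rfl
  have h := Algebra.PowerBasis.norm_gen_eq_coeff_zero_minpoly pb
  rw [hgenpb, ← pb.finrank, hx, minpoly.sub_algebraMap, Polynomial.coeff_zero_eq_eval_zero,
    Polynomial.eval_comp] at h
  rw [h]
  congr 2
  simp

end Norm

/-! ### `ord` arithmetic -/

section Ord

variable {K F : Type*} [Field K] [Field F] [Algebra K F]

/-- `ord (f + g) = ord f` if `g = 0` or `ord f < ord g`. -/
theorem ttrf_ord_add_eq (w : Place K F) {f g : F} (hf : f ≠ 0)
    (h : g = 0 ∨ w.ord f < w.ord g) : w.ord (f + g) = w.ord f := by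
  rcases h with rfl | h
  · rw [add_zero]
  by_cases hfg : f + g = 0
  · exfalso
    have : g = -f := by
      have := eq_neg_of_add_eq_zero_right hfg
      exact this
    rw [this, PlaceOrd.ord_neg] at h
    exact lt_irrefl _ h
  have h1 := PlaceOrd.min_le_ord_add w hfg
  have h2 : min (w.ord (f + g)) (w.ord (-g)) ≤ w.ord ((f + g) + -g) :=
    PlaceOrd.min_le_ord_add w (by rwa [add_neg_cancel_right])
  rw [add_neg_cancel_right, PlaceOrd.ord_neg] at h2
  rcases le_total (w.ord f) (w.ord g) with h3 | h3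
  · rw [min_eq_left h3] at h1
    rcases le_total (w.ord (f + g)) (w.ord g) with h4 | h4
    · rw [min_eq_left h4] at h2
      omega
    · rw [min_eq_right h4] at h2
      omega
  · omega

/-- `ord ((-1)^n * z) = ord z`. -/
theorem ttrf_ord_neg_one_pow_mul (w : Place K F) (n : ℕ) (z : F) :
    w.ord ((-1) ^ n * z) = w.ord z := by
  rcases Nat.even_or_odd n with hn | hn
  · rw [hn.neg_one_pow, one_mul]
  · rw [hn.neg_one_pow, neg_one_mul, PlaceOrd.ord_neg]

end Ord

/-! ### the places over `P₁` -/

section Fibre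

variable {K F₀ F : Type*} [Field K] [Field F₀] [Field F] [Algebra K F₀] [Algebra K F]
  [Algebra F₀ F] [IsScalarTower K F₀ F] [Algebra.IsIntegral F₀ F]

/-- the coefficients of `Φ_F` lie in the valuation ring of a place over `P₁`. -/
theorem ttrf_coeffs_subset (w : Place K F) (Φ : F₀[X])
    (hcoef : ∀ i, Φ.coeff i ∈ (w.restrict F₀).toValuationSubring) :
    ((Φ.map (algebraMap F₀ F)).coeffs : Set F) ⊆ (w.toValuationSubring.toSubring : Set F) := by
  intro z hz
  rw [Finset.mem_coe, Polynomial.mem_coeffs_iff] at hz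
  obtain ⟨n, -, rfl⟩ := hz
  rw [Polynomial.coeff_map]
  exact (w.mem_restrict_iff).1 (hcoef n)

/-- a root of a monic polynomial with coefficients regular at `P₁` is regular at every place over
`P₁`. -/
theorem ttrf_root_mem (w : Place K F) (Φ : F₀[X]) (hΦ : Φ.Monic)
    (hcoef : ∀ i, Φ.coeff i ∈ (w.restrict F₀).toValuationSubring) (y : F)
    (hy : Polynomial.aeval y Φ = 0) : y ∈ w.toValuationSubring := by
  have hsub := ttrf_coeffs_subset w Φ hcoef
  set Φw := (Φ.map (algebraMap F₀ F)).toSubring w.toValuationSubring.toSubring hsub with hΦw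
  have hmonic : Φw.Monic := by
    rw [hΦw, Polynomial.monic_toSubring]
    exact hΦ.map _
  have hint : IsIntegral ↥w.toValuationSubring y := by
    refine ⟨Φw, hmonic, ?_⟩
    have h1 : Φw.map (w.toValuationSubring.toSubring.subtype) = Φ.map (algebraMap F₀ F) :=
      Polynomial.map_toSubring _ _ hsub
    have h2 : Polynomial.eval₂ (algebraMap ↥w.toValuationSubring F) y Φw =
        Polynomial.eval y (Φw.map (w.toValuationSubring.toSubring.subtype)) := by
      rw [Polynomial.eval_map]
      rfl
    rw [h2, h1, Polynomial.eval_map_algebraMap, hy]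
  obtain ⟨z, hz⟩ := IsIntegrallyClosed.isIntegral_iff.mp hint
  rw [← hz]
  exact z.2

/-- TAYLOR AT A SIMPLE ROOT : if `y(w) = a` and `Φ'(a)` is a unit at `P₁` then
`ord_w (y - a) = ord_w Φ(a)`. -/
theorem ttrf_ord_sub (w : Place K F) (Φ : F₀[X]) (hΦ : Φ.Monic)
    (hcoef : ∀ i, Φ.coeff i ∈ (w.restrict F₀).toValuationSubring) (y : F)
    (hy : Polynomial.aeval y Φ = 0) (a : K) (hya : GrdVal w y a)
    (hx0 : y - algebraMap K F a ≠ 0)
    (hd0 : Φ.derivative.eval (algebraMap K F₀ a) ≠ 0)
    (hd : (w.restrict F₀).ord (Φ.derivative.eval (algebraMap K F₀ a)) = 0) :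
    w.ord (y - algebraMap K F a) = w.ord (algebraMap F₀ F (Φ.eval (algebraMap K F₀ a))) := by
  have hym : y ∈ w.toValuationSubring := ttrf_root_mem w Φ hΦ hcoef y hy
  have hsub := ttrf_coeffs_subset w Φ hcoef
  set Φw := (Φ.map (algebraMap F₀ F)).toSubring w.toValuationSubring.toSubring hsub with hΦw
  have hmap : Φw.map (w.toValuationSubring.toSubring.subtype) = Φ.map (algebraMap F₀ F) :=
    Polynomial.map_toSubring _ _ hsub
  set a' : F := algebraMap K F a with ha'
  have ha'F : a' = algebraMap F₀ F (algebraMap K F₀ a) := by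
    rw [ha', ← IsScalarTower.algebraMap_apply]
  set x : F := y - a' with hx
  let aw : ↥w.toValuationSubring.toSubring := ⟨a', w.algebraMap_mem' a⟩
  let dw : ↥w.toValuationSubring.toSubring := ⟨x, sub_mem hym (w.algebraMap_mem' a)⟩
  obtain ⟨k, hk⟩ := Polynomial.binomExpansion Φw aw dw
  -- transport to `F`
  have hev : ∀ (p : (↥w.toValuationSubring.toSubring)[X]) (z : ↥w.toValuationSubring.toSubring),
      ((p.eval z : ↥w.toValuationSubring.toSubring) : F) =
        (p.map (w.toValuationSubring.toSubring.subtype)).eval (z : F) := by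
    intro p z
    rw [Polynomial.eval_map]
    exact (Polynomial.eval₂_at_apply (w.toValuationSubring.toSubring.subtype) z).symm
  have hkF := congrArg (fun z : ↥w.toValuationSubring.toSubring => (z : F)) hk
  rw [hev] at hkF
  push_cast at hkF
  rw [hev, hev, ← Polynomial.derivative_map, hmap] at hkF
  have h1 : ((aw : F) + (dw : F)) = y := by
    show a' + x = y
    rw [hx]; ring
  rw [h1, Polynomial.eval_map_algebraMap, hy] at hkF
  have hA : (Φ.map (algebraMap F₀ F)).eval (aw : F) =
      algebraMap F₀ F (Φ.eval (algebraMap K F₀ a)) := by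
    show (Φ.map (algebraMap F₀ F)).eval a' = _
    rw [ha'F, Polynomial.eval_map_algebraMap, Polynomial.aeval_algebraMap_apply,
      Polynomial.coe_aeval_eq_eval]
  have hB : (Φ.map (algebraMap F₀ F)).derivative.eval (aw : F) =
      algebraMap F₀ F (Φ.derivative.eval (algebraMap K F₀ a)) := by
    show (Φ.map (algebraMap F₀ F)).derivative.eval a' = _
    rw [Polynomial.derivative_map, ha'F, Polynomial.eval_map_algebraMap,
      Polynomial.aeval_algebraMap_apply, Polynomial.coe_aeval_eq_eval]
  rw [hA, hB] at hkF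
  set A : F := algebraMap F₀ F (Φ.eval (algebraMap K F₀ a)) with hAdef
  set B : F := algebraMap F₀ F (Φ.derivative.eval (algebraMap K F₀ a)) with hBdef
  have hdwx : (dw : F) = x := rfl
  rw [hdwx] at hkF
  -- `A = -x (B + k x)`
  have hAeq : A = -x * (B + (k : F) * x) := by
    have : A + B * x + (k : F) * x ^ 2 = 0 := hkF.symm
    linear_combination this
  have hB0 : B ≠ 0 := by
    rw [hBdef]
    simpa using hd0
  have hBord : w.ord B = 0 := by
    rw [hBdef, w.ord_restrict, hd, mul_zero]
  have hxpos : 0 < w.ord x := by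
    rw [← grdg_val_zero_iff_ord w hx0, grdg_val_zero_iff]
    exact hya
  have hkx : (k : F) * x = 0 ∨ w.ord B < w.ord ((k : F) * x) := by
    by_cases hk0 : (k : F) = 0
    · left; rw [hk0, zero_mul]
    · right
      rw [w.ord_mul hk0 hx0, hBord]
      have := PlaceOrd.ord_nonneg_of_mem w k.2
      omega
  have hu : w.ord (B + (k : F) * x) = 0 := by
    rw [ttrf_ord_add_eq w hB0 hkx, hBord]
  have hu0 : B + (k : F) * x ≠ 0 := by
    intro h0
    rcases hkx with h | h
    · rw [h, add_zero] at h0
      exact hB0 h0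
    · have : (k : F) * x = -B := by
        have := eq_neg_of_add_eq_zero_right h0
        exact this
      rw [this, PlaceOrd.ord_neg] at h
      exact lt_irrefl _ h
  rw [hAeq, w.ord_mul (neg_ne_zero.2 hx0) hu0, hu, add_zero, PlaceOrd.ord_neg]

end Fibre

/-! ### the main theorem -/

section Main

variable {K F₀ F : Type*} [Field K] [Field F₀] [Field F] [Algebra K F₀] [Algebra K F]
  [Algebra F₀ F] [IsScalarTower K F₀ F] [FiniteDimensional F₀ F] [HasPrincipalDivisors K F]

/-- THE ABSTRACT FIBRE LEMMA : `F = F₀(y)`, `Φ` the minimal polynomial of `y` with coefficients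
regular at `P₁`, `a ∈ K` with `Φ(a)(P₁) = 0`, `Φ'(a)(P₁) ≠ 0`.  Then there is exactly one place
`w` of `F` over `P₁` with `y(w) = a`, and `e(w | P₁) = 1`. -/
theorem ttrf_exists_unique (hN : Divisor.PushforwardNormFormula K F₀ F)
    (hf : ∀ w : Place K F, w.inertiaDeg F₀ = 1)
    (P₁ : Place K F₀) (y : F) (hgen : IntermediateField.adjoin F₀ {y} = ⊤)
    (hcoef : ∀ i, (minpoly F₀ y).coeff i ∈ P₁.toValuationSubring) (a : K)
    (hne : (minpoly F₀ y).eval (algebraMap K F₀ a) ≠ 0)
    (hroot : 0 < P₁.ord ((minpoly F₀ y).eval (algebraMap K F₀ a)))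
    (hd0 : (minpoly F₀ y).derivative.eval (algebraMap K F₀ a) ≠ 0)
    (hd : P₁.ord ((minpoly F₀ y).derivative.eval (algebraMap K F₀ a)) = 0) :
    ∃ w : Place K F, (w.restrict F₀ = P₁ ∧ GrdVal w y a ∧ w.ramificationIndex F₀ = 1) ∧
      ∀ w' : Place K F, w'.restrict F₀ = P₁ → GrdVal w' y a → w' = w := by
  classical
  set Φ := minpoly F₀ y with hΦ
  have hyint : IsIntegral F₀ y := Algebra.IsIntegral.isIntegral y
  have hmonic : Φ.Monic := minpoly.monic hyint
  have haeval : Polynomial.aeval y Φ = 0 := minpoly.aeval F₀ y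
  set c : F₀ := algebraMap K F₀ a with hc
  have hcF : algebraMap K F a = algebraMap F₀ F c := IsScalarTower.algebraMap_apply K F₀ F a
  set x : F := y - algebraMap K F a with hx
  have hx0 : x ≠ 0 := by
    intro h0
    have hya : y = algebraMap F₀ F c := by rw [← hcF]; exact sub_eq_zero.1 h0
    have h1 : algebraMap F₀ F (Φ.eval c) = 0 := by
      rw [← Polynomial.coe_aeval_eq_eval, ← Polynomial.aeval_algebraMap_apply, ← hya, haeval]
    exact hne ((map_eq_zero _).1 h1)
  set v : ℤ := P₁.ord (Φ.eval c) with hv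
  obtain ⟨D, hD, -⟩ := HasPrincipalDivisors.exists_divisor (K := K) x hx0
  have hnorm := hN x hx0 D hD P₁
  have hxc : x = y - algebraMap F₀ F c := by rw [hx, hcF]
  rw [hxc, ttrf_norm_sub y hgen c, ttrf_ord_neg_one_pow_mul, Divisor.pushforward_apply] at hnorm
  -- the places over `P₁` in the support
  have key : ∀ w : Place K F, w.restrict F₀ = P₁ → GrdVal w y a →
      w.ord x = (w.ramificationIndex F₀ : ℤ) * v := by
    intro w hw hya
    have hcoef' : ∀ i, Φ.coeff i ∈ (w.restrict F₀).toValuationSubring := by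
      rw [hw]; exact hcoef
    rw [hx, ttrf_ord_sub w Φ hmonic hcoef' y haeval a hya hx0 hd0 (by rw [hw]; exact hd),
      w.ord_restrict, hw]
  have hval : ∀ w : Place K F, w.restrict F₀ = P₁ → w.ord x ≠ 0 → GrdVal w y a := by
    intro w hw hne0
    have hcoef' : ∀ i, Φ.coeff i ∈ (w.restrict F₀).toValuationSubring := by
      rw [hw]; exact hcoef
    have hym : y ∈ w.toValuationSubring := ttrf_root_mem w Φ hmonic hcoef' y haeval
    have hxm : x ∈ w.toValuationSubring := sub_mem hym (w.algebraMap_mem' a)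
    have h0 := PlaceOrd.ord_nonneg_of_mem w hxm
    have hpos : 0 < w.ord x := lt_of_le_of_ne h0 (Ne.symm hne0)
    have := (grdg_val_zero_iff_ord w hx0).2 hpos
    rw [grdg_val_zero_iff] at this
    exact this
  set T := D.support.filter (fun w => w.restrict F₀ = P₁) with hT
  have hsum : ∑ w ∈ T, (w.ramificationIndex F₀ : ℤ) * v = v := by
    have hnorm' : (∑ w ∈ D.support, if Place.restrict F₀ w = P₁ then
        D w * (Place.inertiaDeg F₀ w : ℤ) else 0) = v := hnorm
    refine Eq.trans ?_ hnorm'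
    rw [hT, Finset.sum_filter]
    refine Finset.sum_congr rfl fun w hw => ?_
    by_cases hwr : w.restrict F₀ = P₁
    · rw [if_pos hwr, if_pos hwr, hf w, Nat.cast_one, mul_one, hD w]
      have hne0 : w.ord x ≠ 0 := by
        rw [← hD w]; exact Finsupp.mem_support_iff.1 hw
      exact (key w hwr (hval w hwr hne0)).symm
    · rw [if_neg hwr, if_neg hwr]
  have hvpos : 0 < v := hroot
  have hsum1 : (∑ w ∈ T, (w.ramificationIndex F₀ : ℤ)) = 1 := by
    rw [← Finset.sum_mul] at hsum
    have : (∑ w ∈ T, (w.ramificationIndex F₀ : ℤ)) * v = 1 * v := by rw [hsum, one_mul]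
    exact mul_right_cancel₀ (ne_of_gt hvpos) this
  have hsumN : (∑ w ∈ T, w.ramificationIndex F₀) = 1 := by
    have : ((∑ w ∈ T, w.ramificationIndex F₀ : ℕ) : ℤ) = 1 := by
      rw [Nat.cast_sum]; exact hsum1
    exact_mod_cast this
  have hcardle : T.card ≤ ∑ w ∈ T, w.ramificationIndex F₀ := by
    calc T.card = ∑ w ∈ T, 1 := by simp
      _ ≤ ∑ w ∈ T, w.ramificationIndex F₀ :=
        Finset.sum_le_sum fun w _ => w.ramificationIndex_pos (F := F₀)
  have hcard : T.card = 1 := by
    rcases Nat.eq_zero_or_pos T.card with h0 | hpos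
    · rw [Finset.card_eq_zero] at h0
      rw [h0, Finset.sum_empty] at hsumN
      exact absurd hsumN (by norm_num)
    · omega
  obtain ⟨w₀, hw₀⟩ := Finset.card_eq_one.1 hcard
  have hw₀T : w₀ ∈ T := by rw [hw₀]; exact Finset.mem_singleton_self w₀
  have hw₀r : w₀.restrict F₀ = P₁ := (Finset.mem_filter.1 hw₀T).2
  have hw₀s : w₀.ord x ≠ 0 := by
    rw [← hD w₀]; exact Finsupp.mem_support_iff.1 (Finset.mem_filter.1 hw₀T).1
  have he : w₀.ramificationIndex F₀ = 1 := by
    rw [hw₀, Finset.sum_singleton] at hsumN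
    exact hsumN
  refine ⟨w₀, ⟨hw₀r, hval w₀ hw₀r hw₀s, he⟩, ?_⟩
  intro w' hw' hya'
  have h1 := key w' hw' hya'
  have hpos : 0 < (w'.ramificationIndex F₀ : ℤ) := by
    exact_mod_cast w'.ramificationIndex_pos (F := F₀)
  have hne0 : w'.ord x ≠ 0 := by
    rw [h1]; exact ne_of_gt (mul_pos hpos hvpos)
  have hmem : w' ∈ T := by
    rw [hT, Finset.mem_filter, Finsupp.mem_support_iff, hD w']
    exact ⟨hne0, hw'⟩
  rw [hw₀, Finset.mem_singleton] at hmem
  exact hmem

end Main

/-! ### Hensel's lemma for the valuation ring of an algebraically closed field -/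

section Hensel

open IsLocalRing

variable {K : Type*} [Field K] [IsAlgClosed K] (A : ValuationSubring K)

/-- a monic polynomial over `A` whose reduction has the SIMPLE root `η` has exactly one root `a ∈ A`
over `η`, and `φ'(a)` is a unit. -/
theorem ttrf_hensel (φ : (↥A)[X]) (hφ : φ.Monic) (η : ResidueField ↥A)
    (hη : (φ.map (residue ↥A)).eval η = 0)
    (hη' : (φ.map (residue ↥A)).derivative.eval η ≠ 0) :
    ∃ a : ↥A, φ.eval a = 0 ∧ residue ↥A a = η ∧
      (∀ a' : ↥A, φ.eval a' = 0 → residue ↥A a' = η → a' = a) ∧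
      residue ↥A (φ.derivative.eval a) ≠ 0 := by
  classical
  set φK : K[X] := φ.map A.subtype with hφK
  have hmonK : φK.Monic := hφ.map _
  have hsplit : φK.Splits := IsAlgClosed.splits φK
  have hevalK : ∀ z : ↥A, φK.eval (z : K) = ((φ.eval z : ↥A) : K) := by
    intro z
    rw [hφK, Polynomial.eval_map]
    exact Polynomial.eval₂_at_apply A.subtype z
  -- every root is integral
  have hroot_mem : ∀ r ∈ φK.roots, r ∈ A := by
    intro r hr
    have hr0 : φK.eval r = 0 := (Polynomial.mem_roots hmonK.ne_zero).1 hr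
    have hint : IsIntegral ↥A r := by
      refine ⟨φ, hφ, ?_⟩
      have : Polynomial.eval₂ (algebraMap ↥A K) r φ = (φ.map A.subtype).eval r := by
        rw [Polynomial.eval_map]; rfl
      rw [this]; exact hr0
    obtain ⟨z, hz⟩ := IsIntegrallyClosed.isIntegral_iff.mp hint
    rw [← hz]; exact z.2
  obtain ⟨e, he⟩ := residue_surjective (R := ↥A) η
  -- existence
  have hex : ∃ r ∈ φK.roots, ∃ hr : r ∈ A, residue ↥A ⟨r, hr⟩ = η := by
    by_contra hcon
    have hcon : ∀ r ∈ φK.roots, ∀ hr : r ∈ A, residue ↥A ⟨r, hr⟩ ≠ η := by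
      intro r hr hrA h
      exact hcon ⟨r, hr, hrA, h⟩
    have hunit : ∀ r ∈ φK.roots, A.valuation ((e : K) - r) = 1 := by
      intro r hr
      have hrA := hroot_mem r hr
      have hne := hcon r hr hrA
      have hu : IsUnit (e - ⟨r, hrA⟩ : ↥A) := by
        rw [← notMem_maximalIdeal, ← residue_eq_zero_iff, map_sub, he, sub_eq_zero]
        exact fun h => hne h.symm
      have := (A.valuation_eq_one_iff (e - ⟨r, hrA⟩)).1 hu
      simpa using this
    have hprod : A.valuation (φK.eval (e : K)) = 1 := by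
      rw [hsplit.eval_eq_prod_roots_of_monic hmonK, map_multiset_prod, Multiset.map_map]
      apply Multiset.prod_eq_one
      intro z hz
      obtain ⟨r, hr, rfl⟩ := Multiset.mem_map.1 hz
      exact hunit r hr
    have hmem : φ.eval e ∈ maximalIdeal ↥A := by
      rw [← residue_eq_zero_iff, ← Polynomial.eval₂_at_apply, ← Polynomial.eval_map, he]
      exact hη
    have hlt : A.valuation ((φ.eval e : ↥A) : K) < 1 :=
      (A.valuation_lt_one_iff _).1 hmem
    rw [← hevalK, hprod] at hlt
    exact lt_irrefl _ hlt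
  obtain ⟨r, hr, hrA, hrη⟩ := hex
  set a : ↥A := ⟨r, hrA⟩ with ha
  have ha0 : φ.eval a = 0 := by
    apply Subtype.ext
    rw [← hevalK a]
    exact (Polynomial.mem_roots hmonK.ne_zero).1 hr
  -- `φ = (X - C a) ψ`
  obtain ⟨ψ, hψ⟩ := (Polynomial.dvd_iff_isRoot (p := φ) (a := a)).2 ha0
  have hψbar : (φ.map (residue ↥A)).derivative.eval η = (ψ.map (residue ↥A)).eval η := by
    rw [hψ, Polynomial.map_mul, Polynomial.derivative_mul, Polynomial.eval_add,
      Polynomial.eval_mul, Polynomial.eval_mul, Polynomial.map_sub, Polynomial.map_X,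
      Polynomial.map_C, hrη]
    simp
  have hψη : ∀ z : ↥A, residue ↥A z = η → residue ↥A (ψ.eval z) ≠ 0 := by
    intro z hz
    rw [← Polynomial.eval₂_at_apply, ← Polynomial.eval_map, hz, ← hψbar]
    exact hη'
  refine ⟨a, ha0, hrη, ?_, ?_⟩
  · intro a' ha' hη2
    have h1 : (a' - a) * ψ.eval a' = 0 := by
      have := ha'
      rw [hψ, Polynomial.eval_mul, Polynomial.eval_sub, Polynomial.eval_X, Polynomial.eval_C] at this
      exact this
    rcases mul_eq_zero.1 h1 with h | h
    · exact sub_eq_zero.1 h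
    · exfalso
      apply hψη a' hη2
      rw [h, map_zero]
  · have : φ.derivative.eval a = ψ.eval a := by
      rw [hψ, Polynomial.derivative_mul, Polynomial.eval_add, Polynomial.eval_mul,
        Polynomial.eval_mul]
      simp
    rw [this]
    exact hψη a hrη

end Hensel

/-! ### values of polynomial expressions -/

section Values

variable {K F : Type*} [Field K] [Field F] [Algebra K F]

theorem ttrf_val_zero (P : Place K F) : GrdVal P (0 : F) 0 := by
  have := grdg_val_algebraMap P (0 : K)
  rwa [map_zero] at this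

theorem ttrf_val_one (P : Place K F) : GrdVal P (1 : F) 1 := by
  have := grdg_val_algebraMap P (1 : K)
  rwa [map_one] at this

theorem ttrf_val_pow (P : Place K F) {x : F} {a : K} (h : GrdVal P x a) (n : ℕ) :
    GrdVal P (x ^ n) (a ^ n) := by
  induction n with
  | zero => simpa using ttrf_val_one P
  | succ n ih => rw [pow_succ, pow_succ]; exact grdg_val_mul P ih h

theorem ttrf_val_sum (P : Place K F) {ι : Type*} (s : Finset ι) (f : ι → F) (g : ι → K)
    (h : ∀ i ∈ s, GrdVal P (f i) (g i)) : GrdVal P (∑ i ∈ s, f i) (∑ i ∈ s, g i) := by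
  classical
  induction s using Finset.induction_on with
  | empty => simpa using ttrf_val_zero P
  | insert i s hi ih =>
    rw [Finset.sum_insert hi, Finset.sum_insert hi]
    exact grdg_val_add P (h i (Finset.mem_insert_self i s))
      (ih fun j hj => h j (Finset.mem_insert_of_mem hj))

/-- the value of `Φ(x)` is `φ(a)` if the coefficients of `Φ` have the coefficients of `φ` as values
and `x` has the value `a`. -/
theorem ttrf_val_eval (P : Place K F) (Φ : F[X]) (φ : K[X])
    (hcoef : ∀ i, GrdVal P (Φ.coeff i) (φ.coeff i)) {x : F} {a : K} (hx : GrdVal P x a) :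
    GrdVal P (Φ.eval x) (φ.eval a) := by
  set N := max Φ.natDegree φ.natDegree + 1 with hN
  rw [Polynomial.eval_eq_sum_range' (show Φ.natDegree < N by omega),
    Polynomial.eval_eq_sum_range' (show φ.natDegree < N by omega)]
  exact ttrf_val_sum P _ _ _ fun i _ => grdg_val_mul P (hcoef i) (ttrf_val_pow P hx i)

/-- the same for the derivative. -/
theorem ttrf_val_eval_derivative (P : Place K F) (Φ : F[X]) (φ : K[X])
    (hcoef : ∀ i, GrdVal P (Φ.coeff i) (φ.coeff i)) {x : F} {a : K} (hx : GrdVal P x a) :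
    GrdVal P (Φ.derivative.eval x) (φ.derivative.eval a) := by
  refine ttrf_val_eval P _ _ (fun i => ?_) hx
  rw [Polynomial.coeff_derivative, Polynomial.coeff_derivative]
  refine grdg_val_mul P (hcoef (i + 1)) ?_
  have := grdg_val_algebraMap P ((i : K) + 1)
  rwa [map_add, map_natCast, map_one] at this

/-- a function with a nonzero value is a unit. -/
theorem ttrf_ord_eq_zero_of_val (P : Place K F) {x : F} {b : K} (h : GrdVal P x b) (hb : b ≠ 0) :
    x ≠ 0 ∧ P.ord x = 0 := by
  have hb' : algebraMap K F b ≠ 0 := by simpa using hb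
  set m : F := x - algebraMap K F b with hm
  have hxm : x = algebraMap K F b + m := by rw [hm]; ring
  have hm' : m = 0 ∨ P.ord (algebraMap K F b) < P.ord m := by
    by_cases h0 : m = 0
    · exact Or.inl h0
    · right
      rw [PlaceOrd.ord_algebraMap]
      rw [← grdg_val_zero_iff_ord P h0, grdg_val_zero_iff]
      exact h
  have hord : P.ord x = 0 := by
    rw [hxm, ttrf_ord_add_eq P hb' hm', PlaceOrd.ord_algebraMap]
  refine ⟨?_, hord⟩
  intro hx0
  rcases hm' with h0 | h0
  · rw [hxm, h0, add_zero] at hx0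
    exact hb' hx0
  · have : m = -algebraMap K F b := by rw [hm, hx0, zero_sub]
    rw [this, PlaceOrd.ord_neg] at h0
    exact lt_irrefl _ h0

end Values

/-! ### the good place over `P₁` (integral form) -/

section Good

open IsLocalRing

variable {K F₀ F : Type*} [Field K] [Field F₀] [Field F] [Algebra K F₀] [Algebra K F]
  [Algebra F₀ F] [IsScalarTower K F₀ F] [FiniteDimensional F₀ F] [HasPrincipalDivisors K F]

/-- values go up along `F₀ ⊂ F`. -/
theorem ttrf_val_up (w : Place K F) {z : F₀} {b : K} (h : GrdVal (w.restrict F₀) z b) :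
    GrdVal w (algebraMap F₀ F z) b := by
  set z' : F₀ := z - algebraMap K F₀ b with hz'
  have h1 : algebraMap F₀ F z - algebraMap K F b = algebraMap F₀ F z' := by
    rw [hz', map_sub, ← IsScalarTower.algebraMap_apply]
  show algebraMap F₀ F z - algebraMap K F b ∈ _
  rw [h1]
  by_cases h0 : z' = 0
  · rw [h0, map_zero]; exact zero_mem _
  · have h0' : algebraMap F₀ F z' ≠ 0 := by simpa using h0
    have hpos : 0 < (w.restrict F₀).ord z' := by
      rw [← grdg_val_zero_iff_ord _ h0, grdg_val_zero_iff]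
      exact h
    rw [← grdg_val_zero_iff, grdg_val_zero_iff_ord w h0', w.ord_restrict]
    have he : 0 < (w.ramificationIndex F₀ : ℤ) := by
      exact_mod_cast w.ramificationIndex_pos (F := F₀)
    exact mul_pos he hpos

/-- THE GOOD PLACE : `A` a valuation ring of the algebraically closed `K`; the coefficients of the
minimal polynomial `Φ` of `y` have values in `A` at `P₁` (value polynomial `φ ∈ A[X]`), and `η` is a
SIMPLE root of `φ mod 𝔪`.  Then there are a unique `a ∈ A` over `η` and a unique place `w` over `P₁`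
with `y(w) = a`; `w` is unramified over `P₁`; and `w` is the only place over `P₁` at which the value
of `y` lies in `A` and reduces to `η`. -/
theorem ttrf_good_place [IsAlgClosed K] (A : ValuationSubring K)
    (hN : Divisor.PushforwardNormFormula K F₀ F)
    (hf : ∀ w : Place K F, w.inertiaDeg F₀ = 1)
    (P₁ : Place K F₀) (y : F) (hgen : IntermediateField.adjoin F₀ {y} = ⊤)
    (hdeg : 2 ≤ (minpoly F₀ y).natDegree)
    (φ : (↥A)[X]) (hφ : ∀ i, GrdVal P₁ ((minpoly F₀ y).coeff i) ((φ.coeff i : ↥A) : K))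
    (η : ResidueField ↥A) (hη : (φ.map (residue ↥A)).eval η = 0)
    (hη' : (φ.map (residue ↥A)).derivative.eval η ≠ 0) :
    ∃ (a : ↥A) (w : Place K F), residue ↥A a = η ∧ φ.eval a = 0 ∧ w.restrict F₀ = P₁ ∧
      GrdVal w y (a : K) ∧ w.ramificationIndex F₀ = 1 ∧
      ∀ (w' : Place K F) (a' : ↥A), w'.restrict F₀ = P₁ → GrdVal w' y (a' : K) →
        residue ↥A a' = η → w' = w ∧ a' = a := by
  classical
  set Φ := minpoly F₀ y with hΦ
  have hyint : IsIntegral F₀ y := Algebra.IsIntegral.isIntegral y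
  have hmonic : Φ.Monic := minpoly.monic hyint
  have haeval : Polynomial.aeval y Φ = 0 := minpoly.aeval F₀ y
  set n := Φ.natDegree with hn
  -- `φ` is monic
  have hcn : φ.coeff n = 1 := by
    apply Subtype.ext
    have h1 := hφ n
    rw [hn, hmonic.coeff_natDegree] at h1
    exact grdg_val_unique P₁ h1 (ttrf_val_one P₁)
  have hcgt : ∀ i, n < i → φ.coeff i = 0 := by
    intro i hi
    apply Subtype.ext
    have h1 := hφ i
    rw [Polynomial.coeff_eq_zero_of_natDegree_lt (hn ▸ hi)] at h1
    exact grdg_val_unique P₁ h1 (ttrf_val_zero P₁)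
  have hφdeg : φ.natDegree = n := by
    apply le_antisymm
    · exact Polynomial.natDegree_le_iff_coeff_eq_zero.2 hcgt
    · apply Polynomial.le_natDegree_of_ne_zero
      rw [hcn]; exact one_ne_zero
  have hφmonic : φ.Monic := by
    rw [Polynomial.Monic, Polynomial.leadingCoeff, hφdeg, hcn]
  obtain ⟨a, ha0, haη, hauniq, hader⟩ := ttrf_hensel A φ hφmonic η hη hη'
  set φK : K[X] := φ.map A.subtype with hφK
  have hcoefK : ∀ i, GrdVal P₁ (Φ.coeff i) (φK.coeff i) := by
    intro i
    rw [hφK, Polynomial.coeff_map]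
    exact hφ i
  have hevalK : ∀ (p : (↥A)[X]) (z : ↥A), (p.map A.subtype).eval (z : K) = ((p.eval z : ↥A) : K) := by
    intro p z
    rw [Polynomial.eval_map]
    exact Polynomial.eval₂_at_apply A.subtype z
  set c : F₀ := algebraMap K F₀ (a : K) with hc
  have hcval : GrdVal P₁ c (a : K) := grdg_val_algebraMap P₁ (a : K)
  have hval0 : GrdVal P₁ (Φ.eval c) 0 := by
    have := ttrf_val_eval P₁ Φ φK hcoefK hcval
    rwa [hφK, hevalK, ha0, ZeroMemClass.coe_zero] at this
  have hne : Φ.eval c ≠ 0 := by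
    intro h0
    have h1 := Polynomial.degree_eq_one_of_irreducible_of_root (minpoly.irreducible hyint)
      (show Polynomial.IsRoot Φ c from h0)
    have h2 : Φ.natDegree = 1 := Polynomial.natDegree_eq_of_degree_eq_some h1
    omega
  have hroot : 0 < P₁.ord (Φ.eval c) := (grdg_val_zero_iff_ord P₁ hne).1 hval0
  have hder0 : ((φ.derivative.eval a : ↥A) : K) ≠ 0 := by
    intro h0
    apply hader
    have : φ.derivative.eval a = 0 := Subtype.ext h0
    rw [this, map_zero]
  have hvald : GrdVal P₁ (Φ.derivative.eval c) ((φ.derivative.eval a : ↥A) : K) := by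
    have := ttrf_val_eval_derivative P₁ Φ φK hcoefK hcval
    rwa [hφK, Polynomial.derivative_map, hevalK] at this
  obtain ⟨hd0, hd⟩ := ttrf_ord_eq_zero_of_val P₁ hvald hder0
  have hcoef : ∀ i, Φ.coeff i ∈ P₁.toValuationSubring := fun i => grdg_val_mem P₁ (hφ i)
  obtain ⟨w, ⟨hw, hwy, he⟩, hwuniq⟩ :=
    ttrf_exists_unique hN hf P₁ y hgen hcoef (a : K) hne hroot hd0 hd
  refine ⟨a, w, haη, ha0, hw, hwy, he, ?_⟩
  intro w' a' hw' hwy' haη'
  -- `a'` is a root of `φ`
  have hcoefw : ∀ i, GrdVal w' ((Φ.map (algebraMap F₀ F)).coeff i) (φK.coeff i) := by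
    intro i
    rw [Polynomial.coeff_map]
    apply ttrf_val_up
    rw [hw']
    exact hcoefK i
  have h1 := ttrf_val_eval w' _ _ hcoefw hwy'
  rw [Polynomial.eval_map_algebraMap, haeval, hφK, hevalK] at h1
  have h2 : ((φ.eval a' : ↥A) : K) = 0 := grdg_val_unique w' h1 (ttrf_val_zero w')
  have h3 : φ.eval a' = 0 := Subtype.ext h2
  have h4 : a' = a := hauniq a' h3 haη'
  subst h4
  exact ⟨hwuniq w' hw' hwy', rfl⟩

end Good

/-! ### the fixed form -/

section Fixed

open IsLocalRing

variable {K F₀ F : Type*} [Field K] [Field F₀] [Field F] [Algebra K F₀] [Algebra K F]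
  [Algebra F₀ F] [IsScalarTower K F₀ F] [Algebra.IsIntegral F₀ F]

/-- restriction of places commutes with intertwined semilinear automorphisms. -/
theorem ttrf_restrict_smul (g₀ : SemilinearAut K F₀) (g : SemilinearAut K F)
    (hint : SemilinearAut.IntertwinesAlong (algebraMap F₀ F) g₀ g) (w : Place K F) :
    (g • w).restrict F₀ = g₀ • (w.restrict F₀) := by
  apply Place.ext
  ext x
  rw [Place.mem_restrict_iff, SemilinearAut.smul_toValuationSubring,
    SemilinearAut.smul_toValuationSubring,
    ValuationSubring.mem_pointwise_smul_iff_inv_smul_mem,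
    ValuationSubring.mem_pointwise_smul_iff_inv_smul_mem, hint.inv x, ← Place.mem_restrict_iff]

/-- values are transported by semilinear automorphisms. -/
theorem ttrf_val_smul (g : SemilinearAut K F) (w : Place K F) {x : F} {a : K}
    (h : GrdVal w x a) : GrdVal (g • w) (g • x) (SemilinearAut.baseAut g a) := by
  set m : F := x - algebraMap K F a with hm
  have h1 : g • x - algebraMap K F (SemilinearAut.baseAut g a) = g • m := by
    rw [hm, smul_sub, SemilinearAut.smul_algebraMap]
  show g • x - algebraMap K F (SemilinearAut.baseAut g a) ∈ _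
  rw [h1]
  by_cases h0 : m = 0
  · rw [h0, smul_zero]; exact zero_mem _
  · have h0' : g • m ≠ 0 := by
      intro hz
      apply h0
      have := congrArg (g⁻¹ • ·) hz
      simpa using this
    have hpos : 0 < w.ord m := by
      rw [← grdg_val_zero_iff_ord w h0, grdg_val_zero_iff]
      exact h
    rw [← grdg_val_zero_iff, grdg_val_zero_iff_ord _ h0', SemilinearAut.ord_smul]
    exact hpos

/-- FIXED FORM : the unique place over a fixed place `P₁` with a fixed value of the fixed function
`y` is fixed. -/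
theorem ttrf_fixed (P₁ : Place K F₀) (y : F) (a : K) (w : Place K F)
    (hw : w.restrict F₀ = P₁) (hwy : GrdVal w y a)
    (huniq : ∀ w' : Place K F, w'.restrict F₀ = P₁ → GrdVal w' y a → w' = w)
    (g₀ : SemilinearAut K F₀) (g : SemilinearAut K F)
    (hint : SemilinearAut.IntertwinesAlong (algebraMap F₀ F) g₀ g)
    (hgy : g • y = y) (hP₁ : g₀ • P₁ = P₁) (ha : SemilinearAut.baseAut g a = a) :
    g • w = w := by
  apply huniq
  · rw [ttrf_restrict_smul g₀ g hint, hw, hP₁]
  · have := ttrf_val_smul g w hwy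
    rwa [hgy, ha] at this

/-- FIXED FORM, integral version (for the output of `ttrf_good_place`) : if `g` acts trivially on
the residue field of `A` (inertia) then `g` fixes the good place and its value. -/
theorem ttrf_good_fixed (A : ValuationSubring K) (η : ResidueField ↥A)
    (P₁ : Place K F₀) (y : F) (a : ↥A) (w : Place K F)
    (haη : residue ↥A a = η) (hw : w.restrict F₀ = P₁) (hwy : GrdVal w y (a : K))
    (huniq : ∀ (w' : Place K F) (a' : ↥A), w'.restrict F₀ = P₁ → GrdVal w' y (a' : K) →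
      residue ↥A a' = η → w' = w ∧ a' = a)
    (g₀ : SemilinearAut K F₀) (g : SemilinearAut K F)
    (hint : SemilinearAut.IntertwinesAlong (algebraMap F₀ F) g₀ g)
    (hgy : g • y = y) (hP₁ : g₀ • P₁ = P₁)
    (hgA : SemilinearAut.baseAut g (a : K) ∈ A)
    (hres : residue ↥A ⟨SemilinearAut.baseAut g (a : K), hgA⟩ = residue ↥A a) :
    g • w = w ∧ SemilinearAut.baseAut g (a : K) = (a : K) := by
  have h1 : (g • w).restrict F₀ = P₁ := by
    rw [ttrf_restrict_smul g₀ g hint, hw, hP₁]
  have h2 : GrdVal (g • w) y ((⟨SemilinearAut.baseAut g (a : K), hgA⟩ : ↥A) : K) := by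
    have := ttrf_val_smul g w hwy
    rwa [hgy] at this
  obtain ⟨h3, h4⟩ := huniq (g • w) ⟨SemilinearAut.baseAut g (a : K), hgA⟩ h1 h2 (hres.trans haη)
  exact ⟨h3, congrArg Subtype.val h4⟩

end Fixed

/-! ### the same along a homomorphism `F₀ →ₐ[K] F` (Prelude `restrictAlong`) -/

section Along

open IsLocalRing

variable {K F₀ F : Type*} [Field K] [Field F₀] [Field F] [Algebra K F₀] [Algebra K F]
  [HasPrincipalDivisors K F]

/-- `ttrf_good_place` for the algebra structure `algebraAlong φ₀`. -/
theorem ttrf_good_place_along [IsAlgClosed K] (A : ValuationSubring K) (φ₀ : F₀ →ₐ[K] F)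
    (hφ₀ : φ₀.toRingHom.IsIntegral) (hfin : FiniteAlong K φ₀) (hN : NormFormulaAlong K φ₀ hfin)
    (hf : ∀ w : Place K F, w.inertiaDegAlong φ₀ hφ₀ = 1) (P₁ : Place K F₀) (y : F) :
    letI := algebraAlong φ₀
    IntermediateField.adjoin F₀ {y} = ⊤ → 2 ≤ (minpoly F₀ y).natDegree →
    ∀ φ : (↥A)[X], (∀ i, GrdVal P₁ ((minpoly F₀ y).coeff i) ((φ.coeff i : ↥A) : K)) →
    ∀ η : ResidueField ↥A, (φ.map (residue ↥A)).eval η = 0 →
    (φ.map (residue ↥A)).derivative.eval η ≠ 0 →
    ∃ (a : ↥A) (w : Place K F), residue ↥A a = η ∧ φ.eval a = 0 ∧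
      w.restrictAlong φ₀ hφ₀ = P₁ ∧ GrdVal w y (a : K) ∧ w.ramificationIndexAlong φ₀ = 1 ∧
      ∀ (w' : Place K F) (a' : ↥A), w'.restrictAlong φ₀ hφ₀ = P₁ → GrdVal w' y (a' : K) →
        residue ↥A a' = η → w' = w ∧ a' = a := by
  letI := algebraAlong φ₀
  haveI := isScalarTower_along φ₀
  haveI : FiniteDimensional F₀ F := hfin
  intro hgen hdeg φ hφ η hη hη'
  exact ttrf_good_place A hN hf P₁ y hgen hdeg φ hφ η hη hη'

/-- `ttrf_good_fixed` for the algebra structure `algebraAlong φ₀`. -/
theorem ttrf_good_fixed_along (A : ValuationSubring K) (φ₀ : F₀ →ₐ[K] F)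
    (hφ₀ : φ₀.toRingHom.IsIntegral) (η : ResidueField ↥A)
    (P₁ : Place K F₀) (y : F) (a : ↥A) (w : Place K F)
    (haη : residue ↥A a = η) (hw : w.restrictAlong φ₀ hφ₀ = P₁) (hwy : GrdVal w y (a : K))
    (huniq : ∀ (w' : Place K F) (a' : ↥A), w'.restrictAlong φ₀ hφ₀ = P₁ →
      GrdVal w' y (a' : K) → residue ↥A a' = η → w' = w ∧ a' = a)
    (g₀ : SemilinearAut K F₀) (g : SemilinearAut K F)
    (hint : SemilinearAut.IntertwinesAlong φ₀.toRingHom g₀ g)
    (hgy : g • y = y) (hP₁ : g₀ • P₁ = P₁)
    (hgA : SemilinearAut.baseAut g (a : K) ∈ A)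
    (hres : residue ↥A ⟨SemilinearAut.baseAut g (a : K), hgA⟩ = residue ↥A a) :
    g • w = w ∧ SemilinearAut.baseAut g (a : K) = (a : K) := by
  letI := algebraAlong φ₀
  haveI := isScalarTower_along φ₀
  haveI := isIntegral_along φ₀ hφ₀
  exact ttrf_good_fixed A η P₁ y a w haη hw hwy huniq g₀ g hint hgy hP₁ hgA hres

end Along

end Fermat.Agent.TT
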