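import Mathlib
import Fermat.Agent.TT.Red2.GoodLift
import Fermat.Agent.TT.Red2.Fib8
import Fermat.Agent.G.FF.Abs
import Fermat.Agent.G.FF.Dict

/-!
# PROGRAM TT (S33), G/Red₂ LAYER B, (B3) THE FIBRE OF THE GOOD LOCUS (owner helper6, prefix `ttrp`)

`ttrp_fib` : the instance of helper8's abstract fibre lemma `ttrf_good_place_along` (TT/Red2/Fib8)
for a KRONECKER DATUM : `φ : F₀ = F_ℚ̄(M) → F = F_ℚ̄(M p)` finite, `j₀ ∈ F₀`, `Y ∈ F` with `F = φ(F₀)(Y)`,
`Φ ∈ 𝔸[X][T]` (inner variable `X ↔ j₀`, outer variable `T ↔ Y`) with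
`minpoly_{F₀} Y = Φ(j₀, T)` and `Φ ≡ (T - X^p)(T^p - X) mod 𝔪_𝔸`, `v = Y^p - φ j₀`.

For a place `P₀` of `F₀` in the chart `u₀` with `j₀(P₀) = J₀ ∈ 𝔸` and `J̄₀^{p²} ≠ J̄₀` :
there is EXACTLY ONE good place `P` (in the chart `φ u₀`, `v(P) ∉ 𝔪_𝔸`) over `P₀`, and it is
unramified over `P₀`.  (`Y(P)` is the unique root of `Φ(J₀, T)` congruent to `J₀^p`.)
-/

set_option autoImplicit false
set_option linter.unusedSectionVars false
set_option linter.unusedVariables false
set_option linter.style.haveILetI false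
set_option synthInstance.maxHeartbeats 400000

noncomputable section

namespace Fermat.Agent.TT

open ModularCurve AlgebraicCurve IsLocalRing Polynomial Fermat.Agent.S18 Fermat.Agent.S24
  Fermat.Agent.G Fermat.Agent.FF Fermat.Agent.S05

local notation "Qb" => AlgebraicClosure ℚ

section Kron

variable {k : Type*} [Field k]

/-- the value polynomial of Kronecker's polynomial at `X = c`. -/
theorem ttrp_kron_eval (p : ℕ) (c : k) :
    (((X - C (X ^ p)) * (X ^ p - C X) : k[X][X])).map (evalRingHom c) =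
      (X - C (c ^ p)) * (X ^ p - C c) := by
  simp [Polynomial.map_mul, Polynomial.map_sub, Polynomial.map_pow]

/-- `c^p` is a root of `(T - c^p)(T^p - c)` ... -/
theorem ttrp_kron_root (p : ℕ) (c : k) :
    ((X - C (c ^ p)) * (X ^ p - C c) : k[X]).eval (c ^ p) = 0 := by
  simp

/-- ... with derivative `c^{p²} - c` there. -/
theorem ttrp_kron_deriv (p : ℕ) (c : k) :
    ((X - C (c ^ p)) * (X ^ p - C c) : k[X]).derivative.eval (c ^ p) = c ^ (p ^ 2) - c := by
  rw [derivative_mul]
  simp only [derivative_sub, derivative_X, derivative_C, sub_zero, one_mul, eval_add, eval_mul,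
    eval_sub, eval_X, eval_C, eval_pow, sub_self, zero_mul, add_zero]
  rw [← pow_mul, pow_two]

/-- the roots of `(T - c^p)(T^p - c)`. -/
theorem ttrp_kron_cases (p : ℕ) (c b : k)
    (h : ((X - C (c ^ p)) * (X ^ p - C c) : k[X]).eval b = 0) : b = c ^ p ∨ b ^ p = c := by
  simp only [eval_mul, eval_sub, eval_X, eval_C, eval_pow] at h
  rcases mul_eq_zero.mp h with h | h
  · exact Or.inl (sub_eq_zero.mp h)
  · exact Or.inr (sub_eq_zero.mp h)

end Kron

section Fib

variable {M p : ℕ} [NeZero M] [NeZero p]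
variable {A : ValuationSubring Qb}

/-- inertia degrees along `φ` are one (algebraically closed constants). -/
theorem ttrp_inertiaDegAlong
    (φ : modularFunctionFieldBar M →ₐ[Qb] modularFunctionFieldBar (M * p))
    (hφ : φ.toRingHom.IsIntegral) (hfin : FiniteAlong Qb φ)
    (w : Place Qb (modularFunctionFieldBar (M * p))) : w.inertiaDegAlong φ hφ = 1 := by
  letI := algebraAlong φ
  haveI := isScalarTower_along φ
  haveI : Module.Finite (modularFunctionFieldBar M) (modularFunctionFieldBar (M * p)) := hfin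
  exact gffa_inertiaDeg_eq_one (isSepGen_jBar (N := M)) w

/-- (B3) THE FIBRE OF THE GOOD LOCUS over a place of level `M` with good reduction. -/
theorem ttrp_fib (φ : modularFunctionFieldBar M →ₐ[Qb] modularFunctionFieldBar (M * p))
    (hφ : φ.toRingHom.IsIntegral) (hfin : FiniteAlong Qb φ)
    (j₀ u₀ : modularFunctionFieldBar M) (Y : modularFunctionFieldBar (M * p))
    (Φ : (↥A)[X][X])
    (hkron : Φ.map (mapRingHom (residue ↥A)) = (X - C (X ^ p)) * (X ^ p - C X))
    (hgen : letI := algebraAlong φ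
      IntermediateField.adjoin (modularFunctionFieldBar M) {Y} = ⊤)
    (hmin : letI := algebraAlong φ
      ∀ i, (minpoly (modularFunctionFieldBar M) Y).coeff i =
        (Φ.coeff i).eval₂ (grdInclA M A) j₀)
    (hdeg : letI := algebraAlong φ
      2 ≤ (minpoly (modularFunctionFieldBar M) Y).natDegree)
    (hYint : Y ∈ grdB (M * p) A (φ u₀))
    (P₀ : Place Qb (modularFunctionFieldBar M)) (hP₀ : GrdInChart M A u₀ P₀)
    (J₀ : ↥A) (hJ₀ : GrdVal P₀ j₀ (J₀ : Qb))
    (hgood : residue ↥A J₀ ^ (p ^ 2) ≠ residue ↥A J₀) :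
    ∃ P : Place Qb (modularFunctionFieldBar (M * p)),
      TtrpGoodC M p A (φ u₀) (Y ^ p - φ j₀) P ∧ ttrpRes M p φ hφ P = P₀ ∧
      P.ramificationIndexAlong φ = 1 ∧
      ∀ P' : Place Qb (modularFunctionFieldBar (M * p)),
        TtrpGoodC M p A (φ u₀) (Y ^ p - φ j₀) P' → ttrpRes M p φ hφ P' = P₀ → P' = P := by
  classical
  haveI : HasPrincipalDivisors Qb (modularFunctionFieldBar (M * p)) :=
    (isSepGen_jBar (N := M * p)).hasPrincipalDivisors
  have hN : NormFormulaAlong Qb φ hfin := gffa_along_normFormula φ hfin (isSepGen_jBar (N := M))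
  set c : ResidueField ↥A := residue ↥A J₀ with hc
  -- the value polynomial
  set φv : (↥A)[X] := Φ.map (evalRingHom J₀) with hφv
  have hφvcoeff : ∀ i, φv.coeff i = (Φ.coeff i).eval J₀ := by
    intro i
    rw [hφv, coeff_map, coe_evalRingHom]
  have hval : letI := algebraAlong φ
      ∀ i, GrdVal P₀ ((minpoly (modularFunctionFieldBar M) Y).coeff i)
        ((φv.coeff i : ↥A) : Qb) := by
    intro i
    rw [hmin i, hφvcoeff]
    have h1 := grdr_val_eval₂ P₀ (grdInclA M A) A.subtype
      (fun r => grdg_val_algebraMap P₀ (r : Qb)) hJ₀ (Φ.coeff i)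
    have h2 : (Φ.coeff i).eval₂ A.subtype (J₀ : Qb) = (((Φ.coeff i).eval J₀ : ↥A) : Qb) :=
      Polynomial.eval₂_at_apply A.subtype J₀
    rw [h2] at h1
    exact h1
  -- its reduction is Kronecker's polynomial at `c`
  have hred : φv.map (residue ↥A) = (X - C (c ^ p)) * (X ^ p - C c) := by
    have h1 : (residue ↥A).comp (evalRingHom J₀) =
        (evalRingHom c).comp (mapRingHom (residue ↥A)) := by
      apply Polynomial.ringHom_ext
      · intro a
        simp
      · simp [hc]
    rw [hφv, Polynomial.map_map, h1, ← Polynomial.map_map, hkron, ttrp_kron_eval]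
  have hη : (φv.map (residue ↥A)).eval (c ^ p) = 0 := by
    rw [hred]; exact ttrp_kron_root p c
  have hη' : (φv.map (residue ↥A)).derivative.eval (c ^ p) ≠ 0 := by
    rw [hred, ttrp_kron_deriv]
    exact sub_ne_zero.mpr hgood
  obtain ⟨a, w, haη, ha0, hwP₀, hwY, hwe, hwuniq⟩ :=
    ttrf_good_place_along A φ hφ hfin hN (ttrp_inertiaDegAlong φ hφ hfin) P₀ Y hgen hdeg φv
      hval (c ^ p) hη hη'
  -- values at a place over `P₀`
  have hvalv : ∀ (P : Place Qb (modularFunctionFieldBar (M * p))) (b : ↥A),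
      ttrpRes M p φ hφ P = P₀ → GrdVal P Y (b : Qb) →
      GrdVal P (Y ^ p - φ j₀) ((b ^ p - J₀ : ↥A) : Qb) := by
    intro P b hP hb
    have h1 : GrdVal P (φ j₀) (J₀ : Qb) := by
      rw [← ttrp_val_res φ hφ P]
      have : P.restrictAlong φ hφ = P₀ := hP
      rw [this]
      exact hJ₀
    have h2 := grdr_val_sub P (grda_val_pow P hb p) h1
    simpa using h2
  have hchart : ∀ P : Place Qb (modularFunctionFieldBar (M * p)),
      ttrpRes M p φ hφ P = P₀ → GrdInChart (M * p) A (φ u₀) P := by
    intro P hP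
    rw [← ttrp_inChart_res hφ u₀ P, hP]
    exact hP₀
  refine ⟨w, ⟨hchart w hwP₀, ?_⟩, hwP₀, hwe, ?_⟩
  · -- `v(w) = a^p - J₀` is a unit
    rintro ⟨b, hb, hvb⟩
    have h1 := hvalv w a hwP₀ hwY
    have h2 : ((a ^ p - J₀ : ↥A) : Qb) = b := grdg_val_unique w h1 hvb
    rw [ValuationSubring.mem_nonunits_iff_exists_mem_maximalIdeal] at hb
    obtain ⟨hbA, hbm⟩ := hb
    have h3 : (a ^ p - J₀ : ↥A) = ⟨b, hbA⟩ := Subtype.ext h2
    have h4 : residue ↥A (a ^ p - J₀) = 0 := by
      rw [h3]; exact (residue_eq_zero_iff _).mpr hbm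
    rw [map_sub, map_pow, haη, ← pow_mul, ← pow_two] at h4
    exact hgood (sub_eq_zero.mp h4)
  · -- uniqueness
    intro P' hP' hP'P₀
    obtain ⟨a', ha'⟩ := ttrp_val_exists (M * p) A _ P' hP'.1 hYint
    -- `a'` is a root of `φv`
    have hroot : φv.eval a' = 0 := by
      letI := algebraAlong φ
      have haeval : Polynomial.aeval Y (minpoly (modularFunctionFieldBar M) Y) = 0 :=
        minpoly.aeval _ Y
      -- value of `Φ(j₀, Y)` at `P'`
      have hcoefv : ∀ i, GrdVal P'
          (algebraMap (modularFunctionFieldBar M) (modularFunctionFieldBar (M * p))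
            ((minpoly (modularFunctionFieldBar M) Y).coeff i)) ((φv.coeff i : ↥A) : Qb) := by
        intro i
        have h1 := hval i
        rw [← hP'P₀] at h1
        exact (ttrp_val_res φ hφ P' _ _).mp h1
      have hsum : GrdVal P'
          (Polynomial.aeval Y (minpoly (modularFunctionFieldBar M) Y))
          ((φv.map A.subtype).eval (a' : Qb)) := by
        rw [Polynomial.aeval_eq_sum_range]
        have hdeg' : (φv.map A.subtype).natDegree ≤
            (minpoly (modularFunctionFieldBar M) Y).natDegree := by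
          apply Polynomial.natDegree_le_iff_coeff_eq_zero.2
          intro i hi
          rw [coeff_map]
          have h1 := hval i
          rw [Polynomial.coeff_eq_zero_of_natDegree_lt hi] at h1
          have h2 : ((φv.coeff i : ↥A) : Qb) = 0 := grdg_val_unique P₀ h1 (ttrf_val_zero P₀)
          exact h2
        rw [Polynomial.eval_eq_sum_range' (Nat.lt_succ_of_le hdeg')]
        apply ttrf_val_sum
        intro i _
        rw [Algebra.smul_def, coeff_map]
        exact grdg_val_mul P' (hcoefv i) (grda_val_pow P' ha' i)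
      rw [haeval] at hsum
      have h0 : (φv.map A.subtype).eval (a' : Qb) = 0 :=
        (grdg_val_unique P' hsum (ttrf_val_zero P')).symm ▸ rfl
      have h1 : (φv.map A.subtype).eval (a' : Qb) = ((φv.eval a' : ↥A) : Qb) := by
        rw [Polynomial.eval_map]
        exact Polynomial.eval₂_at_apply A.subtype a'
      rw [h1] at h0
      exact Subtype.ext h0
    -- the residue of `a'` is `c^p`
    have hres : residue ↥A a' = c ^ p := by
      have h1 : (φv.map (residue ↥A)).eval (residue ↥A a') = 0 := by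
        rw [Polynomial.eval_map, Polynomial.eval₂_hom, hroot, map_zero]
      rw [hred] at h1
      rcases ttrp_kron_cases p c _ h1 with h | h
      · exact h
      · exfalso
        apply hP'.2
        have h2 := hvalv P' a' hP'P₀ ha'
        refine ⟨_, ?_, h2⟩
        rw [ValuationSubring.mem_nonunits_iff_exists_mem_maximalIdeal]
        refine ⟨(a' ^ p - J₀ : ↥A).2, ?_⟩
        rw [← residue_eq_zero_iff]
        rw [map_sub, map_pow, h, sub_self]
    exact (hwuniq P' a' hP'P₀ ha' hres).1

end Fib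

end Fermat.Agent.TT
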