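import Mathlib
import Fermat.Agent.TT.Red2.GoodFibInst
import Fermat.Agent.G.Red.DivFormula

/-!
# PROGRAM TT (S33), G/Red₂ LAYER B : `(B3)` in the shape `hfib` of `ttrp_exists_fixed_good`, and
THE INERTIA-FIXED GOOD LIFTS from a Kronecker datum (owner helper6, prefix `ttrp`)

`TtrpKron M p A φ j₀ Y` : the Kronecker datum of `GoodFibInst.lean` (`Φ`, `hkron`, `hgen`, `hmin`,
`hdeg`) as one `Prop`.  `ttrpGoodQ M p A j̄ Q` : the GOOD POINTS of `F_k(M)` :
`j̄(Q) = c` with `c^{p²} ≠ c`.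

* `ttrp_hfib` : for `P₀` with `r P₀` in the chart and good : exactly one good place over `P₀`;
* `ttrp_exists_fixed_good_kron` : every good `Q` off the bad set of level `M` is the reduction of
  an inertia-fixed good place of level `M p`.
-/

set_option autoImplicit false
set_option linter.unusedSectionVars false
set_option linter.unusedVariables false
set_option linter.style.haveILetI false
set_option synthInstance.maxHeartbeats 400000

noncomputable section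

namespace Fermat.Agent.TT

open ModularCurve AlgebraicCurve IsLocalRing Polynomial Fermat.Agent.S18 Fermat.Agent.S24
  Fermat.Agent.G Fermat.Agent.FF Fermat.Agent.S05

local notation "Qb" => AlgebraicClosure ℚ

section Glue

variable (M p : ℕ) [NeZero M] [NeZero p] {ℓ : ℕ} [Fact ℓ.Prime]
variable (A : ValuationSubring Qb)
variable {τ τ' : LaurentSeries ℤ}

/-- THE KRONECKER DATUM for `(φ, j₀, Y)` : `Φ ∈ 𝔸[X][T]` with `minpoly_{F₀} Y = Φ(j₀, T)`,
`F = φ(F₀)(Y)`, `Φ ≡ (T - X^p)(T^p - X) mod 𝔪_𝔸`. -/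
def TtrpKron (φ : modularFunctionFieldBar M →ₐ[Qb] modularFunctionFieldBar (M * p))
    (j₀ : modularFunctionFieldBar M) (Y : modularFunctionFieldBar (M * p)) : Prop :=
  letI := algebraAlong φ
  ∃ Φ : (↥A)[X][X],
    Φ.map (mapRingHom (residue ↥A)) = (X - C (X ^ p)) * (X ^ p - C X) ∧
    IntermediateField.adjoin (modularFunctionFieldBar M) {Y} = ⊤ ∧
    (∀ i, (minpoly (modularFunctionFieldBar M) Y).coeff i =
      (Φ.coeff i).eval₂ (grdInclA M A) j₀) ∧
    2 ≤ (minpoly (modularFunctionFieldBar M) Y).natDegree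

/-- GOOD POINTS of `F_k(M)` : `j̄(Q) = c` with `c^{p²} ≠ c`. -/
def ttrpGoodQ (jb : modularFunctionFieldFullC (ResidueField A) M)
    (Q : Place (ResidueField A) (modularFunctionFieldFullC (ResidueField A) M)) : Prop :=
  ∃ c : ResidueField A, GrdVal Q jb c ∧ c ^ (p ^ 2) ≠ c

variable {M p A}

/-- `(B3)` in the shape `hfib`. -/
theorem ttrp_hfib (hℓM : ¬ ℓ ∣ M) (hA : A.LiesOverPrime ℓ) (hat : GrdAtlas M A τ τ')
    (r : Place Qb (modularFunctionFieldBar M) →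
      Place (ResidueField A) (modularFunctionFieldFullC (ResidueField A) M))
    (hr : GrdIsRed M A hat.c.mem hat.c'.mem r)
    (φ : modularFunctionFieldBar M →ₐ[Qb] modularFunctionFieldBar (M * p))
    (hφ : φ.toRingHom.IsIntegral) (hfin : FiniteAlong Qb φ)
    (j₀ : modularFunctionFieldBar M) (hj₀ : j₀ ∈ grdO M A)
    (hj₀int : GrdIsInt M A (grdQ M hat.c.mem) j₀)
    (Y : modularFunctionFieldBar (M * p)) (hK : TtrpKron M p A φ j₀ Y)
    (hYint : Y ∈ grdB (M * p) A (φ (grdQ M hat.c.mem)))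
    (P₀ : Place Qb (modularFunctionFieldBar M))
    (hQ : grdK M A hat.c.mem ∈ (r P₀).toValuationSubring)
    (hgood : ttrpGoodQ M p A (grdRed M A ⟨j₀, hj₀⟩) (r P₀)) :
    ∃ P : Place Qb (modularFunctionFieldBar (M * p)),
      TtrpGoodC M p A (φ (grdQ M hat.c.mem)) (Y ^ p - φ j₀) P ∧ ttrpRes M p φ hφ P = P₀ ∧
      ∀ P' : Place Qb (modularFunctionFieldBar (M * p)),
        TtrpGoodC M p A (φ (grdQ M hat.c.mem)) (Y ^ p - φ j₀) P' →
          ttrpRes M p φ hφ P' = P₀ → P' = P := by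
  obtain ⟨Φ, hkron, hgen, hmin, hdeg⟩ := hK
  obtain ⟨hP₀c, hP₀rel⟩ := (grdf_fibre M A hℓM hA hat r hr (r P₀) hQ P₀).mp rfl
  obtain ⟨J₀, hJ₀⟩ := grd_val_exists M A hat.c P₀ hP₀c hj₀int
  obtain ⟨c, hc, hcne⟩ := hgood
  have h1 := hP₀rel j₀ hj₀ hj₀int J₀ hJ₀
  have hcJ : residue ↥A J₀ = c := grdg_val_unique (r P₀) h1 hc
  obtain ⟨P, hPg, hPP₀, -, hPuniq⟩ := ttrp_fib φ hφ hfin j₀ (grdQ M hat.c.mem) Y Φ hkron hgen
    hmin hdeg hYint P₀ hP₀c J₀ hJ₀ (by rw [hcJ]; exact hcne)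
  exact ⟨P, hPg, hPP₀, hPuniq⟩

/-- INERTIA-FIXED GOOD LIFTS from a Kronecker datum : every good `Q` off the bad set of level `M`
is the reduction of an inertia-fixed good place of level `M p`. -/
theorem ttrp_exists_fixed_good_kron (hℓM : ¬ ℓ ∣ M) (hA : A.LiesOverPrime ℓ)
    (hat : GrdAtlas M A τ τ')
    (r : Place Qb (modularFunctionFieldBar M) →
      Place (ResidueField A) (modularFunctionFieldFullC (ResidueField A) M))
    (hr : GrdIsRed M A hat.c.mem hat.c'.mem r)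
    (S : Set (Qb ≃ₐ[ℚ] Qb)) (hS : ∀ σ ∈ S, IsInertial A σ)
    (hW : ∀ c : ResidueField A, ∃ α : A, residue A α = c ∧ ∀ σ ∈ S, σ (α : Qb) = α)
    (φ : modularFunctionFieldBar M →ₐ[Qb] modularFunctionFieldBar (M * p))
    (hφ : φ.toRingHom.IsIntegral) (hfin : FiniteAlong Qb φ)
    (hint : ∀ σ ∈ S,
      SemilinearAut.IntertwinesAlong φ.toRingHom (ffipG M σ) (ffipG (M * p) σ))
    (j₀ : modularFunctionFieldBar M) (hj₀ : j₀ ∈ grdO M A)
    (hj₀int : GrdIsInt M A (grdQ M hat.c.mem) j₀)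
    (Y : modularFunctionFieldBar (M * p)) (hK : TtrpKron M p A φ j₀ Y)
    (hYint : Y ∈ grdB (M * p) A (φ (grdQ M hat.c.mem)))
    (hv : ∀ σ ∈ S, ffipG (M * p) σ • (Y ^ p - φ j₀) = Y ^ p - φ j₀)
    (Q : Place (ResidueField A) (modularFunctionFieldFullC (ResidueField A) M))
    (hQ : Q ∉ ffipBad M A hat)
    (hgood : ttrpGoodQ M p A (grdRed M A ⟨j₀, hj₀⟩) Q) :
    ∃ P : Place Qb (modularFunctionFieldBar (M * p)),
      P ∈ ttrpS M p A φ hφ r (φ (grdQ M hat.c.mem)) (Y ^ p - φ j₀) Q ∧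
        ∀ σ ∈ S, ffipG (M * p) σ • P = P := by
  refine ttrp_exists_fixed_good M p hℓM hA hat r hr S hS hW φ hφ hint _ _
    (fun σ hσ => ttrp_coord_fixed M p σ φ (hint σ hσ) hat.c.mem) hv
    (fun Q' => grdK M A hat.c.mem ∈ Q'.toValuationSubring ∧
      ttrpGoodQ M p A (grdRed M A ⟨j₀, hj₀⟩) Q') ?_ Q hQ
    ⟨ffip_mem_of_not_bad M A hat Q hQ, hgood⟩
  intro P₀ hP₀
  exact ttrp_hfib hℓM hA hat r hr φ hφ hfin j₀ hj₀ hj₀int Y hK hYint P₀ hP₀.1 hP₀.2

end Glue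

end Fermat.Agent.TT
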