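import Mathlib
import Fermat.Agent.TT.Red2.Unif8
import Fermat.Agent.TT.Red2.GoodFibGlue
import Fermat.Agent.TT.Red2.Cls
import Fermat.Agent.TT.Red2.ChartAll

/-!
# Program TT, G/Red2 layer B, leaf (HW) : THE INPUTS `(HW₁)`, `(HW₂)` OF `ttalv_const` ON `ttrpCls`
(prefix `ttrf`)

* `ttrf_goodC_good` : a GOOD place `P` of the chart (helper6's `TtrpGoodC`, `v = Y^p - φ j₀`) lies
  over a place `P₀` of level `M` with GOOD REDUCTION : `J₀ = j₀(P₀)` has `J̄₀^{p²} ≠ J̄₀`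
  (Kronecker congruence : `Ȳ(P)` is a root of `(T - J̄₀^p)(T^p - J̄₀)`, not of the second factor);
* `ttrf_hfib_kron` : `(B3)` in the `∀`-form used by `ttrf_unif_index`, from a Kronecker datum
  (helper6's `ttrp_fib`);
* `ttrf_hw_disc` : the one-zero function of a place of the good disc `ttrpS … Q`, disc form;
* `ttrf_hw₁`, `ttrf_hw₂` : **the hypotheses `hW₁`, `hW₂` of helper15's `ttalv_const` VERBATIM** for
  `cls = ttrpCls M p A r (α τ) v₁ (β τ) v₂`, `v₁ = Y₁^p - α j₀`, `v₂ = Y₂^p - β j₀`, at helper12's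
  rings `V₁ = grdO (M p) A`, `red₁ = ttrRed1`, `V₂ = ttrV2`, `red₂ = ttrRed2`.
-/

set_option autoImplicit false
set_option linter.unusedSectionVars false
set_option linter.unusedVariables false
set_option linter.style.haveILetI false
set_option synthInstance.maxHeartbeats 400000

noncomputable section

namespace Fermat.Agent.TT

open ModularCurve AlgebraicCurve IsLocalRing Polynomial Fermat.Agent.S18 Fermat.Agent.S24
  Fermat.Agent.G Fermat.Agent.FF Fermat.Agent.S05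

local notation "Qb" => AlgebraicClosure ℚ

section Good

variable {M p : ℕ} [NeZero M] [NeZero p]
variable {A : ValuationSubring Qb}

/-- A GOOD PLACE LIES OVER A PLACE WITH GOOD REDUCTION. -/
theorem ttrf_goodC_good (φ : modularFunctionFieldBar M →ₐ[Qb] modularFunctionFieldBar (M * p))
    (hφ : φ.toRingHom.IsIntegral)
    (j₀ u₀ : modularFunctionFieldBar M) (Y : modularFunctionFieldBar (M * p))
    (Φ : (↥A)[X][X])
    (hkron : Φ.map (mapRingHom (residue ↥A)) = (X - C (X ^ p)) * (X ^ p - C X))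
    (hmin : letI := algebraAlong φ
      ∀ i, (minpoly (modularFunctionFieldBar M) Y).coeff i =
        (Φ.coeff i).eval₂ (grdInclA M A) j₀)
    (hYint : Y ∈ grdB (M * p) A (φ u₀))
    (P₀ : Place Qb (modularFunctionFieldBar M))
    (J₀ : ↥A) (hJ₀ : GrdVal P₀ j₀ (J₀ : Qb))
    (P : Place Qb (modularFunctionFieldBar (M * p)))
    (hPg : TtrpGoodC M p A (φ u₀) (Y ^ p - φ j₀) P) (hPP₀ : ttrpRes M p φ hφ P = P₀) :
    residue ↥A J₀ ^ (p ^ 2) ≠ residue ↥A J₀ := by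
  classical
  set c : ResidueField ↥A := residue ↥A J₀ with hc
  -- the value polynomial
  set φv : (↥A)[X] := Φ.map (evalRingHom J₀) with hφv
  have hφvcoeff : ∀ i, φv.coeff i = (Φ.coeff i).eval J₀ := by
    intro i
    rw [hφv, coeff_map, coe_evalRingHom]
  have hval : letI := algebraAlong φ
      ∀ i, GrdVal P₀ ((minpoly (modularFunctionFieldBar M) Y).coeff i)
        ((φv.coeff i : ↥A) : Qb) := by
    intro i
    rw [hmin i, hφvcoeff]
    have h1 := grdr_val_eval₂ P₀ (grdInclA M A) A.subtype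
      (fun r => grdg_val_algebraMap P₀ (r : Qb)) hJ₀ (Φ.coeff i)
    have h2 : (Φ.coeff i).eval₂ A.subtype (J₀ : Qb) = (((Φ.coeff i).eval J₀ : ↥A) : Qb) :=
      Polynomial.eval₂_at_apply A.subtype J₀
    rw [h2] at h1
    exact h1
  -- its reduction is Kronecker's polynomial at `c`
  have hred : φv.map (residue ↥A) = (X - C (c ^ p)) * (X ^ p - C c) := by
    have h1 : (residue ↥A).comp (evalRingHom J₀) =
        (evalRingHom c).comp (mapRingHom (residue ↥A)) := by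
      apply Polynomial.ringHom_ext
      · intro a
        simp
      · simp [hc]
    rw [hφv, Polynomial.map_map, h1, ← Polynomial.map_map, hkron, ttrp_kron_eval]
  -- the value of `Y` at `P`
  obtain ⟨a', ha'⟩ := ttrp_val_exists (M * p) A _ P hPg.1 hYint
  have hvalv : GrdVal P (Y ^ p - φ j₀) ((a' ^ p - J₀ : ↥A) : Qb) := by
    have h1 : GrdVal P (φ j₀) (J₀ : Qb) := by
      rw [← ttrp_val_res φ hφ P]
      have : P.restrictAlong φ hφ = P₀ := hPP₀
      rw [this]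
      exact hJ₀
    have h2 := grdr_val_sub P (grda_val_pow P ha' p) h1
    simpa using h2
  -- `a'` is a root of `φv`
  have hroot : φv.eval a' = 0 := by
    letI := algebraAlong φ
    have haeval : Polynomial.aeval Y (minpoly (modularFunctionFieldBar M) Y) = 0 :=
      minpoly.aeval _ Y
    have hcoefv : ∀ i, GrdVal P
        (algebraMap (modularFunctionFieldBar M) (modularFunctionFieldBar (M * p))
          ((minpoly (modularFunctionFieldBar M) Y).coeff i)) ((φv.coeff i : ↥A) : Qb) := by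
      intro i
      have h1 := hval i
      rw [← hPP₀] at h1
      exact (ttrp_val_res φ hφ P _ _).mp h1
    have hsum : GrdVal P
        (Polynomial.aeval Y (minpoly (modularFunctionFieldBar M) Y))
        ((φv.map A.subtype).eval (a' : Qb)) := by
      rw [Polynomial.aeval_eq_sum_range]
      have hdeg' : (φv.map A.subtype).natDegree ≤
          (minpoly (modularFunctionFieldBar M) Y).natDegree := by
        apply Polynomial.natDegree_le_iff_coeff_eq_zero.2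
        intro i hi
        rw [coeff_map]
        have h1 := hval i
        rw [Polynomial.coeff_eq_zero_of_natDegree_lt hi] at h1
        have h2 : ((φv.coeff i : ↥A) : Qb) = 0 := grdg_val_unique P₀ h1 (ttrf_val_zero P₀)
        exact h2
      rw [Polynomial.eval_eq_sum_range' (Nat.lt_succ_of_le hdeg')]
      apply ttrf_val_sum
      intro i _
      rw [Algebra.smul_def, coeff_map]
      exact grdg_val_mul P (hcoefv i) (grda_val_pow P ha' i)
    rw [haeval] at hsum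
    have h0 : (φv.map A.subtype).eval (a' : Qb) = 0 :=
      (grdg_val_unique P hsum (ttrf_val_zero P)).symm ▸ rfl
    have h1 : (φv.map A.subtype).eval (a' : Qb) = ((φv.eval a' : ↥A) : Qb) := by
      rw [Polynomial.eval_map]
      exact Polynomial.eval₂_at_apply A.subtype a'
    rw [h1] at h0
    exact Subtype.ext h0
  -- `a'^p - J₀` is a unit of `A`
  have hunit : residue ↥A (a' ^ p - J₀) ≠ 0 := by
    intro h0
    apply hPg.2
    refine ⟨_, ?_, hvalv⟩
    rw [ValuationSubring.mem_nonunits_iff_exists_mem_maximalIdeal]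
    exact ⟨(a' ^ p - J₀ : ↥A).2, (residue_eq_zero_iff _).mp h0⟩
  -- the residue of `a'` is `c^p`
  have hres : residue ↥A a' = c ^ p := by
    have h1 : (φv.map (residue ↥A)).eval (residue ↥A a') = 0 := by
      rw [Polynomial.eval_map, Polynomial.eval₂_hom, hroot, map_zero]
    rw [hred] at h1
    rcases ttrp_kron_cases p c _ h1 with h | h
    · exact h
    · exfalso
      apply hunit
      rw [map_sub, map_pow, h, sub_self]
  intro hbad
  apply hunit
  rw [map_sub, map_pow, hres, ← pow_mul, ← pow_two, hbad, sub_self]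

/-- `(B3)` IN THE `∀`-FORM : over a place `P₀` of the chart, a good place is unramified and is the
only good place over `P₀`. -/
theorem ttrf_hfib_kron (φ : modularFunctionFieldBar M →ₐ[Qb] modularFunctionFieldBar (M * p))
    (hφ : φ.toRingHom.IsIntegral) (hfin : FiniteAlong Qb φ)
    (j₀ u₀ : modularFunctionFieldBar M) (Y : modularFunctionFieldBar (M * p))
    (hK : TtrpKron M p A φ j₀ Y)
    (hYint : Y ∈ grdB (M * p) A (φ u₀))
    (P₀ : Place Qb (modularFunctionFieldBar M)) (hP₀ : GrdInChart M A u₀ P₀)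
    (J₀ : ↥A) (hJ₀ : GrdVal P₀ j₀ (J₀ : Qb))
    (P : Place Qb (modularFunctionFieldBar (M * p)))
    (hPg : TtrpGoodC M p A (φ u₀) (Y ^ p - φ j₀) P) (hPP₀ : ttrpRes M p φ hφ P = P₀) :
    P.ramificationIndexAlong φ = 1 ∧
      ∀ P' : Place Qb (modularFunctionFieldBar (M * p)),
        TtrpGoodC M p A (φ u₀) (Y ^ p - φ j₀) P' → ttrpRes M p φ hφ P' = P₀ → P' = P := by
  obtain ⟨Φ, hkron, hgen, hmin, hdeg⟩ := hK
  have hgood := ttrf_goodC_good φ hφ j₀ u₀ Y Φ hkron hmin hYint P₀ J₀ hJ₀ P hPg hPP₀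
  exact ttrf_fib_of_exists hφ u₀ P₀
    (ttrp_fib φ hφ hfin j₀ u₀ Y Φ hkron hgen hmin hdeg hYint P₀ hP₀ J₀ hJ₀ hgood) P hPg hPP₀

end Good

section Disc

variable {M p : ℕ} [NeZero M] [NeZero p] {ℓ : ℕ} [Fact ℓ.Prime]
variable {A : ValuationSubring Qb}
variable {τ τ' : LaurentSeries ℤ}
variable {φ : modularFunctionFieldBar M →ₐ[Qb] modularFunctionFieldBar (M * p)}
variable {v : modularFunctionFieldBar (M * p)}

/-- THE ONE-ZERO FUNCTION OF A PLACE OF THE GOOD DISC, disc form (`(B3)` as a hypothesis). -/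
theorem ttrf_hw_disc {V V' : Subring (modularFunctionFieldBar (M * p))}
    {red : ↥V →+* modularFunctionFieldFullC (ResidueField A) M}
    {Fk' : Type*} [CommRing Fk'] {red' : ↥V' →+* Fk'}
    (hℓM : ¬ ℓ ∣ M) (hA : A.LiesOverPrime ℓ) (hat : GrdAtlas M A τ τ')
    (r : Place Qb (modularFunctionFieldBar M) →
      Place (ResidueField A) (modularFunctionFieldFullC (ResidueField A) M))
    (hr : GrdIsRed M A hat.c.mem hat.c'.mem r)
    (hφ : φ.toRingHom.IsIntegral) (H : TtrpChart M p A φ hat.c.mem V red v)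
    (hbase' : ∀ y ∈ grdO M A, φ y ∈ V')
    (hinj' : ∀ (y : modularFunctionFieldBar M) (hy : y ∈ grdO M A),
      red' ⟨φ y, hbase' y hy⟩ = 0 → grdRed M A ⟨y, hy⟩ = 0)
    (hfib : ∀ P₀ : Place Qb (modularFunctionFieldBar M), GrdInChart M A (grdQ M hat.c.mem) P₀ →
      ∀ P : Place Qb (modularFunctionFieldBar (M * p)),
        TtrpGoodC M p A (φ (grdQ M hat.c.mem)) v P → ttrpRes M p φ hφ P = P₀ →
        P.ramificationIndexAlong φ = 1 ∧
        ∀ P' : Place Qb (modularFunctionFieldBar (M * p)),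
          TtrpGoodC M p A (φ (grdQ M hat.c.mem)) v P' → ttrpRes M p φ hφ P' = P₀ → P' = P)
    (Q : Place (ResidueField A) (modularFunctionFieldFullC (ResidueField A) M))
    (P : Place Qb (modularFunctionFieldBar (M * p)))
    (hP : P ∈ ttrpS M p A φ hφ r (φ (grdQ M hat.c.mem)) v Q) :
    ∃ (w : modularFunctionFieldBar (M * p)) (h₁ : w ∈ V) (h₂ : w ∈ V'),
      Q.ord (red ⟨w, h₁⟩) = 1 ∧ red' ⟨w, h₂⟩ ≠ 0 ∧ P.ord w = 1 ∧
      ∀ P' : Place Qb (modularFunctionFieldBar (M * p)),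
        P' ∈ ttrpS M p A φ hφ r (φ (grdQ M hat.c.mem)) v Q → P' ≠ P → P'.ord w = 0 := by
  have hrel : ∀ P' : Place Qb (modularFunctionFieldBar (M * p)),
      P' ∈ ttrpS M p A φ hφ r (φ (grdQ M hat.c.mem)) v Q →
      GrdInChart M A (grdQ M hat.c.mem) (ttrpRes M p φ hφ P') ∧
        GrdRel M A (grdQ M hat.c.mem) (ttrpRes M p φ hφ P') Q := by
    rintro P' ⟨hP'g, hP'Q⟩
    have hc' : GrdInChart M A (grdQ M hat.c.mem) (ttrpRes M p φ hφ P') :=
      (ttrp_inChart_res hφ _ P').mpr hP'g.1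
    refine ⟨hc', ?_⟩
    have h1 := (grd_isRed_rel M A hℓM hA hat r hr (ttrpRes M p φ hφ P')).1 hc'
    have h2 : r (ttrpRes M p φ hφ P') = Q := hP'Q
    rwa [h2] at h1
  obtain ⟨hPc, hPQ⟩ := hrel P hP
  have hQ : grdK M A hat.c.mem ∈ Q.toValuationSubring :=
    grd_rel_inChartK M A hat.c.mem _ hPc Q hPQ
  obtain ⟨w, h₁, h₂, hwQ, hwr, hwP, hwo⟩ :=
    ttrf_unif_index hℓM hA hat.c hφ H hbase' hinj' Q hQ
      (fun P₀ hP₀ _ P₁ hP₁g hP₁ => hfib P₀ hP₀ P₁ hP₁g hP₁) P hP.1 hPQ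
  exact ⟨w, h₁, h₂, hwQ, hwr, hwP, fun P' hP' hne => hwo P' hP'.1 (hrel P' hP').2 hne⟩

/-- THE ONE-ZERO FUNCTION OF A PLACE OF THE GOOD DISC, from a Kronecker datum. -/
theorem ttrf_hw_disc_kron {V V' : Subring (modularFunctionFieldBar (M * p))}
    {red : ↥V →+* modularFunctionFieldFullC (ResidueField A) M}
    {Fk' : Type*} [CommRing Fk'] {red' : ↥V' →+* Fk'}
    (hℓM : ¬ ℓ ∣ M) (hA : A.LiesOverPrime ℓ) (hat : GrdAtlas M A τ τ')
    (r : Place Qb (modularFunctionFieldBar M) →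
      Place (ResidueField A) (modularFunctionFieldFullC (ResidueField A) M))
    (hr : GrdIsRed M A hat.c.mem hat.c'.mem r)
    (hφ : φ.toRingHom.IsIntegral) (hfin : FiniteAlong Qb φ)
    (j₀ : modularFunctionFieldBar M) (hj₀int : GrdIsInt M A (grdQ M hat.c.mem) j₀)
    (Y : modularFunctionFieldBar (M * p)) (hK : TtrpKron M p A φ j₀ Y)
    (hYint : Y ∈ grdB (M * p) A (φ (grdQ M hat.c.mem)))
    (hv : v = Y ^ p - φ j₀)
    (H : TtrpChart M p A φ hat.c.mem V red v)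
    (hbase' : ∀ y ∈ grdO M A, φ y ∈ V')
    (hinj' : ∀ (y : modularFunctionFieldBar M) (hy : y ∈ grdO M A),
      red' ⟨φ y, hbase' y hy⟩ = 0 → grdRed M A ⟨y, hy⟩ = 0)
    (Q : Place (ResidueField A) (modularFunctionFieldFullC (ResidueField A) M))
    (P : Place Qb (modularFunctionFieldBar (M * p)))
    (hP : P ∈ ttrpS M p A φ hφ r (φ (grdQ M hat.c.mem)) v Q) :
    ∃ (w : modularFunctionFieldBar (M * p)) (h₁ : w ∈ V) (h₂ : w ∈ V'),
      Q.ord (red ⟨w, h₁⟩) = 1 ∧ red' ⟨w, h₂⟩ ≠ 0 ∧ P.ord w = 1 ∧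
      ∀ P' : Place Qb (modularFunctionFieldBar (M * p)),
        P' ∈ ttrpS M p A φ hφ r (φ (grdQ M hat.c.mem)) v Q → P' ≠ P → P'.ord w = 0 := by
  subst hv
  refine ttrf_hw_disc hℓM hA hat r hr hφ H hbase' hinj' ?_ Q P hP
  intro P₀ hP₀ P₁ hP₁g hP₁
  obtain ⟨J₀, hJ₀⟩ := grd_val_exists M A hat.c P₀ hP₀ hj₀int
  exact ttrf_hfib_kron φ hφ hfin j₀ _ Y hK hYint P₀ hP₀ J₀ hJ₀ P₁ hP₁g hP₁

end Disc

section Inst

variable (M : ℕ) [NeZero M] {p : ℕ} [Fact p.Prime] [NeZero p]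
variable (A : ValuationSubring Qb)
variable {τ τ' : LaurentSeries ℤ}

/-- `red₂ (α y) = 0 ⟹ ȳ = 0` (`red₂ ∘ α = Φ ∘ red`, `Φ` a homomorphism of fields). -/
theorem ttrf_inj_alpha (hpM : ¬ p ∣ M) (hA : A.LiesOverPrime p)
    (y : modularFunctionFieldBar M) (hy : y ∈ grdO M A)
    (h : ttrRed2 M A hpM hA ⟨heckeAlphaBar Qb M p y, ttr_alpha_mem₂ M A hpM hy⟩ = 0) :
    grdRed M A ⟨y, hy⟩ = 0 := by
  have h1 := ttrRed2_alpha M A hpM hA ⟨y, hy⟩
  rw [h1] at h
  exact (map_eq_zero_iff _ (ttrPhi M A hA).injective).mp h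

/-- `red₁ (β y) = 0 ⟹ ȳ = 0`. -/
theorem ttrf_inj_beta (hA : A.LiesOverPrime p)
    (y : modularFunctionFieldBar M) (hy : y ∈ grdO M A)
    (h : ttrRed1 M A hA ⟨heckeBetaBar Qb M p y, ttr_beta_mem M A hy⟩ = 0) :
    grdRed M A ⟨y, hy⟩ = 0 := by
  have h1 := ttrRed1_beta M A hA ⟨y, hy⟩
  rw [h1] at h
  exact (map_eq_zero_iff _ (ttrPhi M A hA).injective).mp h

/-- **`(HW₁)` on `ttrpCls`**, with `(B3)` as a hypothesis. -/
theorem ttrf_hw_cls₁ (hpM : ¬ p ∣ M) (hA : A.LiesOverPrime p) (hat : GrdAtlas M A τ τ')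
    (r : Place Qb (modularFunctionFieldBar M) →
      Place (ResidueField A) (modularFunctionFieldFullC (ResidueField A) M))
    (hr : GrdIsRed M A hat.c.mem hat.c'.mem r)
    (v₁ u₂ v₂ : modularFunctionFieldBar (M * p))
    (H₁ : TtrpChart M p A (heckeAlphaBar Qb M p) hat.c.mem (grdO (M * p) A) (ttrRed1 M A hA) v₁)
    (hfib₁ : ∀ P₀ : Place Qb (modularFunctionFieldBar M),
      GrdInChart M A (grdQ M hat.c.mem) P₀ →
      ∀ P : Place Qb (modularFunctionFieldBar (M * p)),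
        TtrpGoodC M p A (heckeAlphaBar Qb M p (grdQ M hat.c.mem)) v₁ P →
        ttrpRes M p (heckeAlphaBar Qb M p) (gff_alpha_integral M p) P = P₀ →
        P.ramificationIndexAlong (heckeAlphaBar Qb M p) = 1 ∧
        ∀ P' : Place Qb (modularFunctionFieldBar (M * p)),
          TtrpGoodC M p A (heckeAlphaBar Qb M p (grdQ M hat.c.mem)) v₁ P' →
          ttrpRes M p (heckeAlphaBar Qb M p) (gff_alpha_integral M p) P' = P₀ → P' = P)
    (P : Place Qb (modularFunctionFieldBar (M * p)))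
    (Q : Place (ResidueField A) (modularFunctionFieldFullC (ResidueField A) M))
    (hcls : ttrpCls M p A r (heckeAlphaBar Qb M p (grdQ M hat.c.mem)) v₁ u₂ v₂ P =
      some (Sum.inl Q)) :
    ∃ (w : modularFunctionFieldBar (M * p)) (h₁ : w ∈ grdO (M * p) A)
      (h₂ : w ∈ ttrV2 M A hpM),
      Q.ord (ttrRed1 M A hA ⟨w, h₁⟩) = 1 ∧ ttrRed2 M A hpM hA ⟨w, h₂⟩ ≠ 0 ∧ P.ord w = 1 ∧
      ∀ P' : Place Qb (modularFunctionFieldBar (M * p)),
        ttrpCls M p A r (heckeAlphaBar Qb M p (grdQ M hat.c.mem)) v₁ u₂ v₂ P' =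
          some (Sum.inl Q) → P' ≠ P → P'.ord w = 0 := by
  obtain ⟨w, h₁, h₂, hwQ, hwr, hwP, hwo⟩ :=
    ttrf_hw_disc (V' := ttrV2 M A hpM) (red' := ttrRed2 M A hpM hA) hpM hA hat r hr
      (gff_alpha_integral M p) H₁ (fun y hy => ttr_alpha_mem₂ M A hpM hy)
      (fun y hy h => ttrf_inj_alpha M A hpM hA y hy h) hfib₁ Q P (ttrp_cls_inl_iff.mp hcls)
  exact ⟨w, h₁, h₂, hwQ, hwr, hwP, fun P' hP' hne => hwo P' (ttrp_cls_inl_iff.mp hP') hne⟩

/-- **`(HW₂)` on `ttrpCls`**, with `(B3)` as a hypothesis. -/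
theorem ttrf_hw_cls₂ (hpM : ¬ p ∣ M) (hA : A.LiesOverPrime p) (hat : GrdAtlas M A τ τ')
    (r : Place Qb (modularFunctionFieldBar M) →
      Place (ResidueField A) (modularFunctionFieldFullC (ResidueField A) M))
    (hr : GrdIsRed M A hat.c.mem hat.c'.mem r)
    (u₁ v₁ v₂ : modularFunctionFieldBar (M * p))
    (hdisj : ∀ P : Place Qb (modularFunctionFieldBar (M * p)),
      TtrpGoodC M p A u₁ v₁ P →
        TtrpGoodC M p A (heckeBetaBar Qb M p (grdQ M hat.c.mem)) v₂ P → False)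
    (H₂ : TtrpChart M p A (heckeBetaBar Qb M p) hat.c.mem (ttrV2 M A hpM)
      (ttrRed2 M A hpM hA) v₂)
    (hfib₂ : ∀ P₀ : Place Qb (modularFunctionFieldBar M),
      GrdInChart M A (grdQ M hat.c.mem) P₀ →
      ∀ P : Place Qb (modularFunctionFieldBar (M * p)),
        TtrpGoodC M p A (heckeBetaBar Qb M p (grdQ M hat.c.mem)) v₂ P →
        ttrpRes M p (heckeBetaBar Qb M p) (gff_beta_integral M p) P = P₀ →
        P.ramificationIndexAlong (heckeBetaBar Qb M p) = 1 ∧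
        ∀ P' : Place Qb (modularFunctionFieldBar (M * p)),
          TtrpGoodC M p A (heckeBetaBar Qb M p (grdQ M hat.c.mem)) v₂ P' →
          ttrpRes M p (heckeBetaBar Qb M p) (gff_beta_integral M p) P' = P₀ → P' = P)
    (P : Place Qb (modularFunctionFieldBar (M * p)))
    (Q : Place (ResidueField A) (modularFunctionFieldFullC (ResidueField A) M))
    (hcls : ttrpCls M p A r u₁ v₁ (heckeBetaBar Qb M p (grdQ M hat.c.mem)) v₂ P =
      some (Sum.inr Q)) :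
    ∃ (w : modularFunctionFieldBar (M * p)) (h₁ : w ∈ grdO (M * p) A)
      (h₂ : w ∈ ttrV2 M A hpM),
      Q.ord (ttrRed2 M A hpM hA ⟨w, h₂⟩) = 1 ∧ ttrRed1 M A hA ⟨w, h₁⟩ ≠ 0 ∧ P.ord w = 1 ∧
      ∀ P' : Place Qb (modularFunctionFieldBar (M * p)),
        ttrpCls M p A r u₁ v₁ (heckeBetaBar Qb M p (grdQ M hat.c.mem)) v₂ P' =
          some (Sum.inr Q) → P' ≠ P → P'.ord w = 0 := by
  obtain ⟨w, h₂, h₁, hwQ, hwr, hwP, hwo⟩ :=
    ttrf_hw_disc (V' := grdO (M * p) A) (red' := ttrRed1 M A hA) hpM hA hat r hr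
      (gff_beta_integral M p) H₂ (fun y hy => ttr_beta_mem M A hy)
      (fun y hy h => ttrf_inj_beta M A hA y hy h) hfib₂ Q P
      ((ttrp_cls_inr_iff hdisj).mp hcls)
  exact ⟨w, h₁, h₂, hwQ, hwr, hwP,
    fun P' hP' hne => hwo P' ((ttrp_cls_inr_iff hdisj).mp hP') hne⟩

/-- **`(HW₁)` on `ttrpCls` from a Kronecker datum** for `(α, j₀, Y₁)`, `v₁ = Y₁^p - α j₀`. -/
theorem ttrf_hw₁ (hpM : ¬ p ∣ M) (hA : A.LiesOverPrime p) (hat : GrdAtlas M A τ τ')
    (r : Place Qb (modularFunctionFieldBar M) →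
      Place (ResidueField A) (modularFunctionFieldFullC (ResidueField A) M))
    (hr : GrdIsRed M A hat.c.mem hat.c'.mem r)
    (j₀ : modularFunctionFieldBar M) (hj₀int : GrdIsInt M A (grdQ M hat.c.mem) j₀)
    (Y₁ : modularFunctionFieldBar (M * p))
    (hK₁ : TtrpKron M p A (heckeAlphaBar Qb M p) j₀ Y₁)
    (hY₁ : Y₁ ∈ grdB (M * p) A (heckeAlphaBar Qb M p (grdQ M hat.c.mem)))
    (v₁ u₂ v₂ : modularFunctionFieldBar (M * p))
    (hv₁ : v₁ = Y₁ ^ p - heckeAlphaBar Qb M p j₀)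
    (H₁ : TtrpChart M p A (heckeAlphaBar Qb M p) hat.c.mem (grdO (M * p) A) (ttrRed1 M A hA) v₁)
    (P : Place Qb (modularFunctionFieldBar (M * p)))
    (Q : Place (ResidueField A) (modularFunctionFieldFullC (ResidueField A) M))
    (hcls : ttrpCls M p A r (heckeAlphaBar Qb M p (grdQ M hat.c.mem)) v₁ u₂ v₂ P =
      some (Sum.inl Q)) :
    ∃ (w : modularFunctionFieldBar (M * p)) (h₁ : w ∈ grdO (M * p) A)
      (h₂ : w ∈ ttrV2 M A hpM),
      Q.ord (ttrRed1 M A hA ⟨w, h₁⟩) = 1 ∧ ttrRed2 M A hpM hA ⟨w, h₂⟩ ≠ 0 ∧ P.ord w = 1 ∧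
      ∀ P' : Place Qb (modularFunctionFieldBar (M * p)),
        ttrpCls M p A r (heckeAlphaBar Qb M p (grdQ M hat.c.mem)) v₁ u₂ v₂ P' =
          some (Sum.inl Q) → P' ≠ P → P'.ord w = 0 := by
  subst hv₁
  refine ttrf_hw_cls₁ M A hpM hA hat r hr _ u₂ v₂ H₁ ?_ P Q hcls
  intro P₀ hP₀ P₁ hP₁g hP₁
  obtain ⟨J₀, hJ₀⟩ := grd_val_exists M A hat.c P₀ hP₀ hj₀int
  exact ttrf_hfib_kron _ (gff_alpha_integral M p) (gff_alpha_finite M p) j₀ _ Y₁ hK₁ hY₁ P₀ hP₀
    J₀ hJ₀ P₁ hP₁g hP₁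

/-- **`(HW₂)` on `ttrpCls` from a Kronecker datum** for `(β, j₀, Y₂)`, `v₂ = Y₂^p - β j₀`. -/
theorem ttrf_hw₂ (hpM : ¬ p ∣ M) (hA : A.LiesOverPrime p) (hat : GrdAtlas M A τ τ')
    (r : Place Qb (modularFunctionFieldBar M) →
      Place (ResidueField A) (modularFunctionFieldFullC (ResidueField A) M))
    (hr : GrdIsRed M A hat.c.mem hat.c'.mem r)
    (j₀ : modularFunctionFieldBar M) (hj₀int : GrdIsInt M A (grdQ M hat.c.mem) j₀)
    (Y₂ : modularFunctionFieldBar (M * p))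
    (hK₂ : TtrpKron M p A (heckeBetaBar Qb M p) j₀ Y₂)
    (hY₂ : Y₂ ∈ grdB (M * p) A (heckeBetaBar Qb M p (grdQ M hat.c.mem)))
    (u₁ v₁ v₂ : modularFunctionFieldBar (M * p))
    (hv₂ : v₂ = Y₂ ^ p - heckeBetaBar Qb M p j₀)
    (hdisj : ∀ P : Place Qb (modularFunctionFieldBar (M * p)),
      TtrpGoodC M p A u₁ v₁ P →
        TtrpGoodC M p A (heckeBetaBar Qb M p (grdQ M hat.c.mem)) v₂ P → False)
    (H₂ : TtrpChart M p A (heckeBetaBar Qb M p) hat.c.mem (ttrV2 M A hpM)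
      (ttrRed2 M A hpM hA) v₂)
    (P : Place Qb (modularFunctionFieldBar (M * p)))
    (Q : Place (ResidueField A) (modularFunctionFieldFullC (ResidueField A) M))
    (hcls : ttrpCls M p A r u₁ v₁ (heckeBetaBar Qb M p (grdQ M hat.c.mem)) v₂ P =
      some (Sum.inr Q)) :
    ∃ (w : modularFunctionFieldBar (M * p)) (h₁ : w ∈ grdO (M * p) A)
      (h₂ : w ∈ ttrV2 M A hpM),
      Q.ord (ttrRed2 M A hpM hA ⟨w, h₂⟩) = 1 ∧ ttrRed1 M A hA ⟨w, h₁⟩ ≠ 0 ∧ P.ord w = 1 ∧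
      ∀ P' : Place Qb (modularFunctionFieldBar (M * p)),
        ttrpCls M p A r u₁ v₁ (heckeBetaBar Qb M p (grdQ M hat.c.mem)) v₂ P' =
          some (Sum.inr Q) → P' ≠ P → P'.ord w = 0 := by
  subst hv₂
  refine ttrf_hw_cls₂ M A hpM hA hat r hr u₁ v₁ _ hdisj H₂ ?_ P Q hcls
  intro P₀ hP₀ P₁ hP₁g hP₁
  obtain ⟨J₀, hJ₀⟩ := grd_val_exists M A hat.c P₀ hP₀ hj₀int
  exact ttrf_hfib_kron _ (gff_beta_integral M p) (gff_beta_finite M p) j₀ _ Y₂ hK₂ hY₂ P₀ hP₀
    J₀ hJ₀ P₁ hP₁g hP₁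

end Inst

end Fermat.Agent.TT
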