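/-
Program TT (S33), package G/Red₂ : THE FIELD `const` FROM A KRONECKER DATUM, and at the `j`-chart.

Owner: helper15.  Prefix `ttrli`.  Namespace `Fermat.Agent.TT`.

* `ttrli_hfib`       : (B3) in the `∀`-good-`P` shape (`e = 1`, the only good place of its fibre)
  from a Kronecker datum `TtrpKron M p 𝔸 φ j₀ Y` (helper8's `ttrf_hfib_kron`);
* `ttrli_const_kron` : the field `const` of `TtgModel` for `ttrpCls`, chart-generic, from the two
  Kronecker data;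
* `ttrli_const_j`    : the instance at the `j`-chart (`p ≥ 5`), `v₁ = u₂ = Y^p - J`,
  `v₂ = -u₁ = J^p - Y` : the only inputs left are the two Kronecker data and the fields
  `val₁`, `val₂`.
-/
import Mathlib
import Fermat.Agent.TT.Red2.ConstInst
import Fermat.Agent.TT.Red2.Unif8Cls

set_option autoImplicit false
set_option linter.unusedSectionVars false
set_option linter.unusedVariables false
set_option linter.style.haveILetI false
set_option synthInstance.maxHeartbeats 400000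

noncomputable section

namespace Fermat.Agent.TT

open Polynomial ModularCurve AlgebraicCurve IsLocalRing IntermediateField
  Fermat.Agent.G Fermat.Agent.S18 Fermat.Agent.S24 Fermat.Agent.FF

local notation "Qb" => AlgebraicClosure ℚ

section Fib

variable {M p : ℕ} [NeZero M] [NeZero p] {ℓ : ℕ} [Fact ℓ.Prime]
variable {A : ValuationSubring Qb}

/-- **(B3), `∀`-good-`P` shape** : a good place of the chart `φ υ` is unramified over the level `M`
and is the only good place of its fibre. -/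
theorem ttrli_hfib (hℓM : ¬ ℓ ∣ M) (hA : A.LiesOverPrime ℓ)
    (φ : modularFunctionFieldBar M →ₐ[Qb] modularFunctionFieldBar (M * p))
    (hφ : φ.toRingHom.IsIntegral) (hfin : FiniteAlong Qb φ)
    {υ : LaurentSeries ℤ} (hc : GrdChart M A υ)
    (j₀ : modularFunctionFieldBar M) (hj₀int : GrdIsInt M A (grdQ M hc.mem) j₀)
    (Y : modularFunctionFieldBar (M * p)) (hK : TtrpKron M p A φ j₀ Y)
    (hYint : Y ∈ grdB (M * p) A (φ (grdQ M hc.mem)))
    (v : modularFunctionFieldBar (M * p)) (hv : v = Y ^ p - φ j₀) :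
    ∀ P : Place Qb (modularFunctionFieldBar (M * p)),
      TtrpGoodC M p A (φ (grdQ M hc.mem)) v P →
      P.ramificationIndexAlong φ = 1 ∧
      ∀ P' : Place Qb (modularFunctionFieldBar (M * p)),
        TtrpGoodC M p A (φ (grdQ M hc.mem)) v P' →
        ttrpRes M p φ hφ P' = ttrpRes M p φ hφ P → P' = P := by
  subst hv
  intro P hPg
  have hP₀ : GrdInChart M A (grdQ M hc.mem) (ttrpRes M p φ hφ P) :=
    (ttrp_inChart_res hφ _ P).mpr hPg.1
  obtain ⟨J₀, hJ₀⟩ := grd_val_exists M A hc _ hP₀ hj₀int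
  exact ttrf_hfib_kron φ hφ hfin j₀ _ Y hK hYint _ hP₀ J₀ hJ₀ P hPg rfl

/-- **(B3), `∀`-good-`P` shape, ROUTE J** : for ANY good locus `(u, v)` which TRANSFERS to the
pseudo-chart `(φ j₀, Y^p - φ j₀)` of the Kronecker pair (helper13's GoodFibH at `p = 3` :
`u = α h`, `v = (α h)^N (Y^p - J)`). -/
theorem ttrli_hfib_of_trans
    (φ : modularFunctionFieldBar M →ₐ[Qb] modularFunctionFieldBar (M * p))
    (hφ : φ.toRingHom.IsIntegral) (hfin : FiniteAlong Qb φ)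
    (j₀ : modularFunctionFieldBar M)
    (Y : modularFunctionFieldBar (M * p)) (hK : TtrpKron M p A φ j₀ Y)
    (hYint : Y ∈ grdB (M * p) A (φ j₀))
    (u v : modularFunctionFieldBar (M * p))
    (htrans : ∀ P : Place Qb (modularFunctionFieldBar (M * p)), TtrpGoodC M p A u v P →
      TtrpGoodC M p A (φ j₀) (Y ^ p - φ j₀) P ∧
        ∃ J₀ : ↥A, GrdVal (ttrpRes M p φ hφ P) j₀ (J₀ : Qb)) :
    ∀ P : Place Qb (modularFunctionFieldBar (M * p)),
      TtrpGoodC M p A u v P →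
      P.ramificationIndexAlong φ = 1 ∧
      ∀ P' : Place Qb (modularFunctionFieldBar (M * p)),
        TtrpGoodC M p A u v P' →
        ttrpRes M p φ hφ P' = ttrpRes M p φ hφ P → P' = P := by
  intro P hPg
  obtain ⟨hg, J₀, hJ₀⟩ := htrans P hPg
  obtain ⟨he, huniq⟩ := ttrf_hfib_kron φ hφ hfin j₀ j₀ Y hK hYint _ ⟨J₀, hJ₀⟩ J₀ hJ₀ P hg rfl
  exact ⟨he, fun P' hP'g hP' => huniq P' (htrans P' hP'g).1 hP'⟩

end Fib

section Kron

variable (M : ℕ) [NeZero M] {p : ℕ} [Fact p.Prime] [NeZero p]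
variable (A : ValuationSubring Qb)

/-- **THE FIELD `const` OF `TtgModel` FROM TWO KRONECKER DATA**, chart-generic : `cls = ttrpCls M p
𝔸 r (α τ) v₁ (β τ) v₂` with `v₁ = Y₁^p - α j₀`, `v₂ = Y₂^p - β j₀`. -/
theorem ttrli_const_kron (hpM : ¬ p ∣ M) (hA : A.LiesOverPrime p) {τ τ' : LaurentSeries ℤ}
    (hat : GrdAtlas M A τ τ')
    (r : Place Qb (modularFunctionFieldBar M) →
      Place (ResidueField A) (modularFunctionFieldFullC (ResidueField A) M))
    (hr : GrdIsRed M A hat.c.mem hat.c'.mem r)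
    (j₀ : modularFunctionFieldBar M) (hj₀int : GrdIsInt M A (grdQ M hat.c.mem) j₀)
    (Y₁ Y₂ : modularFunctionFieldBar (M * p))
    (hK₁ : TtrpKron M p A (heckeAlphaBar Qb M p) j₀ Y₁)
    (hK₂ : TtrpKron M p A (heckeBetaBar Qb M p) j₀ Y₂)
    (hY₁ : Y₁ ∈ grdB (M * p) A (heckeAlphaBar Qb M p (grdQ M hat.c.mem)))
    (hY₂ : Y₂ ∈ grdB (M * p) A (heckeBetaBar Qb M p (grdQ M hat.c.mem)))
    (v₁ v₂ : modularFunctionFieldBar (M * p))
    (hv₁ : v₁ = Y₁ ^ p - heckeAlphaBar Qb M p j₀) (hv₂ : v₂ = Y₂ ^ p - heckeBetaBar Qb M p j₀)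
    (H₁ : TtrpChart M p A (heckeAlphaBar Qb M p) hat.c.mem (grdO (M * p) A) (ttrRed1 M A hA) v₁)
    (H₂ : TtrpChart M p A (heckeBetaBar Qb M p) hat.c.mem (ttrV2 M A hpM) (ttrRed2 M A hpM hA) v₂)
    (hv₂mem : v₂ ∈ grdB (M * p) A (heckeAlphaBar Qb M p (grdQ M hat.c.mem)))
    (hbe : heckeBetaBar Qb M p (grdQ M hat.c.mem) ∈
      grdB (M * p) A (heckeAlphaBar Qb M p (grdQ M hat.c.mem)))
    (val₁ : ∀ (P : Place Qb ↥(modularFunctionFieldBar (M * p)))
      (Q : Place (ResidueField A) ↥(modularFunctionFieldFullC (ResidueField A) M)),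
      ttrpCls M p A r (heckeAlphaBar Qb M p (grdQ M hat.c.mem)) v₁
        (heckeBetaBar Qb M p (grdQ M hat.c.mem)) v₂ P = some (Sum.inl Q) →
      ∀ (x : ↥(modularFunctionFieldBar (M * p))) (hx₁ : x ∈ ttrV1 M A hpM hA)
        (hx₂ : x ∈ ttalV2 (ttrV1 M A hpM hA) (ttrW M hpM)),
        (∀ P' : Place Qb ↥(modularFunctionFieldBar (M * p)),
          ttrpCls M p A r (heckeAlphaBar Qb M p (grdQ M hat.c.mem)) v₁
            (heckeBetaBar Qb M p (grdQ M hat.c.mem)) v₂ P' = some (Sum.inl Q) → 0 ≤ P'.ord x) →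
        ∃ α : A, GrdVal P x (α : Qb) ∧ GrdVal Q (ttrRed1 M A hA ⟨x, hx₁⟩) (residue A α))
    (val₂ : ∀ (P : Place Qb ↥(modularFunctionFieldBar (M * p)))
      (Q : Place (ResidueField A) ↥(modularFunctionFieldFullC (ResidueField A) M)),
      ttrpCls M p A r (heckeAlphaBar Qb M p (grdQ M hat.c.mem)) v₁
        (heckeBetaBar Qb M p (grdQ M hat.c.mem)) v₂ P = some (Sum.inr Q) →
      ∀ (x : ↥(modularFunctionFieldBar (M * p))) (hx₁ : x ∈ ttrV1 M A hpM hA)
        (hx₂ : x ∈ ttalV2 (ttrV1 M A hpM hA) (ttrW M hpM)),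
        (∀ P' : Place Qb ↥(modularFunctionFieldBar (M * p)),
          ttrpCls M p A r (heckeAlphaBar Qb M p (grdQ M hat.c.mem)) v₁
            (heckeBetaBar Qb M p (grdQ M hat.c.mem)) v₂ P' = some (Sum.inr Q) → 0 ≤ P'.ord x) →
        ∃ α : A, GrdVal P x (α : Qb) ∧
          GrdVal Q (ttalRed2 (ttrV1 M A hpM hA) (ttrW M hpM) (ttrRed1 M A hA) ⟨x, hx₂⟩)
            (residue A α)) :
    ∀ (x : ↥(modularFunctionFieldBar (M * p))) (hx₁ : x ∈ ttrV1 M A hpM hA)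
      (hx₂ : x ∈ ttalV2 (ttrV1 M A hpM hA) (ttrW M hpM)) (c : ResidueField A), c ≠ 0 → x ≠ 0 →
      (∀ v : Place Qb ↥(modularFunctionFieldBar (M * p)),
        ttrpCls M p A r (heckeAlphaBar Qb M p (grdQ M hat.c.mem)) v₁
          (heckeBetaBar Qb M p (grdQ M hat.c.mem)) v₂ v = none → 0 ≤ v.ord x) →
      ttrRed1 M A hA ⟨x, hx₁⟩ =
        algebraMap (ResidueField A) ↥(modularFunctionFieldFullC (ResidueField A) M) c →
      ttalRed2 (ttrV1 M A hpM hA) (ttrW M hpM) (ttrRed1 M A hA) ⟨x, hx₂⟩ =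
        algebraMap (ResidueField A) ↥(modularFunctionFieldFullC (ResidueField A) M) c →
      ∀ Dx : Divisor Qb ↥(modularFunctionFieldBar (M * p)),
        (∀ v : Place Qb ↥(modularFunctionFieldBar (M * p)), Dx v = v.ord x) →
        (∀ v : Place Qb ↥(modularFunctionFieldBar (M * p)),
          ttrpCls M p A r (heckeAlphaBar Qb M p (grdQ M hat.c.mem)) v₁
            (heckeBetaBar Qb M p (grdQ M hat.c.mem)) v₂ v = none → Dx v = 0) ∧
        Finsupp.mapDomain (ttrpCls M p A r (heckeAlphaBar Qb M p (grdQ M hat.c.mem)) v₁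
          (heckeBetaBar Qb M p (grdQ M hat.c.mem)) v₂) Dx = 0 :=
  ttrli_const_cls M A hpM hA hat r hr v₁ v₂ H₁ H₂ hv₂mem hbe
    (ttrli_hfib hpM hA _ (gff_alpha_integral M p) (gff_alpha_finite M p) hat.c j₀ hj₀int Y₁ hK₁
      hY₁ v₁ hv₁)
    (ttrli_hfib hpM hA _ (gff_beta_integral M p) (gff_beta_finite M p) hat.c j₀ hj₀int Y₂ hK₂
      hY₂ v₂ hv₂) val₁ val₂

end Kron

/-! ### the `j`-chart, `p ≥ 5` -/

section JChart

variable (M : ℕ) [NeZero M] {p : ℕ} [Fact p.Prime] [NeZero p]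
variable (A : ValuationSubring Qb)

/-- the `j`-atlas of the level `M` (`p ≥ 5`). -/
theorem ttrli_atlas_j (hpM : ¬ p ∣ M) (hA : A.LiesOverPrime p) (h5 : 5 ≤ p)
    {τ' : LaurentSeries ℤ} (hτ' : jqModC ℤ * τ' = 1) : GrdAtlas M A (jqModC ℤ) τ' :=
  ⟨hτ', grd_chart_j M A hpM hA h5, grd_chart_jinv M A hpM hA h5 τ' hτ'⟩

/-- the chart package of the second kind for `v₂ = -u₁ = J^p - Y`. -/
theorem ttrli_chart_j₂_neg (hpM : ¬ p ∣ M) (hA : A.LiesOverPrime p) (h5 : 5 ≤ p) :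
    TtrpChart M p A (heckeBetaBar Qb M p) (grd_chart_j M A hpM hA h5).mem (ttrV2 M A hpM)
      (ttrRed2 M A hpM hA) (-ttrU1 M A) := by
  refine ttr_chart₂ M A hpM hA (grd_chart_j M A hpM hA h5) (-ttrU1 M A)
    (Subring.neg_mem _ (ttr_chart_U1_mem' M A hpM hA)) (fun h => ?_)
  have e : (⟨-ttrU1 M A, h⟩ : ↥(grdO (M * p) A)) = -⟨ttrU1 M A, ttrU1_mem M A⟩ :=
    Subtype.ext rfl
  rw [e, map_neg, ttrRed1_U1, neg_zero]

/-- `J = α j ∈ B(β j)` (the `w`-twin of `Y ∈ B(α j)`). -/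
theorem ttrli_J_mem_beta (hpM : ¬ p ∣ M) (hA : A.LiesOverPrime p) :
    ttrJ M A (p := p) ∈ grdB (M * p) A (heckeBetaBar Qb M p (grdQ M (grdi_mem_j M))) := by
  have h := ttr_isInt_w M A hpM (ttr_chart_Y_mem M A hpM hA)
  rwa [ttrW_alpha, ttrW_Y] at h

/-- **THE FIELD `const` AT THE `j`-CHART (`p ≥ 5`)** for
`cls = ttrpCls M p 𝔸 r (α j) u₂ (β j) (-u₁)` : the only inputs are the two Kronecker data
(helper12 `Kron12` / helper22 `GoodKron`) and the fields `val₁`, `val₂`. -/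
theorem ttrli_const_j (hpM : ¬ p ∣ M) (hA : A.LiesOverPrime p) (h5 : 5 ≤ p)
    {τ' : LaurentSeries ℤ} (hτ' : jqModC ℤ * τ' = 1)
    (r : Place Qb (modularFunctionFieldBar M) →
      Place (ResidueField A) (modularFunctionFieldFullC (ResidueField A) M))
    (hr : GrdIsRed M A (grdi_mem_j M) (grdi_mem_jinv M hτ') r)
    (hK₁ : TtrpKron M p A (heckeAlphaBar Qb M p) (grdQ M (grdi_mem_j M)) (ttrY M A))
    (hK₂ : TtrpKron M p A (heckeBetaBar Qb M p) (grdQ M (grdi_mem_j M)) (ttrJ M A))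
    (val₁ : ∀ (P : Place Qb ↥(modularFunctionFieldBar (M * p)))
      (Q : Place (ResidueField A) ↥(modularFunctionFieldFullC (ResidueField A) M)),
      ttrpCls M p A r (heckeAlphaBar Qb M p (grdQ M (grdi_mem_j M))) (ttrU2 M A)
        (heckeBetaBar Qb M p (grdQ M (grdi_mem_j M))) (-ttrU1 M A) P = some (Sum.inl Q) →
      ∀ (x : ↥(modularFunctionFieldBar (M * p))) (hx₁ : x ∈ ttrV1 M A hpM hA)
        (hx₂ : x ∈ ttalV2 (ttrV1 M A hpM hA) (ttrW M hpM)),
        (∀ P' : Place Qb ↥(modularFunctionFieldBar (M * p)),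
          ttrpCls M p A r (heckeAlphaBar Qb M p (grdQ M (grdi_mem_j M))) (ttrU2 M A)
            (heckeBetaBar Qb M p (grdQ M (grdi_mem_j M))) (-ttrU1 M A) P' = some (Sum.inl Q) →
          0 ≤ P'.ord x) →
        ∃ α : A, GrdVal P x (α : Qb) ∧ GrdVal Q (ttrRed1 M A hA ⟨x, hx₁⟩) (residue A α))
    (val₂ : ∀ (P : Place Qb ↥(modularFunctionFieldBar (M * p)))
      (Q : Place (ResidueField A) ↥(modularFunctionFieldFullC (ResidueField A) M)),
      ttrpCls M p A r (heckeAlphaBar Qb M p (grdQ M (grdi_mem_j M))) (ttrU2 M A)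
        (heckeBetaBar Qb M p (grdQ M (grdi_mem_j M))) (-ttrU1 M A) P = some (Sum.inr Q) →
      ∀ (x : ↥(modularFunctionFieldBar (M * p))) (hx₁ : x ∈ ttrV1 M A hpM hA)
        (hx₂ : x ∈ ttalV2 (ttrV1 M A hpM hA) (ttrW M hpM)),
        (∀ P' : Place Qb ↥(modularFunctionFieldBar (M * p)),
          ttrpCls M p A r (heckeAlphaBar Qb M p (grdQ M (grdi_mem_j M))) (ttrU2 M A)
            (heckeBetaBar Qb M p (grdQ M (grdi_mem_j M))) (-ttrU1 M A) P' = some (Sum.inr Q) →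
          0 ≤ P'.ord x) →
        ∃ α : A, GrdVal P x (α : Qb) ∧
          GrdVal Q (ttalRed2 (ttrV1 M A hpM hA) (ttrW M hpM) (ttrRed1 M A hA) ⟨x, hx₂⟩)
            (residue A α)) :
    ∀ (x : ↥(modularFunctionFieldBar (M * p))) (hx₁ : x ∈ ttrV1 M A hpM hA)
      (hx₂ : x ∈ ttalV2 (ttrV1 M A hpM hA) (ttrW M hpM)) (c : ResidueField A), c ≠ 0 → x ≠ 0 →
      (∀ v : Place Qb ↥(modularFunctionFieldBar (M * p)),
        ttrpCls M p A r (heckeAlphaBar Qb M p (grdQ M (grdi_mem_j M))) (ttrU2 M A)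
          (heckeBetaBar Qb M p (grdQ M (grdi_mem_j M))) (-ttrU1 M A) v = none → 0 ≤ v.ord x) →
      ttrRed1 M A hA ⟨x, hx₁⟩ =
        algebraMap (ResidueField A) ↥(modularFunctionFieldFullC (ResidueField A) M) c →
      ttalRed2 (ttrV1 M A hpM hA) (ttrW M hpM) (ttrRed1 M A hA) ⟨x, hx₂⟩ =
        algebraMap (ResidueField A) ↥(modularFunctionFieldFullC (ResidueField A) M) c →
      ∀ Dx : Divisor Qb ↥(modularFunctionFieldBar (M * p)),
        (∀ v : Place Qb ↥(modularFunctionFieldBar (M * p)), Dx v = v.ord x) →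
        (∀ v : Place Qb ↥(modularFunctionFieldBar (M * p)),
          ttrpCls M p A r (heckeAlphaBar Qb M p (grdQ M (grdi_mem_j M))) (ttrU2 M A)
            (heckeBetaBar Qb M p (grdQ M (grdi_mem_j M))) (-ttrU1 M A) v = none → Dx v = 0) ∧
        Finsupp.mapDomain (ttrpCls M p A r (heckeAlphaBar Qb M p (grdQ M (grdi_mem_j M)))
          (ttrU2 M A) (heckeBetaBar Qb M p (grdQ M (grdi_mem_j M))) (-ttrU1 M A)) Dx = 0 :=
  ttrli_const_kron M A hpM hA (ttrli_atlas_j M A hpM hA h5 hτ') r hr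
    (grdQ M (grdi_mem_j M)) (grdr_isInt_self M A _) (ttrY M A) (ttrJ M A) hK₁ hK₂
    (ttr_chart_Y_mem M A hpM hA) (ttrli_J_mem_beta M A hpM hA)
    (ttrU2 M A) (-ttrU1 M A) rfl (neg_sub _ _)
    (ttr_chart_j₁ M A hpM hA h5) (ttrli_chart_j₂_neg M A hpM hA h5)
    (Subring.neg_mem _ (ttr_chart_U1_mem M A hpM hA)) (ttr_chart_Y_mem M A hpM hA) val₁ val₂

/-- **THE FIELD `const` AT THE `j`-CHART (`p ≥ 5`), ANY SPELLING OF `v₁`, `v₂`** :
`v₁ = Y^p - J` (`rfl` for `ttrU2 M A`), `v₂ = J^p - Y` (`rfl` for `ttrJ M A ^ p - ttrY M A`,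
`neg_sub _ _` for `-ttrU1 M A`). -/
theorem ttrli_const_j_of (hpM : ¬ p ∣ M) (hA : A.LiesOverPrime p) (h5 : 5 ≤ p)
    {τ' : LaurentSeries ℤ} (hτ' : jqModC ℤ * τ' = 1)
    (r : Place Qb (modularFunctionFieldBar M) →
      Place (ResidueField A) (modularFunctionFieldFullC (ResidueField A) M))
    (hr : GrdIsRed M A (grdi_mem_j M) (grdi_mem_jinv M hτ') r)
    (hK₁ : TtrpKron M p A (heckeAlphaBar Qb M p) (grdQ M (grdi_mem_j M)) (ttrY M A))
    (hK₂ : TtrpKron M p A (heckeBetaBar Qb M p) (grdQ M (grdi_mem_j M)) (ttrJ M A))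
    (v₁ v₂ : modularFunctionFieldBar (M * p))
    (hv₁ : v₁ = ttrY M A ^ p - ttrJ M A) (hv₂ : v₂ = ttrJ M A ^ p - ttrY M A)
    (val₁ : ∀ (P : Place Qb ↥(modularFunctionFieldBar (M * p)))
      (Q : Place (ResidueField A) ↥(modularFunctionFieldFullC (ResidueField A) M)),
      ttrpCls M p A r (heckeAlphaBar Qb M p (grdQ M (grdi_mem_j M))) v₁
        (heckeBetaBar Qb M p (grdQ M (grdi_mem_j M))) v₂ P = some (Sum.inl Q) →
      ∀ (x : ↥(modularFunctionFieldBar (M * p))) (hx₁ : x ∈ ttrV1 M A hpM hA)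
        (hx₂ : x ∈ ttalV2 (ttrV1 M A hpM hA) (ttrW M hpM)),
        (∀ P' : Place Qb ↥(modularFunctionFieldBar (M * p)),
          ttrpCls M p A r (heckeAlphaBar Qb M p (grdQ M (grdi_mem_j M))) v₁
            (heckeBetaBar Qb M p (grdQ M (grdi_mem_j M))) v₂ P' = some (Sum.inl Q) →
          0 ≤ P'.ord x) →
        ∃ α : A, GrdVal P x (α : Qb) ∧ GrdVal Q (ttrRed1 M A hA ⟨x, hx₁⟩) (residue A α))
    (val₂ : ∀ (P : Place Qb ↥(modularFunctionFieldBar (M * p)))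
      (Q : Place (ResidueField A) ↥(modularFunctionFieldFullC (ResidueField A) M)),
      ttrpCls M p A r (heckeAlphaBar Qb M p (grdQ M (grdi_mem_j M))) v₁
        (heckeBetaBar Qb M p (grdQ M (grdi_mem_j M))) v₂ P = some (Sum.inr Q) →
      ∀ (x : ↥(modularFunctionFieldBar (M * p))) (hx₁ : x ∈ ttrV1 M A hpM hA)
        (hx₂ : x ∈ ttalV2 (ttrV1 M A hpM hA) (ttrW M hpM)),
        (∀ P' : Place Qb ↥(modularFunctionFieldBar (M * p)),
          ttrpCls M p A r (heckeAlphaBar Qb M p (grdQ M (grdi_mem_j M))) v₁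
            (heckeBetaBar Qb M p (grdQ M (grdi_mem_j M))) v₂ P' = some (Sum.inr Q) →
          0 ≤ P'.ord x) →
        ∃ α : A, GrdVal P x (α : Qb) ∧
          GrdVal Q (ttalRed2 (ttrV1 M A hpM hA) (ttrW M hpM) (ttrRed1 M A hA) ⟨x, hx₂⟩)
            (residue A α)) :
    ∀ (x : ↥(modularFunctionFieldBar (M * p))) (hx₁ : x ∈ ttrV1 M A hpM hA)
      (hx₂ : x ∈ ttalV2 (ttrV1 M A hpM hA) (ttrW M hpM)) (c : ResidueField A), c ≠ 0 → x ≠ 0 →
      (∀ v : Place Qb ↥(modularFunctionFieldBar (M * p)),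
        ttrpCls M p A r (heckeAlphaBar Qb M p (grdQ M (grdi_mem_j M))) v₁
          (heckeBetaBar Qb M p (grdQ M (grdi_mem_j M))) v₂ v = none → 0 ≤ v.ord x) →
      ttrRed1 M A hA ⟨x, hx₁⟩ =
        algebraMap (ResidueField A) ↥(modularFunctionFieldFullC (ResidueField A) M) c →
      ttalRed2 (ttrV1 M A hpM hA) (ttrW M hpM) (ttrRed1 M A hA) ⟨x, hx₂⟩ =
        algebraMap (ResidueField A) ↥(modularFunctionFieldFullC (ResidueField A) M) c →
      ∀ Dx : Divisor Qb ↥(modularFunctionFieldBar (M * p)),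
        (∀ v : Place Qb ↥(modularFunctionFieldBar (M * p)), Dx v = v.ord x) →
        (∀ v : Place Qb ↥(modularFunctionFieldBar (M * p)),
          ttrpCls M p A r (heckeAlphaBar Qb M p (grdQ M (grdi_mem_j M))) v₁
            (heckeBetaBar Qb M p (grdQ M (grdi_mem_j M))) v₂ v = none → Dx v = 0) ∧
        Finsupp.mapDomain (ttrpCls M p A r (heckeAlphaBar Qb M p (grdQ M (grdi_mem_j M)))
          v₁ (heckeBetaBar Qb M p (grdQ M (grdi_mem_j M))) v₂) Dx = 0 := by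
  have e₁ : v₁ = ttrU2 M A := hv₁
  have e₂ : v₂ = -ttrU1 M A := hv₂.trans (neg_sub _ _).symm
  subst e₁ e₂
  exact ttrli_const_j M A hpM hA h5 hτ' r hr hK₁ hK₂ val₁ val₂

end JChart

end Fermat.Agent.TT
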