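/-
(COUNT)/(NODE) adapter (prefix `ttrkT`): transversality (T) and the cusp condition (N-C) in the
VALUATION spelling of the NODE producers (ideals of `grdB (M p) 𝔸 u`, branch kernels written as
`V_j.nonunits`) give the ring-level inputs `hT`, `hT'`, `hcusp` of `ttrk_genus_le_T` on the
canonical two-chart model `ttrkT`.
-/
import Mathlib
import Fermat.Agent.TT.Red2.OntoT
import Fermat.Agent.TT.Alpha.OfRed

set_option autoImplicit false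
set_option linter.unusedSectionVars false
set_option linter.unusedVariables false
set_option linter.style.haveILetI false

noncomputable section

namespace Fermat.Agent.TT

open AlgebraicCurve ModularCurve IsLocalRing Fermat.Agent.G Fermat.Agent.FF Fermat.Agent.S24
  Fermat.Agent.V.RR

local notation "Qb" => AlgebraicClosure ℚ

/-- the maximal ideal of a pulled-back valuation ring -/
theorem ttrkT_nonunits_comap {F : Type*} [Field F] (V1 V2 : ValuationSubring F) (w : F ≃+* F)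
    (hV2 : ∀ x, x ∈ V2 ↔ w x ∈ V1) (x : F) : x ∈ V2.nonunits ↔ w x ∈ V1.nonunits := by
  rw [ValuationSubring.mem_nonunits_iff_or, ValuationSubring.mem_nonunits_iff_or, hV2, map_inv₀,
    EmbeddingLike.map_eq_zero_iff]

variable (M p : ℕ) [NeZero M] [NeZero p] [Fact p.Prime]
variable (A : ValuationSubring (AlgebraicClosure ℚ)) {τ τ' : LaurentSeries ℤ}

/-- `red x = (red₁ x, red₁ (w x))`, propositionally -/
theorem ttrkT_red_apply (hpM : ¬ p ∣ M) (hA : A.LiesOverPrime p) (x : ↥(ttrO2 M A hpM)) :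
    ttrRed M A hpM hA x =
      (ttrRed1 M A hA ⟨(x : modularFunctionFieldBar (M * p)), x.2.1⟩,
        ttrRed1 M A hA ⟨ttrW M hpM (x : modularFunctionFieldBar (M * p)), x.2.2⟩) :=
  ttrhRed_apply (grdO (M * p) A) (ttrW M hpM) (ttrRed1 M A hA) x

/-- the first branch kernel on `O₂` is `𝔪_{V₁}` -/
theorem ttrkT_fst_eq_zero_iff (hpM : ¬ p ∣ M) (hA : A.LiesOverPrime p)
    (x : ↥(ttrO2 M A hpM)) :
    (ttrRed M A hpM hA x).1 = 0 ↔
      (x : modularFunctionFieldBar (M * p)) ∈ (ttrV1 M A hpM hA).nonunits := by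
  rw [ttrkT_red_apply]
  exact ttal_red_ker (V := ttrV1 M A hpM hA) (red := ttrRed1 M A hA) (ttrvp_tb1 M A hpM hA) _

/-- the second branch kernel on `O₂` is `𝔪_{V₂}` -/
theorem ttrkT_snd_eq_zero_iff (hpM : ¬ p ∣ M) (hA : A.LiesOverPrime p)
    (V2 : ValuationSubring (modularFunctionFieldBar (M * p)))
    (hV2 : ∀ x, x ∈ V2 ↔ ttrW M hpM x ∈ grdO (M * p) A) (x : ↥(ttrO2 M A hpM)) :
    (ttrRed M A hpM hA x).2 = 0 ↔ (x : modularFunctionFieldBar (M * p)) ∈ V2.nonunits := by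
  rw [ttrkT_red_apply, ttrkT_nonunits_comap (ttrV1 M A hpM hA) V2 (ttrW M hpM) hV2]
  exact ttal_red_ker (V := ttrV1 M A hpM hA) (red := ttrRed1 M A hA) (ttrvp_tb1 M A hpM hA) _

/-- **`hT` of `ttrk_genus_le_T`** from (T) in the valuation spelling (helper19's `ttrn_T_*`
literal) for the chart ring `grdB (M p) 𝔸 (α τ_ℚ̄)`. -/
theorem ttrkT_hT (hpM : ¬ p ∣ M) (hA : A.LiesOverPrime p) (hat : GrdAtlas M A τ τ')
    (V2 : ValuationSubring (modularFunctionFieldBar (M * p)))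
    (hV2 : ∀ x, x ∈ V2 ↔ ttrW M hpM x ∈ grdO (M * p) A)
    (TB : ∀ 𝔫 : Ideal ↥(grdB (M * p) A (heckeAlphaBar Qb M p (grdQ M hat.c.mem))), 𝔫.IsMaximal →
      (∀ x : ↥(grdB (M * p) A (heckeAlphaBar Qb M p (grdQ M hat.c.mem))),
        (x : modularFunctionFieldBar (M * p)) ∈ (ttrV1 M A hpM hA).nonunits → x ∈ 𝔫) →
      (∀ x : ↥(grdB (M * p) A (heckeAlphaBar Qb M p (grdQ M hat.c.mem))),
        (x : modularFunctionFieldBar (M * p)) ∈ V2.nonunits → x ∈ 𝔫) →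
      ∀ x ∈ 𝔫, ∃ s, s ∉ 𝔫 ∧
        ∃ y₁ y₂ : ↥(grdB (M * p) A (heckeAlphaBar Qb M p (grdQ M hat.c.mem))),
          (y₁ : modularFunctionFieldBar (M * p)) ∈ (ttrV1 M A hpM hA).nonunits ∧
          (y₂ : modularFunctionFieldBar (M * p)) ∈ V2.nonunits ∧ s * x = y₁ + y₂) :
    ∀ 𝔫 : Ideal ↥(ttrkT M p A hpM hA hat).B, 𝔫.IsMaximal →
      RingHom.ker (ttrkR₁ (ttrkT M p A hpM hA hat)) ≤ 𝔫 →
      RingHom.ker (ttrkR₂ (ttrkT M p A hpM hA hat)) ≤ 𝔫 → ∀ x ∈ 𝔫, ∃ s, s ∉ 𝔫 ∧ ∃ y₁ y₂,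
        ttrkR₁ (ttrkT M p A hpM hA hat) y₁ = 0 ∧ ttrkR₂ (ttrkT M p A hpM hA hat) y₂ = 0 ∧
          s * x = y₁ + y₂ := by
  intro 𝔫 h𝔫 hk₁ hk₂ x hx
  have h1 : ∀ b : ↥(ttrkT M p A hpM hA hat).B,
      ttrkR₁ (ttrkT M p A hpM hA hat) b = 0 ↔
        (b : modularFunctionFieldBar (M * p)) ∈ (ttrV1 M A hpM hA).nonunits := fun b => by
    rw [ttrkT_R₁_apply]
    exact ttrkT_fst_eq_zero_iff M p A hpM hA _
  have h2 : ∀ b : ↥(ttrkT M p A hpM hA hat).B,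
      ttrkR₂ (ttrkT M p A hpM hA hat) b = 0 ↔
        (b : modularFunctionFieldBar (M * p)) ∈ V2.nonunits := fun b => by
    rw [ttrkT_R₂_apply]
    exact ttrkT_snd_eq_zero_iff M p A hpM hA V2 hV2 _
  obtain ⟨s, hs, y₁, y₂, hy₁, hy₂, e⟩ := TB 𝔫 h𝔫
    (fun b hb => hk₁ ((RingHom.mem_ker).2 ((h1 b).2 hb)))
    (fun b hb => hk₂ ((RingHom.mem_ker).2 ((h2 b).2 hb))) x hx
  exact ⟨s, hs, y₁, y₂, (h1 y₁).2 hy₁, (h2 y₂).2 hy₂, e⟩

/-- **`hT'` of `ttrk_genus_le_T`** from (T) in the valuation spelling for the inverse chart ring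
`grdB (M p) 𝔸 (α τ'_ℚ̄)`. -/
theorem ttrkT_hT' (hpM : ¬ p ∣ M) (hA : A.LiesOverPrime p) (hat : GrdAtlas M A τ τ')
    (V2 : ValuationSubring (modularFunctionFieldBar (M * p)))
    (hV2 : ∀ x, x ∈ V2 ↔ ttrW M hpM x ∈ grdO (M * p) A)
    (TB : ∀ 𝔫 : Ideal ↥(grdB (M * p) A (heckeAlphaBar Qb M p (grdQ M hat.c'.mem))),
      𝔫.IsMaximal →
      (∀ x : ↥(grdB (M * p) A (heckeAlphaBar Qb M p (grdQ M hat.c'.mem))),
        (x : modularFunctionFieldBar (M * p)) ∈ (ttrV1 M A hpM hA).nonunits → x ∈ 𝔫) →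
      (∀ x : ↥(grdB (M * p) A (heckeAlphaBar Qb M p (grdQ M hat.c'.mem))),
        (x : modularFunctionFieldBar (M * p)) ∈ V2.nonunits → x ∈ 𝔫) →
      ∀ x ∈ 𝔫, ∃ s, s ∉ 𝔫 ∧
        ∃ y₁ y₂ : ↥(grdB (M * p) A (heckeAlphaBar Qb M p (grdQ M hat.c'.mem))),
          (y₁ : modularFunctionFieldBar (M * p)) ∈ (ttrV1 M A hpM hA).nonunits ∧
          (y₂ : modularFunctionFieldBar (M * p)) ∈ V2.nonunits ∧ s * x = y₁ + y₂) :
    ∀ 𝔫 : Ideal ↥(ttrkT M p A hpM hA hat).B', 𝔫.IsMaximal →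
      RingHom.ker (ttrkR₁' (ttrkT M p A hpM hA hat)) ≤ 𝔫 →
      RingHom.ker (ttrkR₂' (ttrkT M p A hpM hA hat)) ≤ 𝔫 → ∀ x ∈ 𝔫, ∃ s, s ∉ 𝔫 ∧ ∃ y₁ y₂,
        ttrkR₁' (ttrkT M p A hpM hA hat) y₁ = 0 ∧ ttrkR₂' (ttrkT M p A hpM hA hat) y₂ = 0 ∧
          s * x = y₁ + y₂ := by
  intro 𝔫 h𝔫 hk₁ hk₂ x hx
  have h1 : ∀ b : ↥(ttrkT M p A hpM hA hat).B',
      ttrkR₁' (ttrkT M p A hpM hA hat) b = 0 ↔
        (b : modularFunctionFieldBar (M * p)) ∈ (ttrV1 M A hpM hA).nonunits := fun b => by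
    rw [ttrkT_R₁'_apply]
    exact ttrkT_fst_eq_zero_iff M p A hpM hA _
  have h2 : ∀ b : ↥(ttrkT M p A hpM hA hat).B',
      ttrkR₂' (ttrkT M p A hpM hA hat) b = 0 ↔
        (b : modularFunctionFieldBar (M * p)) ∈ V2.nonunits := fun b => by
    rw [ttrkT_R₂'_apply]
    exact ttrkT_snd_eq_zero_iff M p A hpM hA V2 hV2 _
  obtain ⟨s, hs, y₁, y₂, hy₁, hy₂, e⟩ := TB 𝔫 h𝔫
    (fun b hb => hk₁ ((RingHom.mem_ker).2 ((h1 b).2 hb)))
    (fun b hb => hk₂ ((RingHom.mem_ker).2 ((h2 b).2 hb))) x hx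
  exact ⟨s, hs, y₁, y₂, (h1 y₁).2 hy₁, (h2 y₂).2 hy₂, e⟩

/-- **`hcusp` of `ttrk_genus_le_T`** from (N-C) in the valuation spelling (helper19's 3911
literal) for the inverse chart ring. -/
theorem ttrkT_hcusp (hpM : ¬ p ∣ M) (hA : A.LiesOverPrime p) (hat : GrdAtlas M A τ τ')
    (V2 : ValuationSubring (modularFunctionFieldBar (M * p)))
    (hV2 : ∀ x, x ∈ V2 ↔ ttrW M hpM x ∈ grdO (M * p) A)
    (NC : ∀ 𝔫' : Ideal ↥(grdB (M * p) A (heckeAlphaBar Qb M p (grdQ M hat.c'.mem))),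
      𝔫'.IsPrime →
      (∀ x : ↥(grdB (M * p) A (heckeAlphaBar Qb M p (grdQ M hat.c'.mem))),
        (x : modularFunctionFieldBar (M * p)) ∈ (ttrV1 M A hpM hA).nonunits → x ∈ 𝔫') →
      (∀ x : ↥(grdB (M * p) A (heckeAlphaBar Qb M p (grdQ M hat.c'.mem))),
        (x : modularFunctionFieldBar (M * p)) ∈ V2.nonunits → x ∈ 𝔫') →
      (∀ h : heckeAlphaBar Qb M p (grdQ M hat.c'.mem) ∈
          grdB (M * p) A (heckeAlphaBar Qb M p (grdQ M hat.c'.mem)),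
        (⟨heckeAlphaBar Qb M p (grdQ M hat.c'.mem), h⟩ :
          ↥(grdB (M * p) A (heckeAlphaBar Qb M p (grdQ M hat.c'.mem)))) ∈ 𝔫') → False) :
    ∀ 𝔫 : Ideal ↥(ttrkT M p A hpM hA hat).B', 𝔫.IsMaximal →
      RingHom.ker (ttrkR₁' (ttrkT M p A hpM hA hat)) ≤ 𝔫 →
      RingHom.ker (ttrkR₂' (ttrkT M p A hpM hA hat)) ≤ 𝔫 →
      (⟨(ttrkT M p A hpM hA hat).u', (ttrkT M p A hpM hA hat).hu'⟩ :
        ↥(ttrkT M p A hpM hA hat).B') ∉ 𝔫 := by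
  intro 𝔫 h𝔫 hk₁ hk₂ hu
  have h1 : ∀ b : ↥(ttrkT M p A hpM hA hat).B',
      ttrkR₁' (ttrkT M p A hpM hA hat) b = 0 ↔
        (b : modularFunctionFieldBar (M * p)) ∈ (ttrV1 M A hpM hA).nonunits := fun b => by
    rw [ttrkT_R₁'_apply]
    exact ttrkT_fst_eq_zero_iff M p A hpM hA _
  have h2 : ∀ b : ↥(ttrkT M p A hpM hA hat).B',
      ttrkR₂' (ttrkT M p A hpM hA hat) b = 0 ↔
        (b : modularFunctionFieldBar (M * p)) ∈ V2.nonunits := fun b => by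
    rw [ttrkT_R₂'_apply]
    exact ttrkT_snd_eq_zero_iff M p A hpM hA V2 hV2 _
  exact NC 𝔫 h𝔫.isPrime
    (fun b hb => hk₁ ((RingHom.mem_ker).2 ((h1 b).2 hb)))
    (fun b hb => hk₂ ((RingHom.mem_ker).2 ((h2 b).2 hb))) (fun _ => hu)

end Fermat.Agent.TT
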