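import Mathlib
import Fermat.Agent.TT.Red2.CuspInt
import Fermat.Agent.TT.Red2.Inst

/-!
# Program TT (S33), (NODE), slice (N-C): no crossing where the chart coordinate `1/j` vanishes

Owner: helper25 (slice (N-C) of helper19's NODE split, chart `t' = 1/j`).  Namespace
`Fermat.Agent.TT`, prefix `ttrci`.

* `ttrci_no_cross` (Mathlib only): `B' ⊂ F` a subring, `V₁, V₂` valuation subrings, `J', g ∈ B'` with
  `g - 1 ∈ 𝔪_{V₁}` and `g^p - J'^(p²-1) ∈ 𝔪_{V₂}`.  Then no prime `𝔫'` of `B'` containing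
  `B' ∩ 𝔪_{V₁}`, `B' ∩ 𝔪_{V₂}` and `J'` exists.
* `ttrci_no_cross_series` : the same for `B' = grdB N A J'`, `g = Y J'^p`, with `J, Y ∈ F_ℚ̄(N)` given
  by their `q`-expansions (`ttrci_Y` of `CuspInt.lean` gives `g ∈ B'`).
* `ttrci_no_cross_level` : **(N-C) at level `M p`** for `V₁ = ttrV1 M A hpM hA` (helper12) and every
  `V₂` with `x ∈ V₂ ↔ ttrW M hpM x ∈ grdO (M p) A`, `J' = α (1/j)`.
-/

set_option autoImplicit false
set_option linter.unusedSectionVars false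
set_option linter.unusedVariables false

noncomputable section

namespace Fermat.Agent.TT

open Polynomial ModularCurve AlgebraicCurve IsLocalRing Fermat.Agent.S18 Fermat.Agent.G
  Fermat.Agent.SS

local notation "Qb" => AlgebraicClosure ℚ

section Abs

variable {F : Type*} [Field F]

/-- **(N-C), abstract form** -/
theorem ttrci_no_cross (B' : Subring F) (V1 V2 : ValuationSubring F) (J' g : F) (p : ℕ)
    (hp : 2 ≤ p) (hJ' : J' ∈ B') (hg : g ∈ B') (h1 : g - 1 ∈ V1.nonunits)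
    (h2 : g ^ p - J' ^ (p ^ 2 - 1) ∈ V2.nonunits) (𝔫' : Ideal ↥B') [h𝔫 : 𝔫'.IsPrime]
    (hV1 : ∀ x : ↥B', (x : F) ∈ V1.nonunits → x ∈ 𝔫')
    (hV2 : ∀ x : ↥B', (x : F) ∈ V2.nonunits → x ∈ 𝔫')
    (ht : (⟨J', hJ'⟩ : ↥B') ∈ 𝔫') : False := by
  set G : ↥B' := ⟨g, hg⟩ with hG
  set T : ↥B' := ⟨J', hJ'⟩ with hT
  have ha : G - 1 ∈ 𝔫' := hV1 (G - 1) h1
  have hb : G ^ p - T ^ (p ^ 2 - 1) ∈ 𝔫' := hV2 (G ^ p - T ^ (p ^ 2 - 1)) h2
  have hpos : 0 < p ^ 2 - 1 := by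
    have : 4 ≤ p ^ 2 := by nlinarith
    omega
  have hTp : T ^ (p ^ 2 - 1) ∈ 𝔫' := Ideal.pow_mem_of_mem 𝔫' ht _ hpos
  have hGp : G ^ p ∈ 𝔫' := by
    have := 𝔫'.add_mem hb hTp
    rwa [sub_add_cancel] at this
  have hGm : G ∈ 𝔫' := h𝔫.mem_of_pow_mem p hGp
  have h1m : (1 : ↥B') ∈ 𝔫' := by
    have := 𝔫'.sub_mem hGm ha
    rwa [sub_sub_cancel] at this
  exact h𝔫.ne_top ((Ideal.eq_top_iff_one 𝔫').mpr h1m)

/-- a non-unit times an element of a valuation ring is a non-unit -/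
theorem ttrci_mul_mem_nonunits (V : ValuationSubring F) {x y : F} (hx : x ∈ V.nonunits)
    (hy : y ∈ V) : x * y ∈ V.nonunits := by
  rw [ValuationSubring.mem_nonunits_iff, map_mul] at *
  exact mul_lt_one_of_nonneg_of_lt_one_left zero_le hx ((V.valuation_le_one_iff y).mpr hy)

end Abs

section Series

variable (N : ℕ) [NeZero N] {p : ℕ} [Fact p.Prime] (A : ValuationSubring Qb)

/-- **(N-C)** for `J, Y` given by their `q`-expansions, `V₁, V₂` abstract -/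
theorem ttrci_no_cross_series (hA : A.LiesOverPrime p) {J J' Y : modularFunctionFieldBar N}
    (hJ : ((J : modularFunctionFieldBar N) : LaurentSeries Qb) = jqModC Qb)
    (hY : haveI : NeZero p := ⟨(Fact.out : p.Prime).ne_zero⟩
      ((Y : modularFunctionFieldBar N) : LaurentSeries Qb) = qExpand Qb p (jqModC Qb))
    (hJJ' : J * J' = 1) (V1 V2 : ValuationSubring (modularFunctionFieldBar N))
    (hu1 : Y - J ^ p ∈ V1.nonunits) (hJ'1 : J' ∈ V1)
    (hu2 : Y ^ p - J ∈ V2.nonunits) (hJ'2 : J' ∈ V2)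
    (𝔫' : Ideal ↥(grdB N A J')) [𝔫'.IsPrime]
    (hV1 : ∀ x : ↥(grdB N A J'), (x : modularFunctionFieldBar N) ∈ V1.nonunits → x ∈ 𝔫')
    (hV2 : ∀ x : ↥(grdB N A J'), (x : modularFunctionFieldBar N) ∈ V2.nonunits → x ∈ 𝔫')
    (ht : (⟨J', ttrci_self N A J'⟩ : ↥(grdB N A J')) ∈ 𝔫') : False := by
  have hp : p.Prime := Fact.out
  have hp2 : p ^ 2 = (p ^ 2 - 1) + 1 := (Nat.sub_add_cancel (Nat.one_le_pow _ _ hp.pos)).symm
  have e1 : Y * J' ^ p - 1 = (Y - J ^ p) * J' ^ p := by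
    rw [sub_mul, ← mul_pow, hJJ', one_pow]
  have e2 : (Y * J' ^ p) ^ p - J' ^ (p ^ 2 - 1) = (Y ^ p - J) * J' ^ (p ^ 2) := by
    have h2 : J * J' ^ (p ^ 2) = J' ^ (p ^ 2 - 1) := by
      conv_lhs => rw [hp2, pow_succ, ← mul_assoc, mul_comm J, mul_assoc, hJJ', mul_one]
    rw [sub_mul, h2, mul_pow, ← pow_mul, sq]
  refine ttrci_no_cross (grdB N A J') V1 V2 J' (Y * J' ^ p) p hp.two_le (ttrci_self N A J')
    (ttrci_Y N A hA hJ hY hJJ') ?_ ?_ 𝔫' hV1 hV2 ht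
  · rw [e1]
    exact ttrci_mul_mem_nonunits V1 hu1 (V1.pow_mem hJ'1 p)
  · rw [e2]
    exact ttrci_mul_mem_nonunits V2 hu2 (V2.pow_mem hJ'2 _)

end Series

section Level

variable (M : ℕ) [NeZero M] {p : ℕ} [Fact p.Prime] [NeZero p] (A : ValuationSubring Qb)

/-- an element of `V₁` with `red₁ = 0` is a non-unit of `V₁` -/
theorem ttrci_mem_nonunits_V1 (hpM : ¬ p ∣ M) (hA : A.LiesOverPrime p)
    (x : ↥(grdO (M * p) A)) (hx : ttrRed1 M A hA x = 0) :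
    (x : modularFunctionFieldBar (M * p)) ∈ (ttrV1 M A hpM hA).nonunits := by
  rw [ValuationSubring.mem_nonunits_iff_or]
  by_cases h0 : (x : modularFunctionFieldBar (M * p)) = 0
  · exact Or.inl h0
  right
  intro hinv
  have hinv' : ((x : modularFunctionFieldBar (M * p)))⁻¹ ∈ grdO (M * p) A := hinv
  have h1 : x * ⟨_, hinv'⟩ = 1 := Subtype.ext (mul_inv_cancel₀ h0)
  have h2 := congrArg (ttrRed1 M A hA) h1
  rw [map_mul, hx, zero_mul, map_one] at h2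
  exact zero_ne_one h2

/-- **(N-C) at level `M p`, chart `t' = α (1/j)`**: no prime of the cusp chart ring
`B' = grdB (M p) A t'` lies under both components and over `t' = 0`. -/
theorem ttrci_no_cross_level (hpM : ¬ p ∣ M) (hA : A.LiesOverPrime p) {τ' : LaurentSeries ℤ}
    (hτ' : jqModC ℤ * τ' = 1) (V2 : ValuationSubring (modularFunctionFieldBar (M * p)))
    (hV2def : ∀ x, x ∈ V2 ↔ ttrW M hpM x ∈ grdO (M * p) A)
    (𝔫' : Ideal ↥(grdB (M * p) A (heckeAlphaBar Qb M p (grdQ M (grdi_mem_jinv M hτ')))))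
    [𝔫'.IsPrime]
    (hV1 : ∀ x : ↥(grdB (M * p) A (heckeAlphaBar Qb M p (grdQ M (grdi_mem_jinv M hτ')))),
      (x : modularFunctionFieldBar (M * p)) ∈ (ttrV1 M A hpM hA).nonunits → x ∈ 𝔫')
    (hV2 : ∀ x : ↥(grdB (M * p) A (heckeAlphaBar Qb M p (grdQ M (grdi_mem_jinv M hτ')))),
      (x : modularFunctionFieldBar (M * p)) ∈ V2.nonunits → x ∈ 𝔫')
    (ht : (⟨heckeAlphaBar Qb M p (grdQ M (grdi_mem_jinv M hτ')),
      ttrci_self (M * p) A _⟩ :
        ↥(grdB (M * p) A (heckeAlphaBar Qb M p (grdQ M (grdi_mem_jinv M hτ'))))) ∈ 𝔫') :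
    False := by
  have hJ : ((ttrJ M A (p := p) : modularFunctionFieldBar (M * p)) : LaurentSeries Qb) =
      jqModC Qb := by
    unfold ttrJ
    rw [coe_heckeAlphaBar]
    exact grdi_grdSer_j Qb
  have hY : ((ttrY M A (p := p) : modularFunctionFieldBar (M * p)) : LaurentSeries Qb) =
      qExpand Qb p (jqModC Qb) := by
    unfold ttrY
    rw [coe_heckeBetaBar]
    exact congrArg (qExpand Qb p) (grdi_grdSer_j Qb)
  have hJJ' : ttrJ M A (p := p) * heckeAlphaBar Qb M p (grdQ M (grdi_mem_jinv M hτ')) = 1 := by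
    unfold ttrJ
    rw [← map_mul]
    have : ((ttrJ0 M A : ↥(grdO M A)) : modularFunctionFieldBar M) *
        grdQ M (grdi_mem_jinv M hτ') = 1 := by
      show grdQ M (grdi_mem_j M) * grdQ M (grdi_mem_jinv M hτ') = 1
      rw [grdi_grdQ_j, grdi_grdQ_jinv M hτ']
      exact mul_inv_cancel₀
        (fun h => Fermat.Agent.S24.transcendental_jBar M (h ▸ isAlgebraic_zero))
    rw [this, map_one]
  -- `J' ∈ V₁`, `J' ∈ V₂`
  have hτmem : grdQ M (grdi_mem_jinv M hτ') ∈ grdO M A := grdQ_mem_grdO M A _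
  have hJ'1 : heckeAlphaBar Qb M p (grdQ M (grdi_mem_jinv M hτ')) ∈ ttrV1 M A hpM hA :=
    ttr_alpha_mem M A hτmem
  have hJ'2 : heckeAlphaBar Qb M p (grdQ M (grdi_mem_jinv M hτ')) ∈ V2 := by
    rw [hV2def, ttrW_alpha]
    exact ttr_beta_mem M A hτmem
  -- `u₁ ∈ 𝔪_{V₁}`, `u₂ ∈ 𝔪_{V₂}`
  have hu1 : ttrY M A (p := p) - ttrJ M A (p := p) ^ p ∈ (ttrV1 M A hpM hA).nonunits :=
    ttrci_mem_nonunits_V1 M A hpM hA ⟨ttrU1 M A, ttrU1_mem M A⟩ (ttrRed1_U1 M A hA)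
  have hu2 : ttrY M A (p := p) ^ p - ttrJ M A (p := p) ∈ V2.nonunits := by
    have hw : ttrW M hpM (ttrU2 M A (p := p)) = -ttrU1 M A := ttrW_U2 M A hpM
    rw [ValuationSubring.mem_nonunits_iff_or]
    by_cases h0 : ttrU2 M A (p := p) = 0
    · exact Or.inl h0
    right
    intro hinv
    rw [hV2def, map_inv₀] at hinv
    have hinv1 : (ttrU1 M A (p := p))⁻¹ ∈ ttrV1 M A hpM hA := by
      have : (ttrU1 M A (p := p))⁻¹ = -(ttrW M hpM (ttrU2 M A (p := p)))⁻¹ := by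
        rw [hw, inv_neg, neg_neg]
      rw [this]
      exact (ttrV1 M A hpM hA).neg_mem _ hinv
    have hnu := hu1
    rw [ValuationSubring.mem_nonunits_iff_or] at hnu
    rcases hnu with h | h
    · apply h0
      have hw0 : ttrW M hpM (ttrU2 M A (p := p)) = 0 := by
        rw [hw]
        show -(ttrY M A (p := p) - ttrJ M A (p := p) ^ p) = 0
        rw [h, neg_zero]
      exact (map_eq_zero_iff _ (ttrW M hpM).injective).mp hw0
    · exact h hinv1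
  exact ttrci_no_cross_series (M * p) A hA hJ hY hJJ' (ttrV1 M A hpM hA) V2 hu1 hJ'1 hu2 hJ'2
    𝔫' hV1 hV2 ht

end Level

end Fermat.Agent.TT
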