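import Mathlib

/-!
# PROGRAM TT (S33), G/Red₂, NODE : (N-B) NODE-INV, transfer of transversality to the inverse chart

Owner: helper10.  Namespace `Fermat.Agent.TT`, prefix `ttrni`.  Mathlib only.  Literal = helper19's
(N-B) of board 3911.

`B, B' ⊂ F` two chart rings inside two valuation rings `V1, V2` of a field `F`; `u ∈ B`,
`u' = u⁻¹ ∈ B'` the chart coordinates; every element of `B` is pushed into `B'` by a power of `u'`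
and conversely.  `𝔫'` a maximal ideal of `B'` (a crossing point : it contains `𝔪_{V1} ∩ B'` and
`𝔪_{V2} ∩ B'`) which does NOT contain `u'` (the point also lies in the chart `B`), with residue
field generated by constants (`hres`).  If transversality (T) holds at every crossing point of `B`
(`TB`), then it holds at `𝔫'`.

* `ttrniSet`, `ttrniIdeal` : the point `𝔫 = {b ∈ B | b u'^n ∈ 𝔫' for some (any) n}` of `B`;
* `ttrni_isMaximal`       : it is a maximal ideal;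
* `ttrni_inv`             : (N-B).
-/

set_option autoImplicit false
set_option linter.unusedVariables false

namespace Fermat.Agent.TT

variable {F : Type*} [Field F]

/-- `𝔪_V` absorbs multiplication by `V`. -/
theorem ttrni_mul_mem_nonunits (V : ValuationSubring F) {a b : F} (ha : a ∈ V.nonunits)
    (hb : b ∈ V) : a * b ∈ V.nonunits := by
  rw [ValuationSubring.mem_nonunits_iff] at ha ⊢
  rw [map_mul]
  have hb' : V.valuation b ≤ 1 := (V.valuation_le_one_iff b).mpr hb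
  calc V.valuation a * V.valuation b ≤ V.valuation a * 1 := mul_le_mul_right hb' _
    _ = V.valuation a := mul_one _
    _ < 1 := ha

section Ideal

variable (B B' : Subring F) (u' : F) (hu' : u' ∈ B') (𝔫' : Ideal ↥B')

/-- membership in the point of `B` below `𝔫'` : some `b u'^n` lies in `𝔫'`. -/
def ttrniSet : Set ↥B :=
  {b | ∃ (n : ℕ) (y : ↥B'), (y : F) = (b : F) * u' ^ n ∧ y ∈ 𝔫'}

variable {B B' u' 𝔫'}

/-- powers of `u'` stay outside the prime `𝔫'`. -/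
theorem ttrni_pow_notMem (h𝔫' : 𝔫'.IsPrime) (hu𝔫 : (⟨u', hu'⟩ : ↥B') ∉ 𝔫') (k : ℕ) :
    (⟨u', hu'⟩ : ↥B') ^ k ∉ 𝔫' := fun hk => hu𝔫 (h𝔫'.mem_of_pow_mem k hk)

/-- INDEPENDENCE OF THE EXPONENT : if `b u'^n ∈ 𝔫'` then every `b u'^m ∈ B'` lies in `𝔫'`. -/
theorem ttrni_indep (h𝔫' : 𝔫'.IsPrime) (hu𝔫 : (⟨u', hu'⟩ : ↥B') ∉ 𝔫') {b : F} {n m : ℕ}
    {y z : ↥B'} (hy : (y : F) = b * u' ^ n) (hz : (z : F) = b * u' ^ m) (h : y ∈ 𝔫') : z ∈ 𝔫' := by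
  have e : z * (⟨u', hu'⟩ : ↥B') ^ n = y * (⟨u', hu'⟩ : ↥B') ^ m := by
    apply Subtype.ext
    simp only [Subring.coe_mul, Subring.coe_pow, hy, hz]
    ring
  have h1 : z * (⟨u', hu'⟩ : ↥B') ^ n ∈ 𝔫' := by
    rw [e]
    exact 𝔫'.mul_mem_right _ h
  exact (h𝔫'.mem_or_mem h1).resolve_right (ttrni_pow_notMem hu' h𝔫' hu𝔫 n)

variable (B B' u' 𝔫')

/-- THE POINT OF `B` BELOW `𝔫'`. -/
def ttrniIdeal (hpole : ∀ b ∈ B, ∃ n : ℕ, b * u' ^ n ∈ B') (h𝔫' : 𝔫'.IsPrime)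
    (hu𝔫 : (⟨u', hu'⟩ : ↥B') ∉ 𝔫') : Ideal ↥B where
  carrier := ttrniSet B B' u' 𝔫'
  zero_mem' := ⟨0, 0, by simp, 𝔫'.zero_mem⟩
  add_mem' := by
    rintro a b ⟨n, y, hy, hyn⟩ ⟨m, z, hz, hzn⟩
    refine ⟨n + m, y * (⟨u', hu'⟩ : ↥B') ^ m + z * (⟨u', hu'⟩ : ↥B') ^ n, ?_, ?_⟩
    · simp only [Subring.coe_add, Subring.coe_mul, Subring.coe_pow, hy, hz]
      ring
    · exact 𝔫'.add_mem (𝔫'.mul_mem_right _ hyn) (𝔫'.mul_mem_right _ hzn)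
  smul_mem' := by
    rintro c b ⟨n, y, hy, hyn⟩
    obtain ⟨m, hm⟩ := hpole c c.2
    refine ⟨m + n, (⟨(c : F) * u' ^ m, hm⟩ : ↥B') * y, ?_, 𝔫'.mul_mem_left _ hyn⟩
    simp only [smul_eq_mul, Subring.coe_mul, hy]
    ring

variable {B B' u' 𝔫'}

theorem ttrni_mem_ideal (hpole : ∀ b ∈ B, ∃ n : ℕ, b * u' ^ n ∈ B') (h𝔫' : 𝔫'.IsPrime)
    (hu𝔫 : (⟨u', hu'⟩ : ↥B') ∉ 𝔫') (b : ↥B) :
    b ∈ ttrniIdeal B B' u' hu' 𝔫' hpole h𝔫' hu𝔫 ↔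
      ∃ (n : ℕ) (y : ↥B'), (y : F) = (b : F) * u' ^ n ∧ y ∈ 𝔫' := Iff.rfl

/-- membership can be tested on ANY exponent pushing `b` into `B'`. -/
theorem ttrni_mem_ideal_iff (hpole : ∀ b ∈ B, ∃ n : ℕ, b * u' ^ n ∈ B') (h𝔫' : 𝔫'.IsPrime)
    (hu𝔫 : (⟨u', hu'⟩ : ↥B') ∉ 𝔫') (b : ↥B) {n : ℕ} (z : ↥B') (hz : (z : F) = (b : F) * u' ^ n) :
    b ∈ ttrniIdeal B B' u' hu' 𝔫' hpole h𝔫' hu𝔫 ↔ z ∈ 𝔫' := by
  rw [ttrni_mem_ideal]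
  constructor
  · rintro ⟨m, y, hy, hym⟩
    exact ttrni_indep hu' h𝔫' hu𝔫 hy hz hym
  · intro h
    exact ⟨n, z, hz, h⟩

/-- THE POINT BELOW A MAXIMAL IDEAL WITH CONSTANT RESIDUES IS MAXIMAL. -/
theorem ttrni_isMaximal (hpole : ∀ b ∈ B, ∃ n : ℕ, b * u' ^ n ∈ B') (h𝔫' : 𝔫'.IsMaximal)
    (hu𝔫 : (⟨u', hu'⟩ : ↥B') ∉ 𝔫')
    (A₀ : Subring F) (hA₀ : ∀ a ∈ A₀, a ∈ B ∧ a ∈ B')
    (hres : ∀ x : ↥B', ∃ a ∈ A₀, ∀ h : (x : F) - a ∈ B', (⟨(x : F) - a, h⟩ : ↥B') ∈ 𝔫') :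
    (ttrniIdeal B B' u' hu' 𝔫' hpole h𝔫'.isPrime hu𝔫).IsMaximal := by
  have hp := h𝔫'.isPrime
  rw [Ideal.isMaximal_iff]
  constructor
  · -- `1 ∉ 𝔫`
    intro h
    rw [ttrni_mem_ideal_iff hu' hpole hp hu𝔫 1 (n := 0) 1 (by simp)] at h
    exact hp.ne_top ((Ideal.eq_top_iff_one _).mpr h)
  · intro J b hle hb hbJ
    -- push `b` into `B'`
    obtain ⟨n, hn⟩ := hpole b b.2
    set z : ↥B' := ⟨(b : F) * u' ^ n, hn⟩ with hzdef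
    have hz : z ∉ 𝔫' := fun h =>
      hb ((ttrni_mem_ideal_iff hu' hpole hp hu𝔫 b z rfl).mpr h)
    -- an inverse of `z` modulo `𝔫'`
    obtain ⟨y, hy⟩ := Ideal.IsMaximal.exists_inv h𝔫' hz
    obtain ⟨i, hi, hyi⟩ := hy
    -- constants congruent to `y` and to `u'^n`
    obtain ⟨a, haA, ha⟩ := hres y
    obtain ⟨a', ha'A, ha'⟩ := hres ((⟨u', hu'⟩ : ↥B') ^ n)
    have haB' : a ∈ B' := (hA₀ a haA).2
    have ha'B' : a' ∈ B' := (hA₀ a' ha'A).2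
    have h1 : y - (⟨a, haB'⟩ : ↥B') ∈ 𝔫' := by
      have := ha (B'.sub_mem y.2 haB')
      exact this
    have h2 : (⟨u', hu'⟩ : ↥B') ^ n - (⟨a', ha'B'⟩ : ↥B') ∈ 𝔫' := by
      have := ha' (B'.sub_mem ((⟨u', hu'⟩ : ↥B') ^ n).2 ha'B')
      exact this
    -- `c := a a' ∈ B` is an inverse of `b` modulo `𝔫`
    set c : ↥B := ⟨a, (hA₀ a haA).1⟩ * ⟨a', (hA₀ a' ha'A).1⟩ with hcdef
    have hkey : b * c - 1 ∈ ttrniIdeal B B' u' hu' 𝔫' hpole hp hu𝔫 := by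
      -- test on the exponent `n` : `(b c - 1) u'^n = a a' z - u'^n`
      set w : ↥B' := (⟨a, haB'⟩ : ↥B') * ⟨a', ha'B'⟩ * z - (⟨u', hu'⟩ : ↥B') ^ n with hwdef
      have hw : (w : F) = ((b * c - 1 : ↥B) : F) * u' ^ n := by
        simp only [hwdef, hzdef, hcdef, AddSubgroupClass.coe_sub, Subring.coe_mul, Subring.coe_pow,
          Subring.coe_one]
        ring
      rw [ttrni_mem_ideal_iff hu' hpole hp hu𝔫 _ w hw]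
      -- `w = a' (a z - 1) - (u'^n - a')`, `a z - 1 = -(y - a) z + (y z - 1)`
      have hyz : y * z - 1 ∈ 𝔫' := by
        have e : y * z - 1 = -i := by
          have : y * z + i = 1 := hyi
          linear_combination this
        rw [e]
        exact 𝔫'.neg_mem hi
      have e : w = (⟨a', ha'B'⟩ : ↥B') * (-(y - (⟨a, haB'⟩ : ↥B')) * z + (y * z - 1)) -
          ((⟨u', hu'⟩ : ↥B') ^ n - (⟨a', ha'B'⟩ : ↥B')) := by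
        rw [hwdef]
        ring
      rw [e]
      refine 𝔫'.sub_mem (𝔫'.mul_mem_left _ (𝔫'.add_mem ?_ hyz)) h2
      exact 𝔫'.mul_mem_right _ (𝔫'.neg_mem h1)
    have h3 : b * c ∈ J := J.mul_mem_right _ hbJ
    have h4 : b * c - 1 ∈ J := hle hkey
    have h5 : (1 : ↥B) = b * c - (b * c - 1) := by ring
    rw [h5]
    exact J.sub_mem h3 h4

end Ideal

/-- **(N-B) NODE-INV** : transversality (T) at the crossing points of the chart `B` gives (T) at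
every crossing point `𝔫'` of the inverse chart `B'` off `u' = 0`. -/
theorem ttrni_inv (B B' : Subring F) (V1 V2 : ValuationSubring F)
    (hB : ∀ x ∈ B, x ∈ V1 ∧ x ∈ V2) (hB' : ∀ x ∈ B', x ∈ V1 ∧ x ∈ V2)
    (u u' : F) (huu' : u * u' = 1) (hu : u ∈ B) (hu' : u' ∈ B')
    (hpole : ∀ b ∈ B, ∃ n : ℕ, b * u' ^ n ∈ B') (hpole' : ∀ b' ∈ B', ∃ n : ℕ, b' * u ^ n ∈ B)
    (A₀ : Subring F) (hA₀ : ∀ a ∈ A₀, a ∈ B ∧ a ∈ B')
    (hunit : ∀ a ∈ A₀, a ∉ V1.nonunits → a⁻¹ ∈ A₀)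
    (TB : ∀ 𝔫 : Ideal ↥B, 𝔫.IsMaximal →
      (∀ x : ↥B, (x : F) ∈ V1.nonunits → x ∈ 𝔫) → (∀ x : ↥B, (x : F) ∈ V2.nonunits → x ∈ 𝔫) →
      ∀ x ∈ 𝔫, ∃ s : ↥B, s ∉ 𝔫 ∧ ∃ y₁ y₂ : ↥B,
        (y₁ : F) ∈ V1.nonunits ∧ (y₂ : F) ∈ V2.nonunits ∧ s * x = y₁ + y₂)
    (𝔫' : Ideal ↥B') (h𝔫' : 𝔫'.IsMaximal)
    (h1 : ∀ x : ↥B', (x : F) ∈ V1.nonunits → x ∈ 𝔫')
    (h2 : ∀ x : ↥B', (x : F) ∈ V2.nonunits → x ∈ 𝔫')
    (hu𝔫 : (⟨u', hu'⟩ : ↥B') ∉ 𝔫')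
    (hres : ∀ x : ↥B', ∃ a ∈ A₀, ∀ h : (x : F) - a ∈ B', (⟨(x : F) - a, h⟩ : ↥B') ∈ 𝔫') :
    ∀ x ∈ 𝔫', ∃ s : ↥B', s ∉ 𝔫' ∧ ∃ y₁ y₂ : ↥B',
      (y₁ : F) ∈ V1.nonunits ∧ (y₂ : F) ∈ V2.nonunits ∧ s * x = y₁ + y₂ := by
  intro x hx
  have hp := h𝔫'.isPrime
  set 𝔫 : Ideal ↥B := ttrniIdeal B B' u' hu' 𝔫' hpole hp hu𝔫 with h𝔫def
  have hmax : 𝔫.IsMaximal := ttrni_isMaximal hu' hpole h𝔫' hu𝔫 A₀ hA₀ hres
  have hu'V1 : ∀ k : ℕ, u' ^ k ∈ V1 := fun k => V1.pow_mem (hB' u' hu').1 k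
  have hu'V2 : ∀ k : ℕ, u' ^ k ∈ V2 := fun k => V2.pow_mem (hB' u' hu').2 k
  -- `𝔫` contains `𝔪_{V_j} ∩ B`
  have hn1 : ∀ b : ↥B, (b : F) ∈ V1.nonunits → b ∈ 𝔫 := by
    intro b hb
    obtain ⟨n, hn⟩ := hpole b b.2
    exact ⟨n, ⟨_, hn⟩, rfl, h1 _ (ttrni_mul_mem_nonunits V1 hb (hu'V1 n))⟩
  have hn2 : ∀ b : ↥B, (b : F) ∈ V2.nonunits → b ∈ 𝔫 := by
    intro b hb
    obtain ⟨n, hn⟩ := hpole b b.2
    exact ⟨n, ⟨_, hn⟩, rfl, h2 _ (ttrni_mul_mem_nonunits V2 hb (hu'V2 n))⟩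
  -- push `x` into `B` : `x u^m ∈ 𝔫`
  obtain ⟨m, hm⟩ := hpole' x x.2
  have huu'm : u ^ m * u' ^ m = 1 := by rw [← mul_pow, huu', one_pow]
  have hxm : (⟨(x : F) * u ^ m, hm⟩ : ↥B) ∈ 𝔫 := by
    refine ⟨m, x, ?_, hx⟩
    show (x : F) = (x : F) * u ^ m * u' ^ m
    rw [mul_assoc, huu'm, mul_one]
  obtain ⟨s, hs, y₁, y₂, hy₁, hy₂, hsum⟩ := TB 𝔫 hmax hn1 hn2 _ hxm
  -- push `s`, `y₁`, `y₂` back into `B'`
  obtain ⟨ns, hns⟩ := hpole s s.2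
  obtain ⟨n₁, hn₁⟩ := hpole y₁ y₁.2
  obtain ⟨n₂, hn₂⟩ := hpole y₂ y₂.2
  set U : ↥B' := ⟨u', hu'⟩ with hUdef
  have hs' : (⟨(s : F) * u' ^ ns, hns⟩ : ↥B') ∉ 𝔫' := fun h => hs ⟨ns, _, rfl, h⟩
  refine ⟨⟨(s : F) * u' ^ ns, hns⟩ * U ^ (n₁ + n₂), ?_,
    ⟨(y₁ : F) * u' ^ n₁, hn₁⟩ * U ^ (ns + n₂ + m), ⟨(y₂ : F) * u' ^ n₂, hn₂⟩ * U ^ (ns + n₁ + m),
    ?_, ?_, ?_⟩
  · intro h
    rcases hp.mem_or_mem h with h | h
    · exact hs' h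
    · exact ttrni_pow_notMem hu' hp hu𝔫 _ h
  · simp only [Subring.coe_mul, Subring.coe_pow, hUdef]
    exact ttrni_mul_mem_nonunits V1 (ttrni_mul_mem_nonunits V1 hy₁ (hu'V1 n₁)) (hu'V1 _)
  · simp only [Subring.coe_mul, Subring.coe_pow, hUdef]
    exact ttrni_mul_mem_nonunits V2 (ttrni_mul_mem_nonunits V2 hy₂ (hu'V2 n₂)) (hu'V2 _)
  · apply Subtype.ext
    have hsumF : (s : F) * ((x : F) * u ^ m) = (y₁ : F) + (y₂ : F) := by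
      have := congrArg (fun t : ↥B => (t : F)) hsum
      simpa only [Subring.coe_mul, Subring.coe_add] using this
    simp only [Subring.coe_mul, Subring.coe_pow, Subring.coe_add, hUdef]
    -- multiply `s x u^m = y₁ + y₂` by `u'^(ns + n₁ + n₂ + m)`
    have e1 : (s : F) * u' ^ ns * u' ^ (n₁ + n₂) * (x : F) =
        (s : F) * ((x : F) * u ^ m) * u' ^ (ns + n₁ + n₂ + m) := by
      have : u' ^ (ns + n₁ + n₂ + m) = u' ^ ns * u' ^ (n₁ + n₂) * u' ^ m := by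
        rw [← pow_add, ← pow_add]
        congr 1
        ring
      rw [this]
      calc (s : F) * u' ^ ns * u' ^ (n₁ + n₂) * (x : F)
          = (s : F) * u' ^ ns * u' ^ (n₁ + n₂) * (x : F) * (u ^ m * u' ^ m) := by
            rw [huu'm, mul_one]
        _ = (s : F) * ((x : F) * u ^ m) * (u' ^ ns * u' ^ (n₁ + n₂) * u' ^ m) := by ring
    rw [e1, hsumF]
    have e2 : u' ^ (ns + n₁ + n₂ + m) = u' ^ n₁ * u' ^ (ns + n₂ + m) := by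
      rw [← pow_add]
      congr 1
      ring
    have e3 : u' ^ (ns + n₁ + n₂ + m) = u' ^ n₂ * u' ^ (ns + n₁ + m) := by
      rw [← pow_add]
      congr 1
      ring
    rw [add_mul]
    conv_lhs => rw [e2]
    conv_lhs => rw [show (y₂ : F) * (u' ^ n₁ * u' ^ (ns + n₂ + m)) =
      (y₂ : F) * (u' ^ n₂ * u' ^ (ns + n₁ + m)) by rw [← e2, e3]]
    ring

end Fermat.Agent.TT
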