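import Mathlib

/-!
# Program TT (S33), Layer A item (A8)(vi), abstract form: finite pole order

Owner: helper18.  Namespace `Fermat.Agent.TT`, prefix `ttry`.  Mathlib only.

`φ : A →+* F` a ring homomorphism, `u u' : F` with `u u' = 1`.  If `b` is integral over `A[u]`
(in the `RingHom.IsIntegralElem (Polynomial.eval₂RingHom φ u)` spelling of `GrdIsInt`), then
`b u'^n` is integral over `A[u']` for all `n ≥ n₀` (`ttry_pole`, `ttry_pole'`).  These are the
fields `hpole`, `hpole'` of helper5's `TtoData` for the chart rings `B = grdB u`, `B' = grdB u'`.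
-/

set_option autoImplicit false

namespace Fermat.Agent.TT

open Polynomial

/-- **finite pole order**: integral over `A[u]` ⟹ `b u'^N` integral over `A[u⁻¹]`. -/
theorem ttry_pole {A F : Type*} [CommRing A] [CommRing F] (φ : A →+* F) (u u' : F)
    (huu' : u * u' = 1) {b : F} (hb : (eval₂RingHom φ u).IsIntegralElem b) :
    ∃ n₀ : ℕ, ∀ n, n₀ ≤ n → (eval₂RingHom φ u').IsIntegralElem (b * u' ^ n) := by
  classical
  rcases subsingleton_or_nontrivial F with hF | hF
  · refine ⟨0, fun n _ => ?_⟩
    rw [Subsingleton.elim (b * u' ^ n) 0]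
    exact RingHom.isIntegralElem_zero _
  obtain ⟨P, hP, hPb⟩ := hb
  let _ : Invertible u := ⟨u', by rw [mul_comm]; exact huu', huu'⟩
  have hinv : ⅟u = u' := rfl
  set d := P.natDegree with hd
  set N : ℕ := (Finset.range (d + 1)).sup fun i => (P.coeff i).natDegree with hN
  have hNle : ∀ i, i ≤ d → (P.coeff i).natDegree ≤ N := fun i hi =>
    Finset.le_sup (f := fun i => (P.coeff i).natDegree) (Finset.mem_range.2 (Nat.lt_succ_of_le hi))
  -- the key case `n = N`, then multiply by powers of `u'`
  suffices h : ∀ n, N ≤ n → (eval₂RingHom φ u').IsIntegralElem (u' ^ n * b) by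
    exact ⟨N, fun n hn => by rw [mul_comm]; exact h n hn⟩
  intro n hn
  -- the scaled polynomial over `F`
  set q : F[X] := (P.map (eval₂RingHom φ u)).scaleRoots (u' ^ n) with hq
  have hPm : (P.map (eval₂RingHom φ u)).Monic := hP.map _
  have hqm : q.Monic := by
    rw [hq, monic_scaleRoots_iff]; exact hPm
  have hdeg : (P.map (eval₂RingHom φ u)).natDegree = d := hP.natDegree_map _
  have hroot : q.eval (u' ^ n * b) = 0 := by
    have h1 : (P.map (eval₂RingHom φ u)).eval b = 0 := by
      rw [eval_map]; exact hPb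
    have := scaleRoots_eval₂_mul (p := P.map (eval₂RingHom φ u)) (RingHom.id F) b (u' ^ n)
    simp only [eval₂_id, RingHom.id_apply] at this
    rw [hq, this, h1, mul_zero]
  -- the coefficients of `q` lie in the image of `A[X]` at `u'`
  have hlift : q ∈ lifts (eval₂RingHom φ u') := by
    rw [lifts_iff_coeff_lifts]
    intro i
    rw [hq, coeff_scaleRoots, hdeg, coeff_map]
    rcases lt_trichotomy i d with hi | hi | hi
    · -- `a_i(u) u'^{n (d - i)}` with `natDegree a_i ≤ N ≤ n (d - i)`
      have hle : (P.coeff i).natDegree ≤ n * (d - i) := by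
        calc (P.coeff i).natDegree ≤ N := hNle i hi.le
          _ ≤ n := hn
          _ = n * 1 := (mul_one n).symm
          _ ≤ n * (d - i) := Nat.mul_le_mul_left n (by omega)
      refine ⟨reflect (n * (d - i)) (P.coeff i), ?_⟩
      have h := eval₂_reflect_mul_pow φ u (n * (d - i)) (P.coeff i) hle
      rw [hinv] at h
      have hpow : u' ^ (n * (d - i)) * u ^ (n * (d - i)) = 1 := by
        rw [← mul_pow, mul_comm u' u, huu', one_pow]
      change eval₂ φ u' (reflect (n * (d - i)) (P.coeff i)) = eval₂ φ u (P.coeff i) * _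
      rw [← h, ← pow_mul, mul_assoc, mul_comm (u ^ _) (u' ^ _), hpow, mul_one]
    · subst hi
      refine ⟨1, ?_⟩
      have : P.coeff d = 1 := hP.coeff_natDegree
      rw [this, map_one, map_one, Nat.sub_self, pow_zero, mul_one]
    · refine ⟨0, ?_⟩
      rw [coeff_eq_zero_of_natDegree_lt (by rw [← hd]; exact hi), map_zero, map_zero, zero_mul]
  obtain ⟨p, hpmap, -, hpm⟩ := lifts_and_degree_eq_and_monic hlift hqm
  refine ⟨p, hpm, ?_⟩
  rw [← eval_map, hpmap]
  exact hroot

/-- the symmetric statement (`hpole'` of `TtoData`) -/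
theorem ttry_pole' {A F : Type*} [CommRing A] [CommRing F] (φ : A →+* F) (u u' : F)
    (huu' : u * u' = 1) {b' : F} (hb' : (eval₂RingHom φ u').IsIntegralElem b') :
    ∃ n₀ : ℕ, ∀ n, n₀ ≤ n → (eval₂RingHom φ u).IsIntegralElem (u ^ n * b') := by
  obtain ⟨n₀, h⟩ := ttry_pole φ u' u (by rw [mul_comm]; exact huu') hb'
  exact ⟨n₀, fun n hn => by rw [mul_comm]; exact h n hn⟩

/-- **(A8)(i), abstract form**: the chart ring lies in every valuation ring containing `A` and `u`
(valuation rings are integrally closed). -/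
theorem ttry_int_mem {A F : Type*} [CommRing A] [Field F] (φ : A →+* F) (u : F)
    (V : ValuationSubring F) (hφ : ∀ a, φ a ∈ V) (hu : u ∈ V) {b : F}
    (hb : (eval₂RingHom φ u).IsIntegralElem b) : b ∈ V := by
  obtain ⟨P, hP, hPb⟩ := hb
  let ψ : A[X] →+* ↥V := (eval₂RingHom φ u).codRestrict V.toSubring (fun p => by
    change eval₂ φ u p ∈ V
    induction p using Polynomial.induction_on' with
    | add p q hp hq => rw [eval₂_add]; exact V.add_mem _ _ hp hq
    | monomial n a =>
      rw [eval₂_monomial]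
      exact V.mul_mem _ _ (hφ a) (pow_mem hu n))
  have hint : IsIntegral ↥V b := by
    refine ⟨P.map ψ, hP.map _, ?_⟩
    rw [eval₂_map]
    have : (algebraMap ↥V F).comp ψ = eval₂RingHom φ u := by
      ext <;> rfl
    rw [this]
    exact hPb
  obtain ⟨y, hy⟩ := IsIntegrallyClosed.isIntegral_iff.1 hint
  rw [← hy]
  exact y.2

end Fermat.Agent.TT
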