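/-
(NODE), the INVERSE CHART (prefix `ttrn`): instance of helper10's abstract transfer `ttrni_inv`
(TT/Red2/NodeInv.lean) for the two chart rings `B = grdB N A u`, `B' = grdB N A u'`, `u u' = 1`,
of main's G/Red.  Pole orders from helper18's `ttry_pole` (TT/Red2/PoleAbs.lean).

* `ttrn_T_inv` : transversality (T) at all crossing points of `B` gives (T) at every crossing
  point `𝔫'` of `B'` with `u' ∉ 𝔫'` whose residue field is generated by constants.
-/
import Mathlib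
import Fermat.Agent.TT.Red2.NodeInv
import Fermat.Agent.TT.Red2.PoleAbs
import Fermat.Agent.G.Red.Zero

set_option autoImplicit false
set_option linter.unusedSectionVars false
set_option linter.unusedVariables false

noncomputable section

namespace Fermat.Agent.TT

open ModularCurve IsLocalRing Polynomial Fermat.Agent.G

local notation "Qb" => AlgebraicClosure ℚ

variable (N : ℕ) [NeZero N] (A : ValuationSubring Qb)

/-- the chart ring lies in every valuation ring containing the constants of `A` and the chart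
coordinate. -/
theorem ttrn_grdB_le (u : ↥(modularFunctionFieldBar N))
    (V : ValuationSubring ↥(modularFunctionFieldBar N))
    (hc : ∀ a : ↥A, grdInclA N A a ∈ V) (hu : u ∈ V) {x : ↥(modularFunctionFieldBar N)}
    (hx : x ∈ grdB N A u) : x ∈ V :=
  ttry_int_mem (grdInclA N A) u V hc hu hx

/-- **(T) on the inverse chart**, off the zeros of the inverse coordinate. -/
theorem ttrn_T_inv (u u' : ↥(modularFunctionFieldBar N)) (huu' : u * u' = 1)
    (V1 V2 : ValuationSubring ↥(modularFunctionFieldBar N))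
    (hc1 : ∀ a : ↥A, grdInclA N A a ∈ V1) (hc2 : ∀ a : ↥A, grdInclA N A a ∈ V2)
    (hm1 : ∀ a : ↥A, a ∈ maximalIdeal ↥A → grdInclA N A a ∈ V1.nonunits)
    (hu1 : u ∈ V1) (hu2 : u ∈ V2) (hu'1 : u' ∈ V1) (hu'2 : u' ∈ V2)
    (TB : ∀ 𝔫 : Ideal ↥(grdB N A u), 𝔫.IsMaximal →
      (∀ x : ↥(grdB N A u), (x : ↥(modularFunctionFieldBar N)) ∈ V1.nonunits → x ∈ 𝔫) →
      (∀ x : ↥(grdB N A u), (x : ↥(modularFunctionFieldBar N)) ∈ V2.nonunits → x ∈ 𝔫) →
      ∀ x ∈ 𝔫, ∃ s : ↥(grdB N A u), s ∉ 𝔫 ∧ ∃ y₁ y₂ : ↥(grdB N A u),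
        (y₁ : ↥(modularFunctionFieldBar N)) ∈ V1.nonunits ∧
        (y₂ : ↥(modularFunctionFieldBar N)) ∈ V2.nonunits ∧ s * x = y₁ + y₂)
    (𝔫' : Ideal ↥(grdB N A u')) (h𝔫' : 𝔫'.IsMaximal)
    (h1 : ∀ x : ↥(grdB N A u'), (x : ↥(modularFunctionFieldBar N)) ∈ V1.nonunits → x ∈ 𝔫')
    (h2 : ∀ x : ↥(grdB N A u'), (x : ↥(modularFunctionFieldBar N)) ∈ V2.nonunits → x ∈ 𝔫')
    (hu𝔫 : (⟨u', grdz_u_mem N A u'⟩ : ↥(grdB N A u')) ∉ 𝔫')
    (hres : ∀ x : ↥(grdB N A u'), ∃ a : ↥A, x - grdzι N A u' a ∈ 𝔫') :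
    ∀ x ∈ 𝔫', ∃ s : ↥(grdB N A u'), s ∉ 𝔫' ∧ ∃ y₁ y₂ : ↥(grdB N A u'),
      (y₁ : ↥(modularFunctionFieldBar N)) ∈ V1.nonunits ∧
      (y₂ : ↥(modularFunctionFieldBar N)) ∈ V2.nonunits ∧ s * x = y₁ + y₂ := by
  refine ttrni_inv (grdB N A u) (grdB N A u') V1 V2
    (fun x hx => ⟨ttrn_grdB_le N A u V1 hc1 hu1 hx, ttrn_grdB_le N A u V2 hc2 hu2 hx⟩)
    (fun x hx => ⟨ttrn_grdB_le N A u' V1 hc1 hu'1 hx, ttrn_grdB_le N A u' V2 hc2 hu'2 hx⟩)
    u u' huu' (grdz_u_mem N A u) (grdz_u_mem N A u') ?_ ?_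
    (grdInclA N A).range ?_ ?_ TB 𝔫' h𝔫' h1 h2 hu𝔫 ?_
  · -- pole orders
    intro b hb
    obtain ⟨n₀, hn₀⟩ := ttry_pole (grdInclA N A) u u' huu' hb
    exact ⟨n₀, hn₀ n₀ le_rfl⟩
  · intro b' hb'
    obtain ⟨n₀, hn₀⟩ := ttry_pole' (grdInclA N A) u u' huu' hb'
    refine ⟨n₀, ?_⟩
    rw [mul_comm]
    exact hn₀ n₀ le_rfl
  · -- constants lie in both charts
    rintro _ ⟨a, rfl⟩
    exact ⟨grdz_incl_mem N A u a, grdz_incl_mem N A u' a⟩
  · -- unit constants are invertible among the constants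
    rintro _ ⟨a, rfl⟩ ha
    have hau : a ∉ maximalIdeal ↥A := fun h => ha (hm1 a h)
    have hunit : IsUnit a := by
      by_contra h
      exact hau ((IsLocalRing.mem_maximalIdeal a).2 h)
    obtain ⟨b, hb⟩ := hunit.exists_right_inv
    refine ⟨b, ?_⟩
    have h1' : grdInclA N A a * grdInclA N A b = 1 := by rw [← map_mul, hb, map_one]
    exact (eq_inv_of_mul_eq_one_right h1')
  · -- the residue field is generated by constants
    intro x
    obtain ⟨a, ha⟩ := hres x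
    refine ⟨grdInclA N A a, ⟨a, rfl⟩, fun h => ?_⟩
    have e : (⟨(x : ↥(modularFunctionFieldBar N)) - grdInclA N A a, h⟩ : ↥(grdB N A u')) =
        x - grdzι N A u' a := Subtype.ext rfl
    rw [e]
    exact ha

end Fermat.Agent.TT
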