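/-
(COUNT) at the atlas `(j, 1/j)`, `p ≥ 5` (prefix `ttrkJ`): the ring-level inputs (T) for `B`,
(T) for `B'` and (N-C) of `ttrk_genus_le_S` on `ttrkT` are discharged from

* helper19 `ttrn_T_j` (NodeInst), helper18 `ttrt_gauss_V1/V2`, `ttrt_grdQ_alpha` (NodeGauss),
  helper12 `ttr_hv4₁/₂` (NodeHV4) : (T) on `B = grdB (M p) 𝔸 (α j)`;
* helper25 `ttrci_no_cross_level` (CuspNode) : (N-C) on `B' = grdB (M p) 𝔸 (α (1/j))`;
* helper19 `ttrn_T_inv` (NodeInvInst) + `ttrm_res` (NodePlc) : (T) on `B'`.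

Result : `ttrk_genus_le_j`, the field `genus_le` at `S := ttrkS`, from the four onto-statements
`hR₁ hR₂ hR₁' hR₂'` alone.
-/
import Mathlib
import Fermat.Agent.TT.Red2.CountS
import Fermat.Agent.TT.Red2.CountT
import Fermat.Agent.TT.Red2.NodeInst
import Fermat.Agent.TT.Red2.NodeInvInst
import Fermat.Agent.TT.Red2.NodeGauss
import Fermat.Agent.TT.Red2.NodeHV4
import Fermat.Agent.TT.Red2.CuspNode
import Fermat.Agent.TT.Red2.ConstJ

set_option autoImplicit false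
set_option linter.unusedSectionVars false
set_option linter.unusedVariables false
set_option linter.style.haveILetI false

noncomputable section

namespace Fermat.Agent.TT

open AlgebraicCurve ModularCurve IsLocalRing Fermat.Agent.G Fermat.Agent.FF Fermat.Agent.S24
  Fermat.Agent.V.RR

local notation "Qb" => AlgebraicClosure ℚ

section Abstract

variable {A F Fk : Type*} [CommRing A] [IsLocalRing A] [CommRing F] [Algebra A F]
  [CommRing Fk] [Algebra (ResidueField A) Fk] (T : TtoData A F (Fk × Fk))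

/-- the constant `a` of `B'` reduces to `ā` on both branches -/
theorem ttrkJ_const' (a : A) :
    ttrkR₁' T ⟨algebraMap A F a, T.B'.algebraMap_mem a⟩ =
        algebraMap (ResidueField A) Fk (residue A a) ∧
      ttrkR₂' T ⟨algebraMap A F a, T.B'.algebraMap_mem a⟩ =
        algebraMap (ResidueField A) Fk (residue A a) := by
  refine ⟨?_, ?_⟩
  · rw [ttrkR₁'_apply]
    have := T.redOf_algebraMap a
    rw [T.redOf_congr rfl _ (T.O.algebraMap_mem a), this]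
    rfl
  · rw [ttrkR₂'_apply]
    have := T.redOf_algebraMap a
    rw [T.redOf_congr rfl _ (T.O.algebraMap_mem a), this]
    rfl

end Abstract

variable (M p : ℕ) [NeZero M] [NeZero p] [Fact p.Prime]
variable (A : ValuationSubring (AlgebraicClosure ℚ)) {τ' : LaurentSeries ℤ}

/-- **(T) for `B = grdB (M p) 𝔸 (α j)`, `p ≥ 5`**, in the spelling of `ttrkT_hT`. -/
theorem ttrkJ_TB (hpM : ¬ p ∣ M) (hA : A.LiesOverPrime p) (h5 : 5 ≤ p)
    (hat : GrdAtlas M A (jqModC ℤ) τ')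
    (V2 : ValuationSubring (modularFunctionFieldBar (M * p)))
    (hV2 : ∀ x, x ∈ V2 ↔ ttrW M hpM x ∈ grdO (M * p) A) :
    ∀ 𝔫 : Ideal ↥(grdB (M * p) A (heckeAlphaBar Qb M p (grdQ M hat.c.mem))), 𝔫.IsMaximal →
      (∀ x : ↥(grdB (M * p) A (heckeAlphaBar Qb M p (grdQ M hat.c.mem))),
        (x : modularFunctionFieldBar (M * p)) ∈ (ttrV1 M A hpM hA).nonunits → x ∈ 𝔫) →
      (∀ x : ↥(grdB (M * p) A (heckeAlphaBar Qb M p (grdQ M hat.c.mem))),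
        (x : modularFunctionFieldBar (M * p)) ∈ V2.nonunits → x ∈ 𝔫) →
      ∀ x ∈ 𝔫, ∃ s, s ∉ 𝔫 ∧
        ∃ y₁ y₂ : ↥(grdB (M * p) A (heckeAlphaBar Qb M p (grdQ M hat.c.mem))),
          (y₁ : modularFunctionFieldBar (M * p)) ∈ (ttrV1 M A hpM hA).nonunits ∧
          (y₂ : modularFunctionFieldBar (M * p)) ∈ V2.nonunits ∧ s * x = y₁ + y₂ := by
  have e : grdQ (M * p) (grdi_mem_j (M * p)) = heckeAlphaBar Qb M p (grdQ M hat.c.mem) :=
    ttrt_grdQ_alpha M hat.c.mem (grdi_mem_j (M * p))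
  have htr : Transcendental (ResidueField ↥A) (grdK M A hat.c.mem) := hat.c.sepK.transcendental
  have TB := ttrn_T_j M p hpM h5 A hA (ttrV1 M A hpM hA) V2
    (ttrt_gauss_V1 M A hat.c.mem (grdi_mem_j (M * p)) hpM hA htr)
    (ttrt_gauss_V2 M A hat.c.mem (grdi_mem_j (M * p)) hpM hA htr V2 hV2)
    (ttr_hv4₁ M A hpM hA) (ttr_hv4₂ M A hpM hA V2 hV2)
  rw [e] at TB
  exact fun 𝔫 h𝔫 h1 h2 x hx => TB 𝔫 h𝔫 h1 h2 x hx

/-- **(N-C) for `B' = grdB (M p) 𝔸 (α (1/j))`**, in the spelling of `ttrkT_hcusp`. -/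
theorem ttrkJ_NC (hpM : ¬ p ∣ M) (hA : A.LiesOverPrime p)
    (hat : GrdAtlas M A (jqModC ℤ) τ')
    (V2 : ValuationSubring (modularFunctionFieldBar (M * p)))
    (hV2 : ∀ x, x ∈ V2 ↔ ttrW M hpM x ∈ grdO (M * p) A) :
    ∀ 𝔫' : Ideal ↥(grdB (M * p) A (heckeAlphaBar Qb M p (grdQ M hat.c'.mem))),
      𝔫'.IsPrime →
      (∀ x : ↥(grdB (M * p) A (heckeAlphaBar Qb M p (grdQ M hat.c'.mem))),
        (x : modularFunctionFieldBar (M * p)) ∈ (ttrV1 M A hpM hA).nonunits → x ∈ 𝔫') →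
      (∀ x : ↥(grdB (M * p) A (heckeAlphaBar Qb M p (grdQ M hat.c'.mem))),
        (x : modularFunctionFieldBar (M * p)) ∈ V2.nonunits → x ∈ 𝔫') →
      (∀ h : heckeAlphaBar Qb M p (grdQ M hat.c'.mem) ∈
          grdB (M * p) A (heckeAlphaBar Qb M p (grdQ M hat.c'.mem)),
        (⟨heckeAlphaBar Qb M p (grdQ M hat.c'.mem), h⟩ :
          ↥(grdB (M * p) A (heckeAlphaBar Qb M p (grdQ M hat.c'.mem)))) ∈ 𝔫') → False := by
  intro 𝔫' h𝔫' h1 h2 ht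
  haveI := h𝔫'
  exact ttrci_no_cross_level M A hpM hA hat.inv V2 hV2 𝔫' h1 h2 (ht _)

/-- **(T) for `B' = grdB (M p) 𝔸 (α (1/j))`, `p ≥ 5`**, in the spelling of `ttrkT_hT'` : from
(T) on `B`, (N-C), and the residue fields `= k` of the closed points on the first component
(`hR₁'`). -/
theorem ttrkJ_TB' (hpM : ¬ p ∣ M) (hA : A.LiesOverPrime p) (h5 : 5 ≤ p)
    (hat : GrdAtlas M A (jqModC ℤ) τ')
    (V2 : ValuationSubring (modularFunctionFieldBar (M * p)))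
    (hV2 : ∀ x, x ∈ V2 ↔ ttrW M hpM x ∈ grdO (M * p) A)
    (hR₁' : ∀ y, y ∈ intRing (ResidueField A) (grdK M A hat.c'.mem) ↔
      ∃ b, ttrkR₁' (ttrkT M p A hpM hA hat) b = y) :
    ∀ 𝔫 : Ideal ↥(grdB (M * p) A (heckeAlphaBar Qb M p (grdQ M hat.c'.mem))), 𝔫.IsMaximal →
      (∀ x : ↥(grdB (M * p) A (heckeAlphaBar Qb M p (grdQ M hat.c'.mem))),
        (x : modularFunctionFieldBar (M * p)) ∈ (ttrV1 M A hpM hA).nonunits → x ∈ 𝔫) →
      (∀ x : ↥(grdB (M * p) A (heckeAlphaBar Qb M p (grdQ M hat.c'.mem))),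
        (x : modularFunctionFieldBar (M * p)) ∈ V2.nonunits → x ∈ 𝔫) →
      ∀ x ∈ 𝔫, ∃ s, s ∉ 𝔫 ∧
        ∃ y₁ y₂ : ↥(grdB (M * p) A (heckeAlphaBar Qb M p (grdQ M hat.c'.mem))),
          (y₁ : modularFunctionFieldBar (M * p)) ∈ (ttrV1 M A hpM hA).nonunits ∧
          (y₂ : modularFunctionFieldBar (M * p)) ∈ V2.nonunits ∧ s * x = y₁ + y₂ := by
  intro 𝔫' h𝔫' h1 h2
  have htr : Transcendental (ResidueField ↥A) (grdK M A hat.c.mem) := hat.c.sepK.transcendental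
  have hG1 := ttrt_gauss_V1 M A hat.c.mem (grdi_mem_j (M * p)) hpM hA htr
  have hG2 := ttrt_gauss_V2 M A hat.c.mem (grdi_mem_j (M * p)) hpM hA htr V2 hV2
  have huu' : heckeAlphaBar Qb M p (grdQ M hat.c.mem) *
      heckeAlphaBar Qb M p (grdQ M hat.c'.mem) = 1 := by
    rw [← map_mul, grda_grdQ_mul M A hat, map_one]
  have hα₂ : ∀ {f : modularFunctionFieldBar M}, f ∈ grdO M A →
      heckeAlphaBar Qb M p f ∈ V2 := fun {f} hf => by
    rw [hV2, ttrW_alpha]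
    exact ttr_beta_mem M A hf
  refine ttrn_T_inv (M * p) A _ _ huu' (ttrV1 M A hpM hA) V2 hG1.const_mem hG2.const_mem
    hG1.max_mem (ttr_alpha_mem M A (grdQ_mem_grdO M A hat.c.mem))
    (hα₂ (grdQ_mem_grdO M A hat.c.mem))
    (ttr_alpha_mem M A (grdQ_mem_grdO M A hat.c'.mem)) (hα₂ (grdQ_mem_grdO M A hat.c'.mem))
    (ttrkJ_TB M p A hpM hA h5 hat V2 hV2) 𝔫' h𝔫' h1 h2 ?_ ?_
  · exact fun h => ttrkJ_NC M p A hpM hA hat V2 hV2 𝔫' h𝔫'.isPrime h1 h2 (fun _ => h)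
  · intro x
    have hk₁ : RingHom.ker (ttrkR₁' (ttrkT M p A hpM hA hat)) ≤
        (𝔫' : Ideal ↥(ttrkT M p A hpM hA hat).B') := by
      intro b hb
      rw [RingHom.mem_ker, ttrkT_R₁'_apply, ttrkT_fst_eq_zero_iff] at hb
      exact h1 b hb
    haveI := grd_isAlgClosed_residue A
    obtain ⟨c, hc⟩ := ttrm_res hat.c'.sepK (ttrkR₁' (ttrkT M p A hpM hA hat))
      (ttrkR₂' (ttrkT M p A hpM hA hat)) hR₁' 𝔫' h𝔫' hk₁ x
    obtain ⟨a, rfl⟩ := residue_surjective c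
    refine ⟨a, ?_⟩
    have h := hc ⟨algebraMap ↥A (modularFunctionFieldBar (M * p)) a,
      (ttrkT M p A hpM hA hat).B'.algebraMap_mem a⟩
      (ttrkJ_const' (ttrkT M p A hpM hA hat) a).1 (ttrkJ_const' (ttrkT M p A hpM hA hat) a).2
    have e : (⟨algebraMap ↥A (modularFunctionFieldBar (M * p)) a,
        (ttrkT M p A hpM hA hat).B'.algebraMap_mem a⟩ : ↥(ttrkT M p A hpM hA hat).B') =
        grdzι (M * p) A (heckeAlphaBar Qb M p (grdQ M hat.c'.mem)) a :=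
      Subtype.ext (IsScalarTower.algebraMap_apply ↥A Qb (modularFunctionFieldBar (M * p)) a)
    rw [e] at h
    exact h

/-- **`genus_le` AT THE ATLAS `(j, 1/j)`, `p ≥ 5`, ON THE NODES `ttrkS`**, from the four
onto-statements (A8)(iv) alone. -/
theorem ttrk_genus_le_j (hpM : ¬ p ∣ M) (hA : A.LiesOverPrime p) (h5 : 5 ≤ p)
    (hat : GrdAtlas M A (jqModC ℤ) τ')
    (hR₁ : ∀ y, y ∈ intRing (ResidueField A) (grdK M A hat.c.mem) ↔
      ∃ b, ttrkR₁ (ttrkT M p A hpM hA hat) b = y)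
    (hR₂ : ∀ y, y ∈ intRing (ResidueField A) (grdK M A hat.c.mem) ↔
      ∃ b, ttrkR₂ (ttrkT M p A hpM hA hat) b = y)
    (hR₁' : ∀ y, y ∈ intRing (ResidueField A) (grdK M A hat.c'.mem) ↔
      ∃ b, ttrkR₁' (ttrkT M p A hpM hA hat) b = y)
    (hR₂' : ∀ y, y ∈ intRing (ResidueField A) (grdK M A hat.c'.mem) ↔
      ∃ b, ttrkR₂' (ttrkT M p A hpM hA hat) b = y)
    [Fintype (ttrkS M p A hpM hA hat)] :
    (genusFF Qb (modularFunctionFieldBar (M * p)) : ℤ) ≤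
      genusFF Qb (modularFunctionFieldBar M) + genusFF Qb (modularFunctionFieldBar M) +
        Fintype.card (ttrkS M p A hpM hA hat) - 1 :=
  ttrk_genus_le_S M p A hpM hA hat hR₁ hR₂ hR₁' hR₂'
    (ttrkT_hT M p A hpM hA hat (ttrvpV2 M A hpM hA) (ttrvp_mem_V2 M A hpM hA)
      (ttrkJ_TB M p A hpM hA h5 hat (ttrvpV2 M A hpM hA) (ttrvp_mem_V2 M A hpM hA)))
    (ttrkT_hT' M p A hpM hA hat (ttrvpV2 M A hpM hA) (ttrvp_mem_V2 M A hpM hA)
      (ttrkJ_TB' M p A hpM hA h5 hat (ttrvpV2 M A hpM hA) (ttrvp_mem_V2 M A hpM hA) hR₁'))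
    (ttrkT_hcusp M p A hpM hA hat (ttrvpV2 M A hpM hA) (ttrvp_mem_V2 M A hpM hA)
      (ttrkJ_NC M p A hpM hA hat (ttrvpV2 M A hpM hA) (ttrvp_mem_V2 M A hpM hA)))

/-- the same at the canonical `j`-atlas `ttrli_atlas_j` (helper15, ConstJ). -/
theorem ttrk_genus_le_j_atlas (hpM : ¬ p ∣ M) (hA : A.LiesOverPrime p) (h5 : 5 ≤ p)
    (hτ' : jqModC ℤ * τ' = 1)
    (hR₁ : ∀ y, y ∈ intRing (ResidueField A)
        (grdK M A (ttrli_atlas_j M A hpM hA h5 hτ').c.mem) ↔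
      ∃ b, ttrkR₁ (ttrkT M p A hpM hA (ttrli_atlas_j M A hpM hA h5 hτ')) b = y)
    (hR₂ : ∀ y, y ∈ intRing (ResidueField A)
        (grdK M A (ttrli_atlas_j M A hpM hA h5 hτ').c.mem) ↔
      ∃ b, ttrkR₂ (ttrkT M p A hpM hA (ttrli_atlas_j M A hpM hA h5 hτ')) b = y)
    (hR₁' : ∀ y, y ∈ intRing (ResidueField A)
        (grdK M A (ttrli_atlas_j M A hpM hA h5 hτ').c'.mem) ↔
      ∃ b, ttrkR₁' (ttrkT M p A hpM hA (ttrli_atlas_j M A hpM hA h5 hτ')) b = y)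
    (hR₂' : ∀ y, y ∈ intRing (ResidueField A)
        (grdK M A (ttrli_atlas_j M A hpM hA h5 hτ').c'.mem) ↔
      ∃ b, ttrkR₂' (ttrkT M p A hpM hA (ttrli_atlas_j M A hpM hA h5 hτ')) b = y)
    [Fintype (ttrkS M p A hpM hA (ttrli_atlas_j M A hpM hA h5 hτ'))] :
    (genusFF Qb (modularFunctionFieldBar (M * p)) : ℤ) ≤
      genusFF Qb (modularFunctionFieldBar M) + genusFF Qb (modularFunctionFieldBar M) +
        Fintype.card (ttrkS M p A hpM hA (ttrli_atlas_j M A hpM hA h5 hτ')) - 1 :=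
  ttrk_genus_le_j M p A hpM hA h5 (ttrli_atlas_j M A hpM hA h5 hτ') hR₁ hR₂ hR₁' hR₂'

end Fermat.Agent.TT
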