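import Mathlib
import Fermat.Agent.TT.Red2.GoodCentre
import Fermat.Agent.TT.Red2.Into

/-!
# PROGRAM TT (S33), G/Red₂ LAYER B (owner helper6, prefix `ttrp`) : (LOC) ON THE GOOD DISCS

`B = grdB (M p) 𝔸 (φ τ_ℚ̄)` the chart ring of the kind `φ`, `O2 ⊇ B` the two-valuation Gauss ring,
`Q` a point of `F_k(M)` with non-empty good disc `ttrpS … Q`.  Every `x ∈ O2` without pole on the
good disc over `Q` is a fraction `b / s` with `b, s ∈ B`, `(red s)(Q) ≠ 0` :

* `ttrp_loc` : from helper23's abstract `ttri_loc` (inputs `hBreg`, `hsat` = helper15's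
  `LocInputs`), the separation `ttrp_sep` of the other centres and the separation of the places
  outside the chart by `c⁻¹ u - 1`.

This is the hypothesis `hloc` of `ttrp_cls_val₁/₂` (`TT/Red2/Cls.lean`).
-/

set_option autoImplicit false
set_option linter.unusedSectionVars false
set_option linter.unusedVariables false
set_option linter.style.haveILetI false
set_option synthInstance.maxHeartbeats 400000

noncomputable section

namespace Fermat.Agent.TT

open ModularCurve AlgebraicCurve IsLocalRing Polynomial Fermat.Agent.S18 Fermat.Agent.S24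
  Fermat.Agent.G Fermat.Agent.FF

local notation "Qb" => AlgebraicClosure ℚ

/-- the complement of the maximal ideal of a valuation ring is multiplicative. -/
theorem ttrp_mul_notMem_nonunits {F : Type*} [Field F] (W : ValuationSubring F) {a b : F}
    (ha : a ∈ W) (hb : b ∈ W) (ha' : a ∉ W.nonunits) (hb' : b ∉ W.nonunits) :
    a * b ∉ W.nonunits := by
  rw [ValuationSubring.mem_nonunits_iff] at ha' hb' ⊢
  have ha1 : W.valuation a = 1 :=
    le_antisymm ((W.valuation_le_one_iff a).2 ha) (not_lt.1 ha')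
  have hb1 : W.valuation b = 1 :=
    le_antisymm ((W.valuation_le_one_iff b).2 hb) (not_lt.1 hb')
  rw [map_mul, ha1, hb1, one_mul]
  exact lt_irrefl _

section Loc

variable {M p : ℕ} [NeZero M] [NeZero p] {ℓ : ℕ} [Fact ℓ.Prime]
variable {A : ValuationSubring Qb}
variable {τ τ' : LaurentSeries ℤ}
variable {φ : modularFunctionFieldBar M →ₐ[Qb] modularFunctionFieldBar (M * p)}
variable {V : Subring (modularFunctionFieldBar (M * p))}
variable {red : ↥V →+* modularFunctionFieldFullC (ResidueField A) M}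
variable {v : modularFunctionFieldBar (M * p)}

/-- the multiplicative set `B ∖ 𝔫_Q`, `𝔫_Q = {s ∈ B | (red s)(Q) = 0}`. -/
def ttrpLocS {υ : LaurentSeries ℤ} {hυ : GrdSerMem M υ} (H : TtrpChart M p A φ hυ V red v)
    (Q : Place (ResidueField A) (modularFunctionFieldFullC (ResidueField A) M))
    (hQ : grdK M A hυ ∈ Q.toValuationSubring) :
    Submonoid ↥(grdB (M * p) A (φ (grdQ M hυ))) where
  carrier := {s | ¬ GrdVal Q (red ⟨(s : modularFunctionFieldBar (M * p)), H.int_mem s.2⟩) 0}
  one_mem' := by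
    show ¬ GrdVal Q (red ⟨((1 : ↥(grdB (M * p) A (φ (grdQ M hυ)))) :
      modularFunctionFieldBar (M * p)), _⟩) 0
    have h1 : (⟨((1 : ↥(grdB (M * p) A (φ (grdQ M hυ)))) : modularFunctionFieldBar (M * p)),
        H.int_mem (1 : ↥(grdB (M * p) A (φ (grdQ M hυ)))).2⟩ : ↥V) = 1 := rfl
    rw [h1, map_one, grdg_val_zero_iff]
    intro h
    exact ((ValuationSubring.mem_nonunits_iff _).mp h).ne (map_one _)
  mul_mem' := by
    intro a b ha hb
    show ¬ GrdVal Q (red ⟨((a * b : ↥(grdB (M * p) A (φ (grdQ M hυ)))) :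
      modularFunctionFieldBar (M * p)), _⟩) 0
    have h1 : (⟨((a * b : ↥(grdB (M * p) A (φ (grdQ M hυ)))) : modularFunctionFieldBar (M * p)),
        H.int_mem (a * b).2⟩ : ↥V) =
        ⟨(a : modularFunctionFieldBar (M * p)), H.int_mem a.2⟩ *
          ⟨(b : modularFunctionFieldBar (M * p)), H.int_mem b.2⟩ := rfl
    rw [h1, map_mul, grdg_val_zero_iff]
    have ha' := ttrp_red_mem H Q hQ a a.2
    have hb' := ttrp_red_mem H Q hQ b b.2
    have ha2 : ¬ GrdVal Q (red ⟨(a : modularFunctionFieldBar (M * p)), H.int_mem a.2⟩) 0 := ha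
    have hb2 : ¬ GrdVal Q (red ⟨(b : modularFunctionFieldBar (M * p)), H.int_mem b.2⟩) 0 := hb
    rw [grdg_val_zero_iff] at ha2 hb2
    exact ttrp_mul_notMem_nonunits _ ha' hb' ha2 hb2

theorem ttrp_mem_locS {υ : LaurentSeries ℤ} {hυ : GrdSerMem M υ}
    (H : TtrpChart M p A φ hυ V red v)
    (Q : Place (ResidueField A) (modularFunctionFieldFullC (ResidueField A) M))
    (hQ : grdK M A hυ ∈ Q.toValuationSubring) (s : ↥(grdB (M * p) A (φ (grdQ M hυ)))) :
    s ∈ ttrpLocS H Q hQ ↔
      ¬ GrdVal Q (red ⟨(s : modularFunctionFieldBar (M * p)), H.int_mem s.2⟩) 0 := Iff.rfl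

/-- **(LOC) ON A GOOD DISC.** -/
theorem ttrp_loc (hℓM : ¬ ℓ ∣ M) (hA : A.LiesOverPrime ℓ) (hat : GrdAtlas M A τ τ')
    (r : Place Qb (modularFunctionFieldBar M) →
      Place (ResidueField A) (modularFunctionFieldFullC (ResidueField A) M))
    (hr : GrdIsRed M A hat.c.mem hat.c'.mem r)
    (hφ : φ.toRingHom.IsIntegral) (H : TtrpChart M p A φ hat.c.mem V red v)
    (O2 : Subring (modularFunctionFieldBar (M * p)))
    (hBO : grdB (M * p) A (φ (grdQ M hat.c.mem)) ≤ O2)
    (hBreg : ∀ b ∈ grdB (M * p) A (φ (grdQ M hat.c.mem)),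
      ∀ w : Place Qb (modularFunctionFieldBar (M * p)),
        φ (grdQ M hat.c.mem) ∈ w.toValuationSubring → b ∈ w.toValuationSubring)
    (hsat : ∀ x ∈ O2, (∀ w : Place Qb (modularFunctionFieldBar (M * p)),
        φ (grdQ M hat.c.mem) ∈ w.toValuationSubring → x ∈ w.toValuationSubring) →
      x ∈ grdB (M * p) A (φ (grdQ M hat.c.mem)))
    (Q : Place (ResidueField A) (modularFunctionFieldFullC (ResidueField A) M))
    (hne : (ttrpS M p A φ hφ r (φ (grdQ M hat.c.mem)) v Q).Nonempty)
    (x : modularFunctionFieldBar (M * p)) (hx : x ∈ O2)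
    (hreg : ∀ P' ∈ ttrpS M p A φ hφ r (φ (grdQ M hat.c.mem)) v Q, 0 ≤ P'.ord x) :
    ∃ (s : modularFunctionFieldBar (M * p))
      (hs : s ∈ grdB (M * p) A (φ (grdQ M hat.c.mem))),
      s * x ∈ grdB (M * p) A (φ (grdQ M hat.c.mem)) ∧
        ¬ GrdVal Q (red ⟨s, H.int_mem hs⟩) 0 := by
  classical
  haveI : HasPrincipalDivisors Qb (modularFunctionFieldBar (M * p)) :=
    (isSepGen_jBar (N := M * p)).hasPrincipalDivisors
  set u := φ (grdQ M hat.c.mem) with hu
  set B := grdB (M * p) A u with hB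
  -- the witness gives `ū ∈ 𝒪_Q` and `(red v)(Q) ≠ 0`
  obtain ⟨P₁, hP₁g, hP₁Q⟩ := hne
  have hP₁c : GrdInChart M A (grdQ M hat.c.mem) (ttrpRes M p φ hφ P₁) :=
    (ttrp_inChart_res hφ _ P₁).mpr hP₁g.1
  have hrel₁ : GrdRel M A (grdQ M hat.c.mem) (ttrpRes M p φ hφ P₁) Q := by
    have h := (grd_isRed_rel M A hℓM hA hat r hr (ttrpRes M p φ hφ P₁)).1 hP₁c
    have hQ' : r (ttrpRes M p φ hφ P₁) = Q := hP₁Q
    rwa [hQ'] at h
  have hQ : grdK M A hat.c.mem ∈ Q.toValuationSubring :=
    grd_rel_inChartK M A hat.c.mem _ hP₁c Q hrel₁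
  have hvQ : ¬ GrdVal Q (red ⟨v, H.int_mem H.v_int⟩) 0 :=
    ttrp_good_red_v hℓM hA hat.c hφ H P₁ hP₁g Q hrel₁
  -- apply the abstract (LOC)
  obtain ⟨s, hsS, hsx⟩ := ttri_loc (K := Qb) B O2 hBO u hBreg hsat (ttrpLocS H Q hQ)
    (by
      rw [ttrp_mem_locS]
      intro h
      apply h
      have h0 : (⟨((0 : ↥B) : modularFunctionFieldBar (M * p)), H.int_mem (0 : ↥B).2⟩ : ↥V) = 0 :=
        rfl
      rw [h0, map_zero]
      exact (grdg_val_zero_iff Q 0).mpr (Q.toValuationSubring.nonunits.zero_mem))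
    (fun w => w ∈ ttrpS M p A φ hφ r u v Q)
    (fun w hw => by
      obtain ⟨a, ha⟩ := hw.1.1
      exact grdg_val_mem w ha)
    (fun w hw huw => by
      -- separation of a place outside the disc
      obtain ⟨c, hc⟩ := grdg_val_exists (isSepGen_jBar (N := M * p)) w huw
      by_cases hcA : c ∈ A
      · -- `w` lies in the chart
        have hwc : GrdInChart (M * p) A u w := ⟨⟨c, hcA⟩, hc⟩
        obtain ⟨s₀, hs₀, ⟨a, ha, hva⟩, hs₀Q⟩ := ttrp_sep hℓM hA hat r hr hφ H Q hQ hvQ w hwc hw
        have haA : a ∈ A := (A.mem_nonunits_iff_exists_mem_maximalIdeal.mp ha).1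
        have ham : (⟨a, haA⟩ : A) ∈ maximalIdeal A :=
          (A.mem_nonunits_iff_exists_mem_maximalIdeal.mp ha).2
        have hcB : algebraMap Qb (modularFunctionFieldBar (M * p)) a ∈ B :=
          ttrp_const_mem M p A u ⟨a, haA⟩
        refine ⟨⟨s₀ - algebraMap Qb (modularFunctionFieldBar (M * p)) a, B.sub_mem hs₀ hcB⟩,
          ?_, hva⟩
        rw [ttrp_mem_locS]
        have h1 : (⟨s₀ - algebraMap Qb (modularFunctionFieldBar (M * p)) a,
            H.int_mem (B.sub_mem hs₀ hcB)⟩ : ↥V) =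
            ⟨s₀, H.int_mem hs₀⟩ - ⟨algebraMap Qb (modularFunctionFieldBar (M * p)) a,
              H.int_mem hcB⟩ := rfl
        have h2 := ttrp_red_const H ⟨a, haA⟩
        have h3 : residue A (⟨a, haA⟩ : A) = 0 := (residue_eq_zero_iff _).mpr ham
        rw [h3, map_zero] at h2
        show ¬ GrdVal Q (red ⟨s₀ - algebraMap Qb (modularFunctionFieldBar (M * p)) a, _⟩) 0
        rw [h1, map_sub]
        have h4 : red ⟨algebraMap Qb (modularFunctionFieldBar (M * p)) a, H.int_mem hcB⟩ = 0 := h2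
        rw [h4, sub_zero]
        exact hs₀Q
      · -- `w` lies outside the chart : `c⁻¹ u - 1` vanishes at `w` and reduces to `-1`
        have hc0 : c ≠ 0 := by
          rintro rfl
          exact hcA A.zero_mem
        have hci : c⁻¹ ∈ A.nonunits := by
          rw [ValuationSubring.mem_nonunits_iff_or]
          right
          rwa [inv_inv]
        have hciA : c⁻¹ ∈ A := (A.mem_nonunits_iff_exists_mem_maximalIdeal.mp hci).1
        have hcim : (⟨c⁻¹, hciA⟩ : A) ∈ maximalIdeal A :=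
          (A.mem_nonunits_iff_exists_mem_maximalIdeal.mp hci).2
        have hcB : algebraMap Qb (modularFunctionFieldBar (M * p)) c⁻¹ ∈ B :=
          ttrp_const_mem M p A u ⟨c⁻¹, hciA⟩
        have huB : u ∈ B := ttrp_u_mem M p A u
        have hsB : algebraMap Qb (modularFunctionFieldBar (M * p)) c⁻¹ * u - 1 ∈ B :=
          B.sub_mem (B.mul_mem hcB huB) B.one_mem
        refine ⟨⟨_, hsB⟩, ?_, ?_⟩
        · rw [ttrp_mem_locS]
          have h1 : (⟨algebraMap Qb (modularFunctionFieldBar (M * p)) c⁻¹ * u - 1,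
              H.int_mem hsB⟩ : ↥V) =
              ⟨algebraMap Qb (modularFunctionFieldBar (M * p)) c⁻¹, H.int_mem hcB⟩ *
                ⟨u, H.int_mem huB⟩ - 1 := rfl
          have h2 := ttrp_red_const H ⟨c⁻¹, hciA⟩
          have h3 : residue A (⟨c⁻¹, hciA⟩ : A) = 0 := (residue_eq_zero_iff _).mpr hcim
          rw [h3, map_zero] at h2
          have h4 : red ⟨algebraMap Qb (modularFunctionFieldBar (M * p)) c⁻¹, H.int_mem hcB⟩ = 0 :=
            h2
          show ¬ GrdVal Q (red ⟨algebraMap Qb (modularFunctionFieldBar (M * p)) c⁻¹ * u - 1, _⟩) 0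
          rw [h1, map_sub, map_mul, h4, zero_mul, map_one, zero_sub, grdg_val_zero_iff]
          intro h
          have h5 : (1 : modularFunctionFieldFullC (ResidueField A) M) ∈
              Q.toValuationSubring.nonunits := by
            have := Q.toValuationSubring.nonunits.neg_mem h
            rwa [neg_neg] at this
          exact ((ValuationSubring.mem_nonunits_iff _).mp h5).ne (map_one _)
        · -- the value at `w`
          show algebraMap Qb (modularFunctionFieldBar (M * p)) c⁻¹ * u - 1 ∈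
            w.toValuationSubring.nonunits
          have h1 := grdg_val_mul w (grdg_val_algebraMap w c⁻¹) hc
          rw [inv_mul_cancel₀ hc0] at h1
          unfold GrdVal at h1
          rwa [map_one] at h1)
    hx (fun w hw => PlaceOrd.mem_of_ord_nonneg w (hreg w hw))
  exact ⟨(s : modularFunctionFieldBar (M * p)), s.2, hsx, (ttrp_mem_locS H Q hQ s).mp hsS⟩

end Loc

end Fermat.Agent.TT
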