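import Mathlib
import Fermat.Agent.TT.Red2.Cls
import Fermat.Agent.TT.Red2.ClsLoc
import Fermat.Agent.TT.Red2.GoodFibGlue
import Fermat.Agent.TT.Red2.LocInputs
import Fermat.Agent.TT.Alpha.OfW
import Fermat.Agent.FF.InertiaRes

/-!
# PROGRAM TT (S33), G/Red₂ LAYER B (owner helper6, prefix `ttrp`) : THE FIELDS `lift_j`, `val_j`
OF `TtgModel` AT THE LEVEL `M p`, ON helper12's NAMES

`V₁ = ttrV1 M 𝔸 hpM h𝔸`, `V₂ = ttalV2 V₁ (ttrW M hpM)`, `red₁ = ttrRed1 M 𝔸 h𝔸`,
`red₂ = ttalRed2 V₁ (ttrW M hpM) red₁` (`= ttrRed2 M 𝔸 hpM h𝔸`), `ρ = ffigRho (M p) 𝔸`,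
`cls = ttrpCls M p 𝔸 r (α τ_ℚ̄) v₁ (β τ_ℚ̄) v₂`.

* `ttrp_inst_val₁`, `ttrp_inst_val₂` : the fields `val₁`, `val₂`, CHART-GENERIC (any atlas, any
  `v₁`, `v₂` with `TtrpChart` packages) — no hypothesis left but the chart packages;
* `ttrpBadQ`, `ttrp_badQ_finite`, `ttrpT` : the exceptional set `T = ffipBad ∪ {j̄ = ∞} ∪
  {j̄^{p²} = j̄}` and its finiteness;
* `ttrp_inst_lift₁`, `ttrp_inst_lift₂` : the fields `lift₁`, `lift₂` from the Kronecker data
  `TtrpKron` (B-kron) for `(α, j, β j)` and `(β, j, α j)`.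
-/

set_option autoImplicit false
set_option linter.unusedSectionVars false
set_option linter.unusedVariables false
set_option linter.style.haveILetI false
set_option synthInstance.maxHeartbeats 400000

noncomputable section

namespace Fermat.Agent.TT

open ModularCurve AlgebraicCurve IsLocalRing Polynomial Fermat.Agent.S18 Fermat.Agent.S24
  Fermat.Agent.G Fermat.Agent.FF Fermat.Agent.S05

local notation "Qb" => AlgebraicClosure ℚ

section Val

variable (M : ℕ) [NeZero M] {p : ℕ} [Fact p.Prime] [NeZero p]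
variable (A : ValuationSubring Qb)
variable {τ τ' : LaurentSeries ℤ}

/-- **field `val₁` of `TtgModel` at the level `M p`, VERBATIM, chart-generic.** -/
theorem ttrp_inst_val₁ (hpM : ¬ p ∣ M) (hA : A.LiesOverPrime p) (hat : GrdAtlas M A τ τ')
    (r : Place Qb (modularFunctionFieldBar M) →
      Place (ResidueField A) (modularFunctionFieldFullC (ResidueField A) M))
    (hr : GrdIsRed M A hat.c.mem hat.c'.mem r)
    (v₁ u₂ v₂ : modularFunctionFieldBar (M * p))
    (H₁ : TtrpChart M p A (heckeAlphaBar Qb M p) hat.c.mem (grdO (M * p) A) (ttrRed1 M A hA) v₁) :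
    ∀ (P : Place Qb (modularFunctionFieldBar (M * p)))
      (Q : Place (ResidueField A) (modularFunctionFieldFullC (ResidueField A) M)),
      ttrpCls M p A r (heckeAlphaBar Qb M p (grdQ M hat.c.mem)) v₁ u₂ v₂ P = some (Sum.inl Q) →
      ∀ (x : modularFunctionFieldBar (M * p)) (h₁ : x ∈ ttrV1 M A hpM hA)
        (h₂ : x ∈ ttalV2 (ttrV1 M A hpM hA) (ttrW M hpM)),
        (∀ P' : Place Qb (modularFunctionFieldBar (M * p)),
          ttrpCls M p A r (heckeAlphaBar Qb M p (grdQ M hat.c.mem)) v₁ u₂ v₂ P' =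
            some (Sum.inl Q) → 0 ≤ P'.ord x) →
        ∃ α : A, GrdVal P x (α : Qb) ∧ GrdVal Q (ttrRed1 M A hA ⟨x, h₁⟩) (residue A α) :=
  ttrp_cls_val₁ hpM hA hat hr (ttrV1 M A hpM hA) (ttalV2 (ttrV1 M A hpM hA) (ttrW M hpM))
    (ttrRed1 M A hA) H₁
    (fun Q x h₁ h₂ hne hreg =>
      ttrp_loc hpM hA hat r hr (gff_alpha_integral M p) H₁ (ttrO2 M A hpM)
        (ttrli_le_alpha M A hpM hA hat.c) (ttrli_breg (M * p) A _)
        (ttrli_sat_alpha M A hpM hA hat.c) Q hne x ⟨h₁, h₂⟩ hreg)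

/-- **field `val₂` of `TtgModel` at the level `M p`, VERBATIM, chart-generic.** -/
theorem ttrp_inst_val₂ (hpM : ¬ p ∣ M) (hA : A.LiesOverPrime p) (hat : GrdAtlas M A τ τ')
    (r : Place Qb (modularFunctionFieldBar M) →
      Place (ResidueField A) (modularFunctionFieldFullC (ResidueField A) M))
    (hr : GrdIsRed M A hat.c.mem hat.c'.mem r)
    (u₁ v₁ v₂ : modularFunctionFieldBar (M * p))
    (H₂ : TtrpChart M p A (heckeBetaBar Qb M p) hat.c.mem (ttrV2 M A hpM)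
      (ttrRed2 M A hpM hA) v₂)
    (hdisj : ∀ P : Place Qb (modularFunctionFieldBar (M * p)),
      TtrpGoodC M p A u₁ v₁ P →
        TtrpGoodC M p A (heckeBetaBar Qb M p (grdQ M hat.c.mem)) v₂ P → False) :
    ∀ (P : Place Qb (modularFunctionFieldBar (M * p)))
      (Q : Place (ResidueField A) (modularFunctionFieldFullC (ResidueField A) M)),
      ttrpCls M p A r u₁ v₁ (heckeBetaBar Qb M p (grdQ M hat.c.mem)) v₂ P = some (Sum.inr Q) →
      ∀ (x : modularFunctionFieldBar (M * p)) (h₁ : x ∈ ttrV1 M A hpM hA)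
        (h₂ : x ∈ ttalV2 (ttrV1 M A hpM hA) (ttrW M hpM)),
        (∀ P' : Place Qb (modularFunctionFieldBar (M * p)),
          ttrpCls M p A r u₁ v₁ (heckeBetaBar Qb M p (grdQ M hat.c.mem)) v₂ P' =
            some (Sum.inr Q) → 0 ≤ P'.ord x) →
        ∃ α : A, GrdVal P x (α : Qb) ∧
          GrdVal Q (ttalRed2 (ttrV1 M A hpM hA) (ttrW M hpM) (ttrRed1 M A hA) ⟨x, h₂⟩)
            (residue A α) :=
  ttrp_cls_val₂ hpM hA hat hr (ttrV1 M A hpM hA) (ttalV2 (ttrV1 M A hpM hA) (ttrW M hpM))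
    (ttalRed2 (ttrV1 M A hpM hA) (ttrW M hpM) (ttrRed1 M A hA)) H₂ hdisj
    (fun Q x h₁ h₂ hne hreg =>
      ttrp_loc hpM hA hat r hr (gff_beta_integral M p) H₂ (ttrO2 M A hpM)
        (ttrli_le_beta M A hpM hA hat.c) (ttrli_breg (M * p) A _)
        (ttrli_sat_beta M A hpM hA hat.c) Q hne x ⟨h₁, h₂⟩ hreg)

end Val

section Bad

variable (M : ℕ) [NeZero M] (p : ℕ) [NeZero p] {ℓ : ℕ} [Fact ℓ.Prime]
variable (A : ValuationSubring Qb)
variable {τ τ' : LaurentSeries ℤ}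

/-- THE EXCEPTIONAL POINTS of `F_k(M)` : the bad set of level `M`, the poles of `j̄` and the
points with `j̄^{p²} = j̄`. -/
def ttrpBadQ (hat : GrdAtlas M A τ τ') (jb : modularFunctionFieldFullC (ResidueField A) M) :
    Set (Place (ResidueField A) (modularFunctionFieldFullC (ResidueField A) M)) :=
  {Q | Q ∈ ffipBad M A hat ∨ ¬ ttrpGoodQ M p A jb Q}

variable {M p A}

theorem ttrp_goodQ_of (hat : GrdAtlas M A τ τ')
    (jb : modularFunctionFieldFullC (ResidueField A) M)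
    (Q : Place (ResidueField A) (modularFunctionFieldFullC (ResidueField A) M))
    (hQ : jb ∈ Q.toValuationSubring) (hh : ¬ GrdVal Q (jb ^ (p ^ 2) - jb) 0) :
    ttrpGoodQ M p A jb Q := by
  haveI : IsAlgClosed (ResidueField A) := grd_isAlgClosed_residue A
  obtain ⟨c, hc⟩ := grdg_val_exists hat.c.sepK Q hQ
  refine ⟨c, hc, fun h => hh ?_⟩
  have h1 := grdg_val_add Q (grda_val_pow Q hc (p ^ 2)) (grdg_val_neg Q hc)
  rw [h, add_neg_cancel, ← sub_eq_add_neg] at h1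
  exact h1

theorem ttrp_not_goodQ_of_zero
    (jb : modularFunctionFieldFullC (ResidueField A) M)
    (Q : Place (ResidueField A) (modularFunctionFieldFullC (ResidueField A) M))
    (hh : GrdVal Q (jb ^ (p ^ 2) - jb) 0) : ¬ ttrpGoodQ M p A jb Q := by
  rintro ⟨c, hc, hne⟩
  have h1 := grdg_val_add Q (grda_val_pow Q hc (p ^ 2)) (grdg_val_neg Q hc)
  rw [← sub_eq_add_neg, ← sub_eq_add_neg] at h1
  exact hne (sub_eq_zero.mp (grdg_val_unique Q h1 hh))

/-- the exceptional set is finite. -/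
theorem ttrp_badQ_finite (hℓM : ¬ ℓ ∣ M) (hA : A.LiesOverPrime ℓ) (hat : GrdAtlas M A τ τ')
    (jb : modularFunctionFieldFullC (ResidueField A) M) (hjb : jb ^ (p ^ 2) - jb ≠ 0) :
    (ttrpBadQ M p A hat jb).Finite := by
  haveI : HasPrincipalDivisors Qb (modularFunctionFieldBar M) :=
    (isSepGen_jBar (N := M)).hasPrincipalDivisors
  haveI : HasPrincipalDivisors (ResidueField A) (modularFunctionFieldFullC (ResidueField A) M) :=
    ffg_hasPrincipalDivisors_modL M A (grd_reductionInputs_of_atlas M A hℓM hA hat)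
  have hfin : ∀ f : modularFunctionFieldFullC (ResidueField A) M, f ≠ 0 →
      {Q : Place (ResidueField A) (modularFunctionFieldFullC (ResidueField A) M) |
        Q.ord f ≠ 0}.Finite := by
    intro f hf
    obtain ⟨D, hD, -⟩ := HasPrincipalDivisors.exists_divisor (K := ResidueField A) f hf
    refine D.support.finite_toSet.subset fun Q hQ => ?_
    simp only [Set.mem_ofPred_eq] at hQ
    simp only [Finset.mem_coe, Finsupp.mem_support_iff, hD Q]
    exact hQ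
  have hjb0 : jb ≠ 0 := by
    rintro rfl
    apply hjb
    rw [zero_pow (pow_ne_zero 2 (NeZero.ne p)), sub_zero]
  refine ((ffip_bad_finite M A hat).union ((hfin jb hjb0).union (hfin _ hjb))).subset ?_
  rintro Q (hQ | hQ)
  · exact Or.inl hQ
  · right
    by_contra hcon
    simp only [Set.mem_union, Set.mem_ofPred_eq, not_or, not_not] at hcon
    apply hQ
    refine ttrp_goodQ_of hat jb Q (PlaceOrd.mem_of_ord_nonneg Q (le_of_eq hcon.1.symm)) ?_
    rw [grdg_val_zero_iff_ord Q hjb, hcon.2]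
    exact lt_irrefl 0

variable (M p A)

/-- THE EXCEPTIONAL SET `T` (for both components). -/
def ttrpT (hℓM : ¬ ℓ ∣ M) (hA : A.LiesOverPrime ℓ) (hat : GrdAtlas M A τ τ')
    (jb : modularFunctionFieldFullC (ResidueField A) M) (hjb : jb ^ (p ^ 2) - jb ≠ 0) :
    Finset (Place (ResidueField A) (modularFunctionFieldFullC (ResidueField A) M)) :=
  (ttrp_badQ_finite hℓM hA hat jb hjb).toFinset

variable {M p A}

theorem ttrp_mem_T (hℓM : ¬ ℓ ∣ M) (hA : A.LiesOverPrime ℓ) (hat : GrdAtlas M A τ τ')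
    (jb : modularFunctionFieldFullC (ResidueField A) M) (hjb : jb ^ (p ^ 2) - jb ≠ 0)
    (Q : Place (ResidueField A) (modularFunctionFieldFullC (ResidueField A) M)) :
    Q ∈ ttrpT M p A hℓM hA hat jb hjb ↔ Q ∈ ffipBad M A hat ∨ ¬ ttrpGoodQ M p A jb Q := by
  unfold ttrpT
  rw [Set.Finite.mem_toFinset]
  rfl

/-- off `T` : not bad at level `M`, and good. -/
theorem ttrp_of_notMem_T (hℓM : ¬ ℓ ∣ M) (hA : A.LiesOverPrime ℓ) (hat : GrdAtlas M A τ τ')
    (jb : modularFunctionFieldFullC (ResidueField A) M) (hjb : jb ^ (p ^ 2) - jb ≠ 0)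
    (Q : Place (ResidueField A) (modularFunctionFieldFullC (ResidueField A) M))
    (hQ : Q ∉ ttrpT M p A hℓM hA hat jb hjb) : Q ∉ ffipBad M A hat ∧ ttrpGoodQ M p A jb Q := by
  rw [ttrp_mem_T, not_or, not_not] at hQ
  exact hQ

/-- the zeros of `h̄ = j̄^{p²} - j̄` (in particular the nodes) lie in `T`. -/
theorem ttrp_zero_mem_T (hℓM : ¬ ℓ ∣ M) (hA : A.LiesOverPrime ℓ) (hat : GrdAtlas M A τ τ')
    (jb : modularFunctionFieldFullC (ResidueField A) M) (hjb : jb ^ (p ^ 2) - jb ≠ 0)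
    (Q : Place (ResidueField A) (modularFunctionFieldFullC (ResidueField A) M))
    (hh : GrdVal Q (jb ^ (p ^ 2) - jb) 0) : Q ∈ ttrpT M p A hℓM hA hat jb hjb := by
  rw [ttrp_mem_T]
  exact Or.inr (ttrp_not_goodQ_of_zero jb Q hh)

end Bad

section Lift

variable (M : ℕ) [NeZero M] {p : ℕ} [Fact p.Prime] [NeZero p]
variable (A : ValuationSubring Qb)
variable {τ τ' : LaurentSeries ℤ}

/-- **field `lift₁` of `TtgModel` at the level `M p`, VERBATIM**, from a Kronecker datum for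
`(α, j₀, Y)` : `cls` with `u₁ = α τ_ℚ̄`, `v₁ = Y^p - α j₀`. -/
theorem ttrp_inst_lift₁ (hpM : ¬ p ∣ M) (hA : A.LiesOverPrime p) (hat : GrdAtlas M A τ τ')
    (r : Place Qb (modularFunctionFieldBar M) →
      Place (ResidueField A) (modularFunctionFieldFullC (ResidueField A) M))
    (hr : GrdIsRed M A hat.c.mem hat.c'.mem r)
    (u₂ v₂ : modularFunctionFieldBar (M * p))
    (j₀ : modularFunctionFieldBar M) (hj₀ : j₀ ∈ grdO M A)
    (hj₀int : GrdIsInt M A (grdQ M hat.c.mem) j₀)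
    (Y : modularFunctionFieldBar (M * p))
    (hK : TtrpKron M p A (heckeAlphaBar Qb M p) j₀ Y)
    (hYint : Y ∈ grdB (M * p) A (heckeAlphaBar Qb M p (grdQ M hat.c.mem)))
    (hv : ∀ σ ∈ A.inertiaSubgroupIn ℚ,
      ffipG (M * p) σ • (Y ^ p - heckeAlphaBar Qb M p j₀) = Y ^ p - heckeAlphaBar Qb M p j₀)
    (T₁ : Finset (Place (ResidueField A) (modularFunctionFieldFullC (ResidueField A) M)))
    (hT₁ : ∀ Q : Place (ResidueField A) (modularFunctionFieldFullC (ResidueField A) M),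
      Q ∉ T₁ → Q ∉ ffipBad M A hat ∧ ttrpGoodQ M p A (grdRed M A ⟨j₀, hj₀⟩) Q) :
    ∀ Q : Place (ResidueField A) (modularFunctionFieldFullC (ResidueField A) M), Q ∉ T₁ →
      ∃ P : Place Qb (modularFunctionFieldBar (M * p)),
        ttrpCls M p A r (heckeAlphaBar Qb M p (grdQ M hat.c.mem))
          (Y ^ p - heckeAlphaBar Qb M p j₀) u₂ v₂ P = some (Sum.inl Q) ∧
          ∀ σ : ↥(A.inertiaSubgroupIn ℚ), ffigRho (M * p) A σ • P = P := by
  refine ttrp_cls_lift₁ T₁ (fun Q hQ => ?_)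
  obtain ⟨P, hP, hfix⟩ := ttrp_exists_fixed_good_kron hpM hA hat r hr
    (↑(A.inertiaSubgroupIn ℚ) : Set (Qb ≃ₐ[ℚ] Qb))
    (fun σ hσ => isInertial_of_mem_inertiaSubgroupIn A σ hσ)
    (fun c => by
      obtain ⟨a, h1, h2⟩ := ffiw_exists_fixed_lift A hA c
      exact ⟨a, h1, fun σ hσ => h2 σ hσ⟩)
    (heckeAlphaBar Qb M p) (gff_alpha_integral M p) (gff_alpha_finite M p)
    (fun σ _ => gasmhg_alpha_intertwines M p σ) j₀ hj₀ hj₀int Y hK hYint hv Q
    (hT₁ Q hQ).1 (hT₁ Q hQ).2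
  exact ⟨P, hP, fun σ => hfix σ.1 σ.2⟩

/-- **field `lift₂` of `TtgModel` at the level `M p`, VERBATIM**, from a Kronecker datum for
`(β, j₀, Y')` : `cls` with `u₂ = β τ_ℚ̄`, `v₂ = Y'^p - β j₀`. -/
theorem ttrp_inst_lift₂ (hpM : ¬ p ∣ M) (hA : A.LiesOverPrime p) (hat : GrdAtlas M A τ τ')
    (r : Place Qb (modularFunctionFieldBar M) →
      Place (ResidueField A) (modularFunctionFieldFullC (ResidueField A) M))
    (hr : GrdIsRed M A hat.c.mem hat.c'.mem r)
    (u₁ v₁ : modularFunctionFieldBar (M * p))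
    (j₀ : modularFunctionFieldBar M) (hj₀ : j₀ ∈ grdO M A)
    (hj₀int : GrdIsInt M A (grdQ M hat.c.mem) j₀)
    (Y' : modularFunctionFieldBar (M * p))
    (hK : TtrpKron M p A (heckeBetaBar Qb M p) j₀ Y')
    (hYint : Y' ∈ grdB (M * p) A (heckeBetaBar Qb M p (grdQ M hat.c.mem)))
    (hv : ∀ σ ∈ A.inertiaSubgroupIn ℚ,
      ffipG (M * p) σ • (Y' ^ p - heckeBetaBar Qb M p j₀) = Y' ^ p - heckeBetaBar Qb M p j₀)
    (hdisj : ∀ P : Place Qb (modularFunctionFieldBar (M * p)),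
      TtrpGoodC M p A u₁ v₁ P →
        TtrpGoodC M p A (heckeBetaBar Qb M p (grdQ M hat.c.mem))
          (Y' ^ p - heckeBetaBar Qb M p j₀) P → False)
    (T₂ : Finset (Place (ResidueField A) (modularFunctionFieldFullC (ResidueField A) M)))
    (hT₂ : ∀ Q : Place (ResidueField A) (modularFunctionFieldFullC (ResidueField A) M),
      Q ∉ T₂ → Q ∉ ffipBad M A hat ∧ ttrpGoodQ M p A (grdRed M A ⟨j₀, hj₀⟩) Q) :
    ∀ Q : Place (ResidueField A) (modularFunctionFieldFullC (ResidueField A) M), Q ∉ T₂ →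
      ∃ P : Place Qb (modularFunctionFieldBar (M * p)),
        ttrpCls M p A r u₁ v₁ (heckeBetaBar Qb M p (grdQ M hat.c.mem))
          (Y' ^ p - heckeBetaBar Qb M p j₀) P = some (Sum.inr Q) ∧
          ∀ σ : ↥(A.inertiaSubgroupIn ℚ), ffigRho (M * p) A σ • P = P := by
  refine ttrp_cls_lift₂ hdisj T₂ (fun Q hQ => ?_)
  obtain ⟨P, hP, hfix⟩ := ttrp_exists_fixed_good_kron hpM hA hat r hr
    (↑(A.inertiaSubgroupIn ℚ) : Set (Qb ≃ₐ[ℚ] Qb))
    (fun σ hσ => isInertial_of_mem_inertiaSubgroupIn A σ hσ)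
    (fun c => by
      obtain ⟨a, h1, h2⟩ := ffiw_exists_fixed_lift A hA c
      exact ⟨a, h1, fun σ hσ => h2 σ hσ⟩)
    (heckeBetaBar Qb M p) (gff_beta_integral M p) (gff_beta_finite M p)
    (fun σ _ => gasmhg_beta_intertwines M p σ) j₀ hj₀ hj₀int Y' hK hYint hv Q
    (hT₂ Q hQ).1 (hT₂ Q hQ).2
  exact ⟨P, hP, fun σ => hfix σ.1 σ.2⟩

end Lift

end Fermat.Agent.TT
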