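import Mathlib
import Fermat.Agent.TT.Red2.ClsInst
import Fermat.Agent.TT.Red2.ChartAll

/-!
# PROGRAM TT (S33), G/Red₂ LAYER B (owner helper6, prefix `ttrp`) : THE `j`-CHART INSTANCE
(`p ≥ 5`) OF THE FIELDS `lift_j`, `val_j` OF `TtgModel`

`cls = ttrpCls M p 𝔸 r (α j) u₂ (β j) (J^p - Y)`, `u₂ = Y^p - J` (`ttrU2`), `J^p - Y = -u₁`,
`T₁ = T₂ ⊇ ttrpT … j̄` (the bad set of level `M`, `j̄ = ∞`, `j̄^{p²} = j̄`).

The ONLY open inputs are the two Kronecker data `TtrpKron` (B-kron) for `(α, j, β j)` and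
`(β, j, α j)`.
-/

set_option autoImplicit false
set_option linter.unusedSectionVars false
set_option linter.unusedVariables false
set_option linter.style.haveILetI false
set_option synthInstance.maxHeartbeats 400000

noncomputable section

namespace Fermat.Agent.TT

open ModularCurve AlgebraicCurve IsLocalRing Polynomial Fermat.Agent.S18 Fermat.Agent.S24
  Fermat.Agent.G Fermat.Agent.FF Fermat.Agent.S05

local notation "Qb" => AlgebraicClosure ℚ

section J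

variable (M : ℕ) [NeZero M] {p : ℕ} [Fact p.Prime] [NeZero p]
variable (A : ValuationSubring Qb)
variable {τ' : LaurentSeries ℤ}

/-- `v₂ = J^p - Y = -u₁`. -/
theorem ttrp_j_v₂_eq : ttrJ M A (p := p) ^ p - ttrY M A (p := p) = -ttrU1 M A (p := p) := by
  unfold ttrU1
  rw [neg_sub]

/-- `J` is Galois-fixed. -/
theorem ttrp_j_J_fixed (σ : Qb ≃ₐ[ℚ] Qb) :
    ffipG (M * p) σ • ttrJ M A (p := p) = ttrJ M A (p := p) :=
  ttrp_coord_fixed M p σ (heckeAlphaBar Qb M p) (gasmhg_alpha_intertwines M p σ) (grdi_mem_j M)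

/-- `Y` is Galois-fixed. -/
theorem ttrp_j_Y_fixed (σ : Qb ≃ₐ[ℚ] Qb) :
    ffipG (M * p) σ • ttrY M A (p := p) = ttrY M A (p := p) :=
  ttrp_coord_fixed M p σ (heckeBetaBar Qb M p) (gasmhg_beta_intertwines M p σ) (grdi_mem_j M)

/-- `u₂ = Y^p - J` is Galois-fixed. -/
theorem ttrp_j_U2_fixed (σ : Qb ≃ₐ[ℚ] Qb) :
    ffipG (M * p) σ • (ttrY M A (p := p) ^ p - ttrJ M A (p := p)) =
      ttrY M A (p := p) ^ p - ttrJ M A (p := p) := by
  rw [smul_sub, smul_pow', ttrp_j_J_fixed, ttrp_j_Y_fixed]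

/-- `v₂ = J^p - Y` is Galois-fixed. -/
theorem ttrp_j_v₂_fixed (σ : Qb ≃ₐ[ℚ] Qb) :
    ffipG (M * p) σ • (ttrJ M A (p := p) ^ p - ttrY M A (p := p)) =
      ttrJ M A (p := p) ^ p - ttrY M A (p := p) := by
  rw [smul_sub, smul_pow', ttrp_j_J_fixed, ttrp_j_Y_fixed]

/-- `J = α j ∈ B(β j)`. -/
theorem ttrp_j_J_mem' (hpM : ¬ p ∣ M) (hA : A.LiesOverPrime p) :
    ttrJ M A (p := p) ∈ grdB (M * p) A (heckeBetaBar Qb M p (grdQ M (grdi_mem_j M))) := by
  have h := ttr_isInt_w M A hpM (ttr_chart_Y_mem M A hpM hA)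
  rw [ttrW_alpha, ttrW_Y] at h
  exact h

/-- **the `j`-chart, index 2, with `v₂ = J^p - Y`.** -/
theorem ttrp_j_chart₂ (hpM : ¬ p ∣ M) (hA : A.LiesOverPrime p) (h5 : 5 ≤ p) :
    TtrpChart M p A (heckeBetaBar Qb M p) (grd_chart_j M A hpM hA h5).mem (ttrV2 M A hpM)
      (ttrRed2 M A hpM hA) (ttrJ M A ^ p - ttrY M A) := by
  rw [ttrp_j_v₂_eq]
  refine ttr_chart₂ M A hpM hA (grd_chart_j M A hpM hA h5) (-ttrU1 M A)
    (Subring.neg_mem _ (ttr_chart_U1_mem' M A hpM hA)) (fun h => ?_)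
  have e : (⟨-ttrU1 M A, h⟩ : ↥(grdO (M * p) A)) = -⟨ttrU1 M A, ttrU1_mem M A⟩ := rfl
  rw [e, map_neg, ttrRed1_U1, neg_zero]

/-- DISJOINTNESS of the two good loci in the `j`-chart. -/
theorem ttrp_j_disj (hpM : ¬ p ∣ M) (hA : A.LiesOverPrime p) (h5 : 5 ≤ p)
    (u₂ : modularFunctionFieldBar (M * p)) (P : Place Qb (modularFunctionFieldBar (M * p)))
    (h1 : TtrpGoodC M p A (heckeAlphaBar Qb M p (grdQ M (grdi_mem_j M))) (ttrU2 M A) P)
    (h2 : TtrpGoodC M p A u₂ (ttrJ M A ^ p - ttrY M A) P) : False := by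
  have hv₂ : ttrJ M A (p := p) ^ p - ttrY M A (p := p) ∈
      grdB (M * p) A (heckeAlphaBar Qb M p (grdQ M (grdi_mem_j M))) := by
    rw [ttrp_j_v₂_eq]
    exact Subring.neg_mem _ (ttr_chart_U1_mem M A hpM hA)
  refine ttrp_disj (ttr_chart_j₁ M A hpM hA h5) u₂ _ hv₂ ?_ P h1 h2
  have e : (⟨ttrJ M A (p := p) ^ p - ttrY M A (p := p),
      (ttr_chart_j₁ M A hpM hA h5).int_mem hv₂⟩ : ↥(grdO (M * p) A)) =
      -⟨ttrU1 M A, ttrU1_mem M A⟩ := Subtype.ext (ttrp_j_v₂_eq M A)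
  rw [e, map_neg, ttrRed1_U1, neg_zero]

/-- **THE FOUR FIELDS `lift₁`, `lift₂`, `val₁`, `val₂` of `TtgModel` in the `j`-chart
(`p ≥ 5`)**, for `cls = ttrpCls M p 𝔸 r (α j) u₂ (β j) (J^p - Y)` and any `T₁, T₂ ⊇ ttrpT`, from
the two Kronecker data. -/
theorem ttrp_j_fields (hpM : ¬ p ∣ M) (hA : A.LiesOverPrime p) (h5 : 5 ≤ p)
    (hat : GrdAtlas M A (jqModC ℤ) τ')
    (r : Place Qb (modularFunctionFieldBar M) →
      Place (ResidueField A) (modularFunctionFieldFullC (ResidueField A) M))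
    (hr : GrdIsRed M A hat.c.mem hat.c'.mem r)
    (hK₁ : TtrpKron M p A (heckeAlphaBar Qb M p) (ttrJ0 M A : modularFunctionFieldBar M)
      (ttrY M A))
    (hK₂ : TtrpKron M p A (heckeBetaBar Qb M p) (ttrJ0 M A : modularFunctionFieldBar M)
      (ttrJ M A))
    (T₁ T₂ : Finset (Place (ResidueField A) (modularFunctionFieldFullC (ResidueField A) M)))
    (hT₁ : ttrpT M p A hpM hA hat (ttrJk M A)
      (ttrH_ne_zero M A (Fact.out : p.Prime).one_lt) ⊆ T₁)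
    (hT₂ : ttrpT M p A hpM hA hat (ttrJk M A)
      (ttrH_ne_zero M A (Fact.out : p.Prime).one_lt) ⊆ T₂) :
    (∀ Q : Place (ResidueField A) (modularFunctionFieldFullC (ResidueField A) M), Q ∉ T₁ →
      ∃ P : Place Qb (modularFunctionFieldBar (M * p)),
        ttrpCls M p A r (heckeAlphaBar Qb M p (grdQ M hat.c.mem)) (ttrU2 M A)
          (heckeBetaBar Qb M p (grdQ M hat.c.mem)) (ttrJ M A ^ p - ttrY M A) P =
            some (Sum.inl Q) ∧
          ∀ σ : ↥(A.inertiaSubgroupIn ℚ), ffigRho (M * p) A σ • P = P) ∧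
    (∀ Q : Place (ResidueField A) (modularFunctionFieldFullC (ResidueField A) M), Q ∉ T₂ →
      ∃ P : Place Qb (modularFunctionFieldBar (M * p)),
        ttrpCls M p A r (heckeAlphaBar Qb M p (grdQ M hat.c.mem)) (ttrU2 M A)
          (heckeBetaBar Qb M p (grdQ M hat.c.mem)) (ttrJ M A ^ p - ttrY M A) P =
            some (Sum.inr Q) ∧
          ∀ σ : ↥(A.inertiaSubgroupIn ℚ), ffigRho (M * p) A σ • P = P) ∧
    (∀ (P : Place Qb (modularFunctionFieldBar (M * p)))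
      (Q : Place (ResidueField A) (modularFunctionFieldFullC (ResidueField A) M)),
      ttrpCls M p A r (heckeAlphaBar Qb M p (grdQ M hat.c.mem)) (ttrU2 M A)
          (heckeBetaBar Qb M p (grdQ M hat.c.mem)) (ttrJ M A ^ p - ttrY M A) P =
            some (Sum.inl Q) →
      ∀ (x : modularFunctionFieldBar (M * p)) (h₁ : x ∈ ttrV1 M A hpM hA)
        (h₂ : x ∈ ttalV2 (ttrV1 M A hpM hA) (ttrW M hpM)),
        (∀ P' : Place Qb (modularFunctionFieldBar (M * p)),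
          ttrpCls M p A r (heckeAlphaBar Qb M p (grdQ M hat.c.mem)) (ttrU2 M A)
            (heckeBetaBar Qb M p (grdQ M hat.c.mem)) (ttrJ M A ^ p - ttrY M A) P' =
              some (Sum.inl Q) → 0 ≤ P'.ord x) →
        ∃ α : A, GrdVal P x (α : Qb) ∧ GrdVal Q (ttrRed1 M A hA ⟨x, h₁⟩) (residue A α)) ∧
    (∀ (P : Place Qb (modularFunctionFieldBar (M * p)))
      (Q : Place (ResidueField A) (modularFunctionFieldFullC (ResidueField A) M)),
      ttrpCls M p A r (heckeAlphaBar Qb M p (grdQ M hat.c.mem)) (ttrU2 M A)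
          (heckeBetaBar Qb M p (grdQ M hat.c.mem)) (ttrJ M A ^ p - ttrY M A) P =
            some (Sum.inr Q) →
      ∀ (x : modularFunctionFieldBar (M * p)) (h₁ : x ∈ ttrV1 M A hpM hA)
        (h₂ : x ∈ ttalV2 (ttrV1 M A hpM hA) (ttrW M hpM)),
        (∀ P' : Place Qb (modularFunctionFieldBar (M * p)),
          ttrpCls M p A r (heckeAlphaBar Qb M p (grdQ M hat.c.mem)) (ttrU2 M A)
            (heckeBetaBar Qb M p (grdQ M hat.c.mem)) (ttrJ M A ^ p - ttrY M A) P' =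
              some (Sum.inr Q) → 0 ≤ P'.ord x) →
        ∃ α : A, GrdVal P x (α : Qb) ∧
          GrdVal Q (ttalRed2 (ttrV1 M A hpM hA) (ttrW M hpM) (ttrRed1 M A hA) ⟨x, h₂⟩)
            (residue A α)) := by
  have hgood : ∀ (T : Finset (Place (ResidueField A)
      (modularFunctionFieldFullC (ResidueField A) M))),
      ttrpT M p A hpM hA hat (ttrJk M A) (ttrH_ne_zero M A (Fact.out : p.Prime).one_lt) ⊆ T →
      ∀ Q : Place (ResidueField A) (modularFunctionFieldFullC (ResidueField A) M), Q ∉ T →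
        Q ∉ ffipBad M A hat ∧ ttrpGoodQ M p A (grdRed M A ⟨_, (ttrJ0 M A).2⟩) Q := by
    intro T hT Q hQ
    have h := ttrp_of_notMem_T hpM hA hat (ttrJk M A)
      (ttrH_ne_zero M A (Fact.out : p.Prime).one_lt) Q (fun h => hQ (hT h))
    have e : grdRed M A ⟨_, (ttrJ0 M A).2⟩ = ttrJk M A := ttr_red_J0 M A
    rw [e]
    exact h
  have hdisj : ∀ P : Place Qb (modularFunctionFieldBar (M * p)),
      TtrpGoodC M p A (heckeAlphaBar Qb M p (grdQ M hat.c.mem)) (ttrU2 M A) P →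
        TtrpGoodC M p A (heckeBetaBar Qb M p (grdQ M hat.c.mem))
          (ttrJ M A ^ p - ttrY M A) P → False :=
    fun P h1 h2 => ttrp_j_disj M A hpM hA h5 _ P h1 h2
  refine ⟨?_, ?_, ?_, ?_⟩
  · exact ttrp_inst_lift₁ M A hpM hA hat r hr _ _ (ttrJ0 M A : modularFunctionFieldBar M)
      (ttrJ0 M A).2 (grda_isInt_self M A _) (ttrY M A) hK₁ (ttr_chart_Y_mem M A hpM hA)
      (fun σ _ => ttrp_j_U2_fixed M A σ) T₁ (hgood T₁ hT₁)
  · exact ttrp_inst_lift₂ M A hpM hA hat r hr _ _ (ttrJ0 M A : modularFunctionFieldBar M)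
      (ttrJ0 M A).2 (grda_isInt_self M A _) (ttrJ M A) hK₂ (ttrp_j_J_mem' M A hpM hA)
      (fun σ _ => ttrp_j_v₂_fixed M A σ) hdisj T₂ (hgood T₂ hT₂)
  · exact ttrp_inst_val₁ M A hpM hA hat r hr _ _ _ (ttr_chart_j₁ M A hpM hA h5)
  · exact ttrp_inst_val₂ M A hpM hA hat r hr _ _ _ (ttrp_j_chart₂ M A hpM hA h5) hdisj

end J

end Fermat.Agent.TT
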