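/-
(COUNT) at the atlas `(j, τ')`, `p ≥ 5`, CLOSED (prefix `ttrkJ`): the seven COUNT slots
`hR₁ hR₂ hR₁' hR₂' hT hT' hcusp` of helper2's `ttra_red2_of_atlas_S` / of `ttrk_genus_le_S` on
`ttrkT M p 𝔸 hpM hA hat`, hypothesis-free (`CountJ` + helper17 `ttrc_T_hR_j`), and `genus_le`
on the canonical nodes `ttrkS` with no hypothesis left but the `Fintype` instance.
-/
import Mathlib
import Fermat.Agent.TT.Red2.CountJ
import Fermat.Agent.TT.Red2.ChartOntoAtlas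

set_option autoImplicit false
set_option linter.unusedSectionVars false
set_option linter.unusedVariables false
set_option linter.style.haveILetI false

noncomputable section

namespace Fermat.Agent.TT

open AlgebraicCurve ModularCurve IsLocalRing Fermat.Agent.G Fermat.Agent.FF Fermat.Agent.S24
  Fermat.Agent.V.RR

local notation "Qb" => AlgebraicClosure ℚ

variable (M p : ℕ) [NeZero M] [NeZero p] [Fact p.Prime]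
variable (A : ValuationSubring (AlgebraicClosure ℚ)) {τ' : LaurentSeries ℤ}

/-- **`hT`** at the atlas `(j, τ')`, `p ≥ 5`. -/
theorem ttrkJ_hT (hpM : ¬ p ∣ M) (hA : A.LiesOverPrime p) (h5 : 5 ≤ p)
    (hat : GrdAtlas M A (jqModC ℤ) τ') :
    ∀ 𝔫 : Ideal ↥(ttrkT M p A hpM hA hat).B, 𝔫.IsMaximal →
      RingHom.ker (ttrkR₁ (ttrkT M p A hpM hA hat)) ≤ 𝔫 →
      RingHom.ker (ttrkR₂ (ttrkT M p A hpM hA hat)) ≤ 𝔫 → ∀ x ∈ 𝔫, ∃ s, s ∉ 𝔫 ∧ ∃ y₁ y₂,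
        ttrkR₁ (ttrkT M p A hpM hA hat) y₁ = 0 ∧ ttrkR₂ (ttrkT M p A hpM hA hat) y₂ = 0 ∧
          s * x = y₁ + y₂ :=
  ttrkT_hT M p A hpM hA hat (ttrvpV2 M A hpM hA) (ttrvp_mem_V2 M A hpM hA)
    (ttrkJ_TB M p A hpM hA h5 hat (ttrvpV2 M A hpM hA) (ttrvp_mem_V2 M A hpM hA))

/-- **`hT'`** at the atlas `(j, τ')`, `p ≥ 5`. -/
theorem ttrkJ_hT' (hpM : ¬ p ∣ M) (hA : A.LiesOverPrime p) (h5 : 5 ≤ p)
    (hat : GrdAtlas M A (jqModC ℤ) τ') :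
    ∀ 𝔫 : Ideal ↥(ttrkT M p A hpM hA hat).B', 𝔫.IsMaximal →
      RingHom.ker (ttrkR₁' (ttrkT M p A hpM hA hat)) ≤ 𝔫 →
      RingHom.ker (ttrkR₂' (ttrkT M p A hpM hA hat)) ≤ 𝔫 → ∀ x ∈ 𝔫, ∃ s, s ∉ 𝔫 ∧ ∃ y₁ y₂,
        ttrkR₁' (ttrkT M p A hpM hA hat) y₁ = 0 ∧ ttrkR₂' (ttrkT M p A hpM hA hat) y₂ = 0 ∧
          s * x = y₁ + y₂ :=
  ttrkT_hT' M p A hpM hA hat (ttrvpV2 M A hpM hA) (ttrvp_mem_V2 M A hpM hA)
    (ttrkJ_TB' M p A hpM hA h5 hat (ttrvpV2 M A hpM hA) (ttrvp_mem_V2 M A hpM hA)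
      (ttrc_T_hR_j M p A hpM hA h5 hat).2.2.1)

/-- **`hcusp`** at the atlas `(j, τ')`. -/
theorem ttrkJ_hcusp (hpM : ¬ p ∣ M) (hA : A.LiesOverPrime p)
    (hat : GrdAtlas M A (jqModC ℤ) τ') :
    ∀ 𝔫 : Ideal ↥(ttrkT M p A hpM hA hat).B', 𝔫.IsMaximal →
      RingHom.ker (ttrkR₁' (ttrkT M p A hpM hA hat)) ≤ 𝔫 →
      RingHom.ker (ttrkR₂' (ttrkT M p A hpM hA hat)) ≤ 𝔫 →
      (⟨(ttrkT M p A hpM hA hat).u', (ttrkT M p A hpM hA hat).hu'⟩ :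
        ↥(ttrkT M p A hpM hA hat).B') ∉ 𝔫 :=
  ttrkT_hcusp M p A hpM hA hat (ttrvpV2 M A hpM hA) (ttrvp_mem_V2 M A hpM hA)
    (ttrkJ_NC M p A hpM hA hat (ttrvpV2 M A hpM hA) (ttrvp_mem_V2 M A hpM hA))

/-- **`genus_le` AT THE ATLAS `(j, τ')`, `p ≥ 5`, ON THE NODES `ttrkS`, HYPOTHESIS-FREE.** -/
theorem ttrk_genus_le_j_closed (hpM : ¬ p ∣ M) (hA : A.LiesOverPrime p) (h5 : 5 ≤ p)
    (hat : GrdAtlas M A (jqModC ℤ) τ') [Fintype (ttrkS M p A hpM hA hat)] :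
    (genusFF Qb (modularFunctionFieldBar (M * p)) : ℤ) ≤
      genusFF Qb (modularFunctionFieldBar M) + genusFF Qb (modularFunctionFieldBar M) +
        Fintype.card (ttrkS M p A hpM hA hat) - 1 :=
  ttrk_genus_le_S M p A hpM hA hat (ttrc_T_hR_j M p A hpM hA h5 hat).1
    (ttrc_T_hR_j M p A hpM hA h5 hat).2.1 (ttrc_T_hR_j M p A hpM hA h5 hat).2.2.1
    (ttrc_T_hR_j M p A hpM hA h5 hat).2.2.2 (ttrkJ_hT M p A hpM hA h5 hat)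
    (ttrkJ_hT' M p A hpM hA h5 hat) (ttrkJ_hcusp M p A hpM hA hat)

end Fermat.Agent.TT
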