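import Mathlib
import Fermat.Agent.TT.Red2.GoodFibGlue
import Fermat.Agent.TT.Red2.ChartRed
import Fermat.Agent.TT.Red2.Inst
import Fermat.Agent.SS.Val.ModCoeff
import Fermat.Agent.G.GN

/-!
# Program TT (S33), G/Red₂ Layer B, (B-kron) : THE KRONECKER DATUM OF `X₀(p M)`, BOTH INDICES

Owner: helper12 (spare of helper22's GoodKron, PM R39(2)).  Namespace `Fermat.Agent.TT`, prefix
`ttrkr`.

`j₀ = j ∈ F_ℚ̄(M)`, `J = α j`, `Y = β j ∈ F_ℚ̄(M p)`, `p ∤ M`, `𝔸` a valuation ring of `ℚ̄` above `p`.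
From main's modular polynomial (`ssvmc_modular`, at `E = ⊥`), pushed to `𝔸` :

* `ttrkr_exists` : ONE `Φ ∈ 𝔸[X][T]`, monic of degree `p + 1` in `T`, `deg_X Φ_i ≤ p + 1`
  (`≤ p` for `i ≥ 1`), Kronecker's congruence, and for BOTH indices : `F(M)⟮Y⟯ = ⊤`,
  `minpoly_{F(M)} Y = Φ(j, T)`, degree `≥ 2` (index 1 : `φ = α`, `Y = β j`; index 2 : `φ = β`,
  `Y = α j`, by transport along `w = ttrW`);
* `ttrkr_kron₁`, `ttrkr_kron₂` : helper6's `TtrpKron M p 𝔸 α j (β j)`, `TtrpKron M p 𝔸 β j (α j)`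
  (`ttrkr_kron_Y`, `ttrkr_kron_J` : the same in the spelling `ttrY`, `ttrJ`);
* `ttrkr_int₁`, `ttrkr_int₂` : `β j ∈ grdB (M p) 𝔸 (α j)`, `α j ∈ grdB (M p) 𝔸 (β j)` (`hYint`);
* `ttrkr_root₁`, `ttrkr_root₂` : `Φ(J, Y) = 0`, `Φ(Y, J) = 0` in `F_ℚ̄(M p)`;
* `ttrkr_u1u2` : `(Y - J^p)(Y^p - J) = -G(J, Y)` with every coefficient of `G` in `𝔪_𝔸`.
-/

set_option autoImplicit false
set_option linter.unusedSectionVars false
set_option linter.unusedVariables false
set_option linter.style.haveILetI false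
set_option synthInstance.maxHeartbeats 400000

noncomputable section

namespace Fermat.Agent.TT

open ModularCurve AlgebraicCurve IsLocalRing Polynomial Fermat.Agent.S18 Fermat.Agent.S24
  Fermat.Agent.G Fermat.Agent.FF Fermat.Agent.S05 Fermat.Agent.SS

local notation "Qb" => AlgebraicClosure ℚ

/-! ### transport along an automorphism exchanging two algebra structures -/

theorem ttrkr_transport_aux {K L₁ L₂ : Type*} [Field K] [Field L₁] [Field L₂] [Algebra K L₁]
    [Algebra K L₂] (e : L₁ ≃ₐ[K] L₂) (y : L₁) :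
    minpoly K (e y) = minpoly K y ∧
      (IntermediateField.adjoin K {y} = ⊤ → IntermediateField.adjoin K {e y} = ⊤) := by
  refine ⟨minpoly.algEquiv_eq e y, fun h => ?_⟩
  have h1 := IntermediateField.adjoin_map K {y} e.toAlgHom
  rw [h, Set.image_singleton] at h1
  have h2 : e.toAlgHom y = e y := rfl
  rw [h2] at h1
  rw [← h1, ← AlgHom.fieldRange_eq_map, AlgHom.fieldRange_eq_top]
  exact e.surjective

/-- transport of the minimal polynomial and of `K⟮y⟯ = ⊤` along a ring automorphism `w` of `L`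
exchanging two `K`-algebra structures. -/
theorem ttrkr_transport {K L : Type*} [Field K] [Field L] (a₁ a₂ : Algebra K L) (w : L ≃+* L)
    (hw : ∀ k, w (@algebraMap K L _ _ a₁ k) = @algebraMap K L _ _ a₂ k) (y : L) :
    @minpoly K L _ _ a₂ (w y) = @minpoly K L _ _ a₁ y ∧
    (@IntermediateField.adjoin K _ L _ a₁ {y} = ⊤ →
      @IntermediateField.adjoin K _ L _ a₂ {w y} = ⊤) :=
  @ttrkr_transport_aux K L L _ _ _ a₁ a₂
    (@AlgEquiv.mk K L L _ _ _ a₁ a₂ w.toEquiv w.map_mul' w.map_add' hw) y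

section Kron

variable (M : ℕ) [NeZero M] {p : ℕ} [Fact p.Prime] [NeZero p]
variable (A : ValuationSubring Qb)

/-- `j` of level `M` in the spelling `grdQ` is main's `ssvmbJ M`. -/
theorem ttrkr_j_eq : grdQ M (grdi_mem_j M) = ssvmbJ M :=
  Subtype.ext (grdi_grdSer_j Qb)

set_option maxHeartbeats 1000000 in
/-- index 1, in main's spelling `ssvmbJ M` of `j`, with the extra facts on `Φ`. -/
theorem ttrkr_exists_alpha (hpM : ¬ p ∣ M) (hA : A.LiesOverPrime p) :
    letI := algebraAlong (heckeAlphaBar Qb M p)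
    ∃ Φ : (↥A)[X][X], Φ.Monic ∧ Φ.natDegree = p + 1 ∧ (∀ i, (Φ.coeff i).natDegree ≤ p + 1) ∧
      (∀ i, 1 ≤ i → (Φ.coeff i).natDegree ≤ p) ∧
      Φ.map (mapRingHom (residue ↥A)) = (X - C (X ^ p)) * (X ^ p - C X) ∧
      IntermediateField.adjoin (modularFunctionFieldBar M)
        {heckeBetaBar Qb M p (ssvmbJ M)} = ⊤ ∧
      (∀ i, (minpoly (modularFunctionFieldBar M) (heckeBetaBar Qb M p (ssvmbJ M))).coeff i =
        (Φ.coeff i).eval₂ (grdInclA M A) (ssvmbJ M)) ∧
      (minpoly (modularFunctionFieldBar M) (heckeBetaBar Qb M p (ssvmbJ M))).natDegree = p + 1 := by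
  letI algB := algebraAlong (heckeAlphaBar Qb M p)
  letI algE := algebraAlong (ssvmdIncl (↥(⊥ : IntermediateField ℚ Qb)) M p)
  obtain ⟨Φ₀, hm, hd, hc, hk, hroot, hlev, hc'⟩ := ssvmc_modular A (⊥ : IntermediateField ℚ Qb) hA
  obtain ⟨hup, hdegE⟩ := ssvmm_minpoly_up (q := p) (⊥ : IntermediateField ℚ Qb) M hpM
  obtain ⟨ζ₀, -, hdeg, -⟩ := ssvmb_minpoly M hpM
  haveI : IsLocalHom (s18dIncl A (⊥ : IntermediateField ℚ Qb)) := ggn_isLocalHom A _
  have hfr := gcjd_finrank M hpM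
  have hinj' : Function.Injective (s18dIncl A (⊥ : IntermediateField ℚ Qb)) := by
    intro a b hab
    have h1 : ((s18dIncl A (⊥ : IntermediateField ℚ Qb) a : ↥A) : Qb) =
        ((s18dIncl A (⊥ : IntermediateField ℚ Qb) b : ↥A) : Qb) := congrArg Subtype.val hab
    exact Subtype.ext ((algebraMap (↥(⊥ : IntermediateField ℚ Qb)) Qb).injective h1)
  have hinj : Function.Injective (mapRingHom (s18dIncl A (⊥ : IntermediateField ℚ Qb))) :=
    Polynomial.map_injective _ hinj'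
  refine ⟨Φ₀.map (mapRingHom (s18dIncl A (⊥ : IntermediateField ℚ Qb))), hm.map _, ?_, ?_, ?_,
    ?_, ?_, ?_, hdeg⟩
  · rw [natDegree_map_eq_of_injective hinj, hd]
  · intro i
    rw [coeff_map, coe_mapRingHom, natDegree_map_eq_of_injective hinj']
    exact hc i
  · intro i hi
    rw [coeff_map, coe_mapRingHom, natDegree_map_eq_of_injective hinj']
    exact hc' i hi
  · -- Kronecker
    have hcomp : (residue ↥A).comp (s18dIncl A (⊥ : IntermediateField ℚ Qb)) =
        (ResidueField.map (s18dIncl A (⊥ : IntermediateField ℚ Qb))).comp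
          (residue ↥(s18dVal A (⊥ : IntermediateField ℚ Qb))) := rfl
    rw [Polynomial.map_map, mapRingHom_comp, hcomp, ← mapRingHom_comp, ← Polynomial.map_map, hk]
    simp only [Polynomial.map_mul, Polynomial.map_sub, Polynomial.map_pow, Polynomial.map_X,
      Polynomial.map_C, coe_mapRingHom]
  · -- generation
    haveI : FiniteDimensional (modularFunctionFieldBar M) (modularFunctionFieldBar (M * p)) :=
      Module.finite_of_finrank_pos (by rw [hfr]; omega)
    exact (Field.primitive_element_iff_minpoly_natDegree_eq (modularFunctionFieldBar M) _).mpr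
      (by rw [hdeg, hfr])
  · -- coefficients
    intro i
    have h1 := congrArg (fun P => P.coeff i) hup
    simp only [coeff_map] at h1
    rw [← h1]
    have h2 := congrArg (fun P => P.coeff i) (hlev M hpM)
    simp only [coeff_map] at h2
    rw [coeff_map, coe_mapRingHom, eval₂_map]
    apply Subtype.ext
    rw [ssvmmUp_coe]
    have h3 : ∀ z : ↥(modularFunctionFieldFullC (↥(⊥ : IntermediateField ℚ Qb)) M),
        (z : LaurentSeries ↥(⊥ : IntermediateField ℚ Qb)) =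
        (modularFunctionFieldFullC (↥(⊥ : IntermediateField ℚ Qb)) M).val.toRingHom z := fun z => rfl
    rw [h3, ← h2, ← ssvmc_coeffMap_F]
    rw [ssvmcEv_apply, ssvmc_coeffMap_aeval, aeval_def, eval₂_map]
    have h4 : ∀ z : ↥(modularFunctionFieldBar M),
        (z : LaurentSeries Qb) = (modularFunctionFieldBar M).val.toRingHom z := fun z => rfl
    rw [h4, Polynomial.hom_eval₂]
    rfl

/-- `ttrW` is an Atkin–Lehner involution in the sense of `TtrcW`. -/
theorem ttrkr_hw (hpM : ¬ p ∣ M) : TtrcW M p (ttrW M hpM) :=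
  ⟨ttrW_alpha M hpM, ttrW_beta M hpM⟩

/-- (`hYint`, index 1) `β j` is integral over `𝔸[α j]`. -/
theorem ttrkr_int₁ (hpM : ¬ p ∣ M) (hA : A.LiesOverPrime p) :
    heckeBetaBar Qb M p (grdQ M (grdi_mem_j M)) ∈
      grdB (M * p) A (heckeAlphaBar Qb M p (grdQ M (grdi_mem_j M))) := by
  rw [ttrc_al_grdQ M p (grdi_mem_j M) (ttrc_serMem M p (grdi_mem_j M))]
  exact ttrc_be_j_isInt hA hpM (ttrkr_hw M hpM)

/-- (`hYint`, index 2) `α j` is integral over `𝔸[β j]`. -/
theorem ttrkr_int₂ (hpM : ¬ p ∣ M) (hA : A.LiesOverPrime p) :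
    heckeAlphaBar Qb M p (grdQ M (grdi_mem_j M)) ∈
      grdB (M * p) A (heckeBetaBar Qb M p (grdQ M (grdi_mem_j M))) := by
  have h := ttrc_w_isInt (ttrkr_hw M hpM) (ttrkr_int₁ M A hpM hA)
  rw [ttrW_alpha, ttrW_beta] at h
  exact h

/-- a polynomial identity `minpoly = Φ(j₀, T)` gives `Φ(φ j₀, Y) = 0`. -/
theorem ttrkr_root_of_min (φ : modularFunctionFieldBar M →ₐ[Qb] modularFunctionFieldBar (M * p))
    (j₀ : modularFunctionFieldBar M) (Y : modularFunctionFieldBar (M * p)) (Φ : (↥A)[X][X])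
    (hint : letI := algebraAlong φ
      IsIntegral (modularFunctionFieldBar M) Y)
    (hmin : letI := algebraAlong φ
      ∀ i, (minpoly (modularFunctionFieldBar M) Y).coeff i =
        (Φ.coeff i).eval₂ (grdInclA M A) j₀) :
    eval₂ (eval₂RingHom (grdInclA (M * p) A) (φ j₀)) Y Φ = 0 := by
  letI := algebraAlong φ
  have h1 : minpoly (modularFunctionFieldBar M) Y =
      Φ.map (eval₂RingHom (grdInclA M A) j₀) := by
    ext i
    rw [hmin i, coeff_map, coe_eval₂RingHom]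
  have h2 := minpoly.aeval (modularFunctionFieldBar M) Y
  rw [h1, aeval_def, eval₂_map] at h2
  have hcomp : (algebraMap (modularFunctionFieldBar M) (modularFunctionFieldBar (M * p))).comp
      (eval₂RingHom (grdInclA M A) j₀) = eval₂RingHom (grdInclA (M * p) A) (φ j₀) := by
    apply Polynomial.ringHom_ext
    · intro a
      rw [RingHom.comp_apply, coe_eval₂RingHom, coe_eval₂RingHom, eval₂_C, eval₂_C]
      exact φ.commutes _
    · rw [RingHom.comp_apply, coe_eval₂RingHom, coe_eval₂RingHom, eval₂_X, eval₂_X]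
      rfl
  rw [hcomp] at h2
  exact h2

/-- `Φ(j₀, T)` IS the minimal polynomial of `Y` over `φ(F(M))`, of degree `p + 1`, and `Y`
generates `F(M p)` : the `Φ`-explicit form of helper6's `TtrpKron` (without the congruence). -/
def TtrkrMin (φ : modularFunctionFieldBar M →ₐ[Qb] modularFunctionFieldBar (M * p))
    (j₀ : modularFunctionFieldBar M) (Y : modularFunctionFieldBar (M * p)) (Φ : (↥A)[X][X]) :
    Prop :=
  letI := algebraAlong φ
  IntermediateField.adjoin (modularFunctionFieldBar M) {Y} = ⊤ ∧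
    (∀ i, (minpoly (modularFunctionFieldBar M) Y).coeff i =
      (Φ.coeff i).eval₂ (grdInclA M A) j₀) ∧
    (minpoly (modularFunctionFieldBar M) Y).natDegree = p + 1

/-- `TtrkrMin` + the congruence give helper6's `TtrpKron`. -/
theorem ttrkr_kron_of_min (φ : modularFunctionFieldBar M →ₐ[Qb] modularFunctionFieldBar (M * p))
    (j₀ : modularFunctionFieldBar M) (Y : modularFunctionFieldBar (M * p)) (Φ : (↥A)[X][X])
    (hk : Φ.map (mapRingHom (residue ↥A)) = (X - C (X ^ p)) * (X ^ p - C X))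
    (h : TtrkrMin M A φ j₀ Y Φ) : TtrpKron M p A φ j₀ Y := by
  obtain ⟨h1, h2, h3⟩ := h
  refine ⟨Φ, hk, h1, h2, ?_⟩
  rw [h3]
  have := (Fact.out : p.Prime).one_lt
  omega

set_option maxHeartbeats 1000000 in
/-- **(B-kron), MASTER STATEMENT** : ONE modular polynomial `Φ ∈ 𝔸[X][T]` serving both indices. -/
theorem ttrkr_exists (hpM : ¬ p ∣ M) (hA : A.LiesOverPrime p) :
    ∃ Φ : (↥A)[X][X], Φ.Monic ∧ Φ.natDegree = p + 1 ∧ (∀ i, (Φ.coeff i).natDegree ≤ p + 1) ∧
      (∀ i, 1 ≤ i → (Φ.coeff i).natDegree ≤ p) ∧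
      Φ.map (mapRingHom (residue ↥A)) = (X - C (X ^ p)) * (X ^ p - C X) ∧
      TtrkrMin M A (heckeAlphaBar Qb M p) (grdQ M (grdi_mem_j M))
        (heckeBetaBar Qb M p (grdQ M (grdi_mem_j M))) Φ ∧
      TtrkrMin M A (heckeBetaBar Qb M p) (grdQ M (grdi_mem_j M))
        (heckeAlphaBar Qb M p (grdQ M (grdi_mem_j M))) Φ ∧
      eval₂ (eval₂RingHom (grdInclA (M * p) A) (heckeAlphaBar Qb M p (grdQ M (grdi_mem_j M))))
        (heckeBetaBar Qb M p (grdQ M (grdi_mem_j M))) Φ = 0 ∧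
      eval₂ (eval₂RingHom (grdInclA (M * p) A) (heckeBetaBar Qb M p (grdQ M (grdi_mem_j M))))
        (heckeAlphaBar Qb M p (grdQ M (grdi_mem_j M))) Φ = 0 := by
  rw [ttrkr_j_eq]
  obtain ⟨Φ, hm, hd, hc, hc', hk, hgen, hmin, hdeg⟩ := ttrkr_exists_alpha M A hpM hA
  obtain ⟨ht1, ht2⟩ := ttrkr_transport (algebraAlong (heckeAlphaBar Qb M p))
    (algebraAlong (heckeBetaBar Qb M p)) (ttrW M hpM) (fun k => ttrW_alpha M hpM k)
    (heckeBetaBar Qb M p (ssvmbJ M))
  rw [ttrW_beta] at ht1 ht2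
  have hmin₂ : letI := algebraAlong (heckeBetaBar Qb M p)
      ∀ i, (minpoly (modularFunctionFieldBar M) (heckeAlphaBar Qb M p (ssvmbJ M))).coeff i =
        (Φ.coeff i).eval₂ (grdInclA M A) (ssvmbJ M) := by
    intro i
    rw [ht1]
    exact hmin i
  have hdeg₂ : letI := algebraAlong (heckeBetaBar Qb M p)
      (minpoly (modularFunctionFieldBar M) (heckeAlphaBar Qb M p (ssvmbJ M))).natDegree =
        p + 1 := by
    rw [ht1]
    exact hdeg
  have hint₁ : letI := algebraAlong (heckeAlphaBar Qb M p)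
      IsIntegral (modularFunctionFieldBar M) (heckeBetaBar Qb M p (ssvmbJ M)) := by
    letI := algebraAlong (heckeAlphaBar Qb M p)
    by_contra hni
    rw [minpoly.eq_zero hni, natDegree_zero] at hdeg
    omega
  have hint₂ : letI := algebraAlong (heckeBetaBar Qb M p)
      IsIntegral (modularFunctionFieldBar M) (heckeAlphaBar Qb M p (ssvmbJ M)) := by
    letI := algebraAlong (heckeBetaBar Qb M p)
    by_contra hni
    rw [minpoly.eq_zero hni, natDegree_zero] at hdeg₂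
    omega
  exact ⟨Φ, hm, hd, hc, hc', hk, ⟨hgen, hmin, hdeg⟩, ⟨ht2 hgen, hmin₂, hdeg₂⟩,
    ttrkr_root_of_min M A (heckeAlphaBar Qb M p) (ssvmbJ M) _ Φ hint₁ hmin,
    ttrkr_root_of_min M A (heckeBetaBar Qb M p) (ssvmbJ M) _ Φ hint₂ hmin₂⟩

/-- **(B-kron), index 1** : helper6's Kronecker datum for `(α, j, β j)`. -/
theorem ttrkr_kron₁ (hpM : ¬ p ∣ M) (hA : A.LiesOverPrime p) :
    TtrpKron M p A (heckeAlphaBar Qb M p) (grdQ M (grdi_mem_j M))
      (heckeBetaBar Qb M p (grdQ M (grdi_mem_j M))) := by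
  obtain ⟨Φ, -, -, -, -, hk, h₁, -, -, -⟩ := ttrkr_exists M A hpM hA
  exact ttrkr_kron_of_min M A _ _ _ Φ hk h₁

/-- **(B-kron), index 2** : helper6's Kronecker datum for `(β, j, α j)` (transport along
`w = ttrW`). -/
theorem ttrkr_kron₂ (hpM : ¬ p ∣ M) (hA : A.LiesOverPrime p) :
    TtrpKron M p A (heckeBetaBar Qb M p) (grdQ M (grdi_mem_j M))
      (heckeAlphaBar Qb M p (grdQ M (grdi_mem_j M))) := by
  obtain ⟨Φ, -, -, -, -, hk, -, h₂, -, -⟩ := ttrkr_exists M A hpM hA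
  exact ttrkr_kron_of_min M A _ _ _ Φ hk h₂

/-- index 1 in the spelling `ttrY` (helper15's `ttrli_const_j`). -/
theorem ttrkr_kron_Y (hpM : ¬ p ∣ M) (hA : A.LiesOverPrime p) :
    TtrpKron M p A (heckeAlphaBar Qb M p) (grdQ M (grdi_mem_j M)) (ttrY M A) :=
  ttrkr_kron₁ M A hpM hA

/-- index 2 in the spelling `ttrJ` (helper15's `ttrli_const_j`). -/
theorem ttrkr_kron_J (hpM : ¬ p ∣ M) (hA : A.LiesOverPrime p) :
    TtrpKron M p A (heckeBetaBar Qb M p) (grdQ M (grdi_mem_j M)) (ttrJ M A) :=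
  ttrkr_kron₂ M A hpM hA

end Kron

/-- **`u₁ u₂ ∈ 𝔪 𝔸[J, Y]`** (abstract) : from Kronecker's congruence and `Φ(J, Y) = 0` :
`(Y - J^p)(Y^p - J) = -G(J, Y)` with every coefficient of `G` in the maximal ideal. -/
theorem ttrkr_u1u2 {R : Type*} [CommRing R] [IsLocalRing R] (p : ℕ) (Φ : R[X][X])
    (hk : Φ.map (mapRingHom (residue R)) = (X - C (X ^ p)) * (X ^ p - C X))
    {F : Type*} [CommRing F] (f : R →+* F) (J Y : F)
    (h0 : eval₂ (eval₂RingHom f J) Y Φ = 0) :
    ∃ G : R[X][X], (∀ i j, (G.coeff i).coeff j ∈ maximalIdeal R) ∧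
      (Y - J ^ p) * (Y ^ p - J) = -eval₂ (eval₂RingHom f J) Y G := by
  refine ⟨Φ - (X - C (X ^ p)) * (X ^ p - C X), ?_, ?_⟩
  · intro i j
    have h1 : (Φ - (X - C (X ^ p)) * (X ^ p - C X)).map (mapRingHom (residue R)) = 0 := by
      rw [Polynomial.map_sub, hk]
      simp only [Polynomial.map_mul, Polynomial.map_sub, Polynomial.map_pow, Polynomial.map_X,
        Polynomial.map_C, coe_mapRingHom, sub_self]
    have h2 := congrArg (fun P => (P.coeff i).coeff j) h1
    simp only [coeff_map, coe_mapRingHom, coeff_zero] at h2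
    exact (residue_eq_zero_iff _).mp h2
  · rw [eval₂_sub, h0, zero_sub, neg_neg]
    simp only [eval₂_mul, eval₂_sub, eval₂_pow, eval₂_X, eval₂_C, coe_eval₂RingHom]

end Fermat.Agent.TT
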