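import Mathlib
import Fermat.Agent.TT.Red2.GoodVal
import Fermat.Agent.TT.Red2.ChartAll

/-!
# PROGRAM TT (S33), leaf (RED2), seam (S-a) (owner helper9, prefix `ttrng`) :
GOOD PLACES DO NOT REDUCE TO NODES, and NODES LIE IN THE ZERO SET OF `h̄`

Setting of Layer B (`TT/Red2/SpecB.lean`) : one index `(φ, V, red, v)` with
`H : TtrpChart M p A φ hυ V red v`, and the OTHER index `(V', red')` with `red' v = 0`
(index 1 : `v = u₂ = Y^p - J`, `red₁ u₂ = h̄`, `red₂ u₂ = 0`; index 2 : `v = u₁`, `red₂ u₁ = -h̄`,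
`red₁ u₁ = 0`).

A pair of places `(Q, Q')` of `F_k` is GLUED AT `b` if `(red b)(Q) = (red' b)(Q')`; helper19's nodes
`S = {q // … ∧ ∀ b ∈ B, ∃ c, GrdVal q.1 (red₁ b) c ∧ GrdVal q.2 (red₂ b) c}` are glued at every
`b` of the chart ring, in particular at `b = v`.

* `ttrng_glue_zero`   : glued at `b`, `red' b = 0` ⟹ `(red b)(Q) = 0`;
* `ttrng_good_ne`     : `P` good, `Q₀` a zero of `red v` ⟹ the reduction of `P` is not `Q₀`
  (relation form; `ttrng_good_ne_r`, `ttrng_good_ne_r'` : with THE reduction map `r`, first and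
  second chart of the atlas);
* `ttrng_hrν`         : the hypothesis `hrν` of `ttri_into` / `ttg_into_of_ttri` for ONE index,
  abstract node family;
* the `j`-chart instances (`p ≥ 5`) : `ttrng_node_h₁`, `ttrng_node_h₂` (`h̄` vanishes at both
  points of a node), `ttrng_hrν₁_j`, `ttrng_hrν₂_j`, and `ttrng_ν_mem`.
-/

set_option autoImplicit false
set_option linter.unusedSectionVars false
set_option linter.unusedVariables false
set_option synthInstance.maxHeartbeats 400000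

noncomputable section

namespace Fermat.Agent.TT

open ModularCurve AlgebraicCurve IsLocalRing Polynomial Fermat.Agent.S18 Fermat.Agent.S24
  Fermat.Agent.G Fermat.Agent.FF

local notation "Qb" => AlgebraicClosure ℚ

/-! ### the abstract glueing lemma -/

section Glue

variable {k F Fk : Type*} [Field k] [Field F] [Field Fk] [Algebra k Fk]

/-- the only constant value of `0` is `0`. -/
theorem ttrng_val_zero (Q : Place k Fk) {c : k} (h : GrdVal Q (0 : Fk) c) : c = 0 := by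
  have h0 : GrdVal Q (0 : Fk) (0 : k) := by
    have := grdg_val_algebraMap Q (0 : k)
    rwa [map_zero] at this
  exact grdg_val_unique Q h h0

/-- GLUED AT `b` and `red' b = 0` ⟹ `(red b)(Q) = 0`. -/
theorem ttrng_glue_zero {V V' : Subring F} (red : ↥V →+* Fk) (red' : ↥V' →+* Fk)
    (Q Q' : Place k Fk) (b : F) (hb : b ∈ V) (hb' : b ∈ V')
    (hglue : ∃ c : k, GrdVal Q (red ⟨b, hb⟩) c ∧ GrdVal Q' (red' ⟨b, hb'⟩) c)
    (h0 : red' ⟨b, hb'⟩ = 0) : GrdVal Q (red ⟨b, hb⟩) 0 := by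
  obtain ⟨c, h1, h2⟩ := hglue
  rw [h0] at h2
  rw [ttrng_val_zero Q' h2] at h1
  exact h1

end Glue

/-! ### good places avoid the zeros of `red v` -/

section Good

variable {M p : ℕ} [NeZero M] [NeZero p] {ℓ : ℕ} [Fact ℓ.Prime]
variable {A : ValuationSubring Qb}
variable {υ : LaurentSeries ℤ}
variable {φ : modularFunctionFieldBar M →ₐ[Qb] modularFunctionFieldBar (M * p)}
variable {V : Subring (modularFunctionFieldBar (M * p))}
variable {red : ↥V →+* modularFunctionFieldFullC (ResidueField A) M}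
variable {v : modularFunctionFieldBar (M * p)}

/-- a good place of the chart does not reduce (relation form) to a zero `Q₀` of `red v`. -/
theorem ttrng_good_ne (hℓM : ¬ ℓ ∣ M) (hA : A.LiesOverPrime ℓ) (hc : GrdChart M A υ)
    (hφ : φ.toRingHom.IsIntegral) (H : TtrpChart M p A φ hc.mem V red v)
    (P : Place Qb (modularFunctionFieldBar (M * p)))
    (hP : TtrpGoodC M p A (φ (grdQ M hc.mem)) v P)
    (Q : Place (ResidueField A) (modularFunctionFieldFullC (ResidueField A) M))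
    (hQ : GrdRel M A (grdQ M hc.mem) (ttrpRes M p φ hφ P) Q)
    (Q₀ : Place (ResidueField A) (modularFunctionFieldFullC (ResidueField A) M))
    (h0 : GrdVal Q₀ (red ⟨v, H.int_mem H.v_int⟩) 0) : Q ≠ Q₀ := by
  intro e
  subst e
  exact ttrp_good_red_v hℓM hA hc hφ H P hP Q hQ h0

variable {τ τ' : LaurentSeries ℤ}

/-- the same with THE reduction map `r` of level `M`, first chart of the atlas. -/
theorem ttrng_good_ne_r (hℓM : ¬ ℓ ∣ M) (hA : A.LiesOverPrime ℓ) (hat : GrdAtlas M A τ τ')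
    (r : Place Qb (modularFunctionFieldBar M) →
      Place (ResidueField A) (modularFunctionFieldFullC (ResidueField A) M))
    (hr : GrdIsRed M A hat.c.mem hat.c'.mem r)
    (hφ : φ.toRingHom.IsIntegral) (H : TtrpChart M p A φ hat.c.mem V red v)
    (P : Place Qb (modularFunctionFieldBar (M * p)))
    (hP : TtrpGoodC M p A (φ (grdQ M hat.c.mem)) v P)
    (Q₀ : Place (ResidueField A) (modularFunctionFieldFullC (ResidueField A) M))
    (h0 : GrdVal Q₀ (red ⟨v, H.int_mem H.v_int⟩) 0) : ttrpR M p A φ hφ r P ≠ Q₀ :=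
  ttrng_good_ne hℓM hA hat.c hφ H P hP _
    ((grd_isRed_rel M A hℓM hA hat r hr _).1 ((ttrp_inChart_res hφ _ P).mpr hP.1)) Q₀ h0

/-- the same, second chart of the atlas. -/
theorem ttrng_good_ne_r' (hℓM : ¬ ℓ ∣ M) (hA : A.LiesOverPrime ℓ) (hat : GrdAtlas M A τ τ')
    (r : Place Qb (modularFunctionFieldBar M) →
      Place (ResidueField A) (modularFunctionFieldFullC (ResidueField A) M))
    (hr : GrdIsRed M A hat.c.mem hat.c'.mem r)
    (hφ : φ.toRingHom.IsIntegral) (H : TtrpChart M p A φ hat.c'.mem V red v)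
    (P : Place Qb (modularFunctionFieldBar (M * p)))
    (hP : TtrpGoodC M p A (φ (grdQ M hat.c'.mem)) v P)
    (Q₀ : Place (ResidueField A) (modularFunctionFieldFullC (ResidueField A) M))
    (h0 : GrdVal Q₀ (red ⟨v, H.int_mem H.v_int⟩) 0) : ttrpR M p A φ hφ r P ≠ Q₀ :=
  ttrng_good_ne hℓM hA hat.c' hφ H P hP _
    ((grd_isRed_rel M A hℓM hA hat r hr _).2 ((ttrp_inChart_res hφ _ P).mpr hP.1)) Q₀ h0

/-- **(S-a), ONE INDEX, abstract node family** : if every node `(ν i, ν' i)` is glued at `v` and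
`red' v = 0`, then a good place never reduces to a node : the hypothesis `hrν` of `ttri_into`. -/
theorem ttrng_hrν (hℓM : ¬ ℓ ∣ M) (hA : A.LiesOverPrime ℓ) (hat : GrdAtlas M A τ τ')
    (r : Place Qb (modularFunctionFieldBar M) →
      Place (ResidueField A) (modularFunctionFieldFullC (ResidueField A) M))
    (hr : GrdIsRed M A hat.c.mem hat.c'.mem r)
    (hφ : φ.toRingHom.IsIntegral) (H : TtrpChart M p A φ hat.c.mem V red v)
    {V' : Subring (modularFunctionFieldBar (M * p))}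
    (red' : ↥V' →+* modularFunctionFieldFullC (ResidueField A) M)
    (hv' : v ∈ V') (hred' : red' ⟨v, hv'⟩ = 0)
    {ι : Type*} (ν ν' : ι → Place (ResidueField A) (modularFunctionFieldFullC (ResidueField A) M))
    (hglue : ∀ i, ∃ c : ResidueField A,
      GrdVal (ν i) (red ⟨v, H.int_mem H.v_int⟩) c ∧ GrdVal (ν' i) (red' ⟨v, hv'⟩) c) :
    ∀ (P : Place Qb (modularFunctionFieldBar (M * p))) (i : ι),
      TtrpGoodC M p A (φ (grdQ M hat.c.mem)) v P → ttrpR M p A φ hφ r P ≠ ν i :=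
  fun P i hP => ttrng_good_ne_r hℓM hA hat r hr hφ H P hP (ν i)
    (ttrng_glue_zero red red' (ν i) (ν' i) v (H.int_mem H.v_int) hv' (hglue i) hred')

end Good

/-! ### the `j`-chart (`p ≥ 5`) : `v₁ = u₂ = Y^p - J`, `v₂ = u₁ = Y - J^p` -/

section JChart

variable (M : ℕ) [NeZero M] {p : ℕ} [Fact p.Prime] [NeZero p]
variable (A : ValuationSubring Qb) (hpM : ¬ p ∣ M) (hA : A.LiesOverPrime p)

/-- `u₂ ∈ V₂` -/
theorem ttrng_U2_mem₂ : ttrU2 M A (p := p) ∈ ttrV2 M A hpM := by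
  show ttrW M hpM (ttrU2 M A) ∈ grdO (M * p) A
  rw [ttrW_U2]
  exact Subring.neg_mem _ (ttrU1_mem M A)

/-- `u₁ ∈ V₂` -/
theorem ttrng_U1_mem₂ : ttrU1 M A (p := p) ∈ ttrV2 M A hpM := by
  show ttrW M hpM (ttrU1 M A) ∈ grdO (M * p) A
  rw [ttrW_U1]
  exact Subring.neg_mem _ (ttrU2_mem M A)

/-- `red₂ u₂ = 0` -/
theorem ttrng_red₂_U2 :
    ttrRed2 M A hpM hA ⟨ttrU2 M A, ttrng_U2_mem₂ M A hpM⟩ = 0 :=
  ttr_chart_red_wU2 M A hpM hA _

/-- `red₂ u₁ = -h̄` -/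
theorem ttrng_red₂_U1 :
    ttrRed2 M A hpM hA ⟨ttrU1 M A, ttrng_U1_mem₂ M A hpM⟩ = -ttrH M A p := by
  have e : (⟨ttrW M hpM (ttrU1 M A), ttrng_U1_mem₂ M A hpM⟩ : ↥(grdO (M * p) A)) =
      -⟨ttrU2 M A, ttrU2_mem M A⟩ := Subtype.ext (ttrW_U1 M A hpM)
  show ttrRed1 M A hA ⟨ttrW M hpM (ttrU1 M A), _⟩ = _
  rw [e, map_neg, ttrRed1_U2]

/-- `red₂ (-u₁) = h̄` -/
theorem ttrng_red₂_negU1 (h : -ttrU1 M A (p := p) ∈ ttrV2 M A hpM) :
    ttrRed2 M A hpM hA ⟨-ttrU1 M A, h⟩ = ttrH M A p := by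
  have e : (⟨-ttrU1 M A, h⟩ : ↥(ttrV2 M A hpM)) = -⟨ttrU1 M A, ttrng_U1_mem₂ M A hpM⟩ := rfl
  rw [e, map_neg, ttrng_red₂_U1, neg_neg]

/-- `red₁ (-u₁) = 0` -/
theorem ttrng_red₁_negU1 (h : -ttrU1 M A (p := p) ∈ grdO (M * p) A) :
    ttrRed1 M A hA ⟨-ttrU1 M A, h⟩ = 0 := by
  have e : (⟨-ttrU1 M A, h⟩ : ↥(grdO (M * p) A)) = -⟨ttrU1 M A, ttrU1_mem M A⟩ := rfl
  rw [e, map_neg, ttrRed1_U1, neg_zero]

variable {M A}

/-- `GrdVal Q (-x) 0 ↔ GrdVal Q x 0` -/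
theorem ttrng_val_neg_zero {k Fk : Type*} [Field k] [Field Fk] [Algebra k Fk] (Q : Place k Fk)
    (x : Fk) : GrdVal Q (-x) 0 ↔ GrdVal Q x 0 := by
  unfold GrdVal
  rw [map_zero, sub_zero, sub_zero]
  constructor
  · intro h
    have := Q.toValuationSubring.nonunits.neg_mem h
    simpa using this
  · intro h
    exact Q.toValuationSubring.nonunits.neg_mem h

end JChart

/-! ### the two indices at helper12's names (chart-generic : any atlas, any `v₁`, `v₂`) -/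

section Inst

variable (M : ℕ) [NeZero M] {p : ℕ} [Fact p.Prime] [NeZero p]
variable (A : ValuationSubring Qb) (hpM : ¬ p ∣ M) (hA : A.LiesOverPrime p)
variable {τ τ' : LaurentSeries ℤ}

/-- **`hrν₁`** : `v₁ ∈ B(α τ)` with `red₂ v₁ = 0`, every node glued at `v₁` ⟹ a good place of the
first kind never reduces to a node. -/
theorem ttrng_hrν₁ (hat : GrdAtlas M A τ τ')
    (r : Place Qb (modularFunctionFieldBar M) →
      Place (ResidueField A) (modularFunctionFieldFullC (ResidueField A) M))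
    (hr : GrdIsRed M A hat.c.mem hat.c'.mem r)
    {v₁ : modularFunctionFieldBar (M * p)}
    (H₁ : TtrpChart M p A (heckeAlphaBar Qb M p) hat.c.mem (grdO (M * p) A) (ttrRed1 M A hA) v₁)
    (hv₁ : v₁ ∈ ttrV2 M A hpM) (hred₂ : ttrRed2 M A hpM hA ⟨v₁, hv₁⟩ = 0)
    {ι : Type*} (ν₁ ν₂ : ι → Place (ResidueField A) (modularFunctionFieldFullC (ResidueField A) M))
    (hglue : ∀ i, ∃ c : ResidueField A,
      GrdVal (ν₁ i) (ttrRed1 M A hA ⟨v₁, H₁.int_mem H₁.v_int⟩) c ∧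
        GrdVal (ν₂ i) (ttrRed2 M A hpM hA ⟨v₁, hv₁⟩) c) :
    ∀ (P : Place Qb (modularFunctionFieldBar (M * p))) (i : ι),
      TtrpGoodC M p A (heckeAlphaBar Qb M p (grdQ M hat.c.mem)) v₁ P →
        ttrpR M p A (heckeAlphaBar Qb M p) (gff_alpha_integral M p) r P ≠ ν₁ i :=
  ttrng_hrν hpM hA hat r hr (gff_alpha_integral M p) H₁ (ttrRed2 M A hpM hA) hv₁ hred₂ ν₁ ν₂ hglue

/-- **`hrν₂`** : `v₂ ∈ B(β τ)` with `red₁ v₂ = 0`, every node glued at `v₂` ⟹ a good place of the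
second kind never reduces to a node (the glueing hypothesis in the SAME order `(ν₁, ν₂)`). -/
theorem ttrng_hrν₂ (hat : GrdAtlas M A τ τ')
    (r : Place Qb (modularFunctionFieldBar M) →
      Place (ResidueField A) (modularFunctionFieldFullC (ResidueField A) M))
    (hr : GrdIsRed M A hat.c.mem hat.c'.mem r)
    {v₂ : modularFunctionFieldBar (M * p)}
    (H₂ : TtrpChart M p A (heckeBetaBar Qb M p) hat.c.mem (ttrV2 M A hpM) (ttrRed2 M A hpM hA) v₂)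
    (hv₂ : v₂ ∈ grdO (M * p) A) (hred₁ : ttrRed1 M A hA ⟨v₂, hv₂⟩ = 0)
    {ι : Type*} (ν₁ ν₂ : ι → Place (ResidueField A) (modularFunctionFieldFullC (ResidueField A) M))
    (hglue : ∀ i, ∃ c : ResidueField A,
      GrdVal (ν₁ i) (ttrRed1 M A hA ⟨v₂, hv₂⟩) c ∧
        GrdVal (ν₂ i) (ttrRed2 M A hpM hA ⟨v₂, H₂.int_mem H₂.v_int⟩) c) :
    ∀ (P : Place Qb (modularFunctionFieldBar (M * p))) (i : ι),
      TtrpGoodC M p A (heckeBetaBar Qb M p (grdQ M hat.c.mem)) v₂ P →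
        ttrpR M p A (heckeBetaBar Qb M p) (gff_beta_integral M p) r P ≠ ν₂ i :=
  ttrng_hrν hpM hA hat r hr (gff_beta_integral M p) H₂ (ttrRed1 M A hA) hv₂ hred₁ ν₂ ν₁
    (fun i => by
      obtain ⟨c, h1, h2⟩ := hglue i
      exact ⟨c, h2, h1⟩)

/-- **`ν₁ i` is a zero of `red₁ v₁`** -/
theorem ttrng_node_zero₁ {v₁ : modularFunctionFieldBar (M * p)}
    (hv₁ : v₁ ∈ grdO (M * p) A) (hv₁' : v₁ ∈ ttrV2 M A hpM)
    (hred₂ : ttrRed2 M A hpM hA ⟨v₁, hv₁'⟩ = 0)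
    (Q₁ Q₂ : Place (ResidueField A) (modularFunctionFieldFullC (ResidueField A) M))
    (hglue : ∃ c : ResidueField A, GrdVal Q₁ (ttrRed1 M A hA ⟨v₁, hv₁⟩) c ∧
      GrdVal Q₂ (ttrRed2 M A hpM hA ⟨v₁, hv₁'⟩) c) :
    GrdVal Q₁ (ttrRed1 M A hA ⟨v₁, hv₁⟩) 0 :=
  ttrng_glue_zero (ttrRed1 M A hA) (ttrRed2 M A hpM hA) Q₁ Q₂ v₁ hv₁ hv₁' hglue hred₂

/-- **`ν₂ i` is a zero of `red₂ v₂`** -/
theorem ttrng_node_zero₂ {v₂ : modularFunctionFieldBar (M * p)}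
    (hv₂ : v₂ ∈ grdO (M * p) A) (hv₂' : v₂ ∈ ttrV2 M A hpM)
    (hred₁ : ttrRed1 M A hA ⟨v₂, hv₂⟩ = 0)
    (Q₁ Q₂ : Place (ResidueField A) (modularFunctionFieldFullC (ResidueField A) M))
    (hglue : ∃ c : ResidueField A, GrdVal Q₁ (ttrRed1 M A hA ⟨v₂, hv₂⟩) c ∧
      GrdVal Q₂ (ttrRed2 M A hpM hA ⟨v₂, hv₂'⟩) c) :
    GrdVal Q₂ (ttrRed2 M A hpM hA ⟨v₂, hv₂'⟩) 0 :=
  ttrng_glue_zero (ttrRed2 M A hpM hA) (ttrRed1 M A hA) Q₂ Q₁ v₂ hv₂' hv₂
    (by
      obtain ⟨c, h1, h2⟩ := hglue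
      exact ⟨c, h2, h1⟩) hred₁

/-- **`h̄ = j̄^(p²) - j̄` vanishes at the first branch of a node** (glued at `u₂ = Y^p - J`). -/
theorem ttrng_node_h₁
    (Q₁ Q₂ : Place (ResidueField A) (modularFunctionFieldFullC (ResidueField A) M))
    (hglue : ∃ c : ResidueField A,
      GrdVal Q₁ (ttrRed1 M A hA ⟨ttrU2 M A, ttrU2_mem M A⟩) c ∧
        GrdVal Q₂ (ttrRed2 M A hpM hA ⟨ttrU2 M A, ttrng_U2_mem₂ M A hpM⟩) c) :
    GrdVal Q₁ (ttrH M A p) 0 := by
  have h := ttrng_node_zero₁ M A hpM hA (ttrU2_mem M A) (ttrng_U2_mem₂ M A hpM)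
    (ttrng_red₂_U2 M A hpM hA) Q₁ Q₂ hglue
  rwa [ttrRed1_U2] at h

/-- **`h̄` vanishes at the second branch of a node** (glued at `u₁ = Y - J^p`). -/
theorem ttrng_node_h₂
    (Q₁ Q₂ : Place (ResidueField A) (modularFunctionFieldFullC (ResidueField A) M))
    (hglue : ∃ c : ResidueField A,
      GrdVal Q₁ (ttrRed1 M A hA ⟨ttrU1 M A, ttrU1_mem M A⟩) c ∧
        GrdVal Q₂ (ttrRed2 M A hpM hA ⟨ttrU1 M A, ttrng_U1_mem₂ M A hpM⟩) c) :
    GrdVal Q₂ (ttrH M A p) 0 := by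
  have h := ttrng_node_zero₂ M A hpM hA (ttrU1_mem M A) (ttrng_U1_mem₂ M A hpM)
    (ttrRed1_U1 M A hA) Q₁ Q₂ hglue
  rw [ttrng_red₂_U1] at h
  exact (ttrng_val_neg_zero Q₂ _).mp h

/-- **`ν_j_mem`** : a finset containing all the zeros of `h̄` contains the `j`-th branches of all
the nodes (nodes glued at `u₂`, resp. `u₁`). -/
theorem ttrng_ν₁_mem
    (T₁ : Finset (Place (ResidueField A) (modularFunctionFieldFullC (ResidueField A) M)))
    (hT₁ : ∀ Q, GrdVal Q (ttrH M A p) 0 → Q ∈ T₁)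
    {ι : Type*} (ν₁ ν₂ : ι → Place (ResidueField A) (modularFunctionFieldFullC (ResidueField A) M))
    (hglue : ∀ i, ∃ c : ResidueField A,
      GrdVal (ν₁ i) (ttrRed1 M A hA ⟨ttrU2 M A, ttrU2_mem M A⟩) c ∧
        GrdVal (ν₂ i) (ttrRed2 M A hpM hA ⟨ttrU2 M A, ttrng_U2_mem₂ M A hpM⟩) c) :
    ∀ i, ν₁ i ∈ T₁ :=
  fun i => hT₁ _ (ttrng_node_h₁ M A hpM hA (ν₁ i) (ν₂ i) (hglue i))

theorem ttrng_ν₂_mem
    (T₂ : Finset (Place (ResidueField A) (modularFunctionFieldFullC (ResidueField A) M)))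
    (hT₂ : ∀ Q, GrdVal Q (ttrH M A p) 0 → Q ∈ T₂)
    {ι : Type*} (ν₁ ν₂ : ι → Place (ResidueField A) (modularFunctionFieldFullC (ResidueField A) M))
    (hglue : ∀ i, ∃ c : ResidueField A,
      GrdVal (ν₁ i) (ttrRed1 M A hA ⟨ttrU1 M A, ttrU1_mem M A⟩) c ∧
        GrdVal (ν₂ i) (ttrRed2 M A hpM hA ⟨ttrU1 M A, ttrng_U1_mem₂ M A hpM⟩) c) :
    ∀ i, ν₂ i ∈ T₂ :=
  fun i => hT₂ _ (ttrng_node_h₂ M A hpM hA (ν₁ i) (ν₂ i) (hglue i))

/-! ### the `j`-chart instances (`p ≥ 5`) -/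

/-- **`hrν₁` for the `j`-chart**, `v₁ = u₂ = Y^p - J`. -/
theorem ttrng_hrν₁_j (h5 : 5 ≤ p) (hat : GrdAtlas M A (jqModC ℤ) τ')
    (r : Place Qb (modularFunctionFieldBar M) →
      Place (ResidueField A) (modularFunctionFieldFullC (ResidueField A) M))
    (hr : GrdIsRed M A hat.c.mem hat.c'.mem r)
    {ι : Type*} (ν₁ ν₂ : ι → Place (ResidueField A) (modularFunctionFieldFullC (ResidueField A) M))
    (hglue : ∀ i, ∃ c : ResidueField A,
      GrdVal (ν₁ i) (ttrRed1 M A hA ⟨ttrU2 M A, ttrU2_mem M A⟩) c ∧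
        GrdVal (ν₂ i) (ttrRed2 M A hpM hA ⟨ttrU2 M A, ttrng_U2_mem₂ M A hpM⟩) c) :
    ∀ (P : Place Qb (modularFunctionFieldBar (M * p))) (i : ι),
      TtrpGoodC M p A (heckeAlphaBar Qb M p (grdQ M hat.c.mem)) (ttrU2 M A) P →
        ttrpR M p A (heckeAlphaBar Qb M p) (gff_alpha_integral M p) r P ≠ ν₁ i :=
  ttrng_hrν₁ M A hpM hA hat r hr (ttr_chart_j₁ M A hpM hA h5) (ttrng_U2_mem₂ M A hpM)
    (ttrng_red₂_U2 M A hpM hA) ν₁ ν₂ hglue

/-- **`hrν₂` for the `j`-chart**, `v₂ = u₁ = Y - J^p`. -/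
theorem ttrng_hrν₂_j (h5 : 5 ≤ p) (hat : GrdAtlas M A (jqModC ℤ) τ')
    (r : Place Qb (modularFunctionFieldBar M) →
      Place (ResidueField A) (modularFunctionFieldFullC (ResidueField A) M))
    (hr : GrdIsRed M A hat.c.mem hat.c'.mem r)
    {ι : Type*} (ν₁ ν₂ : ι → Place (ResidueField A) (modularFunctionFieldFullC (ResidueField A) M))
    (hglue : ∀ i, ∃ c : ResidueField A,
      GrdVal (ν₁ i) (ttrRed1 M A hA ⟨ttrU1 M A, ttrU1_mem M A⟩) c ∧
        GrdVal (ν₂ i) (ttrRed2 M A hpM hA ⟨ttrU1 M A, ttrng_U1_mem₂ M A hpM⟩) c) :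
    ∀ (P : Place Qb (modularFunctionFieldBar (M * p))) (i : ι),
      TtrpGoodC M p A (heckeBetaBar Qb M p (grdQ M hat.c.mem)) (ttrU1 M A) P →
        ttrpR M p A (heckeBetaBar Qb M p) (gff_beta_integral M p) r P ≠ ν₂ i :=
  ttrng_hrν₂ M A hpM hA hat r hr (ttr_chart_j₂ M A hpM hA h5) (ttrU1_mem M A)
    (ttrRed1_U1 M A hA) ν₁ ν₂ hglue

/-- the `j`-chart, index 2, with `v₂ = -u₁ = J^p - Y` (helper8's normalisation). -/
theorem ttrng_chart_j₂_neg (h5 : 5 ≤ p) :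
    TtrpChart M p A (heckeBetaBar Qb M p) (grd_chart_j M A hpM hA h5).mem (ttrV2 M A hpM)
      (ttrRed2 M A hpM hA) (-ttrU1 M A) :=
  ttr_chart₂ M A hpM hA (grd_chart_j M A hpM hA h5) (-ttrU1 M A)
    (Subring.neg_mem _ (ttr_chart_U1_mem' M A hpM hA)) (fun h => ttrng_red₁_negU1 M A hA h)

/-- **`hrν₂` for the `j`-chart**, `v₂ = -u₁ = J^p - Y`. -/
theorem ttrng_hrν₂_j_neg (h5 : 5 ≤ p) (hat : GrdAtlas M A (jqModC ℤ) τ')
    (r : Place Qb (modularFunctionFieldBar M) →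
      Place (ResidueField A) (modularFunctionFieldFullC (ResidueField A) M))
    (hr : GrdIsRed M A hat.c.mem hat.c'.mem r)
    {ι : Type*} (ν₁ ν₂ : ι → Place (ResidueField A) (modularFunctionFieldFullC (ResidueField A) M))
    (hglue : ∀ i, ∃ c : ResidueField A,
      GrdVal (ν₁ i) (ttrRed1 M A hA ⟨-ttrU1 M A, Subring.neg_mem _ (ttrU1_mem M A)⟩) c ∧
        GrdVal (ν₂ i) (ttrRed2 M A hpM hA
          ⟨-ttrU1 M A, Subring.neg_mem _ (ttrng_U1_mem₂ M A hpM)⟩) c) :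
    ∀ (P : Place Qb (modularFunctionFieldBar (M * p))) (i : ι),
      TtrpGoodC M p A (heckeBetaBar Qb M p (grdQ M hat.c.mem)) (-ttrU1 M A) P →
        ttrpR M p A (heckeBetaBar Qb M p) (gff_beta_integral M p) r P ≠ ν₂ i :=
  ttrng_hrν₂ M A hpM hA hat r hr (ttrng_chart_j₂_neg M A hpM hA h5)
    (Subring.neg_mem _ (ttrU1_mem M A)) (ttrng_red₁_negU1 M A hA _) ν₁ ν₂ hglue

/-- `h̄` vanishes at the second branch of a node, glued at `-u₁`. -/
theorem ttrng_node_h₂_neg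
    (Q₁ Q₂ : Place (ResidueField A) (modularFunctionFieldFullC (ResidueField A) M))
    (hglue : ∃ c : ResidueField A,
      GrdVal Q₁ (ttrRed1 M A hA ⟨-ttrU1 M A, Subring.neg_mem _ (ttrU1_mem M A)⟩) c ∧
        GrdVal Q₂ (ttrRed2 M A hpM hA
          ⟨-ttrU1 M A, Subring.neg_mem _ (ttrng_U1_mem₂ M A hpM)⟩) c) :
    GrdVal Q₂ (ttrH M A p) 0 := by
  have h := ttrng_node_zero₂ M A hpM hA (Subring.neg_mem _ (ttrU1_mem M A))
    (Subring.neg_mem _ (ttrng_U1_mem₂ M A hpM)) (ttrng_red₁_negU1 M A hA _) Q₁ Q₂ hglue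
  rwa [ttrng_red₂_negU1] at h

end Inst

end Fermat.Agent.TT
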