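import Mathlib
import Fermat.Agent.TT.Red2.Red2Inst
import Fermat.Agent.TT.Red2.IntoInst
import Fermat.Agent.TT.Red2.ConstInst

/-!
# PROGRAM TT (S33), leaf (RED2): THE CHART-GENERIC ASSEMBLY (`ttra_red2_of_atlas`)

Owner: helper12 (Red2 instance assembler), deputy helper2 (this file).  Namespace
`Fermat.Agent.TT`, prefix `ttra`.

For an EXPLICIT atlas `hat : GrdAtlas M 𝔸 τ τ'` of level `M` (`p ≥ 5`: the `j`-atlas; `p = 3`:
`grd_atlas_small`), THE reduction map `r` of places of level `M`, and the good-locus equations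
`v₁ v₂` (`p ≥ 5`: `u₂`, `-u₁`; `p = 3`: helper13's Route J), with the class map
`cls := ttrpCls M p 𝔸 r (α τ) v₁ (β τ) v₂` (helper6):

* `into`  := helper1's `ttrgl_into_inst`;
* `const` := helper15's `ttrli_const_cls`;
* the remaining inputs are hypotheses, each in the exact shape of its producer.
-/

set_option autoImplicit false
set_option linter.unusedSectionVars false
set_option linter.unusedVariables false
set_option linter.style.haveILetI false
set_option synthInstance.maxHeartbeats 400000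

noncomputable section

namespace Fermat.Agent.TT

open AlgebraicCurve IsLocalRing ModularCurve Fermat.Agent.G Fermat.Agent.FF Fermat.Agent.S18
  Fermat.Agent.SS Fermat.Agent.V.RR

local notation "Qb" => AlgebraicClosure ℚ

variable (M : ℕ) [NeZero M] {p : ℕ} [Fact p.Prime] [NeZero p]
variable (A : ValuationSubring Qb) (hpM : ¬ p ∣ M) (hA : A.LiesOverPrime p)
variable {τ τ' : LaurentSeries ℤ}

/-- **LEAF (RED2) for an explicit atlas.** -/
theorem ttra_red2_of_atlas (hat : GrdAtlas M A τ τ')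
    (r : Place Qb (modularFunctionFieldBar M) →
      Place (ResidueField A) (modularFunctionFieldFullC (ResidueField A) M))
    (hr : GrdIsRed M A hat.c.mem hat.c'.mem r)
    (v₁ v₂ : modularFunctionFieldBar (M * p))
    -- CHARTS (helper12 ChartAll `ttr_chart_j₁/₂`; p = 3: helper17 `ttrc_chart_h₁/₂`)
    (H₁ : TtrpChart M p A (heckeAlphaBar Qb M p) hat.c.mem (grdO (M * p) A) (ttrRed1 M A hA) v₁)
    (H₂ : TtrpChart M p A (heckeBetaBar Qb M p) hat.c.mem (ttrV2 M A hpM)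
      (ttrRed2 M A hpM hA) v₂)
    (hv₂ : v₂ ∈ grdB (M * p) A (heckeAlphaBar Qb M p (grdQ M hat.c.mem)))
    (hbe : heckeBetaBar Qb M p (grdQ M hat.c.mem) ∈
      grdB (M * p) A (heckeAlphaBar Qb M p (grdQ M hat.c.mem)))
    -- (B3) in the ∀-good-P form (helper15 `ttrli_hfib`; p = 3: helper13 GoodFibH)
    (hfib₁ : ∀ P : Place Qb (modularFunctionFieldBar (M * p)),
      TtrpGoodC M p A (heckeAlphaBar Qb M p (grdQ M hat.c.mem)) v₁ P →
      P.ramificationIndexAlong (heckeAlphaBar Qb M p) = 1 ∧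
      ∀ P' : Place Qb (modularFunctionFieldBar (M * p)),
        TtrpGoodC M p A (heckeAlphaBar Qb M p (grdQ M hat.c.mem)) v₁ P' →
        ttrpRes M p (heckeAlphaBar Qb M p) (gff_alpha_integral M p) P' =
          ttrpRes M p (heckeAlphaBar Qb M p) (gff_alpha_integral M p) P → P' = P)
    (hfib₂ : ∀ P : Place Qb (modularFunctionFieldBar (M * p)),
      TtrpGoodC M p A (heckeBetaBar Qb M p (grdQ M hat.c.mem)) v₂ P →
      P.ramificationIndexAlong (heckeBetaBar Qb M p) = 1 ∧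
      ∀ P' : Place Qb (modularFunctionFieldBar (M * p)),
        TtrpGoodC M p A (heckeBetaBar Qb M p (grdQ M hat.c.mem)) v₂ P' →
        ttrpRes M p (heckeBetaBar Qb M p) (gff_beta_integral M p) P' =
          ttrpRes M p (heckeBetaBar Qb M p) (gff_beta_integral M p) P → P' = P)
    -- THE CLASS MAP (helper6)
    (cls : Place Qb ↥(modularFunctionFieldBar (M * p)) →
      Option (Place (ResidueField A) ↥(modularFunctionFieldFullC (ResidueField A) M) ⊕
        Place (ResidueField A) ↥(modularFunctionFieldFullC (ResidueField A) M)))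
    (hcls : cls = ttrpCls M p A r (heckeAlphaBar Qb M p (grdQ M hat.c.mem)) v₁
      (heckeBetaBar Qb M p (grdQ M hat.c.mem)) v₂)
    -- NODES (helper19/helper27/helper5) and exceptional sets
    {S : Type} [Fintype S]
    (ν₁ ν₂ : S → Place (ResidueField A) ↥(modularFunctionFieldFullC (ResidueField A) M))
    (T₁ T₂ : Finset (Place (ResidueField A) ↥(modularFunctionFieldFullC (ResidueField A) M)))
    (ν₁_inj : Function.Injective ν₁) (ν₂_inj : Function.Injective ν₂)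
    (ν₁_mem : ∀ i, ν₁ i ∈ T₁) (ν₂_mem : ∀ i, ν₂ i ∈ T₂)
    -- LIFTS (helper6 `ttrp_cls_lift₁/₂` + helper10 `ttrla_fixed`)
    (lift₁ : ∀ Q : Place (ResidueField A) ↥(modularFunctionFieldFullC (ResidueField A) M),
      Q ∉ T₁ → ∃ P : Place Qb ↥(modularFunctionFieldBar (M * p)),
        cls P = some (Sum.inl Q) ∧ ∀ σ : ↥(ffI A), ffigRho (M * p) A σ • P = P)
    (lift₂ : ∀ Q : Place (ResidueField A) ↥(modularFunctionFieldFullC (ResidueField A) M),
      Q ∉ T₂ → ∃ P : Place Qb ↥(modularFunctionFieldBar (M * p)),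
        cls P = some (Sum.inr Q) ∧ ∀ σ : ↥(ffI A), ffigRho (M * p) A σ • P = P)
    -- COUNT (helper5 `ttrk_genus_le_T` / helper28 `ttro_genus_le`)
    (genus_le : (genusFF FfQb ↥(modularFunctionFieldBar (M * p)) : ℤ) ≤
      (genusFF FfQb ↥(modularFunctionFieldBar M) : ℤ) +
        (genusFF FfQb ↥(modularFunctionFieldBar M) : ℤ) + (Fintype.card S : ℤ) - 1)
    -- INTO: node inputs (helper9 NodeGood, helper29 Cross, helper3 IntoNode instance)
    (hrν₁ : ∀ (P : Place Qb (modularFunctionFieldBar (M * p))) (i : S),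
      TtrpGoodC M p A (heckeAlphaBar Qb M p (grdQ M hat.c.mem)) v₁ P →
        ttrpR M p A (heckeAlphaBar Qb M p) (gff_alpha_integral M p) r P ≠ ν₁ i)
    (hrν₂ : ∀ (P : Place Qb (modularFunctionFieldBar (M * p))) (i : S),
      TtrpGoodC M p A (heckeBetaBar Qb M p (grdQ M hat.c.mem)) v₂ P →
        ttrpR M p A (heckeBetaBar Qb M p) (gff_beta_integral M p) r P ≠ ν₂ i)
    (hcross : ∀ (Q Q' : Place (ResidueField A) ↥(modularFunctionFieldFullC (ResidueField A) M))
      (v : Place Qb (modularFunctionFieldBar (M * p))),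
      ttrglCen₁ M A hpM hA hat Q v → ttrglCen₂ M A hpM hA hat Q' v → ∃ i, ν₁ i = Q)
    (cenN : S → Place Qb (modularFunctionFieldBar (M * p)) → Prop)
    (hcenN : ∀ i v, cenN i v →
      ¬ TtrpGoodC M p A (heckeAlphaBar Qb M p (grdQ M hat.c.mem)) v₁ v ∧
        ¬ TtrpGoodC M p A (heckeBetaBar Qb M p (grdQ M hat.c.mem)) v₂ v)
    (hN : ∀ i, ∃ (B : Subring (modularFunctionFieldBar (M * p)))
        (hBO : B ≤ ttrglO2 M A hpM hA),
      (∀ x ∈ ttrglO2 M A hpM hA, (∀ v, cenN i v → x ∈ v.toValuationSubring) →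
        ∃ s : B, ¬ GrdVal (ν₁ i) (ttrglRed₁ M A hpM hA ⟨s, hBO s.2⟩) 0 ∧
          (s : modularFunctionFieldBar (M * p)) * x ∈ B) ∧
      ∀ b : B, ∃ c : ResidueField A,
        GrdVal (ν₁ i) (ttrglRed₁ M A hpM hA ⟨b, hBO b.2⟩) c ∧
          GrdVal (ν₂ i) (ttrglRed₂ M A hpM hA ⟨b, hBO b.2⟩) c)
    -- VALUES (helper23 IntoVal `ttriv_val_1/2`)
    (val₁ : ∀ (P : Place Qb ↥(modularFunctionFieldBar (M * p)))
      (Q : Place (ResidueField A) ↥(modularFunctionFieldFullC (ResidueField A) M)),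
      cls P = some (Sum.inl Q) →
      ∀ (x : ↥(modularFunctionFieldBar (M * p))) (hx₁ : x ∈ ttrV1 M A hpM hA)
        (hx₂ : x ∈ ttraV2 M A hpM hA),
        (∀ P' : Place Qb ↥(modularFunctionFieldBar (M * p)),
          cls P' = some (Sum.inl Q) → 0 ≤ P'.ord x) →
        ∃ α : A, GrdVal P x (α : Qb) ∧ GrdVal Q (ttraRed1 M A hpM hA ⟨x, hx₁⟩) (residue A α))
    (val₂ : ∀ (P : Place Qb ↥(modularFunctionFieldBar (M * p)))
      (Q : Place (ResidueField A) ↥(modularFunctionFieldFullC (ResidueField A) M)),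
      cls P = some (Sum.inr Q) →
      ∀ (x : ↥(modularFunctionFieldBar (M * p))) (hx₁ : x ∈ ttrV1 M A hpM hA)
        (hx₂ : x ∈ ttraV2 M A hpM hA),
        (∀ P' : Place Qb ↥(modularFunctionFieldBar (M * p)),
          cls P' = some (Sum.inr Q) → 0 ≤ P'.ord x) →
        ∃ α : A, GrdVal P x (α : Qb) ∧ GrdVal Q (ttraRed2 M A hpM hA ⟨x, hx₂⟩) (residue A α)) :
    TtgRed2Spec M p A := by
  subst hcls
  exact ttra_red2 M A hpM hA _ ν₁ ν₂ T₁ T₂ lift₁ lift₂ ν₁_inj ν₂_inj ν₁_mem ν₂_mem genus_le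
    (ttrgl_into_inst M A hpM hA hat r hr v₁ v₂ H₁ H₂ ν₁ ν₂ hrν₁ hrν₂ hcross cenN hcenN hN)
    val₁ val₂
    (ttrli_const_cls M A hpM hA hat r hr v₁ v₂ H₁ H₂ hv₂ hbe hfib₁ hfib₂ val₁ val₂)

/-- **LEAF (RED2) for an explicit atlas, MIXED FORM** : `hcross` replaced by `hmix12`, `hmix21`
(helper1 `ttrgl_into_inst_mixed`). -/
theorem ttra_red2_of_atlas_mixed (hat : GrdAtlas M A τ τ')
    (r : Place Qb (modularFunctionFieldBar M) →
      Place (ResidueField A) (modularFunctionFieldFullC (ResidueField A) M))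
    (hr : GrdIsRed M A hat.c.mem hat.c'.mem r)
    (v₁ v₂ : modularFunctionFieldBar (M * p))
    -- CHARTS (helper12 ChartAll `ttr_chart_j₁/₂`; p = 3: helper17 `ttrc_chart_h₁/₂`)
    (H₁ : TtrpChart M p A (heckeAlphaBar Qb M p) hat.c.mem (grdO (M * p) A) (ttrRed1 M A hA) v₁)
    (H₂ : TtrpChart M p A (heckeBetaBar Qb M p) hat.c.mem (ttrV2 M A hpM)
      (ttrRed2 M A hpM hA) v₂)
    (hv₂ : v₂ ∈ grdB (M * p) A (heckeAlphaBar Qb M p (grdQ M hat.c.mem)))
    (hbe : heckeBetaBar Qb M p (grdQ M hat.c.mem) ∈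
      grdB (M * p) A (heckeAlphaBar Qb M p (grdQ M hat.c.mem)))
    -- (B3) in the ∀-good-P form (helper15 `ttrli_hfib`; p = 3: helper13 GoodFibH)
    (hfib₁ : ∀ P : Place Qb (modularFunctionFieldBar (M * p)),
      TtrpGoodC M p A (heckeAlphaBar Qb M p (grdQ M hat.c.mem)) v₁ P →
      P.ramificationIndexAlong (heckeAlphaBar Qb M p) = 1 ∧
      ∀ P' : Place Qb (modularFunctionFieldBar (M * p)),
        TtrpGoodC M p A (heckeAlphaBar Qb M p (grdQ M hat.c.mem)) v₁ P' →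
        ttrpRes M p (heckeAlphaBar Qb M p) (gff_alpha_integral M p) P' =
          ttrpRes M p (heckeAlphaBar Qb M p) (gff_alpha_integral M p) P → P' = P)
    (hfib₂ : ∀ P : Place Qb (modularFunctionFieldBar (M * p)),
      TtrpGoodC M p A (heckeBetaBar Qb M p (grdQ M hat.c.mem)) v₂ P →
      P.ramificationIndexAlong (heckeBetaBar Qb M p) = 1 ∧
      ∀ P' : Place Qb (modularFunctionFieldBar (M * p)),
        TtrpGoodC M p A (heckeBetaBar Qb M p (grdQ M hat.c.mem)) v₂ P' →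
        ttrpRes M p (heckeBetaBar Qb M p) (gff_beta_integral M p) P' =
          ttrpRes M p (heckeBetaBar Qb M p) (gff_beta_integral M p) P → P' = P)
    -- THE CLASS MAP (helper6)
    (cls : Place Qb ↥(modularFunctionFieldBar (M * p)) →
      Option (Place (ResidueField A) ↥(modularFunctionFieldFullC (ResidueField A) M) ⊕
        Place (ResidueField A) ↥(modularFunctionFieldFullC (ResidueField A) M)))
    (hcls : cls = ttrpCls M p A r (heckeAlphaBar Qb M p (grdQ M hat.c.mem)) v₁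
      (heckeBetaBar Qb M p (grdQ M hat.c.mem)) v₂)
    -- NODES (helper19/helper27/helper5) and exceptional sets
    {S : Type} [Fintype S]
    (ν₁ ν₂ : S → Place (ResidueField A) ↥(modularFunctionFieldFullC (ResidueField A) M))
    (T₁ T₂ : Finset (Place (ResidueField A) ↥(modularFunctionFieldFullC (ResidueField A) M)))
    (ν₁_inj : Function.Injective ν₁) (ν₂_inj : Function.Injective ν₂)
    (ν₁_mem : ∀ i, ν₁ i ∈ T₁) (ν₂_mem : ∀ i, ν₂ i ∈ T₂)
    -- LIFTS (helper6 `ttrp_cls_lift₁/₂` + helper10 `ttrla_fixed`)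
    (lift₁ : ∀ Q : Place (ResidueField A) ↥(modularFunctionFieldFullC (ResidueField A) M),
      Q ∉ T₁ → ∃ P : Place Qb ↥(modularFunctionFieldBar (M * p)),
        cls P = some (Sum.inl Q) ∧ ∀ σ : ↥(ffI A), ffigRho (M * p) A σ • P = P)
    (lift₂ : ∀ Q : Place (ResidueField A) ↥(modularFunctionFieldFullC (ResidueField A) M),
      Q ∉ T₂ → ∃ P : Place Qb ↥(modularFunctionFieldBar (M * p)),
        cls P = some (Sum.inr Q) ∧ ∀ σ : ↥(ffI A), ffigRho (M * p) A σ • P = P)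
    -- COUNT (helper5 `ttrk_genus_le_T` / helper28 `ttro_genus_le`)
    (genus_le : (genusFF FfQb ↥(modularFunctionFieldBar (M * p)) : ℤ) ≤
      (genusFF FfQb ↥(modularFunctionFieldBar M) : ℤ) +
        (genusFF FfQb ↥(modularFunctionFieldBar M) : ℤ) + (Fintype.card S : ℤ) - 1)
    -- INTO: node inputs (helper9 NodeGood, helper29 Cross, helper3 IntoNode instance)
    (hrν₁ : ∀ (P : Place Qb (modularFunctionFieldBar (M * p))) (i : S),
      TtrpGoodC M p A (heckeAlphaBar Qb M p (grdQ M hat.c.mem)) v₁ P →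
        ttrpR M p A (heckeAlphaBar Qb M p) (gff_alpha_integral M p) r P ≠ ν₁ i)
    (hrν₂ : ∀ (P : Place Qb (modularFunctionFieldBar (M * p))) (i : S),
      TtrpGoodC M p A (heckeBetaBar Qb M p (grdQ M hat.c.mem)) v₂ P →
        ttrpR M p A (heckeBetaBar Qb M p) (gff_beta_integral M p) r P ≠ ν₂ i)
    (hmix12 : ∀ (Q : Place (ResidueField A) ↥(modularFunctionFieldFullC (ResidueField A) M))
      (v : Place Qb (modularFunctionFieldBar (M * p))),
      ttrglCen₁ M A hpM hA hat Q v →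
        ¬ TtrpGoodC M p A (heckeBetaBar Qb M p (grdQ M hat.c.mem)) v₂ v)
    (hmix21 : ∀ (Q : Place (ResidueField A) ↥(modularFunctionFieldFullC (ResidueField A) M))
      (v : Place Qb (modularFunctionFieldBar (M * p))),
      ttrglCen₂ M A hpM hA hat Q v →
        ¬ TtrpGoodC M p A (heckeAlphaBar Qb M p (grdQ M hat.c.mem)) v₁ v)
    (cenN : S → Place Qb (modularFunctionFieldBar (M * p)) → Prop)
    (hcenN : ∀ i v, cenN i v →
      ¬ TtrpGoodC M p A (heckeAlphaBar Qb M p (grdQ M hat.c.mem)) v₁ v ∧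
        ¬ TtrpGoodC M p A (heckeBetaBar Qb M p (grdQ M hat.c.mem)) v₂ v)
    (hN : ∀ i, ∃ (B : Subring (modularFunctionFieldBar (M * p)))
        (hBO : B ≤ ttrglO2 M A hpM hA),
      (∀ x ∈ ttrglO2 M A hpM hA, (∀ v, cenN i v → x ∈ v.toValuationSubring) →
        ∃ s : B, ¬ GrdVal (ν₁ i) (ttrglRed₁ M A hpM hA ⟨s, hBO s.2⟩) 0 ∧
          (s : modularFunctionFieldBar (M * p)) * x ∈ B) ∧
      ∀ b : B, ∃ c : ResidueField A,
        GrdVal (ν₁ i) (ttrglRed₁ M A hpM hA ⟨b, hBO b.2⟩) c ∧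
          GrdVal (ν₂ i) (ttrglRed₂ M A hpM hA ⟨b, hBO b.2⟩) c)
    -- VALUES (helper23 IntoVal `ttriv_val_1/2`)
    (val₁ : ∀ (P : Place Qb ↥(modularFunctionFieldBar (M * p)))
      (Q : Place (ResidueField A) ↥(modularFunctionFieldFullC (ResidueField A) M)),
      cls P = some (Sum.inl Q) →
      ∀ (x : ↥(modularFunctionFieldBar (M * p))) (hx₁ : x ∈ ttrV1 M A hpM hA)
        (hx₂ : x ∈ ttraV2 M A hpM hA),
        (∀ P' : Place Qb ↥(modularFunctionFieldBar (M * p)),
          cls P' = some (Sum.inl Q) → 0 ≤ P'.ord x) →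
        ∃ α : A, GrdVal P x (α : Qb) ∧ GrdVal Q (ttraRed1 M A hpM hA ⟨x, hx₁⟩) (residue A α))
    (val₂ : ∀ (P : Place Qb ↥(modularFunctionFieldBar (M * p)))
      (Q : Place (ResidueField A) ↥(modularFunctionFieldFullC (ResidueField A) M)),
      cls P = some (Sum.inr Q) →
      ∀ (x : ↥(modularFunctionFieldBar (M * p))) (hx₁ : x ∈ ttrV1 M A hpM hA)
        (hx₂ : x ∈ ttraV2 M A hpM hA),
        (∀ P' : Place Qb ↥(modularFunctionFieldBar (M * p)),
          cls P' = some (Sum.inr Q) → 0 ≤ P'.ord x) →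
        ∃ α : A, GrdVal P x (α : Qb) ∧ GrdVal Q (ttraRed2 M A hpM hA ⟨x, hx₂⟩) (residue A α)) :
    TtgRed2Spec M p A := by
  subst hcls
  exact ttra_red2 M A hpM hA _ ν₁ ν₂ T₁ T₂ lift₁ lift₂ ν₁_inj ν₂_inj ν₁_mem ν₂_mem genus_le
    (ttrgl_into_inst_mixed M A hpM hA hat r hr v₁ v₂ H₁ H₂ ν₁ ν₂ hrν₁ hrν₂ hmix12 hmix21 cenN hcenN
      hN)
    val₁ val₂
    (ttrli_const_cls M A hpM hA hat r hr v₁ v₂ H₁ H₂ hv₂ hbe hfib₁ hfib₂ val₁ val₂)


end Fermat.Agent.TT
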