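import Mathlib
import Fermat.Agent.TT.Red2.Red2Atlas
import Fermat.Agent.TT.Red2.ClsInst
import Fermat.Agent.TT.Red2.CountS
import Fermat.Agent.TT.Red2.NodeGood
import Fermat.Agent.TT.Red2.IntoNodeInst
import Fermat.Agent.TT.Alpha.Cross

/-!
# PROGRAM TT (S33), leaf (RED2): THE CHART-GENERIC ASSEMBLY ON THE CANONICAL NODE SET
(`ttra_red2_of_atlas_S`)

Owner: helper2.  Namespace `Fermat.Agent.TT`, prefix `ttra`.

`ttra_red2_of_atlas_mixed` (Red2Atlas.lean) at `S := ttrkS M p 𝔸 hpM h𝔸 hat` (helper5 CountS: the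
crossing pairs of the chart ring `B(α τ)`), `ν_j := ttrkSν_j`, with EVERY `S`-slot discharged:

* `[Fintype S]`     := `ttrkS_finite` at `y := v₁` (`red₁ v₁ ≠ 0`, `red₂ v₁ = 0`);
* `ν_j_inj`         := `ttrkS_ν_j_injective`;
* `ν_j_mem`         := helper9 `ttrng_node_zero_j` (a node is a zero of `red_j v_j`);
* `genus_le`        := `ttrk_genus_le_S`;
* `hrν_j`           := helper9 `ttrng_hrν_j`;
* `cenN hcenN hN`   := helper3 `ttruCenN`, `ttru_hcenN_inst`, `ttru_hN_inst` at `hpair := ttrkS_val`;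
* `val_j`           := helper6 `ttrp_inst_val_j` (`hdisj` := `ttrp_disj`).

What remains is chart-level: the chart/Kronecker block, the two `lift`s, the four surjectivity
facts `hR`, the three ring-level (NODE) facts `hT hT' hcusp`, and `hmix12 hmix21`.
-/

set_option autoImplicit false
set_option linter.unusedSectionVars false
set_option linter.unusedVariables false
set_option linter.style.haveILetI false
set_option synthInstance.maxHeartbeats 400000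

noncomputable section

namespace Fermat.Agent.TT

open AlgebraicCurve IsLocalRing ModularCurve Fermat.Agent.G Fermat.Agent.FF Fermat.Agent.S18
  Fermat.Agent.SS Fermat.Agent.V.RR Fermat.Agent.S24

local notation "Qb" => AlgebraicClosure ℚ

variable (M : ℕ) [NeZero M] {p : ℕ} [Fact p.Prime] [NeZero p]
variable (A : ValuationSubring Qb) (hpM : ¬ p ∣ M) (hA : A.LiesOverPrime p)
variable {τ τ' : LaurentSeries ℤ}

/-- **LEAF (RED2) for an explicit atlas, on the canonical set of nodes.** -/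
theorem ttra_red2_of_atlas_S (hat : GrdAtlas M A τ τ')
    (r : Place Qb (modularFunctionFieldBar M) →
      Place (ResidueField A) (modularFunctionFieldFullC (ResidueField A) M))
    (hr : GrdIsRed M A hat.c.mem hat.c'.mem r)
    (v₁ v₂ : modularFunctionFieldBar (M * p))
    -- CHARTS
    (H₁ : TtrpChart M p A (heckeAlphaBar Qb M p) hat.c.mem (grdO (M * p) A) (ttrRed1 M A hA) v₁)
    (H₂ : TtrpChart M p A (heckeBetaBar Qb M p) hat.c.mem (ttrV2 M A hpM)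
      (ttrRed2 M A hpM hA) v₂)
    (hv₂ : v₂ ∈ grdB (M * p) A (heckeAlphaBar Qb M p (grdQ M hat.c.mem)))
    (hbe : heckeBetaBar Qb M p (grdQ M hat.c.mem) ∈
      grdB (M * p) A (heckeAlphaBar Qb M p (grdQ M hat.c.mem)))
    -- the two equations on the other component
    (hv₁V2 : v₁ ∈ ttrV2 M A hpM) (hred₂ : ttrRed2 M A hpM hA ⟨v₁, hv₁V2⟩ = 0)
    (hv₂O : v₂ ∈ grdO (M * p) A) (hred₁ : ttrRed1 M A hA ⟨v₂, hv₂O⟩ = 0)
    (hne₁ : ttrRed1 M A hA ⟨v₁, H₁.int_mem H₁.v_int⟩ ≠ 0)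
    -- (B3)
    (hfib₁ : ∀ P : Place Qb (modularFunctionFieldBar (M * p)),
      TtrpGoodC M p A (heckeAlphaBar Qb M p (grdQ M hat.c.mem)) v₁ P →
      P.ramificationIndexAlong (heckeAlphaBar Qb M p) = 1 ∧
      ∀ P' : Place Qb (modularFunctionFieldBar (M * p)),
        TtrpGoodC M p A (heckeAlphaBar Qb M p (grdQ M hat.c.mem)) v₁ P' →
        ttrpRes M p (heckeAlphaBar Qb M p) (gff_alpha_integral M p) P' =
          ttrpRes M p (heckeAlphaBar Qb M p) (gff_alpha_integral M p) P → P' = P)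
    (hfib₂ : ∀ P : Place Qb (modularFunctionFieldBar (M * p)),
      TtrpGoodC M p A (heckeBetaBar Qb M p (grdQ M hat.c.mem)) v₂ P →
      P.ramificationIndexAlong (heckeBetaBar Qb M p) = 1 ∧
      ∀ P' : Place Qb (modularFunctionFieldBar (M * p)),
        TtrpGoodC M p A (heckeBetaBar Qb M p (grdQ M hat.c.mem)) v₂ P' →
        ttrpRes M p (heckeBetaBar Qb M p) (gff_beta_integral M p) P' =
          ttrpRes M p (heckeBetaBar Qb M p) (gff_beta_integral M p) P → P' = P)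
    -- EXCEPTIONAL SETS AND LIFTS
    (T₁ T₂ : Finset (Place (ResidueField A) ↥(modularFunctionFieldFullC (ResidueField A) M)))
    (hT₁ : ∀ Q : Place (ResidueField A) ↥(modularFunctionFieldFullC (ResidueField A) M),
      GrdVal Q (ttrRed1 M A hA ⟨v₁, H₁.int_mem H₁.v_int⟩) 0 → Q ∈ T₁)
    (hT₂ : ∀ Q : Place (ResidueField A) ↥(modularFunctionFieldFullC (ResidueField A) M),
      GrdVal Q (ttrRed2 M A hpM hA ⟨v₂, H₂.int_mem H₂.v_int⟩) 0 → Q ∈ T₂)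
    (lift₁ : ∀ Q : Place (ResidueField A) ↥(modularFunctionFieldFullC (ResidueField A) M),
      Q ∉ T₁ → ∃ P : Place Qb ↥(modularFunctionFieldBar (M * p)),
        ttrpCls M p A r (heckeAlphaBar Qb M p (grdQ M hat.c.mem)) v₁
          (heckeBetaBar Qb M p (grdQ M hat.c.mem)) v₂ P = some (Sum.inl Q) ∧
        ∀ σ : ↥(ffI A), ffigRho (M * p) A σ • P = P)
    (lift₂ : ∀ Q : Place (ResidueField A) ↥(modularFunctionFieldFullC (ResidueField A) M),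
      Q ∉ T₂ → ∃ P : Place Qb ↥(modularFunctionFieldBar (M * p)),
        ttrpCls M p A r (heckeAlphaBar Qb M p (grdQ M hat.c.mem)) v₁
          (heckeBetaBar Qb M p (grdQ M hat.c.mem)) v₂ P = some (Sum.inr Q) ∧
        ∀ σ : ↥(ffI A), ffigRho (M * p) A σ • P = P)
    -- COUNT (helper5 CountS / CountT; helper17 ChartOnto)
    (hR₁ : ∀ y, y ∈ intRing (ResidueField A) (grdK M A hat.c.mem) ↔
      ∃ b, ttrkR₁ (ttrkT M p A hpM hA hat) b = y)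
    (hR₂ : ∀ y, y ∈ intRing (ResidueField A) (grdK M A hat.c.mem) ↔
      ∃ b, ttrkR₂ (ttrkT M p A hpM hA hat) b = y)
    (hR₁' : ∀ y, y ∈ intRing (ResidueField A) (grdK M A hat.c'.mem) ↔
      ∃ b, ttrkR₁' (ttrkT M p A hpM hA hat) b = y)
    (hR₂' : ∀ y, y ∈ intRing (ResidueField A) (grdK M A hat.c'.mem) ↔
      ∃ b, ttrkR₂' (ttrkT M p A hpM hA hat) b = y)
    (hT : ∀ 𝔫 : Ideal ↥(ttrkT M p A hpM hA hat).B, 𝔫.IsMaximal →
      RingHom.ker (ttrkR₁ (ttrkT M p A hpM hA hat)) ≤ 𝔫 →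
      RingHom.ker (ttrkR₂ (ttrkT M p A hpM hA hat)) ≤ 𝔫 → ∀ x ∈ 𝔫, ∃ s, s ∉ 𝔫 ∧ ∃ y₁ y₂,
        ttrkR₁ (ttrkT M p A hpM hA hat) y₁ = 0 ∧ ttrkR₂ (ttrkT M p A hpM hA hat) y₂ = 0 ∧
          s * x = y₁ + y₂)
    (hT' : ∀ 𝔫 : Ideal ↥(ttrkT M p A hpM hA hat).B', 𝔫.IsMaximal →
      RingHom.ker (ttrkR₁' (ttrkT M p A hpM hA hat)) ≤ 𝔫 →
      RingHom.ker (ttrkR₂' (ttrkT M p A hpM hA hat)) ≤ 𝔫 → ∀ x ∈ 𝔫, ∃ s, s ∉ 𝔫 ∧ ∃ y₁ y₂,
        ttrkR₁' (ttrkT M p A hpM hA hat) y₁ = 0 ∧ ttrkR₂' (ttrkT M p A hpM hA hat) y₂ = 0 ∧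
          s * x = y₁ + y₂)
    (hcusp : ∀ 𝔫 : Ideal ↥(ttrkT M p A hpM hA hat).B', 𝔫.IsMaximal →
      RingHom.ker (ttrkR₁' (ttrkT M p A hpM hA hat)) ≤ 𝔫 →
      RingHom.ker (ttrkR₂' (ttrkT M p A hpM hA hat)) ≤ 𝔫 →
      (⟨(ttrkT M p A hpM hA hat).u', (ttrkT M p A hpM hA hat).hu'⟩ :
        ↥(ttrkT M p A hpM hA hat).B') ∉ 𝔫)
    -- INTO: the mixed facts (helper29 via helper1 `ttrgl_hmix_j_of_charts`)
    (hmix12 : ∀ (Q : Place (ResidueField A) ↥(modularFunctionFieldFullC (ResidueField A) M))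
      (v : Place Qb (modularFunctionFieldBar (M * p))),
      ttrglCen₁ M A hpM hA hat Q v →
        ¬ TtrpGoodC M p A (heckeBetaBar Qb M p (grdQ M hat.c.mem)) v₂ v)
    (hmix21 : ∀ (Q : Place (ResidueField A) ↥(modularFunctionFieldFullC (ResidueField A) M))
      (v : Place Qb (modularFunctionFieldBar (M * p))),
      ttrglCen₂ M A hpM hA hat Q v →
        ¬ TtrpGoodC M p A (heckeAlphaBar Qb M p (grdQ M hat.c.mem)) v₁ v) :
    TtgRed2Spec M p A := by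
  -- the canonical node set is finite
  have hy₁ : ttrkR₁ (ttrkT M p A hpM hA hat)
      (⟨v₁, H₁.v_int⟩ : ↥(ttrkT M p A hpM hA hat).B) ≠ 0 := hne₁
  have hy₂ : ttrkR₂ (ttrkT M p A hpM hA hat)
      (⟨v₁, H₁.v_int⟩ : ↥(ttrkT M p A hpM hA hat).B) = 0 := hred₂
  haveI : Finite (ttrkS M p A hpM hA hat) :=
    ttrkS_finite M p A hpM hA hat hR₁ hR₂ ⟨v₁, H₁.v_int⟩ hy₁ hy₂
  haveI : Fintype (ttrkS M p A hpM hA hat) := Fintype.ofFinite _
  -- glueing at `v₁`, `v₂`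
  have hglue₁ : ∀ i : ttrkS M p A hpM hA hat, ∃ c : ResidueField A,
      GrdVal (ttrkSν₁ M p A hpM hA hat i) (ttrRed1 M A hA ⟨v₁, H₁.int_mem H₁.v_int⟩) c ∧
        GrdVal (ttrkSν₂ M p A hpM hA hat i) (ttrRed2 M A hpM hA ⟨v₁, hv₁V2⟩) c :=
    fun i => ttrkS_val M p A hpM hA hat i ⟨v₁, H₁.v_int⟩
  have hglue₂ : ∀ i : ttrkS M p A hpM hA hat, ∃ c : ResidueField A,
      GrdVal (ttrkSν₁ M p A hpM hA hat i) (ttrRed1 M A hA ⟨v₂, hv₂O⟩) c ∧
        GrdVal (ttrkSν₂ M p A hpM hA hat i)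
          (ttrRed2 M A hpM hA ⟨v₂, H₂.int_mem H₂.v_int⟩) c :=
    fun i => ttrkS_val M p A hpM hA hat i ⟨v₂, hv₂⟩
  have hdisj : ∀ P : Place Qb (modularFunctionFieldBar (M * p)),
      TtrpGoodC M p A (heckeAlphaBar Qb M p (grdQ M hat.c.mem)) v₁ P →
        TtrpGoodC M p A (heckeBetaBar Qb M p (grdQ M hat.c.mem)) v₂ P → False :=
    fun P h1 h2 => ttrp_disj H₁ _ v₂ hv₂ hred₁ P h1 h2
  have hpair : ∀ i : ttrkS M p A hpM hA hat,
      ∀ b : ↥(grdB (M * p) A (heckeAlphaBar Qb M p (grdQ M hat.c.mem))),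
      ∃ c : ResidueField A,
        GrdVal (ttrkSν₁ M p A hpM hA hat i)
          (ttalRedO₁ (V₂ := ttraV2 M A hpM hA) (ttraRed1 M A hpM hA)
            ⟨b, ttru_le_inst M A hpM hA hat.c b.2⟩) c ∧
        GrdVal (ttrkSν₂ M p A hpM hA hat i)
          (ttalRedO₂ (V₁ := ttrV1 M A hpM hA) (ttraRed2 M A hpM hA)
            ⟨b, ttru_le_inst M A hpM hA hat.c b.2⟩) c :=
    fun i b => ttrkS_val M p A hpM hA hat i b
  exact ttra_red2_of_atlas_mixed M A hpM hA hat r hr v₁ v₂ H₁ H₂ hv₂ hbe hfib₁ hfib₂ _ rfl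
    (ttrkSν₁ M p A hpM hA hat) (ttrkSν₂ M p A hpM hA hat) T₁ T₂
    (ttrkS_ν₁_injective M p A hpM hA hat hR₂) (ttrkS_ν₂_injective M p A hpM hA hat hR₁)
    (fun i => hT₁ _ (ttrng_node_zero₁ M A hpM hA (H₁.int_mem H₁.v_int) hv₁V2 hred₂ _ _
      (hglue₁ i)))
    (fun i => hT₂ _ (ttrng_node_zero₂ M A hpM hA hv₂O (H₂.int_mem H₂.v_int) hred₁ _ _
      (hglue₂ i)))
    lift₁ lift₂
    (ttrk_genus_le_S M p A hpM hA hat hR₁ hR₂ hR₁' hR₂' hT hT' hcusp)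
    (ttrng_hrν₁ M A hpM hA hat r hr H₁ hv₁V2 hred₂ _ _ hglue₁)
    (ttrng_hrν₂ M A hpM hA hat r hr H₂ hv₂O hred₁ _ _ hglue₂)
    hmix12 hmix21
    (fun i => ttruCenN M A hpM hA hat.c (ttrkSν₁ M p A hpM hA hat i))
    (ttru_hcenN_inst M A hpM hA hat.c _ _ hpair _ v₁ _ v₂ H₁.v_int hv₂
      (fun h => hred₂) (fun h => hred₁))
    (ttru_hN_inst M A hpM hA hat.c _ _ hpair)
    (ttrp_inst_val₁ M A hpM hA hat r hr v₁ _ v₂ H₁)
    (ttrp_inst_val₂ M A hpM hA hat r hr _ v₁ v₂ H₂ hdisj)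

/-- **LEAF (RED2) for an explicit atlas, on the canonical set of nodes, MIXED FACTS DISCHARGED**
(helper29 `ttal_mix12_f/c`, `ttal_mix21_f/c` through helper1 `ttrgl_hmix₁/₂_of_charts`) : the only new
input is `v₁ ∈ B(β τ)`. -/
theorem ttra_red2_of_atlas_Sm (hat : GrdAtlas M A τ τ')
    (r : Place Qb (modularFunctionFieldBar M) →
      Place (ResidueField A) (modularFunctionFieldFullC (ResidueField A) M))
    (hr : GrdIsRed M A hat.c.mem hat.c'.mem r)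
    (v₁ v₂ : modularFunctionFieldBar (M * p))
    -- CHARTS
    (H₁ : TtrpChart M p A (heckeAlphaBar Qb M p) hat.c.mem (grdO (M * p) A) (ttrRed1 M A hA) v₁)
    (H₂ : TtrpChart M p A (heckeBetaBar Qb M p) hat.c.mem (ttrV2 M A hpM)
      (ttrRed2 M A hpM hA) v₂)
    (hv₂ : v₂ ∈ grdB (M * p) A (heckeAlphaBar Qb M p (grdQ M hat.c.mem)))
    (hbe : heckeBetaBar Qb M p (grdQ M hat.c.mem) ∈
      grdB (M * p) A (heckeAlphaBar Qb M p (grdQ M hat.c.mem)))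
    -- the two equations on the other component
    (hv₁V2 : v₁ ∈ ttrV2 M A hpM) (hred₂ : ttrRed2 M A hpM hA ⟨v₁, hv₁V2⟩ = 0)
    (hv₂O : v₂ ∈ grdO (M * p) A) (hred₁ : ttrRed1 M A hA ⟨v₂, hv₂O⟩ = 0)
    (hne₁ : ttrRed1 M A hA ⟨v₁, H₁.int_mem H₁.v_int⟩ ≠ 0)
    -- (B3)
    (hfib₁ : ∀ P : Place Qb (modularFunctionFieldBar (M * p)),
      TtrpGoodC M p A (heckeAlphaBar Qb M p (grdQ M hat.c.mem)) v₁ P →
      P.ramificationIndexAlong (heckeAlphaBar Qb M p) = 1 ∧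
      ∀ P' : Place Qb (modularFunctionFieldBar (M * p)),
        TtrpGoodC M p A (heckeAlphaBar Qb M p (grdQ M hat.c.mem)) v₁ P' →
        ttrpRes M p (heckeAlphaBar Qb M p) (gff_alpha_integral M p) P' =
          ttrpRes M p (heckeAlphaBar Qb M p) (gff_alpha_integral M p) P → P' = P)
    (hfib₂ : ∀ P : Place Qb (modularFunctionFieldBar (M * p)),
      TtrpGoodC M p A (heckeBetaBar Qb M p (grdQ M hat.c.mem)) v₂ P →
      P.ramificationIndexAlong (heckeBetaBar Qb M p) = 1 ∧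
      ∀ P' : Place Qb (modularFunctionFieldBar (M * p)),
        TtrpGoodC M p A (heckeBetaBar Qb M p (grdQ M hat.c.mem)) v₂ P' →
        ttrpRes M p (heckeBetaBar Qb M p) (gff_beta_integral M p) P' =
          ttrpRes M p (heckeBetaBar Qb M p) (gff_beta_integral M p) P → P' = P)
    -- EXCEPTIONAL SETS AND LIFTS
    (T₁ T₂ : Finset (Place (ResidueField A) ↥(modularFunctionFieldFullC (ResidueField A) M)))
    (hT₁ : ∀ Q : Place (ResidueField A) ↥(modularFunctionFieldFullC (ResidueField A) M),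
      GrdVal Q (ttrRed1 M A hA ⟨v₁, H₁.int_mem H₁.v_int⟩) 0 → Q ∈ T₁)
    (hT₂ : ∀ Q : Place (ResidueField A) ↥(modularFunctionFieldFullC (ResidueField A) M),
      GrdVal Q (ttrRed2 M A hpM hA ⟨v₂, H₂.int_mem H₂.v_int⟩) 0 → Q ∈ T₂)
    (lift₁ : ∀ Q : Place (ResidueField A) ↥(modularFunctionFieldFullC (ResidueField A) M),
      Q ∉ T₁ → ∃ P : Place Qb ↥(modularFunctionFieldBar (M * p)),
        ttrpCls M p A r (heckeAlphaBar Qb M p (grdQ M hat.c.mem)) v₁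
          (heckeBetaBar Qb M p (grdQ M hat.c.mem)) v₂ P = some (Sum.inl Q) ∧
        ∀ σ : ↥(ffI A), ffigRho (M * p) A σ • P = P)
    (lift₂ : ∀ Q : Place (ResidueField A) ↥(modularFunctionFieldFullC (ResidueField A) M),
      Q ∉ T₂ → ∃ P : Place Qb ↥(modularFunctionFieldBar (M * p)),
        ttrpCls M p A r (heckeAlphaBar Qb M p (grdQ M hat.c.mem)) v₁
          (heckeBetaBar Qb M p (grdQ M hat.c.mem)) v₂ P = some (Sum.inr Q) ∧
        ∀ σ : ↥(ffI A), ffigRho (M * p) A σ • P = P)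
    -- COUNT (helper5 CountS / CountT; helper17 ChartOnto)
    (hR₁ : ∀ y, y ∈ intRing (ResidueField A) (grdK M A hat.c.mem) ↔
      ∃ b, ttrkR₁ (ttrkT M p A hpM hA hat) b = y)
    (hR₂ : ∀ y, y ∈ intRing (ResidueField A) (grdK M A hat.c.mem) ↔
      ∃ b, ttrkR₂ (ttrkT M p A hpM hA hat) b = y)
    (hR₁' : ∀ y, y ∈ intRing (ResidueField A) (grdK M A hat.c'.mem) ↔
      ∃ b, ttrkR₁' (ttrkT M p A hpM hA hat) b = y)
    (hR₂' : ∀ y, y ∈ intRing (ResidueField A) (grdK M A hat.c'.mem) ↔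
      ∃ b, ttrkR₂' (ttrkT M p A hpM hA hat) b = y)
    (hT : ∀ 𝔫 : Ideal ↥(ttrkT M p A hpM hA hat).B, 𝔫.IsMaximal →
      RingHom.ker (ttrkR₁ (ttrkT M p A hpM hA hat)) ≤ 𝔫 →
      RingHom.ker (ttrkR₂ (ttrkT M p A hpM hA hat)) ≤ 𝔫 → ∀ x ∈ 𝔫, ∃ s, s ∉ 𝔫 ∧ ∃ y₁ y₂,
        ttrkR₁ (ttrkT M p A hpM hA hat) y₁ = 0 ∧ ttrkR₂ (ttrkT M p A hpM hA hat) y₂ = 0 ∧
          s * x = y₁ + y₂)
    (hT' : ∀ 𝔫 : Ideal ↥(ttrkT M p A hpM hA hat).B', 𝔫.IsMaximal →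
      RingHom.ker (ttrkR₁' (ttrkT M p A hpM hA hat)) ≤ 𝔫 →
      RingHom.ker (ttrkR₂' (ttrkT M p A hpM hA hat)) ≤ 𝔫 → ∀ x ∈ 𝔫, ∃ s, s ∉ 𝔫 ∧ ∃ y₁ y₂,
        ttrkR₁' (ttrkT M p A hpM hA hat) y₁ = 0 ∧ ttrkR₂' (ttrkT M p A hpM hA hat) y₂ = 0 ∧
          s * x = y₁ + y₂)
    (hcusp : ∀ 𝔫 : Ideal ↥(ttrkT M p A hpM hA hat).B', 𝔫.IsMaximal →
      RingHom.ker (ttrkR₁' (ttrkT M p A hpM hA hat)) ≤ 𝔫 →
      RingHom.ker (ttrkR₂' (ttrkT M p A hpM hA hat)) ≤ 𝔫 →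
      (⟨(ttrkT M p A hpM hA hat).u', (ttrkT M p A hpM hA hat).hu'⟩ :
        ↥(ttrkT M p A hpM hA hat).B') ∉ 𝔫)
    -- INTO: `v₁` lies in the `β`-chart ring (for `hmix21`)
    (hv₁β : v₁ ∈ grdB (M * p) A (heckeBetaBar Qb M p (grdQ M hat.c.mem))) :
    TtgRed2Spec M p A :=
  ttra_red2_of_atlas_S M A hpM hA hat r hr v₁ v₂ H₁ H₂ hv₂ hbe hv₁V2 hred₂ hv₂O hred₁ hne₁ hfib₁
    hfib₂ T₁ T₂ hT₁ hT₂ lift₁ lift₂ hR₁ hR₂ hR₁' hR₂' hT hT' hcusp
    (ttrgl_hmix₁_of_charts M A hpM hA hat _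
      (fun Q v _ h => ttal_mix12_f M A hpM hA hat.c v₂ hv₂ hred₁ _ Q v h)
      (fun Q v hQ h => ttal_mix12_c M A hpM hA hat hbe v₂ Q hQ v h))
    (ttrgl_hmix₂_of_charts M A hpM hA hat _
      (fun Q v _ h => ttal_mix21_f M A hpM hA hat.c v₁ hv₁β hred₂ _ Q v h)
      (fun Q v hQ h => ttal_mix21_c M A hpM hA hat hbe v₁ Q hQ v h))

end Fermat.Agent.TT
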