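import Mathlib
import Fermat.Agent.TT.Red2.Red2AtlasS
import Fermat.Agent.TT.Red2.ClsJ
import Fermat.Agent.TT.Red2.ConstJ
import Fermat.Agent.TT.Red2.Kron12
import Fermat.Agent.TT.Red2.CountJC
import Fermat.Agent.TT.Red2.ChartOntoAtlas

/-!
# PROGRAM TT (S33), leaf (RED2) at `p ≥ 5` : THE `j`-ATLAS INSTANCE (`ttra_red2_j`)

Owner: helper2.  Namespace `Fermat.Agent.TT`, prefix `ttra`.

`ttra_red2_of_atlas_Sm` (Red2AtlasS.lean) at the atlas `(j, 1/j)` (`ttrli_atlas_j`), `v₁ = u₂ =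
Y^p - J`, `v₂ = J^p - Y = -u₁`, `T₁ = T₂ = ttrpT … j̄` :

* the chart block := helper12 `ttr_chart_j₁`, helper6 `ttrp_j_chart₂`, helper9 `ttrng_*`;
* (B3) := helper15 `ttrli_hfib` at helper12's Kronecker data `ttrkr_kron_Y`, `ttrkr_kron_J`;
* `lift₁`, `lift₂` := helper6 `ttrp_j_fields`.

`ttra_red2_j` keeps as hypotheses the four surjectivity facts `hR` and the three ring-level (NODE)
facts `hT hT' hcusp`, in the shape of `ttrk_genus_le_S`; `ttra_red2_j_closed` discharges them by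
helper17 `ttrc_T_hR_j` (ChartOntoAtlas) and helper5 `ttrkJ_hT`, `ttrkJ_hT'`, `ttrkJ_hcusp` (CountJC):
**(RED2) at `p ≥ 5`, hypothesis-free.**
-/

set_option autoImplicit false
set_option linter.unusedSectionVars false
set_option linter.unusedVariables false
set_option linter.style.haveILetI false
set_option synthInstance.maxHeartbeats 400000

noncomputable section

namespace Fermat.Agent.TT

open AlgebraicCurve IsLocalRing ModularCurve Fermat.Agent.G Fermat.Agent.FF Fermat.Agent.S18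
  Fermat.Agent.SS Fermat.Agent.V.RR Fermat.Agent.S24

local notation "Qb" => AlgebraicClosure ℚ

variable (M : ℕ) [NeZero M] {p : ℕ} [Fact p.Prime] [NeZero p]
variable (A : ValuationSubring Qb) (hpM : ¬ p ∣ M) (hA : A.LiesOverPrime p)

/-- **LEAF (RED2) at `p ≥ 5`**, from the (COUNT) inputs at the `j`-atlas. -/
theorem ttra_red2_j (h5 : 5 ≤ p) {τ' : LaurentSeries ℤ} (hτ' : jqModC ℤ * τ' = 1)
    (hR₁ : ∀ y, y ∈ intRing (ResidueField A)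
        (grdK M A (ttrli_atlas_j M A hpM hA h5 hτ').c.mem) ↔
      ∃ b, ttrkR₁ (ttrkT M p A hpM hA (ttrli_atlas_j M A hpM hA h5 hτ')) b = y)
    (hR₂ : ∀ y, y ∈ intRing (ResidueField A)
        (grdK M A (ttrli_atlas_j M A hpM hA h5 hτ').c.mem) ↔
      ∃ b, ttrkR₂ (ttrkT M p A hpM hA (ttrli_atlas_j M A hpM hA h5 hτ')) b = y)
    (hR₁' : ∀ y, y ∈ intRing (ResidueField A)
        (grdK M A (ttrli_atlas_j M A hpM hA h5 hτ').c'.mem) ↔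
      ∃ b, ttrkR₁' (ttrkT M p A hpM hA (ttrli_atlas_j M A hpM hA h5 hτ')) b = y)
    (hR₂' : ∀ y, y ∈ intRing (ResidueField A)
        (grdK M A (ttrli_atlas_j M A hpM hA h5 hτ').c'.mem) ↔
      ∃ b, ttrkR₂' (ttrkT M p A hpM hA (ttrli_atlas_j M A hpM hA h5 hτ')) b = y)
    (hT : ∀ 𝔫 : Ideal ↥(ttrkT M p A hpM hA (ttrli_atlas_j M A hpM hA h5 hτ')).B, 𝔫.IsMaximal →
      RingHom.ker (ttrkR₁ (ttrkT M p A hpM hA (ttrli_atlas_j M A hpM hA h5 hτ'))) ≤ 𝔫 →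
      RingHom.ker (ttrkR₂ (ttrkT M p A hpM hA (ttrli_atlas_j M A hpM hA h5 hτ'))) ≤ 𝔫 →
      ∀ x ∈ 𝔫, ∃ s, s ∉ 𝔫 ∧ ∃ y₁ y₂,
        ttrkR₁ (ttrkT M p A hpM hA (ttrli_atlas_j M A hpM hA h5 hτ')) y₁ = 0 ∧
        ttrkR₂ (ttrkT M p A hpM hA (ttrli_atlas_j M A hpM hA h5 hτ')) y₂ = 0 ∧
          s * x = y₁ + y₂)
    (hT' : ∀ 𝔫 : Ideal ↥(ttrkT M p A hpM hA (ttrli_atlas_j M A hpM hA h5 hτ')).B',
      𝔫.IsMaximal →
      RingHom.ker (ttrkR₁' (ttrkT M p A hpM hA (ttrli_atlas_j M A hpM hA h5 hτ'))) ≤ 𝔫 →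
      RingHom.ker (ttrkR₂' (ttrkT M p A hpM hA (ttrli_atlas_j M A hpM hA h5 hτ'))) ≤ 𝔫 →
      ∀ x ∈ 𝔫, ∃ s, s ∉ 𝔫 ∧ ∃ y₁ y₂,
        ttrkR₁' (ttrkT M p A hpM hA (ttrli_atlas_j M A hpM hA h5 hτ')) y₁ = 0 ∧
        ttrkR₂' (ttrkT M p A hpM hA (ttrli_atlas_j M A hpM hA h5 hτ')) y₂ = 0 ∧
          s * x = y₁ + y₂)
    (hcusp : ∀ 𝔫 : Ideal ↥(ttrkT M p A hpM hA (ttrli_atlas_j M A hpM hA h5 hτ')).B',
      𝔫.IsMaximal →
      RingHom.ker (ttrkR₁' (ttrkT M p A hpM hA (ttrli_atlas_j M A hpM hA h5 hτ'))) ≤ 𝔫 →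
      RingHom.ker (ttrkR₂' (ttrkT M p A hpM hA (ttrli_atlas_j M A hpM hA h5 hτ'))) ≤ 𝔫 →
      (⟨(ttrkT M p A hpM hA (ttrli_atlas_j M A hpM hA h5 hτ')).u',
        (ttrkT M p A hpM hA (ttrli_atlas_j M A hpM hA h5 hτ')).hu'⟩ :
        ↥(ttrkT M p A hpM hA (ttrli_atlas_j M A hpM hA h5 hτ')).B') ∉ 𝔫) :
    TtgRed2Spec M p A := by
  obtain ⟨r, hr⟩ := grd_exists_isRed M A hpM hA (ttrli_atlas_j M A hpM hA h5 hτ')
  have hK₁ := ttrkr_kron_Y M A hpM hA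
  have hK₂ := ttrkr_kron_J M A hpM hA
  obtain ⟨lift₁, lift₂, -, -⟩ := ttrp_j_fields M A hpM hA h5 (ttrli_atlas_j M A hpM hA h5 hτ')
    r hr hK₁ hK₂ _ _ (Finset.Subset.refl _) (Finset.Subset.refl _)
  have e₂ : ttrJ M A (p := p) ^ p - ttrY M A (p := p) = -ttrU1 M A (p := p) := ttrp_j_v₂_eq M A
  have hv₂ : ttrJ M A (p := p) ^ p - ttrY M A (p := p) ∈
      grdB (M * p) A (heckeAlphaBar Qb M p (grdQ M (ttrli_atlas_j M A hpM hA h5 hτ').c.mem)) := by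
    rw [e₂]
    exact Subring.neg_mem _ (ttr_chart_U1_mem M A hpM hA)
  have hv₂O : ttrJ M A (p := p) ^ p - ttrY M A (p := p) ∈ grdO (M * p) A := by
    rw [e₂]
    exact Subring.neg_mem _ (ttrU1_mem M A)
  have hred₁ : ttrRed1 M A hA ⟨ttrJ M A (p := p) ^ p - ttrY M A (p := p), hv₂O⟩ = 0 := by
    have e : (⟨ttrJ M A (p := p) ^ p - ttrY M A (p := p), hv₂O⟩ : ↥(grdO (M * p) A)) =
        -⟨ttrU1 M A, ttrU1_mem M A⟩ := Subtype.ext e₂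
    rw [e, map_neg, ttrRed1_U1, neg_zero]
  have hne₁ : ttrRed1 M A hA ⟨ttrU2 M A (p := p), ttrU2_mem M A⟩ ≠ 0 := by
    rw [ttrRed1_U2]
    exact ttrH_ne_zero M A (Fact.out : p.Prime).one_lt
  refine ttra_red2_of_atlas_Sm M A hpM hA (ttrli_atlas_j M A hpM hA h5 hτ') r hr
    (ttrU2 M A) (ttrJ M A ^ p - ttrY M A) (ttr_chart_j₁ M A hpM hA h5)
    (ttrp_j_chart₂ M A hpM hA h5) hv₂ (ttr_chart_Y_mem M A hpM hA)
    (ttrng_U2_mem₂ M A hpM) (ttrng_red₂_U2 M A hpM hA) hv₂O hred₁ hne₁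
    (ttrli_hfib hpM hA _ (gff_alpha_integral M p) (gff_alpha_finite M p)
      (ttrli_atlas_j M A hpM hA h5 hτ').c (grdQ M (grdi_mem_j M)) (grdr_isInt_self M A _)
      (ttrY M A) hK₁ (ttr_chart_Y_mem M A hpM hA) (ttrU2 M A) rfl)
    (ttrli_hfib hpM hA _ (gff_beta_integral M p) (gff_beta_finite M p)
      (ttrli_atlas_j M A hpM hA h5 hτ').c (grdQ M (grdi_mem_j M)) (grdr_isInt_self M A _)
      (ttrJ M A) hK₂ (ttrli_J_mem_beta M A hpM hA) (ttrJ M A ^ p - ttrY M A) rfl)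
    _ _ (fun Q hQ => ?_) (fun Q hQ => ?_) lift₁ lift₂ hR₁ hR₂ hR₁' hR₂' hT hT' hcusp
    (ttr_chart_U2_mem' M A hpM hA)
  · refine ttrp_zero_mem_T hpM hA (ttrli_atlas_j M A hpM hA h5 hτ') (ttrJk M A) _ Q ?_
    have h := hQ
    rw [ttrRed1_U2] at h
    exact h
  · refine ttrp_zero_mem_T hpM hA (ttrli_atlas_j M A hpM hA h5 hτ') (ttrJk M A) _ Q ?_
    have h := hQ
    have e : (⟨ttrJ M A (p := p) ^ p - ttrY M A (p := p),
        (ttrp_j_chart₂ M A hpM hA h5).int_mem (ttrp_j_chart₂ M A hpM hA h5).v_int⟩ :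
          ↥(ttrV2 M A hpM)) =
        ⟨-ttrU1 M A, Subring.neg_mem _ (ttrng_U1_mem₂ M A hpM)⟩ := Subtype.ext e₂
    rw [e, ttrng_red₂_negU1] at h
    exact h

include hpM hA in
/-- **LEAF (RED2) at `p ≥ 5`, HYPOTHESIS-FREE.** -/
theorem ttra_red2_j_closed (h5 : 5 ≤ p) : TtgRed2Spec M p A := by
  obtain ⟨τ', hτ'⟩ := grd_exists_jinv
  obtain ⟨hR₁, hR₂, hR₁', hR₂'⟩ :=
    ttrc_T_hR_j M p A hpM hA h5 (ttrli_atlas_j M A hpM hA h5 hτ')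
  exact ttra_red2_j M A hpM hA h5 hτ' hR₁ hR₂ hR₁' hR₂'
    (ttrkJ_hT M p A hpM hA h5 (ttrli_atlas_j M A hpM hA h5 hτ'))
    (ttrkJ_hT' M p A hpM hA h5 (ttrli_atlas_j M A hpM hA h5 hτ'))
    (ttrkJ_hcusp M p A hpM hA (ttrli_atlas_j M A hpM hA h5 hτ'))

end Fermat.Agent.TT
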