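import Mathlib
import Fermat.Agent.TT.Red2.ChartSmall
import Fermat.Agent.SS.Geo.NewtonMod

/-!
# Program TT (S33), G/Red2 leaf (A8), `p ∈ {2, 3}` (part 4) : THE TWO TYPES OF CUSPS OF THE
`h_a`-CHARTS AND THE MULTIPLES OF `J`, `Y`, `u₁`, `u₂` IN THE CHART RINGS

Owner: helper17.  Namespace `Fermat.Agent.TT`, prefixes `ttrcn` (Newton polygon) and `ttrc`.

`H = α h_a`, `G = β h_a = h_a(q^p)`, `J = α j`, `Y = β j`, `u₁ = Y - J^p`, `u₂ = Y^p - J` in
`F = F_ℚ̄(M p)`; `B(H)`, `B(H⁻¹)` the chart rings `grdB (M p) 𝔸 ·`.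

* abstract (any valuation `v` of a field, main's `SS/Geo/NewtonAbs`) : at a cusp (`v h ≠ 1`)
  `v h_q = (v h)^q` or `(v h_q)^q = v h` (`ttrcn_zero`, `ttrcn_infty`); hence
  **(I)** `h^q / h_q ∈ s18tInt A h`, **(II)** `h_q / h^q ∈ s18tInt A h⁻¹`
  (`ttrcn_div_mem_int`, `ttrcn_div_inv_mem_int`);
* level `M p` over `ℚ̄` : **(I)** `ttrc_h_div_isInt : H^p G⁻¹ ∈ B(H)`,
  **(II)** `ttrc_hinv_div_isInt : G H'^p ∈ B(H')` (`H' = α h_a⁻¹`);
* `j h_a^a = R(h_a)` : `ttrc_h_mul_j_mem`; multiples in the chart ring of `H` :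
  `H^a J`, `G^a Y`, `H^(p a) Y`, `H^(p a) u₁`, **`H^(p² a) u₂ ∈ B(H)`**
  (`ttrc_h_mul_J_isInt`, `ttrc_G_mul_Y_isInt`, `ttrc_h_mul_Y_isInt`, `ttrc_h_mul_u1_isInt`,
  `ttrc_h_mul_u2_isInt`) : the element `v₁ = H^N u₂` of ROUTE J (Layer B at `p = 3`) lies in `B(H)`
  for every `N ≥ p² a`;
* the inverse chart `H' = α h_a⁻¹` : `j h_a⁻¹ = R*(h_a⁻¹)` (`ttrc_hinv_mul_j_mem`), and
  `H' J`, `G' Y`, `Y H'^p`, `u₁ H'^p`, **`u₂ H'^(p²) ∈ B(H')`** (`ttrc_hinv_mul_J_isInt`,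
  `ttrc_Ginv_mul_Y_isInt`, `ttrc_hinv_mul_Y_isInt`, `ttrc_hinv_mul_u1_isInt`,
  `ttrc_hinv_mul_u2_isInt`) : the analogue of `v' = u₂ / J^(p²)` of the cusp chart `1/j`.
-/

set_option autoImplicit false
set_option linter.unusedSectionVars false
set_option linter.unusedVariables false
set_option linter.style.haveILetI false
set_option synthInstance.maxHeartbeats 400000

noncomputable section

namespace Fermat.Agent.TT

open Polynomial ModularCurve AlgebraicCurve IsLocalRing IntermediateField Fermat.Agent.S24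
  Fermat.Agent.G Fermat.Agent.S18 Fermat.Agent.SS Fermat.Agent.SQ

local notation "Qb" => AlgebraicClosure ℚ

attribute [local instance] ttrc_neZero

/-! ## the two types of cusps (abstract) -/

section Abs

variable {A F Γ₀ : Type*} [CommRing A] [Field F] [Algebra A F] [LinearOrderedCommGroupWithZero Γ₀]
variable (v : Valuation F Γ₀)
variable {a q : ℕ} {R₁ R₂ : A[X]} {j ja h jq jaq hq : F}
variable (H : SsgnHaupt A F a R₁ R₂ j ja h) (Hq : SsgnHaupt A F a R₁ R₂ jq jaq hq)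

include H Hq in
/-- CUSPS OVER `0`, the two types : `v h < 1 → v h_q = (v h)^q ∨ (v h_q)^q = v h`. -/
theorem ttrcn_zero (hA : ∀ a : A, v (algebraMap A F a) ≤ 1) (ha : 2 ≤ a) (hq2 : 2 ≤ q)
    (haq : a ≠ q)
    (NP1 : 1 < v j → v jq = v j ^ q ∨ v jq ^ q = v j)
    (NP2 : 1 < v ja → v jaq = v ja ^ q ∨ v jaq ^ q = v ja)
    (hh : v h < 1) : v hq = v h ^ q ∨ v hq ^ q = v h := by
  have hq' : v hq < 1 := ssgn_cusp_zero v H Hq hA ha hq2 haq NP1 NP2 hh
  obtain ⟨-, s2⟩ := H.small v hA hh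
  obtain ⟨-, t2⟩ := Hq.small v hA hq'
  have hh0 : v h ≠ 0 := by
    intro h0
    rw [h0, mul_zero] at s2
    exact zero_ne_one s2
  have hja0 : v ja ≠ 0 := by
    intro h0
    rw [h0, zero_mul] at s2
    exact zero_ne_one s2
  have hjaq0 : v jaq ≠ 0 := by
    intro h0
    rw [h0, zero_mul] at t2
    exact zero_ne_one t2
  have hm : 1 < v ja := by
    by_contra hle
    rw [not_lt] at hle
    have : v ja * v h < 1 := by
      calc v ja * v h ≤ 1 * v h := mul_le_mul_left hle _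
        _ = v h := one_mul _
        _ < 1 := hh
    rw [s2] at this
    exact lt_irrefl _ this
  rcases NP2 hm with e | e
  · left
    have h1 : v jaq * v h ^ q = 1 := by rw [e, ← mul_pow, s2, one_pow]
    exact mul_left_cancel₀ hjaq0 (t2.trans h1.symm)
  · right
    have h1 : v ja * v hq ^ q = 1 := by rw [← e, ← mul_pow, t2, one_pow]
    exact mul_left_cancel₀ hja0 (h1.trans s2.symm)

include H Hq in
/-- CUSPS OVER `∞`, the two types : `v h > 1 → v h_q = (v h)^q ∨ (v h_q)^q = v h`. -/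
theorem ttrcn_infty (hA : ∀ a : A, v (algebraMap A F a) ≤ 1) (ha : 2 ≤ a) (hq2 : 2 ≤ q)
    (haq : a ≠ q)
    (NP1 : 1 < v j → v jq = v j ^ q ∨ v jq ^ q = v j)
    (NP2 : 1 < v ja → v jaq = v ja ^ q ∨ v jaq ^ q = v ja)
    (hh : 1 < v h) : v hq = v h ^ q ∨ v hq ^ q = v h := by
  have hq' : 1 < v hq := ssgn_cusp_infty v H Hq hA ha hq2 haq NP1 NP2 hh
  obtain ⟨b1, -⟩ := H.big v hA hh
  obtain ⟨c1, -⟩ := Hq.big v hA hq'
  have hj1 : 1 < v j := by rw [b1]; exact hh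
  have := NP1 hj1
  rw [b1, c1] at this
  exact this

include H Hq in
/-- **(I)** `v h ≤ 1 → v (h^q / h_q) ≤ 1`. -/
theorem ttrcn_div_le_one (hA : ∀ a : A, v (algebraMap A F a) ≤ 1) (ha : 2 ≤ a) (hq2 : 2 ≤ q)
    (haq : a ≠ q)
    (NP1 : 1 < v j → v jq = v j ^ q ∨ v jq ^ q = v j)
    (NP2 : 1 < v ja → v jaq = v ja ^ q ∨ v jaq ^ q = v ja)
    (INT : v j ≤ 1 → v jq ≤ 1)
    (hh : v h ≤ 1) : v (h ^ q * hq⁻¹) ≤ 1 := by
  have hqne : hq ≠ 0 := Hq.ne_zero v hA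
  have hvhq : v hq ≠ 0 := (Valuation.ne_zero_iff v).mpr hqne
  rw [map_mul, map_pow, map_inv₀]
  rcases hh.lt_or_eq with hlt | heq
  · have hq' : v hq < 1 := ssgn_cusp_zero v H Hq hA ha hq2 haq NP1 NP2 hlt
    rcases ttrcn_zero v H Hq hA ha hq2 haq NP1 NP2 hlt with e | e
    · rw [← e, mul_inv_cancel₀ hvhq]
    · have h1 : v h ^ q ≤ v hq := by
        rw [← e, ← pow_mul]
        exact pow_le_of_le_one zero_le hq'.le (by positivity)
      calc v h ^ q * (v hq)⁻¹ ≤ v hq * (v hq)⁻¹ := mul_le_mul_left h1 _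
        _ = 1 := mul_inv_cancel₀ hvhq
  · have hne : h ≠ 0 := H.ne_zero v hA
    have h1 : v h⁻¹ ≤ 1 := by rw [map_inv₀, heq, inv_one]
    have h2 := ssgn_inv_le_one v H Hq hA ha hq2 haq NP1 NP2 INT h1
    rw [map_inv₀] at h2
    rw [heq, one_pow, one_mul]
    exact h2

include H Hq in
/-- **(II)** `v h⁻¹ ≤ 1 → v (h_q / h^q) ≤ 1`. -/
theorem ttrcn_div_inv_le_one (hA : ∀ a : A, v (algebraMap A F a) ≤ 1) (ha : 2 ≤ a) (hq2 : 2 ≤ q)
    (haq : a ≠ q)
    (NP1 : 1 < v j → v jq = v j ^ q ∨ v jq ^ q = v j)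
    (NP2 : 1 < v ja → v jaq = v ja ^ q ∨ v jaq ^ q = v ja)
    (INT : v j ≤ 1 → v jq ≤ 1)
    (hh : v h⁻¹ ≤ 1) : v (hq * h⁻¹ ^ q) ≤ 1 := by
  have hne : h ≠ 0 := H.ne_zero v hA
  have hvh : v h ≠ 0 := (Valuation.ne_zero_iff v).mpr hne
  rw [map_inv₀, inv_le_one₀ (zero_lt_iff.mpr hvh)] at hh
  rw [map_mul, map_pow, map_inv₀]
  have hvhq0 : (v h ^ q) ≠ 0 := pow_ne_zero q hvh
  rcases hh.lt_or_eq with hlt | heq
  · have hq' : 1 < v hq := ssgn_cusp_infty v H Hq hA ha hq2 haq NP1 NP2 hlt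
    rcases ttrcn_infty v H Hq hA ha hq2 haq NP1 NP2 hlt with e | e
    · rw [e, inv_pow, mul_inv_cancel₀ hvhq0]
    · have h1 : v hq ≤ v h ^ q := by
        rw [← e, ← pow_mul]
        exact le_self_pow₀ hq'.le (by positivity)
      rw [inv_pow]
      calc v hq * (v h ^ q)⁻¹ ≤ v h ^ q * (v h ^ q)⁻¹ := mul_le_mul_left h1 _
        _ = 1 := mul_inv_cancel₀ hvhq0
  · have h2 := ssgn_le_one v H Hq hA ha hq2 haq NP1 NP2 INT heq.symm.le
    rw [← heq, inv_one, one_pow, mul_one]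
    exact h2

end Abs

section Int

variable {A F : Type*} [CommRing A] [Field F] [Algebra A F]
variable {a q : ℕ} {R₁ R₂ : A[X]} {j ja h jq jaq hq : F} {Φ : A[X][X]}

/-- **(I)** `h^q / h_q ∈ s18tInt A h`. -/
theorem ttrcn_div_mem_int (H : SsgnHaupt A F a R₁ R₂ j ja h)
    (Hq : SsgnHaupt A F a R₁ R₂ jq jaq hq)
    (ha : 2 ≤ a) (hq2 : 2 ≤ q) (haq : a ≠ q)
    (MP1 : SsgnModPoly A F j jq q Φ) (MP2 : SsgnModPoly A F ja jaq q Φ) :
    h ^ q * hq⁻¹ ∈ s18tInt A h := by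
  refine ssgn_mem_int_of_forall h _ fun V hA hh => ?_
  rw [← V.valuation_le_one_iff] at hh ⊢
  have hA' := ssgn_valuation_le_one V hA
  exact ttrcn_div_le_one V.valuation H Hq hA' ha hq2 haq
    (fun hj => ssgn_newton V.valuation hA' MP1 hq2 hj)
    (fun hj => ssgn_newton V.valuation hA' MP2 hq2 hj)
    (fun hj => ssgn_int_of_le V.valuation hA' MP1 hj) hh

/-- **(II)** `h_q / h^q ∈ s18tInt A h⁻¹`. -/
theorem ttrcn_div_inv_mem_int (H : SsgnHaupt A F a R₁ R₂ j ja h)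
    (Hq : SsgnHaupt A F a R₁ R₂ jq jaq hq)
    (ha : 2 ≤ a) (hq2 : 2 ≤ q) (haq : a ≠ q)
    (MP1 : SsgnModPoly A F j jq q Φ) (MP2 : SsgnModPoly A F ja jaq q Φ) :
    hq * h⁻¹ ^ q ∈ s18tInt A h⁻¹ := by
  refine ssgn_mem_int_of_forall h⁻¹ _ fun V hA hh => ?_
  rw [← V.valuation_le_one_iff] at hh ⊢
  have hA' := ssgn_valuation_le_one V hA
  exact ttrcn_div_inv_le_one V.valuation H Hq hA' ha hq2 haq
    (fun hj => ssgn_newton V.valuation hA' MP1 hq2 hj)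
    (fun hj => ssgn_newton V.valuation hA' MP2 hq2 hj)
    (fun hj => ssgn_int_of_le V.valuation hA' MP1 hj) hh

end Int

/-! ## level `M q` over a number field -/

section Level

variable (A : ValuationSubring Qb) (E : IntermediateField ℚ Qb) (M q : ℕ) [NeZero M] [NeZero q]
variable {Φ : (↥(s18dVal A E))[X][X]}

/-- the general statement, from the Hauptmodul relations in `E((q))`. -/
theorem ttrcn_phi_h_div_aux (a : ℕ) [NeZero a] (ha : a = 2 ∨ a = 3) (haM : a ∣ M)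
    (hq2 : 2 ≤ q) (haq : a ≠ q) {R₁ R₂ : (↥(s18dVal A E))[X]}
    (H : SsgnHaupt ↥(s18dVal A E) (LaurentSeries E) a R₁ R₂ (jqModC E) (jqNModC E a)
      (s18hq a (s18hExp a) E))
    (MP : SsgnModPoly ↥(s18dVal A E) (LaurentSeries E) (jqModC E) (qExpand E q (jqModC E)) q Φ) :
    ssgH E (M * q) a ha (haM.mul_right q) ^ q * (ssgnPhi E M q (ssgH E M a ha haM))⁻¹ ∈
        s18tInt ↥(s18dVal A E) (ssgH E (M * q) a ha (haM.mul_right q)) ∧
      ssgnPhi E M q (ssgH E M a ha haM) * (ssgH E (M * q) a ha (haM.mul_right q))⁻¹ ^ q ∈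
        s18tInt ↥(s18dVal A E) (ssgH E (M * q) a ha (haM.mul_right q))⁻¹ := by
  have ha2 : 2 ≤ a := by rcases ha with rfl | rfl <;> norm_num
  have HF : SsgnHaupt ↥(s18dVal A E) (modularFunctionFieldFullC E (M * q)) a R₁ R₂
      (ssdJ E (M * q)) (ssgnJa E (M * q) a (haM.mul_right q))
      (ssgH E (M * q) a ha (haM.mul_right q)) :=
    SsgnHaupt.of_map (ssgnVal A E (M * q)) (ssgnVal_injective A E (M * q)) H
  have HqF : SsgnHaupt ↥(s18dVal A E) (modularFunctionFieldFullC E (M * q)) a R₁ R₂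
      (ssgnPhi E M q (ssdJ E M)) (ssgnPhi E M q (ssgnJa E M a haM))
      (ssgnPhi E M q (ssgH E M a ha haM)) :=
    SsgnHaupt.of_map (ssgnVal A E (M * q)) (ssgnVal_injective A E (M * q))
      (H.map (ssgnExp A E q))
  have MP1 := ssgn_modPoly_F A E M q MP
  have MP2 : SsgnModPoly ↥(s18dVal A E) (modularFunctionFieldFullC E (M * q))
      (ssgnJa E (M * q) a (haM.mul_right q)) (ssgnPhi E M q (ssgnJa E M a haM)) q Φ :=
    SsgnModPoly.of_map (ssgnVal A E (M * q)) (ssgnVal_injective A E (M * q))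
      (ssgn_modPoly_a A E q a MP)
  exact ⟨ttrcn_div_mem_int HF HqF ha2 hq2 haq MP1 MP2,
    ttrcn_div_inv_mem_int HF HqF ha2 hq2 haq MP1 MP2⟩

/-- `h_a^q / h_a(qτ) ∈ s18tInt A h_a` and `h_a(qτ) / h_a^q ∈ s18tInt A h_a⁻¹`. -/
theorem ttrcn_phi_h_div (a : ℕ) [NeZero a] (ha : a = 2 ∨ a = 3) (haM : a ∣ M)
    (hq2 : 2 ≤ q) (haq : a ≠ q) (hu : IsUnit ((a : ℕ) : ↥(s18dVal A E)))
    (MP : SsgnModPoly ↥(s18dVal A E) (LaurentSeries E) (jqModC E) (qExpand E q (jqModC E)) q Φ) :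
    ssgH E (M * q) a ha (haM.mul_right q) ^ q * (ssgnPhi E M q (ssgH E M a ha haM))⁻¹ ∈
        s18tInt ↥(s18dVal A E) (ssgH E (M * q) a ha (haM.mul_right q)) ∧
      ssgnPhi E M q (ssgH E M a ha haM) * (ssgH E (M * q) a ha (haM.mul_right q))⁻¹ ^ q ∈
        s18tInt ↥(s18dVal A E) (ssgH E (M * q) a ha (haM.mul_right q))⁻¹ := by
  rcases ha with rfl | rfl
  · exact ttrcn_phi_h_div_aux A E M q 2 (Or.inl rfl) haM hq2 haq (ssgn_haupt_two A E hu) MP
  · exact ttrcn_phi_h_div_aux A E M q 3 (Or.inr rfl) haM hq2 haq (ssgn_haupt_three A E hu) MP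

end Level

/-! ## level `M p` over `ℚ̄` -/

section Up

variable {M : ℕ} [NeZero M] {p : ℕ} [Fact p.Prime] {A : ValuationSubring Qb}

/-- push-up of the level-`M p` coordinate -/
theorem ttrcn_up_coord (E : IntermediateField ℚ Qb) {υ : LaurentSeries ℤ} (N : ℕ) [NeZero N]
    (hυ : GrdSerMem N υ) :
    grdlUp N E (⟨grdSer υ E, hυ E⟩ : modularFunctionFieldFullC E N) = grdQ N hυ := by
  apply Subtype.ext
  rw [grdlUp_coe]
  exact grdSer_coeffMap υ _

/-- push-up of `φ h_a` -/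
theorem ttrcn_up_phi_h (E : IntermediateField ℚ Qb) (a : ℕ) [NeZero a] (ha23 : a = 2 ∨ a = 3)
    (haM : a ∣ M) (hmem : GrdSerMem M (s18hq a (s18hExp a) ℤ)) :
    grdlUp (M * p) E (ssgnPhi E M p (ssgH E M a ha23 haM)) =
      heckeBetaBar Qb M p (grdQ M hmem) := by
  apply Subtype.ext
  have h2 : ((grdQ M hmem : modularFunctionFieldBar M) : LaurentSeries Qb) =
      grdSer (s18hq a (s18hExp a) ℤ) Qb := rfl
  rw [grdlUp_coe, ssgnPhi_coe, coe_ssgH, coe_heckeBetaBar, h2, grdis_grdSer_hq,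
    coeffMap_qExpand, s18hk_coeffMap_hq]

/-- **(I) `h_a^p / h_a(q^p)` IS INTEGRAL OVER `𝔸[h_a]` AT LEVEL `M p`**. -/
theorem ttrc_h_div_isInt (hA : A.LiesOverPrime p)
    (a : ℕ) [NeZero a] (ha : (p = 2 ∧ a = 3) ∨ (p = 3 ∧ a = 2)) (haM : a ∣ M)
    (hmem : GrdSerMem M (s18hq a (s18hExp a) ℤ)) :
    grdQ (M * p) (ttrc_serMem M p hmem) ^ p * (heckeBetaBar Qb M p (grdQ M hmem))⁻¹ ∈
      grdB (M * p) A (grdQ (M * p) (ttrc_serMem M p hmem)) := by
  have ha23 : a = 2 ∨ a = 3 := by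
    rcases ha with ⟨-, h⟩ | ⟨-, h⟩
    · exact Or.inr h
    · exact Or.inl h
  have hq2 : 2 ≤ p := (Fact.out : p.Prime).two_le
  have haq : a ≠ p := by
    rcases ha with ⟨h1, h2⟩ | ⟨h1, h2⟩ <;> omega
  have hndvd : ¬ p ∣ a := by
    rcases ha with ⟨h1, h2⟩ | ⟨h1, h2⟩ <;> subst h1 <;> subst h2 <;> decide
  haveI : IsDiscreteValuationRing (s18dVal A (⊥ : IntermediateField ℚ Qb)) := s18d_isDVR A ⊥ hA
  have hu : IsUnit ((a : ℕ) : ↥(s18dVal A (⊥ : IntermediateField ℚ Qb))) :=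
    s18r_isUnit_natCast A ⊥ hA a hndvd
  obtain ⟨Φ, MP⟩ := ssgcl_modPoly_over p A hA ⊥
  have hInt := (ttrcn_phi_h_div A ⊥ M p a ha23 haM hq2 haq hu MP).1
  have e1 : ssgH (⊥ : IntermediateField ℚ Qb) (M * p) a ha23 (haM.mul_right p) =
      ⟨grdSer (s18hq a (s18hExp a) ℤ) (⊥ : IntermediateField ℚ Qb),
        ttrc_serMem M p hmem (⊥ : IntermediateField ℚ Qb)⟩ :=
    Subtype.ext (grdis_grdSer_hq a _ _).symm
  rw [e1] at hInt
  have h := grdl_isInt_up (A := A) (ttrc_serMem M p hmem) _ hInt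
  rw [map_mul, map_pow, map_inv₀, ttrcn_up_coord, ttrcn_up_phi_h ⊥ a ha23 haM hmem] at h
  exact h

/-- **(II) `h_a(q^p) / h_a^p` IS INTEGRAL OVER `𝔸[h_a⁻¹]` AT LEVEL `M p`**. -/
theorem ttrc_hinv_div_isInt (hA : A.LiesOverPrime p)
    (a : ℕ) [NeZero a] (ha : (p = 2 ∧ a = 3) ∨ (p = 3 ∧ a = 2)) (haM : a ∣ M)
    (hmem : GrdSerMem M (s18hq a (s18hExp a) ℤ))
    {τ' : LaurentSeries ℤ} (hτ' : s18hq a (s18hExp a) ℤ * τ' = 1) (hmem' : GrdSerMem M τ') :
    heckeBetaBar Qb M p (grdQ M hmem) * grdQ (M * p) (ttrc_serMem M p hmem') ^ p ∈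
      grdB (M * p) A (grdQ (M * p) (ttrc_serMem M p hmem')) := by
  have ha23 : a = 2 ∨ a = 3 := by
    rcases ha with ⟨-, h⟩ | ⟨-, h⟩
    · exact Or.inr h
    · exact Or.inl h
  have hq2 : 2 ≤ p := (Fact.out : p.Prime).two_le
  have haq : a ≠ p := by
    rcases ha with ⟨h1, h2⟩ | ⟨h1, h2⟩ <;> omega
  have hndvd : ¬ p ∣ a := by
    rcases ha with ⟨h1, h2⟩ | ⟨h1, h2⟩ <;> subst h1 <;> subst h2 <;> decide
  haveI : IsDiscreteValuationRing (s18dVal A (⊥ : IntermediateField ℚ Qb)) := s18d_isDVR A ⊥ hA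
  have hu : IsUnit ((a : ℕ) : ↥(s18dVal A (⊥ : IntermediateField ℚ Qb))) :=
    s18r_isUnit_natCast A ⊥ hA a hndvd
  obtain ⟨Φ, MP⟩ := ssgcl_modPoly_over p A hA ⊥
  have hInt := (ttrcn_phi_h_div A ⊥ M p a ha23 haM hq2 haq hu MP).2
  have e1 : (ssgH (⊥ : IntermediateField ℚ Qb) (M * p) a ha23 (haM.mul_right p))⁻¹ =
      ⟨grdSer τ' (⊥ : IntermediateField ℚ Qb),
        ttrc_serMem M p hmem' (⊥ : IntermediateField ℚ Qb)⟩ := by
    apply Subtype.ext
    rw [IntermediateField.coe_inv, coe_ssgH]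
    show _ = grdSer τ' (⊥ : IntermediateField ℚ Qb)
    rw [grdis_grdSer_inv hτ', grdis_grdSer_hq]
  rw [e1] at hInt
  have h := grdl_isInt_up (A := A) (ttrc_serMem M p hmem') _ hInt
  rw [map_mul, map_pow, ttrcn_up_coord, ttrcn_up_phi_h ⊥ a ha23 haM hmem] at h
  exact h

end Up

/-! ## `j h_a^a = R(h_a)` -/

section Id

variable (N : ℕ) [NeZero N]

/-- `j h_a^a ∈ ℤ[h_a]` at any level : the multiple `h_a^a j` of `j` lies in the subring generated by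
`h_a`. -/
theorem ttrc_h_mul_j_mem (a : ℕ) [NeZero a] (ha : a = 2 ∨ a = 3)
    (hj : GrdSerMem N (jqModC ℤ)) (hh : GrdSerMem N (s18hq a (s18hExp a) ℤ))
    (S : Subring (modularFunctionFieldBar N)) (hS : grdQ N hh ∈ S) :
    grdQ N hh ^ a * grdQ N hj ∈ S := by
  have hJ : ((grdQ N hj : modularFunctionFieldBar N) : LaurentSeries Qb) = jqModC Qb := by
    show grdSer (jqModC ℤ) Qb = _
    exact grdi_grdSer_j Qb
  have hH : ((grdQ N hh : modularFunctionFieldBar N) : LaurentSeries Qb) =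
      s18hq a (s18hExp a) Qb := by
    show grdSer (s18hq a (s18hExp a) ℤ) Qb = _
    exact grdis_grdSer_hq a _ Qb
  rcases ha with rfl | rfl
  · have e : grdQ N hh ^ 2 * grdQ N hj = (grdQ N hh + 256) ^ 3 := by
      apply Subtype.ext
      push_cast
      rw [hJ, hH]
      have := grdis_id_two Qb
      rw [show s18hExp 2 = 24 from rfl]
      rw [mul_comm]
      exact this
    rw [e]
    exact S.pow_mem (S.add_mem hS (by exact_mod_cast natCast_mem S 256)) 3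
  · have e : grdQ N hh ^ 3 * grdQ N hj = (grdQ N hh + 27) * (grdQ N hh + 243) ^ 3 := by
      apply Subtype.ext
      push_cast
      rw [hJ, hH]
      have := grdis_id_three Qb
      rw [show s18hExp 3 = 12 from rfl]
      rw [mul_comm]
      exact this
    rw [e]
    exact S.mul_mem (S.add_mem hS (by exact_mod_cast natCast_mem S 27))
      (S.pow_mem (S.add_mem hS (by exact_mod_cast natCast_mem S 243)) 3)

end Id

/-! ## multiples in the chart ring of `H` -/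

section Mult

variable {M : ℕ} [NeZero M] {p : ℕ} [Fact p.Prime] {A : ValuationSubring Qb}

/-- `(α h)^a · α j ∈ B(α h)` -/
theorem ttrc_h_mul_J_isInt (a : ℕ) [NeZero a] (ha : a = 2 ∨ a = 3)
    (hmem : GrdSerMem M (s18hq a (s18hExp a) ℤ)) :
    grdQ (M * p) (ttrc_serMem M p hmem) ^ a *
        grdQ (M * p) (ttrc_serMem M p (grdi_mem_j M)) ∈
      grdB (M * p) A (grdQ (M * p) (ttrc_serMem M p hmem)) :=
  ttrc_h_mul_j_mem (M * p) a ha _ _ _ (grda_isInt_self (M * p) A _)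

/-- `(β h)^a · β j ∈ B(α h)` -/
theorem ttrc_G_mul_Y_isInt (hA : A.LiesOverPrime p)
    (a : ℕ) [NeZero a] (ha : (p = 2 ∧ a = 3) ∨ (p = 3 ∧ a = 2)) (haM : a ∣ M)
    (hmem : GrdSerMem M (s18hq a (s18hExp a) ℤ)) :
    heckeBetaBar Qb M p (grdQ M hmem) ^ a * heckeBetaBar Qb M p (grdQ M (grdi_mem_j M)) ∈
      grdB (M * p) A (grdQ (M * p) (ttrc_serMem M p hmem)) := by
  have ha23 : a = 2 ∨ a = 3 := by
    rcases ha with ⟨-, h⟩ | ⟨-, h⟩
    · exact Or.inr h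
    · exact Or.inl h
  have h := ttrc_h_mul_j_mem M a ha23 (grdi_mem_j M) hmem
    ((grdB (M * p) A (grdQ (M * p) (ttrc_serMem M p hmem))).comap
      (heckeBetaBar Qb M p).toRingHom)
    (by
      rw [Subring.mem_comap]
      exact ttrc_be_h_isInt hA a ha haM hmem)
  rw [Subring.mem_comap] at h
  simpa only [AlgHom.toRingHom_eq_coe, RingHom.coe_coe, map_mul, map_pow] using h

/-- `(α h)^(p a) · β j ∈ B(α h)` -/
theorem ttrc_h_mul_Y_isInt (hA : A.LiesOverPrime p)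
    (a : ℕ) [NeZero a] (ha : (p = 2 ∧ a = 3) ∨ (p = 3 ∧ a = 2)) (haM : a ∣ M)
    (hmem : GrdSerMem M (s18hq a (s18hExp a) ℤ)) :
    grdQ (M * p) (ttrc_serMem M p hmem) ^ (p * a) *
        heckeBetaBar Qb M p (grdQ M (grdi_mem_j M)) ∈
      grdB (M * p) A (grdQ (M * p) (ttrc_serMem M p hmem)) := by
  have h1 := ttrc_h_div_isInt hA a ha haM hmem
  have h2 := ttrc_G_mul_Y_isInt hA a ha haM hmem
  have hG : heckeBetaBar Qb M p (grdQ M hmem) ≠ 0 := by
    intro h0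
    have h3 : grdQ M hmem = 0 := by
      have := (heckeBetaBar Qb M p).toRingHom.injective
      exact this (by rw [AlgHom.toRingHom_eq_coe, RingHom.coe_coe, h0, map_zero])
    have h4 := congrArg (fun x : modularFunctionFieldBar M => (x : LaurentSeries Qb)) h3
    have h5 : ((grdQ M hmem : modularFunctionFieldBar M) : LaurentSeries Qb) =
        grdSer (s18hq a (s18hExp a) ℤ) Qb := rfl
    simp only [h5] at h4
    have h6 := ttrc_pole_h a (s18hExp a) Qb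
    rw [h4] at h6
    simp at h6
  have e : grdQ (M * p) (ttrc_serMem M p hmem) ^ (p * a) *
      heckeBetaBar Qb M p (grdQ M (grdi_mem_j M)) =
      (grdQ (M * p) (ttrc_serMem M p hmem) ^ p * (heckeBetaBar Qb M p (grdQ M hmem))⁻¹) ^ a *
        (heckeBetaBar Qb M p (grdQ M hmem) ^ a *
          heckeBetaBar Qb M p (grdQ M (grdi_mem_j M))) := by
    rw [mul_pow, inv_pow, ← pow_mul]
    field_simp
  rw [e]
  exact Subring.mul_mem _ (Subring.pow_mem _ h1 a) h2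

/-- `(α h)^(p a) · u₁ ∈ B(α h)`, `u₁ = β j - (α j)^p` -/
theorem ttrc_h_mul_u1_isInt (hA : A.LiesOverPrime p)
    (a : ℕ) [NeZero a] (ha : (p = 2 ∧ a = 3) ∨ (p = 3 ∧ a = 2)) (haM : a ∣ M)
    (hmem : GrdSerMem M (s18hq a (s18hExp a) ℤ)) :
    grdQ (M * p) (ttrc_serMem M p hmem) ^ (p * a) *
        (heckeBetaBar Qb M p (grdQ M (grdi_mem_j M)) -
          grdQ (M * p) (ttrc_serMem M p (grdi_mem_j M)) ^ p) ∈
      grdB (M * p) A (grdQ (M * p) (ttrc_serMem M p hmem)) := by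
  have ha23 : a = 2 ∨ a = 3 := by
    rcases ha with ⟨-, h⟩ | ⟨-, h⟩
    · exact Or.inr h
    · exact Or.inl h
  have h1 := ttrc_h_mul_Y_isInt hA a ha haM hmem
  have h2 := ttrc_h_mul_J_isInt (p := p) (A := A) a ha23 hmem
  have e : grdQ (M * p) (ttrc_serMem M p hmem) ^ (p * a) *
      (heckeBetaBar Qb M p (grdQ M (grdi_mem_j M)) -
        grdQ (M * p) (ttrc_serMem M p (grdi_mem_j M)) ^ p) =
      grdQ (M * p) (ttrc_serMem M p hmem) ^ (p * a) *
          heckeBetaBar Qb M p (grdQ M (grdi_mem_j M)) -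
        (grdQ (M * p) (ttrc_serMem M p hmem) ^ a *
          grdQ (M * p) (ttrc_serMem M p (grdi_mem_j M))) ^ p := by
    rw [mul_sub, mul_pow, ← pow_mul, mul_comm a p]
  rw [e]
  exact Subring.sub_mem _ h1 (Subring.pow_mem _ h2 p)

/-- `(α h)^(p² a) · u₂ ∈ B(α h)`, `u₂ = (β j)^p - α j` -/
theorem ttrc_h_mul_u2_isInt (hA : A.LiesOverPrime p)
    (a : ℕ) [NeZero a] (ha : (p = 2 ∧ a = 3) ∨ (p = 3 ∧ a = 2)) (haM : a ∣ M)
    (hmem : GrdSerMem M (s18hq a (s18hExp a) ℤ)) :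
    grdQ (M * p) (ttrc_serMem M p hmem) ^ (p * p * a) *
        (heckeBetaBar Qb M p (grdQ M (grdi_mem_j M)) ^ p -
          grdQ (M * p) (ttrc_serMem M p (grdi_mem_j M))) ∈
      grdB (M * p) A (grdQ (M * p) (ttrc_serMem M p hmem)) := by
  have ha23 : a = 2 ∨ a = 3 := by
    rcases ha with ⟨-, h⟩ | ⟨-, h⟩
    · exact Or.inr h
    · exact Or.inl h
  have h1 := ttrc_h_mul_Y_isInt hA a ha haM hmem
  have h2 := ttrc_h_mul_J_isInt (p := p) (A := A) a ha23 hmem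
  have hp1 : 1 ≤ p * p := Nat.mul_pos (Fact.out : p.Prime).pos (Fact.out : p.Prime).pos
  obtain ⟨k, hk⟩ : ∃ k, p * p = k + 1 := ⟨p * p - 1, by omega⟩
  have e : grdQ (M * p) (ttrc_serMem M p hmem) ^ (p * p * a) *
      (heckeBetaBar Qb M p (grdQ M (grdi_mem_j M)) ^ p -
        grdQ (M * p) (ttrc_serMem M p (grdi_mem_j M))) =
      (grdQ (M * p) (ttrc_serMem M p hmem) ^ (p * a) *
          heckeBetaBar Qb M p (grdQ M (grdi_mem_j M))) ^ p -
        grdQ (M * p) (ttrc_serMem M p hmem) ^ (k * a) *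
          (grdQ (M * p) (ttrc_serMem M p hmem) ^ a *
            grdQ (M * p) (ttrc_serMem M p (grdi_mem_j M))) := by
    have hexp : p * p * a = k * a + a := by rw [hk]; ring
    have hpow : (grdQ (M * p) (ttrc_serMem M p hmem) ^ (p * a)) ^ p =
        grdQ (M * p) (ttrc_serMem M p hmem) ^ (k * a) *
          grdQ (M * p) (ttrc_serMem M p hmem) ^ a := by
      rw [← pow_mul, ← pow_add, ← hexp]
      congr 1
      ring
    rw [mul_pow, hpow, hexp, pow_add]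
    ring
  rw [e]
  exact Subring.sub_mem _ (Subring.pow_mem _ h1 p)
    (Subring.mul_mem _ (Subring.pow_mem _ (grda_isInt_self (M * p) A _) _) h2)

end Mult

/-! ## the inverse chart : `j h_a⁻¹ = R*(h_a⁻¹)` -/

section IdInv

variable (N : ℕ) [NeZero N]

/-- `h_a ≠ 0` -/
theorem ttrc_grdQ_h_ne_zero (a : ℕ) [NeZero a] (hh : GrdSerMem N (s18hq a (s18hExp a) ℤ)) :
    grdQ N hh ≠ 0 := by
  intro h3
  have h4 := congrArg (fun x : modularFunctionFieldBar N => (x : LaurentSeries Qb)) h3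
  have h5 : ((grdQ N hh : modularFunctionFieldBar N) : LaurentSeries Qb) =
      grdSer (s18hq a (s18hExp a) ℤ) Qb := rfl
  simp only [h5] at h4
  have h6 := ttrc_pole_h a (s18hExp a) Qb
  rw [h4] at h6
  simp at h6

/-- `j h_a⁻¹ ∈ ℤ[h_a⁻¹]` at any level. -/
theorem ttrc_hinv_mul_j_mem (a : ℕ) [NeZero a] (ha : a = 2 ∨ a = 3)
    (hj : GrdSerMem N (jqModC ℤ)) (hh : GrdSerMem N (s18hq a (s18hExp a) ℤ))
    {τ' : LaurentSeries ℤ} (hτ' : s18hq a (s18hExp a) ℤ * τ' = 1) (hh' : GrdSerMem N τ')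
    (S : Subring (modularFunctionFieldBar N)) (hS : grdQ N hh' ∈ S) :
    grdQ N hh' * grdQ N hj ∈ S := by
  have hne := ttrc_grdQ_h_ne_zero N a hh
  have hinv : grdQ N hh' = (grdQ N hh)⁻¹ := grdis_grdQ_inv N hτ' hh hh'
  have hHH' : grdQ N hh * grdQ N hh' = 1 := by rw [hinv, mul_inv_cancel₀ hne]
  have hJ : ((grdQ N hj : modularFunctionFieldBar N) : LaurentSeries Qb) = jqModC Qb := by
    show grdSer (jqModC ℤ) Qb = _
    exact grdi_grdSer_j Qb
  have hH : ((grdQ N hh : modularFunctionFieldBar N) : LaurentSeries Qb) =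
      s18hq a (s18hExp a) Qb := by
    show grdSer (s18hq a (s18hExp a) ℤ) Qb = _
    exact grdis_grdSer_hq a _ Qb
  rcases ha with rfl | rfl
  · have e : grdQ N hh ^ 2 * grdQ N hj = (grdQ N hh + 256) ^ 3 := by
      apply Subtype.ext
      push_cast
      rw [hJ, hH]
      have := grdis_id_two Qb
      rw [show s18hExp 2 = 24 from rfl]
      rw [mul_comm]
      exact this
    have e' : grdQ N hh' * grdQ N hj = (1 + 256 * grdQ N hh') ^ 3 := by
      have h1 : grdQ N hh' ^ 3 * grdQ N hh ^ 2 = grdQ N hh' := by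
        calc grdQ N hh' ^ 3 * grdQ N hh ^ 2 = grdQ N hh' * (grdQ N hh * grdQ N hh') ^ 2 := by ring
          _ = grdQ N hh' := by rw [hHH', one_pow, mul_one]
      calc grdQ N hh' * grdQ N hj = grdQ N hh' ^ 3 * (grdQ N hh ^ 2 * grdQ N hj) := by
            rw [← mul_assoc, h1]
        _ = (grdQ N hh' * (grdQ N hh + 256)) ^ 3 := by rw [e, mul_pow]
        _ = (1 + 256 * grdQ N hh') ^ 3 := by
            rw [mul_add, mul_comm (grdQ N hh') (grdQ N hh), hHH', mul_comm]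
    rw [e']
    exact S.pow_mem (S.add_mem S.one_mem
      (S.mul_mem (by exact_mod_cast natCast_mem S 256) hS)) 3
  · have e : grdQ N hh ^ 3 * grdQ N hj = (grdQ N hh + 27) * (grdQ N hh + 243) ^ 3 := by
      apply Subtype.ext
      push_cast
      rw [hJ, hH]
      have := grdis_id_three Qb
      rw [show s18hExp 3 = 12 from rfl]
      rw [mul_comm]
      exact this
    have e' : grdQ N hh' * grdQ N hj =
        (1 + 27 * grdQ N hh') * (1 + 243 * grdQ N hh') ^ 3 := by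
      have h1 : grdQ N hh' ^ 4 * grdQ N hh ^ 3 = grdQ N hh' := by
        calc grdQ N hh' ^ 4 * grdQ N hh ^ 3 = grdQ N hh' * (grdQ N hh * grdQ N hh') ^ 3 := by ring
          _ = grdQ N hh' := by rw [hHH', one_pow, mul_one]
      calc grdQ N hh' * grdQ N hj = grdQ N hh' ^ 4 * (grdQ N hh ^ 3 * grdQ N hj) := by
            rw [← mul_assoc, h1]
        _ = (grdQ N hh' * (grdQ N hh + 27)) * (grdQ N hh' * (grdQ N hh + 243)) ^ 3 := by
            rw [e]; ring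
        _ = (1 + 27 * grdQ N hh') * (1 + 243 * grdQ N hh') ^ 3 := by
            rw [mul_add, mul_add, mul_comm (grdQ N hh') (grdQ N hh), hHH',
              mul_comm (grdQ N hh') 27, mul_comm (grdQ N hh') 243]
    rw [e']
    exact S.mul_mem (S.add_mem S.one_mem (S.mul_mem (by exact_mod_cast natCast_mem S 27) hS))
      (S.pow_mem (S.add_mem S.one_mem
        (S.mul_mem (by exact_mod_cast natCast_mem S 243) hS)) 3)

end IdInv

/-! ## multiples in the chart ring of `H' = α h_a⁻¹` -/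

section MultInv

variable {M : ℕ} [NeZero M] {p : ℕ} [Fact p.Prime] {A : ValuationSubring Qb}

/-- `α h⁻¹ · α j ∈ B(α h⁻¹)` -/
theorem ttrc_hinv_mul_J_isInt (a : ℕ) [NeZero a] (ha : a = 2 ∨ a = 3)
    (hmem : GrdSerMem M (s18hq a (s18hExp a) ℤ))
    {τ' : LaurentSeries ℤ} (hτ' : s18hq a (s18hExp a) ℤ * τ' = 1) (hmem' : GrdSerMem M τ') :
    grdQ (M * p) (ttrc_serMem M p hmem') * grdQ (M * p) (ttrc_serMem M p (grdi_mem_j M)) ∈
      grdB (M * p) A (grdQ (M * p) (ttrc_serMem M p hmem')) :=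
  ttrc_hinv_mul_j_mem (M * p) a ha _ (ttrc_serMem M p hmem) hτ' _ _ (grda_isInt_self (M * p) A _)

/-- `β h⁻¹ · β j ∈ B(α h⁻¹)` -/
theorem ttrc_Ginv_mul_Y_isInt (hA : A.LiesOverPrime p)
    (a : ℕ) [NeZero a] (ha : (p = 2 ∧ a = 3) ∨ (p = 3 ∧ a = 2)) (haM : a ∣ M)
    (hmem : GrdSerMem M (s18hq a (s18hExp a) ℤ))
    {τ' : LaurentSeries ℤ} (hτ' : s18hq a (s18hExp a) ℤ * τ' = 1) (hmem' : GrdSerMem M τ') :
    heckeBetaBar Qb M p (grdQ M hmem') * heckeBetaBar Qb M p (grdQ M (grdi_mem_j M)) ∈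
      grdB (M * p) A (grdQ (M * p) (ttrc_serMem M p hmem')) := by
  have ha23 : a = 2 ∨ a = 3 := by
    rcases ha with ⟨-, h⟩ | ⟨-, h⟩
    · exact Or.inr h
    · exact Or.inl h
  have h := ttrc_hinv_mul_j_mem M a ha23 (grdi_mem_j M) hmem hτ' hmem'
    ((grdB (M * p) A (grdQ (M * p) (ttrc_serMem M p hmem'))).comap
      (heckeBetaBar Qb M p).toRingHom)
    (by
      rw [Subring.mem_comap]
      exact ttrc_be_hinv_isInt hA a ha haM hmem hτ' hmem')
  rw [Subring.mem_comap] at h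
  simpa only [AlgHom.toRingHom_eq_coe, RingHom.coe_coe, map_mul] using h

/-- `β j · (α h⁻¹)^p ∈ B(α h⁻¹)` -/
theorem ttrc_hinv_mul_Y_isInt (hA : A.LiesOverPrime p)
    (a : ℕ) [NeZero a] (ha : (p = 2 ∧ a = 3) ∨ (p = 3 ∧ a = 2)) (haM : a ∣ M)
    (hmem : GrdSerMem M (s18hq a (s18hExp a) ℤ))
    {τ' : LaurentSeries ℤ} (hτ' : s18hq a (s18hExp a) ℤ * τ' = 1) (hmem' : GrdSerMem M τ') :
    heckeBetaBar Qb M p (grdQ M (grdi_mem_j M)) * grdQ (M * p) (ttrc_serMem M p hmem') ^ p ∈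
      grdB (M * p) A (grdQ (M * p) (ttrc_serMem M p hmem')) := by
  have h1 := ttrc_hinv_div_isInt hA a ha haM hmem hτ' hmem'
  have h2 := ttrc_Ginv_mul_Y_isInt hA a ha haM hmem hτ' hmem'
  have hne := ttrc_grdQ_h_ne_zero M a hmem
  have hinv : grdQ M hmem' = (grdQ M hmem)⁻¹ := grdis_grdQ_inv M hτ' hmem hmem'
  have hGG' : heckeBetaBar Qb M p (grdQ M hmem) * heckeBetaBar Qb M p (grdQ M hmem') = 1 := by
    rw [← map_mul, hinv, mul_inv_cancel₀ hne, map_one]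
  have e : heckeBetaBar Qb M p (grdQ M (grdi_mem_j M)) *
      grdQ (M * p) (ttrc_serMem M p hmem') ^ p =
      (heckeBetaBar Qb M p (grdQ M hmem') * heckeBetaBar Qb M p (grdQ M (grdi_mem_j M))) *
        (heckeBetaBar Qb M p (grdQ M hmem) * grdQ (M * p) (ttrc_serMem M p hmem') ^ p) := by
    calc heckeBetaBar Qb M p (grdQ M (grdi_mem_j M)) *
          grdQ (M * p) (ttrc_serMem M p hmem') ^ p
        = (heckeBetaBar Qb M p (grdQ M hmem) * heckeBetaBar Qb M p (grdQ M hmem')) *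
          (heckeBetaBar Qb M p (grdQ M (grdi_mem_j M)) *
            grdQ (M * p) (ttrc_serMem M p hmem') ^ p) := by rw [hGG', one_mul]
      _ = _ := by ring
  rw [e]
  exact Subring.mul_mem _ h2 h1

/-- `u₁ · (α h⁻¹)^p ∈ B(α h⁻¹)` -/
theorem ttrc_hinv_mul_u1_isInt (hA : A.LiesOverPrime p)
    (a : ℕ) [NeZero a] (ha : (p = 2 ∧ a = 3) ∨ (p = 3 ∧ a = 2)) (haM : a ∣ M)
    (hmem : GrdSerMem M (s18hq a (s18hExp a) ℤ))
    {τ' : LaurentSeries ℤ} (hτ' : s18hq a (s18hExp a) ℤ * τ' = 1) (hmem' : GrdSerMem M τ') :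
    (heckeBetaBar Qb M p (grdQ M (grdi_mem_j M)) -
        grdQ (M * p) (ttrc_serMem M p (grdi_mem_j M)) ^ p) *
        grdQ (M * p) (ttrc_serMem M p hmem') ^ p ∈
      grdB (M * p) A (grdQ (M * p) (ttrc_serMem M p hmem')) := by
  have ha23 : a = 2 ∨ a = 3 := by
    rcases ha with ⟨-, h⟩ | ⟨-, h⟩
    · exact Or.inr h
    · exact Or.inl h
  have h1 := ttrc_hinv_mul_Y_isInt hA a ha haM hmem hτ' hmem'
  have h2 := ttrc_hinv_mul_J_isInt (p := p) (A := A) a ha23 hmem hτ' hmem'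
  have e : (heckeBetaBar Qb M p (grdQ M (grdi_mem_j M)) -
        grdQ (M * p) (ttrc_serMem M p (grdi_mem_j M)) ^ p) *
        grdQ (M * p) (ttrc_serMem M p hmem') ^ p =
      heckeBetaBar Qb M p (grdQ M (grdi_mem_j M)) * grdQ (M * p) (ttrc_serMem M p hmem') ^ p -
        (grdQ (M * p) (ttrc_serMem M p hmem') *
          grdQ (M * p) (ttrc_serMem M p (grdi_mem_j M))) ^ p := by
    ring
  rw [e]
  exact Subring.sub_mem _ h1 (Subring.pow_mem _ h2 p)

/-- `u₂ · (α h⁻¹)^(p²) ∈ B(α h⁻¹)` -/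
theorem ttrc_hinv_mul_u2_isInt (hA : A.LiesOverPrime p)
    (a : ℕ) [NeZero a] (ha : (p = 2 ∧ a = 3) ∨ (p = 3 ∧ a = 2)) (haM : a ∣ M)
    (hmem : GrdSerMem M (s18hq a (s18hExp a) ℤ))
    {τ' : LaurentSeries ℤ} (hτ' : s18hq a (s18hExp a) ℤ * τ' = 1) (hmem' : GrdSerMem M τ') :
    (heckeBetaBar Qb M p (grdQ M (grdi_mem_j M)) ^ p -
        grdQ (M * p) (ttrc_serMem M p (grdi_mem_j M))) *
        grdQ (M * p) (ttrc_serMem M p hmem') ^ (p * p) ∈
      grdB (M * p) A (grdQ (M * p) (ttrc_serMem M p hmem')) := by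
  have ha23 : a = 2 ∨ a = 3 := by
    rcases ha with ⟨-, h⟩ | ⟨-, h⟩
    · exact Or.inr h
    · exact Or.inl h
  have h1 := ttrc_hinv_mul_Y_isInt hA a ha haM hmem hτ' hmem'
  have h2 := ttrc_hinv_mul_J_isInt (p := p) (A := A) a ha23 hmem hτ' hmem'
  have hp1 : 1 ≤ p * p := Nat.mul_pos (Fact.out : p.Prime).pos (Fact.out : p.Prime).pos
  obtain ⟨k, hk⟩ : ∃ k, p * p = k + 1 := ⟨p * p - 1, by omega⟩
  have e : (heckeBetaBar Qb M p (grdQ M (grdi_mem_j M)) ^ p -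
        grdQ (M * p) (ttrc_serMem M p (grdi_mem_j M))) *
        grdQ (M * p) (ttrc_serMem M p hmem') ^ (p * p) =
      (heckeBetaBar Qb M p (grdQ M (grdi_mem_j M)) *
          grdQ (M * p) (ttrc_serMem M p hmem') ^ p) ^ p -
        grdQ (M * p) (ttrc_serMem M p hmem') ^ k *
          (grdQ (M * p) (ttrc_serMem M p hmem') *
            grdQ (M * p) (ttrc_serMem M p (grdi_mem_j M))) := by
    rw [mul_pow, ← pow_mul, hk, pow_succ]
    ring
  rw [e]
  exact Subring.sub_mem _ (Subring.pow_mem _ h1 p)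
    (Subring.mul_mem _ (Subring.pow_mem _ (grda_isInt_self (M * p) A _) _) h2)

end MultInv

end Fermat.Agent.TT
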