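import Mathlib
import Fermat.Agent.TT.Red2.ChartSmallDiv
import Fermat.Agent.TT.Red2.ChartAll

/-!
# Program TT (S33), G/Red2, `p ∈ {2, 3}` (part 5) : `TtrpChart` FOR THE FOUR `h_a`-CHARTS (ROUTE J)

Owner: helper17.  Namespace `Fermat.Agent.TT`, prefix `ttrc`.  Imports helper12's `ChartAll`
(`ttr_chart₁`, `ttr_chart₂` : `TtrpChart` from `v ∈ B` and `red_other v = 0`) by reference.

ROUTE J (helper13's audit, PM R37) : at `p = 3` (and `p = 2`) Layer B keeps the Kronecker pair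
`(j, β j)` of `j`, the chart coordinate is `h = h_a` (`a = 5 - p ∣ M`), and

  `v₁ = (α h)^N u₂`,  `v₂ = (β h)^N u₁ = - w v₁`        (`u₁ = Y - J^p`, `u₂ = Y^p - J`)

for ANY `N ≥ p² a` (e.g. helper13's `N = 2 p (p + 1) + 2` at `a = 2`).

* `ttrc_v1_mem`, `ttrc_v2_mem` : `v₁ ∈ B(α h)`, `v₂ ∈ B(β h)` (`v_int`; from `ChartSmallDiv`);
  `ttrc_w_v1`, `ttrc_red_w_v1`, `ttrc_red_v2` : `w v₁ = - v₂`, `red₂ v₁ = 0`, `red₁ v₂ = 0` (any chart);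
* **`ttrc_chart_h₁`, `ttrc_chart_h₂`** : the two `TtrpChart` structures of the chart `h_a`;
* the inverse chart `h_a⁻¹` : `v₁' = (α h⁻¹)^N u₂`, `v₂' = (β h⁻¹)^N u₁`, `N ≥ p²` :
  `ttrc_v1inv_mem`, `ttrc_v2inv_mem`, **`ttrc_chart_hinv₁`, `ttrc_chart_hinv₂`**.
-/

set_option autoImplicit false
set_option linter.unusedSectionVars false
set_option linter.unusedVariables false
set_option linter.style.haveILetI false
set_option synthInstance.maxHeartbeats 400000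

noncomputable section

namespace Fermat.Agent.TT

open Polynomial ModularCurve AlgebraicCurve IsLocalRing IntermediateField Fermat.Agent.S24
  Fermat.Agent.G Fermat.Agent.S18 Fermat.Agent.SS Fermat.Agent.SQ

local notation "Qb" => AlgebraicClosure ℚ

section Inst

variable (M : ℕ) [NeZero M] {p : ℕ} [Fact p.Prime] [NeZero p] (A : ValuationSubring Qb)

/-- `u₂` in the spelling of `ChartSmallDiv` -/
theorem ttrc_U2_eq : ttrU2 M A (p := p) =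
    heckeBetaBar Qb M p (grdQ M (grdi_mem_j M)) ^ p -
      grdQ (M * p) (ttrc_serMem M p (grdi_mem_j M)) := by
  rw [← ttrc_al_grdQ M p (grdi_mem_j M)]
  rfl

/-- `u₁` in the spelling of `ChartSmallDiv` -/
theorem ttrc_U1_eq : ttrU1 M A (p := p) =
    heckeBetaBar Qb M p (grdQ M (grdi_mem_j M)) -
      grdQ (M * p) (ttrc_serMem M p (grdi_mem_j M)) ^ p := by
  rw [← ttrc_al_grdQ M p (grdi_mem_j M)]
  rfl

/-- **ROUTE J, `v_int` (index 1)** : `v₁ = (α h)^N u₂ ∈ B(α h)` for `N ≥ p² a`. -/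
theorem ttrc_v1_mem (hA : A.LiesOverPrime p)
    (a : ℕ) [NeZero a] (ha : (p = 2 ∧ a = 3) ∨ (p = 3 ∧ a = 2)) (haM : a ∣ M)
    (hmem : GrdSerMem M (s18hq a (s18hExp a) ℤ)) (N : ℕ) (hN : p * p * a ≤ N) :
    heckeAlphaBar Qb M p (grdQ M hmem) ^ N * ttrU2 M A ∈
      grdB (M * p) A (heckeAlphaBar Qb M p (grdQ M hmem)) := by
  obtain ⟨k, rfl⟩ := Nat.exists_eq_add_of_le hN
  rw [ttrc_U2_eq, ttrc_al_grdQ M p hmem (ttrc_serMem M p hmem), pow_add,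
    mul_comm (grdQ (M * p) (ttrc_serMem M p hmem) ^ (p * p * a)), mul_assoc]
  exact Subring.mul_mem _ (Subring.pow_mem _ (grda_isInt_self (M * p) A _) k)
    (ttrc_h_mul_u2_isInt hA a ha haM hmem)

/-- `v₁' = (α h)^N u₁ ∈ B(α h)` for `N ≥ p a`. -/
theorem ttrc_v1'_mem (hA : A.LiesOverPrime p)
    (a : ℕ) [NeZero a] (ha : (p = 2 ∧ a = 3) ∨ (p = 3 ∧ a = 2)) (haM : a ∣ M)
    (hmem : GrdSerMem M (s18hq a (s18hExp a) ℤ)) (N : ℕ) (hN : p * a ≤ N) :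
    heckeAlphaBar Qb M p (grdQ M hmem) ^ N * ttrU1 M A ∈
      grdB (M * p) A (heckeAlphaBar Qb M p (grdQ M hmem)) := by
  obtain ⟨k, rfl⟩ := Nat.exists_eq_add_of_le hN
  rw [ttrc_U1_eq, ttrc_al_grdQ M p hmem (ttrc_serMem M p hmem), pow_add,
    mul_comm (grdQ (M * p) (ttrc_serMem M p hmem) ^ (p * a)), mul_assoc]
  exact Subring.mul_mem _ (Subring.pow_mem _ (grda_isInt_self (M * p) A _) k)
    (ttrc_h_mul_u1_isInt hA a ha haM hmem)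

/-- `w v₁ = -(β h)^N u₁` -/
theorem ttrc_w_v1 (hpM : ¬ p ∣ M) {υ : LaurentSeries ℤ} (hυ : GrdSerMem M υ) (N : ℕ) :
    ttrW M hpM (heckeAlphaBar Qb M p (grdQ M hυ) ^ N * ttrU2 M A) =
      -(heckeBetaBar Qb M p (grdQ M hυ) ^ N * ttrU1 M A) := by
  rw [map_mul, map_pow, ttrW_alpha, ttrW_U2, mul_neg]

/-- **ROUTE J, `v_int` (index 2)** : `v₂ = (β h)^N u₁ ∈ B(β h)` for `N ≥ p² a`. -/
theorem ttrc_v2_mem (hpM : ¬ p ∣ M) (hA : A.LiesOverPrime p)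
    (a : ℕ) [NeZero a] (ha : (p = 2 ∧ a = 3) ∨ (p = 3 ∧ a = 2)) (haM : a ∣ M)
    (hmem : GrdSerMem M (s18hq a (s18hExp a) ℤ)) (N : ℕ) (hN : p * p * a ≤ N) :
    heckeBetaBar Qb M p (grdQ M hmem) ^ N * ttrU1 M A ∈
      grdB (M * p) A (heckeBetaBar Qb M p (grdQ M hmem)) := by
  have h := ttr_isInt_w M A hpM (ttrc_v1_mem M A hA a ha haM hmem N hN)
  rw [ttrW_alpha, ttrc_w_v1] at h
  have h2 := Subring.neg_mem (grdB (M * p) A (heckeBetaBar Qb M p (grdQ M hmem))) h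
  rwa [neg_neg] at h2

/-- `red₂ v₁ = 0` -/
theorem ttrc_red_w_v1 (hpM : ¬ p ∣ M) (hA : A.LiesOverPrime p) {υ : LaurentSeries ℤ}
    (hυ : GrdSerMem M υ) (N : ℕ)
    (h : ttrW M hpM (heckeAlphaBar Qb M p (grdQ M hυ) ^ N * ttrU2 M A) ∈ grdO (M * p) A) :
    ttrRed1 M A hA ⟨ttrW M hpM (heckeAlphaBar Qb M p (grdQ M hυ) ^ N * ttrU2 M A), h⟩ = 0 := by
  have hG : heckeBetaBar Qb M p (grdQ M hυ) ∈ grdO (M * p) A :=
    ttr_beta_mem M A (grdQ_mem_grdO M A hυ)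
  have e : (⟨ttrW M hpM (heckeAlphaBar Qb M p (grdQ M hυ) ^ N * ttrU2 M A), h⟩ :
      ↥(grdO (M * p) A)) =
      -(⟨heckeBetaBar Qb M p (grdQ M hυ), hG⟩ ^ N * ⟨ttrU1 M A, ttrU1_mem M A⟩) :=
    Subtype.ext (ttrc_w_v1 M A hpM hυ N)
  rw [e, map_neg, map_mul, ttrRed1_U1, mul_zero, neg_zero]

/-- `red₁ v₂ = 0` -/
theorem ttrc_red_v2 (hA : A.LiesOverPrime p) {υ : LaurentSeries ℤ}
    (hυ : GrdSerMem M υ) (N : ℕ)
    (h : heckeBetaBar Qb M p (grdQ M hυ) ^ N * ttrU1 M A ∈ grdO (M * p) A) :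
    ttrRed1 M A hA ⟨heckeBetaBar Qb M p (grdQ M hυ) ^ N * ttrU1 M A, h⟩ = 0 := by
  have hG : heckeBetaBar Qb M p (grdQ M hυ) ∈ grdO (M * p) A :=
    ttr_beta_mem M A (grdQ_mem_grdO M A hυ)
  have e : (⟨heckeBetaBar Qb M p (grdQ M hυ) ^ N * ttrU1 M A, h⟩ : ↥(grdO (M * p) A)) =
      ⟨heckeBetaBar Qb M p (grdQ M hυ), hG⟩ ^ N * ⟨ttrU1 M A, ttrU1_mem M A⟩ := rfl
  rw [e, map_mul, ttrRed1_U1, mul_zero]

/-- **the `h_a`-chart, index 1** (`p ∈ {2,3}`, `a = 5 - p ∣ M`) : `v₁ = (α h)^N u₂`, `N ≥ p² a`. -/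
theorem ttrc_chart_h₁ (hpM : ¬ p ∣ M) (hA : A.LiesOverPrime p)
    (a : ℕ) [NeZero a] (ha : (p = 2 ∧ a = 3) ∨ (p = 3 ∧ a = 2)) (haM : a ∣ M)
    (N : ℕ) (hN : p * p * a ≤ N) :
    TtrpChart M p A (heckeAlphaBar Qb M p) (grd_chart_h M A a hpM hA ha haM).mem
      (grdO (M * p) A) (ttrRed1 M A hA)
      (heckeAlphaBar Qb M p (grdQ M (grd_chart_h M A a hpM hA ha haM).mem) ^ N * ttrU2 M A) :=
  ttr_chart₁ M A hpM hA (grd_chart_h M A a hpM hA ha haM) _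
    (ttrc_v1_mem M A hA a ha haM _ N hN) (ttrc_red_w_v1 M A hpM hA _ N)

/-- **the `h_a`-chart, index 2** : `v₂ = (β h)^N u₁`, `N ≥ p² a`. -/
theorem ttrc_chart_h₂ (hpM : ¬ p ∣ M) (hA : A.LiesOverPrime p)
    (a : ℕ) [NeZero a] (ha : (p = 2 ∧ a = 3) ∨ (p = 3 ∧ a = 2)) (haM : a ∣ M)
    (N : ℕ) (hN : p * p * a ≤ N) :
    TtrpChart M p A (heckeBetaBar Qb M p) (grd_chart_h M A a hpM hA ha haM).mem
      (ttrV2 M A hpM) (ttrRed2 M A hpM hA)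
      (heckeBetaBar Qb M p (grdQ M (grd_chart_h M A a hpM hA ha haM).mem) ^ N * ttrU1 M A) :=
  ttr_chart₂ M A hpM hA (grd_chart_h M A a hpM hA ha haM) _
    (ttrc_v2_mem M A hpM hA a ha haM _ N hN) (ttrc_red_v2 M A hA _ N)

/-- **the inverse chart, `v_int` (index 1)** : `v₁' = (α h⁻¹)^N u₂ ∈ B(α h⁻¹)` for `N ≥ p²`. -/
theorem ttrc_v1inv_mem (hA : A.LiesOverPrime p)
    (a : ℕ) [NeZero a] (ha : (p = 2 ∧ a = 3) ∨ (p = 3 ∧ a = 2)) (haM : a ∣ M)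
    (hmem : GrdSerMem M (s18hq a (s18hExp a) ℤ))
    {τ' : LaurentSeries ℤ} (hτ' : s18hq a (s18hExp a) ℤ * τ' = 1) (hmem' : GrdSerMem M τ')
    (N : ℕ) (hN : p * p ≤ N) :
    heckeAlphaBar Qb M p (grdQ M hmem') ^ N * ttrU2 M A ∈
      grdB (M * p) A (heckeAlphaBar Qb M p (grdQ M hmem')) := by
  obtain ⟨k, rfl⟩ := Nat.exists_eq_add_of_le hN
  rw [ttrc_U2_eq, ttrc_al_grdQ M p hmem' (ttrc_serMem M p hmem'), pow_add,
    mul_comm (grdQ (M * p) (ttrc_serMem M p hmem') ^ (p * p)), mul_assoc,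
    mul_comm (grdQ (M * p) (ttrc_serMem M p hmem') ^ (p * p))]
  exact Subring.mul_mem _ (Subring.pow_mem _ (grda_isInt_self (M * p) A _) k)
    (ttrc_hinv_mul_u2_isInt hA a ha haM hmem hτ' hmem')

/-- **the inverse chart, `v_int` (index 2)** : `v₂' = (β h⁻¹)^N u₁ ∈ B(β h⁻¹)` for `N ≥ p²`. -/
theorem ttrc_v2inv_mem (hpM : ¬ p ∣ M) (hA : A.LiesOverPrime p)
    (a : ℕ) [NeZero a] (ha : (p = 2 ∧ a = 3) ∨ (p = 3 ∧ a = 2)) (haM : a ∣ M)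
    (hmem : GrdSerMem M (s18hq a (s18hExp a) ℤ))
    {τ' : LaurentSeries ℤ} (hτ' : s18hq a (s18hExp a) ℤ * τ' = 1) (hmem' : GrdSerMem M τ')
    (N : ℕ) (hN : p * p ≤ N) :
    heckeBetaBar Qb M p (grdQ M hmem') ^ N * ttrU1 M A ∈
      grdB (M * p) A (heckeBetaBar Qb M p (grdQ M hmem')) := by
  have h := ttr_isInt_w M A hpM (ttrc_v1inv_mem M A hA a ha haM hmem hτ' hmem' N hN)
  rw [ttrW_alpha, ttrc_w_v1] at h
  have h2 := Subring.neg_mem (grdB (M * p) A (heckeBetaBar Qb M p (grdQ M hmem'))) h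
  rwa [neg_neg] at h2

/-- **the `h_a⁻¹`-chart, index 1** : `v₁' = (α h⁻¹)^N u₂`, `N ≥ p²`. -/
theorem ttrc_chart_hinv₁ (hpM : ¬ p ∣ M) (hA : A.LiesOverPrime p)
    (a : ℕ) [NeZero a] (ha : (p = 2 ∧ a = 3) ∨ (p = 3 ∧ a = 2)) (haM : a ∣ M)
    {τ' : LaurentSeries ℤ} (hτ' : s18hq a (s18hExp a) ℤ * τ' = 1)
    (N : ℕ) (hN : p * p ≤ N) :
    TtrpChart M p A (heckeAlphaBar Qb M p) (grd_chart_hinv M A a hpM hA ha haM τ' hτ').mem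
      (grdO (M * p) A) (ttrRed1 M A hA)
      (heckeAlphaBar Qb M p (grdQ M (grd_chart_hinv M A a hpM hA ha haM τ' hτ').mem) ^ N *
        ttrU2 M A) :=
  ttr_chart₁ M A hpM hA (grd_chart_hinv M A a hpM hA ha haM τ' hτ') _
    (ttrc_v1inv_mem M A hA a ha haM (grd_chart_h M A a hpM hA ha haM).mem hτ' _ N hN)
    (ttrc_red_w_v1 M A hpM hA _ N)

/-- **the `h_a⁻¹`-chart, index 2** : `v₂' = (β h⁻¹)^N u₁`, `N ≥ p²`. -/
theorem ttrc_chart_hinv₂ (hpM : ¬ p ∣ M) (hA : A.LiesOverPrime p)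
    (a : ℕ) [NeZero a] (ha : (p = 2 ∧ a = 3) ∨ (p = 3 ∧ a = 2)) (haM : a ∣ M)
    {τ' : LaurentSeries ℤ} (hτ' : s18hq a (s18hExp a) ℤ * τ' = 1)
    (N : ℕ) (hN : p * p ≤ N) :
    TtrpChart M p A (heckeBetaBar Qb M p) (grd_chart_hinv M A a hpM hA ha haM τ' hτ').mem
      (ttrV2 M A hpM) (ttrRed2 M A hpM hA)
      (heckeBetaBar Qb M p (grdQ M (grd_chart_hinv M A a hpM hA ha haM τ' hτ').mem) ^ N *
        ttrU1 M A) :=
  ttr_chart₂ M A hpM hA (grd_chart_hinv M A a hpM hA ha haM τ' hτ') _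
    (ttrc_v2inv_mem M A hpM hA a ha haM (grd_chart_h M A a hpM hA ha haM).mem hτ' _ N hN)
    (ttrc_red_v2 M A hA _ N)

end Inst

end Fermat.Agent.TT
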