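import Mathlib
import Fermat.Agent.TT.Red2.ChartSmallInst

/-!
# Program TT (S33), G/Red2, `p ∈ {2, 3}` (part 6) : THE MIXED MEMBERSHIPS OF ROUTE J

Owner: helper17.  Namespace `Fermat.Agent.TT`, prefix `ttrc`.

* `ttrc_grdB_trans` : `u₀ ∈ B(u)` ⟹ `B(u₀) ≤ B(u)` (transitivity of integrality);
* `ttrc_be_h_al`, `ttrc_be_hinv_al` : `hbe` in the `α`-spelling, `β h ∈ B(α h)`, `β h⁻¹ ∈ B(α h⁻¹)`;
* **`ttrc_v2_mem_al`** : `v₂ = (β h)^N u₁ ∈ B(α h)` for `N ≥ p² a` (`hv₂` of `ttra_red2_of_atlas`, of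
  `ttrli_const_cls`, of `ttru_hcenN_S_mul`, and of `hmix12`), and its sign variants;
* `ttrc_v1_mem_be` : `v₁ = (α h)^N u₂ ∈ B(β h)` (the `w`-twin);
* the same for the inverse chart `h⁻¹` (`N ≥ p²`).
-/

set_option autoImplicit false
set_option linter.unusedSectionVars false
set_option linter.unusedVariables false
set_option linter.style.haveILetI false
set_option synthInstance.maxHeartbeats 400000

noncomputable section

namespace Fermat.Agent.TT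

open Polynomial ModularCurve AlgebraicCurve IsLocalRing IntermediateField Fermat.Agent.S24
  Fermat.Agent.G Fermat.Agent.S18 Fermat.Agent.SS Fermat.Agent.SQ

local notation "Qb" => AlgebraicClosure ℚ

/-- TRANSITIVITY : if `u₀` is integral over `𝔸[u]` then `B(u₀) ≤ B(u)`. -/
theorem ttrc_grdB_trans (N : ℕ) [NeZero N] (A : ValuationSubring Qb)
    {u₀ u : modularFunctionFieldBar N} (hu : u₀ ∈ grdB N A u) : grdB N A u₀ ≤ grdB N A u :=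
  fun x hx => ttrc_isIntegralElem_map (grdInclA N A) (grdInclA N A) (RingHom.id _)
    (fun _ => rfl) u₀ u hu hx

section Mix

variable (M : ℕ) [NeZero M] {p : ℕ} [Fact p.Prime] [NeZero p] (A : ValuationSubring Qb)

/-- `hbe` for the chart `h_a`, `α`-spelling : `β h ∈ B(α h)` -/
theorem ttrc_be_h_al (hA : A.LiesOverPrime p)
    (a : ℕ) [NeZero a] (ha : (p = 2 ∧ a = 3) ∨ (p = 3 ∧ a = 2)) (haM : a ∣ M)
    (hmem : GrdSerMem M (s18hq a (s18hExp a) ℤ)) :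
    heckeBetaBar Qb M p (grdQ M hmem) ∈
      grdB (M * p) A (heckeAlphaBar Qb M p (grdQ M hmem)) := by
  rw [ttrc_al_grdQ M p hmem (ttrc_serMem M p hmem)]
  exact ttrc_be_h_isInt hA a ha haM hmem

/-- `hbe` for the chart `h_a⁻¹`, `α`-spelling : `β h⁻¹ ∈ B(α h⁻¹)` -/
theorem ttrc_be_hinv_al (hA : A.LiesOverPrime p)
    (a : ℕ) [NeZero a] (ha : (p = 2 ∧ a = 3) ∨ (p = 3 ∧ a = 2)) (haM : a ∣ M)
    (hmem : GrdSerMem M (s18hq a (s18hExp a) ℤ))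
    {τ' : LaurentSeries ℤ} (hτ' : s18hq a (s18hExp a) ℤ * τ' = 1) (hmem' : GrdSerMem M τ') :
    heckeBetaBar Qb M p (grdQ M hmem') ∈
      grdB (M * p) A (heckeAlphaBar Qb M p (grdQ M hmem')) := by
  rw [ttrc_al_grdQ M p hmem' (ttrc_serMem M p hmem')]
  exact ttrc_be_hinv_isInt hA a ha haM hmem hτ' hmem'

/-- `B(β h) ≤ B(α h)` -/
theorem ttrc_grdB_be_le_al (hA : A.LiesOverPrime p)
    (a : ℕ) [NeZero a] (ha : (p = 2 ∧ a = 3) ∨ (p = 3 ∧ a = 2)) (haM : a ∣ M)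
    (hmem : GrdSerMem M (s18hq a (s18hExp a) ℤ)) :
    grdB (M * p) A (heckeBetaBar Qb M p (grdQ M hmem)) ≤
      grdB (M * p) A (heckeAlphaBar Qb M p (grdQ M hmem)) :=
  ttrc_grdB_trans (M * p) A (ttrc_be_h_al M A hA a ha haM hmem)

/-- `B(α h) ≤ B(β h)` (the `w`-twin) -/
theorem ttrc_grdB_al_le_be (hpM : ¬ p ∣ M) (hA : A.LiesOverPrime p)
    (a : ℕ) [NeZero a] (ha : (p = 2 ∧ a = 3) ∨ (p = 3 ∧ a = 2)) (haM : a ∣ M)
    (hmem : GrdSerMem M (s18hq a (s18hExp a) ℤ)) :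
    grdB (M * p) A (heckeAlphaBar Qb M p (grdQ M hmem)) ≤
      grdB (M * p) A (heckeBetaBar Qb M p (grdQ M hmem)) := by
  have h := ttr_isInt_w M A hpM (ttrc_be_h_al M A hA a ha haM hmem)
  rw [ttrW_alpha, ttrW_beta] at h
  exact ttrc_grdB_trans (M * p) A h

/-- **`hv₂`** : `v₂ = (β h)^N u₁ ∈ B(α h)` for `N ≥ p² a`. -/
theorem ttrc_v2_mem_al (hpM : ¬ p ∣ M) (hA : A.LiesOverPrime p)
    (a : ℕ) [NeZero a] (ha : (p = 2 ∧ a = 3) ∨ (p = 3 ∧ a = 2)) (haM : a ∣ M)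
    (hmem : GrdSerMem M (s18hq a (s18hExp a) ℤ)) (N : ℕ) (hN : p * p * a ≤ N) :
    heckeBetaBar Qb M p (grdQ M hmem) ^ N * ttrU1 M A ∈
      grdB (M * p) A (heckeAlphaBar Qb M p (grdQ M hmem)) :=
  ttrc_grdB_be_le_al M A hA a ha haM hmem (ttrc_v2_mem M A hpM hA a ha haM hmem N hN)

/-- `- v₂ = w v₁ ∈ B(α h)` -/
theorem ttrc_neg_v2_mem_al (hpM : ¬ p ∣ M) (hA : A.LiesOverPrime p)
    (a : ℕ) [NeZero a] (ha : (p = 2 ∧ a = 3) ∨ (p = 3 ∧ a = 2)) (haM : a ∣ M)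
    (hmem : GrdSerMem M (s18hq a (s18hExp a) ℤ)) (N : ℕ) (hN : p * p * a ≤ N) :
    -(heckeBetaBar Qb M p (grdQ M hmem) ^ N * ttrU1 M A) ∈
      grdB (M * p) A (heckeAlphaBar Qb M p (grdQ M hmem)) :=
  Subring.neg_mem _ (ttrc_v2_mem_al M A hpM hA a ha haM hmem N hN)

/-- `(β h)^N (- u₁) ∈ B(α h)` -/
theorem ttrc_v2_mem_al_neg (hpM : ¬ p ∣ M) (hA : A.LiesOverPrime p)
    (a : ℕ) [NeZero a] (ha : (p = 2 ∧ a = 3) ∨ (p = 3 ∧ a = 2)) (haM : a ∣ M)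
    (hmem : GrdSerMem M (s18hq a (s18hExp a) ℤ)) (N : ℕ) (hN : p * p * a ≤ N) :
    heckeBetaBar Qb M p (grdQ M hmem) ^ N * -ttrU1 M A ∈
      grdB (M * p) A (heckeAlphaBar Qb M p (grdQ M hmem)) := by
  rw [mul_neg]
  exact ttrc_neg_v2_mem_al M A hpM hA a ha haM hmem N hN

/-- `v₁ = (α h)^N u₂ ∈ B(β h)` for `N ≥ p² a` (the `w`-twin of `hv₂`). -/
theorem ttrc_v1_mem_be (hpM : ¬ p ∣ M) (hA : A.LiesOverPrime p)
    (a : ℕ) [NeZero a] (ha : (p = 2 ∧ a = 3) ∨ (p = 3 ∧ a = 2)) (haM : a ∣ M)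
    (hmem : GrdSerMem M (s18hq a (s18hExp a) ℤ)) (N : ℕ) (hN : p * p * a ≤ N) :
    heckeAlphaBar Qb M p (grdQ M hmem) ^ N * ttrU2 M A ∈
      grdB (M * p) A (heckeBetaBar Qb M p (grdQ M hmem)) :=
  ttrc_grdB_al_le_be M A hpM hA a ha haM hmem (ttrc_v1_mem M A hA a ha haM hmem N hN)

/-- inverse chart : `v₂' = (β h⁻¹)^N u₁ ∈ B(α h⁻¹)` for `N ≥ p²`. -/
theorem ttrc_v2inv_mem_al (hpM : ¬ p ∣ M) (hA : A.LiesOverPrime p)
    (a : ℕ) [NeZero a] (ha : (p = 2 ∧ a = 3) ∨ (p = 3 ∧ a = 2)) (haM : a ∣ M)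
    (hmem : GrdSerMem M (s18hq a (s18hExp a) ℤ))
    {τ' : LaurentSeries ℤ} (hτ' : s18hq a (s18hExp a) ℤ * τ' = 1) (hmem' : GrdSerMem M τ')
    (N : ℕ) (hN : p * p ≤ N) :
    heckeBetaBar Qb M p (grdQ M hmem') ^ N * ttrU1 M A ∈
      grdB (M * p) A (heckeAlphaBar Qb M p (grdQ M hmem')) :=
  ttrc_grdB_trans (M * p) A (ttrc_be_hinv_al M A hA a ha haM hmem hτ' hmem')
    (ttrc_v2inv_mem M A hpM hA a ha haM hmem hτ' hmem' N hN)

end Mix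

end Fermat.Agent.TT
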