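import Mathlib
import Fermat.Agent.TT.Red2.GoodFibGlue
import Fermat.Agent.G.Red.InstSmall

/-!
# PROGRAM TT (S33), G/Red₂ LAYER B : `(B3)` ON A CHART WHICH IS NOT THE `j`-CHART  (ROUTE J)

Owner: helper13.  Namespace `Fermat.Agent.TT`, prefix `ttrph`.

For `p ∈ {2, 3}` the atlas of level `M` is `(h_a, h_a⁻¹)` (`a = 5 - p`), and the Kronecker pair
`(j₀, Y) = (j, j(q^p))` - the only one with a modular equation on main - is NOT integral over
`𝔸[h_a]` : `j h² = (h + 256)³` has poles at the cusps `h = 0` of the chart.  This file runs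
helper6's `(B3)` (`ttrp_fib`) for a chart coordinate `u₀` and a Kronecker pair `(j₀, Y)` related by
a CLEARING ELEMENT `e` : `e` and `e j₀` integral over `𝔸[u₀]` (`e = h²` for the Hauptmodul,
`e = 1` for `u₀ = j`).  The good function of the chart is

  `v = (φ e)^m (Y^p - φ j₀)`      (`m = q p + 1`, `q = p + 1 ≥ deg_X Φ`, makes `v` integral over
                                   `𝔸[φ u₀]`; at `p = 3` : `v = H^(2 (4·3 + 1)) (Y³ - J)`).

* `ttrph_val_inv`, `ttrph_val_div` : values of inverses and quotients;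
* `ttrphHom`, `ttrph_homog`, `ttrph_clear_int` : CLEARING (pure algebra) : `Y^d + ∑_{i<d} c_i(J) Y^i
  = 0` with `deg c_i ≤ q`, `J E(H) = G(H)` ⟹ `E(H)^q Y` is integral over `R[H]`;
* `ttrph_goodC_iff` : over a place `P₀` with `e(P₀)` a unit, the good loci of `(φ u₀, (φ e)^m v)`
  and of `(φ j₀, v)` agree;
* `ttrph_fib` : `(B3)` for `(φ u₀, (φ e)^m (Y^p - φ j₀))` : exactly one good place over `P₀`,
  unramified (from `ttrp_fib` with the `j₀`-"chart"), for `P₀` with good reduction off `ē = 0`;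
* `ttrph_transfer` : a good place of `(φ u₀, (φ e)^m v)` is a good place of `(φ j₀, v)` when
  `(φ e)^m v = (φ e) w`, `w` integral (the `∀`-good-`P` direction, helper8's 3970);
* `ttrph_hfib`, `ttrph_exists_fixed_good` : `(B3)` in the shape `hfib` of helper6's
  `ttrp_exists_fixed_good`, and the inertia-fixed good lifts;
* `ttrph_Z_int`, `ttrph_v_int`, `ttrph_v_factor`, `ttrph_transfer_kron` : `E(H)^q Y`,
  `E(H)^(q p + 1) (Y^p - J)` are integral over `𝔸[H]` (`v_int` of `TtrpChart`), the latter is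
  `E(H)` times an integral element, hence the transfer;
* `TtrphKron` : helper6's `TtrpKron` with the bound `deg_X Φ ≤ q` (`ttrph_kron_weaken`,
  `ttrph_kron_mono`, `ttrph_kron_exists`); `ttrph_kron_v_int`, `ttrph_kron_transfer`,
  `ttrph_kron_transfer_back`, `ttrph_kron_fib`, `ttrph_kron_exists_fixed_good` : the same from
  a Kronecker datum and a clearing relation `j₀ E(u₀) = G(u₀)`;
* `ttrph_h2_identity`, `ttrph_rel_two` : `j h₂² = (h₂ + 256)³` in `F_ℚ̄(M)`, i.e. the clearing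
  relation at `p = 3` with `E = X²`, `G = (X + 256)³` (`ttrph_h3_identity`, `ttrph_rel_three` :
  `j h₃³ = (h₃ + 27)(h₃ + 243)³` for `p = 2`); `ttrph_two_mul_j_isInt`, `ttrph_three_mul_j_isInt`;
* POWER FORM (`e^a j₀` integral instead of `e j₀`; ANY exponent `m`) : `ttrph_val_j`,
  `ttrph_fib_pow`, `ttrph_transfer_pow`, `ttrph_hfib_pow`, `ttrph_exists_fixed_good_pow`;
* **helper17's SPELLING `(φ h)^N (Y^p - φ j₀)`** (`e := h` the chart coordinate itself, PM R43/R45) :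
  `ttrph_hfib_h`, `ttrph_exists_fixed_good_h`, `ttrph_transfer_h` (index 1, `v₁ = (α h)^N u₂`) and
  the FLIPPED `(φ h)^N (φ j₀ - Y^p)` : `ttrph_hfib_h'`, `ttrph_exists_fixed_good_h'` (index 2,
  `v₂ = (β h)^N u₁`); `ttrph_goodC_neg`, `ttrph_goodC_flip`, `ttrph_S_flip`.
-/

set_option autoImplicit false
set_option linter.unusedSectionVars false
set_option linter.unusedVariables false
set_option linter.style.haveILetI false
set_option synthInstance.maxHeartbeats 400000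

noncomputable section

namespace Fermat.Agent.TT

open ModularCurve AlgebraicCurve IsLocalRing Polynomial Fermat.Agent.S18 Fermat.Agent.S24
  Fermat.Agent.G Fermat.Agent.FF Fermat.Agent.S05

local notation "Qb" => AlgebraicClosure ℚ

/-! ### values of inverses and quotients -/

section Val

variable {K F : Type*} [Field K] [Field F] [Algebra K F]

/-- a function with a nonzero value at `P` is a unit of the valuation ring. -/
theorem ttrph_valuation_eq_one (P : Place K F) {e : F} {ε : K} (hε : ε ≠ 0)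
    (he : GrdVal P e ε) : P.toValuationSubring.valuation e = 1 := by
  have h1 : P.toValuationSubring.valuation (e - algebraMap K F ε) < 1 :=
    (ValuationSubring.mem_nonunits_iff _).1 he
  have h2 : P.toValuationSubring.valuation (algebraMap K F ε) = 1 :=
    grdv_valuation_algebraMap P hε
  have h3 : P.toValuationSubring.valuation ((e - algebraMap K F ε) + algebraMap K F ε) =
      P.toValuationSubring.valuation (algebraMap K F ε) :=
    Valuation.map_add_eq_of_lt_right _ (by rw [h2]; exact h1)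
  rw [sub_add_cancel, h2] at h3
  exact h3

/-- the value of an inverse. -/
theorem ttrph_val_inv (P : Place K F) {e : F} {ε : K} (hε : ε ≠ 0) (he : GrdVal P e ε) :
    GrdVal P e⁻¹ ε⁻¹ := by
  have hv := ttrph_valuation_eq_one P hε he
  have he0 : e ≠ 0 := by
    rintro rfl
    rw [map_zero] at hv
    exact zero_ne_one hv
  have hε' : algebraMap K F ε ≠ 0 := by
    rw [Ne, map_eq_zero]
    exact hε
  show e⁻¹ - algebraMap K F ε⁻¹ ∈ _
  have h : e⁻¹ - algebraMap K F ε⁻¹ = -((e - algebraMap K F ε) * (e⁻¹ * algebraMap K F ε⁻¹)) := by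
    rw [map_inv₀]
    field_simp
    ring
  rw [h]
  refine neg_mem ?_
  rw [ValuationSubring.mem_nonunits_iff, map_mul, map_mul, map_inv₀, hv,
    grdv_valuation_algebraMap P (inv_ne_zero hε), inv_one, mul_one, mul_one]
  exact (ValuationSubring.mem_nonunits_iff _).1 he

/-- the value of a quotient : `e(P) = ε ≠ 0`, `(e y)(P) = ψ` ⟹ `y(P) = ψ / ε`. -/
theorem ttrph_val_div (P : Place K F) {e y : F} {ε ψ : K} (hε : ε ≠ 0) (he : GrdVal P e ε)
    (hey : GrdVal P (e * y) ψ) : GrdVal P y (ψ / ε) := by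
  have hv := ttrph_valuation_eq_one P hε he
  have he0 : e ≠ 0 := by
    rintro rfl
    rw [map_zero] at hv
    exact zero_ne_one hv
  have h1 := grdg_val_mul P (ttrph_val_inv P hε he) hey
  have h2 : e⁻¹ * (e * y) = y := by
    rw [← mul_assoc, inv_mul_cancel₀ he0, one_mul]
  rw [h2] at h1
  have h3 : ε⁻¹ * ψ = ψ / ε := by rw [div_eq_mul_inv, mul_comm]
  rw [h3] at h1
  exact h1

theorem ttrph_val_pow (P : Place K F) {x : F} {a : K} (h : GrdVal P x a) (n : ℕ) :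
    GrdVal P (x ^ n) (a ^ n) := by
  induction n with
  | zero =>
    rw [pow_zero, pow_zero]
    have := grdg_val_algebraMap P (1 : K)
    rwa [map_one] at this
  | succ n ih =>
    rw [pow_succ, pow_succ]
    exact grdg_val_mul P ih h

end Val

/-! ### clearing denominators -/

section Clear

variable {R S : Type*} [CommRing R] [CommRing S]

/-- the homogenisation of `c` of weight `N` at `(G, E)` : `∑_k c_k G^k E^(N - k)`. -/
def ttrphHom (E G : R[X]) (N : ℕ) (c : R[X]) : R[X] :=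
  ∑ k ∈ Finset.range (N + 1), C (c.coeff k) * G ^ k * E ^ (N - k)

/-- `E(H)^N c(J) = hom_N(c)(H)` when `J E(H) = G(H)` and `deg c ≤ N`. -/
theorem ttrph_homog (f : R →+* S) (H J : S) (E G : R[X])
    (hrel : J * E.eval₂ f H = G.eval₂ f H) (N : ℕ) (c : R[X]) (hc : c.natDegree ≤ N) :
    (ttrphHom E G N c).eval₂ f H = E.eval₂ f H ^ N * c.eval₂ f J := by
  unfold ttrphHom
  rw [Polynomial.eval₂_finsetSum, Polynomial.eval₂_eq_sum_range' f (Nat.lt_succ_of_le hc),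
    Finset.mul_sum]
  refine Finset.sum_congr rfl fun k hk => ?_
  have hk' : k ≤ N := Nat.lt_succ_iff.mp (Finset.mem_range.mp hk)
  rw [Polynomial.eval₂_mul, Polynomial.eval₂_mul, Polynomial.eval₂_C, Polynomial.eval₂_pow,
    Polynomial.eval₂_pow, ← hrel]
  have : E.eval₂ f H ^ N = E.eval₂ f H ^ k * E.eval₂ f H ^ (N - k) := by
    rw [← pow_add, Nat.add_sub_cancel' hk']
  rw [this]
  ring

/-- **CLEARING** : if `Y^d + ∑_{i<d} c_i(J) Y^i = 0` with `deg c_i ≤ q` and `J E(H) = G(H)`, then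
`E(H)^q Y` is integral over `R[H]`. -/
theorem ttrph_clear_int (f : R →+* S) (H J Y : S) (E G : R[X])
    (hrel : J * E.eval₂ f H = G.eval₂ f H) (d q : ℕ) (c : ℕ → R[X])
    (hc : ∀ i < d, (c i).natDegree ≤ q)
    (hroot : Y ^ d + ∑ i ∈ Finset.range d, (c i).eval₂ f J * Y ^ i = 0) :
    (Polynomial.eval₂RingHom f H).IsIntegralElem (E.eval₂ f H ^ q * Y) := by
  set Ψ : R[X][X] := X ^ d + ∑ i ∈ Finset.range d, C (ttrphHom E G (q * (d - i)) (c i)) * X ^ i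
    with hΨ
  have hdeg : (∑ i ∈ Finset.range d, C (ttrphHom E G (q * (d - i)) (c i)) * X ^ i :
      R[X][X]).degree < d := by
    refine lt_of_le_of_lt (Polynomial.degree_sum_le _ _) ?_
    refine (Finset.sup_lt_iff (WithBot.bot_lt_coe d)).2 ?_
    intro i hi
    refine lt_of_le_of_lt (Polynomial.degree_C_mul_X_pow_le i _) ?_
    exact WithBot.coe_lt_coe.2 (Finset.mem_range.mp hi)
  refine ⟨Ψ, Polynomial.monic_X_pow_add hdeg, ?_⟩
  rw [hΨ, Polynomial.eval₂_add, Polynomial.eval₂_pow, Polynomial.eval₂_X,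
    Polynomial.eval₂_finsetSum]
  have hterm : ∀ i ∈ Finset.range d,
      Polynomial.eval₂ (Polynomial.eval₂RingHom f H) (E.eval₂ f H ^ q * Y)
        (C (ttrphHom E G (q * (d - i)) (c i)) * X ^ i) =
      E.eval₂ f H ^ (q * d) * ((c i).eval₂ f J * Y ^ i) := by
    intro i hi
    have hi' : i < d := Finset.mem_range.mp hi
    have hN : (c i).natDegree ≤ q * (d - i) := by
      refine le_trans (hc i hi') ?_
      exact Nat.le_mul_of_pos_right q (Nat.sub_pos_of_lt hi')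
    rw [Polynomial.eval₂_mul, Polynomial.eval₂_C, Polynomial.eval₂_pow, Polynomial.eval₂_X,
      Polynomial.coe_eval₂RingHom, ttrph_homog f H J E G hrel _ _ hN, mul_pow, ← pow_mul]
    have : E.eval₂ f H ^ (q * d) = E.eval₂ f H ^ (q * (d - i)) * E.eval₂ f H ^ (q * i) := by
      rw [← pow_add, ← Nat.mul_add, Nat.sub_add_cancel hi'.le]
    rw [this]
    ring
  rw [Finset.sum_congr rfl hterm, ← Finset.mul_sum, mul_pow, ← pow_mul, ← mul_add, hroot,
    mul_zero]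

end Clear

/-! ### the good locus of the cleared function -/

section Fib

variable {M p : ℕ} [NeZero M] [NeZero p] {ℓ : ℕ} [Fact ℓ.Prime]
variable {A : ValuationSubring Qb}
variable {τ τ' : LaurentSeries ℤ}

/-- the inverse of a unit of `𝔸`, in `ℚ̄`. -/
theorem ttrph_coe_inv (εu : (↥A)ˣ) :
    (((εu⁻¹ : (↥A)ˣ) : ↥A) : Qb) = ((εu : ↥A) : Qb)⁻¹ := by
  have h : (εu : ↥A) * ((εu⁻¹ : (↥A)ˣ) : ↥A) = 1 := Units.mul_inv εu
  have h1 : ((εu : ↥A) : Qb) * (((εu⁻¹ : (↥A)ˣ) : ↥A) : Qb) = 1 := by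
    rw [← MulMemClass.coe_mul, h, OneMemClass.coe_one]
  exact eq_inv_of_mul_eq_one_right h1

/-- multiplication by a unit value does not change "the value lies in `𝔪_𝔸`". -/
theorem ttrph_nonunit_mul_iff (P : Place Qb (modularFunctionFieldBar (M * p)))
    {s x : modularFunctionFieldBar (M * p)} {ε : A} (hεu : IsUnit ε)
    (hs : GrdVal P s (ε : Qb)) :
    (∃ a : Qb, a ∈ A.nonunits ∧ GrdVal P (s * x) a) ↔ ∃ a : Qb, a ∈ A.nonunits ∧ GrdVal P x a := by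
  obtain ⟨εu, rfl⟩ := hεu
  have hε0 : ((εu : ↥A) : Qb) ≠ 0 := by
    intro h0
    have : ((εu : ↥A)) = 0 := Subtype.ext h0
    exact εu.ne_zero this
  have hinv : (((εu⁻¹ : (↥A)ˣ) : ↥A) : Qb) = ((εu : ↥A) : Qb)⁻¹ := ttrph_coe_inv εu
  constructor
  · rintro ⟨a, ha, hva⟩
    refine ⟨a / ((εu : ↥A) : Qb), ?_, ttrph_val_div P hε0 hs hva⟩
    rw [div_eq_mul_inv, ← hinv]
    rw [ValuationSubring.mem_nonunits_iff_exists_mem_maximalIdeal] at ha ⊢
    obtain ⟨haA, ham⟩ := ha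
    refine ⟨A.mul_mem _ _ haA (((εu⁻¹ : (↥A)ˣ) : ↥A)).2, ?_⟩
    have : (⟨a * (((εu⁻¹ : (↥A)ˣ) : ↥A) : Qb), A.mul_mem _ _ haA (((εu⁻¹ : (↥A)ˣ) : ↥A)).2⟩ : ↥A) =
        ⟨a, haA⟩ * ((εu⁻¹ : (↥A)ˣ) : ↥A) := rfl
    rw [this]
    exact Ideal.mul_mem_right _ _ ham
  · rintro ⟨a, ha, hva⟩
    refine ⟨((εu : ↥A) : Qb) * a, ?_, grdg_val_mul P hs hva⟩
    rw [ValuationSubring.mem_nonunits_iff_exists_mem_maximalIdeal] at ha ⊢
    obtain ⟨haA, ham⟩ := ha
    refine ⟨A.mul_mem _ _ (εu : ↥A).2 haA, ?_⟩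
    have : (⟨((εu : ↥A) : Qb) * a, A.mul_mem _ _ (εu : ↥A).2 haA⟩ : ↥A) =
        (εu : ↥A) * ⟨a, haA⟩ := rfl
    rw [this]
    exact Ideal.mul_mem_left _ _ ham

/-- **the two good loci agree** over a place `P₀` at which `u₀`, `j₀` have values in `𝔸` and `e`
has a unit value. -/
theorem ttrph_goodC_iff (φ : modularFunctionFieldBar M →ₐ[Qb] modularFunctionFieldBar (M * p))
    (hφ : φ.toRingHom.IsIntegral) (u₀ j₀ e : modularFunctionFieldBar M)
    (v : modularFunctionFieldBar (M * p)) (m : ℕ)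
    (P₀ : Place Qb (modularFunctionFieldBar M)) (hu₀ : GrdInChart M A u₀ P₀)
    (hj₀ : GrdInChart M A j₀ P₀) {ε : A} (hεu : IsUnit ε) (hε : GrdVal P₀ e (ε : Qb))
    (P : Place Qb (modularFunctionFieldBar (M * p))) (hP : ttrpRes M p φ hφ P = P₀) :
    TtrpGoodC M p A (φ u₀) (φ e ^ m * v) P ↔ TtrpGoodC M p A (φ j₀) v P := by
  have h1 : GrdInChart (M * p) A (φ u₀) P := by
    rw [← ttrp_inChart_res hφ u₀ P, hP]
    exact hu₀
  have h2 : GrdInChart (M * p) A (φ j₀) P := by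
    rw [← ttrp_inChart_res hφ j₀ P, hP]
    exact hj₀
  have h3 : GrdVal P (φ e) (ε : Qb) := by
    rw [← ttrp_val_res φ hφ P]
    have : P.restrictAlong φ hφ = P₀ := hP
    rw [this]
    exact hε
  have h4 : GrdVal P (φ e ^ m) (((ε ^ m : ↥A)) : Qb) := by
    have := ttrph_val_pow P h3 m
    simpa using this
  unfold TtrpGoodC
  rw [ttrph_nonunit_mul_iff P (hεu.pow m) h4]
  exact ⟨fun h => ⟨h2, h.2⟩, fun h => ⟨h1, h.2⟩⟩

/-- **`(B3)` for the cleared function** : over a place `P₀` of level `M` in the chart whose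
reduction is good for `j̄₀` and off the zeros of `ē`, there is exactly one good place of
`(φ u₀, (φ e)^m (Y^p - φ j₀))`, and it is unramified over `P₀`. -/
theorem ttrph_fib (hℓM : ¬ ℓ ∣ M) (hA : A.LiesOverPrime ℓ) (hat : GrdAtlas M A τ τ')
    (r : Place Qb (modularFunctionFieldBar M) →
      Place (ResidueField A) (modularFunctionFieldFullC (ResidueField A) M))
    (hr : GrdIsRed M A hat.c.mem hat.c'.mem r)
    (φ : modularFunctionFieldBar M →ₐ[Qb] modularFunctionFieldBar (M * p))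
    (hφ : φ.toRingHom.IsIntegral) (hfin : FiniteAlong Qb φ)
    (j₀ : modularFunctionFieldBar M) (hj₀ : j₀ ∈ grdO M A)
    (Y : modularFunctionFieldBar (M * p)) (hK : TtrpKron M p A φ j₀ Y)
    (hYint : Y ∈ grdB (M * p) A (φ j₀))
    (e : modularFunctionFieldBar M) (he : e ∈ grdO M A)
    (heint : GrdIsInt M A (grdQ M hat.c.mem) e)
    (hejint : GrdIsInt M A (grdQ M hat.c.mem) (e * j₀)) (m : ℕ)
    (P₀ : Place Qb (modularFunctionFieldBar M))
    (hQ : grdK M A hat.c.mem ∈ (r P₀).toValuationSubring)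
    (hgood : ttrpGoodQ M p A (grdRed M A ⟨j₀, hj₀⟩) (r P₀))
    (hegood : ¬ GrdVal (r P₀) (grdRed M A ⟨e, he⟩) 0) :
    ∃ P : Place Qb (modularFunctionFieldBar (M * p)),
      TtrpGoodC M p A (φ (grdQ M hat.c.mem)) (φ e ^ m * (Y ^ p - φ j₀)) P ∧
      ttrpRes M p φ hφ P = P₀ ∧ P.ramificationIndexAlong φ = 1 ∧
      ∀ P' : Place Qb (modularFunctionFieldBar (M * p)),
        TtrpGoodC M p A (φ (grdQ M hat.c.mem)) (φ e ^ m * (Y ^ p - φ j₀)) P' →
          ttrpRes M p φ hφ P' = P₀ → P' = P := by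
  obtain ⟨Φ, hkron, hgen, hmin, hdeg⟩ := hK
  obtain ⟨hP₀c, hP₀rel⟩ := (grdf_fibre M A hℓM hA hat r hr (r P₀) hQ P₀).mp rfl
  -- the values of `e` and `e j₀` at `P₀`
  obtain ⟨ε, hε⟩ := grd_val_exists M A hat.c P₀ hP₀c heint
  obtain ⟨ψ, hψ⟩ := grd_val_exists M A hat.c P₀ hP₀c hejint
  have hmulmem : e * j₀ ∈ grdO M A := (grdO M A).mul_mem he hj₀
  have hεQ := hP₀rel e he heint ε hε
  have hψQ := hP₀rel (e * j₀) hmulmem hejint ψ hψ
  -- `ε` is a unit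
  have hεres : residue ↥A ε ≠ 0 := by
    intro h0
    rw [h0] at hεQ
    exact hegood hεQ
  have hεu : IsUnit ε := by
    by_contra hnu
    exact hεres ((residue_eq_zero_iff ε).mpr ((mem_maximalIdeal ε).mpr hnu))
  obtain ⟨εu, hεu'⟩ := hεu
  have hε0 : ((ε : ↥A) : Qb) ≠ 0 := by
    intro h0
    have : ε = 0 := Subtype.ext h0
    rw [this, map_zero] at hεres
    exact hεres rfl
  have hinv : (((εu⁻¹ : (↥A)ˣ) : ↥A) : Qb) = ((ε : ↥A) : Qb)⁻¹ := by
    rw [← hεu']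
    exact ttrph_coe_inv εu
  -- the value of `j₀` at `P₀`
  set J₀ : ↥A := ψ * ((εu⁻¹ : (↥A)ˣ) : ↥A) with hJ₀def
  have hJ₀ : GrdVal P₀ j₀ (J₀ : Qb) := by
    have h1 := ttrph_val_div P₀ hε0 hε hψ
    have h2 : ((J₀ : ↥A) : Qb) = (ψ : Qb) / (ε : Qb) := by
      rw [hJ₀def, div_eq_mul_inv, ← hinv]
      rfl
    rw [h2]
    exact h1
  -- its reduction
  obtain ⟨c, hc, hcne⟩ := hgood
  have hredmul : grdRed M A ⟨e * j₀, hmulmem⟩ =
      grdRed M A ⟨e, he⟩ * grdRed M A ⟨j₀, hj₀⟩ := by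
    rw [← map_mul]
    rfl
  have hψc : residue ↥A ψ = residue ↥A ε * c := by
    rw [hredmul] at hψQ
    exact grdg_val_unique (r P₀) hψQ (grdg_val_mul (r P₀) hεQ hc)
  have hcJ : residue ↥A J₀ = c := by
    have h1 : residue ↥A ε * residue ↥A ((εu⁻¹ : (↥A)ˣ) : ↥A) = 1 := by
      rw [← map_mul, ← hεu', Units.mul_inv, map_one]
    rw [hJ₀def, map_mul, hψc, mul_comm (residue ↥A ε) c, mul_assoc, h1, mul_one]
  -- `(B3)` in the `j₀`-"chart"
  obtain ⟨P, hPg, hPP₀, hPe, hPuniq⟩ := ttrp_fib φ hφ hfin j₀ j₀ Y Φ hkron hgen hmin hdeg hYint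
    P₀ ⟨J₀, hJ₀⟩ J₀ hJ₀ (by rw [hcJ]; exact hcne)
  have hiff : ∀ P' : Place Qb (modularFunctionFieldBar (M * p)), ttrpRes M p φ hφ P' = P₀ →
      (TtrpGoodC M p A (φ (grdQ M hat.c.mem)) (φ e ^ m * (Y ^ p - φ j₀)) P' ↔
        TtrpGoodC M p A (φ j₀) (Y ^ p - φ j₀) P') := fun P' hP' =>
    ttrph_goodC_iff φ hφ (grdQ M hat.c.mem) j₀ e (Y ^ p - φ j₀) m P₀ hP₀c ⟨J₀, hJ₀⟩
      (hεu' ▸ εu.isUnit) hε P' hP'
  exact ⟨P, (hiff P hPP₀).mpr hPg, hPP₀, hPe,
    fun P' hP'g hP'P₀ => hPuniq P' ((hiff P' hP'P₀).mp hP'g) hP'P₀⟩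

/-- **TRANSFER** (the `∀`-good-`P` direction) : if `(φ e)^m v = (φ e) w` with `w` integral over
`𝔸[φ u₀]` (so that a zero of `ē` kills `v̄`), a good place `P` of `(φ u₀, (φ e)^m v)` is a good
place of `(φ j₀, v)`, the value of `e` at the place below is a unit and `j₀` has a value in `𝔸`
there. -/
theorem ttrph_transfer (φ : modularFunctionFieldBar M →ₐ[Qb] modularFunctionFieldBar (M * p))
    (hφ : φ.toRingHom.IsIntegral) (u₀ j₀ e : modularFunctionFieldBar M)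
    (heint : GrdIsInt M A u₀ e) (hejint : GrdIsInt M A u₀ (e * j₀))
    (v w : modularFunctionFieldBar (M * p)) (m : ℕ)
    (hw : w ∈ grdB (M * p) A (φ u₀)) (hvw : φ e ^ m * v = φ e * w)
    (P : Place Qb (modularFunctionFieldBar (M * p)))
    (hPg : TtrpGoodC M p A (φ u₀) (φ e ^ m * v) P) :
    TtrpGoodC M p A (φ j₀) v P ∧
      (∃ J₀ : ↥A, GrdVal (ttrpRes M p φ hφ P) j₀ (J₀ : Qb)) ∧
      ∃ ε : ↥A, IsUnit ε ∧ GrdVal (ttrpRes M p φ hφ P) e (ε : Qb) := by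
  have hP₀c : GrdInChart M A u₀ (ttrpRes M p φ hφ P) := (ttrp_inChart_res hφ u₀ P).mpr hPg.1
  obtain ⟨ε, hε⟩ := ttrp_val_exists M A u₀ (ttrpRes M p φ hφ P) hP₀c heint
  obtain ⟨ψ, hψ⟩ := ttrp_val_exists M A u₀ (ttrpRes M p φ hφ P) hP₀c hejint
  obtain ⟨ω, hω⟩ := ttrp_val_exists (M * p) A (φ u₀) P hPg.1 hw
  have h3 : GrdVal P (φ e) (ε : Qb) := (ttrp_val_res φ hφ P e _).mp hε
  -- `ε` is a unit : otherwise `v(P) = ε ω ∈ 𝔪_𝔸`
  have hεu : IsUnit ε := by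
    by_contra hnu
    apply hPg.2
    refine ⟨((ε * ω : ↥A) : Qb), ?_, ?_⟩
    · rw [ValuationSubring.mem_nonunits_iff_exists_mem_maximalIdeal]
      exact ⟨(ε * ω : ↥A).2, Ideal.mul_mem_right _ _ ((mem_maximalIdeal ε).mpr hnu)⟩
    · rw [hvw]
      exact grdg_val_mul P h3 hω
  obtain ⟨εu, hεu'⟩ := hεu
  have hε0 : ((ε : ↥A) : Qb) ≠ 0 := by
    intro h0
    have : ε = 0 := Subtype.ext h0
    rw [← hεu'] at this
    exact εu.ne_zero this
  have hinv : (((εu⁻¹ : (↥A)ˣ) : ↥A) : Qb) = ((ε : ↥A) : Qb)⁻¹ := by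
    rw [← hεu']
    exact ttrph_coe_inv εu
  have hJ₀ : GrdVal (ttrpRes M p φ hφ P) j₀ (((ψ * ((εu⁻¹ : (↥A)ˣ) : ↥A) : ↥A)) : Qb) := by
    have h1 := ttrph_val_div (ttrpRes M p φ hφ P) hε0 hε hψ
    have h2 : (((ψ * ((εu⁻¹ : (↥A)ˣ) : ↥A) : ↥A)) : Qb) = (ψ : Qb) / (ε : Qb) := by
      rw [div_eq_mul_inv, ← hinv]
      rfl
    rw [h2]
    exact h1
  exact ⟨(ttrph_goodC_iff φ hφ u₀ j₀ e v m (ttrpRes M p φ hφ P) hP₀c ⟨_, hJ₀⟩
    (hεu' ▸ εu.isUnit) hε P rfl).mp hPg, ⟨_, hJ₀⟩, ε, hεu' ▸ εu.isUnit, hε⟩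

/-- `(B3)` for the cleared function in the shape `hfib` of `ttrp_exists_fixed_good`. -/
theorem ttrph_hfib (hℓM : ¬ ℓ ∣ M) (hA : A.LiesOverPrime ℓ) (hat : GrdAtlas M A τ τ')
    (r : Place Qb (modularFunctionFieldBar M) →
      Place (ResidueField A) (modularFunctionFieldFullC (ResidueField A) M))
    (hr : GrdIsRed M A hat.c.mem hat.c'.mem r)
    (φ : modularFunctionFieldBar M →ₐ[Qb] modularFunctionFieldBar (M * p))
    (hφ : φ.toRingHom.IsIntegral) (hfin : FiniteAlong Qb φ)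
    (j₀ : modularFunctionFieldBar M) (hj₀ : j₀ ∈ grdO M A)
    (Y : modularFunctionFieldBar (M * p)) (hK : TtrpKron M p A φ j₀ Y)
    (hYint : Y ∈ grdB (M * p) A (φ j₀))
    (e : modularFunctionFieldBar M) (he : e ∈ grdO M A)
    (heint : GrdIsInt M A (grdQ M hat.c.mem) e)
    (hejint : GrdIsInt M A (grdQ M hat.c.mem) (e * j₀)) (m : ℕ)
    (P₀ : Place Qb (modularFunctionFieldBar M))
    (hQ : grdK M A hat.c.mem ∈ (r P₀).toValuationSubring)
    (hgood : ttrpGoodQ M p A (grdRed M A ⟨j₀, hj₀⟩) (r P₀))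
    (hegood : ¬ GrdVal (r P₀) (grdRed M A ⟨e, he⟩) 0) :
    ∃ P : Place Qb (modularFunctionFieldBar (M * p)),
      TtrpGoodC M p A (φ (grdQ M hat.c.mem)) (φ e ^ m * (Y ^ p - φ j₀)) P ∧
      ttrpRes M p φ hφ P = P₀ ∧
      ∀ P' : Place Qb (modularFunctionFieldBar (M * p)),
        TtrpGoodC M p A (φ (grdQ M hat.c.mem)) (φ e ^ m * (Y ^ p - φ j₀)) P' →
          ttrpRes M p φ hφ P' = P₀ → P' = P := by
  obtain ⟨P, h1, h2, -, h3⟩ := ttrph_fib hℓM hA hat r hr φ hφ hfin j₀ hj₀ Y hK hYint e he heint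
    hejint m P₀ hQ hgood hegood
  exact ⟨P, h1, h2, h3⟩

/-- INERTIA-FIXED GOOD LIFTS for the cleared function : every `Q` off the bad set of level `M`
which is good for `j̄₀` and off the zeros of `ē` is the reduction of an inertia-fixed good place
of level `M p`. -/
theorem ttrph_exists_fixed_good (hℓM : ¬ ℓ ∣ M) (hA : A.LiesOverPrime ℓ)
    (hat : GrdAtlas M A τ τ')
    (r : Place Qb (modularFunctionFieldBar M) →
      Place (ResidueField A) (modularFunctionFieldFullC (ResidueField A) M))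
    (hr : GrdIsRed M A hat.c.mem hat.c'.mem r)
    (S : Set (Qb ≃ₐ[ℚ] Qb)) (hS : ∀ σ ∈ S, IsInertial A σ)
    (hW : ∀ c : ResidueField A, ∃ α : A, residue A α = c ∧ ∀ σ ∈ S, σ (α : Qb) = α)
    (φ : modularFunctionFieldBar M →ₐ[Qb] modularFunctionFieldBar (M * p))
    (hφ : φ.toRingHom.IsIntegral) (hfin : FiniteAlong Qb φ)
    (hint : ∀ σ ∈ S,
      SemilinearAut.IntertwinesAlong φ.toRingHom (ffipG M σ) (ffipG (M * p) σ))
    (j₀ : modularFunctionFieldBar M) (hj₀ : j₀ ∈ grdO M A)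
    (Y : modularFunctionFieldBar (M * p)) (hK : TtrpKron M p A φ j₀ Y)
    (hYint : Y ∈ grdB (M * p) A (φ j₀))
    (e : modularFunctionFieldBar M) (he : e ∈ grdO M A)
    (heint : GrdIsInt M A (grdQ M hat.c.mem) e)
    (hejint : GrdIsInt M A (grdQ M hat.c.mem) (e * j₀)) (m : ℕ)
    (hv : ∀ σ ∈ S, ffipG (M * p) σ • (φ e ^ m * (Y ^ p - φ j₀)) = φ e ^ m * (Y ^ p - φ j₀))
    (Q : Place (ResidueField A) (modularFunctionFieldFullC (ResidueField A) M))
    (hQ : Q ∉ ffipBad M A hat)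
    (hgood : ttrpGoodQ M p A (grdRed M A ⟨j₀, hj₀⟩) Q)
    (hegood : ¬ GrdVal Q (grdRed M A ⟨e, he⟩) 0) :
    ∃ P : Place Qb (modularFunctionFieldBar (M * p)),
      P ∈ ttrpS M p A φ hφ r (φ (grdQ M hat.c.mem)) (φ e ^ m * (Y ^ p - φ j₀)) Q ∧
        ∀ σ ∈ S, ffipG (M * p) σ • P = P := by
  refine ttrp_exists_fixed_good M p hℓM hA hat r hr S hS hW φ hφ hint _ _
    (fun σ hσ => ttrp_coord_fixed M p σ φ (hint σ hσ) hat.c.mem) hv
    (fun Q' => grdK M A hat.c.mem ∈ Q'.toValuationSubring ∧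
      ttrpGoodQ M p A (grdRed M A ⟨j₀, hj₀⟩) Q' ∧ ¬ GrdVal Q' (grdRed M A ⟨e, he⟩) 0) ?_ Q hQ
    ⟨ffip_mem_of_not_bad M A hat Q hQ, hgood, hegood⟩
  intro P₀ hP₀
  exact ttrph_hfib hℓM hA hat r hr φ hφ hfin j₀ hj₀ Y hK hYint e he heint hejint m P₀ hP₀.1
    hP₀.2.1 hP₀.2.2

/-! ### integrality of the cleared function -/

/-- the polynomial evaluation `f(u)` of `f ∈ 𝔸[X]` is integral over `𝔸[u]`. -/
theorem ttrph_eval_isInt (N : ℕ) [NeZero N] (u : modularFunctionFieldBar N) (f : (↥A)[X]) :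
    GrdIsInt N A u (f.eval₂ (grdInclA N A) u) :=
  RingHom.isIntegralElem_map (Polynomial.eval₂RingHom (grdInclA N A) u) (x := f)

/-- `φ` commutes with the evaluation of polynomials over `𝔸`. -/
theorem ttrph_map_eval (φ : modularFunctionFieldBar M →ₐ[Qb] modularFunctionFieldBar (M * p))
    (u : modularFunctionFieldBar M) (f : (↥A)[X]) :
    φ (f.eval₂ (grdInclA M A) u) = f.eval₂ (grdInclA (M * p) A) (φ u) := by
  have hcomp : (φ : modularFunctionFieldBar M →+* modularFunctionFieldBar (M * p)).comp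
      (grdInclA M A) = grdInclA (M * p) A :=
    RingHom.ext fun a => φ.commutes _
  rw [← hcomp]
  exact Polynomial.hom_eval₂ f (grdInclA M A)
    (φ : modularFunctionFieldBar M →+* modularFunctionFieldBar (M * p)) u

/-- the clearing relation, transported to level `M p`. -/
theorem ttrph_rel_map (φ : modularFunctionFieldBar M →ₐ[Qb] modularFunctionFieldBar (M * p))
    (u₀ j₀ : modularFunctionFieldBar M) (E G : (↥A)[X])
    (hrel : j₀ * E.eval₂ (grdInclA M A) u₀ = G.eval₂ (grdInclA M A) u₀) :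
    φ j₀ * E.eval₂ (grdInclA (M * p) A) (φ u₀) = G.eval₂ (grdInclA (M * p) A) (φ u₀) := by
  rw [← ttrph_map_eval, ← ttrph_map_eval, ← map_mul, hrel]

/-- **`Z = E(H)^q Y` IS INTEGRAL OVER `𝔸[H]`** (`H = φ u₀`), for `Y` a root of `Φ(φ j₀, T)` with
`deg_X Φ ≤ q` and `j₀ E(u₀) = G(u₀)`. -/
theorem ttrph_Z_int (φ : modularFunctionFieldBar M →ₐ[Qb] modularFunctionFieldBar (M * p))
    (hfin : FiniteAlong Qb φ) (u₀ j₀ : modularFunctionFieldBar M)
    (Y : modularFunctionFieldBar (M * p)) (E G : (↥A)[X])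
    (hrel : j₀ * E.eval₂ (grdInclA M A) u₀ = G.eval₂ (grdInclA M A) u₀)
    (Φ : (↥A)[X][X]) (q : ℕ)
    (hmin : letI := algebraAlong φ
      ∀ i, (minpoly (modularFunctionFieldBar M) Y).coeff i =
        (Φ.coeff i).eval₂ (grdInclA M A) j₀)
    (hq : letI := algebraAlong φ
      ∀ i < (minpoly (modularFunctionFieldBar M) Y).natDegree, (Φ.coeff i).natDegree ≤ q) :
    φ (E.eval₂ (grdInclA M A) u₀) ^ q * Y ∈ grdB (M * p) A (φ u₀) := by
  letI := algebraAlong φ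
  haveI : Module.Finite (modularFunctionFieldBar M) (modularFunctionFieldBar (M * p)) := hfin
  have hYi : IsIntegral (modularFunctionFieldBar M) Y := IsIntegral.of_finite _ _
  have hmonic := minpoly.monic hYi
  have haeval := minpoly.aeval (modularFunctionFieldBar M) Y
  rw [Polynomial.aeval_eq_sum_range, Finset.sum_range_succ, hmonic.coeff_natDegree, one_smul,
    add_comm] at haeval
  have hterm : ∀ i ∈ Finset.range (minpoly (modularFunctionFieldBar M) Y).natDegree,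
      (minpoly (modularFunctionFieldBar M) Y).coeff i • Y ^ i =
        (Φ.coeff i).eval₂ (grdInclA (M * p) A) (φ j₀) * Y ^ i := by
    intro i _
    rw [Algebra.smul_def, hmin i, ← ttrph_map_eval]
    rfl
  rw [Finset.sum_congr rfl hterm] at haeval
  rw [ttrph_map_eval]
  exact ttrph_clear_int (grdInclA (M * p) A) (φ u₀) (φ j₀) Y E G
    (ttrph_rel_map φ u₀ j₀ E G hrel) _ q (fun i => Φ.coeff i) hq haeval

/-- **`v_int`** : the cleared function `E(H)^(q p + 1) (Y^p - J)` is integral over `𝔸[H]`. -/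
theorem ttrph_v_int (φ : modularFunctionFieldBar M →ₐ[Qb] modularFunctionFieldBar (M * p))
    (hfin : FiniteAlong Qb φ) (u₀ j₀ : modularFunctionFieldBar M)
    (Y : modularFunctionFieldBar (M * p)) (E G : (↥A)[X])
    (hrel : j₀ * E.eval₂ (grdInclA M A) u₀ = G.eval₂ (grdInclA M A) u₀)
    (Φ : (↥A)[X][X]) (q : ℕ)
    (hmin : letI := algebraAlong φ
      ∀ i, (minpoly (modularFunctionFieldBar M) Y).coeff i =
        (Φ.coeff i).eval₂ (grdInclA M A) j₀)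
    (hq : letI := algebraAlong φ
      ∀ i < (minpoly (modularFunctionFieldBar M) Y).natDegree, (Φ.coeff i).natDegree ≤ q) :
    φ (E.eval₂ (grdInclA M A) u₀) ^ (q * p + 1) * (Y ^ p - φ j₀) ∈
      grdB (M * p) A (φ u₀) := by
  have hZ := ttrph_Z_int φ hfin u₀ j₀ Y E G hrel Φ q hmin hq
  have hrel' := ttrph_rel_map φ u₀ j₀ E G hrel
  have he : φ (E.eval₂ (grdInclA M A) u₀) ∈ grdB (M * p) A (φ u₀) := by
    rw [ttrph_map_eval]
    exact ttrph_eval_isInt (M * p) (φ u₀) E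
  have hG : G.eval₂ (grdInclA (M * p) A) (φ u₀) ∈ grdB (M * p) A (φ u₀) :=
    ttrph_eval_isInt (M * p) (φ u₀) G
  have key : φ (E.eval₂ (grdInclA M A) u₀) ^ (q * p + 1) * (Y ^ p - φ j₀) =
      φ (E.eval₂ (grdInclA M A) u₀) * (φ (E.eval₂ (grdInclA M A) u₀) ^ q * Y) ^ p -
        φ (E.eval₂ (grdInclA M A) u₀) ^ (q * p) * G.eval₂ (grdInclA (M * p) A) (φ u₀) := by
    rw [← hrel', ← ttrph_map_eval, mul_pow, ← pow_mul, pow_succ]
    ring
  rw [key]
  exact sub_mem (mul_mem he (pow_mem hZ p)) (mul_mem (pow_mem he _) hG)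

/-- the cleared function is `E(H)` times an element of the chart ring (so it dies at the zeros of
`Ē`). -/
theorem ttrph_v_factor (φ : modularFunctionFieldBar M →ₐ[Qb] modularFunctionFieldBar (M * p))
    (hfin : FiniteAlong Qb φ) (u₀ j₀ : modularFunctionFieldBar M)
    (Y : modularFunctionFieldBar (M * p)) (E G : (↥A)[X])
    (hrel : j₀ * E.eval₂ (grdInclA M A) u₀ = G.eval₂ (grdInclA M A) u₀)
    (Φ : (↥A)[X][X]) (q : ℕ) (hq0 : 0 < q)
    (hmin : letI := algebraAlong φ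
      ∀ i, (minpoly (modularFunctionFieldBar M) Y).coeff i =
        (Φ.coeff i).eval₂ (grdInclA M A) j₀)
    (hq : letI := algebraAlong φ
      ∀ i < (minpoly (modularFunctionFieldBar M) Y).natDegree, (Φ.coeff i).natDegree ≤ q) :
    ∃ w ∈ grdB (M * p) A (φ u₀),
      φ (E.eval₂ (grdInclA M A) u₀) ^ (q * p + 1) * (Y ^ p - φ j₀) =
        φ (E.eval₂ (grdInclA M A) u₀) * w := by
  have hZ := ttrph_Z_int φ hfin u₀ j₀ Y E G hrel Φ q hmin hq
  have hrel' := ttrph_rel_map φ u₀ j₀ E G hrel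
  have he : φ (E.eval₂ (grdInclA M A) u₀) ∈ grdB (M * p) A (φ u₀) := by
    rw [ttrph_map_eval]
    exact ttrph_eval_isInt (M * p) (φ u₀) E
  have hG : G.eval₂ (grdInclA (M * p) A) (φ u₀) ∈ grdB (M * p) A (φ u₀) :=
    ttrph_eval_isInt (M * p) (φ u₀) G
  have hp0 : 0 < p := Nat.pos_of_ne_zero (NeZero.ne p)
  obtain ⟨n, hn⟩ : ∃ n, q * p = n + 1 := ⟨q * p - 1, (Nat.sub_add_cancel (Nat.mul_pos hq0 hp0)).symm⟩
  refine ⟨(φ (E.eval₂ (grdInclA M A) u₀) ^ q * Y) ^ p -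
      φ (E.eval₂ (grdInclA M A) u₀) ^ n * G.eval₂ (grdInclA (M * p) A) (φ u₀),
    sub_mem (pow_mem hZ p) (mul_mem (pow_mem he _) hG), ?_⟩
  rw [← hrel', ← ttrph_map_eval, mul_pow, ← pow_mul, pow_succ, hn, pow_succ]
  ring

/-- **TRANSFER from the clearing datum** : a good place of the chart `(φ u₀, E(H)^(q p + 1)
(Y^p - φ j₀))` is a good place of `(φ j₀, Y^p - φ j₀)`, `E(u₀)` has a unit value at the place
below and `j₀` has a value in `𝔸` there. -/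
theorem ttrph_transfer_kron
    (φ : modularFunctionFieldBar M →ₐ[Qb] modularFunctionFieldBar (M * p))
    (hφ : φ.toRingHom.IsIntegral) (hfin : FiniteAlong Qb φ)
    (u₀ j₀ : modularFunctionFieldBar M)
    (Y : modularFunctionFieldBar (M * p)) (E G : (↥A)[X])
    (hrel : j₀ * E.eval₂ (grdInclA M A) u₀ = G.eval₂ (grdInclA M A) u₀)
    (Φ : (↥A)[X][X]) (q : ℕ) (hq0 : 0 < q)
    (hmin : letI := algebraAlong φ
      ∀ i, (minpoly (modularFunctionFieldBar M) Y).coeff i =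
        (Φ.coeff i).eval₂ (grdInclA M A) j₀)
    (hq : letI := algebraAlong φ
      ∀ i < (minpoly (modularFunctionFieldBar M) Y).natDegree, (Φ.coeff i).natDegree ≤ q)
    (P : Place Qb (modularFunctionFieldBar (M * p)))
    (hPg : TtrpGoodC M p A (φ u₀)
      (φ (E.eval₂ (grdInclA M A) u₀) ^ (q * p + 1) * (Y ^ p - φ j₀)) P) :
    TtrpGoodC M p A (φ j₀) (Y ^ p - φ j₀) P ∧
      (∃ J₀ : ↥A, GrdVal (ttrpRes M p φ hφ P) j₀ (J₀ : Qb)) ∧
      ∃ ε : ↥A, IsUnit ε ∧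
        GrdVal (ttrpRes M p φ hφ P) (E.eval₂ (grdInclA M A) u₀) (ε : Qb) := by
  obtain ⟨w, hw, hvw⟩ := ttrph_v_factor φ hfin u₀ j₀ Y E G hrel Φ q hq0 hmin hq
  refine ttrph_transfer φ hφ u₀ j₀ (E.eval₂ (grdInclA M A) u₀) (ttrph_eval_isInt M u₀ E) ?_
    (Y ^ p - φ j₀) w (q * p + 1) hw hvw P hPg
  rw [mul_comm, hrel]
  exact ttrph_eval_isInt M u₀ G

end Fib

/-! ### the bounded Kronecker datum -/

section Kron

variable (M p : ℕ) [NeZero M] [NeZero p] {ℓ : ℕ} [Fact ℓ.Prime]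
variable (A : ValuationSubring Qb)
variable {τ τ' : LaurentSeries ℤ}

/-- THE BOUNDED KRONECKER DATUM : helper6's `TtrpKron` together with `deg_X Φ ≤ q` (on the
coefficients below the degree in `T`; main's `ssvmc_modular` gives `q = p + 1`). -/
def TtrphKron (φ : modularFunctionFieldBar M →ₐ[Qb] modularFunctionFieldBar (M * p))
    (j₀ : modularFunctionFieldBar M) (Y : modularFunctionFieldBar (M * p)) (q : ℕ) : Prop :=
  letI := algebraAlong φ
  ∃ Φ : (↥A)[X][X],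
    Φ.map (mapRingHom (residue ↥A)) = (X - C (X ^ p)) * (X ^ p - C X) ∧
    IntermediateField.adjoin (modularFunctionFieldBar M) {Y} = ⊤ ∧
    (∀ i, (minpoly (modularFunctionFieldBar M) Y).coeff i =
      (Φ.coeff i).eval₂ (grdInclA M A) j₀) ∧
    2 ≤ (minpoly (modularFunctionFieldBar M) Y).natDegree ∧
    ∀ i < (minpoly (modularFunctionFieldBar M) Y).natDegree, (Φ.coeff i).natDegree ≤ q

variable {M p A}

theorem ttrph_kron_weaken {φ : modularFunctionFieldBar M →ₐ[Qb] modularFunctionFieldBar (M * p)}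
    {j₀ : modularFunctionFieldBar M} {Y : modularFunctionFieldBar (M * p)} {q : ℕ}
    (hK : TtrphKron M p A φ j₀ Y q) : TtrpKron M p A φ j₀ Y := by
  obtain ⟨Φ, h1, h2, h3, h4, -⟩ := hK
  exact ⟨Φ, h1, h2, h3, h4⟩

theorem ttrph_kron_mono {φ : modularFunctionFieldBar M →ₐ[Qb] modularFunctionFieldBar (M * p)}
    {j₀ : modularFunctionFieldBar M} {Y : modularFunctionFieldBar (M * p)} {q q' : ℕ}
    (hqq' : q ≤ q') (hK : TtrphKron M p A φ j₀ Y q) : TtrphKron M p A φ j₀ Y q' := by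
  obtain ⟨Φ, h1, h2, h3, h4, h5⟩ := hK
  exact ⟨Φ, h1, h2, h3, h4, fun i hi => (h5 i hi).trans hqq'⟩

/-- every Kronecker datum is bounded by some `q > 0`. -/
theorem ttrph_kron_exists {φ : modularFunctionFieldBar M →ₐ[Qb] modularFunctionFieldBar (M * p)}
    {j₀ : modularFunctionFieldBar M} {Y : modularFunctionFieldBar (M * p)}
    (hK : TtrpKron M p A φ j₀ Y) : ∃ q, 0 < q ∧ TtrphKron M p A φ j₀ Y q := by
  obtain ⟨Φ, h1, h2, h3, h4⟩ := hK
  letI := algebraAlong φ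
  refine ⟨(Finset.range (minpoly (modularFunctionFieldBar M) Y).natDegree).sup
    (fun i => (Φ.coeff i).natDegree) + 1, Nat.succ_pos _, Φ, h1, h2, h3, h4, fun i hi => ?_⟩
  exact (Finset.le_sup (f := fun i => (Φ.coeff i).natDegree) (Finset.mem_range.mpr hi)).trans
    (Nat.le_succ _)

/-- **`v_int`** from a bounded Kronecker datum and a clearing relation. -/
theorem ttrph_kron_v_int
    (φ : modularFunctionFieldBar M →ₐ[Qb] modularFunctionFieldBar (M * p))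
    (hfin : FiniteAlong Qb φ) (u₀ j₀ : modularFunctionFieldBar M)
    (Y : modularFunctionFieldBar (M * p)) (E G : (↥A)[X])
    (hrel : j₀ * E.eval₂ (grdInclA M A) u₀ = G.eval₂ (grdInclA M A) u₀) (q : ℕ)
    (hK : TtrphKron M p A φ j₀ Y q) :
    φ (E.eval₂ (grdInclA M A) u₀) ^ (q * p + 1) * (Y ^ p - φ j₀) ∈
      grdB (M * p) A (φ u₀) := by
  obtain ⟨Φ, -, -, hmin, -, hq⟩ := hK
  exact ttrph_v_int φ hfin u₀ j₀ Y E G hrel Φ q hmin hq

/-- **TRANSFER** from a bounded Kronecker datum and a clearing relation (the literal asked by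
helper8, 3970, plus the unit value of `E(u₀)`). -/
theorem ttrph_kron_transfer
    (φ : modularFunctionFieldBar M →ₐ[Qb] modularFunctionFieldBar (M * p))
    (hφ : φ.toRingHom.IsIntegral) (hfin : FiniteAlong Qb φ)
    (u₀ j₀ : modularFunctionFieldBar M)
    (Y : modularFunctionFieldBar (M * p)) (E G : (↥A)[X])
    (hrel : j₀ * E.eval₂ (grdInclA M A) u₀ = G.eval₂ (grdInclA M A) u₀) (q : ℕ) (hq0 : 0 < q)
    (hK : TtrphKron M p A φ j₀ Y q)
    (P : Place Qb (modularFunctionFieldBar (M * p)))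
    (hPg : TtrpGoodC M p A (φ u₀)
      (φ (E.eval₂ (grdInclA M A) u₀) ^ (q * p + 1) * (Y ^ p - φ j₀)) P) :
    TtrpGoodC M p A (φ j₀) (Y ^ p - φ j₀) P ∧
      (∃ J₀ : ↥A, GrdVal (ttrpRes M p φ hφ P) j₀ (J₀ : Qb)) ∧
      ∃ ε : ↥A, IsUnit ε ∧
        GrdVal (ttrpRes M p φ hφ P) (E.eval₂ (grdInclA M A) u₀) (ε : Qb) := by
  obtain ⟨Φ, -, -, hmin, -, hq⟩ := hK
  exact ttrph_transfer_kron φ hφ hfin u₀ j₀ Y E G hrel Φ q hq0 hmin hq P hPg

/-- the converse of the transfer, over a place at which `E(u₀)` has a unit value. -/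
theorem ttrph_kron_transfer_back
    (φ : modularFunctionFieldBar M →ₐ[Qb] modularFunctionFieldBar (M * p))
    (hφ : φ.toRingHom.IsIntegral) (u₀ j₀ : modularFunctionFieldBar M)
    (Y : modularFunctionFieldBar (M * p)) (E : (↥A)[X]) (m : ℕ)
    (P : Place Qb (modularFunctionFieldBar (M * p)))
    (hu₀ : GrdInChart M A u₀ (ttrpRes M p φ hφ P))
    (hj₀ : GrdInChart M A j₀ (ttrpRes M p φ hφ P))
    {ε : ↥A} (hεu : IsUnit ε)
    (hε : GrdVal (ttrpRes M p φ hφ P) (E.eval₂ (grdInclA M A) u₀) (ε : Qb))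
    (hPg : TtrpGoodC M p A (φ j₀) (Y ^ p - φ j₀) P) :
    TtrpGoodC M p A (φ u₀) (φ (E.eval₂ (grdInclA M A) u₀) ^ m * (Y ^ p - φ j₀)) P :=
  (ttrph_goodC_iff φ hφ u₀ j₀ _ (Y ^ p - φ j₀) m (ttrpRes M p φ hφ P) hu₀ hj₀ hεu hε P rfl).mpr hPg

/-- **`(B3)`** for the cleared function, from a Kronecker datum and a clearing relation. -/
theorem ttrph_kron_fib (hℓM : ¬ ℓ ∣ M) (hA : A.LiesOverPrime ℓ) (hat : GrdAtlas M A τ τ')
    (r : Place Qb (modularFunctionFieldBar M) →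
      Place (ResidueField A) (modularFunctionFieldFullC (ResidueField A) M))
    (hr : GrdIsRed M A hat.c.mem hat.c'.mem r)
    (φ : modularFunctionFieldBar M →ₐ[Qb] modularFunctionFieldBar (M * p))
    (hφ : φ.toRingHom.IsIntegral) (hfin : FiniteAlong Qb φ)
    (j₀ : modularFunctionFieldBar M) (hj₀ : j₀ ∈ grdO M A)
    (Y : modularFunctionFieldBar (M * p)) (hK : TtrpKron M p A φ j₀ Y)
    (hYint : Y ∈ grdB (M * p) A (φ j₀)) (E G : (↥A)[X])
    (hrel : j₀ * E.eval₂ (grdInclA M A) (grdQ M hat.c.mem) =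
      G.eval₂ (grdInclA M A) (grdQ M hat.c.mem)) (m : ℕ)
    (P₀ : Place Qb (modularFunctionFieldBar M))
    (hQ : grdK M A hat.c.mem ∈ (r P₀).toValuationSubring)
    (hgood : ttrpGoodQ M p A (grdRed M A ⟨j₀, hj₀⟩) (r P₀))
    (hegood : ¬ GrdVal (r P₀) (grdRed M A ⟨E.eval₂ (grdInclA M A) (grdQ M hat.c.mem),
      grdga_eval_mem M A (grdQ_mem_grdO M A hat.c.mem) E⟩) 0) :
    ∃ P : Place Qb (modularFunctionFieldBar (M * p)),
      TtrpGoodC M p A (φ (grdQ M hat.c.mem))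
        (φ (E.eval₂ (grdInclA M A) (grdQ M hat.c.mem)) ^ m * (Y ^ p - φ j₀)) P ∧
      ttrpRes M p φ hφ P = P₀ ∧ P.ramificationIndexAlong φ = 1 ∧
      ∀ P' : Place Qb (modularFunctionFieldBar (M * p)),
        TtrpGoodC M p A (φ (grdQ M hat.c.mem))
          (φ (E.eval₂ (grdInclA M A) (grdQ M hat.c.mem)) ^ m * (Y ^ p - φ j₀)) P' →
          ttrpRes M p φ hφ P' = P₀ → P' = P := by
  refine ttrph_fib hℓM hA hat r hr φ hφ hfin j₀ hj₀ Y hK hYint
    (E.eval₂ (grdInclA M A) (grdQ M hat.c.mem))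
    (grdga_eval_mem M A (grdQ_mem_grdO M A hat.c.mem) E)
    (ttrph_eval_isInt M (grdQ M hat.c.mem) E) ?_ m P₀ hQ hgood hegood
  rw [mul_comm, hrel]
  exact ttrph_eval_isInt M (grdQ M hat.c.mem) G

/-- INERTIA-FIXED GOOD LIFTS for the cleared function, from a Kronecker datum and a clearing
relation. -/
theorem ttrph_kron_exists_fixed_good (hℓM : ¬ ℓ ∣ M) (hA : A.LiesOverPrime ℓ)
    (hat : GrdAtlas M A τ τ')
    (r : Place Qb (modularFunctionFieldBar M) →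
      Place (ResidueField A) (modularFunctionFieldFullC (ResidueField A) M))
    (hr : GrdIsRed M A hat.c.mem hat.c'.mem r)
    (S : Set (Qb ≃ₐ[ℚ] Qb)) (hS : ∀ σ ∈ S, IsInertial A σ)
    (hW : ∀ c : ResidueField A, ∃ α : A, residue A α = c ∧ ∀ σ ∈ S, σ (α : Qb) = α)
    (φ : modularFunctionFieldBar M →ₐ[Qb] modularFunctionFieldBar (M * p))
    (hφ : φ.toRingHom.IsIntegral) (hfin : FiniteAlong Qb φ)
    (hint : ∀ σ ∈ S,
      SemilinearAut.IntertwinesAlong φ.toRingHom (ffipG M σ) (ffipG (M * p) σ))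
    (j₀ : modularFunctionFieldBar M) (hj₀ : j₀ ∈ grdO M A)
    (Y : modularFunctionFieldBar (M * p)) (hK : TtrpKron M p A φ j₀ Y)
    (hYint : Y ∈ grdB (M * p) A (φ j₀)) (E G : (↥A)[X])
    (hrel : j₀ * E.eval₂ (grdInclA M A) (grdQ M hat.c.mem) =
      G.eval₂ (grdInclA M A) (grdQ M hat.c.mem)) (m : ℕ)
    (hv : ∀ σ ∈ S, ffipG (M * p) σ •
      (φ (E.eval₂ (grdInclA M A) (grdQ M hat.c.mem)) ^ m * (Y ^ p - φ j₀)) =
        φ (E.eval₂ (grdInclA M A) (grdQ M hat.c.mem)) ^ m * (Y ^ p - φ j₀))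
    (Q : Place (ResidueField A) (modularFunctionFieldFullC (ResidueField A) M))
    (hQ : Q ∉ ffipBad M A hat)
    (hgood : ttrpGoodQ M p A (grdRed M A ⟨j₀, hj₀⟩) Q)
    (hegood : ¬ GrdVal Q (grdRed M A ⟨E.eval₂ (grdInclA M A) (grdQ M hat.c.mem),
      grdga_eval_mem M A (grdQ_mem_grdO M A hat.c.mem) E⟩) 0) :
    ∃ P : Place Qb (modularFunctionFieldBar (M * p)),
      P ∈ ttrpS M p A φ hφ r (φ (grdQ M hat.c.mem))
        (φ (E.eval₂ (grdInclA M A) (grdQ M hat.c.mem)) ^ m * (Y ^ p - φ j₀)) Q ∧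
        ∀ σ ∈ S, ffipG (M * p) σ • P = P := by
  refine ttrph_exists_fixed_good hℓM hA hat r hr S hS hW φ hφ hfin hint j₀ hj₀ Y hK hYint
    (E.eval₂ (grdInclA M A) (grdQ M hat.c.mem))
    (grdga_eval_mem M A (grdQ_mem_grdO M A hat.c.mem) E)
    (ttrph_eval_isInt M (grdQ M hat.c.mem) E) ?_ m hv Q hQ hgood hegood
  rw [mul_comm, hrel]
  exact ttrph_eval_isInt M (grdQ M hat.c.mem) G

end Kron

/-! ### the clearing relations of the Hauptmoduln `h₂`, `h₃` -/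

section Ident

variable (M : ℕ) [NeZero M] (A : ValuationSubring Qb)

/-- `j h₂² = (h₂ + 256)³` in `F_ℚ̄(M)`. -/
theorem ttrph_h2_identity (hmem : GrdSerMem M (s18hq 2 (s18hExp 2) ℤ)) :
    grdQ M (grdi_mem_j M) * grdQ M hmem ^ 2 = (grdQ M hmem + 256) ^ 3 := by
  apply Subtype.ext
  have h := grdis_id_two Qb
  rw [← grdi_grdSer_j Qb, ← grdis_grdSer_hq 2 24 Qb] at h
  exact h

/-- `j h₃³ = (h₃ + 27) (h₃ + 243)³` in `F_ℚ̄(M)`. -/
theorem ttrph_h3_identity (hmem : GrdSerMem M (s18hq 3 (s18hExp 3) ℤ)) :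
    grdQ M (grdi_mem_j M) * grdQ M hmem ^ 3 = (grdQ M hmem + 27) * (grdQ M hmem + 243) ^ 3 := by
  apply Subtype.ext
  have h := grdis_id_three Qb
  rw [← grdi_grdSer_j Qb, ← grdis_grdSer_hq 3 12 Qb] at h
  exact h

/-- the clearing relation of the chart `h₂` : `E = X²`, `G = (X + 256)³`. -/
theorem ttrph_rel_two (hmem : GrdSerMem M (s18hq 2 (s18hExp 2) ℤ)) :
    grdQ M (grdi_mem_j M) * ((X : (↥A)[X]) ^ 2).eval₂ (grdInclA M A) (grdQ M hmem) =
      (((X : (↥A)[X]) + 256) ^ 3).eval₂ (grdInclA M A) (grdQ M hmem) := by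
  rw [eval₂_pow, eval₂_X, eval₂_pow, eval₂_add, eval₂_X, eval₂_ofNat]
  exact ttrph_h2_identity M hmem

/-- the clearing relation of the chart `h₃` : `E = X³`, `G = (X + 27) (X + 243)³`. -/
theorem ttrph_rel_three (hmem : GrdSerMem M (s18hq 3 (s18hExp 3) ℤ)) :
    grdQ M (grdi_mem_j M) * ((X : (↥A)[X]) ^ 3).eval₂ (grdInclA M A) (grdQ M hmem) =
      (((X : (↥A)[X]) + 27) * ((X : (↥A)[X]) + 243) ^ 3).eval₂ (grdInclA M A) (grdQ M hmem) := by
  rw [eval₂_pow, eval₂_X, eval₂_mul, eval₂_pow, eval₂_add, eval₂_add, eval₂_X, eval₂_ofNat,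
    eval₂_ofNat]
  exact ttrph_h3_identity M hmem

/-- `E(u) = u^k` for `E = X^k`. -/
theorem ttrph_eval_X_pow (u : modularFunctionFieldBar M) (k : ℕ) :
    ((X : (↥A)[X]) ^ k).eval₂ (grdInclA M A) u = u ^ k := by
  rw [eval₂_pow, eval₂_X]

/-- `h₂² j` is integral over `𝔸[h₂]`. -/
theorem ttrph_two_mul_j_isInt (hmem : GrdSerMem M (s18hq 2 (s18hExp 2) ℤ)) :
    GrdIsInt M A (grdQ M hmem) (grdQ M hmem ^ 2 * grdQ M (grdi_mem_j M)) := by
  have h := ttrph_rel_two M A hmem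
  rw [ttrph_eval_X_pow] at h
  rw [mul_comm, h]
  exact ttrph_eval_isInt M (grdQ M hmem) _

/-- `h₃³ j` is integral over `𝔸[h₃]`. -/
theorem ttrph_three_mul_j_isInt (hmem : GrdSerMem M (s18hq 3 (s18hExp 3) ℤ)) :
    GrdIsInt M A (grdQ M hmem) (grdQ M hmem ^ 3 * grdQ M (grdi_mem_j M)) := by
  have h := ttrph_rel_three M A hmem
  rw [ttrph_eval_X_pow] at h
  rw [mul_comm, h]
  exact ttrph_eval_isInt M (grdQ M hmem) _

end Ident

/-! ### the same with a clearing element `e` whose POWER `e^a` clears `j₀`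

For the Hauptmodul `h = h_a` : `e = h` itself, `h^a j ∈ 𝔸[h]`, and the good function of the chart
is `(φ h)^N (Y^p - φ j)` for ANY `N` (helper17's `ttrc_chart_h₁/₂`, `v₁ = (α h)^N u₂`). -/

section Pow

variable {M p : ℕ} [NeZero M] [NeZero p] {ℓ : ℕ} [Fact ℓ.Prime]
variable {A : ValuationSubring Qb}
variable {τ τ' : LaurentSeries ℤ}

/-- the value of `j₀` at a place where `e` has a unit value and `e^a j₀` has a value in `𝔸`. -/
theorem ttrph_val_j (P₀ : Place Qb (modularFunctionFieldBar M))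
    (e j₀ : modularFunctionFieldBar M) (a : ℕ) {ε ψ : ↥A} (hεu : IsUnit ε)
    (hε : GrdVal P₀ e (ε : Qb)) (hψ : GrdVal P₀ (e ^ a * j₀) (ψ : Qb)) :
    ∃ J₀ : ↥A, GrdVal P₀ j₀ (J₀ : Qb) ∧ ε ^ a * J₀ = ψ := by
  obtain ⟨εu, rfl⟩ := hεu
  set δ : (↥A)ˣ := εu ^ a with hδ
  have hδv : ((δ : ↥A)) = (εu : ↥A) ^ a := Units.val_pow_eq_pow_val εu a
  have hεa : GrdVal P₀ (e ^ a) (((δ : ↥A)) : Qb) := by
    have := ttrph_val_pow P₀ hε a
    rw [hδv]
    simpa using this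
  have hδ0 : (((δ : ↥A)) : Qb) ≠ 0 := by
    intro h0
    exact δ.ne_zero (Subtype.ext h0)
  refine ⟨ψ * ((δ⁻¹ : (↥A)ˣ) : ↥A), ?_, ?_⟩
  · have h1 := ttrph_val_div P₀ hδ0 hεa hψ
    have h2 : (((ψ * ((δ⁻¹ : (↥A)ˣ) : ↥A) : ↥A)) : Qb) = (ψ : Qb) / ((δ : ↥A) : Qb) := by
      rw [div_eq_mul_inv, ← ttrph_coe_inv δ]
      rfl
    rw [h2]
    exact h1
  · rw [← hδv, mul_comm ψ, ← mul_assoc, Units.mul_inv, one_mul]

/-- **`(B3)` for `(φ u₀, (φ e)^m (Y^p - φ j₀))`**, `e^a j₀` integral over `𝔸[u₀]` : over a place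
`P₀` of the chart with good reduction for `j̄₀`, off the zeros of `ē`, there is exactly one good
place, and it is unramified. -/
theorem ttrph_fib_pow (hℓM : ¬ ℓ ∣ M) (hA : A.LiesOverPrime ℓ) (hat : GrdAtlas M A τ τ')
    (r : Place Qb (modularFunctionFieldBar M) →
      Place (ResidueField A) (modularFunctionFieldFullC (ResidueField A) M))
    (hr : GrdIsRed M A hat.c.mem hat.c'.mem r)
    (φ : modularFunctionFieldBar M →ₐ[Qb] modularFunctionFieldBar (M * p))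
    (hφ : φ.toRingHom.IsIntegral) (hfin : FiniteAlong Qb φ)
    (j₀ : modularFunctionFieldBar M) (hj₀ : j₀ ∈ grdO M A)
    (Y : modularFunctionFieldBar (M * p)) (hK : TtrpKron M p A φ j₀ Y)
    (hYint : Y ∈ grdB (M * p) A (φ j₀))
    (e : modularFunctionFieldBar M) (he : e ∈ grdO M A)
    (heint : GrdIsInt M A (grdQ M hat.c.mem) e) (a : ℕ)
    (hejint : GrdIsInt M A (grdQ M hat.c.mem) (e ^ a * j₀)) (m : ℕ)
    (P₀ : Place Qb (modularFunctionFieldBar M))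
    (hQ : grdK M A hat.c.mem ∈ (r P₀).toValuationSubring)
    (hgood : ttrpGoodQ M p A (grdRed M A ⟨j₀, hj₀⟩) (r P₀))
    (hegood : ¬ GrdVal (r P₀) (grdRed M A ⟨e, he⟩) 0) :
    ∃ P : Place Qb (modularFunctionFieldBar (M * p)),
      TtrpGoodC M p A (φ (grdQ M hat.c.mem)) (φ e ^ m * (Y ^ p - φ j₀)) P ∧
      ttrpRes M p φ hφ P = P₀ ∧ P.ramificationIndexAlong φ = 1 ∧
      ∀ P' : Place Qb (modularFunctionFieldBar (M * p)),
        TtrpGoodC M p A (φ (grdQ M hat.c.mem)) (φ e ^ m * (Y ^ p - φ j₀)) P' →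
          ttrpRes M p φ hφ P' = P₀ → P' = P := by
  obtain ⟨Φ, hkron, hgen, hmin, hdeg⟩ := hK
  obtain ⟨hP₀c, hP₀rel⟩ := (grdf_fibre M A hℓM hA hat r hr (r P₀) hQ P₀).mp rfl
  obtain ⟨ε, hε⟩ := grd_val_exists M A hat.c P₀ hP₀c heint
  obtain ⟨ψ, hψ⟩ := grd_val_exists M A hat.c P₀ hP₀c hejint
  have hpowmem : e ^ a ∈ grdO M A := (grdO M A).pow_mem he a
  have hmulmem : e ^ a * j₀ ∈ grdO M A := (grdO M A).mul_mem hpowmem hj₀
  have hεQ := hP₀rel e he heint ε hε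
  have hψQ := hP₀rel (e ^ a * j₀) hmulmem hejint ψ hψ
  have hεres : residue ↥A ε ≠ 0 := by
    intro h0
    rw [h0] at hεQ
    exact hegood hεQ
  have hεu : IsUnit ε := by
    by_contra hnu
    exact hεres ((residue_eq_zero_iff ε).mpr ((mem_maximalIdeal ε).mpr hnu))
  obtain ⟨J₀, hJ₀, hJ₀ψ⟩ := ttrph_val_j P₀ e j₀ a hεu hε hψ
  obtain ⟨c, hc, hcne⟩ := hgood
  have hredmul : grdRed M A ⟨e ^ a * j₀, hmulmem⟩ =
      grdRed M A ⟨e, he⟩ ^ a * grdRed M A ⟨j₀, hj₀⟩ := by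
    rw [← map_pow, ← map_mul]
    rfl
  have hψc : residue ↥A ψ = residue ↥A ε ^ a * c := by
    rw [hredmul] at hψQ
    exact grdg_val_unique (r P₀) hψQ (grdg_val_mul (r P₀) (ttrph_val_pow (r P₀) hεQ a) hc)
  have hcJ : residue ↥A J₀ = c := by
    have h1 : residue ↥A ε ^ a * residue ↥A J₀ = residue ↥A ε ^ a * c := by
      rw [← hψc, ← hJ₀ψ, map_mul, map_pow]
    exact mul_left_cancel₀ (pow_ne_zero a hεres) h1
  obtain ⟨P, hPg, hPP₀, hPe, hPuniq⟩ := ttrp_fib φ hφ hfin j₀ j₀ Y Φ hkron hgen hmin hdeg hYint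
    P₀ ⟨J₀, hJ₀⟩ J₀ hJ₀ (by rw [hcJ]; exact hcne)
  have hiff : ∀ P' : Place Qb (modularFunctionFieldBar (M * p)), ttrpRes M p φ hφ P' = P₀ →
      (TtrpGoodC M p A (φ (grdQ M hat.c.mem)) (φ e ^ m * (Y ^ p - φ j₀)) P' ↔
        TtrpGoodC M p A (φ j₀) (Y ^ p - φ j₀) P') := fun P' hP' =>
    ttrph_goodC_iff φ hφ (grdQ M hat.c.mem) j₀ e (Y ^ p - φ j₀) m P₀ hP₀c ⟨J₀, hJ₀⟩
      hεu hε P' hP'
  exact ⟨P, (hiff P hPP₀).mpr hPg, hPP₀, hPe,
    fun P' hP'g hP'P₀ => hPuniq P' ((hiff P' hP'P₀).mp hP'g) hP'P₀⟩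

/-- **TRANSFER**, power form : if `(φ e)^m v = (φ e) w` with `w` integral over `𝔸[φ u₀]` and
`e`, `e^a j₀` integral over `𝔸[u₀]`, a good place of `(φ u₀, (φ e)^m v)` is a good place of
`(φ j₀, v)`, `e` has a unit value at the place below and `j₀` has a value in `𝔸` there. -/
theorem ttrph_transfer_pow (φ : modularFunctionFieldBar M →ₐ[Qb] modularFunctionFieldBar (M * p))
    (hφ : φ.toRingHom.IsIntegral) (u₀ j₀ e : modularFunctionFieldBar M)
    (heint : GrdIsInt M A u₀ e) (a : ℕ) (hejint : GrdIsInt M A u₀ (e ^ a * j₀))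
    (v w : modularFunctionFieldBar (M * p)) (m : ℕ)
    (hw : w ∈ grdB (M * p) A (φ u₀)) (hvw : φ e ^ m * v = φ e * w)
    (P : Place Qb (modularFunctionFieldBar (M * p)))
    (hPg : TtrpGoodC M p A (φ u₀) (φ e ^ m * v) P) :
    TtrpGoodC M p A (φ j₀) v P ∧
      (∃ J₀ : ↥A, GrdVal (ttrpRes M p φ hφ P) j₀ (J₀ : Qb)) ∧
      ∃ ε : ↥A, IsUnit ε ∧ GrdVal (ttrpRes M p φ hφ P) e (ε : Qb) := by
  have hP₀c : GrdInChart M A u₀ (ttrpRes M p φ hφ P) := (ttrp_inChart_res hφ u₀ P).mpr hPg.1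
  obtain ⟨ε, hε⟩ := ttrp_val_exists M A u₀ (ttrpRes M p φ hφ P) hP₀c heint
  obtain ⟨ψ, hψ⟩ := ttrp_val_exists M A u₀ (ttrpRes M p φ hφ P) hP₀c hejint
  obtain ⟨ω, hω⟩ := ttrp_val_exists (M * p) A (φ u₀) P hPg.1 hw
  have h3 : GrdVal P (φ e) (ε : Qb) := (ttrp_val_res φ hφ P e _).mp hε
  have hεu : IsUnit ε := by
    by_contra hnu
    apply hPg.2
    refine ⟨((ε * ω : ↥A) : Qb), ?_, ?_⟩
    · rw [ValuationSubring.mem_nonunits_iff_exists_mem_maximalIdeal]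
      exact ⟨(ε * ω : ↥A).2, Ideal.mul_mem_right _ _ ((mem_maximalIdeal ε).mpr hnu)⟩
    · rw [hvw]
      exact grdg_val_mul P h3 hω
  obtain ⟨J₀, hJ₀, -⟩ := ttrph_val_j (ttrpRes M p φ hφ P) e j₀ a hεu hε hψ
  exact ⟨(ttrph_goodC_iff φ hφ u₀ j₀ e v m (ttrpRes M p φ hφ P) hP₀c ⟨_, hJ₀⟩
    hεu hε P rfl).mp hPg, ⟨_, hJ₀⟩, ε, hεu, hε⟩

/-- `(B3)`, power form, in the shape `hfib` of `ttrp_exists_fixed_good` / `ttrla_fixed`. -/
theorem ttrph_hfib_pow (hℓM : ¬ ℓ ∣ M) (hA : A.LiesOverPrime ℓ) (hat : GrdAtlas M A τ τ')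
    (r : Place Qb (modularFunctionFieldBar M) →
      Place (ResidueField A) (modularFunctionFieldFullC (ResidueField A) M))
    (hr : GrdIsRed M A hat.c.mem hat.c'.mem r)
    (φ : modularFunctionFieldBar M →ₐ[Qb] modularFunctionFieldBar (M * p))
    (hφ : φ.toRingHom.IsIntegral) (hfin : FiniteAlong Qb φ)
    (j₀ : modularFunctionFieldBar M) (hj₀ : j₀ ∈ grdO M A)
    (Y : modularFunctionFieldBar (M * p)) (hK : TtrpKron M p A φ j₀ Y)
    (hYint : Y ∈ grdB (M * p) A (φ j₀))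
    (e : modularFunctionFieldBar M) (he : e ∈ grdO M A)
    (heint : GrdIsInt M A (grdQ M hat.c.mem) e) (a : ℕ)
    (hejint : GrdIsInt M A (grdQ M hat.c.mem) (e ^ a * j₀)) (m : ℕ)
    (P₀ : Place Qb (modularFunctionFieldBar M))
    (hQ : grdK M A hat.c.mem ∈ (r P₀).toValuationSubring)
    (hgood : ttrpGoodQ M p A (grdRed M A ⟨j₀, hj₀⟩) (r P₀))
    (hegood : ¬ GrdVal (r P₀) (grdRed M A ⟨e, he⟩) 0) :
    ∃ P : Place Qb (modularFunctionFieldBar (M * p)),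
      TtrpGoodC M p A (φ (grdQ M hat.c.mem)) (φ e ^ m * (Y ^ p - φ j₀)) P ∧
      ttrpRes M p φ hφ P = P₀ ∧
      ∀ P' : Place Qb (modularFunctionFieldBar (M * p)),
        TtrpGoodC M p A (φ (grdQ M hat.c.mem)) (φ e ^ m * (Y ^ p - φ j₀)) P' →
          ttrpRes M p φ hφ P' = P₀ → P' = P := by
  obtain ⟨P, h1, h2, -, h3⟩ := ttrph_fib_pow hℓM hA hat r hr φ hφ hfin j₀ hj₀ Y hK hYint e he
    heint a hejint m P₀ hQ hgood hegood
  exact ⟨P, h1, h2, h3⟩

/-- INERTIA-FIXED GOOD LIFTS, power form. -/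
theorem ttrph_exists_fixed_good_pow (hℓM : ¬ ℓ ∣ M) (hA : A.LiesOverPrime ℓ)
    (hat : GrdAtlas M A τ τ')
    (r : Place Qb (modularFunctionFieldBar M) →
      Place (ResidueField A) (modularFunctionFieldFullC (ResidueField A) M))
    (hr : GrdIsRed M A hat.c.mem hat.c'.mem r)
    (S : Set (Qb ≃ₐ[ℚ] Qb)) (hS : ∀ σ ∈ S, IsInertial A σ)
    (hW : ∀ c : ResidueField A, ∃ α : A, residue A α = c ∧ ∀ σ ∈ S, σ (α : Qb) = α)
    (φ : modularFunctionFieldBar M →ₐ[Qb] modularFunctionFieldBar (M * p))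
    (hφ : φ.toRingHom.IsIntegral) (hfin : FiniteAlong Qb φ)
    (hint : ∀ σ ∈ S,
      SemilinearAut.IntertwinesAlong φ.toRingHom (ffipG M σ) (ffipG (M * p) σ))
    (j₀ : modularFunctionFieldBar M) (hj₀ : j₀ ∈ grdO M A)
    (Y : modularFunctionFieldBar (M * p)) (hK : TtrpKron M p A φ j₀ Y)
    (hYint : Y ∈ grdB (M * p) A (φ j₀))
    (e : modularFunctionFieldBar M) (he : e ∈ grdO M A)
    (heint : GrdIsInt M A (grdQ M hat.c.mem) e) (a : ℕ)
    (hejint : GrdIsInt M A (grdQ M hat.c.mem) (e ^ a * j₀)) (m : ℕ)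
    (hv : ∀ σ ∈ S, ffipG (M * p) σ • (φ e ^ m * (Y ^ p - φ j₀)) = φ e ^ m * (Y ^ p - φ j₀))
    (Q : Place (ResidueField A) (modularFunctionFieldFullC (ResidueField A) M))
    (hQ : Q ∉ ffipBad M A hat)
    (hgood : ttrpGoodQ M p A (grdRed M A ⟨j₀, hj₀⟩) Q)
    (hegood : ¬ GrdVal Q (grdRed M A ⟨e, he⟩) 0) :
    ∃ P : Place Qb (modularFunctionFieldBar (M * p)),
      P ∈ ttrpS M p A φ hφ r (φ (grdQ M hat.c.mem)) (φ e ^ m * (Y ^ p - φ j₀)) Q ∧
        ∀ σ ∈ S, ffipG (M * p) σ • P = P := by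
  refine ttrp_exists_fixed_good M p hℓM hA hat r hr S hS hW φ hφ hint _ _
    (fun σ hσ => ttrp_coord_fixed M p σ φ (hint σ hσ) hat.c.mem) hv
    (fun Q' => grdK M A hat.c.mem ∈ Q'.toValuationSubring ∧
      ttrpGoodQ M p A (grdRed M A ⟨j₀, hj₀⟩) Q' ∧ ¬ GrdVal Q' (grdRed M A ⟨e, he⟩) 0) ?_ Q hQ
    ⟨ffip_mem_of_not_bad M A hat Q hQ, hgood, hegood⟩
  intro P₀ hP₀
  exact ttrph_hfib_pow hℓM hA hat r hr φ hφ hfin j₀ hj₀ Y hK hYint e he heint a hejint m P₀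
    hP₀.1 hP₀.2.1 hP₀.2.2

end Pow

/-! ### the chart coordinate itself as clearing element : helper17's spelling `(φ h)^N (Y^p - φ j₀)`

`e := h = grdQ M hat.c.mem`, `h^a j₀` integral over `𝔸[h]` (`a = 2` for `h₂`, `a = 3` for `h₃`).
Index 1 : `(φ, Y) = (α, β j)`, `v₁ = (α h)^N u₂`, `u₂ = Y^p - α j`;
index 2 : `(φ, Y) = (β, α j)`, `v₂ = (β h)^N u₁`, `u₁ = β j - Y^p` (the FLIPPED difference). -/

section Hspelling

variable {M p : ℕ} [NeZero M] [NeZero p] {ℓ : ℕ} [Fact ℓ.Prime]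
variable {A : ValuationSubring Qb}
variable {τ τ' : LaurentSeries ℤ}

/-- goodness does not see the sign of `v`. -/
theorem ttrph_goodC_neg (u v : modularFunctionFieldBar (M * p))
    (P : Place Qb (modularFunctionFieldBar (M * p))) :
    TtrpGoodC M p A u (-v) P ↔ TtrpGoodC M p A u v P := by
  have key : ∀ x : modularFunctionFieldBar (M * p),
      (∃ a : Qb, a ∈ A.nonunits ∧ GrdVal P x a) → ∃ a : Qb, a ∈ A.nonunits ∧ GrdVal P (-x) a := by
    rintro x ⟨a, ha, hva⟩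
    refine ⟨-a, ?_, grdg_val_neg P hva⟩
    rw [ValuationSubring.mem_nonunits_iff] at ha ⊢
    rw [Valuation.map_neg]
    exact ha
  unfold TtrpGoodC
  constructor
  · rintro ⟨h1, h2⟩
    exact ⟨h1, fun h => h2 (key v h)⟩
  · rintro ⟨h1, h2⟩
    refine ⟨h1, fun h => h2 ?_⟩
    have := key (-v) h
    rwa [neg_neg] at this

/-- the flipped difference is the negative. -/
theorem ttrph_flip (c x y : modularFunctionFieldBar (M * p)) : c * (x - y) = -(c * (y - x)) := by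
  ring

/-- goodness for the flipped difference. -/
theorem ttrph_goodC_flip (u c x y : modularFunctionFieldBar (M * p))
    (P : Place Qb (modularFunctionFieldBar (M * p))) :
    TtrpGoodC M p A u (c * (x - y)) P ↔ TtrpGoodC M p A u (c * (y - x)) P := by
  rw [ttrph_flip c x y]
  exact ttrph_goodC_neg u _ P

/-- the good disc of the flipped difference. -/
theorem ttrph_S_flip (φ : modularFunctionFieldBar M →ₐ[Qb] modularFunctionFieldBar (M * p))
    (hφ : φ.toRingHom.IsIntegral)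
    (r : Place Qb (modularFunctionFieldBar M) →
      Place (ResidueField A) (modularFunctionFieldFullC (ResidueField A) M))
    (u c x y : modularFunctionFieldBar (M * p))
    (Q : Place (ResidueField A) (modularFunctionFieldFullC (ResidueField A) M)) :
    ttrpS M p A φ hφ r u (c * (x - y)) Q = ttrpS M p A φ hφ r u (c * (y - x)) Q := by
  ext P
  show (TtrpGoodC M p A u (c * (x - y)) P ∧ _) ↔ (TtrpGoodC M p A u (c * (y - x)) P ∧ _)
  rw [ttrph_goodC_flip u c x y P]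

/-- `(B3)` in the shape `hfib` at helper17's `v₁ = (φ h)^N (Y^p - φ j₀)`. -/
theorem ttrph_hfib_h (hℓM : ¬ ℓ ∣ M) (hA : A.LiesOverPrime ℓ) (hat : GrdAtlas M A τ τ')
    (r : Place Qb (modularFunctionFieldBar M) →
      Place (ResidueField A) (modularFunctionFieldFullC (ResidueField A) M))
    (hr : GrdIsRed M A hat.c.mem hat.c'.mem r)
    (φ : modularFunctionFieldBar M →ₐ[Qb] modularFunctionFieldBar (M * p))
    (hφ : φ.toRingHom.IsIntegral) (hfin : FiniteAlong Qb φ)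
    (j₀ : modularFunctionFieldBar M) (hj₀ : j₀ ∈ grdO M A)
    (Y : modularFunctionFieldBar (M * p)) (hK : TtrpKron M p A φ j₀ Y)
    (hYint : Y ∈ grdB (M * p) A (φ j₀)) (a : ℕ)
    (hejint : GrdIsInt M A (grdQ M hat.c.mem) (grdQ M hat.c.mem ^ a * j₀)) (N : ℕ)
    (P₀ : Place Qb (modularFunctionFieldBar M))
    (hQ : grdK M A hat.c.mem ∈ (r P₀).toValuationSubring)
    (hgood : ttrpGoodQ M p A (grdRed M A ⟨j₀, hj₀⟩) (r P₀))
    (hegood : ¬ GrdVal (r P₀) (grdK M A hat.c.mem) 0) :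
    ∃ P : Place Qb (modularFunctionFieldBar (M * p)),
      TtrpGoodC M p A (φ (grdQ M hat.c.mem)) (φ (grdQ M hat.c.mem) ^ N * (Y ^ p - φ j₀)) P ∧
      ttrpRes M p φ hφ P = P₀ ∧
      ∀ P' : Place Qb (modularFunctionFieldBar (M * p)),
        TtrpGoodC M p A (φ (grdQ M hat.c.mem))
          (φ (grdQ M hat.c.mem) ^ N * (Y ^ p - φ j₀)) P' →
          ttrpRes M p φ hφ P' = P₀ → P' = P := by
  refine ttrph_hfib_pow hℓM hA hat r hr φ hφ hfin j₀ hj₀ Y hK hYint (grdQ M hat.c.mem)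
    (grdQ_mem_grdO M A hat.c.mem) (grdr_isInt_self M A _) a hejint N P₀ hQ hgood ?_
  rw [grdRed_grdQ]
  exact hegood

/-- `(B3)` in the shape `hfib` at helper17's `v₂ = (φ h)^N (φ j₀ - Y^p)` (flipped). -/
theorem ttrph_hfib_h' (hℓM : ¬ ℓ ∣ M) (hA : A.LiesOverPrime ℓ) (hat : GrdAtlas M A τ τ')
    (r : Place Qb (modularFunctionFieldBar M) →
      Place (ResidueField A) (modularFunctionFieldFullC (ResidueField A) M))
    (hr : GrdIsRed M A hat.c.mem hat.c'.mem r)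
    (φ : modularFunctionFieldBar M →ₐ[Qb] modularFunctionFieldBar (M * p))
    (hφ : φ.toRingHom.IsIntegral) (hfin : FiniteAlong Qb φ)
    (j₀ : modularFunctionFieldBar M) (hj₀ : j₀ ∈ grdO M A)
    (Y : modularFunctionFieldBar (M * p)) (hK : TtrpKron M p A φ j₀ Y)
    (hYint : Y ∈ grdB (M * p) A (φ j₀)) (a : ℕ)
    (hejint : GrdIsInt M A (grdQ M hat.c.mem) (grdQ M hat.c.mem ^ a * j₀)) (N : ℕ)
    (P₀ : Place Qb (modularFunctionFieldBar M))
    (hQ : grdK M A hat.c.mem ∈ (r P₀).toValuationSubring)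
    (hgood : ttrpGoodQ M p A (grdRed M A ⟨j₀, hj₀⟩) (r P₀))
    (hegood : ¬ GrdVal (r P₀) (grdK M A hat.c.mem) 0) :
    ∃ P : Place Qb (modularFunctionFieldBar (M * p)),
      TtrpGoodC M p A (φ (grdQ M hat.c.mem)) (φ (grdQ M hat.c.mem) ^ N * (φ j₀ - Y ^ p)) P ∧
      ttrpRes M p φ hφ P = P₀ ∧
      ∀ P' : Place Qb (modularFunctionFieldBar (M * p)),
        TtrpGoodC M p A (φ (grdQ M hat.c.mem))
          (φ (grdQ M hat.c.mem) ^ N * (φ j₀ - Y ^ p)) P' →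
          ttrpRes M p φ hφ P' = P₀ → P' = P := by
  obtain ⟨P, h1, h2, h3⟩ := ttrph_hfib_h hℓM hA hat r hr φ hφ hfin j₀ hj₀ Y hK hYint a hejint N
    P₀ hQ hgood hegood
  exact ⟨P, (ttrph_goodC_flip _ _ _ _ P).mp h1, h2,
    fun P' hP' hP'P₀ => h3 P' ((ttrph_goodC_flip _ _ _ _ P').mp hP') hP'P₀⟩

/-- INERTIA-FIXED GOOD LIFTS at helper17's `v₁ = (φ h)^N (Y^p - φ j₀)` : every `Q` off the bad
set of level `M`, good for `j̄₀`, with `h̄(Q) ≠ 0`. -/
theorem ttrph_exists_fixed_good_h (hℓM : ¬ ℓ ∣ M) (hA : A.LiesOverPrime ℓ)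
    (hat : GrdAtlas M A τ τ')
    (r : Place Qb (modularFunctionFieldBar M) →
      Place (ResidueField A) (modularFunctionFieldFullC (ResidueField A) M))
    (hr : GrdIsRed M A hat.c.mem hat.c'.mem r)
    (S : Set (Qb ≃ₐ[ℚ] Qb)) (hS : ∀ σ ∈ S, IsInertial A σ)
    (hW : ∀ c : ResidueField A, ∃ α : A, residue A α = c ∧ ∀ σ ∈ S, σ (α : Qb) = α)
    (φ : modularFunctionFieldBar M →ₐ[Qb] modularFunctionFieldBar (M * p))
    (hφ : φ.toRingHom.IsIntegral) (hfin : FiniteAlong Qb φ)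
    (hint : ∀ σ ∈ S,
      SemilinearAut.IntertwinesAlong φ.toRingHom (ffipG M σ) (ffipG (M * p) σ))
    (j₀ : modularFunctionFieldBar M) (hj₀ : j₀ ∈ grdO M A)
    (Y : modularFunctionFieldBar (M * p)) (hK : TtrpKron M p A φ j₀ Y)
    (hYint : Y ∈ grdB (M * p) A (φ j₀)) (a : ℕ)
    (hejint : GrdIsInt M A (grdQ M hat.c.mem) (grdQ M hat.c.mem ^ a * j₀)) (N : ℕ)
    (hv : ∀ σ ∈ S, ffipG (M * p) σ • (Y ^ p - φ j₀) = Y ^ p - φ j₀)
    (Q : Place (ResidueField A) (modularFunctionFieldFullC (ResidueField A) M))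
    (hQ : Q ∉ ffipBad M A hat)
    (hgood : ttrpGoodQ M p A (grdRed M A ⟨j₀, hj₀⟩) Q)
    (hegood : ¬ GrdVal Q (grdK M A hat.c.mem) 0) :
    ∃ P : Place Qb (modularFunctionFieldBar (M * p)),
      P ∈ ttrpS M p A φ hφ r (φ (grdQ M hat.c.mem))
        (φ (grdQ M hat.c.mem) ^ N * (Y ^ p - φ j₀)) Q ∧
        ∀ σ ∈ S, ffipG (M * p) σ • P = P := by
  refine ttrph_exists_fixed_good_pow hℓM hA hat r hr S hS hW φ hφ hfin hint j₀ hj₀ Y hK hYint
    (grdQ M hat.c.mem) (grdQ_mem_grdO M A hat.c.mem) (grdr_isInt_self M A _) a hejint N ?_ Q hQ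
    hgood ?_
  · intro σ hσ
    rw [smul_mul', smul_pow', ttrp_coord_fixed M p σ φ (hint σ hσ) hat.c.mem, hv σ hσ]
  · rw [grdRed_grdQ]
    exact hegood

/-- INERTIA-FIXED GOOD LIFTS at helper17's `v₂ = (φ h)^N (φ j₀ - Y^p)` (flipped). -/
theorem ttrph_exists_fixed_good_h' (hℓM : ¬ ℓ ∣ M) (hA : A.LiesOverPrime ℓ)
    (hat : GrdAtlas M A τ τ')
    (r : Place Qb (modularFunctionFieldBar M) →
      Place (ResidueField A) (modularFunctionFieldFullC (ResidueField A) M))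
    (hr : GrdIsRed M A hat.c.mem hat.c'.mem r)
    (S : Set (Qb ≃ₐ[ℚ] Qb)) (hS : ∀ σ ∈ S, IsInertial A σ)
    (hW : ∀ c : ResidueField A, ∃ α : A, residue A α = c ∧ ∀ σ ∈ S, σ (α : Qb) = α)
    (φ : modularFunctionFieldBar M →ₐ[Qb] modularFunctionFieldBar (M * p))
    (hφ : φ.toRingHom.IsIntegral) (hfin : FiniteAlong Qb φ)
    (hint : ∀ σ ∈ S,
      SemilinearAut.IntertwinesAlong φ.toRingHom (ffipG M σ) (ffipG (M * p) σ))
    (j₀ : modularFunctionFieldBar M) (hj₀ : j₀ ∈ grdO M A)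
    (Y : modularFunctionFieldBar (M * p)) (hK : TtrpKron M p A φ j₀ Y)
    (hYint : Y ∈ grdB (M * p) A (φ j₀)) (a : ℕ)
    (hejint : GrdIsInt M A (grdQ M hat.c.mem) (grdQ M hat.c.mem ^ a * j₀)) (N : ℕ)
    (hv : ∀ σ ∈ S, ffipG (M * p) σ • (φ j₀ - Y ^ p) = φ j₀ - Y ^ p)
    (Q : Place (ResidueField A) (modularFunctionFieldFullC (ResidueField A) M))
    (hQ : Q ∉ ffipBad M A hat)
    (hgood : ttrpGoodQ M p A (grdRed M A ⟨j₀, hj₀⟩) Q)
    (hegood : ¬ GrdVal Q (grdK M A hat.c.mem) 0) :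
    ∃ P : Place Qb (modularFunctionFieldBar (M * p)),
      P ∈ ttrpS M p A φ hφ r (φ (grdQ M hat.c.mem))
        (φ (grdQ M hat.c.mem) ^ N * (φ j₀ - Y ^ p)) Q ∧
        ∀ σ ∈ S, ffipG (M * p) σ • P = P := by
  rw [ttrph_S_flip]
  refine ttrph_exists_fixed_good_h hℓM hA hat r hr S hS hW φ hφ hfin hint j₀ hj₀ Y hK hYint a
    hejint N ?_ Q hQ hgood hegood
  intro σ hσ
  have h := hv σ hσ
  have h2 : Y ^ p - φ j₀ = -(φ j₀ - Y ^ p) := by ring
  rw [h2, smul_neg, h]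

/-- TRANSFER at helper17's spelling : a good place of `(φ h, (φ h)^N v)` is a good place of
`(φ j₀, v)` as soon as `(φ h)^(N-1) v` is integral over `𝔸[φ h]`. -/
theorem ttrph_transfer_h (φ : modularFunctionFieldBar M →ₐ[Qb] modularFunctionFieldBar (M * p))
    (hφ : φ.toRingHom.IsIntegral) (u₀ j₀ : modularFunctionFieldBar M) (a : ℕ)
    (hejint : GrdIsInt M A u₀ (u₀ ^ a * j₀))
    (v : modularFunctionFieldBar (M * p)) (N : ℕ)
    (hw : φ u₀ ^ N * v ∈ grdB (M * p) A (φ u₀))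
    (P : Place Qb (modularFunctionFieldBar (M * p)))
    (hPg : TtrpGoodC M p A (φ u₀) (φ u₀ ^ (N + 1) * v) P) :
    TtrpGoodC M p A (φ j₀) v P ∧
      (∃ J₀ : ↥A, GrdVal (ttrpRes M p φ hφ P) j₀ (J₀ : Qb)) ∧
      ∃ ε : ↥A, IsUnit ε ∧ GrdVal (ttrpRes M p φ hφ P) u₀ (ε : Qb) :=
  ttrph_transfer_pow φ hφ u₀ j₀ u₀ (grdr_isInt_self M A u₀) a hejint v (φ u₀ ^ N * v) (N + 1) hw
    (by rw [pow_succ]; ring) P hPg

end Hspelling

end Fermat.Agent.TT
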