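import Mathlib
import Fermat.Agent.TT.Red2.ClsInst
import Fermat.Agent.TT.Red2.ClsJ
import Fermat.Agent.TT.Red2.GoodFibH
import Fermat.Agent.TT.Red2.ChartSmallInst

/-!
# PROGRAM TT (S33), G/Red₂ LAYER B (owner helper6, prefix `ttrp`) : THE `h₂`-CHART INSTANCE
(`p = 3`, ROUTE J) OF THE FIELDS `lift_j`, `val_j` OF `TtgModel`

`h = h₂` (`2 ∣ M`), `N = 2 ((p + 1) p + 1)`,
`cls = ttrpCls M p 𝔸 r (α h) ((α h)^N u₂) (β h) ((β h)^N u₁)`, `u₁ = Y - J^p`, `u₂ = Y^p - J`,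
`T₁ = T₂ ⊇ ttrpT … j̄` — THE SAME exceptional set as for `p ≥ 5` (the bad set of level `M`,
`j̄ = ∞`, `j̄^{p²} = j̄`) : the zeros of `h̄` are poles of `j̄` (`j h² = (h + 256)³`, `2 ≠ 0` in `k`).
-/

set_option autoImplicit false
set_option linter.unusedSectionVars false
set_option linter.unusedVariables false
set_option linter.style.haveILetI false
set_option synthInstance.maxHeartbeats 400000

noncomputable section

namespace Fermat.Agent.TT

open ModularCurve AlgebraicCurve IsLocalRing Polynomial Fermat.Agent.S18 Fermat.Agent.S24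
  Fermat.Agent.G Fermat.Agent.FF Fermat.Agent.S05

local notation "Qb" => AlgebraicClosure ℚ

section Gen

variable {K F : Type*} [Field K] [Field F] [Algebra K F]

/-- a power with value `0` : the base has value `0`. -/
theorem ttrp_val_zero_of_pow (P : Place K F) {x : F} {n : ℕ} (h : GrdVal P (x ^ n) 0) :
    GrdVal P x 0 := by
  rw [grdg_val_zero_iff] at h ⊢
  rw [ValuationSubring.mem_nonunits_iff, map_pow] at h
  rw [ValuationSubring.mem_nonunits_iff]
  by_contra hcon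
  exact absurd h (not_lt.mpr (one_le_pow₀ (not_lt.mp hcon)))

end Gen

section Neg

variable {M p : ℕ} [NeZero M] [NeZero p] {A : ValuationSubring Qb}

/-- the good locus does not see the sign of `v`. -/
theorem ttrp_goodC_neg (u v : modularFunctionFieldBar (M * p))
    (P : Place Qb (modularFunctionFieldBar (M * p))) :
    TtrpGoodC M p A u (-v) P ↔ TtrpGoodC M p A u v P := by
  have key : ∀ x : modularFunctionFieldBar (M * p),
      (∃ a : Qb, a ∈ A.nonunits ∧ GrdVal P x a) → ∃ a : Qb, a ∈ A.nonunits ∧ GrdVal P (-x) a := by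
    rintro x ⟨a, ha, hxa⟩
    refine ⟨-a, ?_, grdg_val_neg P hxa⟩
    rw [ValuationSubring.mem_nonunits_iff, Valuation.map_neg]
    exact (ValuationSubring.mem_nonunits_iff _).mp ha
  unfold TtrpGoodC
  constructor
  · rintro ⟨h1, h2⟩
    exact ⟨h1, fun h => h2 (key v h)⟩
  · rintro ⟨h1, h2⟩
    refine ⟨h1, fun h => h2 ?_⟩
    have := key (-v) h
    rwa [neg_neg] at this

end Neg

section H

variable (M : ℕ) [NeZero M] {p : ℕ} [Fact p.Prime] [NeZero p]
variable (A : ValuationSubring Qb)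

/-- **the zeros of `h̄₂` are poles of `j̄`** (`j h₂² = (h₂ + 256)³`, `2 ≠ 0` in `k`) : at a point
where `j̄` has a finite value, `E(h̄) = h̄²` does not vanish. -/
theorem ttrp_h_egood (hA : A.LiesOverPrime p) (hp2 : p ≠ 2)
    (hmem : GrdSerMem M (s18hq 2 (s18hExp 2) ℤ))
    (Q : Place (ResidueField A) (modularFunctionFieldFullC (ResidueField A) M))
    {c : ResidueField A}
    (hc : GrdVal Q (grdRed M A ⟨grdQ M (grdi_mem_j M), grdQ_mem_grdO M A (grdi_mem_j M)⟩) c) :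
    ¬ GrdVal Q (grdRed M A ⟨((X : (↥A)[X]) ^ 2).eval₂ (grdInclA M A) (grdQ M hmem),
      grdga_eval_mem M A (grdQ_mem_grdO M A hmem) (X ^ 2)⟩) 0 := by
  intro h0
  haveI : CharP (ResidueField A) p := s18ac_charP A hA
  have e1 : (⟨((X : (↥A)[X]) ^ 2).eval₂ (grdInclA M A) (grdQ M hmem),
      grdga_eval_mem M A (grdQ_mem_grdO M A hmem) (X ^ 2)⟩ : ↥(grdO M A)) =
      ⟨grdQ M hmem, grdQ_mem_grdO M A hmem⟩ ^ 2 :=
    Subtype.ext ((ttrph_eval_X_pow M A (grdQ M hmem) 2).trans rfl)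
  rw [e1, map_pow] at h0
  have hh0 := ttrp_val_zero_of_pow Q h0
  have e2 : (⟨grdQ M (grdi_mem_j M), grdQ_mem_grdO M A (grdi_mem_j M)⟩ : ↥(grdO M A)) *
      ⟨grdQ M hmem, grdQ_mem_grdO M A hmem⟩ ^ 2 =
      (⟨grdQ M hmem, grdQ_mem_grdO M A hmem⟩ + 256) ^ 3 :=
    Subtype.ext (by
      simp only [Subring.coe_mul, Subring.coe_pow, Subring.coe_add]
      exact ttrph_h2_identity M hmem)
  have e3 := congrArg (grdRed M A) e2
  rw [map_mul, map_pow, map_pow, map_add, map_ofNat] at e3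
  have v1 := grdg_val_mul Q hc (grda_val_pow Q hh0 2)
  rw [e3] at v1
  have v2 := grda_val_pow Q (grdg_val_add Q hh0
    (grdg_val_algebraMap Q (256 : ResidueField A))) 3
  rw [map_ofNat] at v2
  have h3 := grdg_val_unique Q v1 v2
  have h4 : (256 : ResidueField A) = 0 := by
    have : ((0 : ResidueField A) + 256) ^ 3 = 0 := by rw [← h3]; ring
    rw [zero_add] at this
    exact pow_eq_zero_iff (by norm_num) |>.mp this
  have h5 : (2 : ResidueField A) = 0 := by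
    have : (2 : ResidueField A) ^ 8 = 0 := by rw [← h4]; norm_num
    exact pow_eq_zero_iff (by norm_num) |>.mp this
  have h6 : p ∣ 2 := by
    have : ((2 : ℕ) : ResidueField A) = 0 := by exact_mod_cast h5
    exact (CharP.cast_eq_zero_iff (ResidueField A) p 2).mp this
  exact hp2 ((Nat.prime_dvd_prime_iff_eq (Fact.out : p.Prime) Nat.prime_two).mp h6)

end H

section Fields

variable (M : ℕ) [NeZero M] {p : ℕ} [Fact p.Prime] [NeZero p]
variable (A : ValuationSubring Qb)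
variable {τ' : LaurentSeries ℤ}

/-- SPELLING : `φ(E(h))^m = (φ h)^{2 m}` for `E = X²`. -/
theorem ttrp_h_pow (φ : modularFunctionFieldBar M →ₐ[Qb] modularFunctionFieldBar (M * p))
    (h : modularFunctionFieldBar M) (m : ℕ) :
    φ (((X : (↥A)[X]) ^ 2).eval₂ (grdInclA M A) h) ^ m = φ h ^ (2 * m) := by
  rw [ttrph_eval_X_pow, map_pow, ← pow_mul]

/-- `T`-membership : off `ttrpT … j̄` the point is not bad at level `M`, `j̄` is good there, and
`h̄₂²` does not vanish there. -/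
theorem ttrp_h_good (hpM : ¬ p ∣ M) (hA : A.LiesOverPrime p) (hp2 : p ≠ 2)
    (hat : GrdAtlas M A (s18hq 2 (s18hExp 2) ℤ) τ')
    (T : Finset (Place (ResidueField A) (modularFunctionFieldFullC (ResidueField A) M)))
    (hT : ttrpT M p A hpM hA hat (ttrJk M A)
      (ttrH_ne_zero M A (Fact.out : p.Prime).one_lt) ⊆ T)
    (Q : Place (ResidueField A) (modularFunctionFieldFullC (ResidueField A) M)) (hQ : Q ∉ T) :
    Q ∉ ffipBad M A hat ∧ ttrpGoodQ M p A (grdRed M A ⟨_, (ttrJ0 M A).2⟩) Q ∧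
      ¬ GrdVal Q (grdRed M A ⟨((X : (↥A)[X]) ^ 2).eval₂ (grdInclA M A) (grdQ M hat.c.mem),
        grdga_eval_mem M A (grdQ_mem_grdO M A hat.c.mem) (X ^ 2)⟩) 0 := by
  have h := ttrp_of_notMem_T hpM hA hat (ttrJk M A)
    (ttrH_ne_zero M A (Fact.out : p.Prime).one_lt) Q (fun h => hQ (hT h))
  have e : grdRed M A ⟨_, (ttrJ0 M A).2⟩ = ttrJk M A := ttr_red_J0 M A
  have h2 : ttrpGoodQ M p A (grdRed M A ⟨_, (ttrJ0 M A).2⟩) Q := by
    rw [e]
    exact h.2
  refine ⟨h.1, h2, ?_⟩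
  obtain ⟨c, hc, -⟩ := h2
  exact ttrp_h_egood M A hA hp2 hat.c.mem Q hc

/-- **field `lift₁` of `TtgModel` at the level `M p`, `h₂`-chart (Route J), VERBATIM** :
`v₁ = (α h)^{2 m} u₂`, any `m`. -/
theorem ttrp_h_lift₁ (hpM : ¬ p ∣ M) (hA : A.LiesOverPrime p) (hp2 : p ≠ 2)
    (hat : GrdAtlas M A (s18hq 2 (s18hExp 2) ℤ) τ')
    (r : Place Qb (modularFunctionFieldBar M) →
      Place (ResidueField A) (modularFunctionFieldFullC (ResidueField A) M))
    (hr : GrdIsRed M A hat.c.mem hat.c'.mem r)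
    (u₂ v₂ : modularFunctionFieldBar (M * p)) (m : ℕ)
    (hK₁ : TtrpKron M p A (heckeAlphaBar Qb M p) (ttrJ0 M A : modularFunctionFieldBar M)
      (ttrY M A))
    (T₁ : Finset (Place (ResidueField A) (modularFunctionFieldFullC (ResidueField A) M)))
    (hT₁ : ttrpT M p A hpM hA hat (ttrJk M A)
      (ttrH_ne_zero M A (Fact.out : p.Prime).one_lt) ⊆ T₁) :
    ∀ Q : Place (ResidueField A) (modularFunctionFieldFullC (ResidueField A) M), Q ∉ T₁ →
      ∃ P : Place Qb (modularFunctionFieldBar (M * p)),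
        ttrpCls M p A r (heckeAlphaBar Qb M p (grdQ M hat.c.mem))
          (heckeAlphaBar Qb M p (grdQ M hat.c.mem) ^ (2 * m) * ttrU2 M A) u₂ v₂ P =
            some (Sum.inl Q) ∧
          ∀ σ : ↥(A.inertiaSubgroupIn ℚ), ffigRho (M * p) A σ • P = P := by
  refine ttrp_cls_lift₁ T₁ (fun Q hQ => ?_)
  obtain ⟨hQ1, hQ2, hQ3⟩ := ttrp_h_good M A hpM hA hp2 hat T₁ hT₁ Q hQ
  obtain ⟨P, hP, hfix⟩ := ttrph_kron_exists_fixed_good hpM hA hat r hr
    (↑(A.inertiaSubgroupIn ℚ) : Set (Qb ≃ₐ[ℚ] Qb))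
    (fun σ hσ => isInertial_of_mem_inertiaSubgroupIn A σ hσ)
    (fun c => by
      obtain ⟨a, h1, h2⟩ := ffiw_exists_fixed_lift A hA c
      exact ⟨a, h1, fun σ hσ => h2 σ hσ⟩)
    (heckeAlphaBar Qb M p) (gff_alpha_integral M p) (gff_alpha_finite M p)
    (fun σ _ => gasmhg_alpha_intertwines M p σ) (ttrJ0 M A : modularFunctionFieldBar M)
    (ttrJ0 M A).2 (ttrY M A) hK₁ (ttr_chart_Y_mem M A hpM hA) (X ^ 2) ((X + 256) ^ 3)
    (ttrph_rel_two M A hat.c.mem) m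
    (fun σ _ => by
      rw [ttrp_h_pow, smul_mul', smul_pow', ttrp_coord_fixed M p σ (heckeAlphaBar Qb M p)
        (gasmhg_alpha_intertwines M p σ) hat.c.mem]
      exact congrArg _ (ttrp_j_U2_fixed M A σ))
    Q hQ1 hQ2 hQ3
  rw [ttrp_h_pow] at hP
  exact ⟨P, hP, fun σ => hfix σ.1 σ.2⟩

/-- **field `lift₂` of `TtgModel` at the level `M p`, `h₂`-chart (Route J), VERBATIM** :
`v₂ = (β h)^{2 m} u₁`, any `m`. -/
theorem ttrp_h_lift₂ (hpM : ¬ p ∣ M) (hA : A.LiesOverPrime p) (hp2 : p ≠ 2)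
    (hat : GrdAtlas M A (s18hq 2 (s18hExp 2) ℤ) τ')
    (r : Place Qb (modularFunctionFieldBar M) →
      Place (ResidueField A) (modularFunctionFieldFullC (ResidueField A) M))
    (hr : GrdIsRed M A hat.c.mem hat.c'.mem r)
    (u₁ v₁ : modularFunctionFieldBar (M * p)) (m : ℕ)
    (hK₂ : TtrpKron M p A (heckeBetaBar Qb M p) (ttrJ0 M A : modularFunctionFieldBar M)
      (ttrJ M A))
    (hdisj : ∀ P : Place Qb (modularFunctionFieldBar (M * p)),
      TtrpGoodC M p A u₁ v₁ P →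
        TtrpGoodC M p A (heckeBetaBar Qb M p (grdQ M hat.c.mem))
          (heckeBetaBar Qb M p (grdQ M hat.c.mem) ^ (2 * m) * ttrU1 M A) P → False)
    (T₂ : Finset (Place (ResidueField A) (modularFunctionFieldFullC (ResidueField A) M)))
    (hT₂ : ttrpT M p A hpM hA hat (ttrJk M A)
      (ttrH_ne_zero M A (Fact.out : p.Prime).one_lt) ⊆ T₂) :
    ∀ Q : Place (ResidueField A) (modularFunctionFieldFullC (ResidueField A) M), Q ∉ T₂ →
      ∃ P : Place Qb (modularFunctionFieldBar (M * p)),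
        ttrpCls M p A r u₁ v₁ (heckeBetaBar Qb M p (grdQ M hat.c.mem))
          (heckeBetaBar Qb M p (grdQ M hat.c.mem) ^ (2 * m) * ttrU1 M A) P =
            some (Sum.inr Q) ∧
          ∀ σ : ↥(A.inertiaSubgroupIn ℚ), ffigRho (M * p) A σ • P = P := by
  refine ttrp_cls_lift₂ hdisj T₂ (fun Q hQ => ?_)
  obtain ⟨hQ1, hQ2, hQ3⟩ := ttrp_h_good M A hpM hA hp2 hat T₂ hT₂ Q hQ
  obtain ⟨P, hP, hfix⟩ := ttrph_kron_exists_fixed_good hpM hA hat r hr
    (↑(A.inertiaSubgroupIn ℚ) : Set (Qb ≃ₐ[ℚ] Qb))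
    (fun σ hσ => isInertial_of_mem_inertiaSubgroupIn A σ hσ)
    (fun c => by
      obtain ⟨a, h1, h2⟩ := ffiw_exists_fixed_lift A hA c
      exact ⟨a, h1, fun σ hσ => h2 σ hσ⟩)
    (heckeBetaBar Qb M p) (gff_beta_integral M p) (gff_beta_finite M p)
    (fun σ _ => gasmhg_beta_intertwines M p σ) (ttrJ0 M A : modularFunctionFieldBar M)
    (ttrJ0 M A).2 (ttrJ M A) hK₂ (ttrp_j_J_mem' M A hpM hA) (X ^ 2) ((X + 256) ^ 3)
    (ttrph_rel_two M A hat.c.mem) m
    (fun σ _ => by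
      rw [ttrp_h_pow, smul_mul', smul_pow', ttrp_coord_fixed M p σ (heckeBetaBar Qb M p)
        (gasmhg_beta_intertwines M p σ) hat.c.mem]
      exact congrArg _ (ttrp_j_v₂_fixed M A σ))
    Q hQ1 hQ2 hQ3
  rw [ttrp_h_pow] at hP
  have e : heckeBetaBar Qb M p (grdQ M hat.c.mem) ^ (2 * m) *
      (ttrJ M A (p := p) ^ p - heckeBetaBar Qb M p (ttrJ0 M A : modularFunctionFieldBar M)) =
      -(heckeBetaBar Qb M p (grdQ M hat.c.mem) ^ (2 * m) * ttrU1 M A) := by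
    rw [← mul_neg, ← ttrp_j_v₂_eq]
    rfl
  rw [e] at hP
  exact ⟨P, ⟨(ttrp_goodC_neg _ _ P).mp hP.1, hP.2⟩, fun σ => hfix σ.1 σ.2⟩

end Fields

section Final

variable (M : ℕ) [NeZero M] {p : ℕ} [Fact p.Prime] [NeZero p]
variable (A : ValuationSubring Qb)
variable {τ' : LaurentSeries ℤ}

/-- DISJOINTNESS of the two good loci in the `h₂`-chart (chart-package generic). -/
theorem ttrp_h_disj (hpM : ¬ p ∣ M) (hA : A.LiesOverPrime p)
    {υ : LaurentSeries ℤ} (hυ : GrdSerMem M υ) (N : ℕ)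
    (v₁ : modularFunctionFieldBar (M * p))
    (H₁ : TtrpChart M p A (heckeAlphaBar Qb M p) hυ (grdO (M * p) A) (ttrRed1 M A hA) v₁)
    (hv₂ : heckeBetaBar Qb M p (grdQ M hυ) ^ N * ttrU1 M A ∈
      grdB (M * p) A (heckeAlphaBar Qb M p (grdQ M hυ)))
    (u₂ : modularFunctionFieldBar (M * p)) (P : Place Qb (modularFunctionFieldBar (M * p)))
    (h1 : TtrpGoodC M p A (heckeAlphaBar Qb M p (grdQ M hυ)) v₁ P)
    (h2 : TtrpGoodC M p A u₂ (heckeBetaBar Qb M p (grdQ M hυ) ^ N * ttrU1 M A) P) : False :=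
  ttrp_disj H₁ u₂ _ hv₂ (ttrc_red_v2 M A hA hυ N _) P h1 h2

/-- **THE FOUR FIELDS `lift₁`, `lift₂`, `val₁`, `val₂` of `TtgModel` in the `h₂`-chart
(`p = 3`, Route J)**, for `N = 2 ((p + 1) p + 1)`,
`cls = ttrpCls M p 𝔸 r (α h) ((α h)^N u₂) (β h) ((β h)^N u₁)` and any `T₁, T₂ ⊇ ttrpT … j̄`, from the
two Kronecker data of the pair `(j, β j)` and `v₂ ∈ B(α h)` (helper17 `ttrc_v2_mem_al`). -/
theorem ttrp_h_fields (hpM : ¬ p ∣ M) (hA : A.LiesOverPrime p) (h3 : p = 3) (haM : 2 ∣ M)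
    (hat : GrdAtlas M A (s18hq 2 (s18hExp 2) ℤ) τ')
    (r : Place Qb (modularFunctionFieldBar M) →
      Place (ResidueField A) (modularFunctionFieldFullC (ResidueField A) M))
    (hr : GrdIsRed M A hat.c.mem hat.c'.mem r)
    (hK₁ : TtrpKron M p A (heckeAlphaBar Qb M p) (ttrJ0 M A : modularFunctionFieldBar M)
      (ttrY M A))
    (hK₂ : TtrpKron M p A (heckeBetaBar Qb M p) (ttrJ0 M A : modularFunctionFieldBar M)
      (ttrJ M A))
    (hv₂ : heckeBetaBar Qb M p (grdQ M hat.c.mem) ^ (2 * ((p + 1) * p + 1)) * ttrU1 M A ∈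
      grdB (M * p) A (heckeAlphaBar Qb M p (grdQ M hat.c.mem)))
    (T₁ T₂ : Finset (Place (ResidueField A) (modularFunctionFieldFullC (ResidueField A) M)))
    (hT₁ : ttrpT M p A hpM hA hat (ttrJk M A)
      (ttrH_ne_zero M A (Fact.out : p.Prime).one_lt) ⊆ T₁)
    (hT₂ : ttrpT M p A hpM hA hat (ttrJk M A)
      (ttrH_ne_zero M A (Fact.out : p.Prime).one_lt) ⊆ T₂) :
    (∀ Q : Place (ResidueField A) (modularFunctionFieldFullC (ResidueField A) M), Q ∉ T₁ →
      ∃ P : Place Qb (modularFunctionFieldBar (M * p)),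
        ttrpCls M p A r (heckeAlphaBar Qb M p (grdQ M hat.c.mem))
          (heckeAlphaBar Qb M p (grdQ M hat.c.mem) ^ (2 * ((p + 1) * p + 1)) * ttrU2 M A)
          (heckeBetaBar Qb M p (grdQ M hat.c.mem))
          (heckeBetaBar Qb M p (grdQ M hat.c.mem) ^ (2 * ((p + 1) * p + 1)) * ttrU1 M A) P =
            some (Sum.inl Q) ∧
          ∀ σ : ↥(A.inertiaSubgroupIn ℚ), ffigRho (M * p) A σ • P = P) ∧
    (∀ Q : Place (ResidueField A) (modularFunctionFieldFullC (ResidueField A) M), Q ∉ T₂ →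
      ∃ P : Place Qb (modularFunctionFieldBar (M * p)),
        ttrpCls M p A r (heckeAlphaBar Qb M p (grdQ M hat.c.mem))
          (heckeAlphaBar Qb M p (grdQ M hat.c.mem) ^ (2 * ((p + 1) * p + 1)) * ttrU2 M A)
          (heckeBetaBar Qb M p (grdQ M hat.c.mem))
          (heckeBetaBar Qb M p (grdQ M hat.c.mem) ^ (2 * ((p + 1) * p + 1)) * ttrU1 M A) P =
            some (Sum.inr Q) ∧
          ∀ σ : ↥(A.inertiaSubgroupIn ℚ), ffigRho (M * p) A σ • P = P) ∧
    (∀ (P : Place Qb (modularFunctionFieldBar (M * p)))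
      (Q : Place (ResidueField A) (modularFunctionFieldFullC (ResidueField A) M)),
      ttrpCls M p A r (heckeAlphaBar Qb M p (grdQ M hat.c.mem))
          (heckeAlphaBar Qb M p (grdQ M hat.c.mem) ^ (2 * ((p + 1) * p + 1)) * ttrU2 M A)
          (heckeBetaBar Qb M p (grdQ M hat.c.mem))
          (heckeBetaBar Qb M p (grdQ M hat.c.mem) ^ (2 * ((p + 1) * p + 1)) * ttrU1 M A) P =
            some (Sum.inl Q) →
      ∀ (x : modularFunctionFieldBar (M * p)) (h₁ : x ∈ ttrV1 M A hpM hA)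
        (h₂ : x ∈ ttalV2 (ttrV1 M A hpM hA) (ttrW M hpM)),
        (∀ P' : Place Qb (modularFunctionFieldBar (M * p)),
          ttrpCls M p A r (heckeAlphaBar Qb M p (grdQ M hat.c.mem))
            (heckeAlphaBar Qb M p (grdQ M hat.c.mem) ^ (2 * ((p + 1) * p + 1)) * ttrU2 M A)
            (heckeBetaBar Qb M p (grdQ M hat.c.mem))
            (heckeBetaBar Qb M p (grdQ M hat.c.mem) ^ (2 * ((p + 1) * p + 1)) * ttrU1 M A) P' =
              some (Sum.inl Q) → 0 ≤ P'.ord x) →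
        ∃ α : A, GrdVal P x (α : Qb) ∧ GrdVal Q (ttrRed1 M A hA ⟨x, h₁⟩) (residue A α)) ∧
    (∀ (P : Place Qb (modularFunctionFieldBar (M * p)))
      (Q : Place (ResidueField A) (modularFunctionFieldFullC (ResidueField A) M)),
      ttrpCls M p A r (heckeAlphaBar Qb M p (grdQ M hat.c.mem))
          (heckeAlphaBar Qb M p (grdQ M hat.c.mem) ^ (2 * ((p + 1) * p + 1)) * ttrU2 M A)
          (heckeBetaBar Qb M p (grdQ M hat.c.mem))
          (heckeBetaBar Qb M p (grdQ M hat.c.mem) ^ (2 * ((p + 1) * p + 1)) * ttrU1 M A) P =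
            some (Sum.inr Q) →
      ∀ (x : modularFunctionFieldBar (M * p)) (h₁ : x ∈ ttrV1 M A hpM hA)
        (h₂ : x ∈ ttalV2 (ttrV1 M A hpM hA) (ttrW M hpM)),
        (∀ P' : Place Qb (modularFunctionFieldBar (M * p)),
          ttrpCls M p A r (heckeAlphaBar Qb M p (grdQ M hat.c.mem))
            (heckeAlphaBar Qb M p (grdQ M hat.c.mem) ^ (2 * ((p + 1) * p + 1)) * ttrU2 M A)
            (heckeBetaBar Qb M p (grdQ M hat.c.mem))
            (heckeBetaBar Qb M p (grdQ M hat.c.mem) ^ (2 * ((p + 1) * p + 1)) * ttrU1 M A) P' =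
              some (Sum.inr Q) → 0 ≤ P'.ord x) →
        ∃ α : A, GrdVal P x (α : Qb) ∧
          GrdVal Q (ttalRed2 (ttrV1 M A hpM hA) (ttrW M hpM) (ttrRed1 M A hA) ⟨x, h₂⟩)
            (residue A α)) := by
  have hp2 : p ≠ 2 := by omega
  have ha : (p = 2 ∧ 2 = 3) ∨ (p = 3 ∧ 2 = 2) := Or.inr ⟨h3, rfl⟩
  have hN : p * p * 2 ≤ 2 * ((p + 1) * p + 1) := by subst h3; norm_num
  have H₁ : TtrpChart M p A (heckeAlphaBar Qb M p) hat.c.mem (grdO (M * p) A) (ttrRed1 M A hA)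
      (heckeAlphaBar Qb M p (grdQ M hat.c.mem) ^ (2 * ((p + 1) * p + 1)) * ttrU2 M A) :=
    ttrc_chart_h₁ M A hpM hA 2 ha haM _ hN
  have H₂ : TtrpChart M p A (heckeBetaBar Qb M p) hat.c.mem (ttrV2 M A hpM)
      (ttrRed2 M A hpM hA)
      (heckeBetaBar Qb M p (grdQ M hat.c.mem) ^ (2 * ((p + 1) * p + 1)) * ttrU1 M A) :=
    ttrc_chart_h₂ M A hpM hA 2 ha haM _ hN
  have hdisj : ∀ P : Place Qb (modularFunctionFieldBar (M * p)),
      TtrpGoodC M p A (heckeAlphaBar Qb M p (grdQ M hat.c.mem))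
        (heckeAlphaBar Qb M p (grdQ M hat.c.mem) ^ (2 * ((p + 1) * p + 1)) * ttrU2 M A) P →
        TtrpGoodC M p A (heckeBetaBar Qb M p (grdQ M hat.c.mem))
          (heckeBetaBar Qb M p (grdQ M hat.c.mem) ^ (2 * ((p + 1) * p + 1)) * ttrU1 M A) P →
            False :=
    fun P h1 h2 => ttrp_h_disj M A hpM hA hat.c.mem _ _ H₁ hv₂ _ P h1 h2
  refine ⟨?_, ?_, ?_, ?_⟩
  · exact ttrp_h_lift₁ M A hpM hA hp2 hat r hr _ _ _ hK₁ T₁ hT₁
  · exact ttrp_h_lift₂ M A hpM hA hp2 hat r hr _ _ _ hK₂ hdisj T₂ hT₂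
  · exact ttrp_inst_val₁ M A hpM hA hat r hr _ _ _ H₁
  · exact ttrp_inst_val₂ M A hpM hA hat r hr _ _ _ H₂ hdisj

end Final

end Fermat.Agent.TT
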