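import Mathlib

/-!
# Program TT (S33), (NODE), slice (N-C): NO CROSSING WHERE THE CHART COORDINATE HAS ITS POLE
(abstract part)

Owner: helper4.  Namespace `Fermat.Agent.TT`, prefix `ttrnc`.  Mathlib only.

`φ : R →+* F` (the constants), `t' ∈ F` the INVERSE chart coordinate, `B'` the integral closure of
`R[t']` in `F` (spelled as in main's `grdB` : `RingHom.IsIntegralElem (eval₂RingHom φ t')`),
`V1 V2` two valuation subrings of `F` containing the constants and `t'`.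

Data: `J' ∈ F` with `J' · S(t') = t'`, `S ∈ R[X]`, `S(0) = 1` (for `t' = 1/j` : `S = 1`, `J' = t'`;
for `t' = 1/h_2` : `S = (1 + 256 X)^3`, `J' = 1/j`, main's `s18h_identity_two`), and `g ∈ F`
integral over `R[J']` with `g - 1 ∈ 𝔪_{V1}` and `g^p - J'^m ∈ 𝔪_{V2}`, `p, m ≥ 1`
(instance : `g = Y / J^p`, `m = p^2 - 1`).

* `ttrnc_clear` : clearing denominators : `S(t')^N g` is integral over `R[t']` for some `N`;
* `ttrnc_no_cross` : **no prime of `B'` containing `B' ∩ 𝔪_{V1}`, `B' ∩ 𝔪_{V2}` and `t'`.**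
-/

set_option autoImplicit false
set_option linter.unusedSectionVars false
set_option linter.unusedVariables false

noncomputable section

namespace Fermat.Agent.TT

open Polynomial

section Abs

variable {R F : Type*} [CommRing R] [Field F] (φ : R →+* F)

/-- the image of `R[X]` under `X ↦ t` lies in every subring containing the constants and `t`. -/
theorem ttrnc_eval_mem (O : Subring F) (t : F) (hc : ∀ a : R, φ a ∈ O) (ht : t ∈ O) (c : R[X]) :
    eval₂ φ t c ∈ O := by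
  rw [eval₂_eq_sum_range]
  exact Subring.sum_mem _ fun k _ => O.mul_mem (hc _) (O.pow_mem ht k)

/-- an element integral over `R[t]` lies in every valuation subring containing the constants
and `t`. -/
theorem ttrnc_int_mem (V : ValuationSubring F) (t : F) (hc : ∀ a : R, φ a ∈ V) (ht : t ∈ V)
    {x : F} (hx : (eval₂RingHom φ t).IsIntegralElem x) : x ∈ V := by
  obtain ⟨P, hP, h0⟩ := hx
  by_contra hxV
  have hinv : x⁻¹ ∈ V := (V.mem_or_inv_mem x).resolve_left hxV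
  have hx0 : x ≠ 0 := fun h => hxV (h ▸ V.zero_mem)
  -- `x = -(Σ_{i<n} c_i x^{i-(n-1)})`
  set n := P.natDegree with hn
  have hsum : eval₂ (eval₂RingHom φ t) x P =
      x ^ n + ∑ i ∈ Finset.range n, eval₂RingHom φ t (P.coeff i) * x ^ i := by
    rw [eval₂_eq_sum_range, Finset.sum_range_succ, ← hn, hP.coeff_natDegree, map_one, one_mul,
      add_comm]
  rw [hsum] at h0
  rcases Nat.eq_zero_or_pos n with hn0 | hnpos
  · rw [hn0] at h0
    simp only [pow_zero, Finset.range_zero, Finset.sum_empty, add_zero] at h0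
    exact one_ne_zero h0
  have h3 : x ^ n * (x⁻¹) ^ (n - 1) = x := by
    have : x ^ n = x * x ^ (n - 1) := by
      rw [← pow_succ', Nat.sub_add_cancel hnpos]
    rw [this, mul_assoc, ← mul_pow, mul_inv_cancel₀ hx0, one_pow, mul_one]
  have h4 : ∀ i ∈ Finset.range n, x ^ i * (x⁻¹) ^ (n - 1) = (x⁻¹) ^ (n - 1 - i) := by
    intro i hi
    have hi' : i ≤ n - 1 := Nat.le_sub_one_of_lt (Finset.mem_range.mp hi)
    have : (x⁻¹) ^ (n - 1) = (x⁻¹) ^ i * (x⁻¹) ^ (n - 1 - i) := by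
      rw [← pow_add, Nat.add_sub_cancel' hi']
    rw [this, ← mul_assoc, ← mul_pow, mul_inv_cancel₀ hx0, one_pow, one_mul]
  have h5 : x + ∑ i ∈ Finset.range n,
      eval₂RingHom φ t (P.coeff i) * (x⁻¹) ^ (n - 1 - i) = 0 := by
    have h6 := congrArg (fun y => y * (x⁻¹) ^ (n - 1)) h0
    simp only [add_mul, zero_mul, Finset.sum_mul] at h6
    rw [h3] at h6
    rw [← h6]
    congr 1
    refine Finset.sum_congr rfl fun i hi => ?_
    rw [mul_assoc, h4 i hi]
  have hx' : x = -∑ i ∈ Finset.range n,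
      eval₂RingHom φ t (P.coeff i) * (x⁻¹) ^ (n - 1 - i) := eq_neg_of_add_eq_zero_left h5
  apply hxV
  rw [hx']
  refine V.neg_mem _ (Subring.sum_mem V.toSubring fun i _ => V.mul_mem _ _ ?_ (pow_mem hinv _))
  exact ttrnc_eval_mem φ V.toSubring t hc ht _

/-- `x ∈ V`, `y ∈ 𝔪_V` ⟹ `x y ∈ 𝔪_V`. -/
theorem ttrnc_mul_mem_nonunits (V : ValuationSubring F) {x y : F} (hx : x ∈ V)
    (hy : y ∈ V.nonunits) : x * y ∈ V.nonunits := by
  rw [ValuationSubring.mem_nonunits_iff] at hy ⊢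
  rw [map_mul]
  have hx1 : V.valuation x ≤ 1 := (V.valuation_le_one_iff x).mpr hx
  exact lt_of_le_of_lt (mul_le_of_le_one_left' hx1) hy

/-- homogenisation : for `deg c ≤ D`, `c(J') · S(t')^D` is a polynomial in `t'` when
`J' · S(t') = t'`. -/
theorem ttrnc_homog {t' J' : F} (S : R[X]) (hJ : J' * eval₂ φ t' S = t') (c : R[X]) (D : ℕ)
    (hD : c.natDegree ≤ D) :
    ∃ c' : R[X], eval₂ φ t' c' = eval₂ φ J' c * eval₂ φ t' S ^ D := by
  refine ⟨∑ k ∈ Finset.range (D + 1), C (c.coeff k) * X ^ k * S ^ (D - k), ?_⟩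
  rw [eval₂_finsetSum, eval₂_eq_sum_range' φ (Nat.lt_succ_of_le hD), Finset.sum_mul]
  refine Finset.sum_congr rfl fun k hk => ?_
  have hk' : k ≤ D := Nat.lt_succ_iff.mp (Finset.mem_range.mp hk)
  rw [eval₂_mul, eval₂_mul, eval₂_C, eval₂_pow, eval₂_X, eval₂_pow]
  have : eval₂ φ t' S ^ D = eval₂ φ t' S ^ k * eval₂ φ t' S ^ (D - k) := by
    rw [← pow_add, Nat.add_sub_cancel' hk']
  have e : t' ^ k = J' ^ k * eval₂ φ t' S ^ k := by rw [← mul_pow, hJ]
  rw [this, e]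
  ring

/-- **clearing denominators** : if `g` is integral over `R[J']` and `J' · S(t') = t'`, then
`S(t')^N g` is integral over `R[t']` for some `N`. -/
theorem ttrnc_clear {t' J' g : F} (S : R[X]) (hJ : J' * eval₂ φ t' S = t')
    (hg : (eval₂RingHom φ J').IsIntegralElem g) :
    ∃ N : ℕ, (eval₂RingHom φ t').IsIntegralElem (eval₂ φ t' S ^ N * g) := by
  classical
  obtain ⟨P, hP, h0⟩ := hg
  set n := P.natDegree with hn
  set s := eval₂ φ t' S with hs
  -- a common degree bound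
  set D := ∑ i ∈ Finset.range n, (P.coeff i).natDegree with hDdef
  have hD : ∀ i ∈ Finset.range n, (P.coeff i).natDegree ≤ D := fun i hi =>
    Finset.single_le_sum (f := fun i => (P.coeff i).natDegree) (fun _ _ => Nat.zero_le _) hi
  choose! c' hc' using fun i (hi : i ∈ Finset.range n) =>
    ttrnc_homog φ S hJ (P.coeff i) D (hD i hi)
  refine ⟨D, ?_⟩
  set r : R[X][X] := ∑ i ∈ Finset.range n, C (c' i * S ^ (D * (n - i) - D)) * X ^ i with hr
  have hlt : r.degree < (n : WithBot ℕ) := by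
    refine lt_of_le_of_lt (degree_sum_le _ _) ?_
    exact (Finset.sup_lt_iff (WithBot.bot_lt_coe n)).mpr fun i hi =>
      lt_of_le_of_lt (degree_C_mul_X_pow_le i _) (WithBot.coe_lt_coe.mpr (Finset.mem_range.mp hi))
  refine ⟨X ^ n + r, monic_X_pow_add hlt, ?_⟩
  have hsum : eval₂ (eval₂RingHom φ J') g P =
      g ^ n + ∑ i ∈ Finset.range n, eval₂RingHom φ J' (P.coeff i) * g ^ i := by
    rw [eval₂_eq_sum_range, Finset.sum_range_succ, ← hn, hP.coeff_natDegree, map_one, one_mul,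
      add_comm]
  rw [hsum] at h0
  rw [eval₂_add, eval₂_pow, eval₂_X, hr, eval₂_finsetSum]
  have key : ∀ i ∈ Finset.range n,
      eval₂ (eval₂RingHom φ t') (s ^ D * g) (C (c' i * S ^ (D * (n - i) - D)) * X ^ i) =
        s ^ (D * n) * (eval₂RingHom φ J' (P.coeff i) * g ^ i) := by
    intro i hi
    have hin : i < n := Finset.mem_range.mp hi
    rw [eval₂_mul, eval₂_C, eval₂_pow, eval₂_X, map_mul, map_pow]
    show eval₂ φ t' (c' i) * eval₂ φ t' S ^ (D * (n - i) - D) * (s ^ D * g) ^ i = _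
    rw [hc' i hi, ← hs]
    show eval₂ φ J' (P.coeff i) * s ^ D * s ^ (D * (n - i) - D) * (s ^ D * g) ^ i =
      s ^ (D * n) * (eval₂ φ J' (P.coeff i) * g ^ i)
    have h1 : D ≤ D * (n - i) := Nat.le_mul_of_pos_right D (Nat.sub_pos_of_lt hin)
    have h2 : D * n = D + (D * (n - i) - D) + D * i := by
      rw [Nat.add_sub_cancel' h1, ← Nat.mul_add, Nat.sub_add_cancel hin.le]
    rw [h2, pow_add, pow_add, mul_pow, ← pow_mul]
    ring
  rw [Finset.sum_congr rfl key, ← Finset.mul_sum, mul_pow, ← pow_mul, ← mul_add, h0, mul_zero]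

variable {φ}

/-- **(N-C), abstract** : no prime of the chart ring `B'` of the inverse coordinate `t'` contains
`B' ∩ 𝔪_{V1}`, `B' ∩ 𝔪_{V2}` and `t'`. -/
theorem ttrnc_no_cross (V1 V2 : ValuationSubring F) (t' J' g : F) (S : R[X])
    (hS0 : S.coeff 0 = 1) (hJ : J' * eval₂ φ t' S = t')
    (hc1 : ∀ a : R, φ a ∈ V1) (hc2 : ∀ a : R, φ a ∈ V2) (ht1 : t' ∈ V1) (ht2 : t' ∈ V2)
    (hg : (eval₂RingHom φ J').IsIntegralElem g) (p m : ℕ) (hp : 0 < p) (hm : 0 < m)
    (hg1 : g - 1 ∈ V1.nonunits) (hg2 : g ^ p - J' ^ m ∈ V2.nonunits)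
    (B' : Subring F) (hB' : ∀ x : F, x ∈ B' ↔ (eval₂RingHom φ t').IsIntegralElem x)
    (𝔫' : Ideal ↥B') (h𝔫' : 𝔫'.IsPrime)
    (h1 : ∀ x : ↥B', (x : F) ∈ V1.nonunits → x ∈ 𝔫')
    (h2 : ∀ x : ↥B', (x : F) ∈ V2.nonunits → x ∈ 𝔫')
    (ht : ∀ h : t' ∈ B', (⟨t', h⟩ : ↥B') ∈ 𝔫') : False := by
  classical
  set s := eval₂ φ t' S with hs
  -- the image of `R[X]` lies in `B'`
  have himg : ∀ c : R[X], eval₂ φ t' c ∈ B' := fun c =>
    (hB' _).mpr (RingHom.isIntegralElem_map (eval₂RingHom φ t') (x := c))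
  have htB : t' ∈ B' := by
    have := himg X
    rwa [eval₂_X] at this
  have hsB : s ∈ B' := himg S
  have hs1 : s ∈ V1 := ttrnc_eval_mem φ V1.toSubring t' hc1 ht1 S
  have hs2 : s ∈ V2 := ttrnc_eval_mem φ V2.toSubring t' hc2 ht2 S
  -- clearing denominators, with a large exponent
  obtain ⟨N₀, hN₀⟩ := ttrnc_clear φ S hJ hg
  set N := N₀ + m with hN
  have hGB : s ^ N * g ∈ B' := by
    have h0 : s ^ N₀ * g ∈ B' := (hB' _).mpr hN₀
    have : s ^ N * g = s ^ m * (s ^ N₀ * g) := by rw [hN, pow_add]; ring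
    rw [this]
    exact B'.mul_mem (B'.pow_mem hsB m) h0
  have hmN : m ≤ N * p := by
    calc m ≤ N := by omega
      _ = N * 1 := (Nat.mul_one N).symm
      _ ≤ N * p := Nat.mul_le_mul_left N hp
  -- names in `B'`
  set sB : ↥B' := ⟨s, hsB⟩ with hsBdef
  set tB : ↥B' := ⟨t', htB⟩ with htBdef
  set GB : ↥B' := ⟨s ^ N * g, hGB⟩ with hGBdef
  have htn : tB ∈ 𝔫' := ht htB
  -- `G - s^N ∈ 𝔭₁'`
  have hx1 : GB - sB ^ N ∈ 𝔫' := by
    apply h1
    show s ^ N * g - s ^ N ∈ V1.nonunits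
    have : s ^ N * g - s ^ N = s ^ N * (g - 1) := by ring
    rw [this]
    exact ttrnc_mul_mem_nonunits V1 (pow_mem hs1 N) hg1
  -- `G^p - s^(Np-m) t'^m ∈ 𝔭₂'`
  have hx2 : GB ^ p - sB ^ (N * p - m) * tB ^ m ∈ 𝔫' := by
    apply h2
    show (s ^ N * g) ^ p - s ^ (N * p - m) * t' ^ m ∈ V2.nonunits
    have : (s ^ N * g) ^ p - s ^ (N * p - m) * t' ^ m = s ^ (N * p) * (g ^ p - J' ^ m) := by
      have e : s ^ (N * p) = s ^ (N * p - m) * s ^ m := by
        rw [← pow_add, Nat.sub_add_cancel hmN]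
      rw [mul_sub, mul_pow, ← pow_mul, e, ← hJ]
      ring
    rw [this]
    exact ttrnc_mul_mem_nonunits V2 (pow_mem hs2 _) hg2
  -- `G ∈ 𝔫'`
  have hGp : GB ^ p ∈ 𝔫' := by
    have h3 : sB ^ (N * p - m) * tB ^ m ∈ 𝔫' :=
      𝔫'.mul_mem_left _ (𝔫'.pow_mem_of_mem htn m hm)
    have := 𝔫'.add_mem hx2 h3
    rwa [sub_add_cancel] at this
  have hG : GB ∈ 𝔫' := h𝔫'.mem_of_pow_mem p hGp
  -- `s ∈ 𝔫'`
  have hsN : sB ^ N ∈ 𝔫' := by
    have := 𝔫'.sub_mem hG hx1
    rwa [sub_sub_cancel] at this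
  have hsn : sB ∈ 𝔫' := h𝔫'.mem_of_pow_mem N hsN
  -- `s ≡ 1 mod t'`
  have hX : (X : R[X]) ∣ S - 1 := by
    rw [X_dvd_iff, coeff_sub, hS0, coeff_one_zero, sub_self]
  obtain ⟨S₁, hS₁⟩ := hX
  have hs1' : s - 1 = t' * eval₂ φ t' S₁ := by
    have := congrArg (eval₂ φ t') hS₁
    rwa [eval₂_sub, eval₂_one, eval₂_mul, eval₂_X] at this
  have h1n : (1 : ↥B') ∈ 𝔫' := by
    have h4 : sB - 1 = tB * ⟨eval₂ φ t' S₁, himg S₁⟩ := Subtype.ext hs1'
    have h5 : sB - 1 ∈ 𝔫' := by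
      rw [h4]
      exact 𝔫'.mul_mem_right _ htn
    have := 𝔫'.sub_mem hsn h5
    rwa [sub_sub_cancel] at this
  exact h𝔫'.ne_top ((Ideal.eq_top_iff_one _).mpr h1n)

end Abs

end Fermat.Agent.TT
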