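import Mathlib
import Fermat.Agent.TT.Red2.NodeCusp
import Fermat.Agent.TT.Red2.CuspInt
import Fermat.Agent.TT.Red2.Inst
import Fermat.Agent.G.Red.InstSmall
import Fermat.Agent.S18.H.Ident

/-!
# Program TT (S33), (NODE), slice (N-C): NO CROSSING WHERE THE CHART COORDINATE HAS ITS POLE
(the instances at level `M p`)

Owner: helper4.  Namespace `Fermat.Agent.TT`, prefix `ttrnc`.

`p ∤ M`, `A` a place of `ℚ̄` over `p`, `F = F_ℚ̄(M p)`, `V1 = ttrV1 M A hpM hA` (helper12), `V2` ANY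
valuation subring with `x ∈ V2 ↔ ttrW M hpM x ∈ grdO (M p) A`, `B' = grdB (M p) A t'`.

* `ttrnc_level` : the semi-abstract form : `t' ∈ V1 ∩ V2` with `J⁻¹ · S(t') = t'`, `S ∈ A[X]`,
  `S(0) = 1`, `J = α j` ⟹ no prime of `B'` contains `B' ∩ 𝔪_{V1}`, `B' ∩ 𝔪_{V2}` and `t'`
  (`g = Y / J^p` : helper25's `ttrci_Y`; `g - 1 = u₁ / J^p`, `g^p - J^{1-p²} = u₂ / J^{p²}`);
* `ttrnc_jinv` : the instance `t' = α (1/j)` (`S = 1`), EVERY prime `p ∤ M`;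
* `ttrnc_hinv_two` : the instance `t' = α (1/h_2)`, `2 ∣ M` (`S = (1 + 256 X)^3`, main's
  `s18h_identity_two`), EVERY odd prime `p ∤ M` (in particular `p = 3`).
-/

set_option autoImplicit false
set_option linter.unusedSectionVars false
set_option linter.unusedVariables false
set_option linter.style.haveILetI false
set_option synthInstance.maxHeartbeats 400000

noncomputable section

namespace Fermat.Agent.TT

open Polynomial ModularCurve AlgebraicCurve IsLocalRing Fermat.Agent.S18 Fermat.Agent.G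
  Fermat.Agent.SS

local notation "Qb" => AlgebraicClosure ℚ

variable (M : ℕ) [NeZero M] {p : ℕ} [Fact p.Prime] [NeZero p] (A : ValuationSubring Qb)

/-- an element of `V₁` with zero reduction lies in the maximal ideal. -/
theorem ttrnc_red_zero_nonunits (hpM : ¬ p ∣ M) (hA : A.LiesOverPrime p)
    (x : ↥(grdO (M * p) A)) (hx : ttrRed1 M A hA x = 0) :
    (x : modularFunctionFieldBar (M * p)) ∈ (ttrV1 M A hpM hA).nonunits := by
  rw [ValuationSubring.mem_nonunits_iff_or]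
  by_contra hcon
  push Not at hcon
  obtain ⟨hx0, hinv⟩ := hcon
  have hinv' : (x : modularFunctionFieldBar (M * p))⁻¹ ∈ grdO (M * p) A := hinv
  have h1 : x * ⟨(x : modularFunctionFieldBar (M * p))⁻¹, hinv'⟩ = 1 :=
    Subtype.ext (mul_inv_cancel₀ hx0)
  have h2 := congrArg (ttrRed1 M A hA) h1
  rw [map_mul, hx, zero_mul, map_one] at h2
  exact zero_ne_one h2

/-- `j̄ ≠ 0`. -/
theorem ttrnc_Jk_ne_zero : ttrJk M A ≠ 0 := by
  intro h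
  have h1 := congrArg Subtype.val h
  have h2 : jqModC (ResidueField A) = 0 := h1
  have h3 := s18db_order_jqModC (k := ResidueField A)
  rw [h2, HahnSeries.order_zero] at h3
  exact absurd h3 (by norm_num)

/-- the `q`-expansion of `J = α j`. -/
theorem ttrnc_coe_J : ((ttrJ M A (p := p) : modularFunctionFieldBar (M * p)) : LaurentSeries Qb) =
    jqModC Qb := by
  unfold ttrJ ttrJ0
  rw [coe_heckeAlphaBar]
  exact grdi_grdSer_j Qb

/-- the `q`-expansion of `Y = β j`. -/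
theorem ttrnc_coe_Y : ((ttrY M A (p := p) : modularFunctionFieldBar (M * p)) : LaurentSeries Qb) =
    qExpand Qb p (jqModC Qb) := by
  unfold ttrY ttrJ0
  rw [coe_heckeBetaBar]
  exact congrArg (qExpand Qb p) (grdi_grdSer_j Qb)

/-- `J ≠ 0`. -/
theorem ttrnc_J_ne_zero : ttrJ M A (p := p) ≠ 0 := by
  intro h
  have h1 := ttrnc_coe_J M A (p := p)
  rw [h] at h1
  have h2 : jqModC Qb = 0 := h1.symm
  have h3 := s18db_order_jqModC (k := Qb)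
  rw [h2, HahnSeries.order_zero] at h3
  exact absurd h3 (by norm_num)

/-- `J⁻¹ ∈ V₁`. -/
theorem ttrnc_Jinv_mem (hpM : ¬ p ∣ M) (hA : A.LiesOverPrime p) :
    (ttrJ M A (p := p))⁻¹ ∈ grdO (M * p) A := by
  refine ttr_inv_mem M A hpM hA ⟨ttrJ M A, ttrJ_mem M A⟩ ?_
  intro h0
  have h1 : ttrRed1 M A hA ⟨ttrJ M A, ttrJ_mem M A⟩ = 0 :=
    (ttrRed1_eq_zero_iff' M A hA _).mpr h0
  rw [ttrRed1_J] at h1
  exact ttrnc_Jk_ne_zero M A h1

/-- `Y⁻¹ ∈ V₁`. -/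
theorem ttrnc_Yinv_mem (hpM : ¬ p ∣ M) (hA : A.LiesOverPrime p) :
    (ttrY M A (p := p))⁻¹ ∈ grdO (M * p) A := by
  refine ttr_inv_mem M A hpM hA ⟨ttrY M A, ttrY_mem M A⟩ ?_
  intro h0
  have h1 : ttrRed1 M A hA ⟨ttrY M A, ttrY_mem M A⟩ = 0 :=
    (ttrRed1_eq_zero_iff' M A hA _).mpr h0
  rw [ttrRed1_Y] at h1
  exact ttrnc_Jk_ne_zero M A (pow_eq_zero_iff (NeZero.ne p) |>.mp h1)

/-- membership in `𝔪_{V₂}` through `w`. -/
theorem ttrnc_mem_V2_nonunits (hpM : ¬ p ∣ M) (hA : A.LiesOverPrime p)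
    (V2 : ValuationSubring (modularFunctionFieldBar (M * p)))
    (hV2 : ∀ x, x ∈ V2 ↔ ttrW M hpM x ∈ grdO (M * p) A)
    {x : modularFunctionFieldBar (M * p)} :
    x ∈ V2.nonunits ↔ ttrW M hpM x ∈ (ttrV1 M A hpM hA).nonunits := by
  rw [ValuationSubring.mem_nonunits_iff_or, ValuationSubring.mem_nonunits_iff_or]
  have e : x⁻¹ ∈ V2 ↔ (ttrW M hpM x)⁻¹ ∈ ttrV1 M A hpM hA := by
    rw [hV2, map_inv₀]
    exact Iff.rfl
  rw [e, map_eq_zero_iff _ (ttrW M hpM).injective]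

/-- **(N-C), semi-abstract form at level `M p`** : `t' ∈ V₁ ∩ V₂` with `J⁻¹ · S(t') = t'`,
`S ∈ A[X]`, `S(0) = 1`. -/
theorem ttrnc_level (hpM : ¬ p ∣ M) (hA : A.LiesOverPrime p)
    (V2 : ValuationSubring (modularFunctionFieldBar (M * p)))
    (hV2 : ∀ x, x ∈ V2 ↔ ttrW M hpM x ∈ grdO (M * p) A)
    (t' : modularFunctionFieldBar (M * p)) (ht1 : t' ∈ grdO (M * p) A)
    (ht2 : ttrW M hpM t' ∈ grdO (M * p) A)
    (S : (↥A)[X]) (hS0 : S.coeff 0 = 1)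
    (hJ : (ttrJ M A (p := p))⁻¹ * eval₂ (grdInclA (M * p) A) t' S = t')
    (𝔫' : Ideal ↥(grdB (M * p) A t')) (h𝔫' : 𝔫'.IsPrime)
    (h1 : ∀ x : ↥(grdB (M * p) A t'),
      (x : modularFunctionFieldBar (M * p)) ∈ (ttrV1 M A hpM hA).nonunits → x ∈ 𝔫')
    (h2 : ∀ x : ↥(grdB (M * p) A t'),
      (x : modularFunctionFieldBar (M * p)) ∈ V2.nonunits → x ∈ 𝔫')
    (ht : ∀ h : t' ∈ grdB (M * p) A t', (⟨t', h⟩ : ↥(grdB (M * p) A t')) ∈ 𝔫') : False := by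
  have hp : p.Prime := Fact.out
  have hJ0 : ttrJ M A (p := p) ≠ 0 := ttrnc_J_ne_zero M A
  have hJJ' : ttrJ M A (p := p) * (ttrJ M A (p := p))⁻¹ = 1 := mul_inv_cancel₀ hJ0
  -- `g = Y / J^p` is integral over `A[1/J]`
  have hg : GrdIsInt (M * p) A (ttrJ M A (p := p))⁻¹
      (ttrY M A (p := p) * (ttrJ M A (p := p))⁻¹ ^ p) :=
    ttrci_Y (M * p) A hA (ttrnc_coe_J M A) (ttrnc_coe_Y M A) hJJ'
  -- constants
  have hc1 : ∀ a : ↥A, grdInclA (M * p) A a ∈ ttrV1 M A hpM hA := fun a =>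
    (grdO_algebraMap_mem_iff (M * p) A (a : Qb)).mpr a.2
  have hc2 : ∀ a : ↥A, grdInclA (M * p) A a ∈ V2 := fun a => by
    rw [hV2]
    show ttrW M hpM (algebraMap Qb _ (a : Qb)) ∈ grdO (M * p) A
    rw [ttrW_const]
    exact (grdO_algebraMap_mem_iff (M * p) A (a : Qb)).mpr a.2
  -- `1/J ∈ V₁ ∩ V₂`
  have hJ'1 : (ttrJ M A (p := p))⁻¹ ∈ ttrV1 M A hpM hA := ttrnc_Jinv_mem M A hpM hA
  have hJ'2 : (ttrJ M A (p := p))⁻¹ ∈ V2 := by
    rw [hV2, map_inv₀, ttrW_J]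
    exact ttrnc_Yinv_mem M A hpM hA
  -- `g - 1 = u₁ / J^p ∈ 𝔪_{V₁}`
  have hg1 : ttrY M A (p := p) * (ttrJ M A (p := p))⁻¹ ^ p - 1 ∈
      (ttrV1 M A hpM hA).nonunits := by
    have e : ttrY M A (p := p) * (ttrJ M A (p := p))⁻¹ ^ p - 1 =
        (ttrJ M A (p := p))⁻¹ ^ p * ttrU1 M A (p := p) := by
      unfold ttrU1
      rw [mul_sub, ← mul_pow, inv_mul_cancel₀ hJ0, one_pow]
      ring
    rw [e]
    exact ttrnc_mul_mem_nonunits _ (pow_mem hJ'1 p)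
      (ttrnc_red_zero_nonunits M A hpM hA ⟨ttrU1 M A, ttrU1_mem M A⟩ (ttrRed1_U1 M A hA))
  -- `g^p - J^{1-p²} = u₂ / J^{p²} ∈ 𝔪_{V₂}`
  have hp2 : p ^ 2 = (p ^ 2 - 1) + 1 := (Nat.sub_add_cancel (Nat.one_le_pow _ _ hp.pos)).symm
  have hg2 : (ttrY M A (p := p) * (ttrJ M A (p := p))⁻¹ ^ p) ^ p -
      (ttrJ M A (p := p))⁻¹ ^ (p ^ 2 - 1) ∈ V2.nonunits := by
    have e : (ttrY M A (p := p) * (ttrJ M A (p := p))⁻¹ ^ p) ^ p -
        (ttrJ M A (p := p))⁻¹ ^ (p ^ 2 - 1) =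
        (ttrJ M A (p := p))⁻¹ ^ (p ^ 2) * ttrU2 M A (p := p) := by
      unfold ttrU2
      have h3 : (ttrJ M A (p := p))⁻¹ ^ (p ^ 2) * ttrJ M A (p := p) =
          (ttrJ M A (p := p))⁻¹ ^ (p ^ 2 - 1) := by
        conv_lhs => rw [hp2, pow_succ, mul_assoc, inv_mul_cancel₀ hJ0, mul_one]
      rw [mul_sub, h3, mul_pow, ← pow_mul, ← sq]
      ring
    rw [e]
    refine ttrnc_mul_mem_nonunits _ (pow_mem hJ'2 _) ?_
    rw [ttrnc_mem_V2_nonunits M A hpM hA V2 hV2, ttrW_U2]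
    have := ttrnc_red_zero_nonunits M A hpM hA ⟨ttrU1 M A, ttrU1_mem M A⟩ (ttrRed1_U1 M A hA)
    rw [ValuationSubring.mem_nonunits_iff] at this ⊢
    rwa [Valuation.map_neg]
  have hm : 0 < p ^ 2 - 1 := by
    have : 2 ≤ p := hp.two_le
    have : 4 ≤ p ^ 2 := by nlinarith
    omega
  exact ttrnc_no_cross (φ := grdInclA (M * p) A) (ttrV1 M A hpM hA) V2 t'
    (ttrJ M A (p := p))⁻¹ (ttrY M A (p := p) * (ttrJ M A (p := p))⁻¹ ^ p) S hS0 hJ hc1 hc2 ht1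
    ((hV2 t').mpr ht2) hg p (p ^ 2 - 1) hp.pos hm hg1 hg2 (grdB (M * p) A t')
    (fun x => Iff.rfl) 𝔫' h𝔫' h1 h2 ht

/-! ### The instance `t' = 1/j` -/

/-- an element with the `q`-expansion of `1/j` is `J⁻¹`. -/
theorem ttrnc_eq_Jinv {τ' : LaurentSeries ℤ} (hτ' : jqModC ℤ * τ' = 1)
    (t' : modularFunctionFieldBar (M * p))
    (ht' : ((t' : modularFunctionFieldBar (M * p)) : LaurentSeries Qb) = grdSer τ' Qb) :
    t' = (ttrJ M A (p := p))⁻¹ := by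
  apply Subtype.ext
  rw [ht', IntermediateField.coe_inv, ttrnc_coe_J, grdi_grdSer_inv hτ']

/-- **(N-C) for `t' = 1/j`** (any element `t'` of `F_ℚ̄(M p)` with the `q`-expansion of `1/j`, e.g.
`α (grdQ M (grdi_mem_jinv M hτ'))` or `grdQ (M p) _`), EVERY prime `p ∤ M`. -/
theorem ttrnc_jinv (hpM : ¬ p ∣ M) (hA : A.LiesOverPrime p)
    (V2 : ValuationSubring (modularFunctionFieldBar (M * p)))
    (hV2 : ∀ x, x ∈ V2 ↔ ttrW M hpM x ∈ grdO (M * p) A)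
    {τ' : LaurentSeries ℤ} (hτ' : jqModC ℤ * τ' = 1)
    (t' : modularFunctionFieldBar (M * p))
    (ht' : ((t' : modularFunctionFieldBar (M * p)) : LaurentSeries Qb) = grdSer τ' Qb)
    (𝔫' : Ideal ↥(grdB (M * p) A t')) (h𝔫' : 𝔫'.IsPrime)
    (h1 : ∀ x : ↥(grdB (M * p) A t'),
      (x : modularFunctionFieldBar (M * p)) ∈ (ttrV1 M A hpM hA).nonunits → x ∈ 𝔫')
    (h2 : ∀ x : ↥(grdB (M * p) A t'),
      (x : modularFunctionFieldBar (M * p)) ∈ V2.nonunits → x ∈ 𝔫')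
    (ht : ∀ h : t' ∈ grdB (M * p) A t', (⟨t', h⟩ : ↥(grdB (M * p) A t')) ∈ 𝔫') : False := by
  have e : t' = (ttrJ M A (p := p))⁻¹ := ttrnc_eq_Jinv M A hτ' t' ht'
  refine ttrnc_level M A hpM hA V2 hV2 t' ?_ ?_ 1 coeff_one_zero ?_ 𝔫' h𝔫' h1 h2 ht
  · rw [e]
    exact ttrnc_Jinv_mem M A hpM hA
  · rw [e, map_inv₀, ttrW_J]
    exact ttrnc_Yinv_mem M A hpM hA
  · rw [eval₂_one, mul_one, e]

/-- **(N-C) for `t' = α (1/j)`** (the spelling of helper25's `ttrci_level`). -/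
theorem ttrnc_jinv_alpha (hpM : ¬ p ∣ M) (hA : A.LiesOverPrime p)
    (V2 : ValuationSubring (modularFunctionFieldBar (M * p)))
    (hV2 : ∀ x, x ∈ V2 ↔ ttrW M hpM x ∈ grdO (M * p) A)
    {τ' : LaurentSeries ℤ} (hτ' : jqModC ℤ * τ' = 1)
    (𝔫' : Ideal ↥(grdB (M * p) A (heckeAlphaBar Qb M p (grdQ M (grdi_mem_jinv M hτ')))))
    (h𝔫' : 𝔫'.IsPrime)
    (h1 : ∀ x : ↥(grdB (M * p) A (heckeAlphaBar Qb M p (grdQ M (grdi_mem_jinv M hτ')))),
      (x : modularFunctionFieldBar (M * p)) ∈ (ttrV1 M A hpM hA).nonunits → x ∈ 𝔫')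
    (h2 : ∀ x : ↥(grdB (M * p) A (heckeAlphaBar Qb M p (grdQ M (grdi_mem_jinv M hτ')))),
      (x : modularFunctionFieldBar (M * p)) ∈ V2.nonunits → x ∈ 𝔫')
    (ht : ∀ h : heckeAlphaBar Qb M p (grdQ M (grdi_mem_jinv M hτ')) ∈
        grdB (M * p) A (heckeAlphaBar Qb M p (grdQ M (grdi_mem_jinv M hτ'))),
      (⟨heckeAlphaBar Qb M p (grdQ M (grdi_mem_jinv M hτ')), h⟩ :
        ↥(grdB (M * p) A (heckeAlphaBar Qb M p (grdQ M (grdi_mem_jinv M hτ'))))) ∈ 𝔫') :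
    False := by
  refine ttrnc_jinv M A hpM hA V2 hV2 hτ' _ ?_ 𝔫' h𝔫' h1 h2 ht
  rw [coe_heckeAlphaBar]
  rfl

/-! ### The instance `t' = 1/h_2` -/

/-- the series identity `j⁻¹ (1 + 256 t')³ = t'` for `t' = 1/h_2`. -/
theorem ttrnc_series_two {τ' : LaurentSeries ℤ} (hτ' : s18hq 2 24 ℤ * τ' = 1) :
    (jqModC Qb)⁻¹ * (1 + 256 * grdSer τ' Qb) ^ 3 = grdSer τ' Qb := by
  have e1 : jqModC Qb * grdSer (s18hq 2 24 ℤ) Qb ^ 2 = (grdSer (s18hq 2 24 ℤ) Qb + 256) ^ 3 := by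
    have h := congrArg (coeffMap (Int.castRingHom Qb)) s18h_identity_two
    rw [map_mul, map_pow, map_pow, map_add, coeffMap_jqModC] at h
    have h256 : coeffMap (Int.castRingHom Qb) (256 : LaurentSeries ℤ) = 256 := map_ofNat _ 256
    rw [h256] at h
    exact h
  have e2 : grdSer (s18hq 2 24 ℤ) Qb * grdSer τ' Qb = 1 := by
    have h := congrArg (coeffMap (Int.castRingHom Qb)) hτ'
    rw [map_mul, map_one] at h
    exact h
  have hj0 : jqModC Qb ≠ 0 := by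
    intro h2
    have h3 := s18db_order_jqModC (k := Qb)
    rw [h2, HahnSeries.order_zero] at h3
    exact absurd h3 (by norm_num)
  rw [inv_mul_eq_iff_eq_mul₀ hj0]
  linear_combination (-(grdSer τ' Qb ^ 3)) * e1 +
    (-((1 + 256 * grdSer τ' Qb) ^ 2 +
        (1 + 256 * grdSer τ' Qb) *
          (grdSer (s18hq 2 24 ℤ) Qb * grdSer τ' Qb + 256 * grdSer τ' Qb) +
        (grdSer (s18hq 2 24 ℤ) Qb * grdSer τ' Qb + 256 * grdSer τ' Qb) ^ 2) +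
      jqModC Qb * grdSer τ' Qb * (grdSer (s18hq 2 24 ℤ) Qb * grdSer τ' Qb + 1)) * e2

/-- **(N-C) for `t' = 1/h_2`** (any element `t'` of `V₁ ∩ V₂` with the `q`-expansion of `1/h_2`),
EVERY prime `p ∤ M` (the case of interest is `p = 3`, `2 ∣ M`). -/
theorem ttrnc_hinv_two (hpM : ¬ p ∣ M) (hA : A.LiesOverPrime p)
    (V2 : ValuationSubring (modularFunctionFieldBar (M * p)))
    (hV2 : ∀ x, x ∈ V2 ↔ ttrW M hpM x ∈ grdO (M * p) A)
    {τ' : LaurentSeries ℤ} (hτ' : s18hq 2 24 ℤ * τ' = 1)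
    (t' : modularFunctionFieldBar (M * p))
    (ht' : ((t' : modularFunctionFieldBar (M * p)) : LaurentSeries Qb) = grdSer τ' Qb)
    (ht1 : t' ∈ grdO (M * p) A) (ht2 : ttrW M hpM t' ∈ grdO (M * p) A)
    (𝔫' : Ideal ↥(grdB (M * p) A t')) (h𝔫' : 𝔫'.IsPrime)
    (h1 : ∀ x : ↥(grdB (M * p) A t'),
      (x : modularFunctionFieldBar (M * p)) ∈ (ttrV1 M A hpM hA).nonunits → x ∈ 𝔫')
    (h2 : ∀ x : ↥(grdB (M * p) A t'),
      (x : modularFunctionFieldBar (M * p)) ∈ V2.nonunits → x ∈ 𝔫')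
    (ht : ∀ h : t' ∈ grdB (M * p) A t', (⟨t', h⟩ : ↥(grdB (M * p) A t')) ∈ 𝔫') : False := by
  refine ttrnc_level M A hpM hA V2 hV2 t' ht1 ht2 ((1 + C (256 : ↥A) * X) ^ 3) ?_ ?_ 𝔫' h𝔫'
    h1 h2 ht
  · rw [coeff_zero_eq_eval_zero, eval_pow, eval_add, eval_one, eval_mul, eval_C, eval_X,
      mul_zero, add_zero, one_pow]
  · rw [eval₂_pow, eval₂_add, eval₂_one, eval₂_mul, eval₂_C, eval₂_X,
      map_ofNat (grdInclA (M * p) A) 256]
    apply Subtype.ext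
    rw [IntermediateField.coe_mul, IntermediateField.coe_inv, IntermediateField.coe_pow,
      IntermediateField.coe_add, IntermediateField.coe_one, IntermediateField.coe_mul,
      ttrnc_coe_J, ht']
    exact ttrnc_series_two hτ'

/-- **(N-C) for `t' = α (1/h_2)`**, `1/h_2 ∈ F(M)` (i.e. `2 ∣ M`) : the memberships `t' ∈ V₁ ∩ V₂`
are discharged from helper12's `ttr_alpha_mem`, `ttr_beta_mem`. -/
theorem ttrnc_hinv_two_alpha (hpM : ¬ p ∣ M) (hA : A.LiesOverPrime p)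
    (V2 : ValuationSubring (modularFunctionFieldBar (M * p)))
    (hV2 : ∀ x, x ∈ V2 ↔ ttrW M hpM x ∈ grdO (M * p) A)
    {τ' : LaurentSeries ℤ} (hτ' : s18hq 2 24 ℤ * τ' = 1) (hmem' : GrdSerMem M τ')
    (𝔫' : Ideal ↥(grdB (M * p) A (heckeAlphaBar Qb M p (grdQ M hmem')))) (h𝔫' : 𝔫'.IsPrime)
    (h1 : ∀ x : ↥(grdB (M * p) A (heckeAlphaBar Qb M p (grdQ M hmem'))),
      (x : modularFunctionFieldBar (M * p)) ∈ (ttrV1 M A hpM hA).nonunits → x ∈ 𝔫')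
    (h2 : ∀ x : ↥(grdB (M * p) A (heckeAlphaBar Qb M p (grdQ M hmem'))),
      (x : modularFunctionFieldBar (M * p)) ∈ V2.nonunits → x ∈ 𝔫')
    (ht : ∀ h : heckeAlphaBar Qb M p (grdQ M hmem') ∈
        grdB (M * p) A (heckeAlphaBar Qb M p (grdQ M hmem')),
      (⟨heckeAlphaBar Qb M p (grdQ M hmem'), h⟩ :
        ↥(grdB (M * p) A (heckeAlphaBar Qb M p (grdQ M hmem')))) ∈ 𝔫') : False := by
  refine ttrnc_hinv_two M A hpM hA V2 hV2 hτ' _ ?_ ?_ ?_ 𝔫' h𝔫' h1 h2 ht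
  · rw [coe_heckeAlphaBar]
    rfl
  · exact ttr_alpha_mem M A (grdQ_mem_grdO M A hmem')
  · rw [ttrW_alpha]
    exact ttr_beta_mem M A (grdQ_mem_grdO M A hmem')

end Fermat.Agent.TT
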