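import Mathlib
import Fermat.Agent.TT.Red2.NodePlc
import Fermat.Agent.TT.Red2.NodeGlue
import Fermat.Agent.TT.Red2.NodeCuspInst
import Fermat.Agent.TT.Red2.CuspNode
import Fermat.Agent.TT.Red2.RedPack
import Fermat.Agent.TT.Alpha.OfRed

/-!
# Program TT (S33), (NODE), slice (N-C): from the IDEAL form to the PLACE form

Owner: helper4.  Namespace `Fermat.Agent.TT`, prefix `ttrnc`.
Imports helper5's `TT/Red2/NodePlc.lean` ((N-A)(c) `ttrm_ideal`) and helper27's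
`TT/Red2/NodeGlue.lean` (`TtrzPair`, consumer `ttrz_pair_of_pair'` / `ttrz_hC'₂`).

* `ttrnc_hcusp` : the hypothesis `hcusp` of helper27's `ttrz_pair_of_pair'`, `ttrz_hC'₂`,
  `ttrzOfInv` ("no crossing pair of the inverse chart where the inverse coordinate vanishes") from
  the ideal form of (N-C) ("no prime of `B'` containing both branch kernels and `u'`" =
  `ttrci_no_cross_level` (helper25, `1/j`), `ttrnc_hinv_two_alpha` (helper4, `1/h_2`));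
* `ttrnc_ker_le_iff` : `ker r ≤ 𝔫' ↔ ∀ x ∈ B' ∩ 𝔪_V, x ∈ 𝔫'` when `r` is the restriction to `B'` of a
  reduction `red` on `V` with `red x = 0 ↔ x ∈ 𝔪_V` (the dictionary between the two spellings of
  "`𝔫'` lies on the component `V`").
-/

set_option autoImplicit false
set_option linter.unusedSectionVars false
set_option linter.unusedVariables false

noncomputable section

namespace Fermat.Agent.TT

open AlgebraicCurve Fermat.Agent.S24 Fermat.Agent.G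

section Plc

variable {k F₁ F₂ B' : Type*} [Field k] [IsAlgClosed k] [Field F₁] [Field F₂] [Algebra k F₁]
  [Algebra k F₂] [CommRing B'] {t₁' : F₁} {t₂' : F₂}

/-- **(N-C), place form** : no crossing pair of the inverse chart at a zero of the inverse
coordinate, from the ideal form. -/
theorem ttrnc_hcusp (r₁' : B' →+* F₁) (r₂' : B' →+* F₂)
    (hconst : ∀ c : k, ∃ b, r₁' b = algebraMap k F₁ c ∧ r₂' b = algebraMap k F₂ c)
    (u' : B') (hu₁ : r₁' u' = t₁')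
    (hNC : ∀ 𝔫' : Ideal B', 𝔫'.IsPrime → RingHom.ker r₁' ≤ 𝔫' → RingHom.ker r₂' ≤ 𝔫' →
      u' ∈ 𝔫' → False) :
    ∀ (Q₁ : Place k F₁) (Q₂ : Place k F₂), TtrzPair r₁' r₂' t₁' t₂' Q₁ Q₂ →
      ¬ GrdVal Q₁ t₁' 0 := by
  intro Q₁ Q₂ hp h0
  have hp' : TtrmPair r₁' r₂' t₁' t₂' Q₁ Q₂ := hp
  obtain ⟨𝔫, hmax, hk₁, hk₂, hmem⟩ := ttrm_ideal r₁' r₂' hconst hp'
  exact hNC 𝔫 hmax.isPrime hk₁ hk₂ ((hmem u').mpr (hu₁ ▸ h0))

end Plc

section Ker

variable {F Fk : Type*} [Field F] [CommRing Fk]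

/-- `ker r ≤ 𝔫' ↔ B' ∩ 𝔪_V ⊆ 𝔫'`. -/
theorem ttrnc_ker_le_iff (V : ValuationSubring F) (red : ↥V.toSubring →+* Fk)
    (hker : ∀ x : ↥V.toSubring, red x = 0 ↔ (x : F) ∈ V.nonunits)
    (B' : Subring F) (hB' : B' ≤ V.toSubring) (r : ↥B' →+* Fk)
    (hr : ∀ x : ↥B', r x = red ⟨(x : F), hB' x.2⟩) (𝔫' : Ideal ↥B') :
    RingHom.ker r ≤ 𝔫' ↔ ∀ x : ↥B', (x : F) ∈ V.nonunits → x ∈ 𝔫' := by
  constructor
  · intro h x hx
    apply h
    rw [RingHom.mem_ker, hr, hker]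
    exact hx
  · intro h x hx
    apply h
    rw [RingHom.mem_ker, hr, hker] at hx
    exact hx

end Ker

/-! ### The instances at level `M p` -/

section Inst

open ModularCurve IsLocalRing Fermat.Agent.S18 Fermat.Agent.SS Polynomial

local notation "Qb" => AlgebraicClosure ℚ

variable (M : ℕ) [NeZero M] {p : ℕ} [Fact p.Prime] [NeZero p] (A : ValuationSubring Qb)

/-- `red₁ x = 0 ↔ x ∈ 𝔪_{V₁}` (helper27's `ttrvp_tb1` + helper29's `ttal_red_ker`). -/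
theorem ttrnc_ker₁ (hpM : ¬ p ∣ M) (hA : A.LiesOverPrime p) (x : ↥(grdO (M * p) A)) :
    ttrRed1 M A hA x = 0 ↔
      (x : modularFunctionFieldBar (M * p)) ∈ (ttrV1 M A hpM hA).nonunits :=
  ttal_red_ker (V := ttrV1 M A hpM hA) (red := ttrRed1 M A hA) (ttrvp_tb1 M A hpM hA) x

/-- the two branch kernels of a chart ring `B' ⊂ O₂`, in the valuation spelling. -/
theorem ttrnc_ker_branches (hpM : ¬ p ∣ M) (hA : A.LiesOverPrime p)
    (V2 : ValuationSubring (modularFunctionFieldBar (M * p)))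
    (hV2 : ∀ x, x ∈ V2 ↔ ttrW M hpM x ∈ grdO (M * p) A)
    (B' : Subring (modularFunctionFieldBar (M * p)))
    (h1 : ∀ x ∈ B', x ∈ grdO (M * p) A) (h2 : ∀ x ∈ B', ttrW M hpM x ∈ grdO (M * p) A)
    (r₁' r₂' : ↥B' →+* ↥(modularFunctionFieldFullC (ResidueField A) M))
    (hr₁ : ∀ x : ↥B', r₁' x = ttrRed1 M A hA ⟨(x : modularFunctionFieldBar (M * p)), h1 _ x.2⟩)
    (hr₂ : ∀ x : ↥B', r₂' x =
      ttrRed1 M A hA ⟨ttrW M hpM (x : modularFunctionFieldBar (M * p)), h2 _ x.2⟩)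
    (𝔫' : Ideal ↥B') :
    (RingHom.ker r₁' ≤ 𝔫' → ∀ x : ↥B',
      (x : modularFunctionFieldBar (M * p)) ∈ (ttrV1 M A hpM hA).nonunits → x ∈ 𝔫') ∧
    (RingHom.ker r₂' ≤ 𝔫' → ∀ x : ↥B',
      (x : modularFunctionFieldBar (M * p)) ∈ V2.nonunits → x ∈ 𝔫') := by
  constructor
  · intro h x hx
    apply h
    rw [RingHom.mem_ker, hr₁, ttrnc_ker₁ M A hpM hA]
    exact hx
  · intro h x hx
    apply h
    rw [RingHom.mem_ker, hr₂, ttrnc_ker₁ M A hpM hA]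
    exact (ttrnc_mem_V2_nonunits M A hpM hA V2 hV2).mp hx

/-- **`hcusp` for the inverse chart `1/h_2`** (`p = 3`, `2 ∣ M`), for ANY pair of branch
reductions `r₁' = red₁|_{B'}`, `r₂' = red₂|_{B'}` on `B' = grdB (M p) A (α (1/h_2))`. -/
theorem ttrnc_hcusp_hinv_two (hpM : ¬ p ∣ M) (hA : A.LiesOverPrime p)
    [IsAlgClosed (ResidueField A)]
    (V2 : ValuationSubring (modularFunctionFieldBar (M * p)))
    (hV2 : ∀ x, x ∈ V2 ↔ ttrW M hpM x ∈ grdO (M * p) A)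
    {τ' : LaurentSeries ℤ} (hτ' : s18hq 2 24 ℤ * τ' = 1) (hmem' : GrdSerMem M τ')
    (h1 : ∀ x ∈ grdB (M * p) A (heckeAlphaBar Qb M p (grdQ M hmem')), x ∈ grdO (M * p) A)
    (h2 : ∀ x ∈ grdB (M * p) A (heckeAlphaBar Qb M p (grdQ M hmem')),
      ttrW M hpM x ∈ grdO (M * p) A)
    (r₁' r₂' : ↥(grdB (M * p) A (heckeAlphaBar Qb M p (grdQ M hmem'))) →+*
      ↥(modularFunctionFieldFullC (ResidueField A) M))
    (hr₁ : ∀ x, r₁' x = ttrRed1 M A hA ⟨(x : modularFunctionFieldBar (M * p)), h1 _ x.2⟩)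
    (hr₂ : ∀ x, r₂' x =
      ttrRed1 M A hA ⟨ttrW M hpM (x : modularFunctionFieldBar (M * p)), h2 _ x.2⟩)
    (hconst : ∀ c : ResidueField A, ∃ b, r₁' b = algebraMap (ResidueField A) _ c ∧
      r₂' b = algebraMap (ResidueField A) _ c)
    (t₂' : ↥(modularFunctionFieldFullC (ResidueField A) M)) :
    ∀ (Q₁ Q₂ : Place (ResidueField A) ↥(modularFunctionFieldFullC (ResidueField A) M)),
      TtrzPair r₁' r₂' (grdK M A hmem') t₂' Q₁ Q₂ → ¬ GrdVal Q₁ (grdK M A hmem') 0 := by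
  have hself : heckeAlphaBar Qb M p (grdQ M hmem') ∈
      grdB (M * p) A (heckeAlphaBar Qb M p (grdQ M hmem')) := ttrci_self (M * p) A _
  refine ttrnc_hcusp r₁' r₂' hconst ⟨_, hself⟩ ?_ ?_
  · rw [hr₁]
    have := ttrRed1_alpha M A hA ⟨grdQ M hmem', grdQ_mem_grdO M A hmem'⟩
    rw [grdRed_grdQ] at this
    exact this
  · intro 𝔫' h𝔫' hk₁ hk₂ hu
    obtain ⟨e₁, e₂⟩ := ttrnc_ker_branches M A hpM hA V2 hV2 _ h1 h2 r₁' r₂' hr₁ hr₂ 𝔫'
    exact ttrnc_hinv_two_alpha M A hpM hA V2 hV2 hτ' hmem' 𝔫' h𝔫' (e₁ hk₁) (e₂ hk₂)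
      (fun _ => hu)

/-- **`hcusp` for the inverse chart `1/j`** (every prime `p ∤ M`). -/
theorem ttrnc_hcusp_jinv (hpM : ¬ p ∣ M) (hA : A.LiesOverPrime p)
    [IsAlgClosed (ResidueField A)]
    (V2 : ValuationSubring (modularFunctionFieldBar (M * p)))
    (hV2 : ∀ x, x ∈ V2 ↔ ttrW M hpM x ∈ grdO (M * p) A)
    {τ' : LaurentSeries ℤ} (hτ' : jqModC ℤ * τ' = 1)
    (h1 : ∀ x ∈ grdB (M * p) A (heckeAlphaBar Qb M p (grdQ M (grdi_mem_jinv M hτ'))),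
      x ∈ grdO (M * p) A)
    (h2 : ∀ x ∈ grdB (M * p) A (heckeAlphaBar Qb M p (grdQ M (grdi_mem_jinv M hτ'))),
      ttrW M hpM x ∈ grdO (M * p) A)
    (r₁' r₂' : ↥(grdB (M * p) A (heckeAlphaBar Qb M p (grdQ M (grdi_mem_jinv M hτ')))) →+*
      ↥(modularFunctionFieldFullC (ResidueField A) M))
    (hr₁ : ∀ x, r₁' x = ttrRed1 M A hA ⟨(x : modularFunctionFieldBar (M * p)), h1 _ x.2⟩)
    (hr₂ : ∀ x, r₂' x =
      ttrRed1 M A hA ⟨ttrW M hpM (x : modularFunctionFieldBar (M * p)), h2 _ x.2⟩)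
    (hconst : ∀ c : ResidueField A, ∃ b, r₁' b = algebraMap (ResidueField A) _ c ∧
      r₂' b = algebraMap (ResidueField A) _ c)
    (t₂' : ↥(modularFunctionFieldFullC (ResidueField A) M)) :
    ∀ (Q₁ Q₂ : Place (ResidueField A) ↥(modularFunctionFieldFullC (ResidueField A) M)),
      TtrzPair r₁' r₂' (grdK M A (grdi_mem_jinv M hτ')) t₂' Q₁ Q₂ →
        ¬ GrdVal Q₁ (grdK M A (grdi_mem_jinv M hτ')) 0 := by
  have hself : heckeAlphaBar Qb M p (grdQ M (grdi_mem_jinv M hτ')) ∈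
      grdB (M * p) A (heckeAlphaBar Qb M p (grdQ M (grdi_mem_jinv M hτ'))) :=
    ttrci_self (M * p) A _
  refine ttrnc_hcusp r₁' r₂' hconst ⟨_, hself⟩ ?_ ?_
  · rw [hr₁]
    have := ttrRed1_alpha M A hA ⟨grdQ M (grdi_mem_jinv M hτ'),
      grdQ_mem_grdO M A (grdi_mem_jinv M hτ')⟩
    rw [grdRed_grdQ] at this
    exact this
  · intro 𝔫' h𝔫' hk₁ hk₂ hu
    obtain ⟨e₁, e₂⟩ := ttrnc_ker_branches M A hpM hA V2 hV2 _ h1 h2 r₁' r₂' hr₁ hr₂ 𝔫'
    exact ttrnc_jinv_alpha M A hpM hA V2 hV2 hτ' 𝔫' h𝔫' (e₁ hk₁) (e₂ hk₂) (fun _ => hu)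

end Inst

end Fermat.Agent.TT
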