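import Mathlib
import Fermat.Agent.TT.Red2.NodeCuspPlc
import Fermat.Agent.TT.Red2.CountPlug

/-!
# Program TT (S33), (COUNT)/(NODE): the `hcusp` argument of `ttrk_genus_le_plug`

Owner: helper4.  Namespace `Fermat.Agent.TT`, prefix `ttrnc`.
Imports `NodeCuspPlc.lean` (helper4) and helper5's `CountPlug.lean` (`ttrkR₁'`, `ttrkR₂'`,
`TtoData`) by reference.

* `ttrnc_hcusp_count_of` : for ANY `T : TtoData ↥A F(M p) (Fk × Fk)` whose inverse chart ring `T.B'`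
  has the carrier of `grdB (M p) A t'`, whose reduction is `(red₁, red₂)` componentwise, and with
  `T.u' = t'` : the ideal form of (N-C) on `grdB (M p) A t'` gives the `hcusp` argument of
  helper5's `ttrk_genus_le_plug` VERBATIM;
* `ttrnc_hcusp_count` : the closed instance for `t' = α (1/j)` (every `p ∤ M`) and
  `t' = α (1/h_2)` (`2 ∣ M`).
-/

set_option autoImplicit false
set_option linter.unusedSectionVars false
set_option linter.unusedVariables false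
set_option linter.style.haveILetI false

noncomputable section

namespace Fermat.Agent.TT

open AlgebraicCurve ModularCurve IsLocalRing Fermat.Agent.G Fermat.Agent.FF Fermat.Agent.S24
  Fermat.Agent.S18 Fermat.Agent.SS

local notation "Qb" => AlgebraicClosure ℚ

variable (M : ℕ) [NeZero M] {p : ℕ} [Fact p.Prime] [NeZero p] (A : ValuationSubring Qb)

/-- the transport of ideals from `T.B'` to `grdB (M p) A t'` (same carrier). -/
def ttrncIncl
    (T : TtoData ↥A (modularFunctionFieldBar (M * p))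
      (modularFunctionFieldFullC (ResidueField A) M × modularFunctionFieldFullC (ResidueField A) M))
    {t' : modularFunctionFieldBar (M * p)}
    (hTB' : ∀ x, x ∈ T.B' ↔ x ∈ grdB (M * p) A t') :
    ↥(grdB (M * p) A t') →+* ↥T.B' where
  toFun x := ⟨(x : modularFunctionFieldBar (M * p)), (hTB' _).2 x.2⟩
  map_one' := rfl
  map_mul' _ _ := rfl
  map_zero' := rfl
  map_add' _ _ := rfl

/-- **`hcusp` of `ttrk_genus_le_plug` from the ideal form of (N-C)**, `T`-generic. -/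
theorem ttrnc_hcusp_count_of (hpM : ¬ p ∣ M) (hA : A.LiesOverPrime p)
    (T : TtoData ↥A (modularFunctionFieldBar (M * p))
      (modularFunctionFieldFullC (ResidueField A) M × modularFunctionFieldFullC (ResidueField A) M))
    (V2 : ValuationSubring (modularFunctionFieldBar (M * p)))
    (hV2 : ∀ x, x ∈ V2 ↔ ttrW M hpM x ∈ grdO (M * p) A)
    {t' : modularFunctionFieldBar (M * p)}
    (hTB' : ∀ x, x ∈ T.B' ↔ x ∈ grdB (M * p) A t') (hTu' : T.u' = t')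
    (hO₁ : ∀ x, x ∈ T.O → x ∈ grdO (M * p) A)
    (hO₂ : ∀ x, x ∈ T.O → ttrW M hpM x ∈ grdO (M * p) A)
    (hred₁ : ∀ (x : modularFunctionFieldBar (M * p)) (hx : x ∈ T.O),
      (T.red ⟨x, hx⟩).1 = ttrRed1 M A hA ⟨x, hO₁ x hx⟩)
    (hred₂ : ∀ (x : modularFunctionFieldBar (M * p)) (hx : x ∈ T.O),
      (T.red ⟨x, hx⟩).2 = ttrRed1 M A hA ⟨ttrW M hpM x, hO₂ x hx⟩)
    (hNC : ∀ 𝔫' : Ideal ↥(grdB (M * p) A t'), 𝔫'.IsPrime →
      (∀ x : ↥(grdB (M * p) A t'),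
        (x : modularFunctionFieldBar (M * p)) ∈ (ttrV1 M A hpM hA).nonunits → x ∈ 𝔫') →
      (∀ x : ↥(grdB (M * p) A t'),
        (x : modularFunctionFieldBar (M * p)) ∈ V2.nonunits → x ∈ 𝔫') →
      (∀ h : t' ∈ grdB (M * p) A t', (⟨t', h⟩ : ↥(grdB (M * p) A t')) ∈ 𝔫') → False) :
    ∀ 𝔫 : Ideal ↥T.B', 𝔫.IsMaximal → RingHom.ker (ttrkR₁' T) ≤ 𝔫 →
      RingHom.ker (ttrkR₂' T) ≤ 𝔫 → (⟨T.u', T.hu'⟩ : ↥T.B') ∉ 𝔫 := by
  intro 𝔫 h𝔫 hk₁ hk₂ hu
  haveI : 𝔫.IsPrime := h𝔫.isPrime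
  refine hNC (Ideal.comap (ttrncIncl M A T hTB') 𝔫) (Ideal.comap_isPrime _ _) ?_ ?_ ?_
  · intro x hx
    rw [Ideal.mem_comap]
    apply hk₁
    rw [RingHom.mem_ker, ttrkR₁'_apply]
    have hxO : (x : modularFunctionFieldBar (M * p)) ∈ T.O := T.hB' ((hTB' _).2 x.2)
    have h1 := hred₁ _ hxO
    have h0 : ttrRed1 M A hA ⟨(x : modularFunctionFieldBar (M * p)), hO₁ _ hxO⟩ = 0 :=
      (ttrnc_ker₁ M A hpM hA _).2 hx
    rw [h0] at h1
    exact h1
  · intro x hx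
    rw [Ideal.mem_comap]
    apply hk₂
    rw [RingHom.mem_ker, ttrkR₂'_apply]
    have hxO : (x : modularFunctionFieldBar (M * p)) ∈ T.O := T.hB' ((hTB' _).2 x.2)
    have h1 := hred₂ _ hxO
    have h0 : ttrRed1 M A hA
        ⟨ttrW M hpM (x : modularFunctionFieldBar (M * p)), hO₂ _ hxO⟩ = 0 :=
      (ttrnc_ker₁ M A hpM hA _).2 ((ttrnc_mem_V2_nonunits M A hpM hA V2 hV2).mp hx)
    rw [h0] at h1
    exact h1
  · intro h
    rw [Ideal.mem_comap]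
    have e : ttrncIncl M A T hTB' ⟨t', h⟩ = (⟨T.u', T.hu'⟩ : ↥T.B') := by
      apply Subtype.ext
      exact hTu'.symm
    rw [e]
    exact hu

/-- **`hcusp` of `ttrk_genus_le_plug`, CLOSED** for the inverse chart `1/j` (every `p ∤ M`) and the
inverse chart `1/h_2` (`2 ∣ M`; used for `p = 3`).  `hmem'` is `hat.c'.mem` of the atlas. -/
theorem ttrnc_hcusp_count (hpM : ¬ p ∣ M) (hA : A.LiesOverPrime p)
    (T : TtoData ↥A (modularFunctionFieldBar (M * p))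
      (modularFunctionFieldFullC (ResidueField A) M × modularFunctionFieldFullC (ResidueField A) M))
    {τ' : LaurentSeries ℤ} (hmem' : GrdSerMem M τ')
    (hτ' : jqModC ℤ * τ' = 1 ∨ s18hq 2 24 ℤ * τ' = 1)
    (hTB' : ∀ x, x ∈ T.B' ↔ x ∈ grdB (M * p) A (heckeAlphaBar Qb M p (grdQ M hmem')))
    (hTu' : T.u' = heckeAlphaBar Qb M p (grdQ M hmem'))
    (hO₁ : ∀ x, x ∈ T.O → x ∈ grdO (M * p) A)
    (hO₂ : ∀ x, x ∈ T.O → ttrW M hpM x ∈ grdO (M * p) A)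
    (hred₁ : ∀ (x : modularFunctionFieldBar (M * p)) (hx : x ∈ T.O),
      (T.red ⟨x, hx⟩).1 = ttrRed1 M A hA ⟨x, hO₁ x hx⟩)
    (hred₂ : ∀ (x : modularFunctionFieldBar (M * p)) (hx : x ∈ T.O),
      (T.red ⟨x, hx⟩).2 = ttrRed1 M A hA ⟨ttrW M hpM x, hO₂ x hx⟩) :
    ∀ 𝔫 : Ideal ↥T.B', 𝔫.IsMaximal → RingHom.ker (ttrkR₁' T) ≤ 𝔫 →
      RingHom.ker (ttrkR₂' T) ≤ 𝔫 → (⟨T.u', T.hu'⟩ : ↥T.B') ∉ 𝔫 := by
  have hV2 : ∀ x, x ∈ (ttrV1 M A hpM hA).comap
      ((ttrW M hpM : modularFunctionFieldBar (M * p) ≃+* modularFunctionFieldBar (M * p)) :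
        modularFunctionFieldBar (M * p) →+* modularFunctionFieldBar (M * p)) ↔
      ttrW M hpM x ∈ grdO (M * p) A := fun x => Iff.rfl
  refine ttrnc_hcusp_count_of M A hpM hA T _ hV2 hTB' hTu' hO₁ hO₂ hred₁ hred₂ ?_
  intro 𝔫' h𝔫' h1 h2 ht
  rcases hτ' with hτ' | hτ'
  · exact ttrnc_jinv_alpha M A hpM hA _ hV2 hτ' 𝔫' h𝔫' h1 h2 ht
  · exact ttrnc_hinv_two_alpha M A hpM hA _ hV2 hτ' hmem' 𝔫' h𝔫' h1 h2 ht

end Fermat.Agent.TT
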