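import Mathlib
import Fermat.Agent.TT.Red2.NodeGood
import Fermat.Agent.TT.Red2.CountPlug

/-!
# PROGRAM TT (S33), leaf (RED2), seam (S-a) AT THE CANONICAL NODES (owner helper9, prefix `ttrng`)

The nodes of the final plug are a family `(S, ν₁, ν₂)` with (helper5 `ttrk_genus_le_plug`)
`hS' : ∀ i, TtrmPair (ttrkR₁ T) (ttrkR₂ T) t₁ t₂ (ν₁ i) (ν₂ i)` for the two-chart model
`T : TtoData 𝔸 F (F_k × F_k)` (helper28 `ttroData` / helper5 `ttrkT`), e.g.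
`S := ttrzS k (ttrkR₁ T) (ttrkR₂ T) ū ū`, `ν_j := ttrzNu_j`, `hS' := fun i => i.2`.

`T` enters through two spelling-agnostic hypotheses
`hTO : ∀ x, x ∈ T.O → x ∈ ttrO2 M A hpM`,
`hTred : ∀ x hx, T.red ⟨x, hx⟩ = ttrRed M A hpM hA ⟨x, hTO x hx⟩` (both `rfl`-ish for the two `T`s).

* `ttrng_glue_T`     : the glueing of a node at `v ∈ T.B`, in helper12's spelling `ttrRed1/ttrRed2`;
* `ttrng_hrν₁_T`, `ttrng_hrν₂_T` : good places do not reduce to nodes (chart-generic);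
* `ttrng_zero₁_T`, `ttrng_zero₂_T` : the branches of the nodes are zeros of `red_j v_j`;
* `ttrng_ν₁_mem_T`, `ttrng_ν₂_mem_T`, `ttrng_hrν₁_j_T`, `ttrng_hrν₂_j_T`, `ttrng_hrν₂_j_neg_T` :
  the `j`-chart (`p ≥ 5`).
-/

set_option autoImplicit false
set_option linter.unusedSectionVars false
set_option linter.unusedVariables false
set_option synthInstance.maxHeartbeats 400000

noncomputable section

namespace Fermat.Agent.TT

open ModularCurve AlgebraicCurve IsLocalRing Polynomial Fermat.Agent.S18 Fermat.Agent.S24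
  Fermat.Agent.G Fermat.Agent.FF

local notation "Qb" => AlgebraicClosure ℚ

variable (M : ℕ) [NeZero M] {p : ℕ} [Fact p.Prime] [NeZero p]
variable (A : ValuationSubring Qb) (hpM : ¬ p ∣ M) (hA : A.LiesOverPrime p)
variable {τ τ' : LaurentSeries ℤ}

/-- the type of the two-chart models at level `M p` (abbreviation : the instance arguments of
`TtoData` are synthesised once). -/
abbrev TtrngT (M : ℕ) [NeZero M] (p : ℕ) [NeZero p] (A : ValuationSubring Qb) : Type :=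
  TtoData ↥A (modularFunctionFieldBar (M * p))
    (modularFunctionFieldFullC (ResidueField A) M × modularFunctionFieldFullC (ResidueField A) M)

variable (T : TtrngT M p A)
variable (hTO : ∀ x, x ∈ T.O → x ∈ ttrO2 M A hpM)
variable (hTred : ∀ (x : modularFunctionFieldBar (M * p)) (hx : x ∈ T.O),
  T.red ⟨x, hx⟩ = ttrRed M A hpM hA ⟨x, hTO x hx⟩)

include hTred

/-- the first branch reduction of `T`, in helper12's spelling -/
theorem ttrng_R₁_T (v : modularFunctionFieldBar (M * p)) (hv : v ∈ T.B)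
    (h₁ : v ∈ grdO (M * p) A) : ttrkR₁ T ⟨v, hv⟩ = ttrRed1 M A hA ⟨v, h₁⟩ := by
  rw [ttrkR₁_apply]
  show (T.red ⟨v, _⟩).1 = _
  rw [hTred]
  rfl

/-- the second branch reduction of `T`, in helper12's spelling -/
theorem ttrng_R₂_T (v : modularFunctionFieldBar (M * p)) (hv : v ∈ T.B)
    (h₂ : v ∈ ttrV2 M A hpM) : ttrkR₂ T ⟨v, hv⟩ = ttrRed2 M A hpM hA ⟨v, h₂⟩ := by
  rw [ttrkR₂_apply]
  show (T.red ⟨v, _⟩).2 = _
  rw [hTred]
  rfl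

/-- **the glueing of a crossing pair at `v ∈ T.B`**, in helper12's spelling. -/
theorem ttrng_glue_T
    (t₁ t₂ : modularFunctionFieldFullC (ResidueField A) M)
    (Q₁ Q₂ : Place (ResidueField A) (modularFunctionFieldFullC (ResidueField A) M))
    (hpair : TtrmPair (ttrkR₁ T) (ttrkR₂ T) t₁ t₂ Q₁ Q₂)
    (v : modularFunctionFieldBar (M * p)) (hv : v ∈ T.B)
    (h₁ : v ∈ grdO (M * p) A) (h₂ : v ∈ ttrV2 M A hpM) :
    ∃ c : ResidueField A, GrdVal Q₁ (ttrRed1 M A hA ⟨v, h₁⟩) c ∧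
      GrdVal Q₂ (ttrRed2 M A hpM hA ⟨v, h₂⟩) c := by
  obtain ⟨c, hc1, hc2⟩ := hpair.2.2 ⟨v, hv⟩
  rw [ttrng_R₁_T M A hpM hA T hTO hTred v hv h₁] at hc1
  rw [ttrng_R₂_T M A hpM hA T hTO hTred v hv h₂] at hc2
  exact ⟨c, hc1, hc2⟩

variable {ι : Type*}
  (ν₁ ν₂ : ι → Place (ResidueField A) (modularFunctionFieldFullC (ResidueField A) M))
  (t₁ t₂ : modularFunctionFieldFullC (ResidueField A) M)
  (hS' : ∀ i, TtrmPair (ttrkR₁ T) (ttrkR₂ T) t₁ t₂ (ν₁ i) (ν₂ i))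

include hS'

/-- **`hrν₁` at the canonical nodes** (chart-generic, any `v₁`). -/
theorem ttrng_hrν₁_T (hat : GrdAtlas M A τ τ')
    (r : Place Qb (modularFunctionFieldBar M) →
      Place (ResidueField A) (modularFunctionFieldFullC (ResidueField A) M))
    (hr : GrdIsRed M A hat.c.mem hat.c'.mem r)
    {v₁ : modularFunctionFieldBar (M * p)}
    (H₁ : TtrpChart M p A (heckeAlphaBar Qb M p) hat.c.mem (grdO (M * p) A) (ttrRed1 M A hA) v₁)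
    (hv₁ : v₁ ∈ ttrV2 M A hpM) (hred₂ : ttrRed2 M A hpM hA ⟨v₁, hv₁⟩ = 0)
    (hv₁B : v₁ ∈ T.B) :
    ∀ (P : Place Qb (modularFunctionFieldBar (M * p))) (i : ι),
      TtrpGoodC M p A (heckeAlphaBar Qb M p (grdQ M hat.c.mem)) v₁ P →
        ttrpR M p A (heckeAlphaBar Qb M p) (gff_alpha_integral M p) r P ≠ ν₁ i :=
  ttrng_hrν₁ M A hpM hA hat r hr H₁ hv₁ hred₂ ν₁ ν₂
    (fun i => ttrng_glue_T M A hpM hA T hTO hTred t₁ t₂ _ _ (hS' i) v₁ hv₁B _ hv₁)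

/-- **`hrν₂` at the canonical nodes** (chart-generic, any `v₂`). -/
theorem ttrng_hrν₂_T (hat : GrdAtlas M A τ τ')
    (r : Place Qb (modularFunctionFieldBar M) →
      Place (ResidueField A) (modularFunctionFieldFullC (ResidueField A) M))
    (hr : GrdIsRed M A hat.c.mem hat.c'.mem r)
    {v₂ : modularFunctionFieldBar (M * p)}
    (H₂ : TtrpChart M p A (heckeBetaBar Qb M p) hat.c.mem (ttrV2 M A hpM) (ttrRed2 M A hpM hA) v₂)
    (hv₂ : v₂ ∈ grdO (M * p) A) (hred₁ : ttrRed1 M A hA ⟨v₂, hv₂⟩ = 0)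
    (hv₂B : v₂ ∈ T.B) :
    ∀ (P : Place Qb (modularFunctionFieldBar (M * p))) (i : ι),
      TtrpGoodC M p A (heckeBetaBar Qb M p (grdQ M hat.c.mem)) v₂ P →
        ttrpR M p A (heckeBetaBar Qb M p) (gff_beta_integral M p) r P ≠ ν₂ i :=
  ttrng_hrν₂ M A hpM hA hat r hr H₂ hv₂ hred₁ ν₁ ν₂
    (fun i => ttrng_glue_T M A hpM hA T hTO hTred t₁ t₂ _ _ (hS' i) v₂ hv₂B hv₂ _)

/-- the first branch of a node is a zero of `red₁ v₁` (`v₁ ∈ T.B`, `red₂ v₁ = 0`). -/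
theorem ttrng_zero₁_T {v₁ : modularFunctionFieldBar (M * p)}
    (hv₁ : v₁ ∈ grdO (M * p) A) (hv₁' : v₁ ∈ ttrV2 M A hpM)
    (hred₂ : ttrRed2 M A hpM hA ⟨v₁, hv₁'⟩ = 0) (hv₁B : v₁ ∈ T.B) (i : ι) :
    GrdVal (ν₁ i) (ttrRed1 M A hA ⟨v₁, hv₁⟩) 0 :=
  ttrng_node_zero₁ M A hpM hA hv₁ hv₁' hred₂ (ν₁ i) (ν₂ i)
    (ttrng_glue_T M A hpM hA T hTO hTred t₁ t₂ _ _ (hS' i) v₁ hv₁B hv₁ hv₁')

/-- the second branch of a node is a zero of `red₂ v₂` (`v₂ ∈ T.B`, `red₁ v₂ = 0`). -/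
theorem ttrng_zero₂_T {v₂ : modularFunctionFieldBar (M * p)}
    (hv₂ : v₂ ∈ grdO (M * p) A) (hv₂' : v₂ ∈ ttrV2 M A hpM)
    (hred₁ : ttrRed1 M A hA ⟨v₂, hv₂⟩ = 0) (hv₂B : v₂ ∈ T.B) (i : ι) :
    GrdVal (ν₂ i) (ttrRed2 M A hpM hA ⟨v₂, hv₂'⟩) 0 :=
  ttrng_node_zero₂ M A hpM hA hv₂ hv₂' hred₁ (ν₁ i) (ν₂ i)
    (ttrng_glue_T M A hpM hA T hTO hTred t₁ t₂ _ _ (hS' i) v₂ hv₂B hv₂ hv₂')

/-! ### the `j`-chart (`p ≥ 5`) -/

/-- **`ν₁_mem`** : `T₁ ⊇ {zeros of h̄}`, `u₂ ∈ T.B`. -/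
theorem ttrng_ν₁_mem_T
    (T₁ : Finset (Place (ResidueField A) (modularFunctionFieldFullC (ResidueField A) M)))
    (hT₁ : ∀ Q, GrdVal Q (ttrH M A p) 0 → Q ∈ T₁) (hU2 : ttrU2 M A (p := p) ∈ T.B) :
    ∀ i, ν₁ i ∈ T₁ :=
  ttrng_ν₁_mem M A hpM hA T₁ hT₁ ν₁ ν₂
    (fun i => ttrng_glue_T M A hpM hA T hTO hTred t₁ t₂ _ _ (hS' i) _ hU2 _ _)

/-- **`ν₂_mem`** : `T₂ ⊇ {zeros of h̄}`, `u₁ ∈ T.B`. -/
theorem ttrng_ν₂_mem_T
    (T₂ : Finset (Place (ResidueField A) (modularFunctionFieldFullC (ResidueField A) M)))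
    (hT₂ : ∀ Q, GrdVal Q (ttrH M A p) 0 → Q ∈ T₂) (hU1 : ttrU1 M A (p := p) ∈ T.B) :
    ∀ i, ν₂ i ∈ T₂ :=
  ttrng_ν₂_mem M A hpM hA T₂ hT₂ ν₁ ν₂
    (fun i => ttrng_glue_T M A hpM hA T hTO hTred t₁ t₂ _ _ (hS' i) _ hU1 _ _)

/-- **`hrν₁`, `j`-chart** (`v₁ = u₂`). -/
theorem ttrng_hrν₁_j_T (h5 : 5 ≤ p) (hat : GrdAtlas M A (jqModC ℤ) τ')
    (r : Place Qb (modularFunctionFieldBar M) →
      Place (ResidueField A) (modularFunctionFieldFullC (ResidueField A) M))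
    (hr : GrdIsRed M A hat.c.mem hat.c'.mem r) (hU2 : ttrU2 M A (p := p) ∈ T.B) :
    ∀ (P : Place Qb (modularFunctionFieldBar (M * p))) (i : ι),
      TtrpGoodC M p A (heckeAlphaBar Qb M p (grdQ M hat.c.mem)) (ttrU2 M A) P →
        ttrpR M p A (heckeAlphaBar Qb M p) (gff_alpha_integral M p) r P ≠ ν₁ i :=
  ttrng_hrν₁_T M A hpM hA T hTO hTred ν₁ ν₂ t₁ t₂ hS' hat r hr (ttr_chart_j₁ M A hpM hA h5)
    (ttrng_U2_mem₂ M A hpM) (ttrng_red₂_U2 M A hpM hA) hU2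

/-- **`hrν₂`, `j`-chart** (`v₂ = u₁`). -/
theorem ttrng_hrν₂_j_T (h5 : 5 ≤ p) (hat : GrdAtlas M A (jqModC ℤ) τ')
    (r : Place Qb (modularFunctionFieldBar M) →
      Place (ResidueField A) (modularFunctionFieldFullC (ResidueField A) M))
    (hr : GrdIsRed M A hat.c.mem hat.c'.mem r) (hU1 : ttrU1 M A (p := p) ∈ T.B) :
    ∀ (P : Place Qb (modularFunctionFieldBar (M * p))) (i : ι),
      TtrpGoodC M p A (heckeBetaBar Qb M p (grdQ M hat.c.mem)) (ttrU1 M A) P →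
        ttrpR M p A (heckeBetaBar Qb M p) (gff_beta_integral M p) r P ≠ ν₂ i :=
  ttrng_hrν₂_T M A hpM hA T hTO hTred ν₁ ν₂ t₁ t₂ hS' hat r hr (ttr_chart_j₂ M A hpM hA h5)
    (ttrU1_mem M A) (ttrRed1_U1 M A hA) hU1

/-- **`hrν₂`, `j`-chart** (`v₂ = -u₁`, helper8/helper15's normalisation). -/
theorem ttrng_hrν₂_j_neg_T (h5 : 5 ≤ p) (hat : GrdAtlas M A (jqModC ℤ) τ')
    (r : Place Qb (modularFunctionFieldBar M) →
      Place (ResidueField A) (modularFunctionFieldFullC (ResidueField A) M))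
    (hr : GrdIsRed M A hat.c.mem hat.c'.mem r) (hU1 : ttrU1 M A (p := p) ∈ T.B) :
    ∀ (P : Place Qb (modularFunctionFieldBar (M * p))) (i : ι),
      TtrpGoodC M p A (heckeBetaBar Qb M p (grdQ M hat.c.mem)) (-ttrU1 M A) P →
        ttrpR M p A (heckeBetaBar Qb M p) (gff_beta_integral M p) r P ≠ ν₂ i :=
  ttrng_hrν₂_T M A hpM hA T hTO hTred ν₁ ν₂ t₁ t₂ hS' hat r hr
    (ttrng_chart_j₂_neg M A hpM hA h5) (Subring.neg_mem _ (ttrU1_mem M A))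
    (ttrng_red₁_negU1 M A hA _) (T.B.neg_mem hU1)

end Fermat.Agent.TT
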