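/-
(NODE), last mile for COUNT (owner helper18, prefix `ttrt`): the hypothesis `TB` of helper5's
`ttrkT_hT` (CountT.lean) = transversality (T) for the chart ring
`grdB (M p) 𝔸 (α (grdQ M hat.c.mem))` at every closed point on both components, for the two explicit
finite charts:

* `ttrt_TB_j` : `hat : GrdAtlas M 𝔸 (jqModC ℤ) τ'`, `5 ≤ p`   (helper19 `ttrn_T_j`);
* `ttrt_TB_h` : `hat : GrdAtlas M 𝔸 (s18hq a (s18hExp a) ℤ) τ'`, `(p, a) ∈ {(2,3), (3,2)}`, `a ∣ M`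
  (helper19 `ttrn_T_h`);

with `V₁ = ttrV1`, `V₂` any spelling of `w⁻¹ V₁`.  Inputs discharged inside: `TtrnGauss` ×2
(NodeGauss.lean), (HV4) (helper12 NodeHV4.lean), the coordinate equation `ttrt_grdQ_alpha`.
* `ttrt_TB'_of_TB` : CHART-GENERIC (any `hat : GrdAtlas M 𝔸 τ τ'`) : (T) on the finite chart
  `hat.c` gives (T) on the inverse chart `hat.c'` at every closed point `𝔫'` with `u' ∉ 𝔫'` and
  residue field generated by constants (helper19 `ttrn_T_inv`, all Gauss-type inputs discharged);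
  `ttrt_TB'_of_TB_NC` : the same with `u' ∉ 𝔫'` from the (N-C) literal; instances
  `ttrt_TB'_j`, `ttrt_TB'_h`.
Imports BY REFERENCE: helper19 TT/Red2/{NodeInst,NodeInvInst}.lean, helper12 TT/Red2/NodeHV4.lean.
-/
import Mathlib
import Fermat.Agent.TT.Red2.NodeInst
import Fermat.Agent.TT.Red2.NodeGauss
import Fermat.Agent.TT.Red2.NodeHV4
import Fermat.Agent.TT.Red2.NodeInvInst
import Fermat.Agent.G.Red.Atlas

set_option autoImplicit false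
set_option linter.unusedSectionVars false
set_option linter.unusedVariables false

noncomputable section

namespace Fermat.Agent.TT

open ModularCurve AlgebraicCurve IsLocalRing Polynomial Fermat.Agent.S18 Fermat.Agent.S24
  Fermat.Agent.G Fermat.Agent.SS

local notation "Qb" => AlgebraicClosure ℚ

variable (M : ℕ) [NeZero M] {p : ℕ} [Fact p.Prime] [NeZero p]
variable (A : ValuationSubring Qb)

/-- (T) at the chart `j`, level `M p`, `p ≥ 5`, in the coordinate `grdQ (M p) _` -/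
theorem ttrt_TB_j' (hpM : ¬ p ∣ M) (hA : A.LiesOverPrime p) (h5 : 5 ≤ p)
    (htr : Transcendental (ResidueField ↥A) (grdK M A (grdi_mem_j M)))
    (V2 : ValuationSubring (modularFunctionFieldBar (M * p)))
    (hV2 : ∀ x, x ∈ V2 ↔ ttrW M hpM x ∈ grdO (M * p) A)
    (𝔫 : Ideal ↥(grdB (M * p) A (grdQ (M * p) (grdi_mem_j (M * p))))) (h𝔫 : 𝔫.IsMaximal)
    (h𝔭₁ : ∀ x : ↥(grdB (M * p) A (grdQ (M * p) (grdi_mem_j (M * p)))),
      (x : ↥(modularFunctionFieldBar (M * p))) ∈ (ttrV1 M A hpM hA).nonunits → x ∈ 𝔫)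
    (h𝔭₂ : ∀ x : ↥(grdB (M * p) A (grdQ (M * p) (grdi_mem_j (M * p)))),
      (x : ↥(modularFunctionFieldBar (M * p))) ∈ V2.nonunits → x ∈ 𝔫)
    (x : ↥(grdB (M * p) A (grdQ (M * p) (grdi_mem_j (M * p))))) (hx : x ∈ 𝔫) :
    ∃ s : ↥(grdB (M * p) A (grdQ (M * p) (grdi_mem_j (M * p)))), s ∉ 𝔫 ∧
      ∃ y₁ y₂ : ↥(grdB (M * p) A (grdQ (M * p) (grdi_mem_j (M * p)))),
        (y₁ : ↥(modularFunctionFieldBar (M * p))) ∈ (ttrV1 M A hpM hA).nonunits ∧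
        (y₂ : ↥(modularFunctionFieldBar (M * p))) ∈ V2.nonunits ∧ s * x = y₁ + y₂ :=
  ttrn_T_j M p hpM h5 A hA (ttrV1 M A hpM hA) V2
    (ttrt_gauss_V1 M A (grdi_mem_j M) (grdi_mem_j (M * p)) hpM hA htr)
    (ttrt_gauss_V2 M A (grdi_mem_j M) (grdi_mem_j (M * p)) hpM hA htr V2 hV2)
    (ttr_hv4₁ M A hpM hA) (ttr_hv4₂ M A hpM hA V2 hV2) 𝔫 h𝔫 h𝔭₁ h𝔭₂ x hx

/-- the same in the coordinate `α (grdQ M hat.c.mem)` = the `TB` of helper5's `ttrkT_hT` -/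
theorem ttrt_TB_j (hpM : ¬ p ∣ M) (hA : A.LiesOverPrime p) (h5 : 5 ≤ p) {τ' : LaurentSeries ℤ}
    (hat : GrdAtlas M A (jqModC ℤ) τ')
    (V2 : ValuationSubring (modularFunctionFieldBar (M * p)))
    (hV2 : ∀ x, x ∈ V2 ↔ ttrW M hpM x ∈ grdO (M * p) A) :
    ∀ 𝔫 : Ideal ↥(grdB (M * p) A (heckeAlphaBar Qb M p (grdQ M hat.c.mem))), 𝔫.IsMaximal →
      (∀ x : ↥(grdB (M * p) A (heckeAlphaBar Qb M p (grdQ M hat.c.mem))),
        (x : modularFunctionFieldBar (M * p)) ∈ (ttrV1 M A hpM hA).nonunits → x ∈ 𝔫) →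
      (∀ x : ↥(grdB (M * p) A (heckeAlphaBar Qb M p (grdQ M hat.c.mem))),
        (x : modularFunctionFieldBar (M * p)) ∈ V2.nonunits → x ∈ 𝔫) →
      ∀ x ∈ 𝔫, ∃ s, s ∉ 𝔫 ∧
        ∃ y₁ y₂ : ↥(grdB (M * p) A (heckeAlphaBar Qb M p (grdQ M hat.c.mem))),
          (y₁ : modularFunctionFieldBar (M * p)) ∈ (ttrV1 M A hpM hA).nonunits ∧
          (y₂ : modularFunctionFieldBar (M * p)) ∈ V2.nonunits ∧ s * x = y₁ + y₂ := by
  have e := ttrt_grdQ_alpha M (p := p) hat.c.mem (grdi_mem_j (M * p))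
  rw [← e]
  intro 𝔫 h𝔫 h1 h2 x hx
  exact ttrt_TB_j' M A hpM hA h5 hat.c.sepK.transcendental V2 hV2 𝔫 h𝔫 h1 h2 x hx


/-- (T) at the chart `h_a`, level `M p`, `p ∈ {2,3}`, in the coordinate `α (grdQ M hat.c.mem)` -/
theorem ttrt_TB_h (a : ℕ) [NeZero a] (hpa : (p = 2 ∧ a = 3) ∨ (p = 3 ∧ a = 2)) (haM : a ∣ M)
    (hpM : ¬ p ∣ M) (hA : A.LiesOverPrime p) {τ' : LaurentSeries ℤ}
    (hat : GrdAtlas M A (s18hq a (s18hExp a) ℤ) τ')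
    (V2 : ValuationSubring (modularFunctionFieldBar (M * p)))
    (hV2 : ∀ x, x ∈ V2 ↔ ttrW M hpM x ∈ grdO (M * p) A) :
    ∀ 𝔫 : Ideal ↥(grdB (M * p) A (heckeAlphaBar Qb M p (grdQ M hat.c.mem))), 𝔫.IsMaximal →
      (∀ x : ↥(grdB (M * p) A (heckeAlphaBar Qb M p (grdQ M hat.c.mem))),
        (x : modularFunctionFieldBar (M * p)) ∈ (ttrV1 M A hpM hA).nonunits → x ∈ 𝔫) →
      (∀ x : ↥(grdB (M * p) A (heckeAlphaBar Qb M p (grdQ M hat.c.mem))),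
        (x : modularFunctionFieldBar (M * p)) ∈ V2.nonunits → x ∈ 𝔫) →
      ∀ x ∈ 𝔫, ∃ s, s ∉ 𝔫 ∧
        ∃ y₁ y₂ : ↥(grdB (M * p) A (heckeAlphaBar Qb M p (grdQ M hat.c.mem))),
          (y₁ : modularFunctionFieldBar (M * p)) ∈ (ttrV1 M A hpM hA).nonunits ∧
          (y₂ : modularFunctionFieldBar (M * p)) ∈ V2.nonunits ∧ s * x = y₁ + y₂ := by
  have ha : a = 2 ∨ a = 3 := by
    rcases hpa with ⟨-, h⟩ | ⟨-, h⟩
    · exact Or.inr h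
    · exact Or.inl h
  have hmem' : GrdSerMem (M * p) (s18hq a (s18hExp a) ℤ) :=
    grdis_mem_h a ha (M * p) (Dvd.dvd.mul_right haM p)
  have e := ttrt_grdQ_alpha M (p := p) hat.c.mem hmem'
  rw [← e]
  intro 𝔫 h𝔫 h1 h2 x hx
  exact ttrn_T_h M p a ha haM hpa hpM A hA hmem' (ttrV1 M A hpM hA) V2
    (ttrt_gauss_V1 M A hat.c.mem hmem' hpM hA hat.c.sepK.transcendental)
    (ttrt_gauss_V2 M A hat.c.mem hmem' hpM hA hat.c.sepK.transcendental V2 hV2)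
    (ttr_hv4₁ M A hpM hA) (ttr_hv4₂ M A hpM hA V2 hV2) 𝔫 h𝔫 h1 h2 x hx


/-! ### The inverse chart -/

/-- a chart series of level `M` is one of level `M p` -/
theorem ttrt_serMem {υ : LaurentSeries ℤ} (hυ : GrdSerMem M υ) : GrdSerMem (M * p) υ :=
  fun K _ => full_degeneracyC_le K (dvd_mul_right M p) (hυ K)

/-- `α υ_ℚ̄` lies in `V₁` and in `V₂` -/
theorem ttrt_alpha_coord_mem (hpM : ¬ p ∣ M) (hA : A.LiesOverPrime p) {υ : LaurentSeries ℤ}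
    (hc : GrdChart M A υ)
    (V2 : ValuationSubring (modularFunctionFieldBar (M * p)))
    (hV2 : ∀ x, x ∈ V2 ↔ ttrW M hpM x ∈ grdO (M * p) A) :
    heckeAlphaBar Qb M p (grdQ M hc.mem) ∈ ttrV1 M A hpM hA ∧
      heckeAlphaBar Qb M p (grdQ M hc.mem) ∈ V2 := by
  have e := ttrt_grdQ_alpha M (p := p) hc.mem (ttrt_serMem M hc.mem)
  rw [← e]
  exact ⟨(ttrt_gauss_V1 M A hc.mem (ttrt_serMem M hc.mem) hpM hA
      hc.sepK.transcendental).coord_mem,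
    (ttrt_gauss_V2 M A hc.mem (ttrt_serMem M hc.mem) hpM hA
      hc.sepK.transcendental V2 hV2).coord_mem⟩

/-- **(T) on the inverse chart from (T) on the finite chart**, chart-generic : helper19's
`ttrn_T_inv` at `u = α τ_ℚ̄`, `u' = α τ'_ℚ̄`, `V₁ = ttrV1`, `V₂ = w⁻¹ V₁`. -/
theorem ttrt_TB'_of_TB (hpM : ¬ p ∣ M) (hA : A.LiesOverPrime p) {τ τ' : LaurentSeries ℤ}
    (hat : GrdAtlas M A τ τ')
    (V2 : ValuationSubring (modularFunctionFieldBar (M * p)))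
    (hV2 : ∀ x, x ∈ V2 ↔ ttrW M hpM x ∈ grdO (M * p) A)
    (TB : ∀ 𝔫 : Ideal ↥(grdB (M * p) A (heckeAlphaBar Qb M p (grdQ M hat.c.mem))), 𝔫.IsMaximal →
      (∀ x : ↥(grdB (M * p) A (heckeAlphaBar Qb M p (grdQ M hat.c.mem))),
        (x : modularFunctionFieldBar (M * p)) ∈ (ttrV1 M A hpM hA).nonunits → x ∈ 𝔫) →
      (∀ x : ↥(grdB (M * p) A (heckeAlphaBar Qb M p (grdQ M hat.c.mem))),
        (x : modularFunctionFieldBar (M * p)) ∈ V2.nonunits → x ∈ 𝔫) →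
      ∀ x ∈ 𝔫, ∃ s, s ∉ 𝔫 ∧
        ∃ y₁ y₂ : ↥(grdB (M * p) A (heckeAlphaBar Qb M p (grdQ M hat.c.mem))),
          (y₁ : modularFunctionFieldBar (M * p)) ∈ (ttrV1 M A hpM hA).nonunits ∧
          (y₂ : modularFunctionFieldBar (M * p)) ∈ V2.nonunits ∧ s * x = y₁ + y₂)
    (𝔫' : Ideal ↥(grdB (M * p) A (heckeAlphaBar Qb M p (grdQ M hat.c'.mem))))
    (h𝔫' : 𝔫'.IsMaximal)
    (h1 : ∀ x : ↥(grdB (M * p) A (heckeAlphaBar Qb M p (grdQ M hat.c'.mem))),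
      (x : modularFunctionFieldBar (M * p)) ∈ (ttrV1 M A hpM hA).nonunits → x ∈ 𝔫')
    (h2 : ∀ x : ↥(grdB (M * p) A (heckeAlphaBar Qb M p (grdQ M hat.c'.mem))),
      (x : modularFunctionFieldBar (M * p)) ∈ V2.nonunits → x ∈ 𝔫')
    (hu𝔫 : (⟨heckeAlphaBar Qb M p (grdQ M hat.c'.mem),
      grdz_u_mem (M * p) A (heckeAlphaBar Qb M p (grdQ M hat.c'.mem))⟩ :
        ↥(grdB (M * p) A (heckeAlphaBar Qb M p (grdQ M hat.c'.mem)))) ∉ 𝔫')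
    (hres : ∀ x : ↥(grdB (M * p) A (heckeAlphaBar Qb M p (grdQ M hat.c'.mem))),
      ∃ a : ↥A, x - grdzι (M * p) A (heckeAlphaBar Qb M p (grdQ M hat.c'.mem)) a ∈ 𝔫') :
    ∀ x ∈ 𝔫', ∃ s, s ∉ 𝔫' ∧
      ∃ y₁ y₂ : ↥(grdB (M * p) A (heckeAlphaBar Qb M p (grdQ M hat.c'.mem))),
        (y₁ : modularFunctionFieldBar (M * p)) ∈ (ttrV1 M A hpM hA).nonunits ∧
        (y₂ : modularFunctionFieldBar (M * p)) ∈ V2.nonunits ∧ s * x = y₁ + y₂ := by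
  have G1 := ttrt_gauss_V1 M A hat.c.mem (ttrt_serMem M hat.c.mem) hpM hA
    hat.c.sepK.transcendental
  have G2 := ttrt_gauss_V2 M A hat.c.mem (ttrt_serMem M hat.c.mem) hpM hA
    hat.c.sepK.transcendental V2 hV2
  have huu' : heckeAlphaBar Qb M p (grdQ M hat.c.mem) *
      heckeAlphaBar Qb M p (grdQ M hat.c'.mem) = 1 := by
    rw [← map_mul, grda_grdQ_mul M A hat, map_one]
  obtain ⟨hu1, hu2⟩ := ttrt_alpha_coord_mem M A hpM hA hat.c V2 hV2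
  obtain ⟨hu'1, hu'2⟩ := ttrt_alpha_coord_mem M A hpM hA hat.c' V2 hV2
  exact ttrn_T_inv (M * p) A _ _ huu' (ttrV1 M A hpM hA) V2 G1.const_mem G2.const_mem
    G1.max_mem hu1 hu2 hu'1 hu'2 TB 𝔫' h𝔫' h1 h2 hu𝔫 hres

/-- the same with `u' ∉ 𝔫'` supplied by the (N-C) literal (no crossing where the inverse
coordinate vanishes); the conclusion is the `TB` binder of helper5's `ttrkT_hT'` VERBATIM. -/
theorem ttrt_TB'_of_TB_NC (hpM : ¬ p ∣ M) (hA : A.LiesOverPrime p) {τ τ' : LaurentSeries ℤ}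
    (hat : GrdAtlas M A τ τ')
    (V2 : ValuationSubring (modularFunctionFieldBar (M * p)))
    (hV2 : ∀ x, x ∈ V2 ↔ ttrW M hpM x ∈ grdO (M * p) A)
    (TB : ∀ 𝔫 : Ideal ↥(grdB (M * p) A (heckeAlphaBar Qb M p (grdQ M hat.c.mem))), 𝔫.IsMaximal →
      (∀ x : ↥(grdB (M * p) A (heckeAlphaBar Qb M p (grdQ M hat.c.mem))),
        (x : modularFunctionFieldBar (M * p)) ∈ (ttrV1 M A hpM hA).nonunits → x ∈ 𝔫) →
      (∀ x : ↥(grdB (M * p) A (heckeAlphaBar Qb M p (grdQ M hat.c.mem))),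
        (x : modularFunctionFieldBar (M * p)) ∈ V2.nonunits → x ∈ 𝔫) →
      ∀ x ∈ 𝔫, ∃ s, s ∉ 𝔫 ∧
        ∃ y₁ y₂ : ↥(grdB (M * p) A (heckeAlphaBar Qb M p (grdQ M hat.c.mem))),
          (y₁ : modularFunctionFieldBar (M * p)) ∈ (ttrV1 M A hpM hA).nonunits ∧
          (y₂ : modularFunctionFieldBar (M * p)) ∈ V2.nonunits ∧ s * x = y₁ + y₂)
    (NC : ∀ 𝔫' : Ideal ↥(grdB (M * p) A (heckeAlphaBar Qb M p (grdQ M hat.c'.mem))),
      𝔫'.IsPrime →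
      (∀ x : ↥(grdB (M * p) A (heckeAlphaBar Qb M p (grdQ M hat.c'.mem))),
        (x : modularFunctionFieldBar (M * p)) ∈ (ttrV1 M A hpM hA).nonunits → x ∈ 𝔫') →
      (∀ x : ↥(grdB (M * p) A (heckeAlphaBar Qb M p (grdQ M hat.c'.mem))),
        (x : modularFunctionFieldBar (M * p)) ∈ V2.nonunits → x ∈ 𝔫') →
      (∀ h : heckeAlphaBar Qb M p (grdQ M hat.c'.mem) ∈
          grdB (M * p) A (heckeAlphaBar Qb M p (grdQ M hat.c'.mem)),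
        (⟨heckeAlphaBar Qb M p (grdQ M hat.c'.mem), h⟩ :
          ↥(grdB (M * p) A (heckeAlphaBar Qb M p (grdQ M hat.c'.mem)))) ∈ 𝔫') → False)
    (hres : ∀ 𝔫' : Ideal ↥(grdB (M * p) A (heckeAlphaBar Qb M p (grdQ M hat.c'.mem))),
      𝔫'.IsMaximal →
      (∀ x : ↥(grdB (M * p) A (heckeAlphaBar Qb M p (grdQ M hat.c'.mem))),
        (x : modularFunctionFieldBar (M * p)) ∈ (ttrV1 M A hpM hA).nonunits → x ∈ 𝔫') →
      ∀ x : ↥(grdB (M * p) A (heckeAlphaBar Qb M p (grdQ M hat.c'.mem))),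
        ∃ a : ↥A, x - grdzι (M * p) A (heckeAlphaBar Qb M p (grdQ M hat.c'.mem)) a ∈ 𝔫') :
    ∀ 𝔫' : Ideal ↥(grdB (M * p) A (heckeAlphaBar Qb M p (grdQ M hat.c'.mem))), 𝔫'.IsMaximal →
      (∀ x : ↥(grdB (M * p) A (heckeAlphaBar Qb M p (grdQ M hat.c'.mem))),
        (x : modularFunctionFieldBar (M * p)) ∈ (ttrV1 M A hpM hA).nonunits → x ∈ 𝔫') →
      (∀ x : ↥(grdB (M * p) A (heckeAlphaBar Qb M p (grdQ M hat.c'.mem))),
        (x : modularFunctionFieldBar (M * p)) ∈ V2.nonunits → x ∈ 𝔫') →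
      ∀ x ∈ 𝔫', ∃ s, s ∉ 𝔫' ∧
        ∃ y₁ y₂ : ↥(grdB (M * p) A (heckeAlphaBar Qb M p (grdQ M hat.c'.mem))),
          (y₁ : modularFunctionFieldBar (M * p)) ∈ (ttrV1 M A hpM hA).nonunits ∧
          (y₂ : modularFunctionFieldBar (M * p)) ∈ V2.nonunits ∧ s * x = y₁ + y₂ :=
  fun 𝔫' h𝔫' h1 h2 =>
    ttrt_TB'_of_TB M A hpM hA hat V2 hV2 TB 𝔫' h𝔫' h1 h2
      (fun hmem => NC 𝔫' h𝔫'.isPrime h1 h2 (fun _ => hmem)) (hres 𝔫' h𝔫' h1)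

/-- **TB′ at the atlas `(j, τ')`, `p ≥ 5`** (NC and `hres` as the only hypotheses) -/
theorem ttrt_TB'_j (hpM : ¬ p ∣ M) (hA : A.LiesOverPrime p) (h5 : 5 ≤ p) {τ' : LaurentSeries ℤ}
    (hat : GrdAtlas M A (jqModC ℤ) τ')
    (V2 : ValuationSubring (modularFunctionFieldBar (M * p)))
    (hV2 : ∀ x, x ∈ V2 ↔ ttrW M hpM x ∈ grdO (M * p) A)
    (NC : ∀ 𝔫' : Ideal ↥(grdB (M * p) A (heckeAlphaBar Qb M p (grdQ M hat.c'.mem))),
      𝔫'.IsPrime →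
      (∀ x : ↥(grdB (M * p) A (heckeAlphaBar Qb M p (grdQ M hat.c'.mem))),
        (x : modularFunctionFieldBar (M * p)) ∈ (ttrV1 M A hpM hA).nonunits → x ∈ 𝔫') →
      (∀ x : ↥(grdB (M * p) A (heckeAlphaBar Qb M p (grdQ M hat.c'.mem))),
        (x : modularFunctionFieldBar (M * p)) ∈ V2.nonunits → x ∈ 𝔫') →
      (∀ h : heckeAlphaBar Qb M p (grdQ M hat.c'.mem) ∈
          grdB (M * p) A (heckeAlphaBar Qb M p (grdQ M hat.c'.mem)),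
        (⟨heckeAlphaBar Qb M p (grdQ M hat.c'.mem), h⟩ :
          ↥(grdB (M * p) A (heckeAlphaBar Qb M p (grdQ M hat.c'.mem)))) ∈ 𝔫') → False)
    (hres : ∀ 𝔫' : Ideal ↥(grdB (M * p) A (heckeAlphaBar Qb M p (grdQ M hat.c'.mem))),
      𝔫'.IsMaximal →
      (∀ x : ↥(grdB (M * p) A (heckeAlphaBar Qb M p (grdQ M hat.c'.mem))),
        (x : modularFunctionFieldBar (M * p)) ∈ (ttrV1 M A hpM hA).nonunits → x ∈ 𝔫') →
      ∀ x : ↥(grdB (M * p) A (heckeAlphaBar Qb M p (grdQ M hat.c'.mem))),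
        ∃ a : ↥A, x - grdzι (M * p) A (heckeAlphaBar Qb M p (grdQ M hat.c'.mem)) a ∈ 𝔫') :
    ∀ 𝔫' : Ideal ↥(grdB (M * p) A (heckeAlphaBar Qb M p (grdQ M hat.c'.mem))), 𝔫'.IsMaximal →
      (∀ x : ↥(grdB (M * p) A (heckeAlphaBar Qb M p (grdQ M hat.c'.mem))),
        (x : modularFunctionFieldBar (M * p)) ∈ (ttrV1 M A hpM hA).nonunits → x ∈ 𝔫') →
      (∀ x : ↥(grdB (M * p) A (heckeAlphaBar Qb M p (grdQ M hat.c'.mem))),
        (x : modularFunctionFieldBar (M * p)) ∈ V2.nonunits → x ∈ 𝔫') →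
      ∀ x ∈ 𝔫', ∃ s, s ∉ 𝔫' ∧
        ∃ y₁ y₂ : ↥(grdB (M * p) A (heckeAlphaBar Qb M p (grdQ M hat.c'.mem))),
          (y₁ : modularFunctionFieldBar (M * p)) ∈ (ttrV1 M A hpM hA).nonunits ∧
          (y₂ : modularFunctionFieldBar (M * p)) ∈ V2.nonunits ∧ s * x = y₁ + y₂ :=
  ttrt_TB'_of_TB_NC M A hpM hA hat V2 hV2 (ttrt_TB_j M A hpM hA h5 hat V2 hV2) NC hres

/-- **TB′ at the atlas `(h_a, τ')`, `p ∈ {2, 3}`** (NC and `hres` as the only hypotheses) -/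
theorem ttrt_TB'_h (a : ℕ) [NeZero a] (hpa : (p = 2 ∧ a = 3) ∨ (p = 3 ∧ a = 2)) (haM : a ∣ M)
    (hpM : ¬ p ∣ M) (hA : A.LiesOverPrime p) {τ' : LaurentSeries ℤ}
    (hat : GrdAtlas M A (s18hq a (s18hExp a) ℤ) τ')
    (V2 : ValuationSubring (modularFunctionFieldBar (M * p)))
    (hV2 : ∀ x, x ∈ V2 ↔ ttrW M hpM x ∈ grdO (M * p) A)
    (NC : ∀ 𝔫' : Ideal ↥(grdB (M * p) A (heckeAlphaBar Qb M p (grdQ M hat.c'.mem))),
      𝔫'.IsPrime →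
      (∀ x : ↥(grdB (M * p) A (heckeAlphaBar Qb M p (grdQ M hat.c'.mem))),
        (x : modularFunctionFieldBar (M * p)) ∈ (ttrV1 M A hpM hA).nonunits → x ∈ 𝔫') →
      (∀ x : ↥(grdB (M * p) A (heckeAlphaBar Qb M p (grdQ M hat.c'.mem))),
        (x : modularFunctionFieldBar (M * p)) ∈ V2.nonunits → x ∈ 𝔫') →
      (∀ h : heckeAlphaBar Qb M p (grdQ M hat.c'.mem) ∈
          grdB (M * p) A (heckeAlphaBar Qb M p (grdQ M hat.c'.mem)),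
        (⟨heckeAlphaBar Qb M p (grdQ M hat.c'.mem), h⟩ :
          ↥(grdB (M * p) A (heckeAlphaBar Qb M p (grdQ M hat.c'.mem)))) ∈ 𝔫') → False)
    (hres : ∀ 𝔫' : Ideal ↥(grdB (M * p) A (heckeAlphaBar Qb M p (grdQ M hat.c'.mem))),
      𝔫'.IsMaximal →
      (∀ x : ↥(grdB (M * p) A (heckeAlphaBar Qb M p (grdQ M hat.c'.mem))),
        (x : modularFunctionFieldBar (M * p)) ∈ (ttrV1 M A hpM hA).nonunits → x ∈ 𝔫') →
      ∀ x : ↥(grdB (M * p) A (heckeAlphaBar Qb M p (grdQ M hat.c'.mem))),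
        ∃ a : ↥A, x - grdzι (M * p) A (heckeAlphaBar Qb M p (grdQ M hat.c'.mem)) a ∈ 𝔫') :
    ∀ 𝔫' : Ideal ↥(grdB (M * p) A (heckeAlphaBar Qb M p (grdQ M hat.c'.mem))), 𝔫'.IsMaximal →
      (∀ x : ↥(grdB (M * p) A (heckeAlphaBar Qb M p (grdQ M hat.c'.mem))),
        (x : modularFunctionFieldBar (M * p)) ∈ (ttrV1 M A hpM hA).nonunits → x ∈ 𝔫') →
      (∀ x : ↥(grdB (M * p) A (heckeAlphaBar Qb M p (grdQ M hat.c'.mem))),
        (x : modularFunctionFieldBar (M * p)) ∈ V2.nonunits → x ∈ 𝔫') →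
      ∀ x ∈ 𝔫', ∃ s, s ∉ 𝔫' ∧
        ∃ y₁ y₂ : ↥(grdB (M * p) A (heckeAlphaBar Qb M p (grdQ M hat.c'.mem))),
          (y₁ : modularFunctionFieldBar (M * p)) ∈ (ttrV1 M A hpM hA).nonunits ∧
          (y₂ : modularFunctionFieldBar (M * p)) ∈ V2.nonunits ∧ s * x = y₁ + y₂ :=
  ttrt_TB'_of_TB_NC M A hpM hA hat V2 hV2 (ttrt_TB_h M A a hpa haM hpM hA hat V2 hV2) NC hres

end Fermat.Agent.TT
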