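import Mathlib
import Fermat.Agent.TT.Red2.Unif8Cls
import Fermat.Agent.TT.Red2.ChartSmallInst

/-!
# Program TT, G/Red2 layer B : `(B3)` IN THE `∀`-FORM WITH `e = 1` FOR THE CHARTS `j` AND `h_a`
(ROUTE J; prefix `ttrf`)

The input `hfib_j` of helper15's `ttrli_const_cls` (and of `ttrf_hw_cls₁/₂`) :
`∀ P good, e(P) = 1 ∧ P is the only good place over P ∘ φ`.

* `ttrf_transfer` : ROUTE J TRANSFER.  `U` a chart coordinate of level `M p`, `v = U^N v₀` with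
  `v = Z U^k - U^l W`, `k, l ≥ 1`, `Z, W ∈ B(U)`, and `J U^e ∈ B(U)` : a good place of `(U, v)`
  is a good place of `(J, v₀)` (`U(P)` is a unit, so `J(P) ∈ 𝔸` and `v₀(P) = v(P)/U(P)^N`);
* `ttrf_hfib_of_transfer` : `(B3)` for `(U, v)` from a Kronecker datum for `(φ, j₀, Y)` and the
  transfer to `(φ j₀, Y^p - φ j₀)`;
* `ttrf_hfib_j₁`, `ttrf_hfib_j₂`, `ttrf_hfib_j₂_neg` : the `j`-chart (`v₁ = u₂`, `v₂ = u₁` resp. `-u₁`);
* `ttrf_hfib_h₁`, `ttrf_hfib_h₂` : the `h_a`-chart of helper17 (`v₁ = (α h)^N u₂`, `v₂ = (β h)^N u₁`,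
  `N > p² a`).
-/

set_option autoImplicit false
set_option linter.unusedSectionVars false
set_option linter.unusedVariables false
set_option linter.style.haveILetI false
set_option synthInstance.maxHeartbeats 400000

noncomputable section

namespace Fermat.Agent.TT

open ModularCurve AlgebraicCurve IsLocalRing Polynomial Fermat.Agent.S18 Fermat.Agent.S24
  Fermat.Agent.G Fermat.Agent.FF Fermat.Agent.S05

local notation "Qb" => AlgebraicClosure ℚ

section Transfer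

variable {M p : ℕ} [NeZero M] [NeZero p]
variable {A : ValuationSubring Qb}

/-- `𝔪_𝔸` is stable under multiplication by `𝔸`. -/
theorem ttrf_nonunits_mul {a m : Qb} (ha : a ∈ A) (hm : m ∈ A.nonunits) : a * m ∈ A.nonunits := by
  rw [ValuationSubring.mem_nonunits_iff_exists_mem_maximalIdeal] at hm ⊢
  obtain ⟨hmA, hmm⟩ := hm
  refine ⟨A.mul_mem _ _ ha hmA, ?_⟩
  have h1 : (⟨a * m, A.mul_mem _ _ ha hmA⟩ : ↥A) = ⟨a, ha⟩ * ⟨m, hmA⟩ := rfl
  rw [h1]
  exact Ideal.mul_mem_left _ _ hmm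

/-- goodness does not see the sign of `v`. -/
theorem ttrf_goodC_neg (u v : modularFunctionFieldBar (M * p))
    (P : Place Qb (modularFunctionFieldBar (M * p))) :
    TtrpGoodC M p A u (-v) P ↔ TtrpGoodC M p A u v P := by
  have key : ∀ x : modularFunctionFieldBar (M * p),
      (∃ a : Qb, a ∈ A.nonunits ∧ GrdVal P x a) → ∃ a : Qb, a ∈ A.nonunits ∧ GrdVal P (-x) a := by
    rintro x ⟨a, ha, hxa⟩
    refine ⟨-a, ?_, grdg_val_neg P hxa⟩
    have h1 : -a = (-1 : Qb) * a := by ring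
    rw [h1]
    exact ttrf_nonunits_mul (A.neg_mem _ A.one_mem) ha
  unfold TtrpGoodC
  constructor
  · rintro ⟨h1, h2⟩
    exact ⟨h1, fun h => h2 (key v h)⟩
  · rintro ⟨h1, h2⟩
    refine ⟨h1, fun h => h2 ?_⟩
    have := key (-v) h
    rwa [neg_neg] at this

/-- at a good place of `(U, v)`, `v = Z U^k - U^l W` with `k, l ≥ 1` and `Z, W ∈ B(U)`, the
coordinate `U` takes a unit value. -/
theorem ttrf_coord_unit (U v Z W : modularFunctionFieldBar (M * p)) (k l : ℕ)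
    (hk : 0 < k) (hl : 0 < l)
    (hZ : Z ∈ grdB (M * p) A U) (hW : W ∈ grdB (M * p) A U)
    (hdec : v = Z * U ^ k - U ^ l * W)
    (P : Place Qb (modularFunctionFieldBar (M * p))) (hP : TtrpGoodC M p A U v P) :
    ∃ a : A, GrdVal P U (a : Qb) ∧ (a : Qb) ∉ A.nonunits := by
  obtain ⟨a, ha⟩ := hP.1
  refine ⟨a, ha, fun ham => hP.2 ?_⟩
  obtain ⟨z, hz⟩ := ttrp_val_exists (M * p) A U P hP.1 hZ
  obtain ⟨w, hw⟩ := ttrp_val_exists (M * p) A U P hP.1 hW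
  have hpow : ∀ n : ℕ, 0 < n → (a : Qb) ^ n ∈ A.nonunits := by
    intro n hn
    obtain ⟨n', rfl⟩ : ∃ n', n = n' + 1 := ⟨n - 1, by omega⟩
    rw [pow_succ]
    exact ttrf_nonunits_mul (A.pow_mem a.2 n') ham
  have h1 : (z : Qb) * (a : Qb) ^ k ∈ A.nonunits := ttrf_nonunits_mul z.2 (hpow k hk)
  have h2 : (a : Qb) ^ l * (w : Qb) ∈ A.nonunits := by
    rw [mul_comm]
    exact ttrf_nonunits_mul w.2 (hpow l hl)
  refine ⟨(z : Qb) * (a : Qb) ^ k - (a : Qb) ^ l * (w : Qb), ?_, ?_⟩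
  · rw [ValuationSubring.mem_nonunits_iff_exists_mem_maximalIdeal] at h1 h2 ⊢
    obtain ⟨h1A, h1m⟩ := h1
    obtain ⟨h2A, h2m⟩ := h2
    have h12 : (z : Qb) * (a : Qb) ^ k - (a : Qb) ^ l * (w : Qb) ∈ A := sub_mem h1A h2A
    refine ⟨h12, ?_⟩
    have h3 : (⟨(z : Qb) * (a : Qb) ^ k - (a : Qb) ^ l * (w : Qb), h12⟩ : ↥A) =
        ⟨_, h1A⟩ - ⟨_, h2A⟩ := rfl
    rw [h3]
    exact Ideal.sub_mem _ h1m h2m
  · rw [hdec]
    exact grdr_val_sub P (grdg_val_mul P hz (grda_val_pow P ha k))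
      (grdg_val_mul P (grda_val_pow P ha l) hw)

/-- **ROUTE J TRANSFER** : a good place of `(U, U^N v₀)` is a good place of `(J, v₀)`. -/
theorem ttrf_transfer (U J v₀ Z W W' : modularFunctionFieldBar (M * p)) (N k l e : ℕ)
    (hk : 0 < k) (hl : 0 < l)
    (hZ : Z ∈ grdB (M * p) A U) (hW : W ∈ grdB (M * p) A U) (hW' : W' ∈ grdB (M * p) A U)
    (hdec : U ^ N * v₀ = Z * U ^ k - U ^ l * W) (hJ : J * U ^ e = W')
    (P : Place Qb (modularFunctionFieldBar (M * p)))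
    (hP : TtrpGoodC M p A U (U ^ N * v₀) P) :
    TtrpGoodC M p A J v₀ P := by
  obtain ⟨a, ha, hau⟩ := ttrf_coord_unit U _ Z W k l hk hl hZ hW hdec P hP
  have ha0 : (a : Qb) ≠ 0 := by
    intro h0
    apply hau
    rw [h0]
    exact (ValuationSubring.mem_nonunits_iff_or A).2 (Or.inl rfl)
  have hainv : (a : Qb)⁻¹ ∈ A := by
    by_contra hn
    exact hau ((ValuationSubring.mem_nonunits_iff_or A).2 (Or.inr hn))
  obtain ⟨w', hw'⟩ := ttrp_val_exists (M * p) A U P hP.1 hW'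
  have hU0 : U ≠ 0 := by
    rintro rfl
    exact ha0 (grdg_val_unique P ha (ttrf_val_zero P))
  have hUe : GrdVal P (U ^ e)⁻¹ (((a : Qb) ^ e)⁻¹) :=
    grda_val_inv P (grda_val_pow P ha e) (pow_ne_zero e ha0)
  have hJeq : J = W' * (U ^ e)⁻¹ := by
    rw [← hJ, mul_assoc, mul_inv_cancel₀ (pow_ne_zero e hU0), mul_one]
  have hJval : GrdVal P J ((w' : Qb) * ((a : Qb) ^ e)⁻¹) := by
    rw [hJeq]
    exact grdg_val_mul P hw' hUe
  have hmem : (w' : Qb) * ((a : Qb) ^ e)⁻¹ ∈ A := by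
    rw [← inv_pow]
    exact A.mul_mem _ _ w'.2 (A.pow_mem hainv e)
  refine ⟨⟨⟨_, hmem⟩, hJval⟩, ?_⟩
  rintro ⟨m, hm, hvm⟩
  apply hP.2
  exact ⟨(a : Qb) ^ N * m, ttrf_nonunits_mul (A.pow_mem a.2 N) hm,
    grdg_val_mul P (grda_val_pow P ha N) hvm⟩

/-- **`(B3)` FOR `(U, v)`** from a Kronecker datum for `(φ, j₀, Y)` and the transfer of goodness to
`(φ j₀, Y^p - φ j₀)` : a good place is unramified and is the only good place over its
restriction. -/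
theorem ttrf_hfib_of_transfer
    (φ : modularFunctionFieldBar M →ₐ[Qb] modularFunctionFieldBar (M * p))
    (hφ : φ.toRingHom.IsIntegral) (hfin : FiniteAlong Qb φ)
    (j₀ : modularFunctionFieldBar M) (Y : modularFunctionFieldBar (M * p))
    (hK : TtrpKron M p A φ j₀ Y) (hYint : Y ∈ grdB (M * p) A (φ j₀))
    (U v : modularFunctionFieldBar (M * p))
    (htr : ∀ P : Place Qb (modularFunctionFieldBar (M * p)),
      TtrpGoodC M p A U v P → TtrpGoodC M p A (φ j₀) (Y ^ p - φ j₀) P)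
    (P : Place Qb (modularFunctionFieldBar (M * p))) (hP : TtrpGoodC M p A U v P) :
    P.ramificationIndexAlong φ = 1 ∧
      ∀ P' : Place Qb (modularFunctionFieldBar (M * p)),
        TtrpGoodC M p A U v P' → ttrpRes M p φ hφ P' = ttrpRes M p φ hφ P → P' = P := by
  have hPg := htr P hP
  have hP₀ : GrdInChart M A j₀ (ttrpRes M p φ hφ P) := (ttrp_inChart_res hφ j₀ P).mpr hPg.1
  obtain ⟨J₀, hJ₀⟩ := hP₀
  obtain ⟨he, huniq⟩ := ttrf_hfib_kron φ hφ hfin j₀ j₀ Y hK hYint _ ⟨J₀, hJ₀⟩ J₀ hJ₀ P hPg rfl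
  exact ⟨he, fun P' hP' hres => huniq P' (htr P' hP') hres⟩

end Transfer

section Inst

variable (M : ℕ) [NeZero M] {p : ℕ} [Fact p.Prime] [NeZero p]
variable (A : ValuationSubring Qb)

/-- `α j ∈ B(β j)` (the `w`-twin of `β j ∈ B(α j)`). -/
theorem ttrf_J_mem_beta (hpM : ¬ p ∣ M) (hA : A.LiesOverPrime p) :
    ttrJ M A (p := p) ∈ grdB (M * p) A (heckeBetaBar Qb M p (grdQ M (grdi_mem_j M))) := by
  have h := ttr_isInt_w M A hpM (ttr_chart_Y_mem M A hpM hA)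
  rwa [ttrW_alpha, ttrW_Y] at h

/-- `-u₁ = J^p - Y`. -/
theorem ttrf_neg_U1 : -ttrU1 M A (p := p) = ttrJ M A (p := p) ^ p - ttrY M A (p := p) := by
  unfold ttrU1
  ring

/-- **`(B3)`, `j`-chart, index 1** (`v₁ = u₂ = Y^p - J`). -/
theorem ttrf_hfib_j₁ (hpM : ¬ p ∣ M) (hA : A.LiesOverPrime p)
    (hK₁ : TtrpKron M p A (heckeAlphaBar Qb M p) (grdQ M (grdi_mem_j M))
      (heckeBetaBar Qb M p (grdQ M (grdi_mem_j M))))
    (P : Place Qb (modularFunctionFieldBar (M * p)))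
    (hP : TtrpGoodC M p A (heckeAlphaBar Qb M p (grdQ M (grdi_mem_j M))) (ttrU2 M A) P) :
    P.ramificationIndexAlong (heckeAlphaBar Qb M p) = 1 ∧
      ∀ P' : Place Qb (modularFunctionFieldBar (M * p)),
        TtrpGoodC M p A (heckeAlphaBar Qb M p (grdQ M (grdi_mem_j M))) (ttrU2 M A) P' →
        ttrpRes M p (heckeAlphaBar Qb M p) (gff_alpha_integral M p) P' =
          ttrpRes M p (heckeAlphaBar Qb M p) (gff_alpha_integral M p) P → P' = P :=
  ttrf_hfib_of_transfer (heckeAlphaBar Qb M p) (gff_alpha_integral M p) (gff_alpha_finite M p)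
    (grdQ M (grdi_mem_j M)) (heckeBetaBar Qb M p (grdQ M (grdi_mem_j M))) hK₁
    (ttr_chart_Y_mem M A hpM hA) _ _ (fun P h => h) P hP

/-- **`(B3)`, `j`-chart, index 2**, `v₂ = -u₁ = J^p - Y`. -/
theorem ttrf_hfib_j₂_neg (hpM : ¬ p ∣ M) (hA : A.LiesOverPrime p)
    (hK₂ : TtrpKron M p A (heckeBetaBar Qb M p) (grdQ M (grdi_mem_j M))
      (heckeAlphaBar Qb M p (grdQ M (grdi_mem_j M))))
    (P : Place Qb (modularFunctionFieldBar (M * p)))
    (hP : TtrpGoodC M p A (heckeBetaBar Qb M p (grdQ M (grdi_mem_j M))) (-ttrU1 M A) P) :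
    P.ramificationIndexAlong (heckeBetaBar Qb M p) = 1 ∧
      ∀ P' : Place Qb (modularFunctionFieldBar (M * p)),
        TtrpGoodC M p A (heckeBetaBar Qb M p (grdQ M (grdi_mem_j M))) (-ttrU1 M A) P' →
        ttrpRes M p (heckeBetaBar Qb M p) (gff_beta_integral M p) P' =
          ttrpRes M p (heckeBetaBar Qb M p) (gff_beta_integral M p) P → P' = P :=
  ttrf_hfib_of_transfer (heckeBetaBar Qb M p) (gff_beta_integral M p) (gff_beta_finite M p)
    (grdQ M (grdi_mem_j M)) (heckeAlphaBar Qb M p (grdQ M (grdi_mem_j M))) hK₂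
    (ttrf_J_mem_beta M A hpM hA) _ _
    (fun P h => by rw [ttrf_neg_U1] at h; exact h) P hP

/-- **`(B3)`, `j`-chart, index 2**, `v₂ = u₁ = Y - J^p` (helper12's `ttr_chart_j₂`). -/
theorem ttrf_hfib_j₂ (hpM : ¬ p ∣ M) (hA : A.LiesOverPrime p)
    (hK₂ : TtrpKron M p A (heckeBetaBar Qb M p) (grdQ M (grdi_mem_j M))
      (heckeAlphaBar Qb M p (grdQ M (grdi_mem_j M))))
    (P : Place Qb (modularFunctionFieldBar (M * p)))
    (hP : TtrpGoodC M p A (heckeBetaBar Qb M p (grdQ M (grdi_mem_j M))) (ttrU1 M A) P) :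
    P.ramificationIndexAlong (heckeBetaBar Qb M p) = 1 ∧
      ∀ P' : Place Qb (modularFunctionFieldBar (M * p)),
        TtrpGoodC M p A (heckeBetaBar Qb M p (grdQ M (grdi_mem_j M))) (ttrU1 M A) P' →
        ttrpRes M p (heckeBetaBar Qb M p) (gff_beta_integral M p) P' =
          ttrpRes M p (heckeBetaBar Qb M p) (gff_beta_integral M p) P → P' = P := by
  obtain ⟨he, huniq⟩ := ttrf_hfib_j₂_neg M A hpM hA hK₂ P ((ttrf_goodC_neg _ _ P).mpr hP)
  exact ⟨he, fun P' hP' hres => huniq P' ((ttrf_goodC_neg _ _ P').mpr hP') hres⟩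

/-- the decomposition `U^N (Y^p - J) = (U^{pa} Y)^p U^k - U^l (U^a J)`. -/
theorem ttrf_dec {R : Type*} [CommRing R] (U Y J : R) (q a m k : ℕ) (hm : q * q = m + 1) :
    U ^ (q * q * a + (k + 1)) * (Y ^ q - J) =
      (U ^ (q * a) * Y) ^ q * U ^ (k + 1) - U ^ (m * a + (k + 1)) * (U ^ a * J) := by
  have e1 : q * q * a + (k + 1) = q * a * q + (k + 1) := by ring
  have e2 : q * q * a + (k + 1) = (m * a + (k + 1)) + a := by rw [hm]; ring
  have h1 : U ^ (q * q * a + (k + 1)) * Y ^ q = (U ^ (q * a) * Y) ^ q * U ^ (k + 1) := by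
    rw [e1, pow_add, mul_pow, ← pow_mul]
    ring
  have h2 : U ^ (q * q * a + (k + 1)) * J = U ^ (m * a + (k + 1)) * (U ^ a * J) := by
    rw [e2, pow_add]
    ring
  rw [mul_sub, h1, h2]

/-- ROUTE J TRANSFER, `h_a`-chart, index 1. -/
theorem ttrf_transfer_h₁ (hA : A.LiesOverPrime p)
    (a : ℕ) [NeZero a] (ha : (p = 2 ∧ a = 3) ∨ (p = 3 ∧ a = 2)) (haM : a ∣ M)
    (hmem : GrdSerMem M (s18hq a (s18hExp a) ℤ)) (N : ℕ) (hN : p * p * a < N)
    (P : Place Qb (modularFunctionFieldBar (M * p)))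
    (hP : TtrpGoodC M p A (heckeAlphaBar Qb M p (grdQ M hmem))
      (heckeAlphaBar Qb M p (grdQ M hmem) ^ N * ttrU2 M A) P) :
    TtrpGoodC M p A (heckeAlphaBar Qb M p (grdQ M (grdi_mem_j M))) (ttrU2 M A) P := by
  have ha23 : a = 2 ∨ a = 3 := by
    rcases ha with ⟨-, h⟩ | ⟨-, h⟩
    · exact Or.inr h
    · exact Or.inl h
  have hp1 : 1 ≤ p * p := Nat.mul_pos (Fact.out : p.Prime).pos (Fact.out : p.Prime).pos
  obtain ⟨m, hm⟩ : ∃ m, p * p = m + 1 := ⟨p * p - 1, by omega⟩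
  obtain ⟨k, rfl⟩ : ∃ k, N = p * p * a + (k + 1) := ⟨N - p * p * a - 1, by omega⟩
  have hU : heckeAlphaBar Qb M p (grdQ M hmem) = grdQ (M * p) (ttrc_serMem M p hmem) :=
    ttrc_al_grdQ M p hmem _
  have hJ : heckeAlphaBar Qb M p (grdQ M (grdi_mem_j M)) =
      grdQ (M * p) (ttrc_serMem M p (grdi_mem_j M)) := ttrc_al_grdQ M p (grdi_mem_j M) _
  have hY := ttrc_h_mul_Y_isInt (A := A) hA a ha haM hmem
  have hW := ttrc_h_mul_J_isInt (p := p) (A := A) a ha23 hmem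
  rw [← hU] at hY hW
  rw [← hJ] at hW
  refine ttrf_transfer (heckeAlphaBar Qb M p (grdQ M hmem))
    (heckeAlphaBar Qb M p (grdQ M (grdi_mem_j M))) (ttrU2 M A)
    ((heckeAlphaBar Qb M p (grdQ M hmem) ^ (p * a) *
      heckeBetaBar Qb M p (grdQ M (grdi_mem_j M))) ^ p)
    (heckeAlphaBar Qb M p (grdQ M hmem) ^ a * heckeAlphaBar Qb M p (grdQ M (grdi_mem_j M)))
    (heckeAlphaBar Qb M p (grdQ M hmem) ^ a * heckeAlphaBar Qb M p (grdQ M (grdi_mem_j M)))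
    (p * p * a + (k + 1)) (k + 1) (m * a + (k + 1)) a (Nat.succ_pos k) (Nat.succ_pos _)
    (Subring.pow_mem _ hY p) hW hW ?_ (mul_comm _ _) P hP
  exact ttrf_dec _ _ _ p a m k hm

/-- **`(B3)`, `h_a`-chart, index 1** (`v₁ = (α h)^N u₂`, `N > p² a`). -/
theorem ttrf_hfib_h₁ (hpM : ¬ p ∣ M) (hA : A.LiesOverPrime p)
    (a : ℕ) [NeZero a] (ha : (p = 2 ∧ a = 3) ∨ (p = 3 ∧ a = 2)) (haM : a ∣ M)
    (hmem : GrdSerMem M (s18hq a (s18hExp a) ℤ)) (N : ℕ) (hN : p * p * a < N)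
    (hK₁ : TtrpKron M p A (heckeAlphaBar Qb M p) (grdQ M (grdi_mem_j M))
      (heckeBetaBar Qb M p (grdQ M (grdi_mem_j M))))
    (P : Place Qb (modularFunctionFieldBar (M * p)))
    (hP : TtrpGoodC M p A (heckeAlphaBar Qb M p (grdQ M hmem))
      (heckeAlphaBar Qb M p (grdQ M hmem) ^ N * ttrU2 M A) P) :
    P.ramificationIndexAlong (heckeAlphaBar Qb M p) = 1 ∧
      ∀ P' : Place Qb (modularFunctionFieldBar (M * p)),
        TtrpGoodC M p A (heckeAlphaBar Qb M p (grdQ M hmem))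
          (heckeAlphaBar Qb M p (grdQ M hmem) ^ N * ttrU2 M A) P' →
        ttrpRes M p (heckeAlphaBar Qb M p) (gff_alpha_integral M p) P' =
          ttrpRes M p (heckeAlphaBar Qb M p) (gff_alpha_integral M p) P → P' = P :=
  ttrf_hfib_of_transfer (heckeAlphaBar Qb M p) (gff_alpha_integral M p) (gff_alpha_finite M p)
    (grdQ M (grdi_mem_j M)) (heckeBetaBar Qb M p (grdQ M (grdi_mem_j M))) hK₁
    (ttr_chart_Y_mem M A hpM hA) _ _
    (fun P h => ttrf_transfer_h₁ M A hA a ha haM hmem N hN P h) P hP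

/-- ROUTE J TRANSFER, `h_a`-chart, index 2. -/
theorem ttrf_transfer_h₂ (hpM : ¬ p ∣ M) (hA : A.LiesOverPrime p)
    (a : ℕ) [NeZero a] (ha : (p = 2 ∧ a = 3) ∨ (p = 3 ∧ a = 2)) (haM : a ∣ M)
    (hmem : GrdSerMem M (s18hq a (s18hExp a) ℤ)) (N : ℕ) (hN : p * p * a < N)
    (P : Place Qb (modularFunctionFieldBar (M * p)))
    (hP : TtrpGoodC M p A (heckeBetaBar Qb M p (grdQ M hmem))
      (heckeBetaBar Qb M p (grdQ M hmem) ^ N * ttrU1 M A) P) :
    TtrpGoodC M p A (heckeBetaBar Qb M p (grdQ M (grdi_mem_j M)))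
      (ttrJ M A (p := p) ^ p - ttrY M A (p := p)) P := by
  have ha23 : a = 2 ∨ a = 3 := by
    rcases ha with ⟨-, h⟩ | ⟨-, h⟩
    · exact Or.inr h
    · exact Or.inl h
  have hp1 : 1 ≤ p * p := Nat.mul_pos (Fact.out : p.Prime).pos (Fact.out : p.Prime).pos
  obtain ⟨m, hm⟩ : ∃ m, p * p = m + 1 := ⟨p * p - 1, by omega⟩
  obtain ⟨k, rfl⟩ : ∃ k, N = p * p * a + (k + 1) := ⟨N - p * p * a - 1, by omega⟩
  have hU : heckeAlphaBar Qb M p (grdQ M hmem) = grdQ (M * p) (ttrc_serMem M p hmem) :=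
    ttrc_al_grdQ M p hmem _
  have hJ : heckeAlphaBar Qb M p (grdQ M (grdi_mem_j M)) =
      grdQ (M * p) (ttrc_serMem M p (grdi_mem_j M)) := ttrc_al_grdQ M p (grdi_mem_j M) _
  have hY := ttrc_h_mul_Y_isInt (A := A) hA a ha haM hmem
  have hW := ttrc_h_mul_J_isInt (p := p) (A := A) a ha23 hmem
  rw [← hU] at hY hW
  rw [← hJ] at hW
  -- transport by `w`
  have hY₂ := ttr_isInt_w M A hpM hY
  have hW₂ := ttr_isInt_w M A hpM hW
  rw [ttrW_alpha, map_mul, map_pow, ttrW_alpha, ttrW_beta] at hY₂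
  rw [ttrW_alpha, map_mul, map_pow, ttrW_alpha, ttrW_alpha] at hW₂
  -- the sign
  have hsign : -(heckeBetaBar Qb M p (grdQ M hmem) ^ (p * p * a + (k + 1)) * ttrU1 M A) =
      heckeBetaBar Qb M p (grdQ M hmem) ^ (p * p * a + (k + 1)) *
        (ttrJ M A (p := p) ^ p - ttrY M A (p := p)) := by
    rw [← ttrf_neg_U1]
    ring
  have hP' := (ttrf_goodC_neg _ _ P).mpr hP
  rw [hsign] at hP'
  refine ttrf_transfer (heckeBetaBar Qb M p (grdQ M hmem))
    (heckeBetaBar Qb M p (grdQ M (grdi_mem_j M))) (ttrJ M A (p := p) ^ p - ttrY M A (p := p))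
    ((heckeBetaBar Qb M p (grdQ M hmem) ^ (p * a) *
      heckeAlphaBar Qb M p (grdQ M (grdi_mem_j M))) ^ p)
    (heckeBetaBar Qb M p (grdQ M hmem) ^ a * heckeBetaBar Qb M p (grdQ M (grdi_mem_j M)))
    (heckeBetaBar Qb M p (grdQ M hmem) ^ a * heckeBetaBar Qb M p (grdQ M (grdi_mem_j M)))
    (p * p * a + (k + 1)) (k + 1) (m * a + (k + 1)) a (Nat.succ_pos k) (Nat.succ_pos _)
    (Subring.pow_mem _ hY₂ p) hW₂ hW₂ ?_ (mul_comm _ _) P hP'
  exact ttrf_dec _ _ _ p a m k hm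

/-- **`(B3)`, `h_a`-chart, index 2** (`v₂ = (β h)^N u₁`, `N > p² a`). -/
theorem ttrf_hfib_h₂ (hpM : ¬ p ∣ M) (hA : A.LiesOverPrime p)
    (a : ℕ) [NeZero a] (ha : (p = 2 ∧ a = 3) ∨ (p = 3 ∧ a = 2)) (haM : a ∣ M)
    (hmem : GrdSerMem M (s18hq a (s18hExp a) ℤ)) (N : ℕ) (hN : p * p * a < N)
    (hK₂ : TtrpKron M p A (heckeBetaBar Qb M p) (grdQ M (grdi_mem_j M))
      (heckeAlphaBar Qb M p (grdQ M (grdi_mem_j M))))
    (P : Place Qb (modularFunctionFieldBar (M * p)))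
    (hP : TtrpGoodC M p A (heckeBetaBar Qb M p (grdQ M hmem))
      (heckeBetaBar Qb M p (grdQ M hmem) ^ N * ttrU1 M A) P) :
    P.ramificationIndexAlong (heckeBetaBar Qb M p) = 1 ∧
      ∀ P' : Place Qb (modularFunctionFieldBar (M * p)),
        TtrpGoodC M p A (heckeBetaBar Qb M p (grdQ M hmem))
          (heckeBetaBar Qb M p (grdQ M hmem) ^ N * ttrU1 M A) P' →
        ttrpRes M p (heckeBetaBar Qb M p) (gff_beta_integral M p) P' =
          ttrpRes M p (heckeBetaBar Qb M p) (gff_beta_integral M p) P → P' = P :=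
  ttrf_hfib_of_transfer (heckeBetaBar Qb M p) (gff_beta_integral M p) (gff_beta_finite M p)
    (grdQ M (grdi_mem_j M)) (heckeAlphaBar Qb M p (grdQ M (grdi_mem_j M))) hK₂
    (ttrf_J_mem_beta M A hpM hA) _ _
    (fun P h => ttrf_transfer_h₂ M A hpM hA a ha haM hmem N hN P h) P hP

end Inst

end Fermat.Agent.TT
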