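/-
# PROGRAM TT (S33), leaf (RED2) at `p = 3` : THE FULL ASSEMBLY (prefix `ttrhd`)

Owner: helper10 (p = 3 dry-run for helper4's `Red2H.lean`; SPARE / paste source).
Namespace `Fermat.Agent.TT`.

`ttrhd_red2_h M A hpM hA (h3 : p = 3) (haM : 2 ∣ M) : TtgRed2Spec M p A`, NO hypothesis left :
atlas `grd_atlas_small M A 2 …` (`h₂`, `1/h₂`), `N = 2 ((p + 1) p + 1)`,
`cls = ttrpCls M p 𝔸 r (α h) ((α h)^N u₂) (β h) ((β h)^N u₁)` (helper6 ClsH / helper17 literal),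
`T₁ = T₂ = ttrpT … j̄`, nodes `ttrkS` of `ttrkT` (helper5), directly on helper2's `ttra_red2`
with helper1's `ttrgl_into_inst_mixed` and helper15's `ttrli_const_cls`.

New here : `ttrhd_zero_mem_T` (a zero of `h̄^N (j̄^{p²} - j̄)` at which `h̄` is regular lies in
`ttrpT`), which gives `ν_j_mem` at `p = 3` (there `u₂ ∉ B(α h)`, so the `j`-chart lemma does not
apply).
-/
import Mathlib
import Fermat.Agent.TT.Red2.Red2Inst
import Fermat.Agent.TT.Red2.IntoInst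
import Fermat.Agent.TT.Red2.ConstInst
import Fermat.Agent.TT.Red2.ClsH
import Fermat.Agent.TT.Red2.Unif8H
import Fermat.Agent.TT.Red2.Kron12
import Fermat.Agent.TT.Red2.ChartSmallMix
import Fermat.Agent.TT.Red2.ChartOntoT
import Fermat.Agent.TT.Red2.CountS
import Fermat.Agent.TT.Red2.CountT
import Fermat.Agent.TT.Red2.NodeGoodT
import Fermat.Agent.TT.Red2.NodeTB
import Fermat.Agent.TT.Red2.NodeCuspCount
import Fermat.Agent.TT.Red2.IntoNodeS
import Fermat.Agent.TT.Alpha.Cross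
import Fermat.Agent.TT.Red2.CountJ

set_option autoImplicit false
set_option linter.unusedSectionVars false
set_option linter.unusedVariables false
set_option linter.style.haveILetI false
set_option synthInstance.maxHeartbeats 400000

noncomputable section

namespace Fermat.Agent.TT

open AlgebraicCurve IsLocalRing ModularCurve Fermat.Agent.G Fermat.Agent.FF Fermat.Agent.S18
  Fermat.Agent.SS Fermat.Agent.V.RR

local notation "Qb" => AlgebraicClosure ℚ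

variable (M : ℕ) [NeZero M] {p : ℕ} [Fact p.Prime] [NeZero p]
variable (A : ValuationSubring Qb)


variable {τ' : LaurentSeries ℤ}

/-- a zero of `h̄^N (j̄^{p²} - j̄)` at which `h̄` is regular lies in `T` (`h₂`-chart, `p ≠ 2`). -/
theorem ttrhd_zero_mem_T (hpM : ¬ p ∣ M) (hA : A.LiesOverPrime p) (hp2 : p ≠ 2)
    (hat : GrdAtlas M A (s18hq 2 (s18hExp 2) ℤ) τ') (N : ℕ)
    (Q : Place (ResidueField A) (modularFunctionFieldFullC (ResidueField A) M))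
    (hQreg : grdK M A hat.c.mem ∈ Q.toValuationSubring)
    (h0 : GrdVal Q (grdK M A hat.c.mem ^ N * ttrH M A p) 0) :
    Q ∈ ttrpT M p A hpM hA hat (ttrJk M A) (ttrH_ne_zero M A (Fact.out : p.Prime).one_lt) := by
  by_contra hQ
  haveI : IsAlgClosed (ResidueField A) := grd_isAlgClosed_residue A
  obtain ⟨-, ⟨c, hc, hne⟩, hne2⟩ := ttrp_h_good M A hpM hA hp2 hat _ (Finset.Subset.refl _) Q hQ
  rw [ttr_red_J0] at hc
  obtain ⟨e, he⟩ := grdg_val_exists hat.c.sepK Q hQreg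
  have he0 : e ≠ 0 := by
    rintro rfl
    apply hne2
    have e1 : (⟨((Polynomial.X : Polynomial ↥A) ^ 2).eval₂ (grdInclA M A) (grdQ M hat.c.mem),
        grdga_eval_mem M A (grdQ_mem_grdO M A hat.c.mem) (Polynomial.X ^ 2)⟩ : ↥(grdO M A)) =
        ⟨grdQ M hat.c.mem, grdQ_mem_grdO M A hat.c.mem⟩ ^ 2 :=
      Subtype.ext ((ttrph_eval_X_pow M A (grdQ M hat.c.mem) 2).trans rfl)
    rw [e1, map_pow, grdRed_grdQ]
    have := grda_val_pow Q he 2
    rwa [zero_pow (by norm_num)] at this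
  have hH : GrdVal Q (ttrH M A p) (c ^ (p ^ 2) - c) := by
    have h1 := grdg_val_add Q (grda_val_pow Q hc (p ^ 2)) (grdg_val_neg Q hc)
    rw [← sub_eq_add_neg, ← sub_eq_add_neg] at h1
    exact h1
  have hprod := grdg_val_mul Q (grda_val_pow Q he N) hH
  have := grdg_val_unique Q hprod h0
  rcases mul_eq_zero.mp this with h | h
  · exact pow_ne_zero N he0 h
  · exact hne (sub_eq_zero.mp h)

set_option maxHeartbeats 3200000 in
theorem ttrhd_red2_h (hpM : ¬ p ∣ M) (hA : A.LiesOverPrime p) (h3 : p = 3) (haM : 2 ∣ M) :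
    TtgRed2Spec M p A := by
  have ha : (p = 2 ∧ 2 = 3) ∨ (p = 3 ∧ 2 = 2) := Or.inr ⟨h3, rfl⟩
  have hat := grd_atlas_small M A 2 hpM hA ha haM
  obtain ⟨r, hr⟩ := grd_exists_isRed M A hpM hA hat
  have hN : p * p * 2 < 2 * ((p + 1) * p + 1) := by rw [h3]; norm_num
  -- charts
  have H₁ := ttrc_chart_h₁ M A hpM hA 2 ha haM (2 * ((p + 1) * p + 1)) hN.le
  have H₂ := ttrc_chart_h₂ M A hpM hA 2 ha haM (2 * ((p + 1) * p + 1)) hN.le
  have hv₂ := ttrc_v2_mem_al M A hpM hA 2 ha haM hat.c.mem (2 * ((p + 1) * p + 1)) hN.le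
  have hbe := ttrc_be_h_al M A hA 2 ha haM hat.c.mem
  -- Kronecker
  have hK₁ := ttrkr_kron_Y M A hpM hA
  have hK₂ := ttrkr_kron_J M A hpM hA
  have hfib₁ := ttrf_hfib_h₁ M A hpM hA 2 ha haM hat.c.mem (2 * ((p + 1) * p + 1)) hN
    (ttrkr_kron₁ M A hpM hA)
  have hfib₂ := ttrf_hfib_h₂ M A hpM hA 2 ha haM hat.c.mem (2 * ((p + 1) * p + 1)) hN
    (ttrkr_kron₂ M A hpM hA)
  -- lift / val
  obtain ⟨lift₁, lift₂, val₁, val₂⟩ := ttrp_h_fields M A hpM hA h3 haM hat r hr hK₁ hK₂ hv₂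
    (ttrpT M p A hpM hA hat (ttrJk M A) (ttrH_ne_zero M A (Fact.out : p.Prime).one_lt))
    (ttrpT M p A hpM hA hat (ttrJk M A) (ttrH_ne_zero M A (Fact.out : p.Prime).one_lt))
    (Finset.Subset.refl _) (Finset.Subset.refl _)
  -- the canonical T, S
  have hV2 : ∀ x, x ∈ ttalV2 (ttrV1 M A hpM hA) (ttrW M hpM) ↔
      ttrW M hpM x ∈ grdO (M * p) A := fun x => Iff.rfl
  have hR₁ := ttrc_T_hR₁ M p A hpM hA hat
  have hR₁' := ttrc_T_hR₁' M p A hpM hA hat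
  have hlift : TtrcLift₂ M A hpM hat.c.mem :=
    ttrc_lift₂_of_be M A hpM hA hat.c (ttrc_be_h_isInt hA 2 ha haM hat.c.mem)
  have hlift' : TtrcLift₂ M A hpM hat.c'.mem := fun c =>
    ttrc_lift₂_hinv hpM hA (ttrc_w_ttrW M hpM) 2 ha haM (grdis_mul_hinv 2 _) c
  have hR₂ := ttrc_T_hR₂ M p A hpM hA hat hlift
  have hR₂' := ttrc_T_hR₂' M p A hpM hA hat hlift'
  have hT := ttrkT_hT M p A hpM hA hat _ hV2 (ttrt_TB_h M A 2 ha haM hpM hA hat _ hV2)
  have hcusp := ttrnc_hcusp_count M A hpM hA (ttrkT M p A hpM hA hat) hat.c'.mem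
    (Or.inr (grdis_mul_hinv 2 _)) (fun x => Iff.rfl) rfl (fun x hx => hx.1) (fun x hx => hx.2)
    (fun x hx => rfl) (fun x hx => rfl)
  have hT' := ttrkT_hT' M p A hpM hA hat _ hV2
    (ttrt_TB'_h M A 2 ha haM hpM hA hat _ hV2
      (fun 𝔫' h𝔫' h1 h2 ht => ttrnc_hinv_two_alpha M A hpM hA _ hV2 (grdis_mul_hinv 2 _)
        hat.c'.mem 𝔫' h𝔫' h1 h2 ht)
      (fun 𝔫' h𝔫' h1 x => by
        have hk₁ : RingHom.ker (ttrkR₁' (ttrkT M p A hpM hA hat)) ≤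
            (𝔫' : Ideal ↥(ttrkT M p A hpM hA hat).B') := by
          intro b hb
          rw [RingHom.mem_ker, ttrkT_R₁'_apply, ttrkT_fst_eq_zero_iff] at hb
          exact h1 b hb
        haveI := grd_isAlgClosed_residue A
        obtain ⟨c, hc⟩ := ttrm_res hat.c'.sepK (ttrkR₁' (ttrkT M p A hpM hA hat))
          (ttrkR₂' (ttrkT M p A hpM hA hat)) hR₁' 𝔫' h𝔫' hk₁ x
        obtain ⟨a, rfl⟩ := residue_surjective c
        refine ⟨a, ?_⟩
        have h := hc ⟨algebraMap ↥A (modularFunctionFieldBar (M * p)) a,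
          (ttrkT M p A hpM hA hat).B'.algebraMap_mem a⟩
          (ttrkJ_const' (ttrkT M p A hpM hA hat) a).1 (ttrkJ_const' (ttrkT M p A hpM hA hat) a).2
        have e : (⟨algebraMap ↥A (modularFunctionFieldBar (M * p)) a,
            (ttrkT M p A hpM hA hat).B'.algebraMap_mem a⟩ : ↥(ttrkT M p A hpM hA hat).B') =
            grdzι (M * p) A (heckeAlphaBar Qb M p (grdQ M hat.c'.mem)) a :=
          Subtype.ext (IsScalarTower.algebraMap_apply ↥A Qb (modularFunctionFieldBar (M * p)) a)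
        rw [e] at h
        exact h))
  -- v₁ ∈ B, both reductions
  have hv₁B : heckeAlphaBar Qb M p (grdQ M hat.c.mem) ^ (2 * ((p + 1) * p + 1)) * ttrU2 M A ∈
      (ttrkT M p A hpM hA hat).B := H₁.v_int
  have hv₂B : heckeBetaBar Qb M p (grdQ M hat.c.mem) ^ (2 * ((p + 1) * p + 1)) * ttrU1 M A ∈
      (ttrkT M p A hpM hA hat).B := hv₂
  have hv₁O := ttrli_le_alpha M A hpM hA hat.c H₁.v_int
  have hv₂O := ttrli_le_alpha M A hpM hA hat.c hv₂
  have hred₂v₁ : ttrRed2 M A hpM hA ⟨_, hv₁O.2⟩ = 0 :=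
    ttrc_red_w_v1 M A hpM hA hat.c.mem (2 * ((p + 1) * p + 1)) _
  have hred₁v₂ : ttrRed1 M A hA ⟨_, hv₂O.1⟩ = 0 :=
    ttrc_red_v2 M A hA hat.c.mem (2 * ((p + 1) * p + 1)) _
  have hred₁v₁ : ttrRed1 M A hA ⟨_, hv₁O.1⟩ =
      grdK M A hat.c.mem ^ (2 * ((p + 1) * p + 1)) * ttrH M A p := by
    have e : (⟨heckeAlphaBar Qb M p (grdQ M hat.c.mem) ^ (2 * ((p + 1) * p + 1)) * ttrU2 M A,
        hv₁O.1⟩ : ↥(grdO (M * p) A)) =
        ⟨heckeAlphaBar Qb M p (grdQ M hat.c.mem),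
          ttr_alpha_mem M A (grdQ_mem_grdO M A hat.c.mem)⟩ ^ (2 * ((p + 1) * p + 1)) *
          ⟨ttrU2 M A, ttrU2_mem M A⟩ := rfl
    rw [e, map_mul, map_pow,
      ttrRed1_alpha M A hA ⟨grdQ M hat.c.mem, grdQ_mem_grdO M A hat.c.mem⟩, grdRed_grdQ,
      ttrRed1_U2]
  have hK0 : grdK M A hat.c.mem ≠ 0 := by
    intro h0
    have := hat.c.sepK.transcendental
    rw [h0] at this
    exact this (isAlgebraic_zero)
  -- Fintype S
  haveI : Finite (ttrkS M p A hpM hA hat) :=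
    ttrkS_finite M p A hpM hA hat hR₁ hR₂ ⟨_, hv₁B⟩
      (by
        rw [ttrng_R₁_T M A hpM hA (ttrkT M p A hpM hA hat) (fun x hx => hx) (fun x hx => rfl)
          _ hv₁B hv₁O.1, hred₁v₁]
        exact mul_ne_zero (pow_ne_zero _ hK0) (ttrH_ne_zero M A (Fact.out : p.Prime).one_lt))
      (by
        rw [ttrng_R₂_T M A hpM hA (ttrkT M p A hpM hA hat) (fun x hx => hx) (fun x hx => rfl)
          _ hv₁B hv₁O.2, hred₂v₁])
  haveI : Fintype (ttrkS M p A hpM hA hat) := Fintype.ofFinite _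
  have hp2 : p ≠ 2 := by rw [h3]; norm_num
  have hred₂v₂ : ttrRed2 M A hpM hA ⟨_, hv₂O.2⟩ =
      -(grdK M A hat.c.mem ^ (2 * ((p + 1) * p + 1)) * ttrH M A p) := by
    have e : (⟨heckeBetaBar Qb M p (grdQ M hat.c.mem) ^ (2 * ((p + 1) * p + 1)) * ttrU1 M A,
        hv₂O.2⟩ : ↥(ttrV2 M A hpM)) =
        ⟨heckeBetaBar Qb M p (grdQ M hat.c.mem),
          ttr_beta_mem₂ M A hpM (grdQ_mem_grdO M A hat.c.mem)⟩ ^ (2 * ((p + 1) * p + 1)) *
          ⟨ttrU1 M A, ttrng_U1_mem₂ M A hpM⟩ := rfl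
    rw [e, map_mul, map_pow,
      ttrRed2_beta M A hpM hA ⟨grdQ M hat.c.mem, grdQ_mem_grdO M A hat.c.mem⟩, grdRed_grdQ,
      ttrng_red₂_U1, mul_neg]
  -- ν_mem
  have hS' : ∀ i : ttrkS M p A hpM hA hat,
      TtrmPair (ttrkR₁ (ttrkT M p A hpM hA hat)) (ttrkR₂ (ttrkT M p A hpM hA hat))
        (grdK M A hat.c.mem) (grdK M A hat.c.mem)
        (ttrkSν₁ M p A hpM hA hat i) (ttrkSν₂ M p A hpM hA hat i) := fun i => i.2
  have ν₁_mem : ∀ i, ttrkSν₁ M p A hpM hA hat i ∈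
      ttrpT M p A hpM hA hat (ttrJk M A) (ttrH_ne_zero M A (Fact.out : p.Prime).one_lt) := by
    intro i
    have h0 := ttrng_zero₁_T M A hpM hA (ttrkT M p A hpM hA hat) (fun x hx => hx)
      (fun x hx => rfl) (ttrkSν₁ M p A hpM hA hat) (ttrkSν₂ M p A hpM hA hat) _ _ hS'
      hv₁O.1 hv₁O.2 hred₂v₁ hv₁B i
    rw [hred₁v₁] at h0
    exact ttrhd_zero_mem_T M A hpM hA hp2 hat _ _ (ttrkS_reg M p A hpM hA hat i).1 h0
  have ν₂_mem : ∀ i, ttrkSν₂ M p A hpM hA hat i ∈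
      ttrpT M p A hpM hA hat (ttrJk M A) (ttrH_ne_zero M A (Fact.out : p.Prime).one_lt) := by
    intro i
    have h0 := ttrng_zero₂_T M A hpM hA (ttrkT M p A hpM hA hat) (fun x hx => hx)
      (fun x hx => rfl) (ttrkSν₁ M p A hpM hA hat) (ttrkSν₂ M p A hpM hA hat) _ _ hS'
      hv₂O.1 hv₂O.2 hred₁v₂ hv₂B i
    rw [hred₂v₂] at h0
    exact ttrhd_zero_mem_T M A hpM hA hp2 hat _ _ (ttrkS_reg M p A hpM hA hat i).2
      ((ttrng_val_neg_zero _ _).mp h0)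
  -- hrν
  have hrν₁ := ttrng_hrν₁_T M A hpM hA (ttrkT M p A hpM hA hat) (fun x hx => hx)
    (fun x hx => rfl) (ttrkSν₁ M p A hpM hA hat) (ttrkSν₂ M p A hpM hA hat) _ _ hS' hat r hr H₁
    hv₁O.2 hred₂v₁ hv₁B
  have hrν₂ := ttrng_hrν₂_T M A hpM hA (ttrkT M p A hpM hA hat) (fun x hx => hx)
    (fun x hx => rfl) (ttrkSν₁ M p A hpM hA hat) (ttrkSν₂ M p A hpM hA hat) _ _ hS' hat r hr H₂
    hv₂O.1 hred₁v₂ hv₂B
  -- hmix
  have hv₁be := ttrc_v1_mem_be M A hpM hA 2 ha haM hat.c.mem (2 * ((p + 1) * p + 1)) hN.le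
  have hmix12 := ttrgl_hmix₁_of_charts M A hpM hA hat
    (TtrpGoodC M p A (heckeBetaBar Qb M p (grdQ M hat.c.mem))
      (heckeBetaBar Qb M p (grdQ M hat.c.mem) ^ (2 * ((p + 1) * p + 1)) * ttrU1 M A))
    (fun Q v _ hv => ttal_mix12_f M A hpM hA hat.c _ hv₂ hred₁v₂ _ Q v hv)
    (fun Q v hQ hv => ttal_mix12_c M A hpM hA hat hbe _ Q hQ v hv)
  have hmix21 := ttrgl_hmix₂_of_charts M A hpM hA hat
    (TtrpGoodC M p A (heckeAlphaBar Qb M p (grdQ M hat.c.mem))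
      (heckeAlphaBar Qb M p (grdQ M hat.c.mem) ^ (2 * ((p + 1) * p + 1)) * ttrU2 M A))
    (fun Q v _ hv => ttal_mix21_f M A hpM hA hat.c _ hv₁be hred₂v₁ _ Q v hv)
    (fun Q v hQ hv => ttal_mix21_c M A hpM hA hat hbe _ Q hQ v hv)
  -- node data of `into`
  have hcenN := ttru_hcenN_S_mul M A hpM hA hat
    (heckeAlphaBar Qb M p (grdQ M hat.c.mem)) (heckeBetaBar Qb M p (grdQ M hat.c.mem))
    (heckeAlphaBar Qb M p (grdQ M hat.c.mem) ^ (2 * ((p + 1) * p + 1)))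
    (heckeBetaBar Qb M p (grdQ M hat.c.mem) ^ (2 * ((p + 1) * p + 1)))
    (Subring.pow_mem _ (ttr_alpha_mem₂ M A hpM (grdQ_mem_grdO M A hat.c.mem)) _)
    (Subring.pow_mem _ (ttr_beta_mem M A (grdQ_mem_grdO M A hat.c.mem)) _)
    H₁.v_int hv₂
  have hNn := ttru_hN_S M A hpM hA hat
  -- genus_le
  have genus_le := ttrk_genus_le_S M p A hpM hA hat hR₁ hR₂ hR₁' hR₂' hT hT' hcusp
  -- assembly
  exact ttra_red2 M A hpM hA _ (ttrkSν₁ M p A hpM hA hat) (ttrkSν₂ M p A hpM hA hat) _ _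
    lift₁ lift₂ (ttrkS_ν₁_injective M p A hpM hA hat hR₂)
    (ttrkS_ν₂_injective M p A hpM hA hat hR₁) ν₁_mem ν₂_mem genus_le
    (ttrgl_into_inst_mixed M A hpM hA hat r hr _ _ H₁ H₂ _ _ hrν₁ hrν₂ hmix12 hmix21
      (ttruCenS M A hpM hA hat) hcenN hNn)
    val₁ val₂
    (ttrli_const_cls M A hpM hA hat r hr _ _ H₁ H₂ hv₂ hbe hfib₁ hfib₂ val₁ val₂)


end Fermat.Agent.TT
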