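import Fermat.Agent.TT.Red2.IntoGlue
import Fermat.Agent.TT.Red2.GoodVal

/-!
# PROGRAM TT (S33), leaf (RED2) : the intrinsic centres are compatible with helper6's CONCRETE
reduction of places (prefix `ttrgl`)

Owner: helper1 (TT-PM R37).  Namespace `Fermat.Agent.TT`.

Setting of helper6's Layer B : one index `(φ, V, red, v)`, one chart `υ` of the level-`M` atlas,
`u = φ(υ_ℚ̄)`, `B = grdB (M p) 𝔸 u`, `H : TtrpChart …`; `O2 ≤ V` the two-valuation ring with
`B ≤ O2`, `redO = red|_{O2}`.  For a place `Q` of `F_k(M)` with `red B ⊂ 𝒪_Q` (values in `k`) and a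
place `P` of `F_ℚ̄(M p)` centred at the closed point `𝔫_Q` of `B` (helper3's `ttruCen` at helper29's
`ttalN`) :

* `ttrgl_rel_of_cen` : **(I1)** `GrdRel M 𝔸 υ_ℚ̄ (P ∘ φ) Q` (restrict the value compatibility of the
  centre to `φ(B_M)`);
* `ttrgl_r_of_cen`, `ttrgl_r_of_cen'` : hence `ttrpR M p 𝔸 φ _ r P = Q` for THE reduction map `r`
  of level `M` (first / second chart of the atlas);
* `ttrgl_cen_of_good` : conversely a GOOD place of the chart (`TtrpGoodC`) is centred at
  `𝔫_{ttrpR P}` (helper6's `ttrp_rel`).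
-/

set_option autoImplicit false
set_option linter.unusedSectionVars false
set_option linter.unusedVariables false
set_option synthInstance.maxHeartbeats 400000

noncomputable section

namespace Fermat.Agent.TT

open ModularCurve AlgebraicCurve IsLocalRing Polynomial Fermat.Agent.S18 Fermat.Agent.S24
  Fermat.Agent.G Fermat.Agent.FF

local notation "Qb" => AlgebraicClosure ℚ

set_option synthInstance.maxHeartbeats 800000 in
/-- instance shortcut (the generic search through `ResidueField` is very slow). -/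
local instance ttrglInstF (A : ValuationSubring Qb) (M : ℕ) [NeZero M] :
    Field ↥(modularFunctionFieldFullC (ResidueField A) M) := inferInstance

set_option synthInstance.maxHeartbeats 800000 in
/-- instance shortcut (the generic search through `ResidueField` is very slow). -/
local instance ttrglInstA (A : ValuationSubring Qb) (M : ℕ) [NeZero M] :
    Algebra (ResidueField A) ↥(modularFunctionFieldFullC (ResidueField A) M) := inferInstance

section Cen

variable {M p : ℕ} [NeZero M] [NeZero p] {ℓ : ℕ} [Fact ℓ.Prime]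
variable {A : ValuationSubring Qb}
variable {υ : LaurentSeries ℤ}
variable {φ : modularFunctionFieldBar M →ₐ[Qb] modularFunctionFieldBar (M * p)}
variable {V : Subring (modularFunctionFieldBar (M * p))}
variable {red : ↥V →+* modularFunctionFieldFullC (ResidueField A) M}
variable {v : modularFunctionFieldBar (M * p)}

/-- the reduction of a constant, on `O2`. -/
theorem ttrgl_redO_const {hυ : GrdSerMem M υ} (H : TtrpChart M p A φ hυ V red v)
    (O2 : Subring (modularFunctionFieldBar (M * p))) (hOV : O2 ≤ V)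
    (redO : ↥O2 →+* modularFunctionFieldFullC (ResidueField A) M)
    (hredO : ∀ (x : modularFunctionFieldBar (M * p)) (hx : x ∈ O2),
      redO ⟨x, hx⟩ = red ⟨x, hOV hx⟩)
    (a : A) (h : algebraMap Qb (modularFunctionFieldBar (M * p)) (a : Qb) ∈ O2) :
    redO ⟨algebraMap Qb (modularFunctionFieldBar (M * p)) (a : Qb), h⟩ =
      algebraMap (ResidueField A) (modularFunctionFieldFullC (ResidueField A) M)
        (residue A a) := by
  rw [hredO, ← ttrp_red_const H a]

/-- **(I1), chart form.**  A place `P` centred at the closed point `𝔫_Q` of the chart ring has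
`P ∘ φ` related to `Q` at level `M`. -/
theorem ttrgl_rel_of_cen {hυ : GrdSerMem M υ} (hφ : φ.toRingHom.IsIntegral)
    (H : TtrpChart M p A φ hυ V red v)
    (O2 : Subring (modularFunctionFieldBar (M * p))) (hOV : O2 ≤ V)
    (hBO : grdB (M * p) A (φ (grdQ M hυ)) ≤ O2)
    (redO : ↥O2 →+* modularFunctionFieldFullC (ResidueField A) M)
    (hredO : ∀ (x : modularFunctionFieldBar (M * p)) (hx : x ∈ O2),
      redO ⟨x, hx⟩ = red ⟨x, hOV hx⟩)
    (Q : Place (ResidueField A) (modularFunctionFieldFullC (ResidueField A) M))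
    (hvalQ : ∀ b : ↥(grdB (M * p) A (φ (grdQ M hυ))),
      ∃ c : ResidueField A, GrdVal Q (redO ⟨b, hBO b.2⟩) c)
    (P : Place Qb (modularFunctionFieldBar (M * p)))
    (hP : ttruCen A (grdB (M * p) A (φ (grdQ M hυ))) (φ (grdQ M hυ))
      (ttalN O2 (grdB (M * p) A (φ (grdQ M hυ))) hBO redO Q) P) :
    GrdRel M A (grdQ M hυ) (ttrpRes M p φ hφ P) Q := by
  intro x hx hxint a ha
  have hφx : φ x ∈ grdB (M * p) A (φ (grdQ M hυ)) := ttrp_isInt_map M p A φ _ _ hxint
  have hPx : GrdVal P (φ x) (a : Qb) := (ttrp_val_res φ hφ P _ _).mp ha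
  obtain ⟨a', ha', haQ⟩ := ttal_cen_val O2 (grdB (M * p) A (φ (grdQ M hυ))) hBO redO Q
    (φ (grdQ M hυ)) (fun a => ttrp_const_mem M p A _ a)
    (fun a h => ttrgl_redO_const H O2 hOV redO hredO a h) hvalQ P hP ⟨φ x, hφx⟩
  have h1 : (a : Qb) = a' := grdg_val_unique P hPx ha'
  have h2 : a = a' := Subtype.ext h1
  have h3 : redO ⟨φ x, hBO hφx⟩ = grdRed M A ⟨x, hx⟩ := by
    rw [hredO, ← H.red_base x hx]
  rw [← h2] at haQ
  rw [← h3]
  exact haQ

/-- the restriction of a place of the chart `φ u` lies in the chart `u`. -/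
theorem ttrgl_res_inChart {hυ : GrdSerMem M υ} (hφ : φ.toRingHom.IsIntegral)
    (𝔫 : Ideal ↥(grdB (M * p) A (φ (grdQ M hυ))))
    (P : Place Qb (modularFunctionFieldBar (M * p)))
    (hP : ttruCen A (grdB (M * p) A (φ (grdQ M hυ))) (φ (grdQ M hυ)) 𝔫 P) :
    GrdInChart M A (grdQ M hυ) (ttrpRes M p φ hφ P) :=
  (ttrp_inChart_res hφ _ P).mpr hP.1

end Cen

section CenR

variable {M p : ℕ} [NeZero M] [NeZero p] {ℓ : ℕ} [Fact ℓ.Prime]
variable {A : ValuationSubring Qb}
variable {τ τ' : LaurentSeries ℤ}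
variable {φ : modularFunctionFieldBar M →ₐ[Qb] modularFunctionFieldBar (M * p)}
variable {V : Subring (modularFunctionFieldBar (M * p))}
variable {red : ↥V →+* modularFunctionFieldFullC (ResidueField A) M}
variable {v : modularFunctionFieldBar (M * p)}

/-- **(I1), first chart of the atlas** : a place centred at `𝔫_Q` has `ttrpR P = Q`. -/
theorem ttrgl_r_of_cen (hℓM : ¬ ℓ ∣ M) (hA : A.LiesOverPrime ℓ) (hat : GrdAtlas M A τ τ')
    (r : Place Qb (modularFunctionFieldBar M) →
      Place (ResidueField A) (modularFunctionFieldFullC (ResidueField A) M))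
    (hr : GrdIsRed M A hat.c.mem hat.c'.mem r)
    (hφ : φ.toRingHom.IsIntegral) (H : TtrpChart M p A φ hat.c.mem V red v)
    (O2 : Subring (modularFunctionFieldBar (M * p))) (hOV : O2 ≤ V)
    (hBO : grdB (M * p) A (φ (grdQ M hat.c.mem)) ≤ O2)
    (redO : ↥O2 →+* modularFunctionFieldFullC (ResidueField A) M)
    (hredO : ∀ (x : modularFunctionFieldBar (M * p)) (hx : x ∈ O2),
      redO ⟨x, hx⟩ = red ⟨x, hOV hx⟩)
    (Q : Place (ResidueField A) (modularFunctionFieldFullC (ResidueField A) M))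
    (hvalQ : ∀ b : ↥(grdB (M * p) A (φ (grdQ M hat.c.mem))),
      ∃ c : ResidueField A, GrdVal Q (redO ⟨b, hBO b.2⟩) c)
    (P : Place Qb (modularFunctionFieldBar (M * p)))
    (hP : ttruCen A (grdB (M * p) A (φ (grdQ M hat.c.mem))) (φ (grdQ M hat.c.mem))
      (ttalN O2 (grdB (M * p) A (φ (grdQ M hat.c.mem))) hBO redO Q) P) :
    ttrpR M p A φ hφ r P = Q := by
  have hP₀ := ttrgl_res_inChart hφ _ P hP
  have hrel := ttrgl_rel_of_cen hφ H O2 hOV hBO redO hredO Q hvalQ P hP
  obtain ⟨Q', -, hQ'uniq⟩ := grd_rel_exists M A hℓM hA hat.c (ttrpRes M p φ hφ P) hP₀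
  have h1 := hQ'uniq _ ((grd_isRed_rel M A hℓM hA hat r hr _).1 hP₀)
  have h2 := hQ'uniq _ hrel
  unfold ttrpR
  rw [h1, h2]

/-- **(I1), second chart of the atlas.** -/
theorem ttrgl_r_of_cen' (hℓM : ¬ ℓ ∣ M) (hA : A.LiesOverPrime ℓ) (hat : GrdAtlas M A τ τ')
    (r : Place Qb (modularFunctionFieldBar M) →
      Place (ResidueField A) (modularFunctionFieldFullC (ResidueField A) M))
    (hr : GrdIsRed M A hat.c.mem hat.c'.mem r)
    (hφ : φ.toRingHom.IsIntegral) (H : TtrpChart M p A φ hat.c'.mem V red v)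
    (O2 : Subring (modularFunctionFieldBar (M * p))) (hOV : O2 ≤ V)
    (hBO : grdB (M * p) A (φ (grdQ M hat.c'.mem)) ≤ O2)
    (redO : ↥O2 →+* modularFunctionFieldFullC (ResidueField A) M)
    (hredO : ∀ (x : modularFunctionFieldBar (M * p)) (hx : x ∈ O2),
      redO ⟨x, hx⟩ = red ⟨x, hOV hx⟩)
    (Q : Place (ResidueField A) (modularFunctionFieldFullC (ResidueField A) M))
    (hvalQ : ∀ b : ↥(grdB (M * p) A (φ (grdQ M hat.c'.mem))),
      ∃ c : ResidueField A, GrdVal Q (redO ⟨b, hBO b.2⟩) c)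
    (P : Place Qb (modularFunctionFieldBar (M * p)))
    (hP : ttruCen A (grdB (M * p) A (φ (grdQ M hat.c'.mem))) (φ (grdQ M hat.c'.mem))
      (ttalN O2 (grdB (M * p) A (φ (grdQ M hat.c'.mem))) hBO redO Q) P) :
    ttrpR M p A φ hφ r P = Q := by
  have hP₀ := ttrgl_res_inChart hφ _ P hP
  have hrel := ttrgl_rel_of_cen hφ H O2 hOV hBO redO hredO Q hvalQ P hP
  obtain ⟨Q', -, hQ'uniq⟩ := grd_rel_exists M A hℓM hA hat.c' (ttrpRes M p φ hφ P) hP₀
  have h1 := hQ'uniq _ ((grd_isRed_rel M A hℓM hA hat r hr _).2 hP₀)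
  have h2 := hQ'uniq _ hrel
  unfold ttrpR
  rw [h1, h2]

/-- **a GOOD place of the first chart is centred at `𝔫_{ttrpR P}`** (helper6's `ttrp_rel`). -/
theorem ttrgl_cen_of_good (hℓM : ¬ ℓ ∣ M) (hA : A.LiesOverPrime ℓ) (hat : GrdAtlas M A τ τ')
    (r : Place Qb (modularFunctionFieldBar M) →
      Place (ResidueField A) (modularFunctionFieldFullC (ResidueField A) M))
    (hr : GrdIsRed M A hat.c.mem hat.c'.mem r)
    (hφ : φ.toRingHom.IsIntegral) (H : TtrpChart M p A φ hat.c.mem V red v)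
    (O2 : Subring (modularFunctionFieldBar (M * p))) (hOV : O2 ≤ V)
    (hBO : grdB (M * p) A (φ (grdQ M hat.c.mem)) ≤ O2)
    (redO : ↥O2 →+* modularFunctionFieldFullC (ResidueField A) M)
    (hredO : ∀ (x : modularFunctionFieldBar (M * p)) (hx : x ∈ O2),
      redO ⟨x, hx⟩ = red ⟨x, hOV hx⟩)
    (P : Place Qb (modularFunctionFieldBar (M * p)))
    (hP : TtrpGoodC M p A (φ (grdQ M hat.c.mem)) v P) :
    ttruCen A (grdB (M * p) A (φ (grdQ M hat.c.mem))) (φ (grdQ M hat.c.mem))
      (ttalN O2 (grdB (M * p) A (φ (grdQ M hat.c.mem))) hBO redO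
        (ttrpR M p A φ hφ r P)) P := by
  refine ttal_cen_of_rel O2 _ hBO redO _ _ P hP.1 fun b => ?_
  obtain ⟨a, ha⟩ := ttrp_val_exists (M * p) A _ P hP.1 b.2
  refine ⟨a, ha, ?_⟩
  rw [hredO]
  exact ttrp_rel_r hℓM hA hat r hr hφ H P hP b b.2 a ha

end CenR

end Fermat.Agent.TT
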