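import Fermat.Agent.TT.Geom.IntoInstAdapt
import Fermat.Agent.TT.Alpha.IntoBad

/-!
# PROGRAM TT (S33), leaf (RED2) : the ASSEMBLY GLUE of the field `into` (prefix `ttrgl`)

Owner: helper1 (TT-PM R37).  Namespace `Fermat.Agent.TT`.

ABSTRACT part.  `r_j : Place K F → Place k F_j` the CONCRETE reduction maps of places (at the
instance: helper6's `ttrpR … α/β … r`), `Cen_j Q v` a family of centre predicates ("the place `v`
of `F / K` is centred at the closed point below the place `Q` of the component `j`"; at the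
instance: helper29's intrinsic centres `ttruCen A B u (ttalN …)`), COMPATIBLE with `r_j` :
`Cen_j Q v → r_j v = Q`.  Then with

  `T_j v := ∃ Q, (∀ i, ν_j i ≠ Q) ∧ Cen_j Q v`       (`ttrglT`)

one has `T_j v ∧ r_j v = Q ↔ Cen_j Q v` at every non-node `Q` (`ttrgl_cen_iff`), so that local
packages `TtriPt … (Cen_j Q) Q` at the non-node points are the hypothesis `hpt_j` of `ttri_into`
(`ttrgl_hpt`), `hrν_j` holds by construction (`ttrgl_hrν`), and the field `into` of `TtgModel`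
follows VERBATIM, for the class map `ttalCls T₁' T₂' r₁ r₂` of ANY good loci `T_j'` whose places
are centred at the non-node point `r_j v` (`ttrgl_into`, one call of helper24's
`ttg_into_of_ttri'`).
-/

set_option autoImplicit false
set_option linter.unusedSectionVars false
set_option linter.unusedVariables false

noncomputable section

namespace Fermat.Agent.TT

open AlgebraicCurve IsLocalRing Classical Fermat.Agent.G Fermat.Agent.S24 Fermat.Agent.FF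

section Abs

variable {K : Type*} [Field K] {A : ValuationSubring K} {F : Type*} [Field F] [Algebra K F]
variable {Fk : Type*} [Field Fk] [Algebra (ResidueField A) Fk]
variable {ι : Type*}

/-- the places of `F / K` centred at a NON-NODE closed point of the component. -/
def ttrglT (ν : ι → Place (ResidueField A) Fk)
    (Cen : Place (ResidueField A) Fk → Place K F → Prop) (v : Place K F) : Prop :=
  ∃ Q, (∀ i, ν i ≠ Q) ∧ Cen Q v

variable {ν : ι → Place (ResidueField A) Fk}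
  {Cen : Place (ResidueField A) Fk → Place K F → Prop}
  {r : Place K F → Place (ResidueField A) Fk}

/-- at a non-node point the disc `{T ∧ r = Q}` is the set of places centred at `Q`. -/
theorem ttrgl_cen_iff (hCr : ∀ Q v, Cen Q v → r v = Q) {Q : Place (ResidueField A) Fk}
    (hQ : ∀ i, ν i ≠ Q) (v : Place K F) : (ttrglT ν Cen v ∧ r v = Q) ↔ Cen Q v := by
  constructor
  · rintro ⟨⟨Q', -, hQ'⟩, hr⟩
    have h1 := hCr Q' v hQ'
    rw [hr] at h1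
    rw [h1]
    exact hQ'
  · intro h
    exact ⟨⟨Q, hQ, h⟩, hCr Q v h⟩

/-- `hrν` of `ttri_into` holds by construction. -/
theorem ttrgl_hrν (hCr : ∀ Q v, Cen Q v → r v = Q) (v : Place K F) (i : ι)
    (hv : ttrglT ν Cen v) : r v ≠ ν i := by
  obtain ⟨Q, hQ, hQv⟩ := hv
  rw [hCr Q v hQv]
  exact fun h => hQ i h.symm

/-- the good places are in `T`. -/
theorem ttrgl_hsub {T' : Place K F → Prop}
    (hgood : ∀ v, T' v → (∀ i, ν i ≠ r v) ∧ Cen (r v) v) (v : Place K F) (hv : T' v) :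
    ttrglT ν Cen v :=
  ⟨r v, (hgood v hv).1, (hgood v hv).2⟩

/-- **the hypothesis `hpt` of `ttri_into`** from local packages at the non-node points. -/
theorem ttrgl_hpt (O2 : Subring F) (red : O2 →+* Fk) (hCr : ∀ Q v, Cen Q v → r v = Q)
    (hpk : ∀ Q : Place (ResidueField A) Fk, (∀ i, ν i ≠ Q) →
      ∃ (B : Subring F) (hBO : B ≤ O2), TtriPt A O2 B hBO red (Cen Q) Q)
    (Q : Place (ResidueField A) Fk) :
    (∃ i, ν i = Q) ∨ ∃ (B : Subring F) (hBO : B ≤ O2),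
      TtriPt A O2 B hBO red (fun v => ttrglT ν Cen v ∧ r v = Q) Q := by
  by_cases hQ : ∃ i, ν i = Q
  · exact Or.inl hQ
  · right
    have hQ' : ∀ i, ν i ≠ Q := fun i h => hQ ⟨i, h⟩
    obtain ⟨B, hBO, hpt⟩ := hpk Q hQ'
    exact ⟨B, hBO, ttal_pt_congr_cen hpt fun v => ttrgl_cen_iff hCr hQ' v⟩

end Abs

section Into

variable {K : Type*} [Field K] {A : ValuationSubring K} {F : Type*} [Field F] [Algebra K F]
variable {F₁ F₂ : Type*} [Field F₁] [Field F₂] [Algebra (ResidueField A) F₁]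
  [Algebra (ResidueField A) F₂]
variable {ι : Type*}

/-- **THE FIELD `into` OF `TtgModel`, VERBATIM, FROM CENTRES.**
* `r_j` the concrete reductions of places, `Cen_j` centre predicates with `Cen_j Q v → r_j v = Q`;
* `hcross` : a place centred on BOTH components is centred at a node;
* `hgood_j` : a place of the good locus `T_j'` is centred at the non-node point `r_j v`;
* `hcenN` : the places centred at a node are bad;
* `hpk_j` : the local package at every non-node point; `hN` : the node packages.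
The class map is `ttalCls T₁' T₂' r₁ r₂` (`= ttrpCls` by `rfl` at the instance). -/
theorem ttrgl_into [Fintype ι] (V₁ V₂ : ValuationSubring F)
    (red₁ : ↥V₁.toSubring →+* F₁) (red₂ : ↥V₂.toSubring →+* F₂)
    (r₁ : Place K F → Place (ResidueField A) F₁)
    (r₂ : Place K F → Place (ResidueField A) F₂)
    (ν₁ : ι → Place (ResidueField A) F₁) (ν₂ : ι → Place (ResidueField A) F₂)
    (Cen₁ : Place (ResidueField A) F₁ → Place K F → Prop)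
    (Cen₂ : Place (ResidueField A) F₂ → Place K F → Prop)
    (hCr₁ : ∀ Q v, Cen₁ Q v → r₁ v = Q) (hCr₂ : ∀ Q v, Cen₂ Q v → r₂ v = Q)
    (hcross : ∀ Q Q' v, Cen₁ Q v → Cen₂ Q' v → ∃ i, ν₁ i = Q)
    (T₁' T₂' : Place K F → Prop)
    (hgood₁ : ∀ v, T₁' v → (∀ i, ν₁ i ≠ r₁ v) ∧ Cen₁ (r₁ v) v)
    (hgood₂ : ∀ v, T₂' v → (∀ i, ν₂ i ≠ r₂ v) ∧ Cen₂ (r₂ v) v)
    (cenN : ι → Place K F → Prop) (hcenN : ∀ i v, cenN i v → ¬ T₁' v ∧ ¬ T₂' v)
    (hpk₁ : ∀ Q : Place (ResidueField A) F₁, (∀ i, ν₁ i ≠ Q) →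
      ∃ (B : Subring F) (hBO : B ≤ V₁.toSubring ⊓ V₂.toSubring),
        TtriPt A (V₁.toSubring ⊓ V₂.toSubring) B hBO (ttalRedO₁ red₁) (Cen₁ Q) Q)
    (hpk₂ : ∀ Q : Place (ResidueField A) F₂, (∀ i, ν₂ i ≠ Q) →
      ∃ (B : Subring F) (hBO : B ≤ V₁.toSubring ⊓ V₂.toSubring),
        TtriPt A (V₁.toSubring ⊓ V₂.toSubring) B hBO (ttalRedO₂ red₂) (Cen₂ Q) Q)
    (hN : ∀ i, ∃ (B : Subring F) (hBO : B ≤ V₁.toSubring ⊓ V₂.toSubring),
      (∀ x ∈ V₁.toSubring ⊓ V₂.toSubring, (∀ v, cenN i v → x ∈ v.toValuationSubring) →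
        ∃ s : B, ¬ GrdVal (ν₁ i) (ttalRedO₁ (V₂ := V₂) red₁ ⟨s, hBO s.2⟩) 0 ∧ (s : F) * x ∈ B) ∧
      ∀ b : B, ∃ c : ResidueField A,
        GrdVal (ν₁ i) (ttalRedO₁ (V₂ := V₂) red₁ ⟨b, hBO b.2⟩) c ∧
          GrdVal (ν₂ i) (ttalRedO₂ (V₁ := V₁) red₂ ⟨b, hBO b.2⟩) c) :
    ∀ D : Divisor K F, (∀ P, D P ≠ 0 → ttalCls T₁' T₂' r₁ r₂ P ≠ none) → (∀ P, -1 ≤ D P) →
      (∀ P P' : Place K F, ttalCls T₁' T₂' r₁ r₂ P = ttalCls T₁' T₂' r₁ r₂ P' →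
        D P < 0 → D P' < 0 → P = P') →
      ∀ (x : F) (h₁ : x ∈ V₁) (h₂ : x ∈ V₂), x ∈ riemannRochSpace D →
        (red₁ ⟨x, h₁⟩, red₂ ⟨x, h₂⟩) ∈
          ttnkL ν₁ ν₂ (ttgPush₁ (ttalCls T₁' T₂' r₁ r₂) D)
            (ttgPush₂ (ttalCls T₁' T₂' r₁ r₂) D) := by
  refine ttg_into_of_ttri' V₁ V₂ red₁ red₂ (ttrglT ν₁ Cen₁) (ttrglT ν₂ Cen₂) ?_ T₁' T₂'
    (ttrgl_hsub hgood₁) (ttrgl_hsub hgood₂) r₁ r₂ ν₁ ν₂ cenN hcenN
    (ttrgl_hpt _ _ hCr₁ hpk₁) (ttrgl_hpt _ _ hCr₂ hpk₂) hN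
    (fun v i hv => ttrgl_hrν hCr₁ v i hv) (fun v i hv => ttrgl_hrν hCr₂ v i hv)
  rintro v ⟨Q, hQ, hQv⟩ ⟨Q', -, hQ'v⟩
  obtain ⟨i, hi⟩ := hcross Q Q' v hQv hQ'v
  exact hQ i hi

/-- **THE FIELD `into` OF `TtgModel`, VERBATIM, FROM CENTRES — MIXED FORM** (helper23's review):
instead of `hcross` only the two mixed statements `hmix12 : Cen₁ Q v → ¬ T₂' v`,
`hmix21 : Cen₂ Q v → ¬ T₁' v` (a place centred on one component is not a good place of the other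
kind); one call of helper24's `ttg_into_of_ttri_mixed`. -/
theorem ttrgl_into_mixed [Fintype ι] (V₁ V₂ : ValuationSubring F)
    (red₁ : ↥V₁.toSubring →+* F₁) (red₂ : ↥V₂.toSubring →+* F₂)
    (r₁ : Place K F → Place (ResidueField A) F₁)
    (r₂ : Place K F → Place (ResidueField A) F₂)
    (ν₁ : ι → Place (ResidueField A) F₁) (ν₂ : ι → Place (ResidueField A) F₂)
    (Cen₁ : Place (ResidueField A) F₁ → Place K F → Prop)
    (Cen₂ : Place (ResidueField A) F₂ → Place K F → Prop)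
    (hCr₁ : ∀ Q v, Cen₁ Q v → r₁ v = Q) (hCr₂ : ∀ Q v, Cen₂ Q v → r₂ v = Q)
    (T₁' T₂' : Place K F → Prop)
    (hmix12 : ∀ Q v, Cen₁ Q v → ¬ T₂' v) (hmix21 : ∀ Q v, Cen₂ Q v → ¬ T₁' v)
    (hgood₁ : ∀ v, T₁' v → (∀ i, ν₁ i ≠ r₁ v) ∧ Cen₁ (r₁ v) v)
    (hgood₂ : ∀ v, T₂' v → (∀ i, ν₂ i ≠ r₂ v) ∧ Cen₂ (r₂ v) v)
    (cenN : ι → Place K F → Prop) (hcenN : ∀ i v, cenN i v → ¬ T₁' v ∧ ¬ T₂' v)
    (hpk₁ : ∀ Q : Place (ResidueField A) F₁, (∀ i, ν₁ i ≠ Q) →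
      ∃ (B : Subring F) (hBO : B ≤ V₁.toSubring ⊓ V₂.toSubring),
        TtriPt A (V₁.toSubring ⊓ V₂.toSubring) B hBO (ttalRedO₁ red₁) (Cen₁ Q) Q)
    (hpk₂ : ∀ Q : Place (ResidueField A) F₂, (∀ i, ν₂ i ≠ Q) →
      ∃ (B : Subring F) (hBO : B ≤ V₁.toSubring ⊓ V₂.toSubring),
        TtriPt A (V₁.toSubring ⊓ V₂.toSubring) B hBO (ttalRedO₂ red₂) (Cen₂ Q) Q)
    (hN : ∀ i, ∃ (B : Subring F) (hBO : B ≤ V₁.toSubring ⊓ V₂.toSubring),
      (∀ x ∈ V₁.toSubring ⊓ V₂.toSubring, (∀ v, cenN i v → x ∈ v.toValuationSubring) →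
        ∃ s : B, ¬ GrdVal (ν₁ i) (ttalRedO₁ (V₂ := V₂) red₁ ⟨s, hBO s.2⟩) 0 ∧ (s : F) * x ∈ B) ∧
      ∀ b : B, ∃ c : ResidueField A,
        GrdVal (ν₁ i) (ttalRedO₁ (V₂ := V₂) red₁ ⟨b, hBO b.2⟩) c ∧
          GrdVal (ν₂ i) (ttalRedO₂ (V₁ := V₁) red₂ ⟨b, hBO b.2⟩) c) :
    ∀ D : Divisor K F, (∀ P, D P ≠ 0 → ttalCls T₁' T₂' r₁ r₂ P ≠ none) → (∀ P, -1 ≤ D P) →
      (∀ P P' : Place K F, ttalCls T₁' T₂' r₁ r₂ P = ttalCls T₁' T₂' r₁ r₂ P' →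
        D P < 0 → D P' < 0 → P = P') →
      ∀ (x : F) (h₁ : x ∈ V₁) (h₂ : x ∈ V₂), x ∈ riemannRochSpace D →
        (red₁ ⟨x, h₁⟩, red₂ ⟨x, h₂⟩) ∈
          ttnkL ν₁ ν₂ (ttgPush₁ (ttalCls T₁' T₂' r₁ r₂) D)
            (ttgPush₂ (ttalCls T₁' T₂' r₁ r₂) D) :=
  ttg_into_of_ttri_mixed V₁ V₂ red₁ red₂ (ttrglT ν₁ Cen₁) (ttrglT ν₂ Cen₂) T₁' T₂'
    (ttrgl_hsub hgood₁) (ttrgl_hsub hgood₂)
    (fun v hv h2 => by obtain ⟨Q, -, hQv⟩ := hv; exact hmix12 Q v hQv h2)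
    (fun v hv h1 => by obtain ⟨Q, -, hQv⟩ := hv; exact hmix21 Q v hQv h1)
    r₁ r₂ ν₁ ν₂ cenN hcenN
    (ttrgl_hpt _ _ hCr₁ hpk₁) (ttrgl_hpt _ _ hCr₂ hpk₂) hN
    (fun v i hv => ttrgl_hrν hCr₁ v i hv) (fun v i hv => ttrgl_hrν hCr₂ v i hv)

end Into

end Fermat.Agent.TT
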