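import Mathlib
import Fermat.Agent.TT.Red2.Red2J

/-!
# PROGRAM TT (S33), leaf (RED2) : ALL PRIMES `p ≠ 2` (`ttra_red2_all_of_h`)

Owner: helper2.  Namespace `Fermat.Agent.TT`, prefix `ttra`.

The hypothesis `hRed` of `ttp_s33_of_red2` (TT/P0/Close.lean) from :
* `p ≥ 5` : `ttra_red2_j_closed` (Red2J.lean, hypothesis-free);
* `p = 3` : the statement `h3` (Red2H.lean, helper4), taken here as a hypothesis.
-/

set_option autoImplicit false
set_option linter.unusedSectionVars false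
set_option linter.unusedVariables false
set_option linter.style.haveILetI false

noncomputable section

namespace Fermat.Agent.TT

open Fermat.Agent.FF

/-- **LEAF (RED2) for every odd prime**, from its `p = 3` instance. -/
theorem ttra_red2_all_of_h {p : ℕ} (hp : p.Prime) (hp2 : p ≠ 2)
    (h3 : ∀ (M : ℕ) [NeZero M] [NeZero (M * 3)], ¬ 3 ∣ M → 2 ∣ M →
      ∀ 𝔸 : ValuationSubring FfQb, 𝔸.LiesOverPrime 3 → TtgRed2Spec M 3 𝔸) :
    ∀ (M : ℕ) [NeZero M] [NeZero (M * p)], ¬ p ∣ M → (5 ≤ p ∨ (5 - p) ∣ M) →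
      ∀ 𝔸 : ValuationSubring FfQb, 𝔸.LiesOverPrime p → TtgRed2Spec M p 𝔸 := by
  intro M _ _ hpM hgood 𝔸 h𝔸
  haveI : Fact p.Prime := ⟨hp⟩
  haveI : NeZero p := ⟨hp.ne_zero⟩
  by_cases h5 : 5 ≤ p
  · exact ttra_red2_j_closed M 𝔸 hpM h𝔸 h5
  · have hp3 : p = 3 := by
      have h2 : 2 ≤ p := hp.two_le
      have hlt : p < 5 := not_le.mp h5
      interval_cases p
      · exact absurd rfl hp2
      · rfl
      · exact absurd hp (by decide)
    subst hp3
    have h2M : 2 ∣ M := by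
      rcases hgood with h | h
      · exact absurd h h5
      · exact h
    exact h3 M hpM h2M 𝔸 h𝔸

end Fermat.Agent.TT
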